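import Fermat.Agent.S27.h68_RRFull

/-!
# S27 / RR-FULL (row 479): canonical divisor and full Riemann–Roch, any characteristic

Exports of the row (statement shapes of the S27 skeleton), proved from the core
`Fermat/Agent/S27/h68_RRFull.lean`:

* `h15_exists_canonical` : there is `W` with `l(D) = deg D + 1 - g + l(W - D)` for all `D`
  (and all `L(D)` finite-dimensional);
* `h15_finrank_rr_of_deg` : `l(D) = deg D + 1 - g` for `deg D > 2g - 2`;
* `h15_canonical_deg`, `h15_canonical_finrank` : `deg W = 2g - 2`, `l(W) = g`;
* `h15_canonical_unique` : two such `W` differ by a principal divisor.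
-/

set_option autoImplicit false

open AlgebraicCurve IntermediateField

namespace Fermat.Agent.S27

open Fermat.Agent.S18

variable {K F : Type*} [Field K] [Field F] [Algebra K F] [IsAlgClosed K]

/-- **Riemann–Roch** with a canonical divisor (any characteristic). -/
theorem h15_exists_canonical {x : F} (hx : h75_IsChart K x) :
    ∃ W : Divisor K F, ∀ D : Divisor K F, Module.Finite K (riemannRochSpace D) ∧
      (Module.finrank K (riemannRochSpace D) : ℤ) =
        Divisor.degree D + 1 - h75_genus K x + Module.finrank K (riemannRochSpace (W - D)) := by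
  obtain ⟨W, hW⟩ := h68_exists_canonical hx
  exact ⟨W, fun D => ⟨(h75_riemann hx D).1, hW D⟩⟩

/-- Riemann–Roch for `deg D > 2g - 2`. -/
theorem h15_finrank_rr_of_deg {x : F} (hx : h75_IsChart K x) (D : Divisor K F)
    (hD : 2 * (h75_genus K x : ℤ) - 2 < Divisor.degree D) :
    (Module.finrank K (riemannRochSpace D) : ℤ) = Divisor.degree D + 1 - h75_genus K x :=
  h68_finrank_rr_of_deg hx D hD

omit [IsAlgClosed K] in
/-- the hypothesis of the skeleton is `h68_IsCanonical`. -/
theorem h68_isCanonical_of {x : F} {W : Divisor K F}
    (hW : ∀ D : Divisor K F, Module.Finite K (riemannRochSpace D) ∧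
      (Module.finrank K (riemannRochSpace D) : ℤ) =
        Divisor.degree D + 1 - h75_genus K x + Module.finrank K (riemannRochSpace (W - D))) :
    h68_IsCanonical x W :=
  fun D => (hW D).2

theorem h15_canonical_deg {x : F} (hx : h75_IsChart K x) {W : Divisor K F}
    (hW : ∀ D : Divisor K F, Module.Finite K (riemannRochSpace D) ∧
      (Module.finrank K (riemannRochSpace D) : ℤ) =
        Divisor.degree D + 1 - h75_genus K x + Module.finrank K (riemannRochSpace (W - D))) :
    Divisor.degree W = 2 * (h75_genus K x : ℤ) - 2 :=
  h68_canonical_degree hx (h68_isCanonical_of hW)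

theorem h15_canonical_finrank {x : F} (hx : h75_IsChart K x) {W : Divisor K F}
    (hW : ∀ D : Divisor K F, Module.Finite K (riemannRochSpace D) ∧
      (Module.finrank K (riemannRochSpace D) : ℤ) =
        Divisor.degree D + 1 - h75_genus K x + Module.finrank K (riemannRochSpace (W - D))) :
    Module.finrank K (riemannRochSpace W) = h75_genus K x :=
  h68_canonical_finrank hx (h68_isCanonical_of hW)

/-- two canonical divisors are linearly equivalent. -/
theorem h15_canonical_unique {x : F} (hx : h75_IsChart K x) {W W' : Divisor K F}
    (hW : ∀ D : Divisor K F, Module.Finite K (riemannRochSpace D) ∧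
      (Module.finrank K (riemannRochSpace D) : ℤ) =
        Divisor.degree D + 1 - h75_genus K x + Module.finrank K (riemannRochSpace (W - D)))
    (hW' : ∀ D : Divisor K F, Module.Finite K (riemannRochSpace D) ∧
      (Module.finrank K (riemannRochSpace D) : ℤ) =
        Divisor.degree D + 1 - h75_genus K x + Module.finrank K (riemannRochSpace (W' - D))) :
    ∃ f : F, f ≠ 0 ∧ ∀ P : Place K F, W P - W' P = P.ord f :=
  h68_canonical_unique hx (h68_isCanonical_of hW) (h68_isCanonical_of hW')

end Fermat.Agent.S27
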