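/-
S27 / B6 base layer (helper57): SEMI-ACT.
Ring automorphisms `σ` of a function field `F/K` that map the constant field `K` onto itself
("semilinear automorphisms", e.g. a Frobenius structure) act on places, divisors, principal
divisors, `Pic0` and Riemann-Roch spaces.  This mirrors, line by line, the Prelude's action of
`F ≃ₐ[K] F` (`Def_AlgebraicCurve_DivisorClassGroup`), which only covers `K`-linear `σ`.
-/
import Mathlib
import Fermat.Prelude.Def_AlgebraicCurve_DivisorClassGroup
import Fermat.Prelude.Def_AlgebraicCurve_Repartitions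

set_option autoImplicit false

noncomputable section

namespace Fermat.Agent.S27

open AlgebraicCurve
open scoped Pointwise

/-- The group of ring automorphisms of `F` that map the image of `K` onto itself. -/
def h57_SemiAut (K F : Type*) [Field K] [Field F] [Algebra K F] : Subgroup (F ≃+* F) where
  carrier := {σ | (∀ c : K, ∃ d : K, σ (algebraMap K F c) = algebraMap K F d) ∧
      (∀ c : K, ∃ d : K, σ⁻¹ (algebraMap K F c) = algebraMap K F d)}
  mul_mem' := by
    rintro σ τ ⟨hσ, hσ'⟩ ⟨hτ, hτ'⟩
    refine ⟨fun c => ?_, fun c => ?_⟩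
    · obtain ⟨d, hd⟩ := hτ c
      obtain ⟨d', hd'⟩ := hσ d
      exact ⟨d', by rw [RingAut.mul_apply, hd, hd']⟩
    · obtain ⟨d, hd⟩ := hσ' c
      obtain ⟨d', hd'⟩ := hτ' d
      exact ⟨d', by rw [mul_inv_rev, RingAut.mul_apply, hd, hd']⟩
  one_mem' := ⟨fun c => ⟨c, rfl⟩, fun c => ⟨c, by rw [inv_one]; rfl⟩⟩
  inv_mem' := by
    rintro σ ⟨hσ, hσ'⟩
    exact ⟨hσ', by rwa [inv_inv]⟩

variable {K F : Type*} [Field K] [Field F] [Algebra K F]

theorem h57_mem_semiAut {σ : F ≃+* F} :
    σ ∈ h57_SemiAut K F ↔ (∀ c : K, ∃ d : K, σ (algebraMap K F c) = algebraMap K F d) ∧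
      (∀ c : K, ∃ d : K, σ.symm (algebraMap K F c) = algebraMap K F d) := Iff.rfl

/-- Criterion: a ring automorphism acting on constants through a surjective self-map of `K`. -/
theorem h57_mem_semiAut_of_map {σ : F ≃+* F} (i : K → K) (hi : Function.Surjective i)
    (h : ∀ c : K, σ (algebraMap K F c) = algebraMap K F (i c)) : σ ∈ h57_SemiAut K F := by
  refine ⟨fun c => ⟨i c, h c⟩, fun c => ?_⟩
  obtain ⟨d, rfl⟩ := hi c
  exact ⟨d, by rw [← h d]; exact σ.symm_apply_apply _⟩

theorem h57_semiAut_apply_algebraMap (σ : h57_SemiAut K F) (c : K) :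
    ∃ d : K, (σ : F ≃+* F) (algebraMap K F c) = algebraMap K F d := σ.2.1 c

theorem h57_semiAut_symm_algebraMap (σ : h57_SemiAut K F) (c : K) :
    ∃ d : K, (σ : F ≃+* F).symm (algebraMap K F c) = algebraMap K F d := σ.2.2 c

/-- The automorphism of the constant field induced by a semilinear automorphism. -/
def h57_resK (σ : h57_SemiAut K F) : K ≃+* K where
  toFun c := (h57_semiAut_apply_algebraMap σ c).choose
  invFun c := (h57_semiAut_symm_algebraMap σ c).choose
  left_inv c := by
    apply (algebraMap K F).injective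
    rw [← (h57_semiAut_symm_algebraMap σ _).choose_spec,
      ← (h57_semiAut_apply_algebraMap σ c).choose_spec]
    exact (σ : F ≃+* F).symm_apply_apply _
  right_inv c := by
    apply (algebraMap K F).injective
    rw [← (h57_semiAut_apply_algebraMap σ _).choose_spec,
      ← (h57_semiAut_symm_algebraMap σ c).choose_spec]
    exact (σ : F ≃+* F).apply_symm_apply _
  map_mul' a b := by
    apply (algebraMap K F).injective
    rw [← (h57_semiAut_apply_algebraMap σ _).choose_spec, map_mul, map_mul, map_mul,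
      ← (h57_semiAut_apply_algebraMap σ a).choose_spec,
      ← (h57_semiAut_apply_algebraMap σ b).choose_spec]
  map_add' a b := by
    apply (algebraMap K F).injective
    rw [← (h57_semiAut_apply_algebraMap σ _).choose_spec, map_add, map_add, map_add,
      ← (h57_semiAut_apply_algebraMap σ a).choose_spec,
      ← (h57_semiAut_apply_algebraMap σ b).choose_spec]

theorem h57_apply_algebraMap (σ : h57_SemiAut K F) (c : K) :
    (σ : F ≃+* F) (algebraMap K F c) = algebraMap K F (h57_resK σ c) :=
  (h57_semiAut_apply_algebraMap σ c).choose_spec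

theorem h57_symm_algebraMap (σ : h57_SemiAut K F) (c : K) :
    (σ : F ≃+* F).symm (algebraMap K F c) = algebraMap K F ((h57_resK σ).symm c) :=
  (h57_semiAut_symm_algebraMap σ c).choose_spec

theorem h57_apply_smul (σ : h57_SemiAut K F) (c : K) (f : F) :
    (σ : F ≃+* F) (c • f) = h57_resK σ c • (σ : F ≃+* F) f := by
  rw [Algebra.smul_def, Algebra.smul_def, map_mul, h57_apply_algebraMap]

theorem h57_resK_eq_of (σ : h57_SemiAut K F) (c d : K)
    (h : (σ : F ≃+* F) (algebraMap K F c) = algebraMap K F d) : h57_resK σ c = d := by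
  apply (algebraMap K F).injective
  rw [← h57_apply_algebraMap, h]

@[simp] theorem h57_coe_one_apply (f : F) : ((1 : h57_SemiAut K F) : F ≃+* F) f = f := rfl

@[simp] theorem h57_coe_mul_apply (σ τ : h57_SemiAut K F) (f : F) :
    ((σ * τ : h57_SemiAut K F) : F ≃+* F) f = (σ : F ≃+* F) ((τ : F ≃+* F) f) := rfl

@[simp] theorem h57_coe_inv_apply (σ : h57_SemiAut K F) (f : F) :
    ((σ⁻¹ : h57_SemiAut K F) : F ≃+* F) f = (σ : F ≃+* F).symm f := rfl

theorem h57_coe_pow_apply (σ : h57_SemiAut K F) (n : ℕ) (f : F) :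
    ((σ ^ n : h57_SemiAut K F) : F ≃+* F) f = (⇑(σ : F ≃+* F))^[n] f := by
  rw [Subgroup.coe_pow, RingAut.coe_pow]

/-! ### Action on places -/

/-- `σ` restricted to a valuation subring, onto its image. -/
def h57_smulRingEquiv (σ : F ≃+* F) (A : ValuationSubring F) :
    A ≃+* (σ • A : ValuationSubring F) where
  toFun x := ⟨σ x, by
    simpa using ValuationSubring.smul_mem_pointwise_smul σ (x : F) A x.2⟩
  invFun y := ⟨σ.symm y, by
    have := (ValuationSubring.mem_pointwise_smul_iff_inv_smul_mem (g := σ)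
      (S := A) (x := (y : F))).mp y.2
    simpa using this⟩
  left_inv x := by ext; simp
  right_inv y := by ext; simp
  map_mul' x y := by ext; simp
  map_add' x y := by ext; simp

@[simp]
theorem h57_coe_smulRingEquiv_apply (σ : F ≃+* F) (A : ValuationSubring F) (x : A) :
    ((h57_smulRingEquiv σ A x : (σ • A : ValuationSubring F)) : F) = σ x := rfl

theorem h57_pointwise_smul_top (σ : F ≃+* F) : σ • (⊤ : ValuationSubring F) = ⊤ := by
  ext x
  simp only [ValuationSubring.mem_pointwise_smul_iff_inv_smul_mem]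
  exact ⟨fun _ => ValuationSubring.mem_top x, fun _ => ValuationSubring.mem_top _⟩

instance h57_instSMulPlace : SMul (h57_SemiAut K F) (Place K F) where
  smul σ v :=
    { toValuationSubring := (σ : F ≃+* F) • v.toValuationSubring
      algebraMap_mem' := fun a => by
        rw [ValuationSubring.mem_pointwise_smul_iff_inv_smul_mem, RingAut.smul_def,
          RingAut.inv_apply, h57_symm_algebraMap]
        exact v.algebraMap_mem' _
      ne_top' := fun h => v.ne_top' <| by
        have := congrArg ((σ : F ≃+* F)⁻¹ • ·) h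
        simpa [h57_pointwise_smul_top] using this
      isPrincipalIdealRing' :=
        IsPrincipalIdealRing.of_surjective
          (h57_smulRingEquiv (σ : F ≃+* F) v.toValuationSubring : _ ≃+* _)
          (h57_smulRingEquiv (σ : F ≃+* F) v.toValuationSubring).surjective }

@[simp]
theorem h57_smul_toValuationSubring (σ : h57_SemiAut K F) (v : Place K F) :
    (σ • v).toValuationSubring = (σ : F ≃+* F) • v.toValuationSubring := rfl

instance h57_instMulActionPlace : MulAction (h57_SemiAut K F) (Place K F) where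
  one_smul v := by
    ext1
    rw [h57_smul_toValuationSubring, Subgroup.coe_one, one_smul]
  mul_smul σ τ v := by
    ext1
    simp only [h57_smul_toValuationSubring]
    rw [Subgroup.coe_mul, mul_smul]

theorem h57_mem_smul_place (σ : h57_SemiAut K F) (v : Place K F) (f : F) :
    f ∈ (σ • v).toValuationSubring ↔ (σ : F ≃+* F).symm f ∈ v.toValuationSubring := by
  rw [h57_smul_toValuationSubring, ValuationSubring.mem_pointwise_smul_iff_inv_smul_mem,
    RingAut.smul_def, RingAut.inv_apply]

theorem h57_apply_mem_smul_place (σ : h57_SemiAut K F) (v : Place K F) (f : F) :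
    (σ : F ≃+* F) f ∈ (σ • v).toValuationSubring ↔ f ∈ v.toValuationSubring := by
  rw [h57_mem_smul_place, RingEquiv.symm_apply_apply]

theorem h57_ord_smul (σ : h57_SemiAut K F) (v : Place K F) (f : F) :
    (σ • v).ord ((σ : F ≃+* F) f) = v.ord f := by
  rcases eq_or_ne f 0 with rfl | hf
  · simp
  obtain ⟨π, hπ⟩ := IsDiscreteValuationRing.exists_irreducible v.toValuationSubring
  obtain ⟨u, hu⟩ := v.exists_unit_mul_zpow hf hπ
  set n := v.ord f with hn
  set e := h57_smulRingEquiv (σ : F ≃+* F) v.toValuationSubring with he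
  have hπ' : Irreducible (e π) := (MulEquiv.irreducible_iff e).mpr hπ
  have hu' : IsUnit (e (u : v.toValuationSubring)) := u.isUnit.map e
  have hcoeu : ((hu'.unit : (σ • v).toValuationSubring) : F)
      = (σ : F ≃+* F) ((u : v.toValuationSubring) : F) := by
    rw [IsUnit.unit_spec]
    rfl
  have hcoeπ : ((e π : (σ • v).toValuationSubring) : F) = (σ : F ≃+* F) (π : F) := rfl
  have key : (σ : F ≃+* F) f = ((hu'.unit : (σ • v).toValuationSubring) : F)
      * (((e π : (σ • v).toValuationSubring) : F) ^ n) := by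
    rw [hcoeu, hcoeπ, hu, map_mul, map_zpow₀]
  rw [key, (σ • v).ord_unit_smul_zpow hu'.unit hπ' n]

theorem h57_ord_smul' (σ : h57_SemiAut K F) (v : Place K F) (f : F) :
    (σ • v).ord f = v.ord ((σ : F ≃+* F).symm f) := by
  rw [← h57_ord_smul σ v ((σ : F ≃+* F).symm f), RingEquiv.apply_symm_apply]

theorem h57_ord_apply (σ : h57_SemiAut K F) (v : Place K F) (f : F) :
    v.ord ((σ : F ≃+* F) f) = (σ⁻¹ • v).ord f := by
  rw [← h57_ord_smul σ (σ⁻¹ • v) f, smul_inv_smul]

/-- the residue fields of `v` and `σ • v` are isomorphic, semilinearly over `h57_resK σ` -/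
def h57_smulResidueEquiv (σ : h57_SemiAut K F) (v : Place K F) :
    v.ResidueField ≃+* (σ • v).ResidueField :=
  IsLocalRing.ResidueField.mapEquiv (h57_smulRingEquiv (σ : F ≃+* F) v.toValuationSubring)

theorem h57_smulResidueEquiv_smul (σ : h57_SemiAut K F) (v : Place K F) (a : K)
    (m : v.ResidueField) :
    h57_smulResidueEquiv σ v (a • m) = h57_resK σ a • h57_smulResidueEquiv σ v m := by
  have h3 : (h57_smulRingEquiv (σ : F ≃+* F) v.toValuationSubring)
      (algebraMap K v.toValuationSubring a)
      = algebraMap K (σ • v).toValuationSubring (h57_resK σ a) := by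
    ext
    rw [h57_coe_smulRingEquiv_apply, Place.coe_algebraMap, h57_apply_algebraMap]
    rfl
  rw [Algebra.smul_def, Algebra.smul_def, map_mul]
  congr 1
  show IsLocalRing.ResidueField.mapEquiv _ (IsLocalRing.residue _ _) = IsLocalRing.residue _ _
  rw [IsLocalRing.ResidueField.mapEquiv_apply, IsLocalRing.ResidueField.map_residue]
  exact congrArg _ h3

@[simp]
theorem h57_deg_smul (σ : h57_SemiAut K F) (v : Place K F) : (σ • v).deg = v.deg := by
  have h := rank_eq_of_equiv_equiv (h57_resK σ) (h57_smulResidueEquiv σ v).toAddEquiv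
    (h57_resK σ).bijective (h57_smulResidueEquiv_smul σ v)
  unfold Place.deg Module.finrank
  rw [h]

/-! ### Action on divisors -/

instance h57_instDistribMulActionDivisor : DistribMulAction (h57_SemiAut K F) (Divisor K F) :=
  Finsupp.comapDistribMulAction

theorem h57_smul_def (σ : h57_SemiAut K F) (D : Divisor K F) :
    σ • D = Finsupp.mapDomain (σ • ·) D := rfl

@[simp]
theorem h57_smul_single (σ : h57_SemiAut K F) (v : Place K F) (n : ℤ) :
    σ • (Finsupp.single v n : Divisor K F) = Finsupp.single (σ • v) n := by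
  rw [h57_smul_def, Finsupp.mapDomain_single]

theorem h57_smul_apply_smul (σ : h57_SemiAut K F) (D : Divisor K F) (v : Place K F) :
    (σ • D) (σ • v) = D v := by
  rw [h57_smul_def]
  exact Finsupp.mapDomain_apply (MulAction.injective σ) D v

theorem h57_smul_apply (σ : h57_SemiAut K F) (D : Divisor K F) (w : Place K F) :
    (σ • D) w = D (σ⁻¹ • w) := by
  have : (σ • D) (σ • (σ⁻¹ • w)) = D (σ⁻¹ • w) := h57_smul_apply_smul σ D (σ⁻¹ • w)
  rwa [smul_inv_smul] at this

@[simp]
theorem h57_degree_smul (σ : h57_SemiAut K F) (D : Divisor K F) :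
    Divisor.degree (σ • D) = Divisor.degree D := by
  induction D using Finsupp.induction with
  | zero => simp
  | single_add v n D _ _ ih =>
      rw [smul_add, map_add, map_add, ih, h57_smul_single, Divisor.degree_single,
        Divisor.degree_single, h57_deg_smul]

theorem h57_smul_mem_degZero (σ : h57_SemiAut K F) {D : Divisor K F}
    (hD : D ∈ Divisor.degZero (K := K) (F := F)) :
    σ • D ∈ Divisor.degZero (K := K) (F := F) := by
  rwa [Divisor.mem_degZero, h57_degree_smul]

/-- `σ • div f = div (σ f)` -/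
theorem h57_smul_div (σ : h57_SemiAut K F) {D : Divisor K F} {f : F}
    (hD : ∀ v : Place K F, D v = v.ord f) (w : Place K F) :
    (σ • D) w = w.ord ((σ : F ≃+* F) f) := by
  rw [h57_smul_apply, hD (σ⁻¹ • w), h57_ord_apply]

theorem h57_smul_mem_principal (σ : h57_SemiAut K F) {D : Divisor K F}
    (hD : D ∈ Divisor.principal (K := K) (F := F)) :
    σ • D ∈ Divisor.principal (K := K) (F := F) := by
  obtain ⟨f, hf, hD⟩ := hD
  exact ⟨(σ : F ≃+* F) f, by simpa using hf, h57_smul_div σ hD⟩

theorem h57_smul_mem_principal_iff (σ : h57_SemiAut K F) {D : Divisor K F} :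
    σ • D ∈ Divisor.principal (K := K) (F := F) ↔ D ∈ Divisor.principal (K := K) (F := F) := by
  refine ⟨fun h => ?_, h57_smul_mem_principal σ⟩
  have := h57_smul_mem_principal σ⁻¹ h
  rwa [inv_smul_smul] at this

theorem h57_smul_le_smul_iff (σ : h57_SemiAut K F) {D E : Divisor K F} :
    σ • D ≤ σ • E ↔ D ≤ E := by
  rw [Finsupp.le_def, Finsupp.le_def]
  constructor
  · intro h v
    have := h (σ • v)
    rwa [h57_smul_apply_smul, h57_smul_apply_smul] at this
  · intro h w
    rw [h57_smul_apply, h57_smul_apply]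
    exact h _

theorem h57_smul_nonneg_iff (σ : h57_SemiAut K F) {D : Divisor K F} :
    0 ≤ σ • D ↔ 0 ≤ D := by
  have := h57_smul_le_smul_iff σ (D := 0) (E := D)
  rwa [smul_zero] at this

theorem h57_smul_eq_iff_forall (σ : h57_SemiAut K F) {D : Divisor K F} :
    σ • D = D ↔ ∀ v : Place K F, D (σ • v) = D v := by
  constructor
  · intro h v
    conv_lhs => rw [← h]
    exact h57_smul_apply_smul σ D v
  · intro h
    ext w
    rw [h57_smul_apply, ← h (σ⁻¹ • w), smul_inv_smul]

/-! ### Action on `Pic0` -/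

/-- the action of `σ` on degree-zero divisors, as an additive map -/
def h57_degZeroSMulHom (σ : h57_SemiAut K F) :
    Divisor.degZero (K := K) (F := F) →+ Divisor.degZero (K := K) (F := F) :=
  ((DistribSMul.toAddMonoidHom (Divisor K F) σ).domRestrict
    (Divisor.degZero (K := K) (F := F))).codRestrict _
    (fun D => h57_smul_mem_degZero σ D.2)

@[simp]
theorem h57_coe_degZeroSMulHom (σ : h57_SemiAut K F) (D : Divisor.degZero (K := K) (F := F)) :
    (h57_degZeroSMulHom σ D : Divisor K F) = σ • (D : Divisor K F) := rfl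

instance h57_instSMulPic0 : SMul (h57_SemiAut K F) (Pic0 K F) where
  smul σ := QuotientAddGroup.map _ _ (h57_degZeroSMulHom σ) (by
    rintro ⟨D, hD0⟩ hD
    simp only [AddSubgroup.mem_addSubgroupOf] at hD ⊢
    exact h57_smul_mem_principal σ hD)

theorem h57_smul_mk (σ : h57_SemiAut K F) (D : Divisor.degZero (K := K) (F := F)) :
    σ • (Pic0.mk D) = Pic0.mk (h57_degZeroSMulHom σ D) := rfl

instance h57_instDistribMulActionPic0 : DistribMulAction (h57_SemiAut K F) (Pic0 K F) where
  one_smul x := by
    obtain ⟨D, rfl⟩ := Pic0.mk_surjective x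
    rw [h57_smul_mk]
    exact congrArg Pic0.mk (Subtype.ext (by rw [h57_coe_degZeroSMulHom, one_smul]))
  mul_smul σ τ x := by
    obtain ⟨D, rfl⟩ := Pic0.mk_surjective x
    rw [h57_smul_mk, h57_smul_mk, h57_smul_mk]
    exact congrArg Pic0.mk (Subtype.ext (by simp only [h57_coe_degZeroSMulHom]; rw [mul_smul]))
  smul_zero σ := by
    show σ • Pic0.mk 0 = Pic0.mk 0
    rw [h57_smul_mk]
    exact congrArg Pic0.mk (map_zero _)
  smul_add σ x y := by
    obtain ⟨D, rfl⟩ := Pic0.mk_surjective x
    obtain ⟨E, rfl⟩ := Pic0.mk_surjective y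
    show σ • Pic0.mk (D + E) = Pic0.mk (h57_degZeroSMulHom σ D) + Pic0.mk (h57_degZeroSMulHom σ E)
    rw [h57_smul_mk]
    exact congrArg Pic0.mk (map_add _ _ _)

/-- two degree-zero divisors have the same class iff their difference is principal -/
theorem h57_mk_eq_mk_iff (D E : Divisor.degZero (K := K) (F := F)) :
    Pic0.mk D = Pic0.mk E ↔
      (E : Divisor K F) - (D : Divisor K F) ∈ Divisor.principal (K := K) (F := F) := by
  unfold Pic0.mk
  rw [QuotientAddGroup.eq, AddSubgroup.mem_addSubgroupOf]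
  have : ((-D + E : Divisor.degZero (K := K) (F := F)) : Divisor K F)
      = (E : Divisor K F) - (D : Divisor K F) := by
    push_cast
    abel
  rw [this]

/-- the class of `D` is `σ`-fixed iff `σ • D - D` is principal -/
theorem h57_smul_mk_eq_iff (σ : h57_SemiAut K F) (D : Divisor.degZero (K := K) (F := F)) :
    σ • (Pic0.mk D) = Pic0.mk D ↔
      σ • (D : Divisor K F) - (D : Divisor K F) ∈ Divisor.principal (K := K) (F := F) := by
  rw [h57_smul_mk, h57_mk_eq_mk_iff, h57_coe_degZeroSMulHom, ← neg_sub,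
    AddSubgroup.neg_mem_iff]

/-! ### Action on Riemann-Roch spaces -/

theorem h57_mem_rr_smul (σ : h57_SemiAut K F) (D : Divisor K F) (f : F) :
    (σ : F ≃+* F) f ∈ riemannRochSpace (σ • D) ↔ f ∈ riemannRochSpace D := by
  rw [mem_riemannRochSpace_iff, mem_riemannRochSpace_iff]
  constructor
  · intro h v
    have := h (σ • v)
    rwa [h57_smul_apply_smul, h57_ord_smul, map_eq_zero_iff _ (σ : F ≃+* F).injective] at this
  · intro h w
    have := h (σ⁻¹ • w)
    rwa [h57_smul_apply, h57_ord_apply, map_eq_zero_iff _ (σ : F ≃+* F).injective]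

/-- `σ` as an additive equivalence `L(D) ≃ L(σ • D)` (semilinear over `h57_resK σ`) -/
def h57_rrEquiv (σ : h57_SemiAut K F) (D : Divisor K F) :
    riemannRochSpace D ≃+ riemannRochSpace (σ • D) where
  toFun f := ⟨(σ : F ≃+* F) f, (h57_mem_rr_smul σ D f).mpr f.2⟩
  invFun f := ⟨(σ : F ≃+* F).symm f,
    (h57_mem_rr_smul σ D _).mp (by rw [RingEquiv.apply_symm_apply]; exact f.2)⟩
  left_inv f := by ext; simp
  right_inv f := by ext; simp
  map_add' f g := by ext; simp

@[simp]
theorem h57_coe_rrEquiv (σ : h57_SemiAut K F) (D : Divisor K F) (f : riemannRochSpace D) :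
    ((h57_rrEquiv σ D f : riemannRochSpace (σ • D)) : F) = (σ : F ≃+* F) (f : F) := rfl

theorem h57_rrEquiv_smul (σ : h57_SemiAut K F) (D : Divisor K F) (c : K)
    (f : riemannRochSpace D) :
    h57_rrEquiv σ D (c • f) = h57_resK σ c • h57_rrEquiv σ D f := by
  ext
  simp [h57_apply_smul]

theorem h57_rank_rr_smul (σ : h57_SemiAut K F) (D : Divisor K F) :
    Module.rank K (riemannRochSpace (σ • D)) = Module.rank K (riemannRochSpace D) :=
  (rank_eq_of_equiv_equiv (h57_resK σ) (h57_rrEquiv σ D) (h57_resK σ).bijective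
    (h57_rrEquiv_smul σ D)).symm

theorem h57_finrank_rr_smul (σ : h57_SemiAut K F) (D : Divisor K F) :
    Module.finrank K (riemannRochSpace (σ • D)) = Module.finrank K (riemannRochSpace D) := by
  unfold Module.finrank
  rw [h57_rank_rr_smul]

/-! ### Frobenius structures -/

/-- `σ` is a `q`-Frobenius structure: it acts on the constants by `c ↦ c ^ q`. -/
def h57_IsFrob (q : ℕ) (σ : h57_SemiAut K F) : Prop :=
  ∀ c : K, (σ : F ≃+* F) (algebraMap K F c) = algebraMap K F (c ^ q)

theorem h57_IsFrob.resK {q : ℕ} {σ : h57_SemiAut K F} (h : h57_IsFrob q σ) (c : K) :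
    h57_resK σ c = c ^ q := h57_resK_eq_of σ c _ (h c)

theorem h57_IsFrob.apply_smul {q : ℕ} {σ : h57_SemiAut K F} (h : h57_IsFrob q σ) (c : K)
    (f : F) : (σ : F ≃+* F) (c • f) = c ^ q • (σ : F ≃+* F) f := by
  rw [h57_apply_smul, h.resK]

theorem h57_isFrob_one : h57_IsFrob 1 (1 : h57_SemiAut K F) := fun c => by simp

theorem h57_IsFrob.mul {q q' : ℕ} {σ τ : h57_SemiAut K F} (h : h57_IsFrob q σ)
    (h' : h57_IsFrob q' τ) : h57_IsFrob (q' * q) (σ * τ) := fun c => by
  rw [h57_coe_mul_apply, h' c, h (c ^ q'), pow_mul]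

theorem h57_IsFrob.pow {q : ℕ} {σ : h57_SemiAut K F} (h : h57_IsFrob q σ) (r : ℕ) :
    h57_IsFrob (q ^ r) (σ ^ r) := by
  induction r with
  | zero => simpa using h57_isFrob_one (K := K) (F := F)
  | succ r ih =>
    have := ih.mul h
    rwa [← pow_succ, mul_comm, ← pow_succ] at this

/-- a ring automorphism of `F` acting on `K` by the `q`-power map (assumed surjective on `K`)
is a semilinear automorphism -/
def h57_SemiAut.ofFrob (σ : F ≃+* F) (q : ℕ) (hq : Function.Surjective (fun c : K => c ^ q))
    (h : ∀ c : K, σ (algebraMap K F c) = algebraMap K F (c ^ q)) : h57_SemiAut K F :=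
  ⟨σ, h57_mem_semiAut_of_map (fun c => c ^ q) hq h⟩

theorem h57_SemiAut.isFrob_ofFrob (σ : F ≃+* F) (q : ℕ)
    (hq : Function.Surjective (fun c : K => c ^ q))
    (h : ∀ c : K, σ (algebraMap K F c) = algebraMap K F (c ^ q)) :
    h57_IsFrob q (h57_SemiAut.ofFrob σ q hq h) := h

end Fermat.Agent.S27
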