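import Fermat.Agent.S18.GR_ChartPt
import Fermat.Agent.S27.h57_SemiAct

/-!
# S27 / B8b EV (helper92): evaluation of functions at places and at divisors

`h39_Val P f b` ("`f(P) = b`", S18) is the relation; here the total functions

* `h92_ev P f : K` : the value `f(P)` (junk value `0` if `f` has no value at `P`);
* `h92_evDiv f E : K` : `f(E) = ∏_P f(P) ^ E(P)` (`zpow` in `K`),

with their algebra (multiplicativity in `f` and in `E`, constants, `zsmul`), and the behaviour
under a semilinear automorphism `σ`: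
`h92_ev (σ • P) (σ f) = h57_resK σ (h92_ev P f)`, `h92_evDiv (σ f) (σ • E) = h57_resK σ (f(E))`;
for a Frobenius structure (`h57_IsFrob q σ`) this is `f(E) ^ q`, so `f(E)` lies in `𝔽_q` when
`f` and `E` are `σ`-invariant (`h92_evDiv_fixed`).
-/

set_option autoImplicit false

open AlgebraicCurve IntermediateField

namespace Fermat.Agent.S27

open Fermat.Agent.S18
open Fermat.Agent.S24 (h35_mem_iff_ord_nonneg)

variable {K F : Type*} [Field K] [Field F] [Algebra K F]

/-! ### the value at a place -/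

open scoped Classical in
/-- the value `f(P)`: the unique `b` with `h39_Val P f b`, and `0` if there is none. -/
noncomputable def h92_ev (P : Place K F) (f : F) : K :=
  if h : ∃ b : K, h39_Val P f b then h.choose else 0

theorem h92_ev_eq {P : Place K F} {f : F} {b : K} (h : h39_Val P f b) : h92_ev P f = b := by
  classical
  have hex : ∃ b : K, h39_Val P f b := ⟨b, h⟩
  unfold h92_ev
  rw [dif_pos hex]
  exact h39_val_unique P hex.choose_spec h

theorem h92_ev_of_not {P : Place K F} {f : F} (h : ¬ ∃ b : K, h39_Val P f b) :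
    h92_ev P f = 0 := by
  classical
  unfold h92_ev
  rw [dif_neg h]

@[simp]
theorem h92_ev_algebraMap (P : Place K F) (c : K) : h92_ev P (algebraMap K F c) = c :=
  h92_ev_eq (h39_val_algebraMap P c)

@[simp]
theorem h92_ev_zero (P : Place K F) : h92_ev P (0 : F) = 0 := by
  have := h92_ev_algebraMap (F := F) P (0 : K)
  rwa [map_zero] at this

@[simp]
theorem h92_ev_one (P : Place K F) : h92_ev P (1 : F) = 1 := by
  have := h92_ev_algebraMap (F := F) P (1 : K)
  rwa [map_one] at this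

theorem h92_mem_of_ord_eq_zero (P : Place K F) {f : F} (hf0 : f ≠ 0) (hf : P.ord f = 0) :
    f ∈ P.toValuationSubring :=
  (h35_mem_iff_ord_nonneg P hf0).mpr hf.ge

theorem h92_inv_mem_of_ord_eq_zero (P : Place K F) {f : F} (hf0 : f ≠ 0) (hf : P.ord f = 0) :
    f⁻¹ ∈ P.toValuationSubring :=
  (h35_mem_iff_ord_nonneg P (inv_ne_zero hf0)).mpr (by rw [P.ord_inv, hf, neg_zero])

section AlgClosed

variable [IsAlgClosed K]

/-- the value exists for functions regular at `P`. -/
theorem h92_val_ev {x : F} (hx : h75_IsChart K x) (P : Place K F) {f : F}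
    (hf : f ∈ P.toValuationSubring) : h39_Val P f (h92_ev P f) := by
  obtain ⟨b, hb⟩ := h39_exists_val hx P hf
  rw [h92_ev_eq hb]
  exact hb

theorem h92_ev_add {x : F} (hx : h75_IsChart K x) (P : Place K F) {f g : F}
    (hf : f ∈ P.toValuationSubring) (hg : g ∈ P.toValuationSubring) :
    h92_ev P (f + g) = h92_ev P f + h92_ev P g :=
  h92_ev_eq (h39_val_add P (h92_val_ev hx P hf) (h92_val_ev hx P hg))

theorem h92_ev_mul {x : F} (hx : h75_IsChart K x) (P : Place K F) {f g : F}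
    (hf : f ∈ P.toValuationSubring) (hg : g ∈ P.toValuationSubring) :
    h92_ev P (f * g) = h92_ev P f * h92_ev P g :=
  h92_ev_eq (h39_val_mul P (h92_val_ev hx P hf) (h92_val_ev hx P hg))

theorem h92_ev_pow {x : F} (hx : h75_IsChart K x) (P : Place K F) {f : F}
    (hf : f ∈ P.toValuationSubring) (n : ℕ) : h92_ev P (f ^ n) = h92_ev P f ^ n := by
  induction n with
  | zero => simp
  | succ n ih =>
    rw [pow_succ, pow_succ, h92_ev_mul hx P (P.toValuationSubring.pow_mem hf n) hf, ih]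

/-- a unit at `P` has a nonzero value. -/
theorem h92_ev_ne_zero {x : F} (hx : h75_IsChart K x) (P : Place K F) {f : F} (hf0 : f ≠ 0)
    (hf : P.ord f = 0) : h92_ev P f ≠ 0 := by
  intro h0
  have h1 := h92_val_ev hx P (h92_mem_of_ord_eq_zero P hf0 hf)
  rw [h0, h39_val_zero_iff] at h1
  rcases h1 with h1 | h1
  · exact hf0 h1
  · omega

theorem h92_ev_inv {x : F} (hx : h75_IsChart K x) (P : Place K F) {f : F} (hf0 : f ≠ 0)
    (hf : P.ord f = 0) : h92_ev P f⁻¹ = (h92_ev P f)⁻¹ := by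
  have h1 := h92_ev_mul hx P (h92_mem_of_ord_eq_zero P hf0 hf)
    (h92_inv_mem_of_ord_eq_zero P hf0 hf)
  rw [mul_inv_cancel₀ hf0, h92_ev_one] at h1
  exact eq_inv_of_mul_eq_one_right h1.symm

end AlgClosed

/-! ### semilinear automorphisms -/

theorem h92_val_smul (σ : h57_SemiAut K F) {P : Place K F} {f : F} {b : K}
    (h : h39_Val P f b) : h39_Val (σ • P) ((σ : F ≃+* F) f) (h57_resK σ b) := by
  rcases h with h | h
  · left
    rw [h, h57_apply_algebraMap]
  · right
    rw [← h57_apply_algebraMap, ← map_sub, h57_ord_smul]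
    exact h

theorem h92_val_smul_iff (σ : h57_SemiAut K F) {P : Place K F} {f : F} {b : K} :
    h39_Val (σ • P) ((σ : F ≃+* F) f) (h57_resK σ b) ↔ h39_Val P f b := by
  refine ⟨fun h => ?_, h92_val_smul σ⟩
  have h1 := h92_val_smul σ⁻¹ h
  rw [inv_smul_smul, h57_coe_inv_apply, RingEquiv.symm_apply_apply] at h1
  have h2 : h57_resK σ⁻¹ (h57_resK σ b) = b := by
    apply (algebraMap K F).injective
    rw [← h57_apply_algebraMap, ← h57_apply_algebraMap, h57_coe_inv_apply,
      RingEquiv.symm_apply_apply]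
  rwa [h2] at h1

/-- `(σ f)(σ P) = σ(f(P))`. -/
theorem h92_ev_smul (σ : h57_SemiAut K F) (P : Place K F) (f : F) :
    h92_ev (σ • P) ((σ : F ≃+* F) f) = h57_resK σ (h92_ev P f) := by
  by_cases hex : ∃ b : K, h39_Val P f b
  · obtain ⟨b, hb⟩ := hex
    rw [h92_ev_eq hb, h92_ev_eq (h92_val_smul σ hb)]
  · have hex' : ¬ ∃ c : K, h39_Val (σ • P) ((σ : F ≃+* F) f) c := by
      rintro ⟨c, hc⟩
      apply hex
      refine ⟨(h57_resK σ).symm c, ?_⟩
      rw [← h92_val_smul_iff σ, RingEquiv.apply_symm_apply]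
      exact hc
    rw [h92_ev_of_not hex, h92_ev_of_not hex', map_zero]

/-- `(σ f)(σ P) = f(P) ^ q` for a Frobenius structure. -/
theorem h92_ev_frob {q : ℕ} {σ : h57_SemiAut K F} (hσ : h57_IsFrob q σ) (P : Place K F)
    (f : F) : h92_ev (σ • P) ((σ : F ≃+* F) f) = h92_ev P f ^ q := by
  rw [h92_ev_smul, hσ.resK]

/-! ### evaluation at a divisor -/

/-- `f(E) = ∏_P f(P) ^ E(P)`. -/
noncomputable def h92_evDiv (f : F) (E : Divisor K F) : K :=
  E.prod (fun P n => h92_ev P f ^ n)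

theorem h92_evDiv_def (f : F) (E : Divisor K F) :
    h92_evDiv f E = E.prod (fun P n => h92_ev P f ^ n) := rfl

@[simp]
theorem h92_evDiv_zero (f : F) : h92_evDiv f (0 : Divisor K F) = 1 := by
  unfold h92_evDiv
  exact Finsupp.prod_zero_index

@[simp]
theorem h92_evDiv_single (f : F) (P : Place K F) (n : ℤ) :
    h92_evDiv f (Finsupp.single P n : Divisor K F) = h92_ev P f ^ n := by
  unfold h92_evDiv
  exact Finsupp.prod_single_index (zpow_zero _)

/-- additivity in the divisor (the values on the supports being nonzero). -/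
theorem h92_evDiv_add' (f : F) (E E' : Divisor K F)
    (hE : ∀ P, E P ≠ 0 → h92_ev P f ≠ 0) (hE' : ∀ P, E' P ≠ 0 → h92_ev P f ≠ 0) :
    h92_evDiv f (E + E') = h92_evDiv f E * h92_evDiv f E' := by
  classical
  unfold h92_evDiv
  refine Finsupp.prod_add_index (fun P _ => zpow_zero _) (fun P hP b₁ b₂ => ?_)
  have hne : h92_ev P f ≠ 0 := by
    rcases Finset.mem_union.mp hP with h | h
    · exact hE P (Finsupp.mem_support_iff.mp h)
    · exact hE' P (Finsupp.mem_support_iff.mp h)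
  exact zpow_add₀ hne b₁ b₂

theorem h92_evDiv_neg (f : F) (E : Divisor K F) : h92_evDiv f (-E) = (h92_evDiv f E)⁻¹ := by
  unfold h92_evDiv
  rw [Finsupp.prod_neg_index (fun P => zpow_zero _)]
  simp only [zpow_neg]
  unfold Finsupp.prod
  rw [Finset.prod_inv_distrib]

theorem h92_evDiv_zsmul (f : F) (E : Divisor K F) (n : ℤ) :
    h92_evDiv f (n • E) = h92_evDiv f E ^ n := by
  classical
  unfold h92_evDiv
  rw [Finsupp.prod_of_support_subset (n • E) (Finsupp.support_smul (b := n) (g := E))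
    (fun P n => h92_ev P f ^ n) (fun P _ => zpow_zero _)]
  unfold Finsupp.prod
  rw [← Finset.prod_zpow]
  refine Finset.prod_congr rfl (fun P _ => ?_)
  rw [Finsupp.smul_apply, smul_eq_mul, mul_comm, zpow_mul]

theorem h92_evDiv_ne_zero' (f : F) (E : Divisor K F) (hE : ∀ P, E P ≠ 0 → h92_ev P f ≠ 0) :
    h92_evDiv f E ≠ 0 := by
  unfold h92_evDiv Finsupp.prod
  rw [Finset.prod_ne_zero_iff]
  intro P hP
  exact zpow_ne_zero _ (hE P (Finsupp.mem_support_iff.mp hP))

/-- `(σ f)(σ E) = σ(f(E))`. -/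
theorem h92_evDiv_smul (σ : h57_SemiAut K F) (f : F) (E : Divisor K F) :
    h92_evDiv ((σ : F ≃+* F) f) (σ • E) = h57_resK σ (h92_evDiv f E) := by
  unfold h92_evDiv
  rw [h57_smul_def, Finsupp.prod_mapDomain_index_inj (MulAction.injective σ)]
  unfold Finsupp.prod
  rw [map_prod]
  refine Finset.prod_congr rfl (fun P _ => ?_)
  beta_reduce
  rw [h92_ev_smul, map_zpow₀]

/-- `(σ f)(σ E) = f(E) ^ q` for a Frobenius structure. -/
theorem h92_evDiv_frob {q : ℕ} {σ : h57_SemiAut K F} (hσ : h57_IsFrob q σ) (f : F)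
    (E : Divisor K F) : h92_evDiv ((σ : F ≃+* F) f) (σ • E) = h92_evDiv f E ^ q := by
  rw [h92_evDiv_smul, hσ.resK]

/-- the value of an invariant function at an invariant divisor lies in `𝔽_q`. -/
theorem h92_evDiv_fixed {q : ℕ} {σ : h57_SemiAut K F} (hσ : h57_IsFrob q σ) {f : F}
    (hf : (σ : F ≃+* F) f = f) {E : Divisor K F} (hE : σ • E = E) :
    h92_evDiv f E ^ q = h92_evDiv f E := by
  have h := h92_evDiv_frob hσ f E
  rw [hf, hE] at h
  exact h.symm

/-- for a `σ`-fixed function: `f(σ^i E) = f(E) ^ (q ^ i)`. -/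
theorem h92_evDiv_pow_smul {q : ℕ} {σ : h57_SemiAut K F} (hσ : h57_IsFrob q σ) {f : F}
    (hf : (σ : F ≃+* F) f = f) (E : Divisor K F) (i : ℕ) :
    h92_evDiv f (σ ^ i • E) = h92_evDiv f E ^ (q ^ i) := by
  have hfi : ((σ ^ i : h57_SemiAut K F) : F ≃+* F) f = f := by
    rw [h57_coe_pow_apply]
    exact Function.iterate_fixed hf i
  have h := h92_evDiv_frob (hσ.pow i) f E
  rwa [hfi] at h

section AlgClosed

variable [IsAlgClosed K]

theorem h92_evDiv_add {x : F} (hx : h75_IsChart K x) {f : F} (hf0 : f ≠ 0) (E E' : Divisor K F)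
    (hE : ∀ P, E P ≠ 0 → P.ord f = 0) (hE' : ∀ P, E' P ≠ 0 → P.ord f = 0) :
    h92_evDiv f (E + E') = h92_evDiv f E * h92_evDiv f E' :=
  h92_evDiv_add' f E E' (fun P hP => h92_ev_ne_zero hx P hf0 (hE P hP))
    (fun P hP => h92_ev_ne_zero hx P hf0 (hE' P hP))

theorem h92_evDiv_sub {x : F} (hx : h75_IsChart K x) {f : F} (hf0 : f ≠ 0) (E E' : Divisor K F)
    (hE : ∀ P, E P ≠ 0 → P.ord f = 0) (hE' : ∀ P, E' P ≠ 0 → P.ord f = 0) :
    h92_evDiv f (E - E') = h92_evDiv f E / h92_evDiv f E' := by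
  rw [sub_eq_add_neg, h92_evDiv_add hx hf0 E (-E') hE (fun P hP => hE' P (by
    rw [Finsupp.neg_apply, neg_ne_zero] at hP
    exact hP)), h92_evDiv_neg, div_eq_mul_inv]

theorem h92_evDiv_ne_zero {x : F} (hx : h75_IsChart K x) {f : F} (hf0 : f ≠ 0)
    (E : Divisor K F) (hE : ∀ P, E P ≠ 0 → P.ord f = 0) : h92_evDiv f E ≠ 0 :=
  h92_evDiv_ne_zero' f E (fun P hP => h92_ev_ne_zero hx P hf0 (hE P hP))

/-- multiplicativity in the function. -/
theorem h92_evDiv_mul {x : F} (hx : h75_IsChart K x) {f g : F} (hf0 : f ≠ 0) (hg0 : g ≠ 0)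
    (E : Divisor K F) (hf : ∀ P, E P ≠ 0 → P.ord f = 0) (hg : ∀ P, E P ≠ 0 → P.ord g = 0) :
    h92_evDiv (f * g) E = h92_evDiv f E * h92_evDiv g E := by
  unfold h92_evDiv
  rw [← Finsupp.prod_mul]
  refine Finsupp.prod_congr (fun P hP => ?_)
  have hP' := Finsupp.mem_support_iff.mp hP
  rw [h92_ev_mul hx P (h92_mem_of_ord_eq_zero P hf0 (hf P hP'))
    (h92_mem_of_ord_eq_zero P hg0 (hg P hP')), mul_zpow]

theorem h92_evDiv_inv {x : F} (hx : h75_IsChart K x) {f : F} (hf0 : f ≠ 0)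
    (E : Divisor K F) (hf : ∀ P, E P ≠ 0 → P.ord f = 0) :
    h92_evDiv f⁻¹ E = (h92_evDiv f E)⁻¹ := by
  unfold h92_evDiv Finsupp.prod
  rw [← Finset.prod_inv_distrib]
  refine Finset.prod_congr rfl (fun P hP => ?_)
  beta_reduce
  rw [h92_ev_inv hx P hf0 (hf P (Finsupp.mem_support_iff.mp hP)), inv_zpow]

theorem h92_evDiv_pow {x : F} (hx : h75_IsChart K x) {f : F} (hf0 : f ≠ 0)
    (E : Divisor K F) (hf : ∀ P, E P ≠ 0 → P.ord f = 0) (n : ℕ) :
    h92_evDiv (f ^ n) E = h92_evDiv f E ^ n := by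
  unfold h92_evDiv Finsupp.prod
  rw [← Finset.prod_pow]
  refine Finset.prod_congr rfl (fun P hP => ?_)
  beta_reduce
  rw [h92_ev_pow hx P (h92_mem_of_ord_eq_zero P hf0 (hf P (Finsupp.mem_support_iff.mp hP))),
    ← zpow_natCast, ← zpow_natCast, ← zpow_mul, ← zpow_mul, mul_comm]

/-- a nonzero constant `c` has `c(E) = c ^ deg E`. -/
theorem h92_evDiv_const {x : F} (hx : h75_IsChart K x) {c : K} (hc : c ≠ 0) (E : Divisor K F) :
    h92_evDiv (algebraMap K F c) E = c ^ Divisor.degree E := by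
  induction E using Finsupp.induction with
  | zero => simp
  | single_add P n E _ _ ih =>
    rw [h92_evDiv_add' _ _ _ (fun Q _ => by rw [h92_ev_algebraMap]; exact hc)
      (fun Q _ => by rw [h92_ev_algebraMap]; exact hc), ih, h92_evDiv_single, h92_ev_algebraMap,
      map_add, Divisor.degree_single, h75_deg_eq_one hx, Nat.cast_one, mul_one, zpow_add₀ hc]

/-- `(c f)(E) = c ^ deg E * f(E)`. -/
theorem h92_evDiv_const_mul {x : F} (hx : h75_IsChart K x) {c : K} (hc : c ≠ 0) {f : F}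
    (hf0 : f ≠ 0) (E : Divisor K F) (hf : ∀ P, E P ≠ 0 → P.ord f = 0) :
    h92_evDiv (algebraMap K F c * f) E = c ^ Divisor.degree E * h92_evDiv f E := by
  rw [h92_evDiv_mul hx ((map_ne_zero (algebraMap K F)).mpr hc) hf0 E
    (fun P _ => Fermat.Agent.S24.h35_ord_algebraMap P c) hf, h92_evDiv_const hx hc]

end AlgClosed

end Fermat.Agent.S27
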