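/-
S27 / B8a WEIL, sub-row W2 (row 508, helper34): WEIL-SEP.
If `x'` is a chart of `F / K` (`K` algebraically closed, any characteristic) and `h ≠ 0` is
not a chart, then `h * x'` is a chart.  In characteristic `p` the charts are exactly the
elements that are not `p`-th powers.
-/
import Mathlib
import Fermat.Agent.S18.RR_Chart
import Fermat.Agent.S24.h35_Places

set_option autoImplicit false

open AlgebraicCurve IntermediateField Fermat.Agent.S18 Fermat.Agent.S24

namespace Fermat.Agent.S27

section General

variable {F : Type*} [Field F]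

/-- the subfield of `p`-th powers (`p` the exponential characteristic) -/
def h34_pthPowers (F : Type*) [Field F] (p : ℕ) [ExpChar F p] : Subfield F :=
  (frobenius F p).fieldRange

theorem h34_mem_pthPowers (p : ℕ) [ExpChar F p] (z : F) :
    z ∈ h34_pthPowers F p ↔ ∃ g : F, g ^ p = z := by
  unfold h34_pthPowers
  rw [RingHom.mem_fieldRange]
  simp only [frobenius_def]

theorem h34_pow_mem_pthPowers (p : ℕ) [ExpChar F p] (g : F) : g ^ p ∈ h34_pthPowers F p :=
  (h34_mem_pthPowers p _).mpr ⟨g, rfl⟩

/-- one Frobenius step: if `L ∪ W` generates `F` and `F = F^p(u)` with `u ∈ L`, then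
`L ∪ W^p` generates `F`. -/
theorem h34_closure_pow_step (p : ℕ) [ExpChar F p] (L : Subfield F) (u : F) (hu : u ∈ L)
    (hgen : Subfield.closure ((h34_pthPowers F p : Set F) ∪ {u}) = ⊤) (W : Set F)
    (hW : Subfield.closure ((L : Set F) ∪ W) = ⊤) :
    Subfield.closure ((L : Set F) ∪ (fun w => w ^ p) '' W) = ⊤ := by
  rw [eq_top_iff, ← hgen, Subfield.closure_le]
  rintro z (hz | hz)
  · have h1 : h34_pthPowers F p
        = Subfield.closure ((frobenius F p) '' ((L : Set F) ∪ W)) := by
      rw [← RingHom.map_field_closure, hW, h34_pthPowers, RingHom.fieldRange_eq_map]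
    rw [SetLike.mem_coe, h1] at hz
    refine Subfield.closure_mono ?_ hz
    rintro _ ⟨y, hy | hy, rfl⟩
    · refine Or.inl ?_
      rw [frobenius_def]
      exact pow_mem hy p
    · refine Or.inr ⟨y, hy, ?_⟩
      rw [frobenius_def]
  · rw [Set.mem_singleton_iff] at hz
    subst hz
    exact Subfield.subset_closure (Or.inl hu)

/-- iterated Frobenius steps. -/
theorem h34_closure_pow_iter (p : ℕ) [ExpChar F p] (L : Subfield F) (u : F) (hu : u ∈ L)
    (hgen : Subfield.closure ((h34_pthPowers F p : Set F) ∪ {u}) = ⊤) (W : Set F)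
    (hW : Subfield.closure ((L : Set F) ∪ W) = ⊤) (i : ℕ) :
    Subfield.closure ((L : Set F) ∪ (fun w => w ^ p ^ i) '' W) = ⊤ := by
  induction i with
  | zero => simpa using hW
  | succ i ih =>
    have h := h34_closure_pow_step p L u hu hgen _ ih
    rw [Set.image_image] at h
    have h2 : (fun w : F => (w ^ p ^ i) ^ p) = fun w : F => w ^ p ^ (i + 1) := by
      funext w
      rw [← pow_mul, ← pow_succ]
    rwa [h2] at h

/-- **(A4)** If `F / L` is finite and `F = F^p(u)` for some `u ∈ L`, then `F / L` is
separable. -/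
theorem h34_isSeparable_of_gen {L : Type*} [Field L] [Algebra L F] [FiniteDimensional L F]
    (p : ℕ) [ExpChar F p] (u : L)
    (hgen : Subfield.closure ((h34_pthPowers F p : Set F) ∪ {algebraMap L F u}) = ⊤) :
    Algebra.IsSeparable L F := by
  classical
  rw [← separableClosure.eq_top_iff]
  have : ExpChar (separableClosure L F) p :=
    RingHom.expChar (algebraMap (separableClosure L F) F)
      (algebraMap (separableClosure L F) F).injective p
  obtain ⟨s, hs⟩ := (Module.finite_def.mp (inferInstance : Module.Finite L F))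
  have h0 : Subfield.closure ((((algebraMap L F).fieldRange : Subfield F) : Set F) ∪ (s : Set F))
      = ⊤ := by
    have hspan : ∀ z ∈ Submodule.span L (s : Set F),
        z ∈ Subfield.closure
          ((((algebraMap L F).fieldRange : Subfield F) : Set F) ∪ (s : Set F)) := by
      intro z hz
      induction hz using Submodule.span_induction with
      | mem x hx => exact Subfield.subset_closure (Or.inr hx)
      | zero => exact zero_mem _
      | add x y _ _ hx hy => exact add_mem hx hy
      | smul a x _ hx =>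
        rw [Algebra.smul_def]
        exact mul_mem (Subfield.subset_closure (Or.inl ⟨a, rfl⟩)) hx
    rw [eq_top_iff]
    intro z _
    exact hspan z (hs ▸ Submodule.mem_top)
  have hi := h34_closure_pow_iter p ((algebraMap L F).fieldRange) (algebraMap L F u) ⟨u, rfl⟩
    hgen _ h0
  have hpow : ∀ w : F, ∃ n : ℕ, w ^ p ^ n ∈ (algebraMap (separableClosure L F) F).range :=
    fun w => IsPurelyInseparable.pow_mem (separableClosure L F) p w
  choose n hn using hpow
  set N := s.sup n with hN
  have hmem : ∀ w ∈ s, w ^ p ^ N ∈ separableClosure L F := by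
    intro w hw
    obtain ⟨y, hy⟩ := hn w
    have hle : n w ≤ N := Finset.le_sup hw
    obtain ⟨d, hd⟩ := Nat.exists_eq_add_of_le hle
    rw [hd, pow_add, pow_mul, ← hy]
    exact pow_mem y.2 _
  rw [eq_top_iff]
  intro z _
  have hz : z ∈ Subfield.closure ((((algebraMap L F).fieldRange : Subfield F) : Set F) ∪
      (fun w => w ^ p ^ N) '' (s : Set F)) := by
    rw [hi N]
    exact Subfield.mem_top z
  have hle : Subfield.closure ((((algebraMap L F).fieldRange : Subfield F) : Set F) ∪
      (fun w => w ^ p ^ N) '' (s : Set F)) ≤ (separableClosure L F).toSubfield := by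
    rw [Subfield.closure_le]
    rintro y (⟨a, rfl⟩ | ⟨w, hw, rfl⟩)
    · exact (separableClosure L F).algebraMap_mem a
    · exact hmem w hw
  exact hle hz

/-- **(A12)** If `F / K(x)` is separable and the constants are `p`-th powers, then
`F = F^p(x)`. -/
theorem h34_gen_of_isSeparable {K : Type*} [Field K] [Algebra K F] (p : ℕ) [ExpChar F p]
    (hK : ∀ c : K, algebraMap K F c ∈ h34_pthPowers F p) (x : F)
    [Algebra.IsSeparable K⟮x⟯ F] :
    Subfield.closure ((h34_pthPowers F p : Set F) ∪ {x}) = ⊤ := by
  have : ExpChar K⟮x⟯ p :=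
    RingHom.expChar (algebraMap K⟮x⟯ F) (algebraMap K⟮x⟯ F).injective p
  have h1 := IntermediateField.adjoin_eq_adjoin_pow_expChar_of_isSeparable' K⟮x⟯ F Set.univ p
  rw [IntermediateField.adjoin_univ] at h1
  rw [eq_top_iff]
  intro z _
  have hz : z ∈ IntermediateField.adjoin K⟮x⟯ ((fun y : F => y ^ p) '' Set.univ) :=
    h1 ▸ IntermediateField.mem_top
  have hz' : z ∈ Subfield.closure
      (Set.range (algebraMap K⟮x⟯ F) ∪ ((fun y : F => y ^ p) '' Set.univ)) := hz
  refine (Subfield.closure_le.mpr ?_) hz'
  rintro y (⟨⟨y', hy'⟩, rfl⟩ | ⟨g, -, rfl⟩)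
  · have hy2 : y' ∈ Subfield.closure (Set.range (algebraMap K F) ∪ {x}) := hy'
    refine (Subfield.closure_le.mpr ?_) hy2
    rintro w (⟨c, rfl⟩ | hw)
    · exact Subfield.subset_closure (Or.inl (hK c))
    · exact Subfield.subset_closure (Or.inr hw)
  · exact Subfield.subset_closure (Or.inl (h34_pow_mem_pthPowers p g))

/-- every element of `F` is integral over the subfield of `p`-th powers. -/
theorem h34_isIntegral_pthPowers (p : ℕ) (hp : p.Prime) [ExpChar F p] (y : F) :
    IsIntegral (h34_pthPowers F p) y := by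
  refine ⟨Polynomial.X ^ p - Polynomial.C ⟨y ^ p, h34_pow_mem_pthPowers p y⟩,
    Polynomial.monic_X_pow_sub_C _ hp.ne_zero, ?_⟩
  rw [← Polynomial.aeval_def]
  simp only [map_sub, map_pow, Polynomial.aeval_X, Polynomial.aeval_C]
  exact sub_self _

theorem h34_adjoin_toSubfield (p : ℕ) [ExpChar F p] (y : F) :
    (IntermediateField.adjoin (h34_pthPowers F p) {y}).toSubfield
      = Subfield.closure ((h34_pthPowers F p : Set F) ∪ {y}) := by
  rw [IntermediateField.adjoin_toSubfield]
  congr 2
  ext z
  constructor
  · rintro ⟨a, rfl⟩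
    exact a.2
  · intro hz
    exact ⟨⟨z, hz⟩, rfl⟩

theorem h34_adjoin_eq_top_iff (p : ℕ) [ExpChar F p] (y : F) :
    IntermediateField.adjoin (h34_pthPowers F p) {y} = ⊤
      ↔ Subfield.closure ((h34_pthPowers F p : Set F) ∪ {y}) = ⊤ := by
  rw [← h34_adjoin_toSubfield]
  constructor
  · intro h
    rw [h]
    rfl
  · intro h
    apply IntermediateField.toSubfield_injective
    rw [h]
    rfl

/-- **(A3)** `[F : F^p] ≤ p`: if `F = F^p(x)` and `u` is not a `p`-th power, then
`F = F^p(u)`. -/
theorem h34_gen_of_not_mem (p : ℕ) (hp : p.Prime) [ExpChar F p] (x u : F)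
    (hx : Subfield.closure ((h34_pthPowers F p : Set F) ∪ {x}) = ⊤)
    (hu : u ∉ h34_pthPowers F p) :
    Subfield.closure ((h34_pthPowers F p : Set F) ∪ {u}) = ⊤ := by
  rw [← h34_adjoin_eq_top_iff] at hx ⊢
  set k0 := h34_pthPowers F p with hk0
  have hintx : IsIntegral k0 x := h34_isIntegral_pthPowers p hp x
  have hintu : IsIntegral k0 u := h34_isIntegral_pthPowers p hp u
  have hfd : FiniteDimensional k0 (⊤ : IntermediateField k0 F) := by
    rw [← hx]
    exact IntermediateField.adjoin.finiteDimensional hintx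
  -- the degree of `F` over `k0` is at most `p`
  have hrootx : Polynomial.aeval x
      (Polynomial.X ^ p - Polynomial.C (⟨x ^ p, h34_pow_mem_pthPowers p x⟩ : k0)) = 0 := by
    simp only [map_sub, map_pow, Polynomial.aeval_X, Polynomial.aeval_C]
    exact sub_self _
  have hdegx : Module.finrank k0 (⊤ : IntermediateField k0 F) ≤ p := by
    rw [← hx, IntermediateField.adjoin.finrank hintx]
    have h1 := Polynomial.natDegree_le_of_dvd (minpoly.dvd k0 x hrootx)
      (Polynomial.X_pow_sub_C_ne_zero hp.pos _)
    rwa [Polynomial.natDegree_X_pow_sub_C] at h1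
  -- the degree of `k0(u)` over `k0` is `p`
  have hirr : Irreducible
      (Polynomial.X ^ p - Polynomial.C (⟨u ^ p, h34_pow_mem_pthPowers p u⟩ : k0)) := by
    apply X_pow_sub_C_irreducible_of_prime hp
    intro b hb
    have hb' : (b : F) ^ p = u ^ p := by
      have := congrArg (fun t : k0 => (t : F)) hb
      simpa using this
    have hbu : (b : F) = u := frobenius_inj F p (by simpa [frobenius_def] using hb')
    exact hu (hbu ▸ b.2)
  have hrootu : Polynomial.aeval u
      (Polynomial.X ^ p - Polynomial.C (⟨u ^ p, h34_pow_mem_pthPowers p u⟩ : k0)) = 0 := by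
    simp only [map_sub, map_pow, Polynomial.aeval_X, Polynomial.aeval_C]
    exact sub_self _
  have hminu := minpoly.eq_of_irreducible_of_monic hirr hrootu
    (Polynomial.monic_X_pow_sub_C _ hp.ne_zero)
  have hdegu : Module.finrank k0 (IntermediateField.adjoin k0 {u}) = p := by
    rw [IntermediateField.adjoin.finrank hintu, ← hminu, Polynomial.natDegree_X_pow_sub_C]
  exact IntermediateField.eq_of_le_of_finrank_le le_top (hdegu ▸ hdegx)

end General

section Chart

variable {K F : Type*} [Field K] [Field F] [Algebra K F] [IsAlgClosed K]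

/-- the constants are `p`-th powers. -/
theorem h34_const_mem_pthPowers (p : ℕ) (hp : 0 < p) [ExpChar F p] (c : K) :
    algebraMap K F c ∈ h34_pthPowers F p := by
  obtain ⟨d, hd⟩ := IsAlgClosed.exists_pow_nat_eq c hp
  rw [h34_mem_pthPowers]
  exact ⟨algebraMap K F d, by rw [← map_pow, hd]⟩

/-- a function field with a chart has a place. -/
theorem h34_exists_place {x' : F} (hx' : h75_IsChart K x') : Nonempty (Place K F) := by
  obtain ⟨s, -, hsum⟩ := h75_fibre_main hx' 0
  have := hx'.fin
  have hpos : 0 < Module.finrank K⟮x'⟯ F := Module.finrank_pos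
  by_contra hne
  rw [not_nonempty_iff] at hne
  have hs : s = ∅ := Finset.eq_empty_of_isEmpty s
  rw [hs, Finset.sum_empty] at hsum
  have : (Module.finrank K⟮x'⟯ F : ℤ) = 0 := hsum.symm
  omega

/-- **(NP)** a function field with a chart is not perfect. -/
theorem h34_pthPowers_ne_top (p : ℕ) (hp : p.Prime) [ExpChar F p] {x' : F}
    (hx' : h75_IsChart K x') : h34_pthPowers F p ≠ ⊤ := by
  intro htop
  obtain ⟨Q⟩ := h34_exists_place hx'
  obtain ⟨π, hπ⟩ := IsDiscreteValuationRing.exists_irreducible Q.toValuationSubring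
  have hmem : (π : F) ∈ h34_pthPowers F p := htop ▸ Subfield.mem_top _
  obtain ⟨g, hg⟩ := (h34_mem_pthPowers p _).mp hmem
  have h1 : Q.ord ((π : F)) = 1 := Q.ord_coe_irreducible hπ
  have h2 : Q.ord (g ^ (p : ℤ)) = (p : ℤ) * Q.ord g := Q.ord_zpow g p
  rw [zpow_natCast, hg, h1] at h2
  have h3 : (p : ℤ) ∣ 1 := ⟨Q.ord g, h2⟩
  have h4 : p ∣ 1 := by exact_mod_cast h3
  exact hp.one_lt.ne' (Nat.dvd_one.mp h4)

/-- In characteristic `p`: an element which is not a `p`-th power is a chart. -/
theorem h34_isChart_of_not_mem (p : ℕ) (hp : p.Prime) [ExpChar F p] {x' : F}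
    (hx' : h75_IsChart K x') (u : F) (hu : u ∉ h34_pthPowers F p) : h75_IsChart K u := by
  have htr : Transcendental K u := by
    intro halg
    obtain ⟨a, ha⟩ := h35_exists_algebraMap_eq_of_isAlgebraic u halg
    exact hu (ha ▸ h34_const_mem_pthPowers p hp.pos a)
  have := hx'.fin
  have := hx'.sep
  have hfin : FiniteDimensional K⟮u⟯ F := h35_finiteDimensional_of_transcendental hx'.tr htr
  have hgx := h34_gen_of_isSeparable p (fun c : K => h34_const_mem_pthPowers (K := K) (F := F) p hp.pos c) x'
  have hgu := h34_gen_of_not_mem p hp x' u hgx hu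
  refine ⟨htr, hfin, ?_⟩
  exact h34_isSeparable_of_gen (L := K⟮u⟯) p ⟨u, mem_adjoin_simple_self K u⟩ hgu

omit [IsAlgClosed K] in
/-- In characteristic zero: every transcendental element is a chart. -/
theorem h34_isChart_of_transcendental [CharZero K] {x' : F} (hx' : h75_IsChart K x') (u : F)
    (htr : Transcendental K u) : h75_IsChart K u := by
  have := hx'.fin
  have hfin : FiniteDimensional K⟮u⟯ F := h35_finiteDimensional_of_transcendental hx'.tr htr
  have : CharZero K⟮u⟯ := charZero_of_injective_algebraMap (algebraMap K K⟮u⟯).injective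
  exact ⟨htr, hfin, inferInstance⟩

/-- **WEIL-SEP.** If `x'` is a chart and `h ≠ 0` is not a chart, then `h * x'` is a chart. -/
theorem h6_chart_mul {x' : F} (hx' : h75_IsChart K x') (h : F) (hh : h ≠ 0)
    (hnc : ¬ h75_IsChart K h) : h75_IsChart K (h * x') := by
  obtain ⟨p, hp⟩ := CharP.exists K
  rcases CharP.char_is_prime_or_zero K p with hprime | rfl
  · -- characteristic `p`
    have : CharP F p := charP_of_injective_algebraMap (algebraMap K F).injective p
    have : ExpChar F p := ExpChar.prime hprime
    have hmem : h ∈ h34_pthPowers F p := by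
      by_contra hcon
      exact hnc (h34_isChart_of_not_mem p hprime hx' h hcon)
    apply h34_isChart_of_not_mem p hprime hx'
    intro hcon
    have hx'mem : x' ∈ h34_pthPowers F p := by
      have := mul_mem (inv_mem hmem) hcon
      rwa [inv_mul_cancel_left₀ hh] at this
    have := hx'.sep
    have hgx := h34_gen_of_isSeparable p
      (fun c : K => h34_const_mem_pthPowers (K := K) (F := F) p hprime.pos c) x'
    apply h34_pthPowers_ne_top p hprime hx'
    rw [eq_top_iff, ← hgx, Subfield.closure_le]
    rintro z (hz | hz)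
    · exact hz
    · rw [Set.mem_singleton_iff] at hz
      exact hz ▸ hx'mem
  · -- characteristic zero
    have : CharZero K := CharP.charP_to_charZero K
    have halg : IsAlgebraic K h := by
      by_contra hcon
      exact hnc (h34_isChart_of_transcendental hx' h hcon)
    apply h34_isChart_of_transcendental hx'
    intro hcon
    have h1 : IsAlgebraic K (h⁻¹ * (h * x')) := halg.inv.mul hcon
    rw [inv_mul_cancel_left₀ hh] at h1
    exact hx'.tr h1

end Chart

end Fermat.Agent.S27
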