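import Fermat.Agent.S27.h68_RRCons

/-!
# S27 / CHART-EX, ord-calculus half (helper70)

`P₀` a place of `F / K`, `x y : F` with `P₀.ord x = -n`, `P₀.ord y = -(n + 1)`, `0 < n`.

* `h70_ord_add_eq_of_lt`, `h70_ord_sum_gt`, `h70_sum_ne_zero_of_ord_injOn`: strict ultrametric
  inequality; a finite sum of nonzero terms with pairwise distinct orders is nonzero and its
  order is the (strict) minimum.
* `h70_ord_aeval`: `ord (p(x)) = -(n * deg p)` for `p ≠ 0`.
* `h70_indep_poly`, `h70_indep_adjoin`, `h70_linearIndependent_pow`: `1, y, …, y^(n-1)` are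
  independent over `K[x]`, hence over `K⟮x⟯`.
* `h70_weights`: the weighted shape of a monic relation of degree `n` for `y` over `K[x]`.
-/

set_option autoImplicit false

open AlgebraicCurve IntermediateField Polynomial

namespace Fermat.Agent.S27

open Fermat.Agent.S18
open Fermat.Agent.S24 (h35_ord_add h35_ord_neg h35_ord_algebraMap)

variable {K F : Type*} [Field K] [Field F] [Algebra K F]

theorem h70_ord_pow (v : Place K F) (f : F) (k : ℕ) : v.ord (f ^ k) = k * v.ord f := by
  rw [← zpow_natCast, v.ord_zpow]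

/-- strict ultrametric inequality. -/
theorem h70_ord_add_eq_of_lt (v : Place K F) {f g : F} (hf : f ≠ 0)
    (hg : g = 0 ∨ v.ord f < v.ord g) : f + g ≠ 0 ∧ v.ord (f + g) = v.ord f := by
  by_cases hg0 : g = 0
  · subst hg0
    simp [hf]
  have hlt : v.ord f < v.ord g := hg.resolve_left hg0
  have hfg : f + g ≠ 0 := by
    intro h
    have h1 : g = -f := by linear_combination h
    rw [h1, h35_ord_neg] at hlt
    exact lt_irrefl _ hlt
  refine ⟨hfg, le_antisymm ?_ ?_⟩
  · by_contra hcon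
    push Not at hcon
    have h1 := h35_ord_add v hfg (neg_ne_zero.mpr hg0) (by simpa using hf)
    rw [h35_ord_neg] at h1
    have h2 : f + g + -g = f := by ring
    rw [h2] at h1
    have := lt_min hcon hlt
    omega
  · have := h35_ord_add v hf hg0 hfg
    rwa [min_eq_left hlt.le] at this

theorem h70_ord_sum_gt (v : Place K F) {ι : Type*} (s : Finset ι) (t : ι → F) (N : ℤ)
    (h : ∀ i ∈ s, t i = 0 ∨ N < v.ord (t i)) :
    ∑ i ∈ s, t i = 0 ∨ N < v.ord (∑ i ∈ s, t i) := by
  classical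
  induction s using Finset.induction_on with
  | empty => left; simp
  | insert a s ha ih =>
    rw [Finset.sum_insert ha]
    have ih' := ih (fun i hi => h i (Finset.mem_insert_of_mem hi))
    have h0 := h a (Finset.mem_insert_self a s)
    by_cases hta : t a = 0
    · rw [hta, zero_add]
      exact ih'
    by_cases hr : ∑ i ∈ s, t i = 0
    · rw [hr, add_zero]
      exact Or.inr (h0.resolve_left hta)
    by_cases hsum : t a + ∑ i ∈ s, t i = 0
    · exact Or.inl hsum
    right
    have := h35_ord_add v hta hr hsum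
    have h1 := h0.resolve_left hta
    have h2 := ih'.resolve_left hr
    exact lt_of_lt_of_le (lt_min h1 h2) this

/-- **(W1)** a finite sum of nonzero terms with pairwise distinct orders at a place is nonzero,
and its order is the order of the unique term of minimal order. -/
theorem h70_sum_ne_zero_of_ord_injOn (v : Place K F) {ι : Type*} (s : Finset ι) (t : ι → F)
    (hne : s.Nonempty) (h0 : ∀ i ∈ s, t i ≠ 0)
    (hinj : ∀ i ∈ s, ∀ j ∈ s, v.ord (t i) = v.ord (t j) → i = j) :
    ∑ i ∈ s, t i ≠ 0 ∧ ∃ i ∈ s, v.ord (∑ i ∈ s, t i) = v.ord (t i) ∧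
      ∀ j ∈ s, j ≠ i → v.ord (t i) < v.ord (t j) := by
  classical
  obtain ⟨i, hi, hmin⟩ := s.exists_min_image (fun i => v.ord (t i)) hne
  have hlt : ∀ j ∈ s, j ≠ i → v.ord (t i) < v.ord (t j) := fun j hj hji =>
    lt_of_le_of_ne (hmin j hj) (fun h => hji (hinj i hi j hj h).symm)
  have hrest := h70_ord_sum_gt v (s.erase i) t (v.ord (t i))
    (fun j hj => Or.inr (hlt j (Finset.mem_of_mem_erase hj) (Finset.ne_of_mem_erase hj)))
  have := h70_ord_add_eq_of_lt v (h0 i hi) hrest
  rw [Finset.add_sum_erase s t hi] at this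
  exact ⟨this.1, i, hi, this.2, hlt⟩

theorem h70_ne_zero_of_ord {v : Place K F} {f : F} {m : ℤ} (hm : m ≠ 0) (h : v.ord f = m) :
    f ≠ 0 := by
  rintro rfl
  rw [Place.ord_zero] at h
  exact hm h.symm

/-- `ord (p(x)) = -(n * deg p)` when `x` has a pole of order `n > 0`. -/
theorem h70_ord_aeval (v : Place K F) {x : F} {n : ℕ} (hn : 0 < n) (hx : v.ord x = -(n : ℤ))
    {p : K[X]} (hp : p ≠ 0) :
    aeval x p ≠ 0 ∧ v.ord (aeval x p) = -((n * p.natDegree : ℕ) : ℤ) := by
  have hx0 : x ≠ 0 := h70_ne_zero_of_ord (by omega) hx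
  have hc0 : ∀ i ∈ p.support, algebraMap K F (p.coeff i) ≠ 0 := fun i hi => by
    simpa using Polynomial.mem_support_iff.mp hi
  have hord : ∀ i ∈ p.support,
      v.ord (algebraMap K F (p.coeff i) * x ^ i) = -((n * i : ℕ) : ℤ) := by
    intro i hi
    rw [v.ord_mul (hc0 i hi) (pow_ne_zero _ hx0), h35_ord_algebraMap, h70_ord_pow, hx]
    push_cast
    ring
  have key := h70_sum_ne_zero_of_ord_injOn v p.support
    (fun i => algebraMap K F (p.coeff i) * x ^ i)
    (by rwa [Polynomial.support_nonempty])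
    (fun i hi => mul_ne_zero (hc0 i hi) (pow_ne_zero _ hx0)) (by
      intro i hi j hj h
      rw [hord i hi, hord j hj] at h
      have h' : n * i = n * j := by exact_mod_cast neg_inj.mp h
      exact Nat.eq_of_mul_eq_mul_left hn h')
  have hsum : aeval x p = ∑ i ∈ p.support, algebraMap K F (p.coeff i) * x ^ i := by
    rw [Polynomial.aeval_def, Polynomial.eval₂_eq_sum, Polynomial.sum_def]
  rw [hsum]
  obtain ⟨hne, i, hi, hordsum, hlt⟩ := key
  refine ⟨hne, ?_⟩
  have hnd : p.natDegree ∈ p.support := Polynomial.natDegree_mem_support_of_nonzero hp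
  have hi_eq : i = p.natDegree := by
    by_contra hcon
    have := hlt _ hnd (Ne.symm hcon)
    rw [hord i hi, hord _ hnd] at this
    have h1 : n * p.natDegree < n * i := by exact_mod_cast neg_lt_neg_iff.mp this
    have h2 : i ≤ p.natDegree := Polynomial.le_natDegree_of_mem_supp i hi
    have h3 : n * i ≤ n * p.natDegree := Nat.mul_le_mul_left n h2
    omega
  rw [hordsum, hord i hi, hi_eq]

theorem h70_wt_inj {n d d' i j : ℕ} (hi : i < n) (hj : j < n)
    (h : n * d + (n + 1) * i = n * d' + (n + 1) * j) : i = j := by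
  have h1 : (n * (d + i) + i) % n = (n * (d' + j) + j) % n := by
    congr 1
    nlinarith
  rwa [Nat.mul_add_mod, Nat.mul_add_mod, Nat.mod_eq_of_lt hi, Nat.mod_eq_of_lt hj] at h1

theorem h70_ord_term (v : Place K F) {x y : F} {n : ℕ} (hn : 0 < n)
    (hx : v.ord x = -(n : ℤ)) (hy : v.ord y = -((n : ℤ) + 1)) {p : K[X]} (hp : p ≠ 0)
    (i : ℕ) :
    aeval x p * y ^ i ≠ 0 ∧
      v.ord (aeval x p * y ^ i) = -((n * p.natDegree + (n + 1) * i : ℕ) : ℤ) := by
  have hy0 : y ≠ 0 := h70_ne_zero_of_ord (by omega) hy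
  obtain ⟨h1, h2⟩ := h70_ord_aeval v hn hx hp
  refine ⟨mul_ne_zero h1 (pow_ne_zero _ hy0), ?_⟩
  rw [v.ord_mul h1 (pow_ne_zero _ hy0), h2, h70_ord_pow, hy]
  push_cast
  ring

/-- **(W2)** `1, y, …, y^(n-1)` are independent over `K[x]`. -/
theorem h70_indep_poly (v : Place K F) {x y : F} {n : ℕ} (hn : 0 < n)
    (hx : v.ord x = -(n : ℤ)) (hy : v.ord y = -((n : ℤ) + 1)) (c : Fin n → K[X])
    (h : ∑ i, aeval x (c i) * y ^ (i : ℕ) = 0) : ∀ i, c i = 0 := by
  classical
  by_contra hcon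
  push Not at hcon
  obtain ⟨i0, hi0⟩ := hcon
  have hsum : ∑ i ∈ Finset.univ.filter (fun i => c i ≠ 0), aeval x (c i) * y ^ (i : ℕ) = 0 := by
    rw [← h]
    apply Finset.sum_filter_of_ne
    intro i _ hne hci
    apply hne
    rw [hci, map_zero, zero_mul]
  have key := h70_sum_ne_zero_of_ord_injOn v (Finset.univ.filter (fun i => c i ≠ 0))
    (fun i => aeval x (c i) * y ^ (i : ℕ)) ⟨i0, by simp [hi0]⟩
    (fun i hi => (h70_ord_term v hn hx hy (Finset.mem_filter.mp hi).2 _).1) (by
      intro i hi j hj hij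
      rw [(h70_ord_term v hn hx hy (Finset.mem_filter.mp hi).2 _).2,
        (h70_ord_term v hn hx hy (Finset.mem_filter.mp hj).2 _).2] at hij
      have h' : n * (c i).natDegree + (n + 1) * (i : ℕ) = n * (c j).natDegree + (n + 1) * (j : ℕ) := by
        exact_mod_cast neg_inj.mp hij
      exact Fin.ext (h70_wt_inj i.2 j.2 h'))
  exact key.1 hsum

/-- **(W2')** `1, y, …, y^(n-1)` are independent over `K⟮x⟯`. -/
theorem h70_indep_adjoin (v : Place K F) {x y : F} {n : ℕ} (hn : 0 < n)
    (hx : v.ord x = -(n : ℤ)) (hy : v.ord y = -((n : ℤ) + 1)) (c : Fin n → K⟮x⟯)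
    (h : ∑ i, algebraMap K⟮x⟯ F (c i) * y ^ (i : ℕ) = 0) : ∀ i, c i = 0 := by
  classical
  have hrs : ∀ i, ∃ r s : K[X], aeval x s ≠ 0 ∧
      algebraMap K⟮x⟯ F (c i) * aeval x s = aeval x r := by
    intro i
    obtain ⟨r, s, hrs⟩ := (IntermediateField.mem_adjoin_simple_iff K (c i : F)).mp (c i).2
    by_cases hs : aeval x s = 0
    · refine ⟨0, 1, by simp, ?_⟩
      have : algebraMap K⟮x⟯ F (c i) = 0 := by
        change ((c i : K⟮x⟯) : F) = 0
        rw [hrs, hs, div_zero]
      rw [this]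
      simp
    · refine ⟨r, s, hs, ?_⟩
      change ((c i : K⟮x⟯) : F) * _ = _
      rw [hrs, div_mul_cancel₀ _ hs]
  choose r s hs hrs using hrs
  have hQ : ∏ j, aeval x (s j) ≠ 0 := Finset.prod_ne_zero_iff.mpr (fun j _ => hs j)
  have hc' : ∀ i, aeval x (r i * ∏ j ∈ Finset.univ.erase i, s j) =
      algebraMap K⟮x⟯ F (c i) * ∏ j, aeval x (s j) := by
    intro i
    rw [map_mul, map_prod, ← hrs i, mul_assoc,
      Finset.mul_prod_erase Finset.univ (fun j => aeval x (s j)) (Finset.mem_univ i)]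
  have hzero := h70_indep_poly v hn hx hy (fun i => r i * ∏ j ∈ Finset.univ.erase i, s j) (by
    simp only [hc']
    have : ∀ i : Fin n, algebraMap K⟮x⟯ F (c i) * (∏ j, aeval x (s j)) * y ^ (i : ℕ) =
        (∏ j, aeval x (s j)) * (algebraMap K⟮x⟯ F (c i) * y ^ (i : ℕ)) := fun i => by ring
    simp only [this]
    rw [← Finset.mul_sum, h, mul_zero])
  intro i
  have h1 := hc' i
  rw [hzero i, map_zero] at h1
  have h2 : algebraMap K⟮x⟯ F (c i) = 0 := by
    rcases mul_eq_zero.mp h1.symm with h2 | h2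
    · exact h2
    · exact absurd h2 hQ
  exact (algebraMap K⟮x⟯ F).injective (by rw [h2, map_zero])

/-- **(W2'')** the `LinearIndependent` form. -/
theorem h70_linearIndependent_pow (v : Place K F) {x y : F} {n : ℕ} (hn : 0 < n)
    (hx : v.ord x = -(n : ℤ)) (hy : v.ord y = -((n : ℤ) + 1)) :
    LinearIndependent K⟮x⟯ (fun i : Fin n => y ^ (i : ℕ)) := by
  rw [Fintype.linearIndependent_iff]
  intro g hg
  apply h70_indep_adjoin v hn hx hy g
  simpa [Algebra.smul_def] using hg

/-- **(W3)** the weighted shape of a monic relation of degree `n` of `y` over `K[x]`. -/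
theorem h70_weights (v : Place K F) {x y : F} {n : ℕ} (hn : 0 < n)
    (hx : v.ord x = -(n : ℤ)) (hy : v.ord y = -((n : ℤ) + 1))
    (Φ : Polynomial (Polynomial K)) (hmonic : Φ.Monic) (hdeg : Φ.natDegree = n)
    (hΦ : Polynomial.eval₂ ((aeval x : K[X] →ₐ[K] F) : K[X] →+* F) y Φ = 0) :
    (Φ.coeff 0).natDegree = n + 1 ∧
      ∀ j, 0 < j → j < n → n * (Φ.coeff j).natDegree + (n + 1) * j < n * (n + 1) := by
  classical
  have hy0 : y ≠ 0 := h70_ne_zero_of_ord (by omega) hy
  rw [Polynomial.eval₂_eq_sum_range, hdeg, Finset.sum_range_succ] at hΦ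
  have hlead : Φ.coeff n = 1 := by
    rw [← hdeg]
    exact hmonic.coeff_natDegree
  rw [hlead, map_one, one_mul] at hΦ
  have hΦ' : ∑ j ∈ Finset.range n, aeval x (Φ.coeff j) * y ^ j = -y ^ n := by
    have : ∀ j, ((aeval x : K[X] →ₐ[K] F) : K[X] →+* F) (Φ.coeff j) = aeval x (Φ.coeff j) :=
      fun j => rfl
    simp only [this] at hΦ
    linear_combination hΦ
  have hsum : ∑ j ∈ (Finset.range n).filter (fun j => Φ.coeff j ≠ 0),
      aeval x (Φ.coeff j) * y ^ j = -y ^ n := by
    rw [← hΦ']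
    apply Finset.sum_filter_of_ne
    intro i _ hne hci
    apply hne
    rw [hci, map_zero, zero_mul]
  have hyn : -y ^ n ≠ 0 := neg_ne_zero.mpr (pow_ne_zero _ hy0)
  have hne : ((Finset.range n).filter (fun j => Φ.coeff j ≠ 0)).Nonempty := by
    by_contra hcon
    rw [Finset.not_nonempty_iff_eq_empty] at hcon
    rw [hcon, Finset.sum_empty] at hsum
    exact hyn hsum.symm
  have hmem : ∀ {j}, j ∈ (Finset.range n).filter (fun j => Φ.coeff j ≠ 0) →
      j < n ∧ Φ.coeff j ≠ 0 := fun hj =>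
    ⟨Finset.mem_range.mp (Finset.mem_filter.mp hj).1, (Finset.mem_filter.mp hj).2⟩
  obtain ⟨-, i, hi, hordsum, hlt⟩ := h70_sum_ne_zero_of_ord_injOn v
    ((Finset.range n).filter (fun j => Φ.coeff j ≠ 0))
    (fun j => aeval x (Φ.coeff j) * y ^ j) hne
    (fun j hj => (h70_ord_term v hn hx hy (hmem hj).2 _).1) (by
      intro i hi j hj hij
      rw [(h70_ord_term v hn hx hy (hmem hi).2 _).2,
        (h70_ord_term v hn hx hy (hmem hj).2 _).2] at hij
      have h' : n * (Φ.coeff i).natDegree + (n + 1) * i = n * (Φ.coeff j).natDegree + (n + 1) * j := by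
        exact_mod_cast neg_inj.mp hij
      exact h70_wt_inj (hmem hi).1 (hmem hj).1 h')
  have hordy : v.ord (-y ^ n) = -((n * (n + 1) : ℕ) : ℤ) := by
    rw [h35_ord_neg, h70_ord_pow, hy]
    push_cast
    ring
  rw [hsum, hordy, (h70_ord_term v hn hx hy (hmem hi).2 _).2] at hordsum
  have hnat : n * (n + 1) = n * (Φ.coeff i).natDegree + (n + 1) * i := by
    exact_mod_cast neg_inj.mp hordsum
  have hi0 : i = 0 := by
    have h' : n * (Φ.coeff i).natDegree + (n + 1) * i = n * (n + 1) + (n + 1) * 0 := by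
      rw [← hnat]; ring
    exact h70_wt_inj (hmem hi).1 hn h'
  subst hi0
  have hd0 : (Φ.coeff 0).natDegree = n + 1 := by
    have : n * (n + 1) = n * (Φ.coeff 0).natDegree := by rw [hnat]; ring
    exact (Nat.eq_of_mul_eq_mul_left hn this).symm
  refine ⟨hd0, ?_⟩
  intro j hj0 hjn
  by_cases hcj : Φ.coeff j = 0
  · rw [hcj, Polynomial.natDegree_zero, Nat.mul_zero, Nat.zero_add]
    have : (n + 1) * j < (n + 1) * n := Nat.mul_lt_mul_of_pos_left hjn (Nat.succ_pos n)
    rw [Nat.mul_comm n (n + 1)]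
    exact this
  · have hjmem : j ∈ (Finset.range n).filter (fun j => Φ.coeff j ≠ 0) :=
      Finset.mem_filter.mpr ⟨Finset.mem_range.mpr hjn, hcj⟩
    have := hlt j hjmem hj0.ne'
    rw [(h70_ord_term v hn hx hy (hmem hi).2 _).2, (h70_ord_term v hn hx hy hcj _).2] at this
    have h1 : n * (Φ.coeff j).natDegree + (n + 1) * j < n * (Φ.coeff 0).natDegree + (n + 1) * 0 := by
      exact_mod_cast neg_lt_neg_iff.mp this
    rw [hd0] at h1
    omega

end Fermat.Agent.S27
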