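import Mathlib

/-!
# S27 / B2 CHART-EX: the weight argument (Mathlib only)

`v` a valuation on a `K`-algebra `F` (a field), trivial on `K`, with `v x = exp n`,
`v y = exp (n + 1)` (`x`, `y` have poles of order `n`, `n + 1` at one place).  A monic
`Φ ∈ K[X][Y]` of `Y`-degree `0 < d ≤ n` with `Φ(x, y) = 0` has `d = n`, `deg Φ(X, 0) = n + 1` and
all other monomials of weight `< n (n + 1)`.
-/

set_option autoImplicit false

open Polynomial

namespace Fermat.Agent.S27

/-- the valuation of a polynomial in an element of valuation `> 1`. -/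
theorem h19_val_aeval {K F Γ₀ : Type*} [Field K] [Field F] [Algebra K F]
    [LinearOrderedCommGroupWithZero Γ₀] (v : Valuation F Γ₀)
    (hK : ∀ a : K, a ≠ 0 → v (algebraMap K F a) = 1) (x : F) (hx : 1 < v x)
    (c : K[X]) (hc : c ≠ 0) : v (aeval x c) = v x ^ c.natDegree := by
  rw [Polynomial.aeval_eq_sum_range, Finset.sum_range_succ]
  have hlead : v (c.coeff c.natDegree • x ^ c.natDegree) = v x ^ c.natDegree := by
    rw [Algebra.smul_def, map_mul, map_pow, Polynomial.coeff_natDegree,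
      hK _ (Polynomial.leadingCoeff_ne_zero.mpr hc), one_mul]
  have hpos : 0 < v x := zero_lt_one.trans hx
  have hlt : v (∑ i ∈ Finset.range c.natDegree, c.coeff i • x ^ i) < v x ^ c.natDegree := by
    refine Valuation.map_sum_lt v (pow_pos hpos _).ne' fun i hi => ?_
    rw [Algebra.smul_def, map_mul, map_pow]
    by_cases h0 : c.coeff i = 0
    · rw [h0, map_zero, map_zero, zero_mul]
      exact pow_pos hpos _
    · rw [hK _ h0, one_mul]
      exact pow_lt_pow_right₀ hx (Finset.mem_range.mp hi)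
  rw [Valuation.map_add_eq_of_lt_right v (by rw [hlead]; exact hlt), hlead]

/-- two monomials `x^a y^b`, `x^a' y^b'` (`b, b' ≤ n`, `b ≠ b'`) of the same weight
`n a + (n + 1) b` are `x^(n+1)` and `y^n`. -/
theorem h19_weight_aux (n a a' b b' : ℕ) (hn : 0 < n) (hb : b ≤ n) (hb' : b' ≤ n) (hne : b ≠ b')
    (h : n * a + (n + 1) * b = n * a' + (n + 1) * b') :
    (b = 0 ∧ b' = n) ∨ (b = n ∧ b' = 0) := by
  have hz : (n : ℤ) * a + (n + 1) * b = n * a' + (n + 1) * b' := by exact_mod_cast h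
  have hcop : IsCoprime (n : ℤ) ((n : ℤ) + 1) := ⟨-1, 1, by ring⟩
  have hdvd : (n : ℤ) ∣ ((n : ℤ) + 1) * ((b : ℤ) - b') :=
    ⟨(a' : ℤ) - a, by linear_combination hz⟩
  obtain ⟨k, hk⟩ := hcop.dvd_of_dvd_mul_left hdvd
  have hk0 : k ≠ 0 := by
    rintro rfl
    apply hne
    have : (b : ℤ) = b' := by linarith
    exact_mod_cast this
  have hb1 : (b : ℤ) ≤ n := by exact_mod_cast hb
  have hb1' : (b' : ℤ) ≤ n := by exact_mod_cast hb'
  have hnz : (0 : ℤ) < n := by exact_mod_cast hn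
  have hb0 := Int.natCast_nonneg b
  have hb0' := Int.natCast_nonneg b'
  rcases lt_or_gt_of_ne hk0 with hneg | hpos
  · left
    have h3 : (n : ℤ) * k ≤ -n := by nlinarith
    have h1 : (b : ℤ) = 0 := by linarith
    have h2 : (b' : ℤ) = n := by linarith
    exact ⟨by exact_mod_cast h1, by exact_mod_cast h2⟩
  · right
    have h3 : (n : ℤ) ≤ n * k := by nlinarith
    have h1 : (b' : ℤ) = 0 := by linarith
    have h2 : (b : ℤ) = n := by linarith
    exact ⟨by exact_mod_cast h2, by exact_mod_cast h1⟩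

open WithZero in
/-- **The weight argument.** -/
theorem h19_weights {K F : Type*} [Field K] [Field F] [Algebra K F]
    (v : Valuation F ℤᵐ⁰) (hK : ∀ a : K, a ≠ 0 → v (algebraMap K F a) = 1)
    (x y : F) (n : ℕ) (hn : 0 < n) (hx : v x = exp (n : ℤ)) (hy : v y = exp ((n : ℤ) + 1))
    (Φ : Polynomial (Polynomial K)) (hmonic : Φ.Monic) (hdeg : Φ.natDegree ≤ n)
    (hΦ : Polynomial.eval₂ ((aeval x : K[X] →ₐ[K] F) : K[X] →+* F) y Φ = 0) :
    Φ.natDegree = n ∧ (Φ.coeff 0).natDegree = n + 1 ∧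
      ∀ j, 0 < j → j < n → n * (Φ.coeff j).natDegree + (n + 1) * j < n * (n + 1) := by
  classical
  obtain ⟨d, hd⟩ : ∃ d, d = Φ.natDegree := ⟨_, rfl⟩
  obtain ⟨f, hf⟩ : ∃ f : K[X] →+* F, f = ((aeval x : K[X] →ₐ[K] F) : K[X] →+* F) := ⟨_, rfl⟩
  obtain ⟨w, hw⟩ : ∃ w : ℕ → ℕ, ∀ b, w b = n * (Φ.coeff b).natDegree + (n + 1) * b :=
    ⟨fun b => n * (Φ.coeff b).natDegree + (n + 1) * b, fun _ => rfl⟩
  rw [← hf] at hΦ
  rw [← hd] at hdeg
  have hx1 : 1 < v x := by
    rw [hx, ← exp_zero, exp_lt_exp]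
    exact_mod_cast hn
  have hval : ∀ b, Φ.coeff b ≠ 0 → v (f (Φ.coeff b) * y ^ b) = exp ((w b : ℕ) : ℤ) := by
    intro b hb
    have h1 : v (f (Φ.coeff b)) = v x ^ (Φ.coeff b).natDegree := by
      rw [hf]
      exact h19_val_aeval v hK x hx1 _ hb
    rw [map_mul, map_pow, h1, hx, hy, ← exp_nsmul, ← exp_nsmul, ← exp_add, hw]
    congr 1
    simp only [nsmul_eq_mul]
    push_cast
    ring
  have hsum : ∑ b ∈ Finset.range (d + 1), f (Φ.coeff b) * y ^ b = 0 := by
    rw [hd, ← Polynomial.eval₂_eq_sum_range]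
    exact hΦ
  obtain ⟨S, hS⟩ : ∃ S : Finset ℕ, S = (Finset.range (d + 1)).filter fun b => Φ.coeff b ≠ 0 :=
    ⟨_, rfl⟩
  have hmemS : ∀ b, b ∈ S ↔ b ≤ d ∧ Φ.coeff b ≠ 0 := by
    intro b
    rw [hS, Finset.mem_filter, Finset.mem_range, Nat.lt_succ_iff]
  have hcd : Φ.coeff d = 1 := by
    rw [hd, Polynomial.coeff_natDegree, hmonic.leadingCoeff]
  have hdS : d ∈ S := (hmemS d).mpr ⟨le_rfl, by rw [hcd]; exact one_ne_zero⟩
  obtain ⟨b₀, hb₀S, hb₀max⟩ := Finset.exists_max_image S w ⟨d, hdS⟩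
  have hb₀ := (hmemS b₀).mp hb₀S
  -- the maximal weight is attained twice
  have htwice : ∃ b' ∈ S, b' ≠ b₀ ∧ w b' = w b₀ := by
    by_contra hcon
    push Not at hcon
    have hlt : v (∑ b ∈ (Finset.range (d + 1)).erase b₀, f (Φ.coeff b) * y ^ b) <
        exp ((w b₀ : ℕ) : ℤ) := by
      refine Valuation.map_sum_lt v exp_ne_zero fun b hb => ?_
      obtain ⟨hbne, hbr⟩ := Finset.mem_erase.mp hb
      by_cases h0 : Φ.coeff b = 0
      · rw [h0, map_zero, zero_mul, map_zero]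
        exact exp_pos
      · have hbS : b ∈ S := (hmemS b).mpr ⟨Nat.lt_succ_iff.mp (Finset.mem_range.mp hbr), h0⟩
        rw [hval b h0, exp_lt_exp]
        have h1 := hb₀max b hbS
        have h2 := hcon b hbS hbne
        exact_mod_cast lt_of_le_of_ne h1 h2
    have hsplit := Finset.add_sum_erase (Finset.range (d + 1))
      (fun b => f (Φ.coeff b) * y ^ b) (Finset.mem_range.mpr (Nat.lt_succ_iff.mpr hb₀.1))
    rw [hsum] at hsplit
    have h3 : f (Φ.coeff b₀) * y ^ b₀ =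
        -∑ b ∈ (Finset.range (d + 1)).erase b₀, f (Φ.coeff b) * y ^ b :=
      eq_neg_of_add_eq_zero_left hsplit
    have h4 := hval b₀ hb₀.2
    rw [h3, Valuation.map_neg] at h4
    rw [h4] at hlt
    exact lt_irrefl _ hlt
  obtain ⟨b', hb'S, hb'ne, hb'w⟩ := htwice
  have hb' := (hmemS b').mp hb'S
  have haux := h19_weight_aux n _ _ b' b₀ hn (hb'.1.trans hdeg) (hb₀.1.trans hdeg) hb'ne
    (by rw [← hw, ← hw]; exact hb'w)
  have hdn : d = n := by
    rcases haux with ⟨-, h⟩ | ⟨h, -⟩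
    · have := hb₀.1
      omega
    · have := hb'.1
      omega
  have hcn : Φ.coeff n = 1 := by rw [← hdn]; exact hcd
  have hwn : w n = (n + 1) * n := by
    rw [hw, hcn, Polynomial.natDegree_one, mul_zero, zero_add]
  have hmax : w b₀ = (n + 1) * n := by
    rcases haux with ⟨-, h⟩ | ⟨h, -⟩
    · rw [h, hwn]
    · rw [← hb'w, h, hwn]
  have hw0 : w 0 = (n + 1) * n := by
    rcases haux with ⟨h, -⟩ | ⟨-, h⟩
    · rw [← h, hb'w, hmax]
    · rw [← h, hmax]
  refine ⟨hd ▸ hdn, ?_, ?_⟩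
  · have h5 : n * (Φ.coeff 0).natDegree = n * (n + 1) := by
      have := hw0
      rw [hw, mul_zero, add_zero] at this
      rw [this, mul_comm]
    exact Nat.eq_of_mul_eq_mul_left hn h5
  · intro j hj0 hjn
    by_cases h0 : Φ.coeff j = 0
    · rw [h0, Polynomial.natDegree_zero, mul_zero, zero_add, mul_comm n (n + 1)]
      exact Nat.mul_lt_mul_of_pos_left hjn (Nat.succ_pos n)
    · have hjS : j ∈ S := (hmemS j).mpr ⟨by omega, h0⟩
      have h1 := hb₀max j hjS
      rw [hmax] at h1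
      have h2 : w j ≠ (n + 1) * n := by
        intro h2
        have := h19_weight_aux n _ _ j n hn hjn.le le_rfl hjn.ne
          (by rw [← hw, ← hw, h2, hwn])
        rcases this with ⟨h, -⟩ | ⟨h, -⟩ <;> omega
      have h3 := lt_of_le_of_ne h1 h2
      rw [hw] at h3
      rw [mul_comm n (n + 1)]
      exact h3

end Fermat.Agent.S27
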