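import Mathlib
import Fermat.Agent.S27.RRFull
import Fermat.Agent.S27.h19_Weights
import Fermat.Agent.S18.h17_HoloCore
import Fermat.Agent.S18.RR_Chart
import Fermat.Agent.S18.RR_Riemann
import Fermat.Agent.S24.h73_Diff
import Fermat.Agent.S24.h24_Fibre
import Fermat.Agent.S24.h35_PlaceBasic

/-!
# S27 / B2 CHART-EX (row 489): a plane model of weighted shape

`K` algebraically closed of characteristic zero, `F / K` a function field with a chart.  There
are `x, y ∈ F` with pole divisors `n P₀`, `(n + 1) P₀` (`n = 2 g + 1`); `x` is a chart of degree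
`n`; the minimal polynomial `Φ ∈ K[X][Y]` of `y` over `K[x]` is monic of degree `n` with
`deg Φ(X, 0) = n + 1` and all other monomials of weight `< n (n + 1)`; and there is a nonzero
`d ∈ K[X]` vanishing at all finite branch values of `x`.
-/

set_option autoImplicit false

noncomputable section

open AlgebraicCurve Polynomial IntermediateField
open Fermat.Agent.S18 Fermat.Agent.S24

namespace Fermat.Agent.S27

section

variable {K F : Type*} [Field K] [IsAlgClosed K] [Field F] [Algebra K F]

/-- a function with a pole of exact order `k + 1` at `P₀` and no other pole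
(`k + 1 ≥ 2 g`). -/
theorem h19_exists_pole {x0 : F} (hx0 : h75_IsChart K x0) (P0 : Place K F) (k : ℕ)
    (hk : 2 * h75_genus K x0 ≤ k + 1) :
    ∃ f : F, f ≠ 0 ∧ P0.ord f = -((k : ℤ) + 1) ∧ ∀ P : Place K F, P ≠ P0 → 0 ≤ P.ord f := by
  classical
  have hdeg1 : (P0.deg : ℤ) = 1 := by exact_mod_cast h75_deg_eq_one hx0 P0
  have hdeg : ∀ m : ℤ, Divisor.degree (Finsupp.single P0 m : Divisor K F) = m := by
    intro m
    rw [Divisor.degree_single, hdeg1, mul_one]
  have h1 := h15_finrank_rr_of_deg hx0 (Finsupp.single P0 ((k : ℤ) + 1))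
    (by rw [hdeg]; omega)
  have h2 := h15_finrank_rr_of_deg hx0 (Finsupp.single P0 (k : ℤ)) (by rw [hdeg]; omega)
  rw [hdeg] at h1 h2
  have hle : riemannRochSpace (Finsupp.single P0 (k : ℤ) : Divisor K F) ≤
      riemannRochSpace (Finsupp.single P0 ((k : ℤ) + 1)) := by
    intro f hf
    rw [mem_riemannRochSpace_iff] at hf ⊢
    intro v
    rcases hf v with h | h
    · exact Or.inl h
    · right
      rw [Finsupp.single_apply] at h ⊢
      split_ifs at h ⊢ <;> omega
  have hne : riemannRochSpace (Finsupp.single P0 (k : ℤ) : Divisor K F) ≠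
      riemannRochSpace (Finsupp.single P0 ((k : ℤ) + 1)) := by
    intro heq
    rw [heq] at h2
    omega
  obtain ⟨f, hf, hfn⟩ := SetLike.exists_of_lt (lt_of_le_of_ne hle hne)
  have hf0 : f ≠ 0 := by
    rintro rfl
    exact hfn (Submodule.zero_mem _)
  rw [mem_riemannRochSpace_iff] at hf hfn
  have hreg : ∀ P : Place K F, P ≠ P0 → 0 ≤ P.ord f := by
    intro P hP
    rcases hf P with h | h
    · exact absurd h hf0
    · rw [Finsupp.single_apply, if_neg (Ne.symm hP)] at h
      omega
  refine ⟨f, hf0, ?_, hreg⟩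
  push Not at hfn
  obtain ⟨v, -, hv⟩ := hfn
  have hvP : v = P0 := by
    by_contra hvP
    rw [Finsupp.single_apply, if_neg (Ne.symm hvP)] at hv
    have := hreg v hvP
    omega
  subst hvP
  rcases hf v with h | h
  · exact absurd h hf0
  · rw [Finsupp.single_apply, if_pos rfl] at h hv
    omega


omit [IsAlgClosed K] in
theorem h19_finrank_congr {E₁ E₂ : IntermediateField K F} (h : E₁ = E₂) :
    Module.finrank E₁ F = Module.finrank E₂ F := by
  subst h
  rfl

/-- a function with a single pole, of order `n > 0`, is a chart of degree `n`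
(characteristic zero). -/
theorem h19_isChart_of_pole [CharZero K] {x0 : F} (hx0 : h75_IsChart K x0) (P0 : Place K F)
    (x : F) (n : ℕ) (hn : 0 < n) (hord : P0.ord x = -(n : ℤ))
    (hreg : ∀ P : Place K F, P ≠ P0 → 0 ≤ P.ord x) :
    h75_IsChart K x ∧ Module.finrank K⟮x⟯ F = n := by
  classical
  have htr : Transcendental K x := by
    intro halg
    obtain ⟨c, rfl⟩ := h73_mem_range_of_isAlgebraic halg
    rw [h35_ord_algebraMap] at hord
    omega
  have hF : h73_IsFF K F := ⟨x0, hx0.fin⟩
  have hfin : FiniteDimensional K⟮x⟯ F := h73_finite_of_transcendental hF htr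
  have hcz : CharZero K⟮x⟯ := charZero_of_injective_algebraMap (algebraMap K K⟮x⟯).injective
  have hx : h75_IsChart K x := ⟨htr, hfin, inferInstance⟩
  refine ⟨hx, ?_⟩
  have hxi : h75_IsChart K x⁻¹ := h75_isChart_inv hx
  obtain ⟨s, hs, hsum⟩ := h75_fibre_main hxi 0
  have hs' : s = {P0} := by
    ext P
    rw [hs, Finset.mem_singleton, map_zero, sub_zero, Place.ord_inv]
    constructor
    · intro h
      by_contra hP
      have := hreg P hP
      omega
    · rintro rfl
      rw [hord]
      omega
  rw [hs', Finset.sum_singleton, map_zero, sub_zero, Place.ord_inv, hord,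
    h19_finrank_congr (h24_adjoin_inv_eq x)] at hsum
  omega

/-- the finite branch values of a chart are the roots of a nonzero polynomial
(characteristic zero). -/
theorem h19_exists_branch_poly [CharZero K] {x : F} (hx : h75_IsChart K x) :
    ∃ d : K[X], d ≠ 0 ∧
      ∀ (P : Place K F) (a : K), 2 ≤ P.ord (x - algebraMap K F a) → d.eval a = 0 := by
  classical
  obtain ⟨𝔡, -, h𝔡b, h𝔡c⟩ := h17_chart_different hx
  -- a place of the chart
  obtain ⟨s0, hs0, hsum0⟩ := h75_fibre_main hx 0
  have hpos : 0 < Module.finrank K⟮x⟯ F := by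
    have := hx.fin
    exact Module.finrank_pos
  have hs0ne : s0.Nonempty := by
    by_contra h
    rw [Finset.not_nonempty_iff_eq_empty] at h
    rw [h, Finset.sum_empty] at hsum0
    omega
  obtain ⟨P1, hP1⟩ := hs0ne
  obtain ⟨d1, hd1, hd10, -⟩ := h𝔡c inferInstance P1 0 ((hs0 P1).mp hP1)
  have hfin : {P : Place K F | P.ord d1 ≠ 0}.Finite := h75_finite_ord_ne hx d1 hd10
  obtain ⟨val, hval⟩ : ∃ val : Place K F → K, ∀ (P : Place K F) (a : K),
      0 < P.ord (x - algebraMap K F a) → val P = a := by
    refine ⟨fun P => if h : ∃ a : K, 0 < P.ord (x - algebraMap K F a) then h.choose else 0, ?_⟩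
    intro P a ha
    have hex : ∃ a : K, 0 < P.ord (x - algebraMap K F a) := ⟨a, ha⟩
    simp only [dif_pos hex]
    by_contra hne
    have h3 := hex.choose_spec
    have hu : x - algebraMap K F hex.choose ≠ 0 := by
      intro h0
      rw [h0, Place.ord_zero] at h3
      exact lt_irrefl _ h3
    have hu' : x - algebraMap K F a ≠ 0 := by
      intro h0
      rw [h0, Place.ord_zero] at ha
      exact lt_irrefl _ ha
    have hdiff : x - algebraMap K F hex.choose - (x - algebraMap K F a) =
        algebraMap K F (a - hex.choose) := by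
      rw [map_sub]
      ring
    have hc : algebraMap K F (a - hex.choose) ≠ 0 := by
      rw [Ne, map_eq_zero, sub_eq_zero]
      exact fun h => hne h.symm
    have h4 := h35_ord_sub P hu hu' (by rw [hdiff]; exact hc)
    rw [hdiff, h35_ord_algebraMap] at h4
    omega
  refine ⟨∏ a ∈ hfin.toFinset.image val, (X - C a), ?_, ?_⟩
  · exact (Polynomial.monic_prod_of_monic _ _ fun a _ => Polynomial.monic_X_sub_C a).ne_zero
  · intro P a h2
    have hpos : 0 < P.ord (x - algebraMap K F a) := by omega
    have hP : P ∈ hfin.toFinset := by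
      rw [Set.Finite.mem_toFinset]
      rcases h𝔡b d1 hd1 P a hpos with h | h
      · exact absurd h hd10
      · show P.ord d1 ≠ 0
        omega
    rw [Polynomial.eval_prod]
    exact Finset.prod_eq_zero (Finset.mem_image.mpr ⟨P, hP, hval P a hpos⟩) (by simp)


open scoped IntermediateField.algebraAdjoinAdjoin in
/-- **(B2) CHART-EX.** A plane model of weighted shape: `x, y` with pole divisors `n P₀`,
`(n + 1) P₀`; the minimal polynomial `Φ` of `y` over `K[x]`; a nonzero `d` vanishing at all
finite branch values of `x`. -/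
theorem h15_exists_model [CharZero K] {x0 : F} (hx0 : h75_IsChart K x0) :
    ∃ (x y : F) (n : ℕ) (Φ : Polynomial (Polynomial K)) (d : Polynomial K),
      0 < n ∧ h75_IsChart K x ∧ Module.finrank K⟮x⟯ F = n ∧
      Φ.Monic ∧ Φ.natDegree = n ∧
      Polynomial.eval₂ ((aeval x : K[X] →ₐ[K] F) : K[X] →+* F) y Φ = 0 ∧
      (Φ.coeff 0).natDegree = n + 1 ∧
      (∀ j, 0 < j → j < n → n * (Φ.coeff j).natDegree + (n + 1) * j < n * (n + 1)) ∧
      d ≠ 0 ∧ ∀ (P : Place K F) (a : K), 2 ≤ P.ord (x - algebraMap K F a) → d.eval a = 0 := by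
  classical
  obtain ⟨P0⟩ := h7_exists_place hx0
  obtain ⟨n, hn⟩ : ∃ n : ℕ, n = 2 * h75_genus K x0 + 1 := ⟨_, rfl⟩
  have hn0 : 0 < n := by omega
  -- the two functions
  obtain ⟨x, hx0', hxord, hxreg⟩ := h19_exists_pole hx0 P0 (2 * h75_genus K x0) (by omega)
  obtain ⟨y, hy0, hyord, hyreg⟩ := h19_exists_pole hx0 P0 n (by omega)
  have hxord' : P0.ord x = -(n : ℤ) := by
    rw [hxord, hn]
    push_cast
    ring
  obtain ⟨hx, hrank⟩ := h19_isChart_of_pole hx0 P0 x n hn0 hxord' hxreg
  -- `y` is integral over `K[x]`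
  have hyint : IsIntegral (Algebra.adjoin K {x}) y := by
    rw [h75_isIntegral_iff hx]
    intro P hP
    have hPne : P ≠ P0 := by
      rintro rfl
      have := h35_ord_nonneg_of_mem P hP
      omega
    exact (h35_mem_iff_ord_nonneg P hy0).mpr (hyreg P hPne)
  -- the minimal polynomial over `K[x]`, pulled back to `K[X]`
  let e : K[X] ≃ₐ[K] Algebra.adjoin K {x} := Polynomial.algEquivOfTranscendental K x hx.tr
  have he : ∀ p : K[X], ((e p : Algebra.adjoin K {x}) : F) = aeval x p := by
    intro p
    have h1 : e p = aeval (⟨x, Algebra.self_mem_adjoin_singleton K x⟩ : Algebra.adjoin K {x}) p :=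
      Polynomial.algEquivOfTranscendental_apply K x hx.tr p
    rw [h1, ← Subalgebra.aeval_coe]
  obtain ⟨Φ, hΦdef⟩ : ∃ Φ : Polynomial (Polynomial K),
      Φ = (minpoly (Algebra.adjoin K {x}) y).map
        ((e.symm : Algebra.adjoin K {x} ≃ₐ[K] K[X]) : Algebra.adjoin K {x} →+* K[X]) := ⟨_, rfl⟩
  have hmon : (minpoly (Algebra.adjoin K {x}) y).Monic := minpoly.monic hyint
  have hΦmonic : Φ.Monic := by
    rw [hΦdef]
    exact hmon.map _
  have hΦdeg : Φ.natDegree = (minpoly (Algebra.adjoin K {x}) y).natDegree := by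
    rw [hΦdef]
    exact hmon.natDegree_map _
  have hΦeval : Polynomial.eval₂ ((aeval x : K[X] →ₐ[K] F) : K[X] →+* F) y Φ = 0 := by
    rw [hΦdef, Polynomial.eval₂_map]
    have hcomp : (((aeval x : K[X] →ₐ[K] F) : K[X] →+* F).comp
        ((e.symm : Algebra.adjoin K {x} ≃ₐ[K] K[X]) : Algebra.adjoin K {x} →+* K[X])) =
        algebraMap (Algebra.adjoin K {x}) F := by
      ext a
      show aeval x (e.symm a) = (a : F)
      rw [← he, AlgEquiv.apply_symm_apply]
    rw [hcomp]
    exact minpoly.aeval (Algebra.adjoin K {x}) y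
  have hdle : Φ.natDegree ≤ n := by
    rw [hΦdeg]
    have hic : IsIntegrallyClosed (Algebra.adjoin K {x}) :=
      IsIntegrallyClosed.of_equiv e.toRingEquiv
    have h := minpoly.isIntegrallyClosed_eq_field_fractions' K⟮x⟯ hyint
    have hfin := hx.fin
    have h2 := minpoly.natDegree_le (A := K⟮x⟯) y
    rw [h, hmon.natDegree_map, hrank] at h2
    exact h2
  -- the weights
  have hK : ∀ a : K, a ≠ 0 → P0.adicValuation (algebraMap K F a) = 1 := by
    intro a ha
    have h0 : algebraMap K F a ≠ 0 := by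
      rw [Ne, map_eq_zero]
      exact ha
    rw [Place.adicValuation_eq_exp_neg_ord P0 h0, h35_ord_algebraMap, neg_zero, WithZero.exp_zero]
  have hvx : P0.adicValuation x = WithZero.exp (n : ℤ) := by
    rw [Place.adicValuation_eq_exp_neg_ord P0 hx0', hxord', neg_neg]
  have hvy : P0.adicValuation y = WithZero.exp ((n : ℤ) + 1) := by
    rw [Place.adicValuation_eq_exp_neg_ord P0 hy0, hyord, neg_neg]
  obtain ⟨hd, hc0, hw⟩ := h19_weights P0.adicValuation hK x y n hn0 hvx hvy Φ hΦmonic hdle hΦeval
  obtain ⟨d, hd0, hdbr⟩ := h19_exists_branch_poly hx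
  exact ⟨x, y, n, Φ, d, hn0, hx, hrank, hΦmonic, hd, hΦeval, hc0, hw, hd0, hdbr⟩

end

end Fermat.Agent.S27
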