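import Mathlib
import Fermat.Prelude.Def_AlgebraicCurve_IsCurveOver
import Fermat.Prelude.Def_AlgebraicCurve_Repartitions
import Fermat.Agent.S18.Defs
import Fermat.Agent.S18.h75_RRDefs

/-!
# S27: shared definitions (owner helper15)

* `h15_Good K F ℓ` : the count `#Pic⁰(F)[ℓ^j] = ℓ^(2 g j)` for a function field with a chart;
* `h15_TrdegLE K d` : `K` is algebraic over a subring generated by `d` elements;
* `h15_GoodRed K F` : a good reduction of `(K, F)` (reduction datum with a chart, rank-one
  constants, algebraically closed residue field in the universe of `K`).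
-/

set_option autoImplicit false

noncomputable section

open AlgebraicCurve Fermat.Agent.S18

namespace Fermat.Agent.S27

universe u

/-- The count of `ℓ`-power torsion for a function field with a chart. -/
def h15_Good (K : Type*) (F : Type*) [Field K] [Field F] [Algebra K F] (ℓ : ℕ) : Prop :=
  ∀ x : F, h75_IsChart K x → ∀ j : ℕ,
    Nat.card (Pic0.torsion K F (ℓ ^ j)) = ℓ ^ (2 * h75_genus K x * j)

/-- `K` is algebraic over a subring generated by `d` elements. -/
def h15_TrdegLE (K : Type*) [Field K] (d : ℕ) : Prop :=
  ∃ s : Fin d → K, ∀ a : K, IsAlgebraic (Algebra.adjoin ℤ (Set.range s)) a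

/-- A good reduction of `(K, F)`: a reduction datum with a chart, rank-one constants,
algebraically closed residue field (in the universe of `K`). -/
structure h15_GoodRed (K F : Type u) [Field K] [Field F] [Algebra K F] where
  /-- residue field of the constants -/
  k : Type u
  /-- reduced function field -/
  Fb : Type u
  [fk : Field k]
  [fFb : Field Fb]
  [alg : Algebra k Fb]
  [acl : IsAlgClosed k]
  /-- the reduction datum -/
  R : h39_RedDatum K F k Fb
  /-- the chart -/
  x : F
  isChart : h75_IsChart K x
  chart : h39_Chart R x
  rankOne : h39_RankOne R.A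

attribute [instance] h15_GoodRed.fk h15_GoodRed.fFb h15_GoodRed.alg h15_GoodRed.acl

end Fermat.Agent.S27

end
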