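import Mathlib

/-!
# S27 / B1 RED-CONSTR, pure algebra part (helper21)

For `g` irreducible over `RatFunc k`, the field `AdjoinRoot g` over the simple extension
`k⟮x̄⟯`, `x̄` the image of `RatFunc.X`: `x̄` is transcendental, the degree is `g.natDegree`, and
the extension is separable when `g` is.
-/

set_option autoImplicit false

noncomputable section

open Polynomial IntermediateField

namespace Fermat.Agent.S27

variable {k : Type*} [Field k] (g : Polynomial (RatFunc k)) [Fact (Irreducible g)]

/-- the image of `RatFunc k` in `AdjoinRoot g`, as an intermediate field over `k` -/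
def h21_ratRange : IntermediateField k (AdjoinRoot g) :=
  (IsScalarTower.toAlgHom k (RatFunc k) (AdjoinRoot g)).fieldRange

theorem h21_ratRange_eq :
    h21_ratRange g = k⟮(AdjoinRoot.of g RatFunc.X : AdjoinRoot g)⟯ := by
  unfold h21_ratRange
  rw [AlgHom.fieldRange_eq_map, ← RatFunc.adjoin_X, IntermediateField.adjoin_map,
    Set.image_singleton]
  rfl

/-- `RatFunc k` is isomorphic to its image -/
def h21_ratEquiv : RatFunc k ≃ₐ[k] h21_ratRange g :=
  AlgEquiv.ofInjectiveField (IsScalarTower.toAlgHom k (RatFunc k) (AdjoinRoot g))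

theorem h21_ratEquiv_comp :
    (algebraMap (h21_ratRange g) (AdjoinRoot g)).comp
        ((h21_ratEquiv g).toRingEquiv : RatFunc k →+* h21_ratRange g) =
      ((RingEquiv.refl (AdjoinRoot g) : AdjoinRoot g ≃+* AdjoinRoot g) :
        AdjoinRoot g →+* AdjoinRoot g).comp (algebraMap (RatFunc k) (AdjoinRoot g)) := by
  ext a
  rfl

theorem h21_transcendental_X : Transcendental k (AdjoinRoot.of g RatFunc.X : AdjoinRoot g) := by
  have h1 : Transcendental k (RatFunc.X : RatFunc k) := by
    rw [← RatFunc.algebraMap_X]
    exact (transcendental_algebraMap_iff (RatFunc.algebraMap_injective k)).mpr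
      (Polynomial.transcendental_X k)
  exact (transcendental_algebraMap_iff (algebraMap (RatFunc k) (AdjoinRoot g)).injective).mpr h1

theorem h21_finrank_ratRange :
    Module.finrank (h21_ratRange g) (AdjoinRoot g) = g.natDegree := by
  have hg0 : g ≠ 0 := (Fact.out : Irreducible g).ne_zero
  rw [← Algebra.finrank_eq_of_equiv_equiv (h21_ratEquiv g).toRingEquiv (RingEquiv.refl _)
    (h21_ratEquiv_comp g), (AdjoinRoot.powerBasis hg0).finrank, AdjoinRoot.powerBasis_dim]

theorem h21_isSeparable_adjoinRoot (hsep : g.Separable) :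
    Algebra.IsSeparable (RatFunc k) (AdjoinRoot g) := by
  rw [← separableClosure.eq_top_iff]
  have hroot : AdjoinRoot.root g ∈ separableClosure (RatFunc k) (AdjoinRoot g) := by
    rw [mem_separableClosure_iff]
    refine hsep.of_dvd (minpoly.dvd _ _ ?_)
    rw [AdjoinRoot.aeval_eq, AdjoinRoot.mk_self]
  have hle : Algebra.adjoin (RatFunc k) ({AdjoinRoot.root g} : Set (AdjoinRoot g)) ≤
      (separableClosure (RatFunc k) (AdjoinRoot g)).toSubalgebra :=
    Algebra.adjoin_le (by
      intro z hz
      rw [Set.mem_singleton_iff] at hz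
      rw [hz]
      exact hroot)
  rw [AdjoinRoot.adjoinRoot_eq_top] at hle
  rw [eq_top_iff]
  intro z _
  exact hle (Algebra.mem_top)

theorem h21_isSeparable_ratRange (hsep : g.Separable) :
    Algebra.IsSeparable (h21_ratRange g) (AdjoinRoot g) := by
  have := h21_isSeparable_adjoinRoot g hsep
  exact Algebra.IsSeparable.of_equiv_equiv (h21_ratEquiv g).toRingEquiv (RingEquiv.refl _)
    (h21_ratEquiv_comp g)

/-- **The pure part of the weak chart.** -/
theorem h21_adjRatFunc (hsep : g.Separable) :
    Transcendental k (AdjoinRoot.of g RatFunc.X : AdjoinRoot g) ∧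
      Module.finrank k⟮(AdjoinRoot.of g RatFunc.X : AdjoinRoot g)⟯ (AdjoinRoot g) = g.natDegree ∧
      Algebra.IsSeparable k⟮(AdjoinRoot.of g RatFunc.X : AdjoinRoot g)⟯ (AdjoinRoot g) := by
  have h := h21_ratRange_eq g
  refine ⟨h21_transcendental_X g, ?_, ?_⟩
  · rw [← h]
    exact h21_finrank_ratRange g
  · rw [← h]
    exact h21_isSeparable_ratRange g hsep

end Fermat.Agent.S27

end
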