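import Mathlib

/-!
# S27 / B1 RED-CONSTR, abstract core (helper44): unramified extension of a valuation ring

Let `V` be a valuation subring of a field `L` with a surjective residue map `res : V →+* κ` onto a
field, `F / L` a field extension with power basis `1, y, …, y^(n-1)`, where `y` is a root of a
monic `Φ ∈ V[X]` of degree `n` whose reduction `Φ̄ ∈ κ[X]` is irreducible.  Then
`O = V[y] = ⊕ V y^i` is a valuation subring of `F` with residue field `κ[X]/Φ̄`, the power basis is
orthonormal, and `O` has the same value group as `V`.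
-/

set_option autoImplicit false

noncomputable section

namespace Fermat.Agent.S27

open Polynomial

section UE

variable {L F : Type*} [Field L] [Field F] [Algebra L F] (V : ValuationSubring L) (y : F)

/-- Evaluation `V[X] → F`, `p ↦ p(y)`. -/
def h44_ev : Polynomial V →+* F :=
  Polynomial.eval₂RingHom ((algebraMap L F).comp V.subtype) y

theorem h44_ev_apply (p : Polynomial V) :
    h44_ev V y p = p.eval₂ ((algebraMap L F).comp V.subtype) y := rfl

theorem h44_ev_C (c : V) : h44_ev V y (C c) = algebraMap L F (c : L) := by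
  rw [h44_ev_apply, eval₂_C]
  rfl

theorem h44_ev_X : h44_ev V y X = y := by
  rw [h44_ev_apply, eval₂_X]

/-- The polynomial `∑ c_i X^i`. -/
def h44_poly {R : Type*} [Semiring R] {n : ℕ} (c : Fin n → R) : Polynomial R :=
  ∑ i, C (c i) * X ^ (i : ℕ)

theorem h44_poly_coeff {R : Type*} [Semiring R] {n : ℕ} (c : Fin n → R) (i : Fin n) :
    (h44_poly c).coeff i = c i := by
  classical
  unfold h44_poly
  rw [finsetSum_coeff]
  simp only [coeff_C_mul, coeff_X_pow]
  rw [Finset.sum_eq_single i]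
  · simp
  · intro b _ hb
    have : (i : ℕ) ≠ (b : ℕ) := fun h => hb (Fin.ext h.symm)
    simp [this]
  · intro h
    exact absurd (Finset.mem_univ i) h

theorem h44_poly_coeff_ge {R : Type*} [Semiring R] {n : ℕ} (c : Fin n → R) (m : ℕ) (hm : n ≤ m) :
    (h44_poly c).coeff m = 0 := by
  classical
  unfold h44_poly
  rw [finsetSum_coeff]
  apply Finset.sum_eq_zero
  intro b _
  have : m ≠ (b : ℕ) := by
    have := b.2
    omega
  simp [coeff_C_mul, coeff_X_pow, this]

theorem h44_poly_degree_lt {R : Type*} [Semiring R] {n : ℕ} (c : Fin n → R) :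
    (h44_poly c).degree < n := by
  rw [degree_lt_iff_coeff_zero]
  intro m hm
  exact h44_poly_coeff_ge c m hm

theorem h44_poly_map {R S : Type*} [Semiring R] [Semiring S] (f : R →+* S) {n : ℕ}
    (c : Fin n → R) : (h44_poly c).map f = h44_poly (fun i => f (c i)) := by
  unfold h44_poly
  rw [Polynomial.map_sum]
  apply Finset.sum_congr rfl
  intro i _
  rw [Polynomial.map_mul, Polynomial.map_pow, map_C, map_X]

/-- A polynomial of degree `< n` is `∑_{i<n} coeff_i X^i`. -/
theorem h44_poly_of_degree_lt {R : Type*} [Semiring R] {n : ℕ} (p : Polynomial R)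
    (hp : p.degree < n) : h44_poly (fun i : Fin n => p.coeff i) = p := by
  ext m
  by_cases hm : m < n
  · exact h44_poly_coeff (fun i : Fin n => p.coeff i) ⟨m, hm⟩
  · rw [h44_poly_coeff_ge _ m (not_lt.mp hm)]
    exact (coeff_eq_zero_of_degree_lt (lt_of_lt_of_le hp (by exact_mod_cast not_lt.mp hm))).symm

theorem h44_ev_poly {n : ℕ} (c : Fin n → V) :
    h44_ev V y (h44_poly c) = ∑ i, algebraMap L F (c i : L) * y ^ (i : ℕ) := by
  unfold h44_poly
  rw [map_sum]
  apply Finset.sum_congr rfl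
  intro i _
  rw [map_mul, map_pow, h44_ev_C, h44_ev_X]

end UE

section Main

variable {L F : Type*} [Field L] [Field F] [Algebra L F] (V : ValuationSubring L) (y : F)
  {n : ℕ} {Φ : Polynomial V}

theorem h44_ev_modByMonic (hroot : h44_ev V y Φ = 0) (p : Polynomial V) :
    h44_ev V y (p %ₘ Φ) = h44_ev V y p := by
  conv_rhs => rw [← modByMonic_add_div p Φ]
  rw [map_add, map_mul, hroot, zero_mul, add_zero]

theorem h44_ev_eq_sum (hmon : Φ.Monic) (hdeg : Φ.natDegree = n) (hroot : h44_ev V y Φ = 0)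
    (p : Polynomial V) :
    h44_ev V y p = ∑ i : Fin n, algebraMap L F (((p %ₘ Φ).coeff i : V) : L) * y ^ (i : ℕ) := by
  have hlt : (p %ₘ Φ).degree < n := by
    have h1 := degree_modByMonic_lt p hmon
    rw [degree_eq_natDegree hmon.ne_zero, hdeg] at h1
    exact h1
  rw [← h44_ev_modByMonic V y hroot p, ← h44_ev_poly, h44_poly_of_degree_lt _ hlt]

/-- `1, y, …, y^(n-1)` is an orthonormal basis: `∑ c_i y^i ∈ V[y]` iff all `c_i ∈ V`. -/
theorem h44_mem_range_iff (hmon : Φ.Monic) (hdeg : Φ.natDegree = n) (hroot : h44_ev V y Φ = 0)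
    (hli : ∀ c : Fin n → L, ∑ i, algebraMap L F (c i) * y ^ (i : ℕ) = 0 → ∀ i, c i = 0)
    (c : Fin n → L) :
    ∑ i, algebraMap L F (c i) * y ^ (i : ℕ) ∈ (h44_ev V y).range ↔ ∀ i, c i ∈ V := by
  constructor
  · rintro ⟨p, hp⟩ i
    rw [h44_ev_eq_sum V y hmon hdeg hroot p] at hp
    have h0 : ∑ i : Fin n, algebraMap L F (c i - (((p %ₘ Φ).coeff i : V) : L)) * y ^ (i : ℕ)
        = 0 := by
      simp only [map_sub, sub_mul, Finset.sum_sub_distrib]
      rw [hp, sub_self]
    have h1 := hli _ h0 i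
    rw [sub_eq_zero] at h1
    rw [h1]
    exact Subtype.property _
  · intro hc
    refine ⟨h44_poly (fun i => (⟨c i, hc i⟩ : V)), ?_⟩
    rw [h44_ev_poly]

/-- The kernel of `p ↦ p(y)` is `(Φ)`. -/
theorem h44_dvd_of_ev_eq_zero (hmon : Φ.Monic) (hdeg : Φ.natDegree = n)
    (hroot : h44_ev V y Φ = 0)
    (hli : ∀ c : Fin n → L, ∑ i, algebraMap L F (c i) * y ^ (i : ℕ) = 0 → ∀ i, c i = 0)
    (p : Polynomial V) (hp : h44_ev V y p = 0) : Φ ∣ p := by
  rw [← modByMonic_eq_zero_iff_dvd hmon]
  have hlt : (p %ₘ Φ).degree < n := by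
    have h1 := degree_modByMonic_lt p hmon
    rw [degree_eq_natDegree hmon.ne_zero, hdeg] at h1
    exact h1
  rw [h44_ev_eq_sum V y hmon hdeg hroot p] at hp
  have h1 := hli _ hp
  rw [← h44_poly_of_degree_lt _ hlt]
  refine Polynomial.ext fun m => ?_
  rw [coeff_zero]
  by_cases hm : m < n
  · have h2 := h1 ⟨m, hm⟩
    rw [h44_poly_coeff (fun i : Fin n => (p %ₘ Φ).coeff i) ⟨m, hm⟩]
    exact Subtype.ext h2
  · exact h44_poly_coeff_ge _ m (not_lt.mp hm)

variable {κ : Type*} [Field κ] (res : V →+* κ)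

/-- `V[X] → κ[X]/Φ̄`. -/
def h44_phi (Φ : Polynomial V) : Polynomial V →+* AdjoinRoot (Φ.map res) :=
  (AdjoinRoot.mk (Φ.map res)).comp (Polynomial.mapRingHom res)

theorem h44_phi_apply (p : Polynomial V) :
    h44_phi V res Φ p = AdjoinRoot.mk (Φ.map res) (p.map res) := rfl

theorem h44_phi_surjective (hres : Function.Surjective res) :
    Function.Surjective (h44_phi V res Φ) :=
  AdjoinRoot.mk_surjective.comp (Polynomial.map_surjective res hres)

theorem h44_phi_poly {n : ℕ} (c : Fin n → V) :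
    h44_phi V res Φ (h44_poly c) =
      ∑ i, AdjoinRoot.of (Φ.map res) (res (c i)) * AdjoinRoot.root (Φ.map res) ^ (i : ℕ) := by
  rw [h44_phi_apply, h44_poly_map]
  unfold h44_poly
  rw [map_sum]
  apply Finset.sum_congr rfl
  intro i _
  rw [map_mul, map_pow, AdjoinRoot.mk_C, AdjoinRoot.mk_X]

/-- For a polynomial of degree `< n`: its image in `κ[X]/Φ̄` vanishes iff all coefficients
reduce to zero. -/
theorem h44_phi_eq_zero_iff (hmon : Φ.Monic) (hdeg : Φ.natDegree = n) (c : Fin n → V) :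
    h44_phi V res Φ (h44_poly c) = 0 ↔ ∀ i, res (c i) = 0 := by
  rw [h44_phi_apply, AdjoinRoot.mk_eq_zero, h44_poly_map]
  constructor
  · intro hdvd i
    have hlt : (h44_poly (fun i => res (c i))).degree < (Φ.map res).degree := by
      rw [degree_eq_natDegree (hmon.map res).ne_zero, hmon.natDegree_map, hdeg]
      exact h44_poly_degree_lt _
    have h0 := eq_zero_of_dvd_of_degree_lt hdvd hlt
    have := h44_poly_coeff (fun i => res (c i)) i
    rw [h0, coeff_zero] at this
    exact this.symm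
  · intro h
    have : h44_poly (fun i => res (c i)) = 0 := by
      unfold h44_poly
      apply Finset.sum_eq_zero
      intro i _
      show C (res (c i)) * X ^ (i : ℕ) = 0
      rw [h i, map_zero, zero_mul]
    rw [this]
    exact dvd_zero _

end Main

section Core

variable {L F : Type*} [Field L] [Field F] [Algebra L F] (V : ValuationSubring L) (y : F)
  {n : ℕ} {Φ : Polynomial V} {κ : Type*} [Field κ] (res : V →+* κ)

/-- Among finitely many elements of `L`, not all zero, one divides all the others in `V`. -/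
theorem h44_exists_max {n : ℕ} (c : Fin n → L) (hc : ∃ i, c i ≠ 0) :
    ∃ j, c j ≠ 0 ∧ ∀ i, c i / c j ∈ V := by
  obtain ⟨i₀, hi₀⟩ := hc
  obtain ⟨j, -, hj⟩ := Finset.exists_max_image Finset.univ (fun i => V.valuation (c i))
    ⟨i₀, Finset.mem_univ _⟩
  have hj0 : c j ≠ 0 := by
    intro h
    have h1 := hj i₀ (Finset.mem_univ _)
    rw [h, map_zero] at h1
    exact hi₀ ((map_eq_zero _).mp (le_antisymm h1 zero_le))
  refine ⟨j, hj0, fun i => ?_⟩
  rw [← V.valuation_le_one_iff, map_div₀]
  exact div_le_one_of_le₀ (hj i (Finset.mem_univ _)) zero_le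

/-- A nonzero element of `V` whose inverse is not in `V` reduces to zero. -/
theorem h44_res_eq_zero (hres : Function.Surjective res) (c : V) (hc : (c : L)⁻¹ ∉ V) :
    res c = 0 := by
  have hmax : (RingHom.ker res).IsMaximal := RingHom.ker_isMaximal_of_surjective res hres
  have hker : RingHom.ker res = IsLocalRing.maximalIdeal V := IsLocalRing.eq_maximalIdeal hmax
  have hmem : c ∈ IsLocalRing.maximalIdeal V := by
    rw [IsLocalRing.mem_maximalIdeal, mem_nonunits_iff]
    rintro ⟨u, hu⟩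
    apply hc
    have h1 : (c : L) * ((u⁻¹ : Vˣ) : V) = 1 := by
      have h2 := congrArg Subtype.val (Units.mul_inv u)
      rw [hu] at h2
      exact h2
    rw [← eq_inv_of_mul_eq_one_right h1]
    exact Subtype.property _
  rw [← hker, RingHom.mem_ker] at hmem
  exact hmem

theorem h44_phi_eq_of_ev_eq (hker : ∀ p : Polynomial V, h44_ev V y p = 0 → Φ ∣ p)
    {p q : Polynomial V} (h : h44_ev V y p = h44_ev V y q) :
    h44_phi V res Φ p = h44_phi V res Φ q := by
  have h0 : h44_ev V y (p - q) = 0 := by rw [map_sub, h, sub_self]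
  obtain ⟨r, hr⟩ := hker _ h0
  have h1 : h44_phi V res Φ (p - q) = 0 := by
    rw [hr, h44_phi_apply, AdjoinRoot.mk_eq_zero, Polynomial.map_mul]
    exact dvd_mul_right _ _
  rw [map_sub, sub_eq_zero] at h1
  exact h1

/-- Every nonzero element of `F` is a nonzero constant of `L` times `∑ c_i y^i` with `c_i ∈ V`,
one of them equal to `1`. -/
theorem h44_decomp
    (hspan : ∀ f : F, ∃ c : Fin n → L, f = ∑ i, algebraMap L F (c i) * y ^ (i : ℕ))
    (f : F) (hf : f ≠ 0) :
    ∃ (a : L) (c : Fin n → V) (j : Fin n), a ≠ 0 ∧ c j = 1 ∧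
      f = algebraMap L F a * h44_ev V y (h44_poly c) := by
  obtain ⟨c, hc⟩ := hspan f
  have hne : ∃ i, c i ≠ 0 := by
    by_contra hcon
    simp only [not_exists, not_not] at hcon
    apply hf
    rw [hc]
    apply Finset.sum_eq_zero
    intro i _
    rw [hcon i, map_zero, zero_mul]
  obtain ⟨j, hj0, hj⟩ := h44_exists_max V c hne
  refine ⟨c j, fun i => ⟨c i / c j, hj i⟩, j, hj0, Subtype.ext (div_self hj0), ?_⟩
  rw [h44_ev_poly, hc, Finset.mul_sum]
  apply Finset.sum_congr rfl
  intro i _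
  rw [← mul_assoc, ← map_mul, mul_div_cancel₀ _ hj0]

variable (hmon : Φ.Monic) (hdeg : Φ.natDegree = n)
  (hker : ∀ p : Polynomial V, h44_ev V y p = 0 → Φ ∣ p)
  (hspan : ∀ f : F, ∃ c : Fin n → L, f = ∑ i, algebraMap L F (c i) * y ^ (i : ℕ))
  (hres : Function.Surjective res)

include hmon hdeg hker hspan hres in
/-- An element of `V[y]` reducing to `1` is a unit of `V[y]`. -/
theorem h44_inv_mem_of_phi_eq_one (p₀ : Polynomial V) (h1 : h44_phi V res Φ p₀ = 1)
    (hne : (1 : AdjoinRoot (Φ.map res)) ≠ 0) :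
    (h44_ev V y p₀)⁻¹ ∈ (h44_ev V y).range := by
  have hu0 : h44_ev V y p₀ ≠ 0 := by
    intro h0
    have := h44_phi_eq_of_ev_eq V y res hker (p := p₀) (q := 0) (by rw [h0, map_zero])
    rw [h1, map_zero] at this
    exact hne this
  obtain ⟨a, c, j, ha0, hcj, hdec⟩ := h44_decomp V y hspan _ (inv_ne_zero hu0)
  by_cases haV : a ∈ V
  · rw [hdec]
    exact ⟨C ⟨a, haV⟩ * h44_poly c, by rw [map_mul, h44_ev_C]⟩
  · exfalso
    have ha : a⁻¹ ∈ V := (V.mem_or_inv_mem a).resolve_left haV
    have hres0 : res ⟨a⁻¹, ha⟩ = 0 := h44_res_eq_zero V res hres ⟨a⁻¹, ha⟩ (by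
      show (a⁻¹)⁻¹ ∉ V
      rw [inv_inv]
      exact haV)
    have hev : h44_ev V y (h44_poly c * p₀) = h44_ev V y (C ⟨a⁻¹, ha⟩) := by
      rw [map_mul, h44_ev_C]
      have h2 : algebraMap L F a * h44_ev V y (h44_poly c) * h44_ev V y p₀ = 1 := by
        rw [← hdec, inv_mul_cancel₀ hu0]
      have h3 : algebraMap L F a ≠ 0 := by
        rw [Ne, map_eq_zero]
        exact ha0
      show h44_ev V y (h44_poly c) * h44_ev V y p₀ = algebraMap L F a⁻¹
      rw [map_inv₀]
      field_simp
      linear_combination h2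
    have hphi := h44_phi_eq_of_ev_eq V y res hker hev
    rw [map_mul, h1, mul_one, h44_phi_apply V res (C _), map_C, hres0, map_zero, map_zero]
      at hphi
    have := (h44_phi_eq_zero_iff V res hmon hdeg c).mp hphi j
    rw [hcj, map_one] at this
    exact one_ne_zero this

include hmon hdeg hker hspan hres in
/-- Every nonzero element of `F` is a nonzero constant of `L` times a unit of `V[y]`. -/
theorem h44_exists_unit (hirr : Irreducible (Φ.map res)) (f : F) (hf : f ≠ 0) :
    ∃ (a : L) (w : F), a ≠ 0 ∧ f = algebraMap L F a * w ∧ w ∈ (h44_ev V y).range ∧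
      w⁻¹ ∈ (h44_ev V y).range := by
  have : Fact (Irreducible (Φ.map res)) := ⟨hirr⟩
  obtain ⟨a, c, j, ha0, hcj, hdec⟩ := h44_decomp V y hspan f hf
  have hphi : h44_phi V res Φ (h44_poly c) ≠ 0 := by
    intro h0
    have := (h44_phi_eq_zero_iff V res hmon hdeg c).mp h0 j
    rw [hcj, map_one] at this
    exact one_ne_zero this
  obtain ⟨q, hq⟩ := h44_phi_surjective V res (Φ := Φ) hres (h44_phi V res Φ (h44_poly c))⁻¹
  have h1 : h44_phi V res Φ (h44_poly c * q) = 1 := by
    rw [map_mul, hq, mul_inv_cancel₀ hphi]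
  have hu0 : h44_ev V y (h44_poly c * q) ≠ 0 := by
    intro h0
    have := h44_phi_eq_of_ev_eq V y res hker (p := h44_poly c * q) (q := 0) (by rw [h0, map_zero])
    rw [h1, map_zero] at this
    exact one_ne_zero this
  obtain ⟨r, hr⟩ := h44_inv_mem_of_phi_eq_one V y res hmon hdeg hker hspan hres (h44_poly c * q) h1
    one_ne_zero
  refine ⟨a, h44_ev V y (h44_poly c), ha0, hdec, ⟨_, rfl⟩, ⟨q * r, ?_⟩⟩
  rw [map_mul, hr]
  rw [map_mul] at hu0 ⊢
  have hw0 : h44_ev V y (h44_poly c) ≠ 0 := left_ne_zero_of_mul hu0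
  have hq0 : h44_ev V y q ≠ 0 := right_ne_zero_of_mul hu0
  field_simp

include hmon hdeg hker hspan hres in
/-- `V[y]` is a valuation ring of `F`. -/
theorem h44_mem_or_inv_mem (hirr : Irreducible (Φ.map res)) (f : F) :
    f ∈ (h44_ev V y).range ∨ f⁻¹ ∈ (h44_ev V y).range := by
  by_cases hf : f = 0
  · left
    rw [hf]
    exact Subring.zero_mem _
  · obtain ⟨a, w, ha0, hfw, hw, hwinv⟩ :=
      h44_exists_unit V y res hmon hdeg hker hspan hres hirr f hf
    rcases V.mem_or_inv_mem a with ha | ha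
    · left
      rw [hfw]
      exact Subring.mul_mem _ ⟨C ⟨a, ha⟩, h44_ev_C V y _⟩ hw
    · right
      rw [hfw, mul_inv, ← map_inv₀]
      exact Subring.mul_mem _ ⟨C ⟨a⁻¹, ha⟩, h44_ev_C V y _⟩ hwinv

end Core

section Final

variable {L F : Type*} [Field L] [Field F] [Algebra L F]

/-- **Unramified extension of a valuation ring.**  `V` a valuation subring of `L` with residue
map `res : V →+* κ` onto a field, `y ∈ F` a root of a monic `Φ ∈ V[X]` of degree `n` with
irreducible reduction, `1, y, …, y^(n-1)` an `L`-basis of `F`.  Then `O = V[y]` is a valuation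
subring of `F`, with residue field `κ[X]/Φ̄`, orthonormal basis `1, y, …, y^(n-1)` and the value
group of `V`. -/
theorem h44_unramExt (V : ValuationSubring L) (y : F) (n : ℕ) (Φ : Polynomial V)
    (hmon : Φ.Monic) (hdeg : Φ.natDegree = n)
    (hroot : Φ.eval₂ ((algebraMap L F).comp V.subtype) y = 0)
    (hspan : ∀ f : F, ∃ c : Fin n → L, f = ∑ i, algebraMap L F (c i) * y ^ (i : ℕ))
    (hli : ∀ c : Fin n → L, ∑ i, algebraMap L F (c i) * y ^ (i : ℕ) = 0 → ∀ i, c i = 0)
    {κ : Type*} [Field κ] (res : V →+* κ) (hres : Function.Surjective res)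
    (hirr : Irreducible (Φ.map res)) :
    ∃ (O : ValuationSubring F) (red : O →+* AdjoinRoot (Φ.map res)),
      Function.Surjective red ∧
      (∀ f : F, f ∈ O ↔ ∃ p : Polynomial V, p.eval₂ ((algebraMap L F).comp V.subtype) y = f) ∧
      (∀ c : Fin n → L, ∑ i, algebraMap L F (c i) * y ^ (i : ℕ) ∈ O ↔ ∀ i, c i ∈ V) ∧
      (∀ p : Polynomial V, ∃ h : p.eval₂ ((algebraMap L F).comp V.subtype) y ∈ O,
        red ⟨_, h⟩ = AdjoinRoot.mk (Φ.map res) (p.map res)) ∧
      (∀ a : L, algebraMap L F a ∈ O ↔ a ∈ V) ∧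
      (∀ f : F, f ≠ 0 →
        ∃ c : L, c ≠ 0 ∧ algebraMap L F c * f ∈ O ∧ (algebraMap L F c * f)⁻¹ ∈ O) := by
  have hroot' : h44_ev V y Φ = 0 := hroot
  have hker : ∀ p : Polynomial V, h44_ev V y p = 0 → Φ ∣ p :=
    h44_dvd_of_ev_eq_zero V y hmon hdeg hroot' hli
  have hval := h44_mem_or_inv_mem V y res hmon hdeg hker hspan hres hirr
  let O : ValuationSubring F := { (h44_ev V y).range with mem_or_inv_mem' := hval }
  have hO : ∀ f : F, f ∈ O ↔ f ∈ (h44_ev V y).range := fun f => Iff.rfl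
  -- the reduction map
  let red : O →+* AdjoinRoot (Φ.map res) :=
    RingHom.liftOfSurjective (h44_ev V y).rangeRestrict (h44_ev V y).rangeRestrict_surjective
      ⟨h44_phi V res Φ, fun p hp => by
        rw [RingHom.mem_ker] at hp ⊢
        have h0 : h44_ev V y p = 0 := congrArg Subtype.val hp
        have := h44_phi_eq_of_ev_eq V y res hker (p := p) (q := 0) (by rw [h0, map_zero])
        rw [this, map_zero]⟩
  have hred : ∀ p : Polynomial V, red ⟨h44_ev V y p, ⟨p, rfl⟩⟩ = h44_phi V res Φ p := fun p =>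
    RingHom.liftOfRightInverse_comp_apply _ _ _ _ p
  refine ⟨O, red, ?_, ?_, ?_, ?_, ?_, ?_⟩
  · intro z
    obtain ⟨p, rfl⟩ := h44_phi_surjective V res (Φ := Φ) hres z
    exact ⟨⟨h44_ev V y p, ⟨p, rfl⟩⟩, hred p⟩
  · intro f
    exact Iff.rfl
  · intro c
    exact h44_mem_range_iff V y hmon hdeg hroot' hli c
  · intro p
    exact ⟨⟨p, rfl⟩, hred p⟩
  · intro a
    have hn : 0 < n := by
      by_contra hcon
      have hn0 : n = 0 := by omega
      subst hn0
      obtain ⟨c, hc⟩ := hspan 1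
      simp at hc
    have key : algebraMap L F a =
        ∑ i : Fin n, algebraMap L F (if (i : ℕ) = 0 then a else 0) * y ^ (i : ℕ) := by
      rw [Finset.sum_eq_single (⟨0, hn⟩ : Fin n)]
      · simp
      · intro b _ hb
        have : (b : ℕ) ≠ 0 := fun h => hb (Fin.ext h)
        simp [this]
      · intro h
        exact absurd (Finset.mem_univ _) h
    rw [hO, key, h44_mem_range_iff V y hmon hdeg hroot' hli]
    constructor
    · intro h
      have := h ⟨0, hn⟩
      simpa using this
    · intro ha i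
      by_cases hi : (i : ℕ) = 0
      · rw [if_pos hi]
        exact ha
      · rw [if_neg hi]
        exact V.zero_mem
  · intro f hf
    obtain ⟨a, w, ha0, hfw, hw, hwinv⟩ :=
      h44_exists_unit V y res hmon hdeg hker hspan hres hirr f hf
    refine ⟨a⁻¹, inv_ne_zero ha0, ?_, ?_⟩
    · have : algebraMap L F a⁻¹ * f = w := by
        rw [hfw, ← mul_assoc, ← map_mul, inv_mul_cancel₀ ha0, map_one, one_mul]
      rw [this]
      exact hw
    · have : algebraMap L F a⁻¹ * f = w := by
        rw [hfw, ← mul_assoc, ← map_mul, inv_mul_cancel₀ ha0, map_one, one_mul]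
      rw [this]
      exact hwinv

end Final

end Fermat.Agent.S27
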