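import Mathlib
import Fermat.Agent.S27.h44_UnramExt

/-!
# S27 / B1 RED-CONSTR, abstract core (helper44): the Gauss valuation ring of `K(t)`

Let `A` be a valuation subring of a field `K` with a surjective residue map `res : A →+* k` onto
a field, and `L = K(t)` a purely transcendental extension (`t` transcendental over `K`, every
element of `L` a quotient of polynomials in `t`).  The *Gauss valuation ring*
`V = {P(t)/Q(t) : P, Q ∈ A[X], Q̄ ≠ 0}` is a valuation subring of `L` with residue field `k(X)`
(residue map `P(t)/Q(t) ↦ P̄/Q̄`), `V ∩ K = A`, and `V` has the value group of `A`.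
-/

set_option autoImplicit false

noncomputable section

namespace Fermat.Agent.S27

open Polynomial

section Gauss

variable {K L : Type*} [Field K] [Field L] [Algebra K L] (A : ValuationSubring K) (t : L)
  {k : Type*} [Field k] (res : A →+* k)

theorem h44_ev_eq_aeval (P : Polynomial A) :
    h44_ev A t P = aeval t (P.map A.subtype) := by
  rw [h44_ev_apply, aeval_def, eval₂_map]

theorem h44_ev_injective (ht : Transcendental K t) : Function.Injective (h44_ev A t) := by
  intro P Q h
  rw [h44_ev_eq_aeval, h44_ev_eq_aeval] at h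
  exact Polynomial.map_injective A.subtype Subtype.val_injective
    ((transcendental_iff_injective.mp ht) h)

theorem h44_ev_ne_zero (ht : Transcendental K t) {Q : Polynomial A} (hQ : Q.map res ≠ 0) :
    h44_ev A t Q ≠ 0 := by
  intro h
  apply hQ
  have : Q = 0 := h44_ev_injective A t ht (by rw [h, map_zero])
  rw [this, Polynomial.map_zero]

/-- Membership in the Gauss ring. -/
def h44_InG (f : L) : Prop :=
  ∃ P Q : Polynomial A, Q.map res ≠ 0 ∧ f * h44_ev A t Q = h44_ev A t P

theorem h44_InG_zero : h44_InG A t res 0 :=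
  ⟨0, 1, by rw [Polynomial.map_one]; exact one_ne_zero, by rw [zero_mul, map_zero]⟩

theorem h44_InG_one : h44_InG A t res 1 :=
  ⟨1, 1, by rw [Polynomial.map_one]; exact one_ne_zero, by rw [one_mul]⟩

theorem h44_InG_add {f g : L} (hf : h44_InG A t res f) (hg : h44_InG A t res g) :
    h44_InG A t res (f + g) := by
  obtain ⟨P, Q, hQ, h⟩ := hf
  obtain ⟨P', Q', hQ', h'⟩ := hg
  refine ⟨P * Q' + P' * Q, Q * Q', ?_, ?_⟩
  · rw [Polynomial.map_mul]
    exact mul_ne_zero hQ hQ'
  · rw [map_add, map_mul, map_mul, map_mul, ← h, ← h']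
    ring

theorem h44_InG_mul {f g : L} (hf : h44_InG A t res f) (hg : h44_InG A t res g) :
    h44_InG A t res (f * g) := by
  obtain ⟨P, Q, hQ, h⟩ := hf
  obtain ⟨P', Q', hQ', h'⟩ := hg
  refine ⟨P * P', Q * Q', ?_, ?_⟩
  · rw [Polynomial.map_mul]
    exact mul_ne_zero hQ hQ'
  · rw [map_mul, map_mul, ← h, ← h']
    ring

theorem h44_InG_neg {f : L} (hf : h44_InG A t res f) : h44_InG A t res (-f) := by
  obtain ⟨P, Q, hQ, h⟩ := hf
  exact ⟨-P, Q, hQ, by rw [map_neg, ← h, neg_mul]⟩

/-- Primitive normal form of a nonzero polynomial over `K`. -/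
theorem h44_exists_primitive (P₀ : Polynomial K) (hP : P₀ ≠ 0) :
    ∃ (a : K) (P : Polynomial A), a ≠ 0 ∧ P₀ = C a * P.map A.subtype ∧ ∃ i, P.coeff i = 1 := by
  classical
  have hne : P₀.support.Nonempty := by
    rw [Finset.nonempty_iff_ne_empty, Ne, support_eq_empty]
    exact hP
  obtain ⟨j, hj, hmax⟩ := Finset.exists_max_image P₀.support (fun i => A.valuation (P₀.coeff i)) hne
  have ha0 : P₀.coeff j ≠ 0 := mem_support_iff.mp hj
  have hmem : ∀ i, P₀.coeff i / P₀.coeff j ∈ A := by
    intro i
    by_cases hi : i ∈ P₀.support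
    · rw [← A.valuation_le_one_iff, map_div₀]
      exact div_le_one_of_le₀ (hmax i hi) zero_le
    · rw [notMem_support_iff.mp hi, zero_div]
      exact A.zero_mem
  obtain ⟨a, ha⟩ : ∃ a : K, a = P₀.coeff j := ⟨_, rfl⟩
  rw [← ha] at ha0 hmem
  have hPmap : (∑ i ∈ Finset.range (P₀.natDegree + 1),
      C (⟨P₀.coeff i / a, hmem i⟩ : A) * X ^ i).map A.subtype = C a⁻¹ * P₀ := by
    conv_rhs => rw [P₀.as_sum_range_C_mul_X_pow, Finset.mul_sum]
    rw [Polynomial.map_sum]
    apply Finset.sum_congr rfl
    intro i _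
    rw [Polynomial.map_mul, Polynomial.map_pow, map_X, map_C, ← mul_assoc, ← C_mul]
    congr 2
    show P₀.coeff i / a = a⁻¹ * P₀.coeff i
    rw [div_eq_mul_inv, mul_comm]
  refine ⟨a, ∑ i ∈ Finset.range (P₀.natDegree + 1),
      C (⟨P₀.coeff i / a, hmem i⟩ : A) * X ^ i, ha0, ?_, j, ?_⟩
  · rw [hPmap, ← mul_assoc, ← C_mul, mul_inv_cancel₀ ha0, C_1, one_mul]
  · have hjlt : j ∈ Finset.range (P₀.natDegree + 1) := by
      rw [Finset.mem_range, Nat.lt_succ_iff]
      exact le_natDegree_of_mem_supp j hj
    rw [finsetSum_coeff]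
    simp only [coeff_C_mul_X_pow]
    rw [Finset.sum_eq_single j]
    · rw [if_pos rfl]
      exact Subtype.ext (by show P₀.coeff j / a = 1; rw [ha]; exact div_self (ha ▸ ha0))
    · intro b _ hb
      rw [if_neg (Ne.symm hb)]
    · intro h
      exact absurd hjlt h

theorem h44_map_ne_zero_of_coeff_one {P : Polynomial A} (h : ∃ i, P.coeff i = 1) :
    P.map res ≠ 0 := by
  obtain ⟨i, hi⟩ := h
  intro h0
  have := congrArg (fun p => p.coeff i) h0
  simp only [coeff_map, coeff_zero] at this
  rw [hi, map_one] at this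
  exact one_ne_zero this

/-- Every nonzero element of `L` is a nonzero constant times a quotient of primitive
polynomials. -/
theorem h44_gauss_decomp (ht : Transcendental K t)
    (hgen : ∀ f : L, ∃ P Q : Polynomial K, Q ≠ 0 ∧ f * aeval t Q = aeval t P)
    (f : L) (hf : f ≠ 0) :
    ∃ (c : K) (P Q : Polynomial A), c ≠ 0 ∧ (∃ i, P.coeff i = 1) ∧ (∃ i, Q.coeff i = 1) ∧
      f * h44_ev A t Q = algebraMap K L c * h44_ev A t P := by
  obtain ⟨P₀, Q₀, hQ₀, h⟩ := hgen f
  have hinj := transcendental_iff_injective.mp ht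
  have hP₀ : P₀ ≠ 0 := by
    rintro rfl
    rw [map_zero] at h
    rcases mul_eq_zero.mp h with h' | h'
    · exact hf h'
    · exact hQ₀ (hinj (by rw [h', map_zero]))
  obtain ⟨a, P, ha, hP, hP1⟩ := h44_exists_primitive A P₀ hP₀
  obtain ⟨b, Q, hb, hQ, hQ1⟩ := h44_exists_primitive A Q₀ hQ₀
  refine ⟨a / b, P, Q, div_ne_zero ha hb, hP1, hQ1, ?_⟩
  rw [hP, hQ, map_mul, map_mul, aeval_C, aeval_C, ← h44_ev_eq_aeval, ← h44_ev_eq_aeval] at h
  have hb' : algebraMap K L b ≠ 0 := by
    rw [Ne, map_eq_zero]
    exact hb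
  rw [map_div₀]
  field_simp
  linear_combination h

/-- The Gauss ring is a valuation ring. -/
theorem h44_InG_or_inv (ht : Transcendental K t)
    (hgen : ∀ f : L, ∃ P Q : Polynomial K, Q ≠ 0 ∧ f * aeval t Q = aeval t P) (f : L) :
    h44_InG A t res f ∨ h44_InG A t res f⁻¹ := by
  by_cases hf : f = 0
  · left
    rw [hf]
    exact h44_InG_zero A t res
  · obtain ⟨c, P, Q, hc, hP1, hQ1, h⟩ := h44_gauss_decomp A t ht hgen f hf
    have hPr := h44_map_ne_zero_of_coeff_one A res hP1
    have hQr := h44_map_ne_zero_of_coeff_one A res hQ1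
    rcases A.mem_or_inv_mem c with hcA | hcA
    · left
      exact ⟨C ⟨c, hcA⟩ * P, Q, hQr, by rw [map_mul, h44_ev_C, h]⟩
    · right
      refine ⟨C ⟨c⁻¹, hcA⟩ * Q, P, hPr, ?_⟩
      rw [map_mul, h44_ev_C]
      have hc' : algebraMap K L c ≠ 0 := by
        rw [Ne, map_eq_zero]
        exact hc
      rw [map_inv₀]
      field_simp
      linear_combination -h

/-- The value group of the Gauss ring is the one of `A`. -/
theorem h44_gauss_scale (ht : Transcendental K t)
    (hgen : ∀ f : L, ∃ P Q : Polynomial K, Q ≠ 0 ∧ f * aeval t Q = aeval t P) (f : L)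
    (hf : f ≠ 0) :
    ∃ c : K, c ≠ 0 ∧ h44_InG A t res (algebraMap K L c * f) ∧
      h44_InG A t res (algebraMap K L c * f)⁻¹ := by
  obtain ⟨c, P, Q, hc, hP1, hQ1, h⟩ := h44_gauss_decomp A t ht hgen f hf
  have hPr := h44_map_ne_zero_of_coeff_one A res hP1
  have hQr := h44_map_ne_zero_of_coeff_one A res hQ1
  have hc' : algebraMap K L c ≠ 0 := by
    rw [Ne, map_eq_zero]
    exact hc
  have hP0 := h44_ev_ne_zero A t res ht hPr
  have hQ0 := h44_ev_ne_zero A t res ht hQr
  refine ⟨c⁻¹, inv_ne_zero hc, ⟨P, Q, hQr, ?_⟩, ⟨Q, P, hPr, ?_⟩⟩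
  · rw [map_inv₀]
    field_simp
    linear_combination h
  · rw [map_inv₀]
    field_simp
    linear_combination -h

/-- The residue of an element of the Gauss ring. -/
def h44_resG (f : L) (h : h44_InG A t res f) : RatFunc k :=
  algebraMap (Polynomial k) (RatFunc k) (h.choose.map res) /
    algebraMap (Polynomial k) (RatFunc k) (h.choose_spec.choose.map res)

theorem h44_algebraMap_ne_zero {q : Polynomial k} (hq : q ≠ 0) :
    algebraMap (Polynomial k) (RatFunc k) q ≠ 0 :=
  (map_ne_zero_iff _ (IsFractionRing.injective (Polynomial k) (RatFunc k))).mpr hq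

theorem h44_rep_unique (ht : Transcendental K t) {f : L} {P Q P' Q' : Polynomial A}
    (hQ : Q.map res ≠ 0) (hQ' : Q'.map res ≠ 0) (hf : f * h44_ev A t Q = h44_ev A t P)
    (hf' : f * h44_ev A t Q' = h44_ev A t P') :
    algebraMap (Polynomial k) (RatFunc k) (P'.map res) /
        algebraMap (Polynomial k) (RatFunc k) (Q'.map res) =
      algebraMap (Polynomial k) (RatFunc k) (P.map res) /
        algebraMap (Polynomial k) (RatFunc k) (Q.map res) := by
  have hev : h44_ev A t (P' * Q) = h44_ev A t (P * Q') := by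
    rw [map_mul, map_mul, ← hf', ← hf]
    ring
  have hpoly := h44_ev_injective A t ht hev
  have hmap := congrArg (fun p => algebraMap (Polynomial k) (RatFunc k) (p.map res)) hpoly
  simp only [Polynomial.map_mul, map_mul] at hmap
  rw [div_eq_div_iff (h44_algebraMap_ne_zero hQ') (h44_algebraMap_ne_zero hQ)]
  exact hmap

theorem h44_resG_eq (ht : Transcendental K t) (f : L) (h : h44_InG A t res f)
    (P Q : Polynomial A) (hQ : Q.map res ≠ 0) (hf : f * h44_ev A t Q = h44_ev A t P) :
    h44_resG A t res f h = algebraMap (Polynomial k) (RatFunc k) (P.map res) /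
      algebraMap (Polynomial k) (RatFunc k) (Q.map res) :=
  h44_rep_unique A t res ht hQ h.choose_spec.choose_spec.1 hf h.choose_spec.choose_spec.2

end Gauss

section Final

variable {K L : Type*} [Field K] [Field L] [Algebra K L]

/-- **The Gauss valuation ring of `K(t)`.** -/
theorem h44_gauss (A : ValuationSubring K) (t : L) (ht : Transcendental K t)
    (hgen : ∀ f : L, ∃ P Q : Polynomial K, Q ≠ 0 ∧ f * aeval t Q = aeval t P)
    {k : Type*} [Field k] (res : A →+* k) (hres : Function.Surjective res) :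
    ∃ (V : ValuationSubring L) (resV : V →+* RatFunc k), Function.Surjective resV ∧
      (∀ f : L, f ∈ V ↔ ∃ P Q : Polynomial A, Q.map res ≠ 0 ∧
        f * aeval t (Q.map A.subtype) = aeval t (P.map A.subtype)) ∧
      (∀ (P Q : Polynomial A), Q.map res ≠ 0 →
        ∃ h : aeval t (P.map A.subtype) / aeval t (Q.map A.subtype) ∈ V,
          resV ⟨_, h⟩ = algebraMap (Polynomial k) (RatFunc k) (P.map res) /
            algebraMap (Polynomial k) (RatFunc k) (Q.map res)) ∧
      (∀ a : K, algebraMap K L a ∈ V ↔ a ∈ A) ∧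
      (∀ f : L, f ≠ 0 →
        ∃ c : K, c ≠ 0 ∧ algebraMap K L c * f ∈ V ∧ (algebraMap K L c * f)⁻¹ ∈ V) := by
  let V : ValuationSubring L :=
    { carrier := {f | h44_InG A t res f}
      mul_mem' := fun hf hg => h44_InG_mul A t res hf hg
      one_mem' := h44_InG_one A t res
      add_mem' := fun hf hg => h44_InG_add A t res hf hg
      zero_mem' := h44_InG_zero A t res
      neg_mem' := fun hf => h44_InG_neg A t res hf
      mem_or_inv_mem' := h44_InG_or_inv A t res ht hgen }
  have hV : ∀ f : L, f ∈ V ↔ h44_InG A t res f := fun f => Iff.rfl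
  have hrep : ∀ x : V, ∃ P Q : Polynomial A, Q.map res ≠ 0 ∧
      (x : L) * h44_ev A t Q = h44_ev A t P := fun x => x.2
  let resV : V →+* RatFunc k :=
    { toFun := fun x => h44_resG A t res x.1 x.2
      map_one' := by
        rw [h44_resG_eq A t res ht _ _ 1 1 (by rw [Polynomial.map_one]; exact one_ne_zero)
          (by show (1 : L) * _ = _; rw [one_mul])]
        rw [Polynomial.map_one, map_one, div_one]
      map_mul' := by
        intro x y
        obtain ⟨P, Q, hQ, h⟩ := hrep x
        obtain ⟨P', Q', hQ', h'⟩ := hrep y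
        rw [h44_resG_eq A t res ht _ x.2 P Q hQ h, h44_resG_eq A t res ht _ y.2 P' Q' hQ' h',
          h44_resG_eq A t res ht _ (x * y).2 (P * P') (Q * Q')
            (by rw [Polynomial.map_mul]; exact mul_ne_zero hQ hQ')
            (by
              show (x : L) * (y : L) * _ = _
              rw [map_mul, map_mul, ← h, ← h']
              ring)]
        rw [Polynomial.map_mul, Polynomial.map_mul, map_mul, map_mul, mul_div_mul_comm]
      map_zero' := by
        rw [h44_resG_eq A t res ht _ _ 0 1 (by rw [Polynomial.map_one]; exact one_ne_zero)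
          (by show (0 : L) * _ = _; rw [zero_mul, map_zero])]
        rw [Polynomial.map_zero, map_zero, zero_div]
      map_add' := by
        intro x y
        obtain ⟨P, Q, hQ, h⟩ := hrep x
        obtain ⟨P', Q', hQ', h'⟩ := hrep y
        rw [h44_resG_eq A t res ht _ x.2 P Q hQ h, h44_resG_eq A t res ht _ y.2 P' Q' hQ' h',
          h44_resG_eq A t res ht _ (x + y).2 (P * Q' + P' * Q) (Q * Q')
            (by rw [Polynomial.map_mul]; exact mul_ne_zero hQ hQ')
            (by
              show ((x : L) + (y : L)) * _ = _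
              rw [map_add, map_mul, map_mul, map_mul, ← h, ← h']
              ring)]
        rw [Polynomial.map_add, Polynomial.map_mul, Polynomial.map_mul, Polynomial.map_mul,
          map_add, map_mul, map_mul, map_mul,
          div_add_div _ _ (h44_algebraMap_ne_zero hQ) (h44_algebraMap_ne_zero hQ')]
        ring }
  have hresV : ∀ (x : V) (P Q : Polynomial A), Q.map res ≠ 0 →
      (x : L) * h44_ev A t Q = h44_ev A t P →
      resV x = algebraMap (Polynomial k) (RatFunc k) (P.map res) /
        algebraMap (Polynomial k) (RatFunc k) (Q.map res) :=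
    fun x P Q hQ h => h44_resG_eq A t res ht _ x.2 P Q hQ h
  have hdiv : ∀ (P Q : Polynomial A), Q.map res ≠ 0 →
      h44_InG A t res (aeval t (P.map A.subtype) / aeval t (Q.map A.subtype)) := by
    intro P Q hQ
    refine ⟨P, Q, hQ, ?_⟩
    rw [← h44_ev_eq_aeval, ← h44_ev_eq_aeval, div_mul_cancel₀ _ (h44_ev_ne_zero A t res ht hQ)]
  refine ⟨V, resV, ?_, ?_, ?_, ?_, ?_⟩
  · intro z
    obtain ⟨p, q, hq, rfl⟩ := IsFractionRing.div_surjective (A := Polynomial k) z
    obtain ⟨P, rfl⟩ := Polynomial.map_surjective res hres p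
    obtain ⟨Q, rfl⟩ := Polynomial.map_surjective res hres q
    have hQ : Q.map res ≠ 0 := nonZeroDivisors.ne_zero hq
    refine ⟨⟨_, hdiv P Q hQ⟩, ?_⟩
    apply hresV _ P Q hQ
    show aeval t (P.map A.subtype) / aeval t (Q.map A.subtype) * _ = _
    rw [← h44_ev_eq_aeval, ← h44_ev_eq_aeval, div_mul_cancel₀ _ (h44_ev_ne_zero A t res ht hQ)]
  · intro f
    rw [hV]
    unfold h44_InG
    simp only [h44_ev_eq_aeval]
  · intro P Q hQ
    refine ⟨hdiv P Q hQ, ?_⟩
    apply hresV _ P Q hQ
    show aeval t (P.map A.subtype) / aeval t (Q.map A.subtype) * _ = _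
    rw [← h44_ev_eq_aeval, ← h44_ev_eq_aeval, div_mul_cancel₀ _ (h44_ev_ne_zero A t res ht hQ)]
  · intro a
    rw [hV]
    constructor
    · rintro ⟨P, Q, hQ, h⟩
      -- `a * Q = P` coefficientwise
      have hinj := transcendental_iff_injective.mp ht
      have h1 : C a * Q.map A.subtype = P.map A.subtype := by
        apply hinj
        rw [map_mul, aeval_C, ← h44_ev_eq_aeval, ← h44_ev_eq_aeval]
        exact h
      obtain ⟨i, hi⟩ : ∃ i, res (Q.coeff i) ≠ 0 := by
        by_contra hcon
        simp only [not_exists, not_not] at hcon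
        apply hQ
        ext i
        rw [coeff_map, hcon i, coeff_zero]
      have hqinv : ((Q.coeff i : A) : K)⁻¹ ∈ A := by
        by_contra hcon
        exact hi (h44_res_eq_zero A res hres _ hcon)
      have hq0 : ((Q.coeff i : A) : K) ≠ 0 := by
        intro h0
        apply hi
        have : Q.coeff i = 0 := Subtype.ext h0
        rw [this, map_zero]
      have h2 := congrArg (fun p => p.coeff i) h1
      simp only [coeff_C_mul, coeff_map] at h2
      have h3 : a = ((P.coeff i : A) : K) * ((Q.coeff i : A) : K)⁻¹ := by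
        have h2' : a * ((Q.coeff i : A) : K) = ((P.coeff i : A) : K) := h2
        rw [← h2', mul_assoc, mul_inv_cancel₀ hq0, mul_one]
      rw [h3]
      exact A.mul_mem _ _ (Subtype.property _) hqinv
    · intro ha
      exact ⟨C ⟨a, ha⟩, 1, by rw [Polynomial.map_one]; exact one_ne_zero,
        by rw [map_one, mul_one, h44_ev_C]⟩
  · intro f hf
    exact h44_gauss_scale A t res ht hgen f hf

end Final

end Fermat.Agent.S27
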