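import Mathlib
import Fermat.Agent.S18.Defs
import Fermat.Agent.S27.h44_GaussRing

/-!
# S27 / B1 RED-CONSTR (G4) (helper44): the reduction datum of a plane model

`F = K(x)[y]` with `x` transcendental over `K`, power basis `1, y, …, y^(n-1)` over `K(x)` and
`Φ(x, y) = 0` for `Φ ∈ A[X][Y]` monic of degree `n` in `Y`, `A` a valuation subring of `K` with
residue map `res : A →+* k`.  If the reduction `Φ̄` is irreducible over `k(X)`, then there is a
reduction datum `R : h39_RedDatum K F k (k(X)[Y]/Φ̄)` with `R.A = A`, reducing `x ↦ X`,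
`y ↦ root`.
-/

set_option autoImplicit false

noncomputable section

namespace Fermat.Agent.S27

open Polynomial IntermediateField Fermat.Agent.S18

section Prelim

variable {K F : Type*} [Field K] [Field F] [Algebra K F] (x : F)

theorem h44_gen_transcendental (hx : Transcendental K x) :
    Transcendental K (AdjoinSimple.gen K x) := by
  have h : Transcendental K (algebraMap K⟮x⟯ F (AdjoinSimple.gen K x)) := by
    rw [AdjoinSimple.algebraMap_gen]
    exact hx
  exact (transcendental_algebraMap_iff (algebraMap K⟮x⟯ F).injective).mp h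

theorem h44_coe_aeval_gen (p : Polynomial K) :
    ((aeval (AdjoinSimple.gen K x) p : K⟮x⟯) : F) = aeval x p := by
  have := IntermediateField.aeval_coe (R := K) (S := K⟮x⟯) (AdjoinSimple.gen K x) p
  rw [← this]
  rfl

theorem h44_adjoin_gen (f : K⟮x⟯) :
    ∃ P Q : Polynomial K, Q ≠ 0 ∧
      f * aeval (AdjoinSimple.gen K x) Q = aeval (AdjoinSimple.gen K x) P := by
  obtain ⟨r, s, hrs⟩ := (mem_adjoin_simple_iff K (f : F)).mp f.2
  by_cases hs : aeval x s = 0
  · refine ⟨0, 1, one_ne_zero, ?_⟩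
    have hf : f = 0 := by
      apply Subtype.ext
      rw [hrs, hs, div_zero]
      rfl
    rw [hf, zero_mul, map_zero]
  · refine ⟨r, s, ?_, ?_⟩
    · rintro rfl
      exact hs (map_zero _)
    · apply Subtype.ext
      show (f : F) * ((aeval (AdjoinSimple.gen K x) s : K⟮x⟯) : F) =
        ((aeval (AdjoinSimple.gen K x) r : K⟮x⟯) : F)
      rw [h44_coe_aeval_gen, h44_coe_aeval_gen, hrs, div_mul_cancel₀ _ hs]

end Prelim

section Main

variable {K F : Type*} [Field K] [Field F] [Algebra K F] (A : ValuationSubring K)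
  {k : Type*} [Field k] (res : A →+* k)

/-- Coefficient reduction `A[X] → k(X)`. -/
def h44_cred : Polynomial A →+* RatFunc k :=
  (algebraMap (Polynomial k) (RatFunc k)).comp (Polynomial.mapRingHom res)

theorem h44_cred_apply (p : Polynomial A) :
    h44_cred A res p = algebraMap (Polynomial k) (RatFunc k) (p.map res) := rfl

/-- Evaluation `A[X] → F` at `x`. -/
def h44_cev (x : F) : Polynomial A →+* F :=
  (Polynomial.aeval x : Polynomial K →ₐ[K] F).toRingHom.comp (Polynomial.mapRingHom A.subtype)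

theorem h44_cev_apply (x : F) (p : Polynomial A) :
    h44_cev A x p = aeval x (p.map A.subtype) := rfl

/-- **RED-CONSTR, datum part.** -/
theorem h44_redConstr (hres : Function.Surjective res) (x y : F) (hx : Transcendental K x)
    (n : ℕ) (Φ : Polynomial (Polynomial A)) (hmon : Φ.Monic) (hdeg : Φ.natDegree = n)
    (hroot : Φ.eval₂ (h44_cev A x) y = 0)
    (hspan : ∀ f : F, ∃ c : Fin n → K⟮x⟯, f = ∑ i, algebraMap K⟮x⟯ F (c i) * y ^ (i : ℕ))
    (hli : ∀ c : Fin n → K⟮x⟯, ∑ i, algebraMap K⟮x⟯ F (c i) * y ^ (i : ℕ) = 0 → ∀ i, c i = 0)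
    [Fact (Irreducible (Φ.map (h44_cred A res)))] :
    ∃ R : h39_RedDatum K F k (AdjoinRoot (Φ.map (h44_cred A res))),
      R.A = A ∧ (∀ (a : K) (ha : a ∈ A), R.resK a = res ⟨a, ha⟩) ∧
      ∀ P : Polynomial (Polynomial A), ∃ h : P.eval₂ (h44_cev A x) y ∈ R.O,
        R.red ⟨_, h⟩ = AdjoinRoot.mk (Φ.map (h44_cred A res)) (P.map (h44_cred A res)) := by
  classical
  have ht := h44_gen_transcendental x hx
  obtain ⟨V, resV, hresV, hVmem, hVres, hVconst, hVscale⟩ :=
    h44_gauss A (AdjoinSimple.gen K x) ht (h44_adjoin_gen x) res hres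
  -- polynomials in `t` with coefficients in `A` lie in `V`
  have hpolyV : ∀ p : Polynomial A, aeval (AdjoinSimple.gen K x) (p.map A.subtype) ∈ V :=
    fun p => (hVmem _).mpr ⟨p, 1, by rw [Polynomial.map_one]; exact one_ne_zero,
      by rw [Polynomial.map_one, map_one, mul_one]⟩
  have hpolyres : ∀ p : Polynomial A, resV ⟨_, hpolyV p⟩ = h44_cred A res p := by
    intro p
    obtain ⟨h, hh⟩ := hVres p 1 (by rw [Polynomial.map_one]; exact one_ne_zero)
    have e : (⟨_, h⟩ : V) = ⟨_, hpolyV p⟩ := Subtype.ext (by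
      show aeval (AdjoinSimple.gen K x) (p.map A.subtype) /
        aeval (AdjoinSimple.gen K x) ((1 : Polynomial A).map A.subtype) = _
      rw [Polynomial.map_one, map_one, div_one])
    rw [e] at hh
    rw [hh, Polynomial.map_one, map_one, div_one]
    rfl
  let ιV : Polynomial A →+* V :=
    ((Polynomial.aeval (AdjoinSimple.gen K x) : Polynomial K →ₐ[K] K⟮x⟯).toRingHom.comp
      (Polynomial.mapRingHom A.subtype)).codRestrict V.toSubring (fun p => hpolyV p)
  have hresι : resV.comp ιV = h44_cred A res := RingHom.ext (fun p => hpolyres p)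
  have hcomp : ((algebraMap K⟮x⟯ F).comp V.subtype).comp ιV = h44_cev A x := by
    refine RingHom.ext (fun p => ?_)
    show algebraMap K⟮x⟯ F (aeval (AdjoinSimple.gen K x) (p.map A.subtype)) =
      aeval x (p.map A.subtype)
    exact h44_coe_aeval_gen x _
  have hmonV : (Φ.map ιV).Monic := hmon.map ιV
  have hdegV : (Φ.map ιV).natDegree = n := by rw [hmon.natDegree_map, hdeg]
  have hrootV : (Φ.map ιV).eval₂ ((algebraMap K⟮x⟯ F).comp V.subtype) y = 0 := by
    rw [Polynomial.eval₂_map, hcomp]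
    exact hroot
  have hΦeq : (Φ.map ιV).map resV = Φ.map (h44_cred A res) := by
    rw [Polynomial.map_map, hresι]
  have hirrV : Irreducible ((Φ.map ιV).map resV) := by
    rw [hΦeq]
    exact Fact.out
  obtain ⟨O, red, hred, hOmem, hOb, hOred, hOconst, hOscale⟩ :=
    h44_unramExt V y n (Φ.map ιV) hmonV hdegV hrootV hspan hli resV hresV hirrV
  -- transport `red` along `hΦeq`
  have key : ∀ (q : Polynomial (RatFunc k)) (_ : (Φ.map ιV).map resV = q),
      ∃ red' : O →+* AdjoinRoot q, Function.Surjective red' ∧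
        ∀ p : Polynomial V, ∃ h : p.eval₂ ((algebraMap K⟮x⟯ F).comp V.subtype) y ∈ O,
          red' ⟨_, h⟩ = AdjoinRoot.mk q (p.map resV) := by
    rintro q rfl
    exact ⟨red, hred, hOred⟩
  obtain ⟨red', hred', hOred'⟩ := key _ hΦeq
  -- the general reduction formula
  have hform : ∀ P : Polynomial (Polynomial A), ∃ h : P.eval₂ (h44_cev A x) y ∈ O,
      red' ⟨_, h⟩ = AdjoinRoot.mk (Φ.map (h44_cred A res)) (P.map (h44_cred A res)) := by
    intro P
    obtain ⟨h, hh⟩ := hOred' (P.map ιV)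
    have e : (P.map ιV).eval₂ ((algebraMap K⟮x⟯ F).comp V.subtype) y =
        P.eval₂ (h44_cev A x) y := by
      rw [Polynomial.eval₂_map, hcomp]
    have aux : ∀ (f g : F) (hfg : f = g) (hf : f ∈ O) (hg : g ∈ O),
        red' ⟨f, hf⟩ = red' ⟨g, hg⟩ := by
      rintro f g rfl hf hg
      rfl
    have h' : P.eval₂ (h44_cev A x) y ∈ O := e ▸ h
    refine ⟨h', ?_⟩
    rw [← aux _ _ e h h', hh, Polynomial.map_map, hresι]
  -- constants
  have hmemK : ∀ a : K, a ∈ A ↔ algebraMap K F a ∈ O := by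
    intro a
    rw [IsScalarTower.algebraMap_apply K K⟮x⟯ F, hOconst, hVconst]
  refine ⟨{ A := A, O := O, res := res, red := red', res_surjective := hres,
            red_surjective := hred', mem_iff := hmemK, red_algebraMap := ?_,
            exists_scale := ?_ }, rfl, ?_, hform⟩
  · intro a ha ha'
    obtain ⟨h, hh⟩ := hform (C (C (⟨a, ha⟩ : A)))
    have e : (C (C (⟨a, ha⟩ : A)) : Polynomial (Polynomial A)).eval₂ (h44_cev A x) y =
        algebraMap K F a := by
      rw [eval₂_C, h44_cev_apply, Polynomial.map_C, aeval_C]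
      rfl
    have aux : ∀ (f g : F) (hfg : f = g) (hf : f ∈ O) (hg : g ∈ O),
        red' ⟨f, hf⟩ = red' ⟨g, hg⟩ := by
      rintro f g rfl hf hg
      rfl
    rw [← aux _ _ e h ha', hh, Polynomial.map_C, AdjoinRoot.mk_C, h44_cred_apply,
      Polynomial.map_C, RatFunc.algebraMap_C]
    rfl
  · intro f hf
    obtain ⟨c₁, hc₁, h1, h2⟩ := hOscale f hf
    obtain ⟨c, hc, h3, h4⟩ := hVscale c₁⁻¹ (inv_ne_zero hc₁)
    have h3' : algebraMap K⟮x⟯ F (algebraMap K K⟮x⟯ c * c₁⁻¹) ∈ O := (hOconst _).mpr h3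
    have h4' : algebraMap K⟮x⟯ F (algebraMap K K⟮x⟯ c * c₁⁻¹)⁻¹ ∈ O := (hOconst _).mpr h4
    have hc₁' : algebraMap K⟮x⟯ F c₁ ≠ 0 := by
      rw [Ne, map_eq_zero]
      exact hc₁
    have hc' : algebraMap K F c ≠ 0 := by
      rw [Ne, map_eq_zero]
      exact hc
    refine ⟨c, hc, ?_, ?_⟩
    · have e : algebraMap K F c * f =
          algebraMap K⟮x⟯ F (algebraMap K K⟮x⟯ c * c₁⁻¹) * (algebraMap K⟮x⟯ F c₁ * f) := by
        rw [map_mul, ← IsScalarTower.algebraMap_apply K K⟮x⟯ F, map_inv₀]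
        field_simp
      rw [e]
      exact O.mul_mem _ _ h3' h1
    · have e : (algebraMap K F c * f)⁻¹ =
          algebraMap K⟮x⟯ F (algebraMap K K⟮x⟯ c * c₁⁻¹)⁻¹ * (algebraMap K⟮x⟯ F c₁ * f)⁻¹ := by
        rw [map_inv₀, map_mul, ← IsScalarTower.algebraMap_apply K K⟮x⟯ F, map_inv₀]
        field_simp
      rw [e]
      exact O.mul_mem _ _ h4' h2
  · intro a ha
    exact h39_RedDatum.resK_of_mem _ ha

end Main

end Fermat.Agent.S27
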