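import Mathlib
import Fermat.Prelude.Def_AlgebraicCurve_IsCurveOver
import Fermat.Prelude.Def_AlgebraicCurve_Repartitions
import Fermat.Agent.S18.Defs
import Fermat.Agent.S18.h75_RRDefs
import Fermat.Agent.S27.h15_Defs
import Fermat.Agent.S27.h44_RedConstr
import Fermat.Agent.S27.h21_AdjRatFunc

/-!
# S27 / B1 RED-CONSTR (row 488): the reduction datum of a plane model, chart form

Wrapper (helper21) around the datum `h44_redConstr` (helper44): the weak chart from the pure
lemma `h21_adjRatFunc`, the branch clause from the finite set `Z`.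

* `h21_exists_redDatum_of_model_core` : any valuation subring `A`, with `R.A = A`;
* `h15_exists_redDatum_of_model` : the ANY-RANK export;
* `h21_exists_redDatum_of_model_rankOne` : the variant carrying `h39_RankOne`.
-/

set_option autoImplicit false

noncomputable section

open AlgebraicCurve Fermat.Agent.S18 Polynomial IntermediateField

namespace Fermat.Agent.S27

universe u v

/-- spanning by the powers of `y` from linear independence and the rank -/
theorem h21_rc_span {K F : Type*} [Field K] [Field F] [Algebra K F] (x y : F) (n : ℕ)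
    (hn : 0 < n) (hrank : Module.finrank K⟮x⟯ F = n)
    (hpow : LinearIndependent K⟮x⟯ (fun i : Fin n => y ^ (i : ℕ))) :
    ∀ f : F, ∃ c : Fin n → K⟮x⟯, f = ∑ i, algebraMap K⟮x⟯ F (c i) * y ^ (i : ℕ) := by
  intro f
  have : Nonempty (Fin n) := ⟨⟨0, hn⟩⟩
  let b := basisOfLinearIndependentOfCardEqFinrank hpow (by simp [hrank])
  refine ⟨fun i => b.repr f i, ?_⟩
  have h := b.sum_repr f
  rw [← h]
  refine Finset.sum_congr rfl fun i _ => ?_
  rw [Algebra.smul_def]
  congr 1
  · congr 2
    rw [h]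
  · simp [b]

/-- linear independence in the sum form -/
theorem h21_rc_li {K F : Type*} [Field K] [Field F] [Algebra K F] (x y : F) (n : ℕ)
    (hpow : LinearIndependent K⟮x⟯ (fun i : Fin n => y ^ (i : ℕ))) :
    ∀ c : Fin n → K⟮x⟯, ∑ i, algebraMap K⟮x⟯ F (c i) * y ^ (i : ℕ) = 0 → ∀ i, c i = 0 := by
  intro c hc
  refine Fintype.linearIndependent_iff.mp hpow c ?_
  rw [← hc]
  refine Finset.sum_congr rfl fun i _ => ?_
  rw [Algebra.smul_def]

/-- two elements of `A` with equal residues differ by a non-unit -/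
theorem h21_rc_nonunit {K : Type*} [Field K] (A : ValuationSubring K) (z z' : K) (hz : z ∈ A)
    (hz' : z' ∈ A)
    (h : IsLocalRing.residue A ⟨z, hz⟩ = IsLocalRing.residue A ⟨z', hz'⟩) :
    z - z' ∈ A.nonunits := by
  have h0 : IsLocalRing.residue A (⟨z, hz⟩ - ⟨z', hz'⟩) = 0 := by
    rw [map_sub, h, sub_self]
  rw [IsLocalRing.residue_eq_zero_iff] at h0
  rw [ValuationSubring.mem_nonunits_iff_exists_mem_maximalIdeal]
  exact ⟨A.sub_mem hz hz', h0⟩

/-- the weak chart of a reduction datum on `AdjoinRoot g`, `g` over `RatFunc k`, which reduces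
`x` to the image of `RatFunc.X` -/
theorem h21_rc_weakChart {K F k : Type*} [Field K] [Field F] [Algebra K F] [Field k]
    (g : Polynomial (RatFunc k)) [Fact (Irreducible g)] (hsep : g.Separable)
    (R : h39_RedDatum K F k (AdjoinRoot g)) (x : F) (n : ℕ) (hn : 0 < n)
    (hrank : Module.finrank K⟮x⟯ F = n) (hg : g.natDegree = n)
    (hmem : x ∈ R.O) (hred : R.red ⟨x, hmem⟩ = AdjoinRoot.of g RatFunc.X) :
    h39_WeakChart R x := by
  have hxb : R.redF x = AdjoinRoot.of g RatFunc.X := by
    rw [R.redF_of_mem hmem, hred]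
  obtain ⟨h1, h2, h3⟩ := h21_adjRatFunc g hsep
  refine ⟨hmem, ?_, Module.finite_of_finrank_pos (by rw [hrank]; exact hn), ?_, ?_⟩
  · rw [hxb]
    exact h1
  · rw [hxb, h2, hg, hrank]
  · rw [hxb]
    exact h3

/-- **RED-CONSTR, core form**: any valuation subring `A` of any field `K`; the datum has
`R.A = A`. -/
theorem h21_exists_redDatum_of_model_core {K : Type u} {F : Type v} [Field K]
    [Field F] [Algebra K F] (A : ValuationSubring K) (x y : F) (n : ℕ)
    (hn : 0 < n) (hx : Transcendental K x) (hrank : Module.finrank K⟮x⟯ F = n)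
    (Φ : Polynomial (Polynomial A)) (hmonic : Φ.Monic) (hdeg : Φ.natDegree = n)
    (hΦ : Polynomial.eval₂ ((aeval x : K[X] →ₐ[K] F) : K[X] →+* F) y
      (Φ.map (Polynomial.mapRingHom (algebraMap A K))) = 0)
    (hpow : LinearIndependent K⟮x⟯ (fun i : Fin n => y ^ (i : ℕ)))
    (hirr : Irreducible ((Φ.map (Polynomial.mapRingHom (IsLocalRing.residue A))).map
      (algebraMap (Polynomial (IsLocalRing.ResidueField A))
        (RatFunc (IsLocalRing.ResidueField A)))))
    (hsep : ((Φ.map (Polynomial.mapRingHom (IsLocalRing.residue A))).map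
      (algebraMap (Polynomial (IsLocalRing.ResidueField A))
        (RatFunc (IsLocalRing.ResidueField A)))).Separable)
    (Z : Finset K) (hZA : ∀ z ∈ Z, z ∈ A)
    (hZres : ∀ z ∈ Z, ∀ z' ∈ Z, z - z' ∈ A.nonunits → z = z')
    (hZ : ∀ (P : Place K F) (a : K), 2 ≤ P.ord (x - algebraMap K F a) → a ∈ Z) :
    ∃ (Fb : Type u) (_ : Field Fb) (_ : Algebra (IsLocalRing.ResidueField A) Fb)
      (R : h39_RedDatum K F (IsLocalRing.ResidueField A) Fb),
      R.A = A ∧ h39_Chart R x := by
  have hmm : (Φ.map (Polynomial.mapRingHom (IsLocalRing.residue A))).map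
      (algebraMap (Polynomial (IsLocalRing.ResidueField A))
        (RatFunc (IsLocalRing.ResidueField A))) = Φ.map (h44_cred A (IsLocalRing.residue A)) := by
    rw [Polynomial.map_map]
    rfl
  rw [hmm] at hirr hsep
  have hfact : Fact (Irreducible (Φ.map (h44_cred A (IsLocalRing.residue A)))) := ⟨hirr⟩
  have hroot : Φ.eval₂ (h44_cev A x) y = 0 := by
    rw [Polynomial.eval₂_map] at hΦ
    exact hΦ
  obtain ⟨R, hRA, hRres, hRP⟩ := h44_redConstr A (IsLocalRing.residue A)
    IsLocalRing.residue_surjective x y hx n Φ hmonic hdeg hroot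
    (h21_rc_span x y n hn hrank hpow) (h21_rc_li x y n hpow)
  -- the weak chart
  have hev : (C (X : Polynomial A) : Polynomial (Polynomial A)).eval₂ (h44_cev A x) y = x := by
    rw [Polynomial.eval₂_C, h44_cev_apply, Polynomial.map_X, Polynomial.aeval_X]
  obtain ⟨hmem0, hred0⟩ := hRP (C (X : Polynomial A))
  have hmem : x ∈ R.O := by
    rw [← hev]
    exact hmem0
  have hred : R.red ⟨x, hmem⟩ =
      AdjoinRoot.of (Φ.map (h44_cred A (IsLocalRing.residue A))) RatFunc.X := by
    have h1 : R.red ⟨x, hmem⟩ = R.red ⟨_, hmem0⟩ := by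
      congr 1
      exact Subtype.ext hev.symm
    rw [h1, hred0, Polynomial.map_C, AdjoinRoot.mk_C, h44_cred_apply, Polynomial.map_X,
      RatFunc.algebraMap_X]
  have hweak : h39_WeakChart R x :=
    h21_rc_weakChart (Φ.map (h44_cred A (IsLocalRing.residue A))) hsep R x n hn hrank
      (by rw [hmonic.natDegree_map, hdeg]) hmem hred
  refine ⟨AdjoinRoot (Φ.map (h44_cred A (IsLocalRing.residue A))), inferInstance, inferInstance,
    R, hRA, ⟨hweak, ⟨Z, ?_, ?_, hZ⟩⟩⟩
  · intro z hz
    rw [hRA]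
    exact hZA z hz
  · intro z hz z' hz' hzz
    rw [hRres z (hZA z hz), hRres z' (hZA z' hz')] at hzz
    exact hZres z hz z' hz' (h21_rc_nonunit A z z' (hZA z hz) (hZA z' hz') hzz)

/-- **(B1) RED-CONSTR** (ANY-RANK export). The reduction datum of a plane model with
irreducible separable reduction, with the chart `x`. -/
theorem h15_exists_redDatum_of_model {K : Type u} {F : Type v} [Field K] [IsAlgClosed K]
    [CharZero K] [Field F] [Algebra K F] (A : ValuationSubring K) (x y : F) (n : ℕ)
    (hn : 0 < n) (hx : Transcendental K x) (hrank : Module.finrank K⟮x⟯ F = n)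
    (Φ : Polynomial (Polynomial A)) (hmonic : Φ.Monic) (hdeg : Φ.natDegree = n)
    (hΦ : Polynomial.eval₂ ((aeval x : K[X] →ₐ[K] F) : K[X] →+* F) y
      (Φ.map (Polynomial.mapRingHom (algebraMap A K))) = 0)
    (hpow : LinearIndependent K⟮x⟯ (fun i : Fin n => y ^ (i : ℕ)))
    (hirr : Irreducible ((Φ.map (Polynomial.mapRingHom (IsLocalRing.residue A))).map
      (algebraMap (Polynomial (IsLocalRing.ResidueField A))
        (RatFunc (IsLocalRing.ResidueField A)))))
    (hsep : ((Φ.map (Polynomial.mapRingHom (IsLocalRing.residue A))).map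
      (algebraMap (Polynomial (IsLocalRing.ResidueField A))
        (RatFunc (IsLocalRing.ResidueField A)))).Separable)
    (Z : Finset K) (hZA : ∀ z ∈ Z, z ∈ A)
    (hZres : ∀ z ∈ Z, ∀ z' ∈ Z, z - z' ∈ A.nonunits → z = z')
    (hZ : ∀ (P : Place K F) (a : K), 2 ≤ P.ord (x - algebraMap K F a) → a ∈ Z) :
    ∃ (Fb : Type u) (_ : Field Fb) (_ : Algebra (IsLocalRing.ResidueField A) Fb)
      (R : h39_RedDatum K F (IsLocalRing.ResidueField A) Fb), h39_Chart R x := by
  obtain ⟨Fb, i1, i2, R, -, hR⟩ := h21_exists_redDatum_of_model_core A x y n hn hx hrank Φ hmonic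
    hdeg hΦ hpow hirr hsep Z hZA hZres hZ
  exact ⟨Fb, i1, i2, R, hR⟩

/-- **(B1) RED-CONSTR**, the variant carrying the rank-one property of `A`. -/
theorem h21_exists_redDatum_of_model_rankOne {K : Type u} {F : Type v} [Field K]
    [Field F] [Algebra K F] (A : ValuationSubring K) (hA1 : h39_RankOne A) (x y : F) (n : ℕ)
    (hn : 0 < n) (hx : Transcendental K x) (hrank : Module.finrank K⟮x⟯ F = n)
    (Φ : Polynomial (Polynomial A)) (hmonic : Φ.Monic) (hdeg : Φ.natDegree = n)
    (hΦ : Polynomial.eval₂ ((aeval x : K[X] →ₐ[K] F) : K[X] →+* F) y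
      (Φ.map (Polynomial.mapRingHom (algebraMap A K))) = 0)
    (hpow : LinearIndependent K⟮x⟯ (fun i : Fin n => y ^ (i : ℕ)))
    (hirr : Irreducible ((Φ.map (Polynomial.mapRingHom (IsLocalRing.residue A))).map
      (algebraMap (Polynomial (IsLocalRing.ResidueField A))
        (RatFunc (IsLocalRing.ResidueField A)))))
    (hsep : ((Φ.map (Polynomial.mapRingHom (IsLocalRing.residue A))).map
      (algebraMap (Polynomial (IsLocalRing.ResidueField A))
        (RatFunc (IsLocalRing.ResidueField A)))).Separable)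
    (Z : Finset K) (hZA : ∀ z ∈ Z, z ∈ A)
    (hZres : ∀ z ∈ Z, ∀ z' ∈ Z, z - z' ∈ A.nonunits → z = z')
    (hZ : ∀ (P : Place K F) (a : K), 2 ≤ P.ord (x - algebraMap K F a) → a ∈ Z) :
    ∃ (Fb : Type u) (_ : Field Fb) (_ : Algebra (IsLocalRing.ResidueField A) Fb)
      (R : h39_RedDatum K F (IsLocalRing.ResidueField A) Fb),
      h39_Chart R x ∧ h39_RankOne R.A := by
  obtain ⟨Fb, i1, i2, R, hRA, hR⟩ := h21_exists_redDatum_of_model_core A x y n hn hx hrank Φ
    hmonic hdeg hΦ hpow hirr hsep Z hZA hZres hZ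
  refine ⟨Fb, i1, i2, R, hR, ?_⟩
  rw [hRA]
  exact hA1

end Fermat.Agent.S27

end
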