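import Mathlib

/-!
# S27 / VALFAM (abstract part): valuation subrings over a prime of a PID (helper14)

`R` a PID with an algebra map into a field `K`, `A` a valuation subring of `K` containing the
image of `R`, `π` an irreducible element of `R` which is a non-unit of `A`.

* `h14_vf_val_one`   : `π ∤ r ⟹ v(r) = 1`;
* `h14_vf_rankOne`   : `K` algebraic over `R` ⟹ `A` has rank one (archimedean form);
* `h14_vf_unit_of_poly` : a root of a polynomial over `R` whose leading and constant
  coefficients are prime to `π` is a unit of `A`;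
* `h14_vf_exists`    : such an `A` exists for every irreducible `π` (if `R → K` is injective);
* `h14_vf_res_alg`   : the residue field of `A` is algebraic over the image of `R`;
* `h14_resField_isAlgClosed` : residue fields of valuation subrings of algebraically closed
  fields are algebraically closed.
-/

namespace Fermat.Agent.S27

open Polynomial

theorem h14_val_lt_one_of_inv_not_mem {K : Type*} [Field K] (A : ValuationSubring K) {x : K}
    (h : x⁻¹ ∉ A) : A.valuation x < 1 := by
  by_contra hge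
  rw [not_lt] at hge
  apply h
  rw [← A.valuation_le_one_iff, map_inv₀]
  exact inv_le_one_of_one_le₀ hge

theorem h14_ne_zero_of_inv_not_mem {K : Type*} [Field K] (A : ValuationSubring K) {x : K}
    (h : x⁻¹ ∉ A) : x ≠ 0 := by
  rintro rfl
  apply h
  rw [inv_zero]
  exact A.zero_mem

/-- In a vanishing finite sum with a nonzero term, two distinct terms have the same (nonzero)
valuation. -/
theorem h14_vf_two_terms {K : Type*} [Field K] (A : ValuationSubring K) {ι : Type*}
    (s : Finset ι) (f : ι → K) (hsum : ∑ i ∈ s, f i = 0) (j0 : ι) (hj0 : j0 ∈ s)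
    (hf0 : f j0 ≠ 0) :
    ∃ i ∈ s, ∃ j ∈ s, i ≠ j ∧ f j ≠ 0 ∧ A.valuation (f i) = A.valuation (f j) := by
  classical
  obtain ⟨j, hj, hmax⟩ := Finset.exists_max_image s (fun i => A.valuation (f i)) ⟨j0, hj0⟩
  have hfj : f j ≠ 0 := by
    intro h
    have h1 := hmax j0 hj0
    simp only [h, map_zero] at h1
    exact hf0 ((Valuation.zero_iff _).mp (le_antisymm h1 zero_le))
  by_contra hcon
  have hlt : ∀ i ∈ s \ {j}, A.valuation (f i) < A.valuation (f j) := by
    intro i hi
    rw [Finset.mem_sdiff, Finset.mem_singleton] at hi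
    refine lt_of_le_of_ne (hmax i hi.1) fun heq => hcon ⟨i, hi.1, j, hj, hi.2, hfj, heq⟩
  have h2 := Valuation.map_sum_eq_of_lt A.valuation hj hlt
  rw [hsum, map_zero] at h2
  exact hfj ((Valuation.zero_iff _).mp h2.symm)

section PID

variable {R K : Type*} [CommRing R] [IsDomain R] [IsPrincipalIdealRing R] [Field K] [Algebra R K]

/-- elements of `R` prime to `π` are units of `A`. -/
theorem h14_vf_val_one (A : ValuationSubring K) (hRA : ∀ r : R, algebraMap R K r ∈ A)
    {π : R} (hπ : Irreducible π) (hπA : (algebraMap R K π)⁻¹ ∉ A) {r : R} (hr : ¬ π ∣ r) :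
    A.valuation (algebraMap R K r) = 1 := by
  have hle : A.valuation (algebraMap R K r) ≤ 1 := (A.valuation_le_one_iff _).mpr (hRA r)
  rcases hle.lt_or_eq with hlt | heq
  · exfalso
    obtain ⟨u, v, huv⟩ := (Irreducible.coprime_iff_not_dvd hπ).mpr hr
    have hπlt := h14_val_lt_one_of_inv_not_mem A hπA
    have h1 : A.valuation (algebraMap R K (u * π + v * r)) < 1 := by
      rw [map_add, map_mul, map_mul]
      refine lt_of_le_of_lt (Valuation.map_add _ _ _) (max_lt ?_ ?_)
      · rw [map_mul]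
        exact lt_of_le_of_lt
          (mul_le_of_le_one_left' ((A.valuation_le_one_iff _).mpr (hRA u))) hπlt
      · rw [map_mul]
        exact lt_of_le_of_lt
          (mul_le_of_le_one_left' ((A.valuation_le_one_iff _).mpr (hRA v))) hlt
    rw [huv, map_one, map_one] at h1
    exact lt_irrefl _ h1
  · exact heq

theorem h14_vf_val_pi_ne_zero (A : ValuationSubring K) {π : R}
    (hπA : (algebraMap R K π)⁻¹ ∉ A) : A.valuation (algebraMap R K π) ≠ 0 :=
  (Valuation.ne_zero_iff _).mpr (h14_ne_zero_of_inv_not_mem A hπA)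

/-- the valuation of a nonzero element of `R` is a power of the valuation of `π`. -/
theorem h14_vf_val_pow (A : ValuationSubring K) (hRA : ∀ r : R, algebraMap R K r ∈ A)
    {π : R} (hπ : Irreducible π) (hπA : (algebraMap R K π)⁻¹ ∉ A) {r : R} (hr : r ≠ 0) :
    ∃ n : ℕ, A.valuation (algebraMap R K r) = A.valuation (algebraMap R K π) ^ n := by
  obtain ⟨n, a, hna, rfl⟩ := WfDvdMonoid.max_power_factor hr hπ
  refine ⟨n, ?_⟩
  rw [map_mul, map_pow, map_mul, map_pow, h14_vf_val_one A hRA hπ hπA hna, mul_one]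

theorem h14_vf_map_ne_zero (A : ValuationSubring K) (hRA : ∀ r : R, algebraMap R K r ∈ A)
    {π : R} (hπ : Irreducible π) (hπA : (algebraMap R K π)⁻¹ ∉ A) {r : R} (hr : r ≠ 0) :
    algebraMap R K r ≠ 0 := by
  obtain ⟨n, hn⟩ := h14_vf_val_pow A hRA hπ hπA hr
  intro h
  rw [h, map_zero] at hn
  exact pow_ne_zero n (h14_vf_val_pi_ne_zero A hπA) hn.symm

/-- a nonzero algebraic element has a power whose valuation is a (relative) power of `v(π)`. -/
theorem h14_vf_alg_rel (A : ValuationSubring K) (hRA : ∀ r : R, algebraMap R K r ∈ A)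
    {π : R} (hπ : Irreducible π) (hπA : (algebraMap R K π)⁻¹ ∉ A) {a : K} (ha : a ≠ 0)
    (halg : IsAlgebraic R a) :
    ∃ e : ℕ, 0 < e ∧ ∃ m1 m2 : ℕ,
      A.valuation a ^ e * A.valuation (algebraMap R K π) ^ m1
        = A.valuation (algebraMap R K π) ^ m2 := by
  obtain ⟨P, hP0, hPa⟩ := halg
  rw [aeval_def, eval₂_eq_sum, Polynomial.sum_def] at hPa
  have hva : A.valuation a ≠ 0 := (Valuation.ne_zero_iff _).mpr ha
  have hterm : ∀ i ∈ P.support, algebraMap R K (P.coeff i) * a ^ i ≠ 0 := by
    intro i hi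
    exact mul_ne_zero (h14_vf_map_ne_zero A hRA hπ hπA (mem_support_iff.mp hi)) (pow_ne_zero _ ha)
  obtain ⟨j0, hj0⟩ : P.support.Nonempty := by
    rw [Finset.nonempty_iff_ne_empty, Ne, support_eq_empty]
    exact hP0
  obtain ⟨i, hi, j, hj, hij, -, hv⟩ :=
    h14_vf_two_terms A P.support (fun i => algebraMap R K (P.coeff i) * a ^ i) hPa j0 hj0
      (hterm j0 hj0)
  -- the ordered version
  have key : ∀ i j : ℕ, i ∈ P.support → j ∈ P.support → i < j →
      A.valuation (algebraMap R K (P.coeff i) * a ^ i)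
        = A.valuation (algebraMap R K (P.coeff j) * a ^ j) →
      ∃ e : ℕ, 0 < e ∧ ∃ m1 m2 : ℕ,
        A.valuation a ^ e * A.valuation (algebraMap R K π) ^ m1
          = A.valuation (algebraMap R K π) ^ m2 := by
    intro i j hi hj hij hv
    obtain ⟨ni, hni⟩ := h14_vf_val_pow A hRA hπ hπA (mem_support_iff.mp hi)
    obtain ⟨nj, hnj⟩ := h14_vf_val_pow A hRA hπ hπA (mem_support_iff.mp hj)
    refine ⟨j - i, by omega, nj, ni, ?_⟩
    rw [map_mul, map_mul, map_pow, map_pow, hni, hnj] at hv
    have hj' : j = (j - i) + i := by omega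
    rw [hj', pow_add, ← mul_assoc] at hv
    have := mul_right_cancel₀ (pow_ne_zero i hva) hv
    rw [mul_comm]
    exact this.symm
  rcases Nat.lt_or_gt_of_ne hij with h | h
  · exact key i j hi hj h hv
  · exact key j i hj hi h hv.symm

/-- **Rank one**: if `K` is algebraic over `R`, then `A` is archimedean. -/
theorem h14_vf_rankOne [Algebra.IsAlgebraic R K] (A : ValuationSubring K)
    (hRA : ∀ r : R, algebraMap R K r ∈ A) {π : R} (hπ : Irreducible π)
    (hπA : (algebraMap R K π)⁻¹ ∉ A) :
    ∀ a : K, a ∈ A → a⁻¹ ∉ A → ∀ δ : K, δ ≠ 0 → ∃ n : ℕ, a ^ n * δ⁻¹ ∈ A := by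
  intro a _ hainv δ hδ
  have ha0 : a ≠ 0 := h14_ne_zero_of_inv_not_mem A hainv
  have hw1 : A.valuation (algebraMap R K π) < 1 := h14_val_lt_one_of_inv_not_mem A hπA
  have hw0 : A.valuation (algebraMap R K π) ≠ 0 := h14_vf_val_pi_ne_zero A hπA
  have hx1 : A.valuation a < 1 := h14_val_lt_one_of_inv_not_mem A hainv
  have hy0 : A.valuation δ ≠ 0 := (Valuation.ne_zero_iff _).mpr hδ
  obtain ⟨e, he, m1, m2, h1⟩ :=
    h14_vf_alg_rel A hRA hπ hπA ha0 (Algebra.IsAlgebraic.isAlgebraic a)
  obtain ⟨e', he', m1', m2', h2⟩ :=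
    h14_vf_alg_rel A hRA hπ hπA hδ (Algebra.IsAlgebraic.isAlgebraic δ)
  refine ⟨e * m2', ?_⟩
  rw [← A.valuation_le_one_iff, map_mul, map_pow, map_inv₀]
  generalize A.valuation (algebraMap R K π) = w at *
  generalize A.valuation a = x at *
  generalize A.valuation δ = y at *
  have hwpos : ∀ n : ℕ, 0 < w ^ n := fun n => zero_lt_iff.mpr (pow_ne_zero n hw0)
  have hm : m1 < m2 := by
    by_contra hcon
    rw [not_lt] at hcon
    have h3 : w ^ m1 ≤ w ^ m2 := pow_le_pow_right_of_le_one' hw1.le hcon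
    have h4 : x ^ e * w ^ m1 < 1 * w ^ m1 :=
      mul_lt_mul_of_pos_right (pow_lt_one₀ zero_le hx1 he.ne') (hwpos m1)
    rw [h1, one_mul] at h4
    exact absurd h3 (not_le.mpr h4)
  by_contra hcon
  rw [not_le] at hcon
  have hlt : y < x ^ (e * m2') := by
    by_contra h5
    rw [not_lt] at h5
    have : x ^ (e * m2') * y⁻¹ ≤ y * y⁻¹ := mul_le_mul' h5 le_rfl
    rw [mul_inv_cancel₀ hy0] at this
    exact absurd this (not_le.mpr hcon)
  have s1 : y ^ e' < (x ^ (e * m2')) ^ e' := pow_lt_pow_left₀ hlt zero_le he'.ne'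
  have s2 : y ^ e' * w ^ m1' < (x ^ (e * m2')) ^ e' * w ^ m1' :=
    mul_lt_mul_of_pos_right s1 (hwpos m1')
  rw [h2] at s2
  have s3 : w ^ m2' * w ^ (m1 * (m2' * e'))
      < (x ^ (e * m2')) ^ e' * w ^ m1' * w ^ (m1 * (m2' * e')) :=
    mul_lt_mul_of_pos_right s2 (hwpos _)
  have e1 : (x ^ (e * m2')) ^ e' * w ^ m1' * w ^ (m1 * (m2' * e'))
      = w ^ (m2 * (m2' * e') + m1') := by
    have : (x ^ (e * m2')) ^ e' = (x ^ e) ^ (m2' * e') := by
      rw [← pow_mul, ← pow_mul, mul_assoc]
    rw [this, mul_right_comm, pow_mul w m1, ← mul_pow, h1, ← pow_mul, ← pow_add]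
  rw [e1, ← pow_add] at s3
  have s4 : w ^ (m2 * (m2' * e') + m1') ≤ w ^ (m2' + m1 * (m2' * e')) := by
    apply pow_le_pow_right_of_le_one' hw1.le
    have h6 : (m1 + 1) * (m2' * e') ≤ m2 * (m2' * e') := Nat.mul_le_mul_right _ hm
    have h7 : m2' ≤ m2' * e' := Nat.le_mul_of_pos_right _ he'
    calc m2' + m1 * (m2' * e') ≤ m2' * e' + m1 * (m2' * e') := Nat.add_le_add_right h7 _
      _ = (m1 + 1) * (m2' * e') := by ring
      _ ≤ m2 * (m2' * e') := h6
      _ ≤ m2 * (m2' * e') + m1' := Nat.le_add_right _ _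
  exact absurd s4 (not_le.mpr s3)

/-- **Units**: a root of a polynomial over `R` whose leading and constant coefficients are
prime to `π` is a unit of `A`. -/
theorem h14_vf_unit_of_poly (A : ValuationSubring K) (hRA : ∀ r : R, algebraMap R K r ∈ A)
    {π : R} (hπ : Irreducible π) (hπA : (algebraMap R K π)⁻¹ ∉ A) {s : K} (P : R[X])
    (hP : aeval s P = 0) (hlead : ¬ π ∣ P.leadingCoeff) (hconst : ¬ π ∣ P.coeff 0) :
    s ∈ A ∧ s⁻¹ ∈ A := by
  classical
  have hvl := h14_vf_val_one A hRA hπ hπA hlead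
  have hvc := h14_vf_val_one A hRA hπ hπA hconst
  have hvi : ∀ i, A.valuation (algebraMap R K (P.coeff i)) ≤ 1 :=
    fun i => (A.valuation_le_one_iff _).mpr (hRA _)
  rw [aeval_eq_sum_range] at hP
  have key : A.valuation s = 1 := by
    rcases lt_trichotomy (A.valuation s) 1 with h | h | h
    · exfalso
      have h1 := Valuation.map_sum_eq_of_lt A.valuation
        (s := Finset.range (P.natDegree + 1)) (f := fun i => P.coeff i • s ^ i) (j := 0)
        (by simp) (by
          intro i hi
          rw [Finset.mem_sdiff, Finset.mem_singleton] at hi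
          simp only [Algebra.smul_def, map_mul, map_pow, pow_zero, mul_one]
          rw [hvc]
          exact lt_of_le_of_lt (mul_le_of_le_one_left' (hvi i)) (pow_lt_one₀ zero_le h hi.2))
      rw [hP, map_zero] at h1
      simp only [Algebra.smul_def, pow_zero, mul_one, hvc] at h1
      exact zero_ne_one h1
    · exact h
    · exfalso
      have h1 := Valuation.map_sum_eq_of_lt A.valuation
        (s := Finset.range (P.natDegree + 1)) (f := fun i => P.coeff i • s ^ i)
        (j := P.natDegree) (by simp) (by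
          intro i hi
          rw [Finset.mem_sdiff, Finset.mem_singleton, Finset.mem_range] at hi
          have hlt : i < P.natDegree := by omega
          simp only [Algebra.smul_def, map_mul, map_pow]
          rw [coeff_natDegree, hvl, one_mul]
          exact lt_of_le_of_lt (mul_le_of_le_one_left' (hvi i)) (pow_lt_pow_right₀ h hlt))
      rw [hP, map_zero] at h1
      simp only [Algebra.smul_def, map_mul, map_pow, coeff_natDegree, hvl, one_mul] at h1
      exact (pow_ne_zero _ (ne_of_gt (lt_trans zero_lt_one h))) h1.symm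
  refine ⟨(A.valuation_le_one_iff _).mp key.le, (A.valuation_le_one_iff _).mp ?_⟩
  rw [map_inv₀, key, inv_one]

/-- **Existence** of a valuation subring containing `R` in which `π` is a non-unit. -/
theorem h14_vf_exists (hinj : Function.Injective (algebraMap R K)) {π : R}
    (hπ : Irreducible π) :
    ∃ A : ValuationSubring K, (∀ r : R, algebraMap R K r ∈ A) ∧ (algebraMap R K π)⁻¹ ∉ A := by
  let A0 : Subring K := (algebraMap R K).range
  let x : A0 := ⟨algebraMap R K π, ⟨π, rfl⟩⟩
  have hI : Ideal.span {x} ≠ ⊤ := by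
    intro h
    rw [Ideal.span_singleton_eq_top] at h
    obtain ⟨⟨y, u, rfl⟩, hy⟩ := h.exists_right_inv
    have h1 : algebraMap R K π * algebraMap R K u = 1 := congrArg Subtype.val hy
    rw [← map_mul, ← map_one (algebraMap R K)] at h1
    exact hπ.not_isUnit (IsUnit.of_mul_eq_one _ (hinj h1))
  obtain ⟨B, hB1, hB2⟩ := Ideal.image_subset_nonunits_valuationSubring (Ideal.span {x}) hI
  refine ⟨B, fun r => hB1 ⟨r, rfl⟩, ?_⟩
  have hmem : algebraMap R K π ∈ B.nonunits :=
    hB2 ⟨x, Ideal.subset_span rfl, rfl⟩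
  rw [ValuationSubring.mem_nonunits_iff_or] at hmem
  rcases hmem with h | h
  · exact absurd (hinj (h.trans (map_zero _).symm)) hπ.ne_zero
  · exact h

/-- the residue map restricted to `R`. -/
noncomputable def h14_vfRes (A : ValuationSubring K) (hRA : ∀ r : R, algebraMap R K r ∈ A) :
    R →+* IsLocalRing.ResidueField A :=
  (IsLocalRing.residue A).comp ((algebraMap R K).codRestrict A hRA)

theorem h14_vfRes_apply (A : ValuationSubring K) (hRA : ∀ r : R, algebraMap R K r ∈ A) (r : R) :
    h14_vfRes A hRA r = IsLocalRing.residue A ⟨algebraMap R K r, hRA r⟩ := rfl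

theorem h14_vfRes_ne_zero (A : ValuationSubring K) (hRA : ∀ r : R, algebraMap R K r ∈ A)
    {π : R} (hπ : Irreducible π) (hπA : (algebraMap R K π)⁻¹ ∉ A) {r : R} (hr : ¬ π ∣ r) :
    h14_vfRes A hRA r ≠ 0 := by
  intro h
  rw [h14_vfRes_apply, IsLocalRing.residue_eq_zero_iff, A.valuation_lt_one_iff] at h
  exact (ne_of_lt h) (h14_vf_val_one A hRA hπ hπA hr)

theorem h14_vfRes_pi (A : ValuationSubring K) (hRA : ∀ r : R, algebraMap R K r ∈ A)
    {π : R} (hπA : (algebraMap R K π)⁻¹ ∉ A) : h14_vfRes A hRA π = 0 := by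
  rw [h14_vfRes_apply, IsLocalRing.residue_eq_zero_iff, A.valuation_lt_one_iff]
  exact h14_val_lt_one_of_inv_not_mem A hπA

/-- **Residue field**: every element of the residue field of `A` is algebraic over the image
of `R` (hence over the field `R / π`). -/
theorem h14_vf_res_alg [Algebra.IsAlgebraic R K] (A : ValuationSubring K)
    (hRA : ∀ r : R, algebraMap R K r ∈ A) {π : R} (hπ : Irreducible π)
    (hπA : (algebraMap R K π)⁻¹ ∉ A) (a : IsLocalRing.ResidueField A) :
    ∃ Q : R[X], Q.map (h14_vfRes A hRA) ≠ 0 ∧ Q.eval₂ (h14_vfRes A hRA) a = 0 := by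
  obtain ⟨a, rfl⟩ := IsLocalRing.residue_surjective a
  obtain ⟨P, hP0, hPa⟩ := Algebra.IsAlgebraic.isAlgebraic (R := R) (a : K)
  have hCπ : ¬ IsUnit (C π : R[X]) := by
    rw [Polynomial.isUnit_C]
    exact hπ.not_isUnit
  obtain ⟨n, Q, hQ, rfl⟩ := WfDvdMonoid.max_power_factor' hP0 hCπ
  rw [C_dvd_iff_dvd_coeff, not_forall] at hQ
  obtain ⟨i, hi⟩ := hQ
  have hQa : aeval (a : K) Q = 0 := by
    rw [map_mul, map_pow, aeval_C] at hPa
    exact (mul_eq_zero.mp hPa).resolve_left
      (pow_ne_zero n (h14_ne_zero_of_inv_not_mem A hπA))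
  refine ⟨Q, ?_, ?_⟩
  · intro h
    have h1 : (Q.map (h14_vfRes A hRA)).coeff i = 0 := by rw [h, coeff_zero]
    rw [coeff_map] at h1
    exact h14_vfRes_ne_zero A hRA hπ hπA hi h1
  · have h0 : Q.eval₂ ((algebraMap R K).codRestrict A hRA) a = 0 := by
      apply Subtype.val_injective
      have := hom_eval₂ Q ((algebraMap R K).codRestrict A hRA) A.subtype a
      rw [ValuationSubring.subtype_apply] at this
      rw [this]
      exact hQa
    unfold h14_vfRes
    rw [← hom_eval₂, h0, map_zero]

end PID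

/-- Residue fields of valuation subrings of algebraically closed fields are algebraically
closed. -/
theorem h14_resField_isAlgClosed {K : Type*} [Field K] [IsAlgClosed K] (A : ValuationSubring K) :
    IsAlgClosed (IsLocalRing.ResidueField A) := by
  apply IsAlgClosed.of_exists_root
  intro p hmon hirr
  have hl : p ∈ lifts (IsLocalRing.residue A) := by
    rw [lifts_iff_coeff_lifts]
    intro n
    exact IsLocalRing.residue_surjective _
  obtain ⟨P, hPmap, hPdeg, hPmon⟩ := lifts_and_degree_eq_and_monic hl hmon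
  have hdeg : (P.map A.subtype).degree ≠ 0 := by
    rw [hPmon.degree_map, hPdeg]
    exact (degree_pos_of_irreducible hirr).ne'
  obtain ⟨x, hx⟩ := IsAlgClosed.exists_root (P.map A.subtype) hdeg
  have hxint : IsIntegral A x := by
    refine ⟨P, hPmon, ?_⟩
    rw [IsRoot, eval_map] at hx
    exact hx
  obtain ⟨y, rfl⟩ := IsIntegrallyClosed.isIntegral_iff.mp hxint
  refine ⟨IsLocalRing.residue A y, ?_⟩
  rw [← hPmap, eval_map, eval₂_at_apply]
  have h0 : P.eval y = 0 := by
    apply Subtype.val_injective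
    have := eval₂_at_apply (p := P) A.subtype y
    rw [IsRoot, eval_map] at hx
    exact this.symm.trans hx
  rw [h0, map_zero]

end Fermat.Agent.S27
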