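import Mathlib
import Fermat.Agent.S27.h14_ValFam

/-!
# S27 / VALFAM, family (i): valuation subrings over a prime `p` (helper14)

`K` algebraically closed of characteristic zero and algebraic over `ℤ` (an algebraic closure
of `ℚ`); for every finite set `S` of nonzero elements of `K` and every `m ≠ 0` there is a
rank-one valuation subring `A` of `K` in which every `s ∈ S` is a unit, whose residue field is
algebraically closed of characteristic `p ∤ m`, and is a union of finite fields.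
-/

namespace Fermat.Agent.S27

open Polynomial

/-- a nonzero algebraic element is a root of a polynomial with nonzero constant coefficient. -/
theorem h14_exists_poly_coeff_zero_ne {R K : Type*} [CommRing R] [Field K] [Algebra R K]
    {s : K} (hs : s ≠ 0) (h : IsAlgebraic R s) :
    ∃ P : R[X], aeval s P = 0 ∧ P.coeff 0 ≠ 0 := by
  obtain ⟨P, hP0, hPa⟩ := h
  obtain ⟨Q, hPQ, hQ⟩ := exists_eq_pow_rootMultiplicity_mul_and_not_dvd P hP0 0
  rw [C_0, sub_zero] at hPQ hQ
  refine ⟨Q, ?_, fun h0 => hQ (X_dvd_iff.mpr h0)⟩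
  rw [hPQ, map_mul, map_pow, aeval_X] at hPa
  exact (mul_eq_zero.mp hPa).resolve_left (pow_ne_zero _ hs)

/-- an element of a field of characteristic `p` which is algebraic over the prime field lies
in a finite subfield. -/
theorem h14_pow_card_of_isAlgebraic_zmod (p : ℕ) [Fact p.Prime] {k : Type*} [Field k]
    [Algebra (ZMod p) k] (a : k) (ha : IsAlgebraic (ZMod p) a) :
    ∃ n : ℕ, 0 < n ∧ a ^ (p ^ n) = a := by
  have hint : IsIntegral (ZMod p) a := ha.isIntegral
  haveI : FiniteDimensional (ZMod p) (IntermediateField.adjoin (ZMod p) {a}) :=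
    IntermediateField.adjoin.finiteDimensional hint
  haveI : Finite (IntermediateField.adjoin (ZMod p) {a}) := Module.finite_of_finite (ZMod p)
  haveI : Fintype (IntermediateField.adjoin (ZMod p) {a}) := Fintype.ofFinite _
  haveI : CharP (IntermediateField.adjoin (ZMod p) {a}) p :=
    charP_of_injective_algebraMap
      (algebraMap (ZMod p) (IntermediateField.adjoin (ZMod p) {a})).injective p
  obtain ⟨n, -, hn⟩ := FiniteField.card (IntermediateField.adjoin (ZMod p) {a}) p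
  refine ⟨n, n.pos, ?_⟩
  have h1 := FiniteField.pow_card
    (⟨a, IntermediateField.mem_adjoin_simple_self (ZMod p) a⟩ :
      IntermediateField.adjoin (ZMod p) {a})
  rw [hn] at h1
  exact congrArg Subtype.val h1

/-- **VALFAM, family (i).** -/
theorem h14_valfam_p (K : Type*) [Field K] [IsAlgClosed K] [CharZero K]
    (hK : ∀ a : K, IsAlgebraic ℤ a) (S : Finset K) (hS : ∀ s ∈ S, s ≠ 0) (m : ℕ) (hm : m ≠ 0) :
    ∃ (A : ValuationSubring K) (p : ℕ), p.Prime ∧ ¬ p ∣ m ∧
      (∀ a : K, a ∈ A → a⁻¹ ∉ A → ∀ δ : K, δ ≠ 0 → ∃ n : ℕ, a ^ n * δ⁻¹ ∈ A) ∧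
      (∀ s ∈ S, s ∈ A ∧ s⁻¹ ∈ A) ∧
      CharP (IsLocalRing.ResidueField A) p ∧ IsAlgClosed (IsLocalRing.ResidueField A) ∧
      ∀ a : IsLocalRing.ResidueField A, ∃ n : ℕ, 0 < n ∧ a ^ (p ^ n) = a := by
  classical
  have hex : ∀ s : K, ∃ P : ℤ[X], P.leadingCoeff ≠ 0 ∧ P.coeff 0 ≠ 0 ∧
      (s ≠ 0 → aeval s P = 0) := by
    intro s
    by_cases hs : s = 0
    · exact ⟨1, by simp, by simp, fun h => absurd hs h⟩
    · obtain ⟨P, hP, hP0⟩ := h14_exists_poly_coeff_zero_ne hs (hK s)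
      refine ⟨P, ?_, hP0, fun _ => hP⟩
      rw [Ne, leadingCoeff_eq_zero]
      rintro rfl
      simp at hP0
  choose P hPl hPc hPa using hex
  set b : ℤ := (m : ℤ) * ∏ s ∈ S, ((P s).leadingCoeff * (P s).coeff 0) with hb
  have hb0 : b ≠ 0 := by
    rw [hb]
    refine mul_ne_zero (by exact_mod_cast hm) (Finset.prod_ne_zero_iff.mpr fun s _ => ?_)
    exact mul_ne_zero (hPl s) (hPc s)
  obtain ⟨p, hpge, hp⟩ := Nat.exists_infinite_primes (b.natAbs + 1)
  have hpb : ¬ (p : ℤ) ∣ b := by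
    intro h
    rw [Int.natCast_dvd] at h
    have := Nat.le_of_dvd (Int.natAbs_pos.mpr hb0) h
    omega
  have hπ : Irreducible (p : ℤ) := (Nat.prime_iff_prime_int.mp hp).irreducible
  have hinj : Function.Injective (algebraMap ℤ K) := (algebraMap ℤ K).injective_int
  obtain ⟨A, hRA, hπA⟩ := h14_vf_exists (R := ℤ) (K := K) hinj hπ
  haveI : Algebra.IsAlgebraic ℤ K := ⟨hK⟩
  have hpm : ¬ p ∣ m := by
    intro h
    apply hpb
    rw [hb]
    exact Dvd.dvd.mul_right (Int.natCast_dvd_natCast.mpr h) _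
  have hpk : (p : IsLocalRing.ResidueField A) = 0 := by
    have := h14_vfRes_pi A hRA hπA
    rwa [map_natCast] at this
  haveI hchar : CharP (IsLocalRing.ResidueField A) p := (CharP.charP_iff_prime_eq_zero hp).mpr hpk
  refine ⟨A, p, hp, hpm, h14_vf_rankOne A hRA hπ hπA, ?_, hchar, h14_resField_isAlgClosed A, ?_⟩
  · intro s hs
    have hdvd : (P s).leadingCoeff * (P s).coeff 0 ∣ b := by
      rw [hb]
      exact Dvd.dvd.mul_left (Finset.dvd_prod_of_mem _ hs) _
    refine h14_vf_unit_of_poly A hRA hπ hπA (P s) (hPa s (hS s hs)) ?_ ?_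
    · exact fun h => hpb ((h.mul_right _).trans hdvd)
    · exact fun h => hpb ((h.mul_left _).trans hdvd)
  · intro a
    haveI : Fact p.Prime := ⟨hp⟩
    letI : Algebra (ZMod p) (IsLocalRing.ResidueField A) := ZMod.algebra _ p
    obtain ⟨Q, hQ0, hQa⟩ := h14_vf_res_alg A hRA hπ hπA a
    have hψ : h14_vfRes A hRA
        = (algebraMap (ZMod p) (IsLocalRing.ResidueField A)).comp (Int.castRingHom (ZMod p)) :=
      RingHom.ext_int _ _
    apply h14_pow_card_of_isAlgebraic_zmod p a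
    refine ⟨Q.map (Int.castRingHom (ZMod p)), ?_, ?_⟩
    · intro h
      apply hQ0
      rw [hψ, ← Polynomial.map_map, h, Polynomial.map_zero]
    · rw [aeval_def, eval₂_map, ← hψ]
      exact hQa

/-- The same with the hypothesis in the shape of the S27 skeleton (`h15_TrdegLE K 0`). -/
theorem h14_valfam_p' (K : Type*) [Field K] [IsAlgClosed K] [CharZero K]
    (hK : ∃ s : Fin 0 → K, ∀ a : K, IsAlgebraic (Algebra.adjoin ℤ (Set.range s)) a)
    (S : Finset K) (hS : ∀ s ∈ S, s ≠ 0) (m : ℕ) (hm : m ≠ 0) :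
    ∃ (A : ValuationSubring K) (p : ℕ), p.Prime ∧ ¬ p ∣ m ∧
      (∀ a : K, a ∈ A → a⁻¹ ∉ A → ∀ δ : K, δ ≠ 0 → ∃ n : ℕ, a ^ n * δ⁻¹ ∈ A) ∧
      (∀ s ∈ S, s ∈ A ∧ s⁻¹ ∈ A) ∧
      CharP (IsLocalRing.ResidueField A) p ∧ IsAlgClosed (IsLocalRing.ResidueField A) ∧
      ∀ a : IsLocalRing.ResidueField A, ∃ n : ℕ, 0 < n ∧ a ^ (p ^ n) = a := by
  obtain ⟨s, hs⟩ := hK
  refine h14_valfam_p K (fun a => ?_) S hS m hm
  have hsurj : Function.Surjective (algebraMap ℤ (Algebra.adjoin ℤ (Set.range s))) := by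
    rintro ⟨x, hx⟩
    have hempty : Set.range s = ∅ := Set.range_eq_empty s
    rw [hempty, Algebra.adjoin_empty, Algebra.mem_bot] at hx
    obtain ⟨n, rfl⟩ := hx
    exact ⟨n, Subtype.ext rfl⟩
  exact (hs a).of_ringHom_of_comp_eq (algebraMap ℤ (Algebra.adjoin ℤ (Set.range s)))
    (RingHom.id K) hsurj Function.injective_id (RingHom.ext_int _ _)

end Fermat.Agent.S27
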