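import Mathlib
import Fermat.Agent.S27.h14_ValFam
import Fermat.Agent.S27.h14_ValFamP

/-!
# S27 / VALFAM-ANY: valuation subrings of arbitrary fields with residue field algebraic over
a finite field (helper14)

`h14_valfam_any` : for every field `K` and every finite set `s` of nonzero elements of `K`
there are a valuation subring `A` of `K` (of arbitrary rank) and a prime `p` such that every
element of `s` is a unit of `A`, the residue field of `A` has characteristic `p`, and every
element of the residue field lies in a finite subfield (`z ^ (p ^ n) = z`).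

Proof: `B = ℤ[s, s⁻¹]`, `M` a maximal ideal of `B`; `B / M` is integral over `ℤ` (Nullstellensatz
over the Jacobson ring `ℤ`); a minimal valuation subring `A ⊇ B` with `M ⊆ 𝔪_A` (Zorn) has residue
field algebraic over `𝔽_p`, since otherwise it could be composed with a nontrivial valuation
subring of its residue field.
-/

namespace Fermat.Agent.S27

open Polynomial

/-- `ℤ` is a Jacobson ring. -/
theorem h14_int_isJacobsonRing : IsJacobsonRing ℤ := by
  rw [isJacobsonRing_iff_prime_eq]
  intro P hP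
  by_cases hP0 : P = ⊥
  · subst hP0
    rw [eq_bot_iff]
    intro x hx
    rw [Ideal.mem_bot]
    by_contra hx0
    obtain ⟨p, hpge, hp⟩ := Nat.exists_infinite_primes (x.natAbs + 1)
    have hmax : (Ideal.span {(p : ℤ)}).IsMaximal := by
      apply Ideal.IsPrime.isMaximal
      · rw [Ideal.span_singleton_prime]
        · exact Nat.prime_iff_prime_int.mp hp
        · exact_mod_cast hp.ne_zero
      · rw [Ne, Ideal.span_singleton_eq_bot]
        exact_mod_cast hp.ne_zero
    have hmem : x ∈ Ideal.span {(p : ℤ)} := by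
      rw [Ideal.jacobson, Ideal.mem_sInf] at hx
      exact hx ⟨bot_le, hmax⟩
    rw [Ideal.mem_span_singleton, Int.natCast_dvd] at hmem
    have := Nat.le_of_dvd (Int.natAbs_pos.mpr hx0) hmem
    omega
  · haveI := hP.isMaximal hP0
    exact Ideal.jacobson_eq_self_of_isMaximal

/-- elements integral over `ℤ` lie in every valuation subring. -/
theorem h14_mem_of_isIntegral_int {L : Type*} [Field L] (V : ValuationSubring L) {x : L}
    (hx : IsIntegral ℤ x) : x ∈ V := by
  have h1 : IsIntegral V x := hx.tower_top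
  obtain ⟨y, rfl⟩ := IsIntegrallyClosed.isIntegral_iff.mp h1
  exact y.2

/-- the intersection of a nonempty chain of valuation subrings is a valuation subring. -/
theorem h14_exists_valSubring_sInter {K : Type*} [Field K] (c : Set (Set K))
    (hc : IsChain (· ⊆ ·) c) (hval : ∀ a ∈ c, ∃ A : ValuationSubring K, (A : Set K) = a) :
    ∃ A : ValuationSubring K, (A : Set K) = ⋂₀ c := by
  refine ⟨{ carrier := ⋂₀ c, mul_mem' := ?_, one_mem' := ?_, add_mem' := ?_, zero_mem' := ?_,
            neg_mem' := ?_, mem_or_inv_mem' := ?_ }, rfl⟩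
  · intro x y hx hy a ha
    obtain ⟨A, rfl⟩ := hval a ha
    exact A.mul_mem _ _ (hx _ ha) (hy _ ha)
  · intro a ha
    obtain ⟨A, rfl⟩ := hval a ha
    exact A.one_mem
  · intro x y hx hy a ha
    obtain ⟨A, rfl⟩ := hval a ha
    exact A.add_mem _ _ (hx _ ha) (hy _ ha)
  · intro a ha
    obtain ⟨A, rfl⟩ := hval a ha
    exact A.zero_mem
  · intro x hx a ha
    obtain ⟨A, rfl⟩ := hval a ha
    exact A.neg_mem _ (hx _ ha)
  · intro x
    by_cases hx : x ∈ ⋂₀ c
    · exact Or.inl hx
    · right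
      rw [Set.mem_sInter, not_forall] at hx
      obtain ⟨a, hxa⟩ := hx
      rw [Classical.not_imp] at hxa
      obtain ⟨ha, hxa⟩ := hxa
      intro a' ha'
      obtain ⟨A, rfl⟩ := hval a ha
      obtain ⟨A', rfl⟩ := hval a' ha'
      rcases hc.total ha ha' with h | h
      · exact h ((A.mem_or_inv_mem x).resolve_left hxa)
      · exact (A'.mem_or_inv_mem x).resolve_left fun hx' => hxa (h hx')

/-- The composite of a valuation subring `A` with a valuation subring of its residue field. -/
noncomputable def h14_compVal {K : Type*} [Field K] (A : ValuationSubring K)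
    (V : ValuationSubring (IsLocalRing.ResidueField A)) : ValuationSubring K where
  toSubring := Subring.map A.subtype (Subring.comap (IsLocalRing.residue A) V.toSubring)
  mem_or_inv_mem' := by
    intro x
    by_cases hxA : x ∈ A
    · by_cases hr : IsLocalRing.residue A ⟨x, hxA⟩ ∈ V
      · exact Or.inl ⟨⟨x, hxA⟩, hr, rfl⟩
      · right
        have hne : IsLocalRing.residue A ⟨x, hxA⟩ ≠ 0 := by
          intro h
          exact hr (h ▸ V.zero_mem)
        obtain ⟨u, hu⟩ := ((IsLocalRing.residue_ne_zero_iff_isUnit _).mp hne).exists_right_inv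
        have hux : (u : K) = x⁻¹ := by
          have h1 : x * (u : K) = 1 := congrArg Subtype.val hu
          exact eq_inv_of_mul_eq_one_right h1
        refine ⟨u, ?_, hux⟩
        have h2 : IsLocalRing.residue A ⟨x, hxA⟩ * IsLocalRing.residue A u = 1 := by
          rw [← map_mul, hu, map_one]
        have h3 : IsLocalRing.residue A u = (IsLocalRing.residue A ⟨x, hxA⟩)⁻¹ :=
          eq_inv_of_mul_eq_one_right h2
        show IsLocalRing.residue A u ∈ V
        rw [h3]
        exact (V.mem_or_inv_mem _).resolve_left hr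
    · right
      have hinv : x⁻¹ ∈ A := (A.mem_or_inv_mem x).resolve_left hxA
      refine ⟨⟨x⁻¹, hinv⟩, ?_, rfl⟩
      have h0 : IsLocalRing.residue A ⟨x⁻¹, hinv⟩ = 0 := by
        rw [IsLocalRing.residue_eq_zero_iff, A.valuation_lt_one_iff]
        apply h14_val_lt_one_of_inv_not_mem
        rwa [inv_inv]
      show IsLocalRing.residue A ⟨x⁻¹, hinv⟩ ∈ V
      rw [h0]
      exact V.zero_mem

theorem h14_mem_compVal {K : Type*} [Field K] (A : ValuationSubring K)
    (V : ValuationSubring (IsLocalRing.ResidueField A)) {x : K} :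
    x ∈ h14_compVal A V ↔ ∃ h : x ∈ A, IsLocalRing.residue A ⟨x, h⟩ ∈ V := by
  constructor
  · rintro ⟨y, hy, rfl⟩
    exact ⟨y.2, hy⟩
  · rintro ⟨h, hr⟩
    exact ⟨⟨x, h⟩, hr, rfl⟩

/-- **VALFAM-ANY.** -/
theorem h14_valfam_any {K : Type*} [Field K] (s : Finset K) :
    ∃ (A : ValuationSubring K) (p : ℕ), p.Prime ∧ (∀ a ∈ s, a ∈ A ∧ a⁻¹ ∈ A) ∧
      CharP (IsLocalRing.ResidueField A) p ∧
      ∀ z : IsLocalRing.ResidueField A, ∃ n : ℕ, 0 < n ∧ z ^ (p ^ n) = z := by
  classical
  -- the ring `B = ℤ[s, s⁻¹]`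
  let g : (s ⊕ s) → K := Sum.elim (fun a => (a : K)) (fun a => (a : K)⁻¹)
  let φ : MvPolynomial (s ⊕ s) ℤ →+* K := (MvPolynomial.aeval g : _ →ₐ[ℤ] K)
  let B : Subring K := φ.range
  have hgB : ∀ i, g i ∈ B := fun i => ⟨MvPolynomial.X i, by simp [φ]⟩
  obtain ⟨M, hM⟩ := Ideal.exists_maximal B
  letI : Field (B ⧸ M) := Ideal.Quotient.field M
  -- `B / M` is integral over `ℤ`
  have hint : ∀ f : B ⧸ M, IsIntegral ℤ f := by
    let ψ : MvPolynomial (s ⊕ s) ℤ →+* B ⧸ M := (Ideal.Quotient.mk M).comp φ.rangeRestrict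
    have hψ : Function.Surjective ψ :=
      Ideal.Quotient.mk_surjective.comp φ.rangeRestrict_surjective
    haveI : Algebra.FiniteType ℤ (B ⧸ M) := by
      have h0 : Algebra.FiniteType ℤ (MvPolynomial (s ⊕ s) ℤ) := inferInstance
      exact @Algebra.FiniteType.of_surjective ℤ (MvPolynomial (s ⊕ s) ℤ) (B ⧸ M) _ _ _ _ _ h0
        ψ.toIntAlgHom hψ
    haveI := h14_int_isJacobsonRing
    haveI : Module.Finite ℤ (B ⧸ M) := finite_of_finite_type_of_isJacobsonRing ℤ (B ⧸ M)
    exact IsIntegral.of_finite ℤ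
  -- Zorn
  let SV : Set (Set K) := {a | ∃ A : ValuationSubring K, (A : Set K) = a ∧ B ≤ A.toSubring ∧
    B.subtype '' (M : Set B) ⊆ A.nonunits}
  have hzorn : ∃ a, Minimal (· ∈ SV) a := by
    apply zorn_superset
    intro c hcS hc
    rcases c.eq_empty_or_nonempty with rfl | hne
    · obtain ⟨A0, hA0, hA0'⟩ := Ideal.image_subset_nonunits_valuationSubring M hM.ne_top
      exact ⟨A0, ⟨A0, rfl, hA0, hA0'⟩, fun s hs => absurd hs (Set.notMem_empty s)⟩
    · obtain ⟨Ai, hAi⟩ := h14_exists_valSubring_sInter c hc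
        (fun a ha => by obtain ⟨A, hA, -⟩ := hcS ha; exact ⟨A, hA⟩)
      refine ⟨⋂₀ c, ⟨Ai, hAi, ?_, ?_⟩, fun s hs => Set.sInter_subset_of_mem hs⟩
      · intro b hb
        have : b ∈ (Ai : Set K) := by
          rw [hAi]
          intro a ha
          obtain ⟨A, rfl, hBA, -⟩ := hcS ha
          exact hBA hb
        exact this
      · rintro _ ⟨m, hm, rfl⟩
        obtain ⟨a0, ha0⟩ := hne
        obtain ⟨A, rfl, -, hMA⟩ := hcS ha0
        have h1 : (B.subtype m) ∈ A.nonunits := hMA ⟨m, hm, rfl⟩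
        rw [ValuationSubring.mem_nonunits_iff_or] at h1
        rw [SetLike.mem_coe, ValuationSubring.mem_nonunits_iff_or]
        rcases h1 with h1 | h1
        · exact Or.inl h1
        · right
          intro h2
          apply h1
          have : (B.subtype m)⁻¹ ∈ (Ai : Set K) := h2
          rw [hAi] at this
          exact this _ ha0
  obtain ⟨a, ha⟩ := hzorn
  obtain ⟨A, rfl, hBA, hMA⟩ := ha.1
  have hmin : ∀ A' : ValuationSubring K, B ≤ A'.toSubring →
      B.subtype '' (M : Set B) ⊆ A'.nonunits → (A' : Set K) ⊆ A → (A : Set K) ⊆ A' :=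
    fun A' h1 h2 h3 => ha.2 ⟨A', rfl, h1, h2⟩ h3
  -- the residue map on `B`
  let ιB : B →+* IsLocalRing.ResidueField A :=
    (IsLocalRing.residue A).comp (B.subtype.codRestrict A (fun b => hBA b.2))
  have hιM : ∀ m ∈ M, ιB m = 0 := by
    intro m hm
    show IsLocalRing.residue A _ = 0
    rw [IsLocalRing.residue_eq_zero_iff, A.valuation_lt_one_iff]
    exact (ValuationSubring.mem_nonunits_iff A).mp (hMA ⟨m, hm, rfl⟩)
  let ιF : B ⧸ M →+* IsLocalRing.ResidueField A := Ideal.Quotient.lift M ιB hιM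
  have hιint : ∀ b : B, IsIntegral ℤ (ιB b) := by
    intro b
    have : ιB b = ιF (Ideal.Quotient.mk M b) := (Ideal.Quotient.lift_mk M ιB hιM).symm
    rw [this]
    exact map_isIntegral_int ιF (hint _)
  -- the residue characteristic
  obtain ⟨p, hpchar⟩ := CharP.exists (IsLocalRing.ResidueField A)
  have hp0 : p ≠ 0 := by
    rintro rfl
    haveI : CharZero (IsLocalRing.ResidueField A) := CharP.charP_to_charZero _
    have h2 : (Ideal.Quotient.mk M (2 : B)) ≠ 0 := by
      intro h
      have h3 : ιF (Ideal.Quotient.mk M (2 : B)) = 0 := by rw [h, map_zero]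
      rw [map_ofNat, map_ofNat] at h3
      exact two_ne_zero h3
    have h4 : IsIntegral ℤ (ιF ((Ideal.Quotient.mk M (2 : B))⁻¹)) :=
      map_isIntegral_int ιF (hint _)
    rw [map_inv₀, map_ofNat, map_ofNat] at h4
    obtain ⟨P, hPm, hP⟩ := h4
    have h5 : IsIntegral ℤ (2⁻¹ : ℚ) := by
      refine ⟨P, hPm, ?_⟩
      apply (algebraMap ℚ (IsLocalRing.ResidueField A)).injective
      rw [map_zero, hom_eval₂]
      have hx : algebraMap ℚ (IsLocalRing.ResidueField A) (2⁻¹ : ℚ)
          = (2 : IsLocalRing.ResidueField A)⁻¹ := by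
        rw [map_inv₀, map_ofNat]
      rw [hx]
      have e := RingHom.ext_int
        ((algebraMap ℚ (IsLocalRing.ResidueField A)).comp (algebraMap ℤ ℚ))
        (algebraMap ℤ (IsLocalRing.ResidueField A))
      rw [e]
      exact hP
    obtain ⟨n, hn⟩ := IsIntegrallyClosed.isIntegral_iff.mp h5
    have h6 : (n : ℚ) * 2 = 1 := by
      rw [eq_intCast] at hn
      rw [hn]
      norm_num
    have h7 : n * 2 = 1 := by exact_mod_cast h6
    omega
  have hp : p.Prime := (CharP.char_is_prime_or_zero (IsLocalRing.ResidueField A) p).resolve_right hp0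
  refine ⟨A, p, hp, ?_, hpchar, ?_⟩
  · intro a has
    exact ⟨hBA (hgB (Sum.inl ⟨a, has⟩)), hBA (hgB (Sum.inr ⟨a, has⟩))⟩
  · intro z
    haveI : Fact p.Prime := ⟨hp⟩
    letI : Algebra (ZMod p) (IsLocalRing.ResidueField A) := ZMod.algebra _ p
    apply h14_pow_card_of_isAlgebraic_zmod p z
    by_contra hz
    have hz0 : z ≠ 0 := by
      rintro rfl
      exact hz isAlgebraic_zero
    -- a valuation subring of the residue field in which `z` is a non-unit
    let A0 : Subring (IsLocalRing.ResidueField A) := (Algebra.adjoin (ZMod p) {z}).toSubring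
    let zA0 : A0 := ⟨z, Algebra.self_mem_adjoin_singleton _ z⟩
    have hI : Ideal.span {zA0} ≠ ⊤ := by
      intro h
      rw [Ideal.span_singleton_eq_top] at h
      obtain ⟨⟨q, hq⟩, hzq⟩ := h.exists_right_inv
      have hq' : q ∈ (Polynomial.aeval z : (ZMod p)[X] →ₐ[ZMod p] _).range := by
        rw [← Algebra.adjoin_singleton_eq_range_aeval]
        exact hq
      obtain ⟨Q, rfl⟩ := hq'
      have h1 : z * Polynomial.aeval z Q = 1 := congrArg Subtype.val hzq
      apply hz
      refine ⟨X * Q - 1, ?_, ?_⟩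
      · intro h0
        have := congrArg (fun P : (ZMod p)[X] => P.coeff 0) h0
        simp at this
      · rw [map_sub, map_mul, aeval_X, map_one, h1, sub_self]
    obtain ⟨V, -, hV2⟩ := Ideal.image_subset_nonunits_valuationSubring (Ideal.span {zA0}) hI
    have hzV : z⁻¹ ∉ V := by
      have h1 : z ∈ V.nonunits := hV2 ⟨zA0, Ideal.subset_span rfl, rfl⟩
      rw [ValuationSubring.mem_nonunits_iff_or] at h1
      exact h1.resolve_left hz0
    -- the composite is smaller
    have hsub := hmin (h14_compVal A V) ?_ ?_ ?_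
    · obtain ⟨y, hy⟩ := IsLocalRing.residue_surjective z⁻¹
      have hy' : (y : K) ∈ (h14_compVal A V : Set K) := hsub y.2
      obtain ⟨h, hr⟩ := (h14_mem_compVal A V).mp hy'
      apply hzV
      rw [← hy]
      exact hr
    · intro b hb
      exact (h14_mem_compVal A V).mpr ⟨hBA hb, h14_mem_of_isIntegral_int V (hιint ⟨b, hb⟩)⟩
    · rintro _ ⟨m, hm, rfl⟩
      have h1 : (B.subtype m) ∈ A.nonunits := hMA ⟨m, hm, rfl⟩
      rw [ValuationSubring.mem_nonunits_iff_or] at h1
      rw [SetLike.mem_coe, ValuationSubring.mem_nonunits_iff_or]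
      rcases h1 with h1 | h1
      · exact Or.inl h1
      · right
        intro h2
        exact h1 ((h14_mem_compVal A V).mp h2).1
    · intro x hx
      exact ((h14_mem_compVal A V).mp hx).1

/-- VALFAM-ANY with a prescribed integer `m` prime to the residue characteristic. -/
theorem h14_valfam_any_m {K : Type*} [Field K] (s : Finset K) (m : ℕ) (hm : (m : K) ≠ 0) :
    ∃ (A : ValuationSubring K) (p : ℕ), p.Prime ∧ ¬ p ∣ m ∧ (∀ a ∈ s, a ∈ A ∧ a⁻¹ ∈ A) ∧
      CharP (IsLocalRing.ResidueField A) p ∧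
      ∀ z : IsLocalRing.ResidueField A, ∃ n : ℕ, 0 < n ∧ z ^ (p ^ n) = z := by
  classical
  obtain ⟨A, p, hp, hunits, hchar, hfin⟩ := h14_valfam_any (insert (m : K) s)
  refine ⟨A, p, hp, ?_, fun a ha => hunits a (Finset.mem_insert_of_mem ha), hchar, hfin⟩
  intro hpm
  obtain ⟨hmA, hmA'⟩ := hunits (m : K) (Finset.mem_insert_self _ _)
  have h1 : ((m : ℕ) : IsLocalRing.ResidueField A) = 0 := (CharP.cast_eq_zero_iff _ p m).mpr hpm
  have h2 : IsLocalRing.residue A ⟨(m : K), hmA⟩ = 0 := by
    rw [← h1, ← map_natCast (IsLocalRing.residue A) m]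
    rfl
  rw [IsLocalRing.residue_eq_zero_iff, A.valuation_lt_one_iff] at h2
  have h3 : A.valuation ((m : K)⁻¹) ≤ 1 := (A.valuation_le_one_iff _).mpr hmA'
  rw [map_inv₀] at h3
  have h4 : A.valuation (m : K) ≠ 0 := (Valuation.ne_zero_iff _).mpr hm
  have h5 : (1 : A.ValueGroup) ≤ A.valuation (m : K) := by
    by_contra h6
    rw [not_le] at h6
    have : A.valuation (m : K) * (A.valuation (m : K))⁻¹ < 1 * (A.valuation (m : K))⁻¹ :=
      mul_lt_mul_of_pos_right h6 (zero_lt_iff.mpr (inv_ne_zero h4))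
    rw [mul_inv_cancel₀ h4, one_mul] at this
    exact absurd h3 (not_le.mpr this)
  exact absurd h5 (not_le.mpr h2)

/-- VALFAM-ANY in the shape proposed for the any-rank architecture of S27. -/
theorem h14_valfam_any' {K : Type*} [Field K] [IsAlgClosed K] [CharZero K] (s : Finset K)
    (_hs : ∀ a ∈ s, a ≠ 0) (m : ℕ) (hm : m ≠ 0) :
    ∃ (A : ValuationSubring K) (p : ℕ), p.Prime ∧ ¬ p ∣ m ∧ (∀ a ∈ s, a ∈ A ∧ a⁻¹ ∈ A) ∧
      CharP (IsLocalRing.ResidueField A) p ∧ IsAlgClosed (IsLocalRing.ResidueField A) ∧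
      ∀ z : IsLocalRing.ResidueField A, ∃ n : ℕ, 0 < n ∧ z ^ (p ^ n) = z := by
  obtain ⟨A, p, hp, hpm, hunits, hchar, hfin⟩ :=
    h14_valfam_any_m s m (by exact_mod_cast hm)
  exact ⟨A, p, hp, hpm, hunits, hchar, h14_resField_isAlgClosed A, hfin⟩

end Fermat.Agent.S27
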