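import Mathlib
import Fermat.Prelude.Def_AlgebraicCurve_IsCurveOver
import Fermat.Prelude.Def_AlgebraicCurve_Repartitions
import Fermat.Agent.S18.Defs
import Fermat.Agent.S18.h75_RRDefs

/-!
# S27: shared definitions for the ANY-RANK architecture (owner helper15)

* `h15_GoodAny K F ℓ` : the count `#Pic⁰(F)[ℓ^j] = ℓ^(2 g j)` for a function field with a chart;
* `h15_GoodRedAny K F` : a good reduction of `(K, F)`: a reduction datum (valuation ring of ANY
  rank) with a chart and algebraically closed residue field in the universe of `K`.
-/

set_option autoImplicit false

noncomputable section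

open AlgebraicCurve Fermat.Agent.S18

namespace Fermat.Agent.S27

universe u v

/-- The count of `ℓ`-power torsion for a function field with a chart. -/
def h15_GoodAny (K : Type*) (F : Type*) [Field K] [Field F] [Algebra K F] (ℓ : ℕ) : Prop :=
  ∀ x : F, h75_IsChart K x → ∀ j : ℕ,
    Nat.card (Pic0.torsion K F (ℓ ^ j)) = ℓ ^ (2 * h75_genus K x * j)

/-- A good reduction of `(K, F)`: a reduction datum with a chart and algebraically closed
residue field (in the universe of `K`); the valuation ring of constants may have any rank. -/
structure h15_GoodRedAny (K : Type u) (F : Type v) [Field K] [Field F] [Algebra K F] where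
  /-- residue field of the constants -/
  k : Type u
  /-- reduced function field -/
  Fb : Type u
  [fk : Field k]
  [fFb : Field Fb]
  [alg : Algebra k Fb]
  [acl : IsAlgClosed k]
  /-- the reduction datum -/
  R : h39_RedDatum K F k Fb
  /-- the chart -/
  x : F
  isChart : h75_IsChart K x
  chart : h39_Chart R x

attribute [instance] h15_GoodRedAny.fk h15_GoodRedAny.fFb h15_GoodRedAny.alg h15_GoodRedAny.acl

end Fermat.Agent.S27

end
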