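import Mathlib

/-!
# S27 / WIRR : weighted-form irreducibility (helper14)

`Φ ∈ k[x][Y]` monic of `Y`-degree `n`, constant coefficient `a₀(x)` of degree exactly `n + 1`,
all other coefficients `a_j(x)` (`0 < j < n`) of weight `n * deg a_j + (n + 1) * j < n * (n + 1)`.
Then `Φ` is irreducible (in `k[x][Y]` and over `k(x)`), and separable over `k(x)` when `n ≠ 0`
in `k`.  (Top weighted form `Y ^ n - γ x ^ (n + 1)`, weights `wt x = n`, `wt Y = n + 1`.)

Proof: the ring hom `θ : G(x, Y) ↦ G(s ^ n, u * s ^ (n + 1))` into `k[u][s]` turns the weight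
into the `s`-degree without cancellation.
-/

namespace Fermat.Agent.S27

open Polynomial

variable {k : Type*} [Field k]

/-- `x ↦ s ^ n` on constants-coefficients: `k[x] → k[u][s]`. -/
noncomputable def h14_phi (k : Type*) [Field k] (n : ℕ) : k[X] →+* k[X][X] :=
  eval₂RingHom (C.comp C) (X ^ n)

/-- `G(x, Y) ↦ G(s ^ n, u * s ^ (n + 1))`, `k[x][Y] → k[u][s]`. -/
noncomputable def h14_theta (k : Type*) [Field k] (n : ℕ) : k[X][X] →+* k[X][X] :=
  eval₂RingHom (h14_phi k n) (C X * X ^ (n + 1))

theorem h14_phi_monomial (n i : ℕ) (c : k) :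
    h14_phi k n (monomial i c) = C (C c) * X ^ (n * i) := by
  simp [h14_phi, eval₂_monomial, pow_mul]

theorem h14_theta_monomial (n i j : ℕ) (c : k) :
    h14_theta k n (monomial j (monomial i c)) = C (C c * X ^ j) * X ^ (n * i + (n + 1) * j) := by
  have : h14_theta k n (monomial j (monomial i c))
      = h14_phi k n (monomial i c) * (C X * X ^ (n + 1)) ^ j := by
    simp [h14_theta, eval₂_monomial]
  rw [this, h14_phi_monomial, mul_pow, ← pow_mul, pow_add, C_mul, C_pow]
  ring

/-- No cancellation: the `(n i + (n+1) j, j)` coefficient of `θ G` is the `(i, j)` coefficient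
of `G`. -/
theorem h14_theta_coeff (n : ℕ) (hn : 0 < n) (G : k[X][X]) (i j : ℕ) :
    ((h14_theta k n G).coeff (n * i + (n + 1) * j)).coeff j = (G.coeff j).coeff i := by
  induction G using Polynomial.induction_on' with
  | add p q hp hq => simp only [map_add, coeff_add, hp, hq]
  | monomial j' g =>
    induction g using Polynomial.induction_on' with
    | add p q hp hq => simp only [map_add, coeff_add, hp, hq]
    | monomial i' c =>
      rw [h14_theta_monomial, coeff_C_mul_X_pow, coeff_monomial]
      by_cases hj : j' = j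
      · subst hj
        by_cases hi : i' = i
        · subst hi
          simp
        · have : n * i + (n + 1) * j' ≠ n * i' + (n + 1) * j' := by
            intro h
            have : n * i = n * i' := by omega
            exact hi (Nat.eq_of_mul_eq_mul_left hn this).symm
          rw [if_neg this]
          simp [coeff_monomial, hi]
      · rw [if_neg hj]
        split_ifs
        · rw [coeff_C_mul_X_pow]
          simp [Ne.symm hj]
        · simp

theorem h14_le_natDegree_theta (n : ℕ) (hn : 0 < n) (G : k[X][X]) (i j : ℕ)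
    (h : (G.coeff j).coeff i ≠ 0) :
    n * i + (n + 1) * j ≤ (h14_theta k n G).natDegree := by
  apply le_natDegree_of_ne_zero
  intro h0
  apply h
  rw [← h14_theta_coeff n hn G i j, h0]
  simp

theorem h14_natDegree_phi_le (n : ℕ) (g : k[X]) :
    (h14_phi k n g).natDegree ≤ n * g.natDegree := by
  have : h14_phi k n g = ∑ i ∈ g.support, C (C (g.coeff i)) * (X ^ n) ^ i := by
    simp [h14_phi, eval₂_eq_sum, Polynomial.sum_def]
  rw [this]
  apply natDegree_sum_le_of_forall_le
  intro i hi
  rw [← pow_mul]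
  refine (natDegree_C_mul_X_pow_le _ _).trans ?_
  exact Nat.mul_le_mul_left n (le_natDegree_of_mem_supp i hi)

theorem h14_natDegree_theta_le (n : ℕ) (G : k[X][X]) (B : ℕ)
    (h : ∀ j ∈ G.support, n * (G.coeff j).natDegree + (n + 1) * j ≤ B) :
    (h14_theta k n G).natDegree ≤ B := by
  have : h14_theta k n G
      = ∑ j ∈ G.support, h14_phi k n (G.coeff j) * (C X * X ^ (n + 1)) ^ j := by
    simp [h14_theta, eval₂_eq_sum, Polynomial.sum_def]
  rw [this]
  apply natDegree_sum_le_of_forall_le
  intro j hj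
  refine le_trans ?_ (h j hj)
  refine natDegree_mul_le.trans ?_
  refine add_le_add (h14_natDegree_phi_le n _) ?_
  refine natDegree_pow_le.trans ?_
  rw [mul_comm]
  exact Nat.mul_le_mul_right j (natDegree_C_mul_X_pow_le _ _)

/-- **Weighted-form irreducibility** in `k[x][Y]`. -/
theorem h14_wirr (n : ℕ) (hn : 0 < n) (Φ : k[X][X]) (hmon : Φ.Monic)
    (hdeg : Φ.natDegree = n) (h0 : (Φ.coeff 0).natDegree = n + 1)
    (hw : ∀ j, 0 < j → j < n → n * (Φ.coeff j).natDegree + (n + 1) * j < n * (n + 1)) :
    Irreducible Φ := by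
  rw [hmon.irreducible_iff_natDegree]
  refine ⟨?_, ?_⟩
  · rintro rfl
    simp at hdeg
    omega
  intro f g hf hg hfg
  by_contra hcon
  rw [not_or] at hcon
  obtain ⟨ha, hb⟩ := hcon
  have hab : f.natDegree + g.natDegree = n := by
    rw [← hdeg, ← hfg, hf.natDegree_mul hg]
  -- constant coefficients
  have hc0 : f.coeff 0 * g.coeff 0 = Φ.coeff 0 := by rw [← hfg, mul_coeff_zero]
  have hΦ0 : Φ.coeff 0 ≠ 0 := by
    intro h
    rw [h] at h0
    simp at h0
  have hf0 : f.coeff 0 ≠ 0 := by
    intro h
    rw [h, zero_mul] at hc0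
    exact hΦ0 hc0.symm
  have hg0 : g.coeff 0 ≠ 0 := by
    intro h
    rw [h, mul_zero] at hc0
    exact hΦ0 hc0.symm
  have hpq : (f.coeff 0).natDegree + (g.coeff 0).natDegree = n + 1 := by
    rw [← h0, ← hc0, natDegree_mul hf0 hg0]
  -- lower bounds
  have hf1 : n * 0 + (n + 1) * f.natDegree ≤ (h14_theta k n f).natDegree := by
    apply h14_le_natDegree_theta n hn
    rw [coeff_natDegree, hf.leadingCoeff]
    simp
  have hg1 : n * 0 + (n + 1) * g.natDegree ≤ (h14_theta k n g).natDegree := by
    apply h14_le_natDegree_theta n hn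
    rw [coeff_natDegree, hg.leadingCoeff]
    simp
  have hf2 : n * (f.coeff 0).natDegree + (n + 1) * 0 ≤ (h14_theta k n f).natDegree := by
    apply h14_le_natDegree_theta n hn
    rw [coeff_natDegree]
    exact leadingCoeff_ne_zero.mpr hf0
  have hg2 : n * (g.coeff 0).natDegree + (n + 1) * 0 ≤ (h14_theta k n g).natDegree := by
    apply h14_le_natDegree_theta n hn
    rw [coeff_natDegree]
    exact leadingCoeff_ne_zero.mpr hg0
  have hθf : h14_theta k n f ≠ 0 := by
    intro h
    rw [h] at hf1
    simp at hf1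
    omega
  have hθg : h14_theta k n g ≠ 0 := by
    intro h
    rw [h] at hg1
    simp at hg1
    omega
  -- upper bound
  have hΦu : (h14_theta k n Φ).natDegree ≤ n * (n + 1) := by
    apply h14_natDegree_theta_le
    intro j hj
    have hjn : j ≤ n := hdeg ▸ le_natDegree_of_mem_supp j hj
    rcases Nat.eq_zero_or_pos j with rfl | hj0
    · rw [h0]
      simp
    · rcases Nat.lt_or_ge j n with hlt | hge
      · exact (hw j hj0 hlt).le
      · have : j = n := le_antisymm hjn hge
        subst this
        have : Φ.coeff j = 1 := by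
          rw [← hdeg, coeff_natDegree, hmon.leadingCoeff]
        rw [this]
        simp [mul_comm]
  have hmul : (h14_theta k n Φ).natDegree
      = (h14_theta k n f).natDegree + (h14_theta k n g).natDegree := by
    rw [← hfg, map_mul, natDegree_mul hθf hθg]
  -- arithmetic
  set a := f.natDegree
  set b := g.natDegree
  set p := (f.coeff 0).natDegree
  set q := (g.coeff 0).natDegree
  set Df := (h14_theta k n f).natDegree
  set Dg := (h14_theta k n g).natDegree
  have e1 : n * (n + 1) = (n + 1) * a + (n + 1) * b := by rw [← mul_add, hab, mul_comm]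
  have e2 : n * p + n * q = n * (n + 1) := by rw [← mul_add, hpq]
  have key : n * p = (n + 1) * a := by omega
  have hdvd : n ∣ (n + 1) * a := ⟨p, key.symm⟩
  have hcop : Nat.Coprime n (n + 1) := by simp
  have hna : n ∣ a := hcop.dvd_of_dvd_mul_left hdvd
  have := Nat.le_of_dvd (Nat.pos_of_ne_zero ha) hna
  omega

/-- **Weighted-form irreducibility** over any fraction field of `k[x]`. -/
theorem h14_wirr_fraction (L : Type*) [Field L] [Algebra k[X] L] [IsFractionRing k[X] L]
    (n : ℕ) (hn : 0 < n) (Φ : k[X][X]) (hmon : Φ.Monic)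
    (hdeg : Φ.natDegree = n) (h0 : (Φ.coeff 0).natDegree = n + 1)
    (hw : ∀ j, 0 < j → j < n → n * (Φ.coeff j).natDegree + (n + 1) * j < n * (n + 1)) :
    Irreducible (Φ.map (algebraMap k[X] L)) :=
  (hmon.irreducible_iff_irreducible_map_fraction_map (K := L)).mp
    (h14_wirr n hn Φ hmon hdeg h0 hw)

/-- **Weighted-form irreducibility** over `k(x)`. -/
theorem h14_wirr_ratFunc (n : ℕ) (hn : 0 < n) (Φ : k[X][X]) (hmon : Φ.Monic)
    (hdeg : Φ.natDegree = n) (h0 : (Φ.coeff 0).natDegree = n + 1)
    (hw : ∀ j, 0 < j → j < n → n * (Φ.coeff j).natDegree + (n + 1) * j < n * (n + 1)) :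
    Irreducible (Φ.map (algebraMap k[X] (RatFunc k))) :=
  h14_wirr_fraction (RatFunc k) n hn Φ hmon hdeg h0 hw

/-- A monic polynomial of degree `n` over a field `L` in which `n ≠ 0` has nonzero derivative,
so it is separable as soon as it is irreducible. -/
theorem h14_separable_of_irreducible_of_natCast_ne_zero {L : Type*} [Field L] (f : L[X])
    (hirr : Irreducible f) (hmon : f.Monic) (hn : (f.natDegree : L) ≠ 0) : f.Separable := by
  rw [separable_iff_derivative_ne_zero hirr]
  intro h
  have hpos : 0 < f.natDegree := by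
    rcases Nat.eq_zero_or_pos f.natDegree with h0 | h0
    · rw [h0] at hn
      simp at hn
    · exact h0
  have hc : (derivative f).coeff (f.natDegree - 1) = f.coeff f.natDegree * f.natDegree := by
    rw [coeff_derivative]
    have : f.natDegree - 1 + 1 = f.natDegree := by omega
    rw [this]
    congr 1
    have : ((f.natDegree - 1 : ℕ) : L) + 1 = ((f.natDegree - 1 + 1 : ℕ) : L) := by push_cast; ring
    rw [this]
    congr 2
  rw [h, coeff_zero, coeff_natDegree, hmon.leadingCoeff, one_mul] at hc
  exact hn hc.symm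

/-- **Separability** over any fraction field of `k[x]` when `n` is invertible in `k`. -/
theorem h14_wirr_separable_fraction (L : Type*) [Field L] [Algebra k[X] L]
    [IsFractionRing k[X] L]
    (n : ℕ) (hn : 0 < n) (Φ : k[X][X]) (hmon : Φ.Monic)
    (hdeg : Φ.natDegree = n) (h0 : (Φ.coeff 0).natDegree = n + 1)
    (hw : ∀ j, 0 < j → j < n → n * (Φ.coeff j).natDegree + (n + 1) * j < n * (n + 1))
    (hn' : (n : k) ≠ 0) :
    (Φ.map (algebraMap k[X] L)).Separable := by
  have hinj : Function.Injective (algebraMap k[X] L) := IsFractionRing.injective _ _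
  apply h14_separable_of_irreducible_of_natCast_ne_zero _
    (h14_wirr_fraction L n hn Φ hmon hdeg h0 hw) (hmon.map _)
  rw [hmon.natDegree_map, hdeg]
  intro h
  apply hn'
  have h1 : algebraMap k[X] L (C (n : k)) = 0 := by
    rw [← h]
    simp
  have h2 : (C (n : k) : k[X]) = 0 := hinj (by rw [h1, map_zero])
  exact C_eq_zero.mp h2

/-- **Separability** over `k(x)` when `n` is invertible in `k`. -/
theorem h14_wirr_separable (n : ℕ) (hn : 0 < n) (Φ : k[X][X]) (hmon : Φ.Monic)
    (hdeg : Φ.natDegree = n) (h0 : (Φ.coeff 0).natDegree = n + 1)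
    (hw : ∀ j, 0 < j → j < n → n * (Φ.coeff j).natDegree + (n + 1) * j < n * (n + 1))
    (hn' : (n : k) ≠ 0) :
    (Φ.map (algebraMap k[X] (RatFunc k))).Separable :=
  h14_wirr_separable_fraction (RatFunc k) n hn Φ hmon hdeg h0 hw hn'

/-- **Stability under reduction**: if `Φ ∈ A[x][Y]` has the weighted shape over a ring `A` and
`φ : A → k` does not kill the coefficient of `x ^ (n + 1)` in the constant term, then the
coefficientwise reduction `Φ̄ ∈ k[x][Y]` has the weighted shape over `k`. -/
theorem h14_wshape_map {A : Type*} [CommRing A] (φ : A →+* k) (n : ℕ) (Φ : A[X][X])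
    (hmon : Φ.Monic) (hdeg : Φ.natDegree = n) (h0 : (Φ.coeff 0).natDegree ≤ n + 1)
    (hγ : φ ((Φ.coeff 0).coeff (n + 1)) ≠ 0)
    (hw : ∀ j, 0 < j → j < n → n * (Φ.coeff j).natDegree + (n + 1) * j < n * (n + 1)) :
    (Φ.map (mapRingHom φ)).Monic ∧ (Φ.map (mapRingHom φ)).natDegree = n ∧
      ((Φ.map (mapRingHom φ)).coeff 0).natDegree = n + 1 ∧
      ∀ j, 0 < j → j < n →
        n * ((Φ.map (mapRingHom φ)).coeff j).natDegree + (n + 1) * j < n * (n + 1) := by
  refine ⟨hmon.map _, by rw [hmon.natDegree_map, hdeg], ?_, ?_⟩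
  · rw [coeff_map, coe_mapRingHom]
    apply le_antisymm
    · exact natDegree_map_le.trans h0
    · apply le_natDegree_of_ne_zero
      rw [coeff_map]
      exact hγ
  · intro j hj hjn
    rw [coeff_map, coe_mapRingHom]
    refine lt_of_le_of_lt ?_ (hw j hj hjn)
    exact Nat.add_le_add_right (Nat.mul_le_mul_left n natDegree_map_le) _

/-- Reduction form: irreducibility and separability of the reduction over `k(x)`. -/
theorem h14_wirr_map {A : Type*} [CommRing A] (φ : A →+* k) (n : ℕ) (hn : 0 < n) (Φ : A[X][X])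
    (hmon : Φ.Monic) (hdeg : Φ.natDegree = n) (h0 : (Φ.coeff 0).natDegree ≤ n + 1)
    (hγ : φ ((Φ.coeff 0).coeff (n + 1)) ≠ 0)
    (hw : ∀ j, 0 < j → j < n → n * (Φ.coeff j).natDegree + (n + 1) * j < n * (n + 1)) :
    Irreducible (Φ.map (mapRingHom φ)) ∧
      Irreducible ((Φ.map (mapRingHom φ)).map (algebraMap k[X] (RatFunc k))) ∧
      ((n : k) ≠ 0 → ((Φ.map (mapRingHom φ)).map (algebraMap k[X] (RatFunc k))).Separable) := by
  obtain ⟨h1, h2, h3, h4⟩ := h14_wshape_map φ n Φ hmon hdeg h0 hγ hw
  exact ⟨h14_wirr n hn _ h1 h2 h3 h4, h14_wirr_ratFunc n hn _ h1 h2 h3 h4,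
    fun hn' => h14_wirr_separable n hn _ h1 h2 h3 h4 hn'⟩

end Fermat.Agent.S27
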