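import Mathlib
import Fermat.Prelude.Def_AlgebraicCurve_IsCurveOver
import Fermat.Prelude.Def_AlgebraicCurve_Repartitions
import Fermat.Agent.S18.Defs
import Fermat.Agent.S18.h75_RRDefs
import Fermat.Agent.S18.h19_ResField
import Fermat.Agent.S27.h15_Defs
import Fermat.Agent.S27.h14_WIrr

/-!
# S27 / GOODRED-ASM (helper62): the assembly of block GOODRED, conditional form

The three inputs of the block (B1 RED-CONSTR, B2 CHART-EX, VALFAM) enter as hypotheses
(`h62_RedConstrProp`, `h62_ModelProp`, and the two VALFAM statements); the unconditional exports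
`h15_exists_goodRed_step` / `h15_exists_goodRed_base` are in `GoodRed.lean`.
-/

set_option autoImplicit false

noncomputable section

open AlgebraicCurve Fermat.Agent.S18 Polynomial IntermediateField

namespace Fermat.Agent.S27

universe u

/-- The statement of row B2 (CHART-EX) for a chart `x0`. -/
def h62_ModelProp (K F : Type*) [Field K] [Field F] [Algebra K F] : Prop :=
  ∃ (x y : F) (n : ℕ) (Φ : Polynomial (Polynomial K)) (d : Polynomial K),
      0 < n ∧ h75_IsChart K x ∧ Module.finrank K⟮x⟯ F = n ∧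
      Φ.Monic ∧ Φ.natDegree = n ∧
      Polynomial.eval₂ ((aeval x : K[X] →ₐ[K] F) : K[X] →+* F) y Φ = 0 ∧
      (Φ.coeff 0).natDegree = n + 1 ∧
      (∀ j, 0 < j → j < n → n * (Φ.coeff j).natDegree + (n + 1) * j < n * (n + 1)) ∧
      d ≠ 0 ∧ ∀ (P : Place K F) (a : K), 2 ≤ P.ord (x - algebraMap K F a) → d.eval a = 0

/-- The statement of row B1 (RED-CONSTR) for a fixed pair `(K, F)`. -/
def h62_RedConstrProp (K F : Type u) [Field K] [Field F] [Algebra K F] : Prop :=
  ∀ (A : ValuationSubring K) (_ : h39_RankOne A) (x y : F) (n : ℕ)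
    (_ : 0 < n) (_ : Transcendental K x) (_ : Module.finrank K⟮x⟯ F = n)
    (Φ : Polynomial (Polynomial A)) (_ : Φ.Monic) (_ : Φ.natDegree = n)
    (_ : Polynomial.eval₂ ((aeval x : K[X] →ₐ[K] F) : K[X] →+* F) y
      (Φ.map (Polynomial.mapRingHom (algebraMap A K))) = 0)
    (_ : LinearIndependent K⟮x⟯ (fun i : Fin n => y ^ (i : ℕ)))
    (_ : Irreducible ((Φ.map (Polynomial.mapRingHom (IsLocalRing.residue A))).map
      (algebraMap (Polynomial (IsLocalRing.ResidueField A))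
        (RatFunc (IsLocalRing.ResidueField A)))))
    (_ : ((Φ.map (Polynomial.mapRingHom (IsLocalRing.residue A))).map
      (algebraMap (Polynomial (IsLocalRing.ResidueField A))
        (RatFunc (IsLocalRing.ResidueField A)))).Separable)
    (Z : Finset K) (_ : ∀ z ∈ Z, z ∈ A)
    (_ : ∀ z ∈ Z, ∀ z' ∈ Z, z - z' ∈ A.nonunits → z = z')
    (_ : ∀ (P : Place K F) (a : K), 2 ≤ P.ord (x - algebraMap K F a) → a ∈ Z),
    ∃ (Fb : Type u) (_ : Field Fb) (_ : Algebra (IsLocalRing.ResidueField A) Fb)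
      (R : h39_RedDatum K F (IsLocalRing.ResidueField A) Fb),
      h39_Chart R x ∧ h39_RankOne R.A

/-- A finite set of nonzero elements containing everything that has to become a unit. -/
theorem h62_exists_unitSet {K : Type*} [Field K] (Φ0 : K[X][X]) (d : K[X]) (n : ℕ) :
    ∃ S : Finset K, (∀ s ∈ S, s ≠ 0) ∧
      (∀ j i, (Φ0.coeff j).coeff i ≠ 0 → (Φ0.coeff j).coeff i ∈ S) ∧
      ((n : K) ≠ 0 → (n : K) ∈ S) ∧
      (∀ z ∈ d.roots, z ≠ 0 → z ∈ S) ∧
      (∀ z ∈ d.roots, ∀ z' ∈ d.roots, z ≠ z' → z - z' ∈ S) := by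
  classical
  refine ⟨((Φ0.support.biUnion fun j => (Φ0.coeff j).support.image fun i => (Φ0.coeff j).coeff i)
    ∪ {(n : K)} ∪ d.roots.toFinset ∪
    ((d.roots.toFinset ×ˢ d.roots.toFinset).image fun p => p.1 - p.2)).filter (· ≠ 0),
    ?_, ?_, ?_, ?_, ?_⟩
  · intro s hs
    exact (Finset.mem_filter.mp hs).2
  · intro j i h
    refine Finset.mem_filter.mpr ⟨?_, h⟩
    refine Finset.mem_union_left _ (Finset.mem_union_left _ (Finset.mem_union_left _ ?_))
    refine Finset.mem_biUnion.mpr ⟨j, ?_, Finset.mem_image.mpr ⟨i, ?_, rfl⟩⟩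
    · rw [mem_support_iff]
      intro h0
      rw [h0] at h
      simp at h
    · rw [mem_support_iff]
      exact h
  · intro h
    refine Finset.mem_filter.mpr ⟨?_, h⟩
    exact Finset.mem_union_left _ (Finset.mem_union_left _ (Finset.mem_union_right _
      (Finset.mem_singleton_self _)))
  · intro z hz h
    refine Finset.mem_filter.mpr ⟨?_, h⟩
    exact Finset.mem_union_left _ (Finset.mem_union_right _ (Multiset.mem_toFinset.mpr hz))
  · intro z hz z' hz' h
    refine Finset.mem_filter.mpr ⟨?_, sub_ne_zero.mpr h⟩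
    refine Finset.mem_union_right _ (Finset.mem_image.mpr ⟨(z, z'), ?_, rfl⟩)
    exact Finset.mem_product.mpr ⟨Multiset.mem_toFinset.mpr hz, Multiset.mem_toFinset.mpr hz'⟩

/-- A nonzero element with inverse in `A` is not a non-unit. -/
theorem h62_not_mem_nonunits {K : Type*} [Field K] (A : ValuationSubring K) {u : K}
    (h0 : u ≠ 0) (h : u⁻¹ ∈ A) : u ∉ A.nonunits := by
  rw [ValuationSubring.mem_nonunits_iff]
  intro hlt
  have h1 : A.valuation u⁻¹ ≤ 1 := (A.valuation_le_one_iff _).mpr h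
  have h2 : A.valuation u * A.valuation u⁻¹ = 1 := by
    rw [← map_mul, mul_inv_cancel₀ h0, map_one]
  have h3 : A.valuation u * A.valuation u⁻¹ < 1 := by
    calc A.valuation u * A.valuation u⁻¹ ≤ A.valuation u * 1 := mul_le_mul' le_rfl h1
      _ = A.valuation u := mul_one _
      _ < 1 := hlt
  exact absurd h2 h3.ne

/-- The residue of an element with inverse in `A` is nonzero. -/
theorem h62_residue_ne_zero {K : Type*} [Field K] (A : ValuationSubring K) (a : A)
    (h0 : (a : K) ≠ 0) (h : (a : K)⁻¹ ∈ A) : IsLocalRing.residue A a ≠ 0 := by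
  have hu : IsUnit a :=
    isUnit_iff_exists_inv.mpr ⟨⟨_, h⟩, Subtype.ext (mul_inv_cancel₀ h0)⟩
  exact (IsLocalRing.residue_ne_zero_iff_isUnit a).mpr hu

/-- Lifting a monic two-variable polynomial with coefficients in a valuation subring. -/
theorem h62_lift_poly {K : Type*} [Field K] (A : ValuationSubring K) (Φ0 : K[X][X])
    (hmon : Φ0.Monic) (hA : ∀ j i, (Φ0.coeff j).coeff i ∈ A) :
    ∃ Φ : A[X][X], Φ.map (mapRingHom (algebraMap A K)) = Φ0 ∧ Φ.Monic ∧
      Φ.natDegree = Φ0.natDegree := by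
  have h1 : Φ0 ∈ lifts (mapRingHom (algebraMap A K)) := by
    rw [lifts_iff_coeff_lifts]
    intro j
    have h2 : Φ0.coeff j ∈ lifts (algebraMap A K) := by
      rw [lifts_iff_coeff_lifts]
      intro i
      exact ⟨⟨_, hA j i⟩, rfl⟩
    obtain ⟨q, hq⟩ := (mem_lifts _).mp h2
    exact ⟨q, hq⟩
  obtain ⟨Φ, h1, h2, h3⟩ := lifts_and_natDegree_eq_and_monic h1 hmon
  exact ⟨Φ, h1, h3, h2⟩

/-- The powers of `y` below the degree of a weighted model are independent over `K(x)`. -/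
theorem h62_pow_linearIndependent {K F : Type*} [Field K] [Field F] [Algebra K F] (x y : F)
    (hx : Transcendental K x) (n : ℕ) (hn : 0 < n) (Φ0 : K[X][X]) (hmon : Φ0.Monic)
    (hdeg : Φ0.natDegree = n)
    (hΦ : eval₂ ((aeval x : K[X] →ₐ[K] F) : K[X] →+* F) y Φ0 = 0)
    (h0 : (Φ0.coeff 0).natDegree = n + 1)
    (hw : ∀ j, 0 < j → j < n → n * (Φ0.coeff j).natDegree + (n + 1) * j < n * (n + 1)) :
    LinearIndependent K⟮x⟯ (fun i : Fin n => y ^ (i : ℕ)) := by
  have hirr := h14_wirr_ratFunc n hn Φ0 hmon hdeg h0 hw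
  let e : RatFunc K ≃ₐ[K] K⟮x⟯ := RatFunc.algEquivOfTranscendental x hx
  let P : K⟮x⟯[X] := (Φ0.map (algebraMap K[X] (RatFunc K))).map
    ((e.toRingEquiv : RatFunc K ≃+* K⟮x⟯) : RatFunc K →+* K⟮x⟯)
  have hPirr : Irreducible P :=
    (MulEquiv.irreducible_iff (Polynomial.mapEquiv e.toRingEquiv)).mpr hirr
  have hPmon : P.Monic := (hmon.map _).map _
  have hPdeg : P.natDegree = n := by
    show ((Φ0.map (algebraMap K[X] (RatFunc K))).map _).natDegree = n
    rw [(hmon.map _).natDegree_map, hmon.natDegree_map, hdeg]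
  have hPy : aeval y P = 0 := by
    show aeval y ((Φ0.map (algebraMap K[X] (RatFunc K))).map _) = 0
    rw [aeval_def, eval₂_map, eval₂_map]
    have hhom : ((algebraMap K⟮x⟯ F).comp
        ((e.toRingEquiv : RatFunc K ≃+* K⟮x⟯) : RatFunc K →+* K⟮x⟯)).comp
        (algebraMap K[X] (RatFunc K)) = ((aeval x : K[X] →ₐ[K] F) : K[X] →+* F) := by
      refine RingHom.ext fun g => ?_
      show algebraMap K⟮x⟯ F (e (algebraMap K[X] (RatFunc K) g)) = aeval x g
      rw [RatFunc.algEquivOfTranscendental_algebraMap]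
      rw [← aeval_algebraMap_apply]
      simp
    rw [hhom]
    exact hΦ
  have hmin : P = minpoly K⟮x⟯ y := minpoly.eq_of_irreducible_of_monic hPirr hPy hPmon
  have hN : (minpoly K⟮x⟯ y).natDegree = n := by rw [← hmin, hPdeg]
  exact hN ▸ linearIndependent_pow y

/-- The reduction datum attached to a weighted model and a valuation subring for which the
relevant finitely many elements are units (B1 as a hypothesis). -/
theorem h62_redDatum_of_units {K F : Type u} [Field K] [IsAlgClosed K] [CharZero K] [Field F]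
    [Algebra K F] (hB1 : h62_RedConstrProp K F)
    (x y : F) (n : ℕ) (Φ0 : K[X][X]) (d : K[X]) (hn : 0 < n) (hx : h75_IsChart K x)
    (hrank : Module.finrank K⟮x⟯ F = n) (hmon : Φ0.Monic) (hdeg : Φ0.natDegree = n)
    (hΦ : eval₂ ((aeval x : K[X] →ₐ[K] F) : K[X] →+* F) y Φ0 = 0)
    (h0 : (Φ0.coeff 0).natDegree = n + 1)
    (hw : ∀ j, 0 < j → j < n → n * (Φ0.coeff j).natDegree + (n + 1) * j < n * (n + 1))
    (hd : d ≠ 0)
    (hbr : ∀ (P : Place K F) (a : K), 2 ≤ P.ord (x - algebraMap K F a) → d.eval a = 0)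
    (A : ValuationSubring K) (hA1 : h39_RankOne A) (S : Finset K)
    (hSA : ∀ s ∈ S, s ∈ A ∧ s⁻¹ ∈ A)
    (hS1 : ∀ j i, (Φ0.coeff j).coeff i ≠ 0 → (Φ0.coeff j).coeff i ∈ S)
    (hS2 : (n : K) ≠ 0 → (n : K) ∈ S)
    (hS3 : ∀ z ∈ d.roots, z ≠ 0 → z ∈ S)
    (hS4 : ∀ z ∈ d.roots, ∀ z' ∈ d.roots, z ≠ z' → z - z' ∈ S) :
    ∃ (Fb : Type u) (_ : Field Fb) (_ : Algebra (IsLocalRing.ResidueField A) Fb)
      (R : h39_RedDatum K F (IsLocalRing.ResidueField A) Fb),
      h39_Chart R x ∧ h39_RankOne R.A := by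
  classical
  have hinj : Function.Injective (algebraMap A K) := Subtype.val_injective
  -- the lift of the model to `A`
  have hcA : ∀ j i, (Φ0.coeff j).coeff i ∈ A := by
    intro j i
    by_cases h : (Φ0.coeff j).coeff i = 0
    · rw [h]
      exact A.zero_mem
    · exact (hSA _ (hS1 j i h)).1
  obtain ⟨Φ, hΦmap, hΦmon, hΦdeg⟩ := h62_lift_poly A Φ0 hmon hcA
  have hcoeff : ∀ j, (Φ.coeff j).map (algebraMap A K) = Φ0.coeff j := by
    intro j
    rw [← hΦmap, coeff_map, coe_mapRingHom]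
  have hnat : ∀ j, (Φ.coeff j).natDegree = (Φ0.coeff j).natDegree := by
    intro j
    rw [← hcoeff j, natDegree_map_eq_of_injective hinj]
  -- the coefficient of `x ^ (n + 1)` in the constant term is a unit
  have hγK : (((Φ.coeff 0).coeff (n + 1) : A) : K) = (Φ0.coeff 0).coeff (n + 1) := by
    rw [← hcoeff 0, coeff_map]
    rfl
  have hγ0 : (Φ0.coeff 0).coeff (n + 1) ≠ 0 := by
    rw [← h0]
    intro h
    have h1 : Φ0.coeff 0 = 0 := leadingCoeff_eq_zero.mp h
    rw [h1, natDegree_zero] at h0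
    omega
  have hγ : IsLocalRing.residue A ((Φ.coeff 0).coeff (n + 1)) ≠ 0 := by
    refine h62_residue_ne_zero A _ ?_ ?_
    · rw [hγK]
      exact hγ0
    · rw [hγK]
      exact (hSA _ (hS1 0 (n + 1) hγ0)).2
  -- `n` is a unit
  have hnK : (n : K) ≠ 0 := Nat.cast_ne_zero.mpr hn.ne'
  have hnk : (n : IsLocalRing.ResidueField A) ≠ 0 := by
    have h1 : IsLocalRing.residue A (n : A) ≠ 0 := by
      refine h62_residue_ne_zero A _ ?_ ?_
      · simpa using hnK
      · have := (hSA _ (hS2 hnK)).2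
        simpa using this
    rwa [map_natCast] at h1
  obtain ⟨-, hirr, hsep⟩ := h14_wirr_map (IsLocalRing.residue A) n hn Φ hΦmon
    (hΦdeg.trans hdeg) (by rw [hnat 0, h0])
    hγ (fun j hj hjn => by rw [hnat j]; exact hw j hj hjn)
  -- the powers of `y`
  have hpow := h62_pow_linearIndependent x y hx.tr n hn Φ0 hmon hdeg hΦ h0 hw
  -- the branch set
  refine hB1 A hA1 x y n hn hx.tr hrank Φ hΦmon (hΦdeg.trans hdeg) (by rw [hΦmap]; exact hΦ)
    hpow hirr (hsep hnk) d.roots.toFinset ?_ ?_ ?_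
  · intro z hz
    rw [Multiset.mem_toFinset] at hz
    by_cases h : z = 0
    · rw [h]
      exact A.zero_mem
    · exact (hSA _ (hS3 z hz h)).1
  · intro z hz z' hz' hzz
    rw [Multiset.mem_toFinset] at hz hz'
    by_contra hne
    exact h62_not_mem_nonunits A (sub_ne_zero.mpr hne) (hSA _ (hS4 z hz z' hz' hne)).2 hzz
  · intro P a hP
    rw [Multiset.mem_toFinset, mem_roots hd]
    exact hbr P a hP

/-- From B1 and B2: a finite set `S` of nonzero elements of `K` such that every rank-one valuation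
subring `A` with `S ⊆ A^×` carries a good reduction with residue field `ResidueField A`. -/
theorem h62_exists_unitSet_redDatum {K F : Type u} [Field K] [IsAlgClosed K] [CharZero K]
    [Field F] [Algebra K F] (hB1 : h62_RedConstrProp K F) (hB2 : h62_ModelProp K F) :
    ∃ S : Finset K, (∀ s ∈ S, s ≠ 0) ∧ ∀ A : ValuationSubring K, h39_RankOne A →
      (∀ s ∈ S, s ∈ A ∧ s⁻¹ ∈ A) →
      ∃ (x : F) (Fb : Type u) (_ : Field Fb) (_ : Algebra (IsLocalRing.ResidueField A) Fb)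
        (R : h39_RedDatum K F (IsLocalRing.ResidueField A) Fb),
        h75_IsChart K x ∧ h39_Chart R x ∧ h39_RankOne R.A := by
  obtain ⟨x, y, n, Φ0, d, hn, hx, hrank, hmon, hdeg, hΦ, h0, hw, hd, hbr⟩ := hB2
  obtain ⟨S, hS0, hS1, hS2, hS3, hS4⟩ := h62_exists_unitSet Φ0 d n
  refine ⟨S, hS0, fun A hA1 hSA => ?_⟩
  obtain ⟨Fb, iF, iA, R, hR1, hR2⟩ := h62_redDatum_of_units hB1 x y n Φ0 d hn hx hrank hmon hdeg
    hΦ h0 hw hd hbr A hA1 S hSA hS1 hS2 hS3 hS4
  exact ⟨x, Fb, iF, iA, R, hx, hR1, hR2⟩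

/-- **GOODRED, step case**, with B1, B2 and VALFAM-STEP as hypotheses. -/
theorem h62_exists_goodRed_step_of (d : ℕ) (K F : Type u) [Field K] [IsAlgClosed K] [CharZero K]
    [Field F] [Algebra K F] (hB1 : h62_RedConstrProp K F) (hB2 : h62_ModelProp K F)
    (hVF : ∀ (S : Finset K) (_ : ∀ s ∈ S, s ≠ 0),
      ∃ A : ValuationSubring K, (∀ s ∈ S, s ∈ A ∧ s⁻¹ ∈ A) ∧ h39_RankOne A ∧
        CharZero (IsLocalRing.ResidueField A) ∧ h15_TrdegLE (IsLocalRing.ResidueField A) d) :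
    ∃ G : h15_GoodRed K F, CharZero G.k ∧ h15_TrdegLE G.k d := by
  obtain ⟨S, hS0, hS⟩ := h62_exists_unitSet_redDatum hB1 hB2
  obtain ⟨A, hSA, hA1, hchar, htr⟩ := hVF S hS0
  obtain ⟨x, Fb, iF, iA, R, hx, hR1, hR2⟩ := hS A hA1 hSA
  have hacl : IsAlgClosed (IsLocalRing.ResidueField A) := h19_residueField_isAlgClosed A
  exact ⟨@h15_GoodRed.mk K F _ _ _ (IsLocalRing.ResidueField A) Fb _ iF iA hacl R x hx hR1 hR2,
    hchar, htr⟩

/-- **GOODRED, base case**, with B1, B2 and VALFAM-BASE as hypotheses. -/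
theorem h62_exists_goodRed_base_of (K F : Type u) [Field K] [IsAlgClosed K] [CharZero K]
    [Field F] [Algebra K F] (hB1 : h62_RedConstrProp K F) (hB2 : h62_ModelProp K F)
    (m : ℕ)
    (hVF : ∀ (S : Finset K) (_ : ∀ s ∈ S, s ≠ 0),
      ∃ (A : ValuationSubring K) (p : ℕ), p.Prime ∧ ¬ p ∣ m ∧ (∀ s ∈ S, s ∈ A ∧ s⁻¹ ∈ A) ∧
        h39_RankOne A ∧ CharP (IsLocalRing.ResidueField A) p ∧
        ∀ a : IsLocalRing.ResidueField A, ∃ n : ℕ, 0 < n ∧ a ^ (p ^ n) = a) :
    ∃ (G : h15_GoodRed K F) (p : ℕ) (_ : Fact p.Prime) (_ : CharP G.k p), ¬ p ∣ m ∧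
      ∀ a : G.k, ∃ n : ℕ, 0 < n ∧ a ^ (p ^ n) = a := by
  obtain ⟨S, hS0, hS⟩ := h62_exists_unitSet_redDatum hB1 hB2
  obtain ⟨A, p, hp, hpm, hSA, hA1, hchar, hfrob⟩ := hVF S hS0
  obtain ⟨x, Fb, iF, iA, R, hx, hR1, hR2⟩ := hS A hA1 hSA
  have hacl : IsAlgClosed (IsLocalRing.ResidueField A) := h19_residueField_isAlgClosed A
  exact ⟨@h15_GoodRed.mk K F _ _ _ (IsLocalRing.ResidueField A) Fb _ iF iA hacl R x hx hR1 hR2,
    p, ⟨hp⟩, hchar, hpm, hfrob⟩

end Fermat.Agent.S27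

end
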