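import Mathlib
import Fermat.Prelude.Def_AlgebraicCurve_IsCurveOver
import Fermat.Prelude.Def_AlgebraicCurve_Repartitions
import Fermat.Agent.S18.Defs
import Fermat.Agent.S18.h75_RRDefs
import Fermat.Agent.S18.h19_ResField
import Fermat.Agent.S27.h15_DefsAny
import Fermat.Agent.S27.h14_WIrr
import Fermat.Agent.S27.h62_GoodRedOf

/-!
# S27 / GOODRED-ASM (helper62), ANY-RANK architecture: conditional assembly

`h62_exists_goodRedAny_of`: the block export `h15_exists_goodRedAny` from the three inputs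
(B1 RED-CONSTR in the rank-free shape, B2 CHART-EX, VALFAM-ANY) taken as hypotheses.
`h62_redConstr_inputs` packages everything B1 consumes.
-/

set_option autoImplicit false

noncomputable section

open AlgebraicCurve Fermat.Agent.S18 Polynomial IntermediateField

namespace Fermat.Agent.S27

universe u v

/-- The statement of row B1 (RED-CONSTR), rank-free shape, for a fixed pair `(K, F)`. -/
def h62_RedConstrAnyProp (K : Type u) (F : Type v) [Field K] [Field F] [Algebra K F] : Prop :=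
  ∀ (A : ValuationSubring K) (x y : F) (n : ℕ)
    (_ : 0 < n) (_ : Transcendental K x) (_ : Module.finrank K⟮x⟯ F = n)
    (Φ : Polynomial (Polynomial A)) (_ : Φ.Monic) (_ : Φ.natDegree = n)
    (_ : Polynomial.eval₂ ((aeval x : K[X] →ₐ[K] F) : K[X] →+* F) y
      (Φ.map (Polynomial.mapRingHom (algebraMap A K))) = 0)
    (_ : LinearIndependent K⟮x⟯ (fun i : Fin n => y ^ (i : ℕ)))
    (_ : Irreducible ((Φ.map (Polynomial.mapRingHom (IsLocalRing.residue A))).map
      (algebraMap (Polynomial (IsLocalRing.ResidueField A))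
        (RatFunc (IsLocalRing.ResidueField A)))))
    (_ : ((Φ.map (Polynomial.mapRingHom (IsLocalRing.residue A))).map
      (algebraMap (Polynomial (IsLocalRing.ResidueField A))
        (RatFunc (IsLocalRing.ResidueField A)))).Separable)
    (Z : Finset K) (_ : ∀ z ∈ Z, z ∈ A)
    (_ : ∀ z ∈ Z, ∀ z' ∈ Z, z - z' ∈ A.nonunits → z = z')
    (_ : ∀ (P : Place K F) (a : K), 2 ≤ P.ord (x - algebraMap K F a) → a ∈ Z),
    ∃ (Fb : Type u) (_ : Field Fb) (_ : Algebra (IsLocalRing.ResidueField A) Fb)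
      (R : h39_RedDatum K F (IsLocalRing.ResidueField A) Fb), h39_Chart R x

/-- Everything B1 (RED-CONSTR) consumes, from a weighted model over `K` and a valuation subring
`A` for which the finitely many relevant elements are units: the lift `Φ` of the model to `A`,
the independence of the powers of `y`, irreducibility and separability of the reduction, and
the branch set `Z` with pairwise distinct residues. -/
theorem h62_redConstr_inputs {K : Type u} {F : Type v} [Field K] [Field F] [Algebra K F]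
    (x y : F) (n : ℕ) (Φ0 : K[X][X]) (d : K[X]) (hn : 0 < n) (hx : Transcendental K x)
    (hmon : Φ0.Monic) (hdeg : Φ0.natDegree = n)
    (hΦ : eval₂ ((aeval x : K[X] →ₐ[K] F) : K[X] →+* F) y Φ0 = 0)
    (h0 : (Φ0.coeff 0).natDegree = n + 1)
    (hw : ∀ j, 0 < j → j < n → n * (Φ0.coeff j).natDegree + (n + 1) * j < n * (n + 1))
    (hd : d ≠ 0)
    (hbr : ∀ (P : Place K F) (a : K), 2 ≤ P.ord (x - algebraMap K F a) → d.eval a = 0)
    (A : ValuationSubring K) (S : Finset K)
    (hSA : ∀ s ∈ S, s ∈ A ∧ s⁻¹ ∈ A)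
    (hS1 : ∀ j i, (Φ0.coeff j).coeff i ≠ 0 → (Φ0.coeff j).coeff i ∈ S)
    (hS2 : (n : K) ≠ 0 → (n : K) ∈ S)
    (hS3 : ∀ z ∈ d.roots, z ≠ 0 → z ∈ S)
    (hS4 : ∀ z ∈ d.roots, ∀ z' ∈ d.roots, z ≠ z' → z - z' ∈ S) (hnK : (n : K) ≠ 0) :
    ∃ (Φ : Polynomial (Polynomial A)) (Z : Finset K), Φ.Monic ∧ Φ.natDegree = n ∧
      Polynomial.eval₂ ((aeval x : K[X] →ₐ[K] F) : K[X] →+* F) y
        (Φ.map (Polynomial.mapRingHom (algebraMap A K))) = 0 ∧
      LinearIndependent K⟮x⟯ (fun i : Fin n => y ^ (i : ℕ)) ∧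
      Irreducible ((Φ.map (Polynomial.mapRingHom (IsLocalRing.residue A))).map
        (algebraMap (Polynomial (IsLocalRing.ResidueField A))
          (RatFunc (IsLocalRing.ResidueField A)))) ∧
      ((Φ.map (Polynomial.mapRingHom (IsLocalRing.residue A))).map
        (algebraMap (Polynomial (IsLocalRing.ResidueField A))
          (RatFunc (IsLocalRing.ResidueField A)))).Separable ∧
      (∀ z ∈ Z, z ∈ A) ∧ (∀ z ∈ Z, ∀ z' ∈ Z, z - z' ∈ A.nonunits → z = z') ∧
      (∀ (P : Place K F) (a : K), 2 ≤ P.ord (x - algebraMap K F a) → a ∈ Z) := by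
  classical
  have hinj : Function.Injective (algebraMap A K) := Subtype.val_injective
  -- the lift of the model to `A`
  have hcA : ∀ j i, (Φ0.coeff j).coeff i ∈ A := by
    intro j i
    by_cases h : (Φ0.coeff j).coeff i = 0
    · rw [h]
      exact A.zero_mem
    · exact (hSA _ (hS1 j i h)).1
  obtain ⟨Φ, hΦmap, hΦmon, hΦdeg⟩ := h62_lift_poly A Φ0 hmon hcA
  have hcoeff : ∀ j, (Φ.coeff j).map (algebraMap A K) = Φ0.coeff j := by
    intro j
    rw [← hΦmap, coeff_map, coe_mapRingHom]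
  have hnat : ∀ j, (Φ.coeff j).natDegree = (Φ0.coeff j).natDegree := by
    intro j
    rw [← hcoeff j, natDegree_map_eq_of_injective hinj]
  -- the coefficient of `x ^ (n + 1)` in the constant term is a unit
  have hγK : (((Φ.coeff 0).coeff (n + 1) : A) : K) = (Φ0.coeff 0).coeff (n + 1) := by
    rw [← hcoeff 0, coeff_map]
    rfl
  have hγ0 : (Φ0.coeff 0).coeff (n + 1) ≠ 0 := by
    rw [← h0]
    intro h
    have h1 : Φ0.coeff 0 = 0 := leadingCoeff_eq_zero.mp h
    rw [h1, natDegree_zero] at h0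
    omega
  have hγ : IsLocalRing.residue A ((Φ.coeff 0).coeff (n + 1)) ≠ 0 := by
    refine h62_residue_ne_zero A _ ?_ ?_
    · rw [hγK]
      exact hγ0
    · rw [hγK]
      exact (hSA _ (hS1 0 (n + 1) hγ0)).2
  -- `n` is a unit
  have hnk : (n : IsLocalRing.ResidueField A) ≠ 0 := by
    have h1 : IsLocalRing.residue A (n : A) ≠ 0 := by
      refine h62_residue_ne_zero A _ ?_ ?_
      · simpa using hnK
      · have := (hSA _ (hS2 hnK)).2
        simpa using this
    rwa [map_natCast] at h1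
  obtain ⟨-, hirr, hsep⟩ := h14_wirr_map (IsLocalRing.residue A) n hn Φ hΦmon
    (hΦdeg.trans hdeg) (by rw [hnat 0, h0])
    hγ (fun j hj hjn => by rw [hnat j]; exact hw j hj hjn)
  -- the powers of `y`
  have hpow := h62_pow_linearIndependent x y hx n hn Φ0 hmon hdeg hΦ h0 hw
  refine ⟨Φ, d.roots.toFinset, hΦmon, hΦdeg.trans hdeg, by rw [hΦmap]; exact hΦ, hpow, hirr,
    hsep hnk, ?_, ?_, ?_⟩
  · intro z hz
    rw [Multiset.mem_toFinset] at hz
    by_cases h : z = 0
    · rw [h]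
      exact A.zero_mem
    · exact (hSA _ (hS3 z hz h)).1
  · intro z hz z' hz' hzz
    rw [Multiset.mem_toFinset] at hz hz'
    by_contra hne
    exact h62_not_mem_nonunits A (sub_ne_zero.mpr hne) (hSA _ (hS4 z hz z' hz' hne)).2 hzz
  · intro P a hP
    rw [Multiset.mem_toFinset, mem_roots hd]
    exact hbr P a hP

/-- From B2: a chart `x` and a finite set `S` of nonzero elements of `K`, containing a given
finite set `T` of nonzero elements, such that every valuation subring `A` with `S ⊆ A^×`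
satisfies the conclusion of B1 at `x` (B1 as a hypothesis). -/
theorem h62_exists_unitSet_redDatumAny {K : Type u} {F : Type v} [Field K] [CharZero K]
    [Field F] [Algebra K F] (hB1 : h62_RedConstrAnyProp K F) (hB2 : h62_ModelProp K F)
    (T : Finset K) (hT : ∀ t ∈ T, t ≠ 0) :
    ∃ (x : F) (S : Finset K), h75_IsChart K x ∧ (∀ s ∈ S, s ≠ 0) ∧ T ⊆ S ∧
      ∀ A : ValuationSubring K, (∀ s ∈ S, s ∈ A ∧ s⁻¹ ∈ A) →
      ∃ (Fb : Type u) (_ : Field Fb) (_ : Algebra (IsLocalRing.ResidueField A) Fb)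
        (R : h39_RedDatum K F (IsLocalRing.ResidueField A) Fb), h39_Chart R x := by
  classical
  obtain ⟨x, y, n, Φ0, d, hn, hx, hrank, hmon, hdeg, hΦ, h0, hw, hd, hbr⟩ := hB2
  obtain ⟨S, hS0, hS1, hS2, hS3, hS4⟩ := h62_exists_unitSet Φ0 d n
  have hnK : (n : K) ≠ 0 := Nat.cast_ne_zero.mpr hn.ne'
  refine ⟨x, S ∪ T, hx, ?_, Finset.subset_union_right, fun A hSA => ?_⟩
  · intro s hs
    rcases Finset.mem_union.mp hs with h | h
    · exact hS0 s h
    · exact hT s h
  · obtain ⟨Φ, Z, h1, h2, h3, h4, h5, h6, h7, h8, h9⟩ := h62_redConstr_inputs x y n Φ0 d hn hx.tr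
      hmon hdeg hΦ h0 hw hd hbr A S (fun s hs => hSA s (Finset.mem_union_left _ hs))
      hS1 hS2 hS3 hS4 hnK
    exact hB1 A x y n hn hx.tr hrank Φ h1 h2 h3 h4 h5 h6 Z h7 h8 h9

/-- **GOODRED (any `K`)**, with B1 (rank-free), B2 and VALFAM-ANY as hypotheses. -/
theorem h62_exists_goodRedAny_of (K : Type u) (F : Type v) [Field K] [IsAlgClosed K]
    [CharZero K] [Field F] [Algebra K F] (hB1 : h62_RedConstrAnyProp K F)
    (hB2 : h62_ModelProp K F)
    (hVF : ∀ (S : Finset K) (_ : ∀ s ∈ S, s ≠ 0),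
      ∃ (A : ValuationSubring K) (p : ℕ), p.Prime ∧ (∀ s ∈ S, s ∈ A ∧ s⁻¹ ∈ A) ∧
        CharP (IsLocalRing.ResidueField A) p ∧
        ∀ z : IsLocalRing.ResidueField A, ∃ n : ℕ, 0 < n ∧ z ^ (p ^ n) = z)
    (m : ℕ) (hm : m ≠ 0) :
    ∃ (G : h15_GoodRedAny K F) (p : ℕ) (_ : Fact p.Prime) (_ : CharP G.k p),
      ¬ p ∣ m ∧ ∀ a : G.k, ∃ n : ℕ, 0 < n ∧ a ^ (p ^ n) = a := by
  classical
  have hmK : (m : K) ≠ 0 := Nat.cast_ne_zero.mpr hm
  obtain ⟨x, S, hx, hS0, hTS, hS⟩ := h62_exists_unitSet_redDatumAny hB1 hB2 {(m : K)}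
    (fun t ht => by rw [Finset.mem_singleton.mp ht]; exact hmK)
  obtain ⟨A, p, hp, hSA, hchar, hfrob⟩ := hVF S hS0
  obtain ⟨Fb, iF, iA, R, hR⟩ := hS A hSA
  have hacl : IsAlgClosed (IsLocalRing.ResidueField A) := h19_residueField_isAlgClosed A
  have hpm : ¬ p ∣ m := by
    have h1 : IsLocalRing.residue A (m : A) ≠ 0 := by
      refine h62_residue_ne_zero A _ ?_ ?_
      · simpa using hmK
      · have := (hSA _ (hTS (Finset.mem_singleton_self _))).2
        simpa using this
    rw [map_natCast] at h1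
    rwa [Ne, CharP.cast_eq_zero_iff (IsLocalRing.ResidueField A) p] at h1
  exact ⟨@h15_GoodRedAny.mk K F _ _ _ (IsLocalRing.ResidueField A) Fb _ iF iA hacl R x hx hR,
    p, ⟨hp⟩, hchar, hpm, hfrob⟩

end Fermat.Agent.S27

end
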