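import Mathlib
import Fermat.Prelude.Def_AlgebraicCurve_IsCurveOver
import Fermat.Prelude.Def_AlgebraicCurve_Repartitions
import Fermat.Agent.S18.Defs
import Fermat.Agent.S18.h75_RRDefs
import Fermat.Agent.S27.h15_DefsAny
import Fermat.Agent.S27.h62_GoodRedAnyOf
import Fermat.Agent.S27.RedConstr
import Fermat.Agent.S27.ChartEx
import Fermat.Agent.S27.h14_ValFamAny

/-!
# S27 / GOODRED (row 491, helper62): the block export, ANY-RANK architecture

`h15_exists_goodRedAny`: every function field `F` with a chart over an algebraically closed
field `K` of characteristic zero has a good reduction `(k, Fb)` with `k` algebraic over `𝔽_p`,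
`p ∤ m`.  Assembly (`h62_exists_goodRedAny_of`) of

* B2 CHART-EX `h15_exists_model` (helper19): a weighted plane model;
* B1 RED-CONSTR `h15_exists_redDatum_of_model` (helper44, helper21): its reduction datum;
* VALFAM-ANY `h14_valfam_any` (helper14): a valuation subring with prescribed units and residue
  field algebraic over `𝔽_p`.
-/

set_option autoImplicit false

noncomputable section

open AlgebraicCurve Fermat.Agent.S18

namespace Fermat.Agent.S27

universe u v

/-- **GOODRED (any `K`).** A good reduction with residue field algebraic over `𝔽_p`, `p ∤ m`. -/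
theorem h15_exists_goodRedAny (K : Type u) (F : Type v) [Field K] [IsAlgClosed K] [CharZero K]
    [Field F] [Algebra K F] (x : F) (hx : h75_IsChart K x) (m : ℕ) (hm : m ≠ 0) :
    ∃ (G : h15_GoodRedAny K F) (p : ℕ) (_ : Fact p.Prime) (_ : CharP G.k p),
      ¬ p ∣ m ∧ ∀ a : G.k, ∃ n : ℕ, 0 < n ∧ a ^ (p ^ n) = a :=
  h62_exists_goodRedAny_of K F (fun A => h15_exists_redDatum_of_model A)
    (h15_exists_model hx) (fun S _ => h14_valfam_any S) m hm

end Fermat.Agent.S27

end
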