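import Mathlib
import Fermat.Prelude.Def_AlgebraicCurve_IsCurveOver
import Fermat.Agent.S18.h75_RRDefs

/-!
# S27, block B0a BASE-CHART (row 477, helper69)

A curve in the sense of the Prelude (`IsCurveOver K F`, in particular `Ω[F⁄K]` free of rank one)
which is essentially of finite type over an algebraically closed field `K` of characteristic zero
has a chart: an element `x` transcendental over `K` with `F / K(x)` finite separable.

Proof.  For a transcendence basis `t` of `F / K` the field `F` is formally étale over the
polynomial ring `K[t]` (a localisation followed by a separable algebraic extension), so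
`Ω[F⁄K] = F ⊗ Ω[K[t]⁄K]` is free on the `d b`, `b ∈ t` (the technique of helper84's
`h22_exists_derivation`).  Rank one forces `t = {x}`; then `F` is algebraic and finitely generated
over `K(x)`, hence finite, and separable because the characteristic is zero.
-/

set_option autoImplicit false

open AlgebraicCurve Fermat.Agent.S18

namespace Fermat.Agent.S27

section Base

variable {K : Type*} {F : Type*} [Field K] [Field F] [Algebra K F]

open scoped IntermediateField.algebraAdjoinAdjoin in
/-- In characteristic zero, a transcendence basis `t` of `F / K` gives the basis `d b`, `b ∈ t`,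
of `Ω[F⁄K]`. -/
theorem h69_exists_kaehler_basis [CharZero K] (t : Set F)
    (ht : IsTranscendenceBasis K ((↑) : t → F)) :
    ∃ b : Module.Basis t F Ω[F⁄K], ∀ i : t, b i = KaehlerDifferential.D K F (i : F) := by
  classical
  have hb : AlgebraicIndependent K ((↑) : t → F) := ht.1
  -- the rings
  let f1 : MvPolynomial t K →+* Algebra.adjoin K (Set.range ((↑) : t → F)) :=
    hb.aevalEquiv.toRingEquiv.toRingHom
  let f2 : Algebra.adjoin K (Set.range ((↑) : t → F)) →+* F := algebraMap _ F
  let algPK : Algebra (MvPolynomial t K) F := (f2.comp f1).toAlgebra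
  have hmap : ∀ x : MvPolynomial t K, algebraMap (MvPolynomial t K) F x =
      MvPolynomial.aeval ((↑) : t → F) x := fun x => hb.algebraMap_aevalEquiv x
  have : IsScalarTower K (MvPolynomial t K) F :=
    IsScalarTower.of_algebraMap_eq (fun q => by
      rw [hmap, MvPolynomial.algebraMap_eq, MvPolynomial.aeval_C])
  -- formally étale
  have hf1 : f1.FormallyEtale := by
    let _ : Algebra (MvPolynomial t K) (Algebra.adjoin K (Set.range ((↑) : t → F))) :=
      f1.toAlgebra
    exact Algebra.FormallyEtale.of_equiv
      (AlgEquiv.ofRingEquiv (f := hb.aevalEquiv.toRingEquiv) (fun _ => rfl))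
  have hf2 : f2.FormallyEtale := by
    rw [RingHom.formallyEtale_algebraMap]
    have : Algebra.FormallyEtale (Algebra.adjoin K (Set.range ((↑) : t → F)))
        (IntermediateField.adjoin K (Set.range ((↑) : t → F))) :=
      .of_isLocalization (nonZeroDivisors _)
    have : Algebra.IsAlgebraic (IntermediateField.adjoin K (Set.range ((↑) : t → F))) F :=
      ht.isAlgebraic_field
    have : CharZero (IntermediateField.adjoin K (Set.range ((↑) : t → F))) :=
      charZero_of_injective_algebraMap
        (algebraMap K (IntermediateField.adjoin K (Set.range ((↑) : t → F)))).injective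
    have : Algebra.FormallyEtale (IntermediateField.adjoin K (Set.range ((↑) : t → F))) F :=
      Algebra.FormallyEtale.of_isSeparable _ F
    exact .comp _ (IntermediateField.adjoin K (Set.range ((↑) : t → F))) _
  have hPK : Algebra.FormallyEtale (MvPolynomial t K) F := hf1.comp hf2
  -- the basis of `Ω[F⁄K]`
  let e := KaehlerDifferential.tensorKaehlerEquivOfFormallyEtale K (MvPolynomial t K) F
  let bK : Module.Basis t F Ω[F⁄K] :=
    ((KaehlerDifferential.mvPolynomialBasis K t).baseChange F).map e
  refine ⟨bK, fun i => ?_⟩
  have hX : algebraMap (MvPolynomial t K) F (MvPolynomial.X i) = (i : F) := by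
    rw [hmap, MvPolynomial.aeval_X]
  simp only [bK, e, Module.Basis.map_apply, Module.Basis.baseChange_apply,
    KaehlerDifferential.mvPolynomialBasis_apply,
    KaehlerDifferential.tensorKaehlerEquivOfFormallyEtale_apply,
    KaehlerDifferential.mapBaseChange_tmul, one_smul, KaehlerDifferential.map_D, hX]

/-- (B0-CHART) a curve in the sense of the Prelude has a chart (characteristic zero). -/
theorem h15_exists_chart [IsAlgClosed K] [CharZero K] [IsCurveOver K F]
    [Algebra.EssFiniteType K F] : ∃ x : F, h75_IsChart K x := by
  classical
  obtain ⟨t, ht⟩ := exists_isTranscendenceBasis K F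
  obtain ⟨b, -⟩ := h69_exists_kaehler_basis t ht
  have hrank : Module.finrank F Ω[F⁄K] = 1 := IsCurveOver.finrank_kaehler
  have hfinΩ : Module.Finite F Ω[F⁄K] :=
    Module.finite_of_finrank_pos (by rw [hrank]; exact one_pos)
  have hfin_t : Finite t := Module.Finite.finite_basis b
  have hcard : Nat.card t = 1 := by rw [← Module.finrank_eq_nat_card_basis b, hrank]
  obtain ⟨y, rfl⟩ : ∃ y : F, t = {y} := by
    obtain ⟨hsub, ⟨x⟩⟩ := Nat.card_eq_one_iff_unique.mp hcard
    refine ⟨x, ?_⟩
    ext z
    constructor
    · intro hz
      have h1 := Subsingleton.elim (⟨z, hz⟩ : t) x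
      exact congrArg Subtype.val h1
    · intro hz
      rw [Set.mem_singleton_iff] at hz
      rw [hz]
      exact x.2
  have halg : Algebra.IsAlgebraic (IntermediateField.adjoin K ({y} : Set F)) F := by
    have h1 := ht.isAlgebraic_field
    rwa [Subtype.range_coe] at h1
  have hchar : CharZero (IntermediateField.adjoin K ({y} : Set F)) :=
    charZero_of_injective_algebraMap
      (algebraMap K (IntermediateField.adjoin K ({y} : Set F))).injective
  refine ⟨y, ?_, ?_, ?_⟩
  · exact ht.1.transcendental ⟨y, rfl⟩
  · have hE : Algebra.EssFiniteType (IntermediateField.adjoin K ({y} : Set F)) F :=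
      Algebra.EssFiniteType.of_comp K (IntermediateField.adjoin K ({y} : Set F)) F
    obtain ⟨s, hs⟩ := IntermediateField.fg_top (IntermediateField.adjoin K ({y} : Set F)) F
    have h1 : FiniteDimensional (IntermediateField.adjoin K ({y} : Set F))
        (IntermediateField.adjoin (IntermediateField.adjoin K ({y} : Set F)) (s : Set F)) :=
      IntermediateField.finiteDimensional_adjoin fun z _ => (halg.isAlgebraic z).isIntegral
    rw [hs] at h1
    exact (IntermediateField.topEquiv (F := IntermediateField.adjoin K ({y} : Set F))
      (E := F)).toLinearEquiv.finiteDimensional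
  · exact Algebra.IsAlgebraic.isSeparable_of_perfectField

end Base

end Fermat.Agent.S27
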