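import Fermat.Agent.S18.RR_Chart
import Fermat.Agent.S18.RR_Approx
import Fermat.Prelude.Def_AlgebraicCurve_Repartitions

/-!
# S27 / B0b core: the adelic genus is the two-chart genus

`genusFF K F = dim_K R / (R(0) + F)` (repartitions) equals `h75_genus K x = dim_K W / (M + L)`
(`M`, `L` the functions regular on the charts `x ≠ ∞`, `x ≠ 0`, `W` those regular on the overlap).
The comparison map sends `f ∈ W` to the repartition which is `f` at the poles of `x` and `0`
elsewhere.  Its kernel modulo `R(0) + F` is `M + L`, and it is surjective by partial fractions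
on the two charts (`h75_partial_fractions`, the Chinese remainder theorem in the Dedekind domain
`h75_ringB K x`).
-/

set_option autoImplicit false

open AlgebraicCurve IntermediateField IsDedekindDomain WithZero
open Fermat.Agent.S24 (h24_mem_of_ord_nonneg)
open Fermat.Agent.S18

namespace Fermat.Agent.S27

section Dedekind

variable {R : Type*} [CommRing R] [IsDedekindDomain R]
variable {F : Type*} [Field F] [Algebra R F] [IsFractionRing R F]

/-- Partial fractions in the fraction field of a Dedekind domain: prescribed principal parts at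
finitely many primes, integrality at all other primes. -/
theorem h75_pf_dedekind (S : Finset (HeightOneSpectrum R)) (a : HeightOneSpectrum R → F) :
    ∃ h : F, (∀ w ∈ S, w.valuation F (h - a w) ≤ 1) ∧
      ∀ w : HeightOneSpectrum R, w ∉ S → w.valuation F h ≤ 1 := by
  classical
  obtain ⟨z, hz⟩ := IsLocalization.exist_integer_multiples (nonZeroDivisors R) S a
  have hz0 : (z : R) ≠ 0 := nonZeroDivisors.ne_zero z.2
  have hint : ∀ w : HeightOneSpectrum R, ∃ n : R, w ∈ S → algebraMap R F n = (z : R) • a w := by
    intro w
    by_cases hw : w ∈ S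
    · obtain ⟨n, hn⟩ := hz w hw
      exact ⟨n, fun _ => hn⟩
    · exact ⟨0, fun h => absurd h hw⟩
  choose n hn using hint
  have hzval : ∀ w : HeightOneSpectrum R,
      w.intValuation (z : R) = exp (-(((-(log (w.intValuation (z : R)))).toNat : ℕ) : ℤ)) := by
    intro w
    have hne : w.intValuation (z : R) ≠ 0 := w.intValuation_ne_zero _ hz0
    have hle : w.intValuation (z : R) ≤ 1 := w.intValuation_le_one _
    have hlog : log (w.intValuation (z : R)) ≤ 0 := by
      rw [← exp_log hne, ← exp_zero, exp_le_exp] at hle
      exact hle
    conv_lhs => rw [← exp_log hne]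
    rw [exp_inj]
    omega
  set c : HeightOneSpectrum R → ℕ := fun w => (-(log (w.intValuation (z : R)))).toNat with hc
  have hspan : (Ideal.span {(z : R)} : Ideal R) ≠ 0 := by
    rw [Ne, Ideal.zero_eq_bot, Ideal.span_singleton_eq_bot]
    exact hz0
  set T : Finset (HeightOneSpectrum R) := (Ideal.finite_factors hspan).toFinset with hT
  obtain ⟨y, hy⟩ := IsDedekindDomain.exists_forall_sub_mem_ideal (s := S ∪ T)
    (fun w : HeightOneSpectrum R => w.asIdeal) c
    (fun w _ => w.prime)
    (fun w _ w' _ hww' h => hww' (HeightOneSpectrum.ext h))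
    (fun w => if (w : HeightOneSpectrum R) ∈ S then n w else 0)
  have hzF : algebraMap R F (z : R) ≠ 0 := by
    rw [Ne, map_eq_zero_iff _ (IsFractionRing.injective R F)]
    exact hz0
  have hzpos : ∀ w : HeightOneSpectrum R, 0 < w.intValuation (z : R) := fun w =>
    zero_lt_iff.mpr (w.intValuation_ne_zero _ hz0)
  refine ⟨algebraMap R F y / algebraMap R F (z : R), fun w hw => ?_, fun w hw => ?_⟩
  · have h1 := hy w (Finset.mem_union_left T hw)
    simp only [if_pos hw] at h1
    have h2 : w.intValuation (y - n w) ≤ w.intValuation (z : R) := by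
      rw [hzval w]
      exact (w.intValuation_le_pow_iff_mem _ _).mpr h1
    have h3 : algebraMap R F y / algebraMap R F (z : R) - a w
        = algebraMap R F (y - n w) / algebraMap R F (z : R) := by
      rw [map_sub, hn w hw, Algebra.smul_def]
      field_simp
    rw [h3, map_div₀, HeightOneSpectrum.valuation_of_algebraMap,
      HeightOneSpectrum.valuation_of_algebraMap, div_le_one₀ (hzpos w)]
    exact h2
  · rw [map_div₀, HeightOneSpectrum.valuation_of_algebraMap,
      HeightOneSpectrum.valuation_of_algebraMap, div_le_one₀ (hzpos w)]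
    by_cases hwT : w ∈ T
    · have h1 := hy w (Finset.mem_union_right S hwT)
      simp only [if_neg hw, sub_zero] at h1
      rw [hzval w]
      exact (w.intValuation_le_pow_iff_mem _ _).mpr h1
    · have hnd : ¬ w.asIdeal ∣ Ideal.span {(z : R)} := by
        intro hd
        apply hwT
        rw [hT, Set.Finite.mem_toFinset]
        exact hd
      have hzw : (z : R) ∉ w.asIdeal := by
        intro hmem
        exact hnd (Ideal.dvd_span_singleton.mpr hmem)
      have h1 : w.intValuation (z : R) = 1 := by
        have hnlt : ¬ w.intValuation (z : R) < 1 := fun h =>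
          hzw ((w.intValuation_lt_one_iff_mem _).mp h)
        exact le_antisymm (w.intValuation_le_one _) (not_lt.mp hnlt)
      rw [h1]
      exact w.intValuation_le_one y

end Dedekind

section Chart

variable {K F : Type*} [Field K] [Field F] [Algebra K F]

/-- Membership in the valuation ring of a place in terms of the adic valuation. -/
theorem h75_mem_iff_adic (P : Place K F) (f : F) :
    f ∈ P.toValuationSubring ↔ P.adicValuation f ≤ 1 := by
  refine ⟨P.adicValuation_le_one_of_mem, fun h => ?_⟩
  rcases P.adicValuation_le_one_iff.mp h with rfl | h0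
  · exact zero_mem _
  · exact h24_mem_of_ord_nonneg P h0

/-- Partial fractions on a chart: prescribed principal parts at finitely many places of the
chart, no poles at the other places of the chart. -/
theorem h75_partial_fractions {x : F} (hx : h75_IsChart K x) (S : Finset (Place K F))
    (hS : ∀ P ∈ S, x ∈ P.toValuationSubring) (a : Place K F → F) :
    ∃ h : F, (∀ P ∈ S, h - a P ∈ P.toValuationSubring) ∧
      ∀ P : Place K F, x ∈ P.toValuationSubring → P ∉ S → h ∈ P.toValuationSubring := by
  classical
  have := h75_ringB_isDedekindDomain hx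
  have := h75_ringB_isFractionRing hx
  have hinj : Function.Injective
      (Place.ofHeightOneSpectrum (K := K) (F := F) (R := h75_ringB K x)) :=
    Fermat.Agent.S24.h24_ofHeightOneSpectrum_injective
  let S' : Finset (HeightOneSpectrum (h75_ringB K x)) :=
    S.preimage (Place.ofHeightOneSpectrum (K := K) (F := F) (R := h75_ringB K x)) hinj.injOn
  obtain ⟨h, hS', hT'⟩ := h75_pf_dedekind (F := F) S'
    (fun w => a (Place.ofHeightOneSpectrum (K := K) (F := F) w))
  refine ⟨h, fun P hP => ?_, fun P hPx hP => ?_⟩
  · obtain ⟨w, rfl⟩ := h75_exists_heightOneSpectrum P (hS P hP)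
    rw [Place.ofHeightOneSpectrum_toValuationSubring]
    exact (Valuation.mem_valuationSubring_iff _ _).mpr (hS' w (Finset.mem_preimage.mpr hP))
  · obtain ⟨w, rfl⟩ := h75_exists_heightOneSpectrum P hPx
    rw [Place.ofHeightOneSpectrum_toValuationSubring]
    exact (Valuation.mem_valuationSubring_iff _ _).mpr
      (hT' w (fun hw => hP (Finset.mem_preimage.mp hw)))

/-- The places outside the chart of `x` (the poles of `x`) are finite in number. -/
theorem h75_offchart_finite {x : F} (hx : h75_IsChart K x) :
    {P : Place K F | x ∉ P.toValuationSubring}.Finite := by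
  refine (h75_finite_ord_ne hx x hx.ne_zero).subset fun P hP h0 => hP ?_
  exact h24_mem_of_ord_nonneg P (le_of_eq h0.symm)

/-- Every repartition has finitely many poles. -/
theorem h75_repart_finite {x : F} (hx : h75_IsChart K x) (α : ↥(repartitions K F)) :
    {P : Place K F | ¬ P.adicValuation ((α : Place K F → F) P) ≤ 1}.Finite := by
  obtain ⟨α, hα⟩ := α
  show {P : Place K F | ¬ P.adicValuation (α P) ≤ 1}.Finite
  induction hα using Algebra.adjoin_induction with
  | mem β hβ => exact hβ
  | algebraMap f =>
    rcases eq_or_ne f 0 with rfl | hf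
    · refine Set.finite_empty.subset fun P hP => hP ?_
      simp
    · refine (h75_finite_ord_ne hx f hf).subset fun P hP h0 => hP ?_
      show P.adicValuation f ≤ 1
      exact P.adicValuation_le_one_iff.mpr (Or.inr (le_of_eq h0.symm))
  | add β γ _ _ hβ hγ =>
    refine (hβ.union hγ).subset fun P hP => ?_
    by_contra hcon
    rw [Set.mem_union, not_or] at hcon
    apply hP
    have h1 : P.adicValuation (β P) ≤ 1 := not_not.mp hcon.1
    have h2 : P.adicValuation (γ P) ≤ 1 := not_not.mp hcon.2
    exact (Valuation.map_add _ _ _).trans (max_le h1 h2)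
  | mul β γ _ _ hβ hγ =>
    refine (hβ.union hγ).subset fun P hP => ?_
    by_contra hcon
    rw [Set.mem_union, not_or] at hcon
    apply hP
    have h1 : P.adicValuation (β P) ≤ 1 := not_not.mp hcon.1
    have h2 : P.adicValuation (γ P) ≤ 1 := not_not.mp hcon.2
    show P.adicValuation (β P * γ P) ≤ 1
    rw [map_mul]
    exact mul_le_one' h1 h2

open Classical in
/-- The repartition which is `f` at the poles of `x` and `0` on the chart of `x`. -/
noncomputable def h75_tail (K : Type*) {F : Type*} [Field K] [Field F] [Algebra K F] (x f : F) :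
    Place K F → F :=
  fun P => if x ∈ P.toValuationSubring then 0 else f

theorem h75_tail_of_mem {x : F} (f : F) {P : Place K F} (hP : x ∈ P.toValuationSubring) :
    h75_tail K x f P = 0 := by
  simp [h75_tail, hP]

theorem h75_tail_of_not_mem {x : F} (f : F) {P : Place K F} (hP : x ∉ P.toValuationSubring) :
    h75_tail K x f P = f := by
  simp [h75_tail, hP]

theorem h75_tail_mem {x : F} (hx : h75_IsChart K x) (f : F) :
    h75_tail K x f ∈ repartitions K F := by
  refine mem_repartitions_of_finite ((h75_offchart_finite hx).subset fun P hP hPx => hP ?_)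
  rw [h75_tail_of_mem f hPx]
  simp

/-- `f ↦ h75_tail K x f` as a `K`-linear map into the repartitions. -/
noncomputable def h75_tailMap {x : F} (hx : h75_IsChart K x) : F →ₗ[K] ↥(repartitions K F) where
  toFun f := ⟨h75_tail K x f, h75_tail_mem hx f⟩
  map_add' f g := by
    apply Subtype.ext
    funext P
    by_cases hP : x ∈ P.toValuationSubring
    · simp [h75_tail, hP]
    · simp [h75_tail, hP]
  map_smul' c f := by
    apply Subtype.ext
    funext P
    by_cases hP : x ∈ P.toValuationSubring
    · simp [h75_tail, hP]
    · simp [h75_tail, hP]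

theorem h75_tailMap_apply {x : F} (hx : h75_IsChart K x) (f : F) (P : Place K F) :
    ((h75_tailMap hx f : ↥(repartitions K F)) : Place K F → F) P = h75_tail K x f P := rfl

/-- The kernel of the comparison map: for `f` regular on the overlap of the two charts, the
repartition `h75_tail K x f` lies in `R(0) + F` iff `f` is a sum of functions regular on the two
charts. -/
theorem h75_tail_mem_iff {x : F} (hx : h75_IsChart K x) {f : F}
    (hf : f ∈ h75_overlap x (0 : Divisor K F)) :
    h75_tailMap hx f ∈ repartitionsOf (0 : Divisor K F) ⊔ principalRepartitions K F ↔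
      f ∈ h75_chart x (0 : Divisor K F) ⊔ h75_chart x⁻¹ (0 : Divisor K F) := by
  constructor
  · intro hmem
    obtain ⟨β, hβ, γ, hγ, hsum⟩ := Submodule.mem_sup.mp hmem
    obtain ⟨h, hh⟩ := mem_principalRepartitions_iff.mp hγ
    have hP : ∀ P : Place K F, (β : Place K F → F) P + h = h75_tail K x f P := by
      intro P
      have h1 := congrArg (fun α : ↥(repartitions K F) => (α : Place K F → F) P) hsum
      simp only [h75_tailMap_apply] at h1
      rw [← h1]
      show (β : Place K F → F) P + h = (β : Place K F → F) P + (γ : Place K F → F) P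
      rw [hh]
    have hβ' : ∀ P : Place K F, P.adicValuation ((β : Place K F → F) P) ≤ 1 := by
      intro P
      have := hβ P
      simpa using this
    -- `h` is regular on the chart of `x`
    have hhM : ∀ P : Place K F, x ∈ P.toValuationSubring → P.adicValuation h ≤ 1 := by
      intro P hPx
      have h1 := hP P
      rw [h75_tail_of_mem f hPx] at h1
      have h2 : h = -((β : Place K F → F) P) := by linear_combination h1
      rw [h2, Valuation.map_neg]
      exact hβ' P
    have hM : h ∈ h75_chart x (0 : Divisor K F) := by
      intro P hPx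
      simpa using hhM P hPx
    have hL : f - h ∈ h75_chart x⁻¹ (0 : Divisor K F) := by
      intro P hPx'
      show P.adicValuation (f - h) ≤ exp ((0 : Divisor K F) P)
      have h0 : exp ((0 : Divisor K F) P) = 1 := by simp
      rw [h0]
      by_cases hPx : x ∈ P.toValuationSubring
      · have h1 : P.adicValuation f ≤ 1 := by
          have := hf P hPx hPx'
          simpa using this
        exact (Valuation.map_sub _ _ _).trans (max_le h1 (hhM P hPx))
      · have h1 := hP P
        rw [h75_tail_of_not_mem f hPx] at h1
        have h2 : f - h = (β : Place K F → F) P := by linear_combination -h1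
        rw [h2]
        exact hβ' P
    have : f = h + (f - h) := by ring
    rw [this]
    exact Submodule.add_mem_sup hM hL
  · intro hmem
    obtain ⟨m, hm, l, hl, rfl⟩ := Submodule.mem_sup.mp hmem
    rw [map_add]
    refine Submodule.add_mem _ ?_ ?_
    · -- `m` regular on the chart of `x`: `tail m = m - β` with `β ∈ R(0)`
      have hβ : algebraMap F ↥(repartitions K F) m - h75_tailMap hx m
          ∈ repartitionsOf (0 : Divisor K F) := by
        intro P
        show P.adicValuation (m - h75_tail K x m P) ≤ exp ((0 : Divisor K F) P)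
        have h0 : exp ((0 : Divisor K F) P) = 1 := by simp
        rw [h0]
        by_cases hPx : x ∈ P.toValuationSubring
        · rw [h75_tail_of_mem m hPx, sub_zero]
          have := hm P hPx
          simpa using this
        · rw [h75_tail_of_not_mem m hPx, sub_self]
          simp
      have hγ : algebraMap F ↥(repartitions K F) m ∈ principalRepartitions K F :=
        mem_principalRepartitions_iff.mpr ⟨m, rfl⟩
      have : h75_tailMap hx m = -(algebraMap F ↥(repartitions K F) m - h75_tailMap hx m)
          + algebraMap F ↥(repartitions K F) m := by abel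
      rw [this]
      exact Submodule.add_mem_sup (Submodule.neg_mem _ hβ) hγ
    · -- `l` regular on the chart of `x⁻¹`: `tail l ∈ R(0)`
      refine Submodule.mem_sup_left ?_
      intro P
      show P.adicValuation (h75_tail K x l P) ≤ exp ((0 : Divisor K F) P)
      by_cases hPx : x ∈ P.toValuationSubring
      · rw [h75_tail_of_mem l hPx]
        simp
      · rw [h75_tail_of_not_mem l hPx]
        exact hl P ((P.toValuationSubring.mem_or_inv_mem x).resolve_left hPx)

/-- Surjectivity of the comparison map: every repartition is, modulo `R(0) + F`, of the form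
`h75_tail K x f` with `f` regular on the overlap of the two charts. -/
theorem h75_tail_surj {x : F} (hx : h75_IsChart K x) (α : ↥(repartitions K F)) :
    ∃ f ∈ h75_overlap x (0 : Divisor K F),
      α - h75_tailMap hx f ∈ repartitionsOf (0 : Divisor K F) ⊔ principalRepartitions K F := by
  classical
  -- step 1: kill the poles of `α` on the chart of `x`
  let S₁ : Finset (Place K F) :=
    (h75_repart_finite hx α).toFinset.filter fun P => x ∈ P.toValuationSubring
  obtain ⟨h, hh1, hh2⟩ := h75_partial_fractions hx S₁
    (fun P hP => (Finset.mem_filter.mp hP).2) (fun P => (α : Place K F → F) P)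
  have hU : ∀ P : Place K F, x ∈ P.toValuationSubring →
      (α : Place K F → F) P - h ∈ P.toValuationSubring := by
    intro P hPx
    by_cases hP : P ∈ S₁
    · have := neg_mem (hh1 P hP)
      rwa [neg_sub] at this
    · have h1 : (α : Place K F → F) P ∈ P.toValuationSubring := by
        rw [h75_mem_iff_adic]
        by_contra hcon
        exact hP (Finset.mem_filter.mpr ⟨(Set.Finite.mem_toFinset _).mpr hcon, hPx⟩)
      exact sub_mem h1 (hh2 P hPx hP)
  -- step 2: kill the remaining poles at the poles of `x`
  let S₂ : Finset (Place K F) := (h75_offchart_finite hx).toFinset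
  have hS₂ : ∀ P : Place K F, P ∈ S₂ ↔ x ∉ P.toValuationSubring := fun P =>
    Set.Finite.mem_toFinset _
  obtain ⟨f, hf1, hf2⟩ := h75_partial_fractions (h75_isChart_inv hx) S₂
    (fun P hP => (P.toValuationSubring.mem_or_inv_mem x).resolve_left ((hS₂ P).mp hP))
    (fun P => (α : Place K F → F) P - h)
  refine ⟨f, ?_, ?_⟩
  · intro P hPx hPx'
    show P.adicValuation f ≤ exp ((0 : Divisor K F) P)
    have h0 : exp ((0 : Divisor K F) P) = 1 := by simp
    rw [h0, ← h75_mem_iff_adic]
    exact hf2 P hPx' (fun hP => (hS₂ P).mp hP hPx)
  · have hβ : α - h75_tailMap hx f - algebraMap F ↥(repartitions K F) h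
        ∈ repartitionsOf (0 : Divisor K F) := by
      intro P
      show P.adicValuation ((α : Place K F → F) P - h75_tail K x f P - h)
        ≤ exp ((0 : Divisor K F) P)
      have h0 : exp ((0 : Divisor K F) P) = 1 := by simp
      rw [h0, ← h75_mem_iff_adic]
      by_cases hPx : x ∈ P.toValuationSubring
      · rw [h75_tail_of_mem f hPx, sub_zero]
        exact hU P hPx
      · rw [h75_tail_of_not_mem f hPx]
        have := neg_mem (hf1 P ((hS₂ P).mpr hPx))
        have h2 : -(f - ((α : Place K F → F) P - h)) = (α : Place K F → F) P - f - h := by ring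
        rwa [h2] at this
    have hγ : algebraMap F ↥(repartitions K F) h ∈ principalRepartitions K F :=
      mem_principalRepartitions_iff.mpr ⟨h, rfl⟩
    have : α - h75_tailMap hx f = (α - h75_tailMap hx f - algebraMap F ↥(repartitions K F) h)
        + algebraMap F ↥(repartitions K F) h := by abel
    rw [this]
    exact Submodule.add_mem_sup hβ hγ

/-- **The adelic genus is the two-chart genus.** -/
theorem h75_genusFF_eq {x : F} (hx : h75_IsChart K x) : genusFF K F = h75_genus K x := by
  let N : Submodule K ↥(repartitions K F) :=
    repartitionsOf (0 : Divisor K F) ⊔ principalRepartitions K F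
  let M : Submodule K F := h75_chart x (0 : Divisor K F) ⊔ h75_chart x⁻¹ (0 : Divisor K F)
  let W : Submodule K F := h75_overlap x (0 : Divisor K F)
  let ψ : ↥W →ₗ[K] (↥(repartitions K F) ⧸ N) := N.mkQ ∘ₗ h75_tailMap hx ∘ₗ W.subtype
  let g : ↥W →ₗ[K] (F ⧸ M) := M.mkQ ∘ₗ W.subtype
  have hker : LinearMap.ker ψ = LinearMap.ker g := by
    ext f
    rw [LinearMap.mem_ker, LinearMap.mem_ker]
    show N.mkQ (h75_tailMap hx (f : F)) = 0 ↔ M.mkQ (f : F) = 0
    rw [Submodule.mkQ_apply, Submodule.mkQ_apply, Submodule.Quotient.mk_eq_zero,
      Submodule.Quotient.mk_eq_zero]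
    exact h75_tail_mem_iff hx f.2
  have hsurj : Function.Surjective ψ := by
    intro q
    obtain ⟨α, rfl⟩ := N.mkQ_surjective q
    obtain ⟨f, hf, hfα⟩ := h75_tail_surj hx α
    refine ⟨⟨f, hf⟩, ?_⟩
    show N.mkQ (h75_tailMap hx f) = N.mkQ α
    rw [Submodule.mkQ_apply, Submodule.mkQ_apply]
    exact ((Submodule.Quotient.eq N).mpr hfα).symm
  have hrange : LinearMap.range g = W.map M.mkQ := by
    rw [LinearMap.range_comp, Submodule.range_subtype]
  have e1 : (↥W ⧸ LinearMap.ker ψ) ≃ₗ[K] (↥(repartitions K F) ⧸ N) :=
    ψ.quotKerEquivOfSurjective hsurj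
  have e2 : (↥W ⧸ LinearMap.ker g) ≃ₗ[K] ↥(LinearMap.range g) := g.quotKerEquivRange
  show Module.finrank K (↥(repartitions K F) ⧸ N) = Module.finrank K ↥(W.map M.mkQ)
  rw [← e1.finrank_eq, hker, e2.finrank_eq, hrange]

end Chart

end Fermat.Agent.S27
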