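/-
S27 row 478 (B0b BASE-GENUS): the adelic genus of the Prelude is the two-chart genus of RR-B.
Adapter (helper32) over helper75's direct Čech = adelic comparison `h75_genusFF_eq`
(Fermat/Agent/S27/h75_CechAdelic.lean); statement verbatim from the S27 skeleton.
-/
import Fermat.Agent.S27.h75_CechAdelic

set_option autoImplicit false

open AlgebraicCurve Fermat.Agent.S18

namespace Fermat.Agent.S27

variable {K : Type*} {F : Type*} [Field K] [Field F] [Algebra K F]

set_option linter.unusedSectionVars false in
/-- (B0-GENUS) the adelic genus of the Prelude is the two-chart genus of RR-B. -/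
theorem h15_genusFF_eq [IsAlgClosed K] {x : F} (hx : h75_IsChart K x) :
    genusFF K F = h75_genus K x :=
  h75_genusFF_eq hx

end Fermat.Agent.S27
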