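import Mathlib

/-!
# S27, block B5 LIFT: two-variable substitution (definitions and polynomial calculus)

Home of `h15_sub2`, `h15_dX`, `h15_ev2` (row 483 B5b TRUNC, helper69).  Mathlib only.

For `H ∈ R[X][Y]` (outer variable `Y`):
* `h15_sub2 H ξ θ = H(ξ + u, θ(u)) ∈ R[u]`;
* `h15_dX H = ∂H/∂X`;
* `h15_ev2 x y H = H(x, y)` in a field extension.

Calculus: `h15_sub2 · ξ θ` and `h15_ev2 x y` are ring homomorphisms (`h69_sub2Hom`,
`h69_ev2Hom`), Taylor expansion in `Y` (`h69_sub2_taylor`), chain rule (`h69_derivative_sub2`),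
naturality (`h69_sub2_map`, `h69_dX_map`), value at `u = 0` (`h69_sub2_eval_zero`), and
`H(x, θ(x - ξ)) = (h15_sub2 H ξ θ)(x - ξ)` (`h69_ev2_aeval`).
-/

set_option autoImplicit false

noncomputable section

open Polynomial

namespace Fermat.Agent.S27

/-- `H(ξ + u, θ(u)) ∈ R[u]` for `H ∈ R[X][Y]` (outer variable `Y`). -/
def h15_sub2 {R : Type*} [CommRing R] (H : Polynomial (Polynomial R)) (ξ : R) (θ : Polynomial R) :
    Polynomial R :=
  (H.map (Polynomial.compRingHom (X + C ξ))).eval θ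

/-- the partial derivative with respect to the inner variable `X` of `H ∈ R[X][Y]`. -/
def h15_dX {R : Type*} [CommRing R] (H : Polynomial (Polynomial R)) : Polynomial (Polynomial R) :=
  H.sum fun i c => Polynomial.monomial i (derivative c)

/-- `H(x, y) ∈ F` for `H ∈ K[X][Y]`. -/
def h15_ev2 {K F : Type*} [Field K] [Field F] [Algebra K F] (x y : F)
    (H : Polynomial (Polynomial K)) : F :=
  Polynomial.eval₂ ((aeval x : K[X] →ₐ[K] F) : K[X] →+* F) y H

section Sub2

variable {R : Type*} [CommRing R]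

/-- `h15_sub2 · ξ θ` as a ring homomorphism. -/
def h69_sub2Hom (ξ : R) (θ : R[X]) : Polynomial (Polynomial R) →+* R[X] :=
  Polynomial.eval₂RingHom (Polynomial.compRingHom (X + C ξ)) θ

theorem h69_sub2_eq (H : Polynomial (Polynomial R)) (ξ : R) (θ : R[X]) :
    h15_sub2 H ξ θ = h69_sub2Hom ξ θ H := by
  unfold h15_sub2 h69_sub2Hom
  rw [Polynomial.eval_map]
  rfl

theorem h69_sub2_zero (ξ : R) (θ : R[X]) : h15_sub2 (0 : Polynomial (Polynomial R)) ξ θ = 0 := by
  rw [h69_sub2_eq, map_zero]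

theorem h69_sub2_one (ξ : R) (θ : R[X]) : h15_sub2 (1 : Polynomial (Polynomial R)) ξ θ = 1 := by
  rw [h69_sub2_eq, map_one]

theorem h69_sub2_add (H G : Polynomial (Polynomial R)) (ξ : R) (θ : R[X]) :
    h15_sub2 (H + G) ξ θ = h15_sub2 H ξ θ + h15_sub2 G ξ θ := by
  simp only [h69_sub2_eq, map_add]

theorem h69_sub2_sub (H G : Polynomial (Polynomial R)) (ξ : R) (θ : R[X]) :
    h15_sub2 (H - G) ξ θ = h15_sub2 H ξ θ - h15_sub2 G ξ θ := by
  simp only [h69_sub2_eq, map_sub]

theorem h69_sub2_neg (H : Polynomial (Polynomial R)) (ξ : R) (θ : R[X]) :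
    h15_sub2 (-H) ξ θ = -h15_sub2 H ξ θ := by
  simp only [h69_sub2_eq, map_neg]

theorem h69_sub2_mul (H G : Polynomial (Polynomial R)) (ξ : R) (θ : R[X]) :
    h15_sub2 (H * G) ξ θ = h15_sub2 H ξ θ * h15_sub2 G ξ θ := by
  simp only [h69_sub2_eq, map_mul]

theorem h69_sub2_pow (H : Polynomial (Polynomial R)) (n : ℕ) (ξ : R) (θ : R[X]) :
    h15_sub2 (H ^ n) ξ θ = h15_sub2 H ξ θ ^ n := by
  simp only [h69_sub2_eq, map_pow]

theorem h69_sub2_sum {ι : Type*} (s : Finset ι) (H : ι → Polynomial (Polynomial R)) (ξ : R)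
    (θ : R[X]) : h15_sub2 (∑ i ∈ s, H i) ξ θ = ∑ i ∈ s, h15_sub2 (H i) ξ θ := by
  simp only [h69_sub2_eq, map_sum]

/-- constants in `Y`: `c(X) ↦ c(ξ + u)`. -/
theorem h69_sub2_C (c : R[X]) (ξ : R) (θ : R[X]) :
    h15_sub2 (C c) ξ θ = c.comp (X + C ξ) := by
  rw [h69_sub2_eq]
  show Polynomial.eval₂ (Polynomial.compRingHom (X + C ξ)) θ (C c) = _
  rw [Polynomial.eval₂_C]
  rfl

theorem h69_sub2_C_C (a : R) (ξ : R) (θ : R[X]) :
    h15_sub2 (C (C a)) ξ θ = C a := by
  rw [h69_sub2_C, Polynomial.C_comp]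

/-- the variable `Y ↦ θ`. -/
theorem h69_sub2_X (ξ : R) (θ : R[X]) :
    h15_sub2 (X : Polynomial (Polynomial R)) ξ θ = θ := by
  rw [h69_sub2_eq]
  show Polynomial.eval₂ (Polynomial.compRingHom (X + C ξ)) θ X = _
  rw [Polynomial.eval₂_X]

theorem h69_sub2_monomial (j : ℕ) (c : R[X]) (ξ : R) (θ : R[X]) :
    h15_sub2 (monomial j c) ξ θ = c.comp (X + C ξ) * θ ^ j := by
  rw [← Polynomial.C_mul_X_pow_eq_monomial, h69_sub2_mul, h69_sub2_pow, h69_sub2_C, h69_sub2_X]

/-- **(b) Taylor expansion in `Y`.** -/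
theorem h69_sub2_taylor (H : Polynomial (Polynomial R)) (ξ : R) (θ ω : R[X]) :
    ∃ k : R[X], h15_sub2 H ξ (θ + ω) =
      h15_sub2 H ξ θ + h15_sub2 (derivative H) ξ θ * ω + k * ω ^ 2 := by
  obtain ⟨k, hk⟩ := Polynomial.binomExpansion (H.map (Polynomial.compRingHom (X + C ξ))) θ ω
  refine ⟨k, ?_⟩
  unfold h15_sub2
  rw [hk, Polynomial.derivative_map]

/-- `∂/∂X` is additive. -/
theorem h69_dX_add (H G : Polynomial (Polynomial R)) : h15_dX (H + G) = h15_dX H + h15_dX G := by
  unfold h15_dX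
  exact Polynomial.sum_add_index H G _ (fun i => by simp) (fun i a b => by simp)

theorem h69_dX_monomial (j : ℕ) (c : R[X]) : h15_dX (monomial j c) = monomial j (derivative c) := by
  unfold h15_dX
  exact Polynomial.sum_monomial_index c _ (by simp)

theorem h69_dX_zero : h15_dX (0 : Polynomial (Polynomial R)) = 0 := by
  unfold h15_dX
  exact Polynomial.sum_zero_index _

/-- **(c) Chain rule.** -/
theorem h69_derivative_sub2 (H : Polynomial (Polynomial R)) (ξ : R) (θ : R[X]) :
    derivative (h15_sub2 H ξ θ) =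
      h15_sub2 (h15_dX H) ξ θ + derivative θ * h15_sub2 (derivative H) ξ θ := by
  induction H using Polynomial.induction_on' with
  | add p q hp hq =>
    rw [h69_sub2_add, derivative_add, hp, hq, h69_dX_add, h69_sub2_add, derivative_add,
      h69_sub2_add]
    ring
  | monomial j c =>
    rw [h69_sub2_monomial, h69_dX_monomial, h69_sub2_monomial, Polynomial.derivative_monomial,
      h69_sub2_monomial, derivative_mul, Polynomial.derivative_comp, derivative_pow]
    have h1 : derivative (X + C ξ : R[X]) = 1 := by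
      rw [derivative_add, derivative_X, derivative_C, add_zero]
    have h2 : (c * ((j : ℕ) : R[X])).comp (X + C ξ) = c.comp (X + C ξ) * (j : R[X]) := by
      rw [Polynomial.mul_comp, Polynomial.natCast_comp]
    rw [h1, h2, Polynomial.C_eq_natCast]
    ring

/-- **(d) Naturality of `h15_sub2`.** -/
theorem h69_sub2_map {S : Type*} [CommRing S] (φ : R →+* S) (H : Polynomial (Polynomial R))
    (ξ : R) (θ : R[X]) :
    (h15_sub2 H ξ θ).map φ = h15_sub2 (H.map (Polynomial.mapRingHom φ)) (φ ξ) (θ.map φ) := by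
  induction H using Polynomial.induction_on' with
  | add p q hp hq =>
    rw [h69_sub2_add, Polynomial.map_add, hp, hq, Polynomial.map_add, h69_sub2_add]
  | monomial j c =>
    rw [h69_sub2_monomial, Polynomial.map_monomial, h69_sub2_monomial, Polynomial.map_mul,
      Polynomial.map_pow, Polynomial.map_comp, Polynomial.map_add, Polynomial.map_X,
      Polynomial.map_C]
    rfl

/-- **(d) Naturality of `∂/∂X`.** -/
theorem h69_dX_map {S : Type*} [CommRing S] (φ : R →+* S) (H : Polynomial (Polynomial R)) :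
    (h15_dX H).map (Polynomial.mapRingHom φ) = h15_dX (H.map (Polynomial.mapRingHom φ)) := by
  induction H using Polynomial.induction_on' with
  | add p q hp hq =>
    rw [h69_dX_add, Polynomial.map_add, hp, hq, Polynomial.map_add, h69_dX_add]
  | monomial j c =>
    rw [h69_dX_monomial, Polynomial.map_monomial, Polynomial.map_monomial, h69_dX_monomial]
    congr 1
    exact (Polynomial.derivative_map c φ).symm

/-- The value at `u = 0` of `H(ξ + u, θ(u))` is `H(ξ, θ(0))`. -/
theorem h69_sub2_eval_zero (H : Polynomial (Polynomial R)) (ξ : R) (θ : R[X]) :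
    (h15_sub2 H ξ θ).eval 0 = (H.eval (C (θ.eval 0))).eval ξ := by
  induction H using Polynomial.induction_on' with
  | add p q hp hq =>
    rw [h69_sub2_add, eval_add, hp, hq, eval_add, eval_add]
  | monomial j c =>
    rw [h69_sub2_monomial, eval_mul, eval_pow, eval_comp, eval_add, eval_X, eval_C, zero_add,
      eval_monomial, eval_mul, eval_pow, eval_C]

theorem h69_sub2_coeff_zero (H : Polynomial (Polynomial R)) (ξ : R) (θ : R[X]) :
    (h15_sub2 H ξ θ).coeff 0 = (H.eval (C (θ.coeff 0))).eval ξ := by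
  rw [Polynomial.coeff_zero_eq_eval_zero, h69_sub2_eval_zero, Polynomial.coeff_zero_eq_eval_zero]

end Sub2

section Ev2

variable {K F : Type*} [Field K] [Field F] [Algebra K F]

/-- `h15_ev2 x y` as a ring homomorphism. -/
def h69_ev2Hom (x y : F) : Polynomial (Polynomial K) →+* F :=
  Polynomial.eval₂RingHom ((aeval x : K[X] →ₐ[K] F) : K[X] →+* F) y

theorem h69_ev2_eq (x y : F) (H : Polynomial (Polynomial K)) :
    h15_ev2 x y H = h69_ev2Hom (K := K) x y H := rfl

theorem h69_ev2_zero (x y : F) : h15_ev2 x y (0 : Polynomial (Polynomial K)) = 0 := by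
  rw [h69_ev2_eq, map_zero]

theorem h69_ev2_one (x y : F) : h15_ev2 x y (1 : Polynomial (Polynomial K)) = 1 := by
  rw [h69_ev2_eq, map_one]

theorem h69_ev2_add (x y : F) (H G : Polynomial (Polynomial K)) :
    h15_ev2 x y (H + G) = h15_ev2 x y H + h15_ev2 x y G := by
  simp only [h69_ev2_eq, map_add]

theorem h69_ev2_sub (x y : F) (H G : Polynomial (Polynomial K)) :
    h15_ev2 x y (H - G) = h15_ev2 x y H - h15_ev2 x y G := by
  simp only [h69_ev2_eq, map_sub]

theorem h69_ev2_neg (x y : F) (H : Polynomial (Polynomial K)) :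
    h15_ev2 x y (-H) = -h15_ev2 x y H := by
  simp only [h69_ev2_eq, map_neg]

theorem h69_ev2_mul (x y : F) (H G : Polynomial (Polynomial K)) :
    h15_ev2 x y (H * G) = h15_ev2 x y H * h15_ev2 x y G := by
  simp only [h69_ev2_eq, map_mul]

theorem h69_ev2_pow (x y : F) (H : Polynomial (Polynomial K)) (n : ℕ) :
    h15_ev2 x y (H ^ n) = h15_ev2 x y H ^ n := by
  simp only [h69_ev2_eq, map_pow]

theorem h69_ev2_sum {ι : Type*} (s : Finset ι) (x y : F) (H : ι → Polynomial (Polynomial K)) :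
    h15_ev2 x y (∑ i ∈ s, H i) = ∑ i ∈ s, h15_ev2 x y (H i) := by
  simp only [h69_ev2_eq, map_sum]

theorem h69_ev2_C (x y : F) (c : K[X]) : h15_ev2 x y (C c) = aeval x c := by
  unfold h15_ev2
  rw [Polynomial.eval₂_C]
  rfl

theorem h69_ev2_C_C (x y : F) (a : K) : h15_ev2 x y (C (C a)) = algebraMap K F a := by
  rw [h69_ev2_C, aeval_C]

theorem h69_ev2_X (x y : F) : h15_ev2 x y (X : Polynomial (Polynomial K)) = y := by
  unfold h15_ev2
  rw [Polynomial.eval₂_X]

theorem h69_ev2_monomial (x y : F) (j : ℕ) (c : K[X]) :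
    h15_ev2 x y (monomial j c) = aeval x c * y ^ j := by
  rw [← Polynomial.C_mul_X_pow_eq_monomial, h69_ev2_mul, h69_ev2_pow, h69_ev2_C, h69_ev2_X]

/-- **(a)** `H(x, θ(x - ξ)) = (H(ξ + u, θ(u)))(x - ξ)`. -/
theorem h69_ev2_aeval (x : F) (ξ : K) (θ : K[X]) (H : Polynomial (Polynomial K)) :
    h15_ev2 x (aeval (x - algebraMap K F ξ) θ) H =
      aeval (x - algebraMap K F ξ) (h15_sub2 H ξ θ) := by
  induction H using Polynomial.induction_on' with
  | add p q hp hq =>
    rw [h69_ev2_add, hp, hq, h69_sub2_add, map_add]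
  | monomial j c =>
    rw [h69_ev2_monomial, h69_sub2_monomial, map_mul, map_pow, Polynomial.aeval_comp, map_add,
      aeval_X, aeval_C, sub_add_cancel]

/-- Taylor expansion in `Y` for `h15_ev2` (two-term form with an explicit remainder in the
subring generated by the data is `h69_ev2_taylor_mem` in `Trunc.lean`). -/
theorem h69_ev2_taylor (x a w : F) (H : Polynomial (Polynomial K)) :
    ∃ k : F, h15_ev2 x (a + w) H =
      h15_ev2 x a H + h15_ev2 x a (derivative H) * w + k * w ^ 2 := by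
  obtain ⟨k, hk⟩ := Polynomial.binomExpansion
    (H.map ((aeval x : K[X] →ₐ[K] F) : K[X] →+* F)) a w
  refine ⟨k, ?_⟩
  unfold h15_ev2
  rw [← Polynomial.eval_map, hk, Polynomial.derivative_map, Polynomial.eval_map,
    Polynomial.eval_map]

end Ev2

end Fermat.Agent.S27

end
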