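import Mathlib
import Fermat.Agent.S18.Defs
import Fermat.Agent.S18.h39_GRDefs
import Fermat.Agent.S27.TruncDefs

/-!
# S27, block B5 LIFT, row B5e COORD: the plane-model predicate

`h2_Model R x y Φ`: `y ∈ O` is regular on the chart `x`, `Φ ∈ A[X][Y]` is monic in `Y` of degree
`n = [F : K(x)]` with `Φ(x, y) = 0`, the powers `1, y, …, y^(n-1)` are a `K(x)`-basis of `F`
which is orthonormal for `O`, and their reductions are a `k(x̄)`-basis of `Fb`.
-/

set_option autoImplicit false

noncomputable section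

open AlgebraicCurve Fermat.Agent.S18 Polynomial IntermediateField

namespace Fermat.Agent.S27

variable {K F k Fb : Type*} [Field K] [Field F] [Algebra K F] [Field k] [Field Fb] [Algebra k Fb]

/-- A plane model `(x, y, Φ)` of the function field adapted to the reduction datum `R`. -/
structure h2_Model (R : h39_RedDatum K F k Fb) (x y : F) (Φ : Polynomial (Polynomial R.A)) :
    Prop where
  memO : y ∈ R.O
  reg : h39_Reg K x y
  monic : Φ.Monic
  natDegree_eq : Φ.natDegree = Module.finrank K⟮x⟯ F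
  root : h15_ev2 x y (Φ.map (Polynomial.mapRingHom R.A.subtype)) = 0
  li : LinearIndependent K⟮x⟯ (fun i : Fin (Module.finrank K⟮x⟯ F) => y ^ (i : ℕ))
  li_red : LinearIndependent k⟮R.redF x⟯
    (fun i : Fin (Module.finrank K⟮x⟯ F) => R.redF y ^ (i : ℕ))
  on : ∀ c : Fin (Module.finrank K⟮x⟯ F) → K⟮x⟯,
    ∑ i, (c i : F) * y ^ (i : ℕ) ∈ R.O → ∀ i, (c i : F) ∈ R.O

end Fermat.Agent.S27

end
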