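import Mathlib
import Fermat.Agent.S18.Defs
import Fermat.Agent.S18.h39_GRDefs
import Fermat.Agent.S18.GR_Norm
import Fermat.Agent.S18.GR_Gauss
import Fermat.Agent.S18.GR_RedAPI
import Fermat.Agent.S18.GR_Integral
import Fermat.Agent.S27.TruncDefs
import Fermat.Agent.S27.h2_CoordDefs

/-!
# S27, block B5 LIFT, row B5e-CO3b DENOM (core, helper23)

`h23_model_denom_of`: the statement of `h2_model_denom` with the two instances of row CO3a
(`h2_discr_denom` for `(K, F, x, y)` and for `(k, Fb, x̄, ȳ)`) as explicit hypotheses.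
-/

set_option autoImplicit false

noncomputable section

open AlgebraicCurve Fermat.Agent.S18 Polynomial IntermediateField

namespace Fermat.Agent.S27

/-- A monic polynomial of degree `n` with root `y` is the minimal polynomial of `y` as soon as
`1, y, …, y^(n-1)` are linearly independent. -/
theorem h23_minpoly_eq_of_li {E L : Type*} [Field E] [Field L] [Algebra E L] (y : L) (n : ℕ)
    (hli : LinearIndependent E (fun i : Fin n => y ^ (i : ℕ)))
    (P : E[X]) (hP : P.Monic) (hdeg : P.natDegree = n) (hroot : aeval y P = 0) :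
    minpoly E y = P := by
  have hint : IsIntegral E y := ⟨P, hP, by rwa [← aeval_def]⟩
  have hdvd : minpoly E y ∣ P := minpoly.dvd E y hroot
  have hmon : (minpoly E y).Monic := minpoly.monic hint
  refine (Polynomial.eq_of_monic_of_dvd_of_natDegree_le hmon hP hdvd ?_).symm
  rw [hdeg]
  by_contra hlt
  rw [not_le] at hlt
  have h0 : aeval y (minpoly E y) = 0 := minpoly.aeval E y
  rw [Polynomial.aeval_eq_sum_range' hlt] at h0
  rw [← Fin.sum_univ_eq_sum_range (fun i => (minpoly E y).coeff i • y ^ i) n] at h0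
  have h1 := Fintype.linearIndependent_iff.mp hli (fun i => (minpoly E y).coeff (i : ℕ)) h0
    ⟨(minpoly E y).natDegree, hlt⟩
  have h2 : (minpoly E y).coeff (minpoly E y).natDegree = 1 := hmon.coeff_natDegree
  rw [h2] at h1
  exact one_ne_zero h1

/-- a polynomial with coefficients in a valuation subring lifts -/
theorem h23_exists_lift {K : Type*} [Field K] (A : ValuationSubring K) (p : K[X])
    (hp : ∀ i, p.coeff i ∈ A) : ∃ q : Polynomial A, q.map A.subtype = p := by
  have hpl : p ∈ Polynomial.lifts A.subtype := by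
    rw [Polynomial.lifts_iff_coeff_lifts]
    intro i
    exact ⟨⟨p.coeff i, hp i⟩, rfl⟩
  obtain ⟨q, hq⟩ := hpl
  exact ⟨q, hq⟩

section OneField

variable {K F : Type*} [Field K] [Field F] [Algebra K F]

/-- the substitution `p ↦ p(x)` with values in `K(x)` -/
def h23_phi (K : Type*) {F : Type*} [Field K] [Field F] [Algebra K F] (x : F) : K[X] →+* K⟮x⟯ :=
  ((aeval (AdjoinSimple.gen K x) : K[X] →ₐ[K] K⟮x⟯) : K[X] →+* K⟮x⟯)

theorem h23_phi_coe (x : F) (p : K[X]) : ((h23_phi K x p : K⟮x⟯) : F) = aeval x p := by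
  have h := Polynomial.aeval_algebraMap_apply F (AdjoinSimple.gen K x) p
  rw [AdjoinSimple.algebraMap_gen] at h
  exact h.symm

theorem h23_phi_comp (x : F) :
    (algebraMap K⟮x⟯ F).comp (h23_phi K x) = ((aeval x : K[X] →ₐ[K] F) : K[X] →+* F) :=
  RingHom.ext fun p => h23_phi_coe x p

/-- `H(x, y)` through `K(x)[Y]` -/
theorem h23_aeval_map_phi (x y : F) (H : Polynomial (Polynomial K)) :
    aeval y (H.map (h23_phi K x)) = h15_ev2 x y H := by
  rw [aeval_def, Polynomial.eval₂_map, h23_phi_comp]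
  rfl

/-- the evaluation of a sum of monomials `c_i(X) Y^i` -/
theorem h23_ev2_sum (x y : F) {n : ℕ} (c : Fin n → K[X]) :
    h15_ev2 x y (∑ i : Fin n, Polynomial.C (c i) * Polynomial.X ^ (i : ℕ)) =
      ∑ i : Fin n, aeval x (c i) * y ^ (i : ℕ) := by
  unfold h15_ev2
  rw [Polynomial.eval₂_finsetSum]
  refine Finset.sum_congr rfl fun i _ => ?_
  rw [Polynomial.eval₂_mul, Polynomial.eval₂_C, Polynomial.eval₂_pow, Polynomial.eval₂_X]
  rfl

/-- the minimal polynomial of `y` over `K(x)` from a monic plane equation of the right degree -/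
theorem h23_minpoly_eq (x y : F) (n : ℕ)
    (hli : LinearIndependent K⟮x⟯ (fun i : Fin n => y ^ (i : ℕ)))
    (Ψ : Polynomial (Polynomial K)) (hmon : Ψ.Monic) (hdeg : Ψ.natDegree = n)
    (hroot : h15_ev2 x y Ψ = 0) :
    minpoly K⟮x⟯ y = Ψ.map (h23_phi K x) :=
  h23_minpoly_eq_of_li y n hli _ (hmon.map _) (by rw [hmon.natDegree_map, hdeg])
    (by rw [h23_aeval_map_phi, hroot])

/-- `μ'(y) = Ψ_Y(x, y)` -/
theorem h23_aeval_derivative_minpoly (x y : F) (n : ℕ)
    (hli : LinearIndependent K⟮x⟯ (fun i : Fin n => y ^ (i : ℕ)))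
    (Ψ : Polynomial (Polynomial K)) (hmon : Ψ.Monic) (hdeg : Ψ.natDegree = n)
    (hroot : h15_ev2 x y Ψ = 0) :
    aeval y (derivative (minpoly K⟮x⟯ y)) = h15_ev2 x y (derivative Ψ) := by
  rw [h23_minpoly_eq x y n hli Ψ hmon hdeg hroot, Polynomial.derivative_map, h23_aeval_map_phi]

end OneField

variable {K F k Fb : Type*} [Field K] [Field F] [Algebra K F] [Field k] [Field Fb] [Algebra k Fb]

/-- `G(x, y) ∈ O` for `G ∈ A[X][Y]`, `x, y ∈ O`, and it reduces to `Ḡ(x̄, ȳ)`. -/
theorem h23_ev2_mem_red (R : h39_RedDatum K F k Fb) {x y : F} (hx : x ∈ R.O) (hy : y ∈ R.O)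
    (G : Polynomial (Polynomial R.A)) :
    h15_ev2 x y (G.map (Polynomial.mapRingHom R.A.subtype)) ∈ R.O ∧
      R.redF (h15_ev2 x y (G.map (Polynomial.mapRingHom R.A.subtype))) =
        h15_ev2 (R.redF x) (R.redF y) (G.map (Polynomial.mapRingHom R.res)) := by
  have hc1 : R.O.subtype.comp (h89_evalO R hx) =
      (((aeval x : K[X] →ₐ[K] F) : K[X] →+* F)).comp (Polynomial.mapRingHom R.A.subtype) := by
    refine RingHom.ext fun p => ?_
    exact h89_evalO_coe R hx p
  have hc2 : R.red.comp (h89_evalO R hx) =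
      (((aeval (R.redF x) : k[X] →ₐ[k] Fb) : k[X] →+* Fb)).comp (Polynomial.mapRingHom R.res) := by
    refine RingHom.ext fun p => ?_
    rw [RingHom.comp_apply, h89_red_evalO R hx p, R.redF_of_mem hx]
    rfl
  have hv : h15_ev2 x y (G.map (Polynomial.mapRingHom R.A.subtype)) =
      ((Polynomial.eval₂ (h89_evalO R hx) (⟨y, hy⟩ : R.O) G : R.O) : F) := by
    have h2 := Polynomial.hom_eval₂ G (h89_evalO R hx) R.O.subtype ⟨y, hy⟩
    rw [hc1] at h2
    unfold h15_ev2
    rw [Polynomial.eval₂_map]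
    exact h2.symm
  refine ⟨by rw [hv]; exact Subtype.property _, ?_⟩
  rw [hv, R.redF_of_mem (Subtype.property _)]
  have h3 : R.red ⟨((Polynomial.eval₂ (h89_evalO R hx) (⟨y, hy⟩ : R.O) G : R.O) : F),
      Subtype.property _⟩ = R.red (Polynomial.eval₂ (h89_evalO R hx) (⟨y, hy⟩ : R.O) G) := rfl
  rw [h3, Polynomial.hom_eval₂, hc2]
  unfold h15_ev2
  rw [Polynomial.eval₂_map, R.redF_of_mem hy]

/-- **(CO3b) DENOM**, with the two instances of (CO3a) as hypotheses. -/
theorem h23_model_denom_of (R : h39_RedDatum K F k Fb) {x : F} (hx : h39_Chart R x) {y : F}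
    {Φ : Polynomial (Polynomial R.A)} (hM : h2_Model R x y Φ)
    (hDK : ∃ δ : K[X], δ ≠ 0 ∧
      aeval x δ = ((Algebra.norm K⟮x⟯ (aeval y (derivative (minpoly K⟮x⟯ y))) : K⟮x⟯) : F) ∧
      ∀ f : F, h39_Reg K x f → ∃ c : Fin (Module.finrank K⟮x⟯ F) → K[X],
        aeval x δ * f = ∑ i, aeval x (c i) * y ^ (i : ℕ))
    (hDk : ∃ δ : k[X], δ ≠ 0 ∧
      aeval (R.redF x) δ = ((Algebra.norm k⟮R.redF x⟯
        (aeval (R.redF y) (derivative (minpoly k⟮R.redF x⟯ (R.redF y)))) : k⟮R.redF x⟯) : Fb) ∧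
      ∀ f : Fb, h39_Reg k (R.redF x) f → ∃ c : Fin (Module.finrank k⟮R.redF x⟯ Fb) → k[X],
        aeval (R.redF x) δ * f = ∑ i, aeval (R.redF x) (c i) * R.redF y ^ (i : ℕ)) :
    ∃ d : Polynomial R.A, d.map R.res ≠ 0 ∧
      (∀ f : F, f ∈ R.O → h39_Reg K x f → ∃ H : Polynomial (Polynomial R.A),
        h15_ev2 x y (H.map (Polynomial.mapRingHom R.A.subtype)) =
          aeval x (d.map R.A.subtype) * f) ∧
      (∀ fb : Fb, h39_Reg k (R.redF x) fb → ∃ Hb : Polynomial (Polynomial k),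
        h15_ev2 (R.redF x) (R.redF y) Hb = aeval (R.redF x) (d.map R.res) * fb) := by
  obtain ⟨δ, -, hδN, hδf⟩ := hDK
  obtain ⟨δk, hδk0, hδkN, hδkf⟩ := hDk
  have hxw : h39_WeakChart R x := hx.toh39_WeakChart
  -- the plane equations on both sides
  have hmonK : (Φ.map (Polynomial.mapRingHom R.A.subtype)).Monic := hM.monic.map _
  have hdegK : (Φ.map (Polynomial.mapRingHom R.A.subtype)).natDegree = Module.finrank K⟮x⟯ F := by
    rw [hM.monic.natDegree_map, hM.natDegree_eq]
  have hmonk : (Φ.map (Polynomial.mapRingHom R.res)).Monic := hM.monic.map _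
  have hdegk : (Φ.map (Polynomial.mapRingHom R.res)).natDegree = Module.finrank K⟮x⟯ F := by
    rw [hM.monic.natDegree_map, hM.natDegree_eq]
  have hrootk : h15_ev2 (R.redF x) (R.redF y) (Φ.map (Polynomial.mapRingHom R.res)) = 0 := by
    rw [← (h23_ev2_mem_red R hxw.mem hM.memO Φ).2, hM.root, h39_redF_zero]
  -- `g = μ'(y) = Φ_Y(x, y)` and its reduction
  have hg : aeval y (derivative (minpoly K⟮x⟯ y)) =
      h15_ev2 x y ((derivative Φ).map (Polynomial.mapRingHom R.A.subtype)) := by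
    rw [h23_aeval_derivative_minpoly x y _ hM.li _ hmonK hdegK hM.root, Polynomial.derivative_map]
  have hgb : aeval (R.redF y) (derivative (minpoly k⟮R.redF x⟯ (R.redF y))) =
      h15_ev2 (R.redF x) (R.redF y) ((derivative Φ).map (Polynomial.mapRingHom R.res)) := by
    rw [h23_aeval_derivative_minpoly (R.redF x) (R.redF y) _ hM.li_red _ hmonk hdegk hrootk,
      Polynomial.derivative_map]
  obtain ⟨hgO, hgred⟩ := h23_ev2_mem_red R hxw.mem hM.memO (derivative Φ)
  rw [← hg] at hgO hgred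
  rw [← hgb] at hgred
  -- the norm
  obtain ⟨hNO, hNred⟩ := h39_norm_red R hxw hgO
  rw [← hδN] at hNO hNred
  rw [hgred, ← hδkN] at hNred
  -- `δ ∈ A[X]`
  obtain ⟨d, hd⟩ := h23_exists_lift R.A δ ((h39_gauss_mem_iff R hxw δ).1 hNO)
  have hdred : d.map R.res = δk := by
    have h1 := h39_gauss_red R hxw d
    have h2 : d.map (algebraMap R.A K) = δ := hd
    rw [h2, hNred] at h1
    exact (transcendental_iff_injective.mp hxw.transcendental) h1.symm
  refine ⟨d, by rw [hdred]; exact hδk0, ?_, ?_⟩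
  · intro f hfO hreg
    obtain ⟨c, hc⟩ := hδf f hreg
    have hsumO : ∑ i, ((h23_phi K x (c i) : K⟮x⟯) : F) * y ^ (i : ℕ) ∈ R.O := by
      have h1 : ∑ i, ((h23_phi K x (c i) : K⟮x⟯) : F) * y ^ (i : ℕ) = aeval x δ * f := by
        rw [hc]
        exact Finset.sum_congr rfl fun i _ => by rw [h23_phi_coe]
      rw [h1]
      exact R.O.mul_mem _ _ hNO hfO
    have hci : ∀ i, ∃ q : Polynomial R.A, q.map R.A.subtype = c i := by
      intro i
      have h1 := hM.on (fun i => h23_phi K x (c i)) hsumO i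
      rw [h23_phi_coe] at h1
      exact h23_exists_lift R.A (c i) ((h39_gauss_mem_iff R hxw (c i)).1 h1)
    choose q hq using hci
    refine ⟨∑ i, Polynomial.C (q i) * Polynomial.X ^ (i : ℕ), ?_⟩
    have h2 : (∑ i, Polynomial.C (q i) * Polynomial.X ^ (i : ℕ)).map
        (Polynomial.mapRingHom R.A.subtype) =
        ∑ i, Polynomial.C (c i) * Polynomial.X ^ (i : ℕ) := by
      rw [Polynomial.map_sum]
      refine Finset.sum_congr rfl fun i _ => ?_
      rw [Polynomial.map_mul, Polynomial.map_C, Polynomial.map_pow, Polynomial.map_X]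
      congr 2
      exact hq i
    rw [h2, h23_ev2_sum, hd, hc]
  · intro fb hreg
    obtain ⟨c, hc⟩ := hδkf fb hreg
    exact ⟨∑ i, Polynomial.C (c i) * Polynomial.X ^ (i : ℕ), by rw [h23_ev2_sum, hdred, hc]⟩

end Fermat.Agent.S27

end
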