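import Fermat.Agent.S27.CoordDiscr
import Fermat.Agent.S27.h23_CoordDenomOf

/-!
# S27, block B5e (COORD), row CO3b DENOM

`h2_model_denom` (verbatim from the sub-skeleton of helper2): for a plane model `(x, y, Φ)`
adapted to a reduction datum there is a common denominator `d ∈ A[X]` with `d̄ ≠ 0` such that
`d(x) f ∈ A[x, y]` for every `f ∈ O` regular on the chart and `d̄(x̄) f̄ ∈ k[x̄, ȳ]` for every
`f̄` regular on the reduced chart.

Proof: `h23_model_denom_of` (`h23_CoordDenomOf.lean`) applied to the two instances of row CO3a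
(`h2_discr_denom`, `CoordDiscr.lean`) for `(K, F, x, y)` and `(k, Fb, x̄, ȳ)`.
-/

set_option autoImplicit false

noncomputable section

open AlgebraicCurve Fermat.Agent.S18 Polynomial IntermediateField

namespace Fermat.Agent.S27

variable {K F k Fb : Type*} [Field K] [Field F] [Algebra K F] [Field k] [Field Fb] [Algebra k Fb]
variable [IsAlgClosed K] [CharZero K] [IsAlgClosed k]

/-- **(CO3b) DENOM.** A common denominator `d ∈ A[X]` with `d̄ ≠ 0` on both curves. -/
theorem h2_model_denom (R : h39_RedDatum K F k Fb) {x : F} (hx : h39_Chart R x) {y : F}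
    {Φ : Polynomial (Polynomial R.A)} (hM : h2_Model R x y Φ) :
    ∃ d : Polynomial R.A, d.map R.res ≠ 0 ∧
      (∀ f : F, f ∈ R.O → h39_Reg K x f → ∃ H : Polynomial (Polynomial R.A),
        h15_ev2 x y (H.map (Polynomial.mapRingHom R.A.subtype)) =
          aeval x (d.map R.A.subtype) * f) ∧
      (∀ fb : Fb, h39_Reg k (R.redF x) fb → ∃ Hb : Polynomial (Polynomial k),
        h15_ev2 (R.redF x) (R.redF y) Hb = aeval (R.redF x) (d.map R.res) * fb) := by
  have hxw : h39_WeakChart R x := hx.toh39_WeakChart
  have hregb : h39_Reg k (R.redF x) (R.redF y) := h39_red_integral R hxw hM.memO hM.reg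
  have hlib : LinearIndependent k⟮R.redF x⟯
      (fun i : Fin (Module.finrank k⟮R.redF x⟯ Fb) => R.redF y ^ (i : ℕ)) := by
    rw [hxw.finrank_eq]
    exact hM.li_red
  exact h23_model_denom_of R hx hM
    (h2_discr_denom (h39_weakChart_isChart R hxw) hM.reg hM.li)
    (h2_discr_denom (h39_weakChart_isChart_red R hxw) hregb hlib)

end Fermat.Agent.S27

end
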