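import Fermat.Agent.S27.h82_HenselAC
import Fermat.Agent.S27.TruncDefs

/-!
# S27, block B5c (SYSTEM): Hensel lifting for the jet system

`h15_hensel_system` (row 484, verbatim from the skeleton): over a valuation subring `A` of an
algebraically closed field, the system

* `Φ(ξ_j + u, θ_j(u)) ≡ 0 mod u^m`,
* `(H0 + ∑ c_l H_l)(ξ_j + u, θ_j(u)) ≡ 0 mod u^m`      (`j < g`)

in the unknowns `ξ_j` (`g`), the `m` coefficients of each `θ_j` (`m g`) and `c_l` (`M = m g - g`)
has an exact solution congruent to a given approximate solution `(ξ0, θ0, c = 0)` as soon as the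
tangent space at the approximate solution is trivial modulo the maximal ideal.

Proof.  The system is a square polynomial system over `A` (`h66_sys`, in the coordinate ring
`MvPolynomial (Fin g ⊕ ((Fin g × Fin m) ⊕ Fin M)) A`, built from the universal point by
naturality of `h15_sub2`, `h66_sub2_map`).  Its value at a point is the jet system
(`h66_sys_eval_inl/inr`); its Jacobian applied to a vector `δ` is the `ε`-coefficient of the
system at the dual-number point `a + ε δ` (`h66_eval_dual_snd`), which by the first-order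
expansion `h66_sub2_expand` is the linearised jet system (`h66_sys_jac_inl/inr`).  So the
hypothesis `hT` says that the Jacobian is injective modulo the maximal ideal, and the kernel form
`h66_hensel_ker` of helper82's `h82_hensel_ac` applies.
-/

set_option autoImplicit false

noncomputable section

open Polynomial IsLocalRing

namespace Fermat.Agent.S27

section Basic

variable {R : Type*} [CommRing R]

/-- `H ↦ H(ξ + u, θ(u))` as a ring homomorphism. -/
def h66_sub2Hom (ξ : R) (θ : Polynomial R) : Polynomial (Polynomial R) →+* Polynomial R :=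
  (Polynomial.evalRingHom θ).comp (Polynomial.mapRingHom (Polynomial.compRingHom (X + C ξ)))

theorem h66_sub2Hom_apply (ξ : R) (θ : Polynomial R) (H : Polynomial (Polynomial R)) :
    h66_sub2Hom ξ θ H = h15_sub2 H ξ θ := rfl

theorem h66_sub2_add (H₁ H₂ : Polynomial (Polynomial R)) (ξ : R) (θ : Polynomial R) :
    h15_sub2 (H₁ + H₂) ξ θ = h15_sub2 H₁ ξ θ + h15_sub2 H₂ ξ θ :=
  map_add (h66_sub2Hom ξ θ) H₁ H₂

theorem h66_sub2_mul (H₁ H₂ : Polynomial (Polynomial R)) (ξ : R) (θ : Polynomial R) :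
    h15_sub2 (H₁ * H₂) ξ θ = h15_sub2 H₁ ξ θ * h15_sub2 H₂ ξ θ :=
  map_mul (h66_sub2Hom ξ θ) H₁ H₂

theorem h66_sub2_sum {ι : Type*} (s : Finset ι) (H : ι → Polynomial (Polynomial R)) (ξ : R)
    (θ : Polynomial R) :
    h15_sub2 (∑ l ∈ s, H l) ξ θ = ∑ l ∈ s, h15_sub2 (H l) ξ θ :=
  map_sum (h66_sub2Hom ξ θ) H s

theorem h66_sub2_CC (c : R) (ξ : R) (θ : Polynomial R) :
    h15_sub2 (C (C c)) ξ θ = C c := by
  simp [h15_sub2]

theorem h66_sub2_monomial (k : ℕ) (c : Polynomial R) (ξ : R) (θ : Polynomial R) :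
    h15_sub2 (monomial k c) ξ θ = c.comp (X + C ξ) * θ ^ k := by
  simp [h15_sub2, Polynomial.map_monomial, Polynomial.eval_monomial]

theorem h66_dX_coeff (H : Polynomial (Polynomial R)) (k : ℕ) :
    (h15_dX H).coeff k = derivative (H.coeff k) := by
  rw [h15_dX, Polynomial.sum_def, Polynomial.finsetSum_coeff]
  simp only [Polynomial.coeff_monomial]
  rw [Finset.sum_ite_eq']
  split_ifs with h
  · rfl
  · rw [Polynomial.notMem_support_iff.mp h, map_zero]

theorem h66_dX_add (H₁ H₂ : Polynomial (Polynomial R)) :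
    h15_dX (H₁ + H₂) = h15_dX H₁ + h15_dX H₂ := by
  ext1 k
  simp [h66_dX_coeff]

theorem h66_dX_monomial (k : ℕ) (c : Polynomial R) :
    h15_dX (monomial k c) = monomial k (derivative c) := by
  ext1 n
  rw [h66_dX_coeff, Polynomial.coeff_monomial, Polynomial.coeff_monomial]
  split_ifs
  · rfl
  · exact map_zero _

variable {S : Type*} [CommRing S]

/-- Naturality of `h15_sub2`. -/
theorem h66_sub2_map (f : R →+* S) (H : Polynomial (Polynomial R)) (ξ : R) (θ : Polynomial R) :
    (h15_sub2 H ξ θ).map f =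
      h15_sub2 (H.map (Polynomial.mapRingHom f)) (f ξ) (θ.map f) := by
  have hcomm : (Polynomial.mapRingHom f).comp (Polynomial.compRingHom (X + C ξ)) =
      (Polynomial.compRingHom (X + C (f ξ))).comp (Polynomial.mapRingHom f) := by
    refine RingHom.ext fun p => ?_
    simp [Polynomial.map_comp]
  unfold h15_sub2
  rw [Polynomial.eval_map, Polynomial.eval_map, Polynomial.eval₂_map, ← hcomm,
    ← Polynomial.coe_mapRingHom, Polynomial.hom_eval₂]

/-- Naturality of `h15_dX`. -/
theorem h66_dX_map (f : R →+* S) (H : Polynomial (Polynomial R)) :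
    h15_dX (H.map (Polynomial.mapRingHom f)) = (h15_dX H).map (Polynomial.mapRingHom f) := by
  ext1 k
  rw [h66_dX_coeff, Polynomial.coeff_map, Polynomial.coeff_map, h66_dX_coeff,
    Polynomial.coe_mapRingHom, Polynomial.derivative_map]

/-- First-order expansion of `h15_sub2` along nilpotent increments. -/
theorem h66_sub2_expand (H : Polynomial (Polynomial R)) (ξ η : R) (θ ϑ : Polynomial R)
    (hη : η * η = 0) (hϑ : ϑ * ϑ = 0) (hηϑ : C η * ϑ = 0) :
    h15_sub2 H (ξ + η) (θ + ϑ) =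
      h15_sub2 H ξ θ + C η * h15_sub2 (h15_dX H) ξ θ + ϑ * h15_sub2 (derivative H) ξ θ := by
  induction H using Polynomial.induction_on' with
  | add p q hp hq =>
    rw [h66_sub2_add, hp, hq, h66_dX_add, derivative_add, h66_sub2_add, h66_sub2_add,
      h66_sub2_add]
    ring
  | monomial k c =>
    rw [h66_sub2_monomial, h66_dX_monomial, derivative_monomial, h66_sub2_monomial,
      h66_sub2_monomial, h66_sub2_monomial]
    have e1 : c.comp (X + C (ξ + η)) =
        c.comp (X + C ξ) + (derivative c).comp (X + C ξ) * C η := by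
      have h := Polynomial.aeval_add_of_sq_eq_zero c (X + C ξ) (C η)
        (by rw [sq, ← C_mul, hη, C_0])
      rw [C_add, ← add_assoc]
      exact h
    have e2 : (θ + ϑ) ^ k = θ ^ k + (k : Polynomial R) * θ ^ (k - 1) * ϑ := by
      have h := Polynomial.eval_add_of_sq_eq_zero (X ^ k : Polynomial (Polynomial R)) θ ϑ
        (by rw [sq, hϑ])
      rw [derivative_X_pow, eval_mul, eval_C, eval_pow, eval_X, eval_pow, eval_X, eval_pow,
        eval_X] at h
      exact h
    rw [e1, e2, mul_comp, natCast_comp]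
    linear_combination ((derivative c).comp (X + C ξ) * (k : Polynomial R) * θ ^ (k - 1)) * hηϑ

end Basic

section Dual

variable {R : Type*} [CommRing R] {σ : Type*}

/-- The dual-number point `a + ε δ`. -/
def h66_dpt (a δ : σ → R) : σ → TrivSqZeroExt R R :=
  fun s => TrivSqZeroExt.inlHom R R (a s) + TrivSqZeroExt.inr (δ s)

theorem h66_eval_dual_fst (p : MvPolynomial σ R) (a δ : σ → R) :
    (MvPolynomial.eval₂ (TrivSqZeroExt.inlHom R R) (h66_dpt a δ) p).fst =
      MvPolynomial.eval a p := by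
  induction p using MvPolynomial.induction_on with
  | C r => simp
  | add p q hp hq => simp [hp, hq]
  | mul_X p n hp => simp [hp, h66_dpt]

theorem h66_eval_dual_snd [Fintype σ] [DecidableEq σ] (p : MvPolynomial σ R) (a δ : σ → R) :
    (MvPolynomial.eval₂ (TrivSqZeroExt.inlHom R R) (h66_dpt a δ) p).snd =
      ∑ s, MvPolynomial.eval a (MvPolynomial.pderiv s p) * δ s := by
  induction p using MvPolynomial.induction_on with
  | C r => simp
  | add p q hp hq => simp [hp, hq, Finset.sum_add_distrib, add_mul]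
  | mul_X p n hp =>
    rw [MvPolynomial.eval₂_mul, MvPolynomial.eval₂_X, TrivSqZeroExt.snd_mul, hp,
      h66_eval_dual_fst]
    simp [h66_dpt, Derivation.leibniz, MvPolynomial.pderiv_X, Pi.single_apply,
      Finset.sum_add_distrib, Finset.sum_mul, add_mul]
    congr 1
    · rw [Finset.sum_eq_single n]
      · simp
      · intro b _ hb
        simp [Ne.symm hb]
      · simp
    · exact Finset.sum_congr rfl fun x _ => by ring

end Dual

section Poly

variable {R : Type*} [CommRing R] {S : Type*} [CommRing S]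

/-- The polynomial with prescribed coefficients in degrees `< m`. -/
def h66_poly (m : ℕ) (f : Fin m → R) : Polynomial R :=
  ∑ i : Fin m, monomial (i : ℕ) (f i)

theorem h66_poly_coeff (m : ℕ) (f : Fin m → R) (n : ℕ) :
    (h66_poly m f).coeff n = if h : n < m then f ⟨n, h⟩ else 0 := by
  rw [h66_poly, Polynomial.finsetSum_coeff]
  simp only [Polynomial.coeff_monomial]
  split_ifs with h
  · rw [Finset.sum_eq_single ⟨n, h⟩]
    · simp
    · intro b _ hb
      rw [if_neg]
      intro hbn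
      exact hb (Fin.ext hbn)
    · simp
  · refine Finset.sum_eq_zero fun b _ => ?_
    rw [if_neg]
    intro hbn
    exact h (hbn ▸ b.2)

theorem h66_poly_coeff_fin (m : ℕ) (f : Fin m → R) (i : Fin m) :
    (h66_poly m f).coeff i = f i := by
  rw [h66_poly_coeff, dif_pos i.2]

theorem h66_poly_degree_lt (m : ℕ) (f : Fin m → R) : (h66_poly m f).degree < m := by
  rw [Polynomial.degree_lt_iff_coeff_zero]
  intro n hn
  rw [h66_poly_coeff, dif_neg (not_lt.mpr hn)]

theorem h66_poly_map (φ : R →+* S) (m : ℕ) (f : Fin m → R) :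
    (h66_poly m f).map φ = h66_poly m (fun i => φ (f i)) := by
  simp [h66_poly, Polynomial.map_sum]

theorem h66_poly_of_degree_lt (m : ℕ) (θ : Polynomial R) (hθ : θ.degree < m) :
    h66_poly m (fun i => θ.coeff i) = θ := by
  refine Polynomial.ext fun n => ?_
  rw [h66_poly_coeff]
  split_ifs with h
  · rfl
  · exact (Polynomial.coeff_eq_zero_of_degree_lt
      (lt_of_lt_of_le hθ (by exact_mod_cast not_lt.mp h))).symm

theorem h66_poly_dual (m : ℕ) (f g : Fin m → R) :
    h66_poly m (fun i => (TrivSqZeroExt.inlHom R R (f i) + TrivSqZeroExt.inr (g i) :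
        TrivSqZeroExt R R)) =
      (h66_poly m f).map (TrivSqZeroExt.inlHom R R) +
        C (TrivSqZeroExt.inr 1) * (h66_poly m g).map (TrivSqZeroExt.inlHom R R) := by
  refine Polynomial.ext fun n => ?_
  rw [coeff_add, coeff_C_mul, coeff_map, coeff_map, h66_poly_coeff, h66_poly_coeff,
    h66_poly_coeff]
  split_ifs with h
  · refine TrivSqZeroExt.ext ?_ ?_ <;> simp
  · simp

end Poly

section DualSub2

variable {R : Type*} [CommRing R]

theorem h66_snd_coeff_map (q : Polynomial R) (i : ℕ) :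
    ((q.map (TrivSqZeroExt.inlHom R R)).coeff i).snd = 0 := by
  rw [coeff_map]
  rfl

theorem h66_snd_coeff_C_inr_mul (e : R) (q : Polynomial (TrivSqZeroExt R R)) (i : ℕ) :
    ((C (TrivSqZeroExt.inr e : TrivSqZeroExt R R) * q).coeff i).snd = e * (q.coeff i).fst := by
  rw [coeff_C_mul]
  simp

theorem h66_sub2_dual_fst (H : Polynomial (Polynomial R)) (ξ δξ : R) (θ δθ : Polynomial R)
    (i : ℕ) :
    ((h15_sub2 (H.map (Polynomial.mapRingHom (TrivSqZeroExt.inlHom R R)))
        (TrivSqZeroExt.inlHom R R ξ + TrivSqZeroExt.inr δξ)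
        (θ.map (TrivSqZeroExt.inlHom R R) +
          C (TrivSqZeroExt.inr 1) * δθ.map (TrivSqZeroExt.inlHom R R))).coeff i).fst =
      (h15_sub2 H ξ θ).coeff i := by
  set π : TrivSqZeroExt R R →+* R := (TrivSqZeroExt.fstHom R R R).toRingHom with hπ
  have hπι : π.comp (TrivSqZeroExt.inlHom R R) = RingHom.id R := RingHom.ext fun r => rfl
  have h1 : ∀ x : TrivSqZeroExt R R, x.fst = π x := fun x => rfl
  rw [h1, ← coeff_map, h66_sub2_map, Polynomial.map_map, Polynomial.mapRingHom_comp, hπι,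
    Polynomial.mapRingHom_id, Polynomial.map_id, Polynomial.map_add, Polynomial.map_mul,
    Polynomial.map_map, Polynomial.map_map, hπι, Polynomial.map_id, Polynomial.map_id,
    Polynomial.map_C]
  have h2 : π (TrivSqZeroExt.inlHom R R ξ + TrivSqZeroExt.inr δξ) = ξ := by
    show (TrivSqZeroExt.inlHom R R ξ + TrivSqZeroExt.inr δξ).fst = ξ
    simp
  have h3 : π (TrivSqZeroExt.inr 1) = 0 := rfl
  rw [h2, h3, C_0, zero_mul, add_zero]

theorem h66_sub2_dual_snd (H : Polynomial (Polynomial R)) (ξ δξ : R) (θ δθ : Polynomial R)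
    (i : ℕ) :
    ((h15_sub2 (H.map (Polynomial.mapRingHom (TrivSqZeroExt.inlHom R R)))
        (TrivSqZeroExt.inlHom R R ξ + TrivSqZeroExt.inr δξ)
        (θ.map (TrivSqZeroExt.inlHom R R) +
          C (TrivSqZeroExt.inr 1) * δθ.map (TrivSqZeroExt.inlHom R R))).coeff i).snd =
      (C δξ * h15_sub2 (h15_dX H) ξ θ + δθ * h15_sub2 (derivative H) ξ θ).coeff i := by
  have hη : (TrivSqZeroExt.inr δξ : TrivSqZeroExt R R) * TrivSqZeroExt.inr δξ = 0 :=
    TrivSqZeroExt.inr_mul_inr R δξ δξ
  have hε : (TrivSqZeroExt.inr 1 : TrivSqZeroExt R R) * TrivSqZeroExt.inr 1 = 0 :=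
    TrivSqZeroExt.inr_mul_inr R 1 1
  have hηε : (TrivSqZeroExt.inr δξ : TrivSqZeroExt R R) * TrivSqZeroExt.inr 1 = 0 :=
    TrivSqZeroExt.inr_mul_inr R δξ 1
  have e1 : h15_sub2 (H.map (Polynomial.mapRingHom (TrivSqZeroExt.inlHom R R)))
      (TrivSqZeroExt.inlHom R R ξ) (θ.map (TrivSqZeroExt.inlHom R R)) =
      (h15_sub2 H ξ θ).map (TrivSqZeroExt.inlHom R R) := (h66_sub2_map _ H ξ θ).symm
  have e2 : h15_sub2 (h15_dX (H.map (Polynomial.mapRingHom (TrivSqZeroExt.inlHom R R))))
      (TrivSqZeroExt.inlHom R R ξ) (θ.map (TrivSqZeroExt.inlHom R R)) =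
      (h15_sub2 (h15_dX H) ξ θ).map (TrivSqZeroExt.inlHom R R) := by
    rw [h66_dX_map]
    exact (h66_sub2_map _ (h15_dX H) ξ θ).symm
  have e3 : h15_sub2 (derivative (H.map (Polynomial.mapRingHom (TrivSqZeroExt.inlHom R R))))
      (TrivSqZeroExt.inlHom R R ξ) (θ.map (TrivSqZeroExt.inlHom R R)) =
      (h15_sub2 (derivative H) ξ θ).map (TrivSqZeroExt.inlHom R R) := by
    rw [Polynomial.derivative_map]
    exact (h66_sub2_map _ (derivative H) ξ θ).symm
  rw [h66_sub2_expand _ _ _ _ _ hη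
    (by rw [mul_mul_mul_comm, ← C_mul, hε, C_0, zero_mul])
    (by rw [← mul_assoc, ← C_mul, hηε, C_0, zero_mul]),
    e1, e2, e3, mul_assoc, ← Polynomial.map_mul, coeff_add, coeff_add, TrivSqZeroExt.snd_add,
    TrivSqZeroExt.snd_add, h66_snd_coeff_map, h66_snd_coeff_C_inr_mul, h66_snd_coeff_C_inr_mul,
    coeff_map, coeff_map, coeff_add, coeff_C_mul]
  simp

end DualSub2

/-- **Hensel, kernel form, rectangular indexing**: a system `Ψ : τ → A[X_σ]` with as many
equations as unknowns whose Jacobian at an approximate solution is injective modulo the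
maximal ideal has an exact solution with the same reduction. -/
theorem h66_hensel_ker {K : Type*} [Field K] [IsAlgClosed K] (A : ValuationSubring K)
    {σ τ : Type*} [Fintype σ] [DecidableEq σ] [Fintype τ]
    (hcard : Fintype.card σ = Fintype.card τ)
    (Ψ : τ → MvPolynomial σ A) (a : σ → A)
    (ha : ∀ t, MvPolynomial.eval a (Ψ t) ∈ maximalIdeal A)
    (hJ : ∀ δ : σ → A,
      (∀ t, ∑ s, MvPolynomial.eval a (MvPolynomial.pderiv s (Ψ t)) * δ s ∈ maximalIdeal A) →
      ∀ s, δ s ∈ maximalIdeal A) :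
    ∃ b : σ → A, (∀ t, MvPolynomial.eval b (Ψ t) = 0) ∧ ∀ s, b s - a s ∈ maximalIdeal A := by
  classical
  let e : σ ≃ τ := Fintype.equivOfCardEq hcard
  have hdet : IsUnit (Matrix.det
      (Matrix.of fun i j => MvPolynomial.eval a (MvPolynomial.pderiv j (Ψ (e i))))) := by
    by_contra hnu
    set J : Matrix σ σ A :=
      Matrix.of fun i j => MvPolynomial.eval a (MvPolynomial.pderiv j (Ψ (e i))) with hJdef
    have hbar : ((IsLocalRing.residue A).mapMatrix J).det = 0 := by
      rw [← RingHom.map_det]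
      exact (IsLocalRing.residue_eq_zero_iff _).mpr hnu
    obtain ⟨v, hv0, hv⟩ := Matrix.exists_mulVec_eq_zero_iff.mpr hbar
    choose δ' hδ' using fun j => IsLocalRing.residue_surjective (R := A) (v j)
    have h6 : ∀ s, δ' s ∈ maximalIdeal A := by
      refine hJ δ' fun t => ?_
      have h3 := congrFun hv (e.symm t)
      rw [Matrix.mulVec, dotProduct, Pi.zero_apply] at h3
      rw [← IsLocalRing.residue_eq_zero_iff, map_sum, ← h3]
      refine Finset.sum_congr rfl fun j _ => ?_
      rw [map_mul, hδ' j, hJdef]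
      simp
    apply hv0
    funext j
    rw [Pi.zero_apply, ← hδ' j, IsLocalRing.residue_eq_zero_iff]
    exact h6 j
  obtain ⟨b, hb0, hba⟩ := h82_hensel_ac A (fun s => Ψ (e s)) a (fun s => ha (e s)) hdet
  refine ⟨b, fun t => ?_, hba⟩
  have h := hb0 (e.symm t)
  rwa [Equiv.apply_symm_apply] at h

section System

variable {R : Type*} [CommRing R] (g m M : ℕ)

/-- The jet system: the coefficients of `u^i`, `i < m`, of `Φ(ξ_j + u, θ_j(u))` and of
`(H0 + ∑ c_l H_l)(ξ_j + u, θ_j(u))` in the universal unknowns `ξ_j`, `θ_(j,i)`, `c_l`. -/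
def h66_sys (Φ H0 : Polynomial (Polynomial R)) (H : Fin M → Polynomial (Polynomial R)) :
    (Fin g × Fin m) ⊕ (Fin g × Fin m) → MvPolynomial (Fin g ⊕ ((Fin g × Fin m) ⊕ Fin M)) R :=
  Sum.elim
    (fun ji => (h15_sub2 (Φ.map (Polynomial.mapRingHom MvPolynomial.C))
      (MvPolynomial.X (Sum.inl ji.1))
      (h66_poly m fun i' => MvPolynomial.X (Sum.inr (Sum.inl (ji.1, i'))))).coeff ji.2)
    (fun ji => (h15_sub2 (H0.map (Polynomial.mapRingHom MvPolynomial.C))
        (MvPolynomial.X (Sum.inl ji.1))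
        (h66_poly m fun i' => MvPolynomial.X (Sum.inr (Sum.inl (ji.1, i')))) +
      ∑ l, C (MvPolynomial.X (Sum.inr (Sum.inr l))) *
        h15_sub2 ((H l).map (Polynomial.mapRingHom MvPolynomial.C))
          (MvPolynomial.X (Sum.inl ji.1))
          (h66_poly m fun i' => MvPolynomial.X (Sum.inr (Sum.inl (ji.1, i'))))).coeff ji.2)

variable {S : Type*} [CommRing S]

theorem h66_sys_inl (Φ H0 : Polynomial (Polynomial R)) (H : Fin M → Polynomial (Polynomial R))
    (φ : MvPolynomial (Fin g ⊕ ((Fin g × Fin m) ⊕ Fin M)) R →+* S) (j : Fin g) (i : Fin m) :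
    φ (h66_sys g m M Φ H0 H (Sum.inl (j, i))) =
      (h15_sub2 (Φ.map (Polynomial.mapRingHom (φ.comp MvPolynomial.C)))
        (φ (MvPolynomial.X (Sum.inl j)))
        (h66_poly m fun i' => φ (MvPolynomial.X (Sum.inr (Sum.inl (j, i')))))).coeff i := by
  rw [h66_sys, Sum.elim_inl, ← Polynomial.coeff_map, h66_sub2_map, Polynomial.map_map,
    Polynomial.mapRingHom_comp, h66_poly_map]

theorem h66_sys_inr (Φ H0 : Polynomial (Polynomial R)) (H : Fin M → Polynomial (Polynomial R))
    (φ : MvPolynomial (Fin g ⊕ ((Fin g × Fin m) ⊕ Fin M)) R →+* S) (j : Fin g) (i : Fin m) :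
    φ (h66_sys g m M Φ H0 H (Sum.inr (j, i))) =
      (h15_sub2 (H0.map (Polynomial.mapRingHom (φ.comp MvPolynomial.C)))
          (φ (MvPolynomial.X (Sum.inl j)))
          (h66_poly m fun i' => φ (MvPolynomial.X (Sum.inr (Sum.inl (j, i'))))) +
        ∑ l, C (φ (MvPolynomial.X (Sum.inr (Sum.inr l)))) *
          h15_sub2 ((H l).map (Polynomial.mapRingHom (φ.comp MvPolynomial.C)))
            (φ (MvPolynomial.X (Sum.inl j)))
            (h66_poly m fun i' => φ (MvPolynomial.X (Sum.inr (Sum.inl (j, i')))))).coeff i := by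
  rw [h66_sys, Sum.elim_inr, ← Polynomial.coeff_map, Polynomial.map_add, Polynomial.map_sum,
    h66_sub2_map, Polynomial.map_map, Polynomial.mapRingHom_comp, h66_poly_map]
  congr 2
  refine Finset.sum_congr rfl fun l _ => ?_
  rw [Polynomial.map_mul, Polynomial.map_C, h66_sub2_map, Polynomial.map_map,
    Polynomial.mapRingHom_comp, h66_poly_map]

/-- Evaluation of the first half of the system. -/
theorem h66_sys_eval_inl (Φ H0 : Polynomial (Polynomial R)) (H : Fin M → Polynomial (Polynomial R))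
    (b : Fin g ⊕ ((Fin g × Fin m) ⊕ Fin M) → R) (j : Fin g) (i : Fin m) :
    MvPolynomial.eval b (h66_sys g m M Φ H0 H (Sum.inl (j, i))) =
      (h15_sub2 Φ (b (Sum.inl j))
        (h66_poly m fun i' => b (Sum.inr (Sum.inl (j, i'))))).coeff i := by
  have hid : (MvPolynomial.eval b).comp MvPolynomial.C = RingHom.id R :=
    RingHom.ext fun r => by simp
  rw [h66_sys_inl, hid, Polynomial.mapRingHom_id, Polynomial.map_id]
  simp only [MvPolynomial.eval_X]

/-- Evaluation of the second half of the system. -/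
theorem h66_sys_eval_inr (Φ H0 : Polynomial (Polynomial R)) (H : Fin M → Polynomial (Polynomial R))
    (b : Fin g ⊕ ((Fin g × Fin m) ⊕ Fin M) → R) (j : Fin g) (i : Fin m) :
    MvPolynomial.eval b (h66_sys g m M Φ H0 H (Sum.inr (j, i))) =
      (h15_sub2 H0 (b (Sum.inl j)) (h66_poly m fun i' => b (Sum.inr (Sum.inl (j, i')))) +
        ∑ l, C (b (Sum.inr (Sum.inr l))) *
          h15_sub2 (H l) (b (Sum.inl j))
            (h66_poly m fun i' => b (Sum.inr (Sum.inl (j, i'))))).coeff i := by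
  have hid : (MvPolynomial.eval b).comp MvPolynomial.C = RingHom.id R :=
    RingHom.ext fun r => by simp
  rw [h66_sys_inr, hid, Polynomial.mapRingHom_id, Polynomial.map_id]
  simp only [MvPolynomial.eval_X, Polynomial.map_id]

/-- The Jacobian of the first half of the system applied to a vector. -/
theorem h66_sys_jac_inl (Φ H0 : Polynomial (Polynomial R)) (H : Fin M → Polynomial (Polynomial R))
    (a δ : Fin g ⊕ ((Fin g × Fin m) ⊕ Fin M) → R) (j : Fin g) (i : Fin m) :
    ∑ s, MvPolynomial.eval a (MvPolynomial.pderiv s (h66_sys g m M Φ H0 H (Sum.inl (j, i)))) *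
        δ s =
      (C (δ (Sum.inl j)) * h15_sub2 (h15_dX Φ) (a (Sum.inl j))
          (h66_poly m fun i' => a (Sum.inr (Sum.inl (j, i')))) +
        (h66_poly m fun i' => δ (Sum.inr (Sum.inl (j, i')))) *
          h15_sub2 (derivative Φ) (a (Sum.inl j))
            (h66_poly m fun i' => a (Sum.inr (Sum.inl (j, i'))))).coeff i := by
  classical
  rw [← h66_eval_dual_snd, ← MvPolynomial.coe_eval₂Hom, h66_sys_inl,
    MvPolynomial.eval₂Hom_comp_C]
  simp only [MvPolynomial.eval₂Hom_X']
  have hp : (h66_poly m fun i' => h66_dpt a δ (Sum.inr (Sum.inl (j, i')))) =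
      (h66_poly m fun i' => a (Sum.inr (Sum.inl (j, i')))).map (TrivSqZeroExt.inlHom R R) +
        C (TrivSqZeroExt.inr 1) *
          (h66_poly m fun i' => δ (Sum.inr (Sum.inl (j, i')))).map (TrivSqZeroExt.inlHom R R) :=
    h66_poly_dual m _ _
  rw [hp]
  exact h66_sub2_dual_snd Φ (a (Sum.inl j)) (δ (Sum.inl j)) _ _ i

/-- The Jacobian of the second half of the system applied to a vector, at a point with
`c = 0`. -/
theorem h66_sys_jac_inr (Φ H0 : Polynomial (Polynomial R)) (H : Fin M → Polynomial (Polynomial R))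
    (a δ : Fin g ⊕ ((Fin g × Fin m) ⊕ Fin M) → R) (ha : ∀ l, a (Sum.inr (Sum.inr l)) = 0)
    (j : Fin g) (i : Fin m) :
    ∑ s, MvPolynomial.eval a (MvPolynomial.pderiv s (h66_sys g m M Φ H0 H (Sum.inr (j, i)))) *
        δ s =
      (C (δ (Sum.inl j)) * h15_sub2 (h15_dX H0) (a (Sum.inl j))
          (h66_poly m fun i' => a (Sum.inr (Sum.inl (j, i')))) +
        (h66_poly m fun i' => δ (Sum.inr (Sum.inl (j, i')))) *
          h15_sub2 (derivative H0) (a (Sum.inl j))
            (h66_poly m fun i' => a (Sum.inr (Sum.inl (j, i')))) +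
        ∑ l, C (δ (Sum.inr (Sum.inr l))) * h15_sub2 (H l) (a (Sum.inl j))
          (h66_poly m fun i' => a (Sum.inr (Sum.inl (j, i'))))).coeff i := by
  classical
  rw [← h66_eval_dual_snd, ← MvPolynomial.coe_eval₂Hom, h66_sys_inr,
    MvPolynomial.eval₂Hom_comp_C]
  simp only [MvPolynomial.eval₂Hom_X']
  have hp : (h66_poly m fun i' => h66_dpt a δ (Sum.inr (Sum.inl (j, i')))) =
      (h66_poly m fun i' => a (Sum.inr (Sum.inl (j, i')))).map (TrivSqZeroExt.inlHom R R) +
        C (TrivSqZeroExt.inr 1) *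
          (h66_poly m fun i' => δ (Sum.inr (Sum.inl (j, i')))).map (TrivSqZeroExt.inlHom R R) :=
    h66_poly_dual m _ _
  have hc : ∀ l, h66_dpt a δ (Sum.inr (Sum.inr l)) = TrivSqZeroExt.inr (δ (Sum.inr (Sum.inr l))) := by
    intro l
    rw [h66_dpt, ha l, map_zero, zero_add]
  rw [hp, coeff_add, TrivSqZeroExt.snd_add, coeff_add (C _ * _ + _), Polynomial.finsetSum_coeff,
    Polynomial.finsetSum_coeff, TrivSqZeroExt.snd_sum]
  congr 1
  · exact h66_sub2_dual_snd H0 (a (Sum.inl j)) (δ (Sum.inl j)) _ _ i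
  · refine Finset.sum_congr rfl fun l _ => ?_
    rw [hc l, h66_snd_coeff_C_inr_mul, coeff_C_mul]
    congr 1
    exact h66_sub2_dual_fst (H l) (a (Sum.inl j)) (δ (Sum.inl j)) _ _ i

end System

/-- **(B5c) SYSTEM.** Hensel lifting for the jet system. -/
theorem h15_hensel_system {K : Type*} [Field K] [IsAlgClosed K] (A : ValuationSubring K)
    (g m M : ℕ) (hM : M + g = m * g)
    (Φ H0 : Polynomial (Polynomial A)) (H : Fin M → Polynomial (Polynomial A))
    (ξ0 : Fin g → A) (θ0 : Fin g → Polynomial A) (hθ0 : ∀ j, (θ0 j).degree < m)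
    (h1 : ∀ j, ∀ i < m, (h15_sub2 Φ (ξ0 j) (θ0 j)).coeff i ∈ maximalIdeal A)
    (h2 : ∀ j, ∀ i < m, (h15_sub2 H0 (ξ0 j) (θ0 j)).coeff i ∈ maximalIdeal A)
    (hT : ∀ (δξ : Fin g → A) (δθ : Fin g → Polynomial A) (δc : Fin M → A),
      (∀ j, (δθ j).degree < m) →
      (∀ j, ∀ i < m, (C (δξ j) * h15_sub2 (h15_dX Φ) (ξ0 j) (θ0 j) +
          δθ j * h15_sub2 (derivative Φ) (ξ0 j) (θ0 j)).coeff i ∈ maximalIdeal A) →
      (∀ j, ∀ i < m, (C (δξ j) * h15_sub2 (h15_dX H0) (ξ0 j) (θ0 j) +
          δθ j * h15_sub2 (derivative H0) (ξ0 j) (θ0 j) +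
          ∑ l, C (δc l) * h15_sub2 (H l) (ξ0 j) (θ0 j)).coeff i ∈ maximalIdeal A) →
      (∀ j, δξ j ∈ maximalIdeal A) ∧ (∀ j i, (δθ j).coeff i ∈ maximalIdeal A) ∧
        ∀ l, δc l ∈ maximalIdeal A) :
    ∃ (ξ : Fin g → A) (θ : Fin g → Polynomial A) (c : Fin M → A),
      (∀ j, (θ j).degree < m) ∧ (∀ j, ξ j - ξ0 j ∈ maximalIdeal A) ∧
      (∀ j i, (θ j - θ0 j).coeff i ∈ maximalIdeal A) ∧ (∀ l, c l ∈ maximalIdeal A) ∧
      (∀ j, X ^ m ∣ h15_sub2 Φ (ξ j) (θ j)) ∧
      ∀ j, X ^ m ∣ h15_sub2 (H0 + ∑ l, C (C (c l)) * H l) (ξ j) (θ j) := by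
  classical
  set a : Fin g ⊕ ((Fin g × Fin m) ⊕ Fin M) → A :=
    Sum.elim ξ0 (Sum.elim (fun ji => (θ0 ji.1).coeff ji.2) (fun _ => 0)) with ha_def
  have hcard : Fintype.card (Fin g ⊕ ((Fin g × Fin m) ⊕ Fin M)) =
      Fintype.card ((Fin g × Fin m) ⊕ (Fin g × Fin m)) := by
    simp only [Fintype.card_sum, Fintype.card_prod, Fintype.card_fin]
    have := mul_comm g m
    omega
  have hθa : ∀ j, (h66_poly m fun i' => a (Sum.inr (Sum.inl (j, i')))) = θ0 j :=
    fun j => h66_poly_of_degree_lt m (θ0 j) (hθ0 j)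
  have hca : ∀ l, a (Sum.inr (Sum.inr l)) = 0 := fun l => rfl
  have hex := h66_hensel_ker A hcard (h66_sys g m M Φ H0 H) a ?_ ?_
  · obtain ⟨b, hb0, hba⟩ := hex
    refine ⟨fun j => b (Sum.inl j), fun j => h66_poly m fun i' => b (Sum.inr (Sum.inl (j, i'))),
      fun l => b (Sum.inr (Sum.inr l)), fun j => h66_poly_degree_lt m _,
      fun j => hba (Sum.inl j), fun j i => ?_, fun l => ?_, fun j => ?_, fun j => ?_⟩
    · rw [coeff_sub, h66_poly_coeff]
      split_ifs with h
      · exact hba (Sum.inr (Sum.inl (j, ⟨i, h⟩)))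
      · rw [Polynomial.coeff_eq_zero_of_degree_lt
          (lt_of_lt_of_le (hθ0 j) (by exact_mod_cast not_lt.mp h)), sub_zero]
        exact zero_mem _
    · have h := hba (Sum.inr (Sum.inr l))
      rwa [hca l, sub_zero] at h
    · rw [Polynomial.X_pow_dvd_iff]
      intro d hd
      rw [← hb0 (Sum.inl (j, ⟨d, hd⟩)), h66_sys_eval_inl]
    · rw [Polynomial.X_pow_dvd_iff]
      intro d hd
      rw [← hb0 (Sum.inr (j, ⟨d, hd⟩)), h66_sys_eval_inr, h66_sub2_add, h66_sub2_sum]
      congr 2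
      refine Finset.sum_congr rfl fun l _ => ?_
      rw [h66_sub2_mul, h66_sub2_CC]
  · rintro (⟨j, i⟩ | ⟨j, i⟩)
    · rw [h66_sys_eval_inl, hθa]
      exact h1 j i i.2
    · rw [h66_sys_eval_inr, hθa]
      have h0 : ∑ l, C (a (Sum.inr (Sum.inr l))) * h15_sub2 (H l) (a (Sum.inl j)) (θ0 j) = 0 :=
        Finset.sum_eq_zero fun l _ => by rw [hca l, C_0, zero_mul]
      rw [h0, add_zero]
      exact h2 j i i.2
  · intro δ hδ
    have key := hT (fun j => δ (Sum.inl j))
      (fun j => h66_poly m fun i' => δ (Sum.inr (Sum.inl (j, i'))))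
      (fun l => δ (Sum.inr (Sum.inr l))) (fun j => h66_poly_degree_lt m _) ?_ ?_
    · obtain ⟨k1, k2, k3⟩ := key
      rintro (j | ⟨j, i⟩ | l)
      · exact k1 j
      · have h := k2 j i
        rwa [h66_poly_coeff_fin] at h
      · exact k3 l
    · intro j i hi
      have h := hδ (Sum.inl (j, ⟨i, hi⟩))
      rw [h66_sys_jac_inl, hθa] at h
      exact h
    · intro j i hi
      have h := hδ (Sum.inr (j, ⟨i, hi⟩))
      rw [h66_sys_jac_inr _ _ _ _ _ _ _ _ hca, hθa] at h
      exact h

end Fermat.Agent.S27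

end
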