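import Mathlib
import Fermat.Prelude.Def_AlgebraicCurve_Repartitions
import Fermat.Agent.S27.TruncDefs

/-!
# S27, block B5 LIFT, row B5d TANGENT: the core (owner helper84)

The tangent space of the jet system is trivial on the reduced curve.  This file proves the
statement `h15_tangent` of the skeleton from the two exports of row B5b (TRUNC-EX and
TRUNC-ORD), taken as hypotheses `hex`, `hiff` (`h84_tangent_core`); the verbatim export is in
`LiftTangent.lean`.

Proof: replace each truncation `θ_j` by a truncation `θ'` of order `m + 1` (it agrees with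
`θ_j` modulo `u ^ m`, so the hypotheses are unchanged); then `u ^ (m + 1) ∣ Φ(ξ + u, θ')`, the
chain rule gives `δθ ≡ δξ θ''` modulo `u ^ m`, and the second equation becomes
`δξ h' + ∑ δc_l H_l(ξ + u, θ') ≡ 0` with `h = H0(ξ + u, θ')` of exact order `m`.
-/

set_option autoImplicit false

noncomputable section

open AlgebraicCurve Polynomial

namespace Fermat.Agent.S27

section Alg

variable {R : Type*} [CommRing R]

/-- `H ↦ H(ξ + u, θ(u))` as a ring homomorphism. -/
def h84_sub2Hom (ξ : R) (θ : R[X]) : Polynomial (Polynomial R) →+* Polynomial R :=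
  (Polynomial.evalRingHom θ).comp (Polynomial.mapRingHom (Polynomial.compRingHom (X + C ξ)))

theorem h84_sub2_eq (H : Polynomial (Polynomial R)) (ξ : R) (θ : R[X]) :
    h15_sub2 H ξ θ = h84_sub2Hom ξ θ H := rfl

theorem h84_sub2_add (H₁ H₂ : Polynomial (Polynomial R)) (ξ : R) (θ : R[X]) :
    h15_sub2 (H₁ + H₂) ξ θ = h15_sub2 H₁ ξ θ + h15_sub2 H₂ ξ θ := by
  simp only [h84_sub2_eq, map_add]

theorem h84_sub2_mul (H₁ H₂ : Polynomial (Polynomial R)) (ξ : R) (θ : R[X]) :
    h15_sub2 (H₁ * H₂) ξ θ = h15_sub2 H₁ ξ θ * h15_sub2 H₂ ξ θ := by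
  simp only [h84_sub2_eq, map_mul]

theorem h84_sub2_sum {ι : Type*} (s : Finset ι) (H : ι → Polynomial (Polynomial R)) (ξ : R)
    (θ : R[X]) : h15_sub2 (∑ i ∈ s, H i) ξ θ = ∑ i ∈ s, h15_sub2 (H i) ξ θ := by
  simp only [h84_sub2_eq, map_sum]

theorem h84_sub2_monomial (i : ℕ) (c : R[X]) (ξ : R) (θ : R[X]) :
    h15_sub2 (monomial i c) ξ θ = c.comp (X + C ξ) * θ ^ i := by
  simp [h15_sub2, Polynomial.map_monomial, eval_monomial]

theorem h84_sub2_C (c : R[X]) (ξ : R) (θ : R[X]) :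
    h15_sub2 (C c) ξ θ = c.comp (X + C ξ) := by
  simp [h15_sub2]

theorem h84_sub2_CC (c : R) (ξ : R) (θ : R[X]) :
    h15_sub2 (C (C c)) ξ θ = C c := by
  simp [h15_sub2]

theorem h84_dX_add (H₁ H₂ : Polynomial (Polynomial R)) :
    h15_dX (H₁ + H₂) = h15_dX H₁ + h15_dX H₂ := by
  unfold h15_dX
  exact Polynomial.sum_add_index _ _ _ (by simp) (by simp)

theorem h84_dX_monomial (i : ℕ) (c : R[X]) :
    h15_dX (monomial i c) = monomial i (derivative c) := by
  unfold h15_dX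
  exact Polynomial.sum_monomial_index _ _ (by simp)

/-- The chain rule for `h15_sub2`. -/
theorem h84_sub2_derivative (H : Polynomial (Polynomial R)) (ξ : R) (θ : R[X]) :
    derivative (h15_sub2 H ξ θ) =
      h15_sub2 (h15_dX H) ξ θ + derivative θ * h15_sub2 (derivative H) ξ θ := by
  induction H using Polynomial.induction_on' with
  | add p q hp hq =>
    rw [h84_sub2_add, derivative_add, hp, hq, h84_dX_add, h84_sub2_add, derivative_add,
      h84_sub2_add]
    ring
  | monomial i c =>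
    rw [h84_sub2_monomial, h84_dX_monomial, h84_sub2_monomial, derivative_monomial,
      h84_sub2_monomial, derivative_mul, derivative_comp, derivative_pow]
    simp only [derivative_add, derivative_X, derivative_C, add_zero, one_mul, mul_comp,
      natCast_comp, C_eq_natCast]
    ring

/-- Changing the branch changes `h15_sub2` by a multiple of the difference. -/
theorem h84_sub2_sub_dvd (H : Polynomial (Polynomial R)) (ξ : R) (θ θ' : R[X]) :
    θ' - θ ∣ h15_sub2 H ξ θ' - h15_sub2 H ξ θ := by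
  unfold h15_sub2
  exact Polynomial.sub_dvd_eval_sub θ' θ _

/-- The constant term of `H(ξ + u, θ(u))`. -/
theorem h84_sub2_eval_zero (H : Polynomial (Polynomial R)) (ξ : R) (θ : R[X]) :
    (h15_sub2 H ξ θ).eval 0 = (H.eval (C (θ.eval 0))).eval ξ := by
  induction H using Polynomial.induction_on' with
  | add p q hp hq => rw [h84_sub2_add, eval_add, hp, hq, eval_add, eval_add]
  | monomial i c =>
    rw [h84_sub2_monomial, eval_mul, eval_comp, eval_pow, eval_monomial, eval_mul, eval_pow,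
      eval_C]
    simp

end Alg

section Val

variable {K F : Type*} [Field K] [Field F] [Algebra K F]

theorem h84_mem_of_le_one (P : Place K F) {f : F} (hf : P.adicValuation f ≤ 1) :
    f ∈ P.toValuationSubring := by
  by_contra hmem
  have hinv : f⁻¹ ∈ P.toValuationSubring :=
    (P.toValuationSubring.mem_or_inv_mem f).resolve_left hmem
  have hf0 : f ≠ 0 := fun h => hmem (h ▸ P.toValuationSubring.zero_mem)
  have h1 : P.adicValuation f⁻¹ ≤ 1 := P.adicValuation_le_one_of_mem hinv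
  rw [map_inv₀] at h1
  have hpos : 0 < P.adicValuation f := zero_lt_iff.mpr (P.adicValuation_ne_zero hf0)
  have h2 : P.adicValuation f = 1 := le_antisymm hf ((inv_le_one₀ hpos).mp h1)
  have h3 : P.adicValuation ((⟨f⁻¹, hinv⟩ : P.toValuationSubring) : F) = 1 := by
    rw [map_inv₀, h2, inv_one]
  obtain ⟨b, hb⟩ := isUnit_iff_exists_inv.mp ((P.adicValuation_coe_eq_one_iff _).mp h3)
  apply hmem
  have hb' : f⁻¹ * (b : F) = 1 := by
    have h := congrArg Subtype.val hb
    simpa using h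
  have hbf : (b : F) = f := by
    field_simp at hb'
    exact hb'
  exact hbf ▸ b.2

theorem h84_val_const (P : Place K F) {c : K} (hc : c ≠ 0) :
    P.adicValuation (algebraMap K F c) = 1 := by
  have h1 := P.adicValuation_algebraMap_le_one c
  have h2 := P.adicValuation_algebraMap_le_one c⁻¹
  rw [map_inv₀, map_inv₀] at h2
  have hne : P.adicValuation (algebraMap K F c) ≠ 0 :=
    P.adicValuation_ne_zero (by simpa using hc)
  exact le_antisymm h1 ((inv_le_one₀ (zero_lt_iff.mpr hne)).mp h2)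

theorem h84_aeval_mem (P : Place K F) {t : F} (ht : t ∈ P.toValuationSubring) (q : K[X]) :
    aeval t q ∈ P.toValuationSubring := by
  have h := Polynomial.aeval_algebraMap_apply F (⟨t, ht⟩ : P.toValuationSubring) q
  have h' : aeval t q = ((aeval (⟨t, ht⟩ : P.toValuationSubring) q : P.toValuationSubring) : F) :=
    h
  rw [h']
  exact Subtype.prop _

theorem h84_val_aeval_of_eval_ne (P : Place K F) {x : F} {ξ : K}
    (hx : P.adicValuation (x - algebraMap K F ξ) < 1) (d : K[X]) (hd : d.eval ξ ≠ 0) :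
    P.adicValuation (aeval x d) = 1 := by
  have hxmem : x ∈ P.toValuationSubring := by
    have := add_mem (h84_mem_of_le_one P hx.le) (P.algebraMap_mem' ξ)
    simpa using this
  obtain ⟨q, hq⟩ := Polynomial.X_sub_C_dvd_sub_C_eval (a := ξ) (p := d)
  have h1 : aeval x d = (x - algebraMap K F ξ) * aeval x q + algebraMap K F (d.eval ξ) := by
    have h := congrArg (aeval x) hq
    simp only [map_sub, aeval_C, map_mul, aeval_X] at h
    linear_combination h
  have h2 : P.adicValuation ((x - algebraMap K F ξ) * aeval x q) < 1 := by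
    rw [map_mul]
    exact mul_lt_one_of_lt_of_le hx (P.adicValuation_le_one_of_mem (h84_aeval_mem P hxmem q))
  rw [h1, Valuation.map_add_eq_of_lt_right, h84_val_const P hd]
  rw [h84_val_const P hd]
  exact h2

end Val

section Ev2

variable {k Fb : Type*} [Field k] [Field Fb] [Algebra k Fb]

theorem h84_ev2_C (x y : Fb) (q : k[X]) : h15_ev2 x y (C q) = aeval x q := by
  simp [h15_ev2]

theorem h84_ev2_sum_CC_mul {M : ℕ} (x y : Fb) (c : Fin M → k)
    (H : Fin M → Polynomial (Polynomial k)) :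
    h15_ev2 x y (∑ l, C (C (c l)) * H l) = ∑ l, algebraMap k Fb (c l) * h15_ev2 x y (H l) := by
  unfold h15_ev2
  rw [Polynomial.eval₂_finsetSum]
  refine Finset.sum_congr rfl fun l _ => ?_
  rw [Polynomial.eval₂_mul, Polynomial.eval₂_C]
  simp

end Ev2

section Tangent

variable {k Fb : Type*} [Field k] [Field Fb] [Algebra k Fb]

/-- The local part of the tangent computation, at one place. -/
theorem h84_tangent_local (x y : Fb)
    (hex : ∀ (P : Place k Fb) (ξ : k), P.ord (x - algebraMap k Fb ξ) = 1 →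
      y ∈ P.toValuationSubring → ∀ m : ℕ, ∃ θ : k[X], θ.degree < m ∧
        P.adicValuation (y - aeval (x - algebraMap k Fb ξ) θ) ≤ WithZero.exp (-(m : ℤ)))
    (hiff : ∀ (P : Place k Fb) (ξ : k), P.ord (x - algebraMap k Fb ξ) = 1 →
      ∀ (m : ℕ) (θ : k[X]),
        P.adicValuation (y - aeval (x - algebraMap k Fb ξ) θ) ≤ WithZero.exp (-(m : ℤ)) →
        ∀ H : Polynomial (Polynomial k),
          (P.adicValuation (h15_ev2 x y H) ≤ WithZero.exp (-(m : ℤ)) ↔ X ^ m ∣ h15_sub2 H ξ θ))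
    (Φ : Polynomial (Polynomial k)) (hΦ : h15_ev2 x y Φ = 0) (m M : ℕ) (hm : (m : k) ≠ 0)
    (P : Place k Fb) (ξ : k) (θ : k[X])
    (hξ : P.ord (x - algebraMap k Fb ξ) = 1)
    (hθ : P.adicValuation (y - aeval (x - algebraMap k Fb ξ) θ) ≤ WithZero.exp (-(m : ℤ)))
    (hsm : (Φ.derivative.eval (C (θ.eval 0))).eval ξ ≠ 0)
    (d : k[X]) (hd : d.eval ξ ≠ 0)
    (f0 : Fb) (hf0 : f0 ≠ 0) (hord : P.ord f0 = m)
    (e : Fin M → Fb)
    (H0 : Polynomial (Polynomial k)) (H : Fin M → Polynomial (Polynomial k))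
    (hH0 : h15_ev2 x y H0 = aeval x d * f0) (hH : ∀ l, h15_ev2 x y (H l) = aeval x d * e l)
    (δξ : k) (δθ : k[X]) (δc : Fin M → k) (hδθ : δθ.degree < m)
    (h1 : X ^ m ∣ C δξ * h15_sub2 (h15_dX Φ) ξ θ + δθ * h15_sub2 (derivative Φ) ξ θ)
    (h2 : X ^ m ∣ C δξ * h15_sub2 (h15_dX H0) ξ θ + δθ * h15_sub2 (derivative H0) ξ θ +
      ∑ l, C (δc l) * h15_sub2 (H l) ξ θ) :
    P.adicValuation (∑ l, δc l • e l) ≤ WithZero.exp (-((m : ℤ) - 1)) ∧
    (δc = 0 → δξ = 0 ∧ δθ = 0) := by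
  have hm0 : m ≠ 0 := by
    rintro rfl
    simp at hm
  have hm1 : 1 ≤ m := Nat.one_le_iff_ne_zero.mpr hm0
  set t : Fb := x - algebraMap k Fb ξ with ht
  have ht0 : t ≠ 0 := by
    intro h
    rw [h, P.ord_zero] at hξ
    exact zero_ne_one hξ
  have hvt : P.adicValuation t = WithZero.exp (-1 : ℤ) := by
    rw [P.adicValuation_eq_exp_neg_ord ht0, hξ]
  have hvt1 : P.adicValuation t < 1 := by
    rw [hvt, ← WithZero.exp_zero, WithZero.exp_lt_exp]
    norm_num
  have htmem : t ∈ P.toValuationSubring := h84_mem_of_le_one P hvt1.le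
  have hymem : y ∈ P.toValuationSubring := by
    have h1 : P.adicValuation (y - aeval t θ) ≤ 1 :=
      hθ.trans (by rw [← WithZero.exp_zero, WithZero.exp_le_exp]; omega)
    have := add_mem (h84_mem_of_le_one P h1) (h84_aeval_mem P htmem θ)
    simpa using this
  obtain ⟨θ', -, hθ'⟩ := hex P ξ hξ hymem (m + 1)
  have hθ'm : P.adicValuation (y - aeval t θ') ≤ WithZero.exp (-(m : ℤ)) := by
    refine hθ'.trans ?_
    rw [WithZero.exp_le_exp]
    push_cast
    omega
  -- the two truncations agree modulo `X ^ m`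
  have hdiff : X ^ m ∣ θ' - θ := by
    have hv : P.adicValuation (aeval t (θ' - θ)) ≤ WithZero.exp (-(m : ℤ)) := by
      have h : aeval t (θ' - θ) = (y - aeval t θ) - (y - aeval t θ') := by
        rw [map_sub]
        ring
      rw [h]
      exact (Valuation.map_sub _ _ _).trans (max_le hθ hθ'm)
    have hev : h15_ev2 x y (C ((θ' - θ).comp (X - C ξ))) = aeval t (θ' - θ) := by
      rw [h84_ev2_C, aeval_comp]
      simp [ht]
    have key := (hiff P ξ hξ m θ hθ (C ((θ' - θ).comp (X - C ξ)))).mp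
      (by rw [hev]; exact hv)
    rwa [h84_sub2_C, comp_assoc, show (X - C ξ : k[X]).comp (X + C ξ) = X by simp, comp_X] at key
  have hcong : ∀ H : Polynomial (Polynomial k), X ^ m ∣ h15_sub2 H ξ θ' - h15_sub2 H ξ θ :=
    fun H => hdiff.trans (h84_sub2_sub_dvd H ξ θ θ')
  have h1' : X ^ m ∣ C δξ * h15_sub2 (h15_dX Φ) ξ θ' + δθ * h15_sub2 (derivative Φ) ξ θ' := by
    have h : C δξ * h15_sub2 (h15_dX Φ) ξ θ' + δθ * h15_sub2 (derivative Φ) ξ θ' =
        (C δξ * h15_sub2 (h15_dX Φ) ξ θ + δθ * h15_sub2 (derivative Φ) ξ θ) +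
        (C δξ * (h15_sub2 (h15_dX Φ) ξ θ' - h15_sub2 (h15_dX Φ) ξ θ) +
          δθ * (h15_sub2 (derivative Φ) ξ θ' - h15_sub2 (derivative Φ) ξ θ)) := by ring
    rw [h]
    exact dvd_add h1 (dvd_add (dvd_mul_of_dvd_right (hcong _) _)
      (dvd_mul_of_dvd_right (hcong _) _))
  have h2' : X ^ m ∣ C δξ * h15_sub2 (h15_dX H0) ξ θ' + δθ * h15_sub2 (derivative H0) ξ θ' +
      ∑ l, C (δc l) * h15_sub2 (H l) ξ θ' := by
    have h : C δξ * h15_sub2 (h15_dX H0) ξ θ' + δθ * h15_sub2 (derivative H0) ξ θ' +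
        ∑ l, C (δc l) * h15_sub2 (H l) ξ θ' =
        (C δξ * h15_sub2 (h15_dX H0) ξ θ + δθ * h15_sub2 (derivative H0) ξ θ +
          ∑ l, C (δc l) * h15_sub2 (H l) ξ θ) +
        (C δξ * (h15_sub2 (h15_dX H0) ξ θ' - h15_sub2 (h15_dX H0) ξ θ) +
          δθ * (h15_sub2 (derivative H0) ξ θ' - h15_sub2 (derivative H0) ξ θ) +
          ∑ l, C (δc l) * (h15_sub2 (H l) ξ θ' - h15_sub2 (H l) ξ θ)) := by
      simp only [mul_sub, Finset.sum_sub_distrib]
      ring
    rw [h]
    exact dvd_add h2 (dvd_add (dvd_add (dvd_mul_of_dvd_right (hcong _) _)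
      (dvd_mul_of_dvd_right (hcong _) _))
      (Finset.dvd_sum fun l _ => dvd_mul_of_dvd_right (hcong _) _))
  -- the equation of the curve
  have hp : X ^ (m + 1) ∣ h15_sub2 Φ ξ θ' :=
    (hiff P ξ hξ (m + 1) θ' hθ' Φ).mp (by rw [hΦ, map_zero]; exact zero_le)
  have hp' : X ^ m ∣ derivative (h15_sub2 Φ ξ θ') := by
    obtain ⟨q, hq⟩ := hp
    rw [hq, derivative_mul, derivative_X_pow, Nat.add_sub_cancel]
    exact dvd_add ((dvd_mul_left (X ^ m) (C _)).mul_right q)
      ((pow_dvd_pow X (Nat.le_succ m)).mul_right _)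
  have hpd := h84_sub2_derivative Φ ξ θ'
  have hεs : X ^ m ∣ (δθ - C δξ * derivative θ') * h15_sub2 (derivative Φ) ξ θ' := by
    have h : (δθ - C δξ * derivative θ') * h15_sub2 (derivative Φ) ξ θ' =
        (C δξ * h15_sub2 (h15_dX Φ) ξ θ' + δθ * h15_sub2 (derivative Φ) ξ θ') -
          C δξ * derivative (h15_sub2 Φ ξ θ') := by
      rw [hpd]
      ring
    rw [h]
    exact dvd_sub h1' (dvd_mul_of_dvd_right hp' _)
  have hθ0 : θ'.eval 0 = θ.eval 0 := by
    have h : (X : k[X]) ∣ θ' - θ := (dvd_pow_self X hm0).trans hdiff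
    rw [Polynomial.X_dvd_iff, coeff_zero_eq_eval_zero, eval_sub, sub_eq_zero] at h
    exact h
  have hs0 : ¬ (X : k[X]) ∣ h15_sub2 (derivative Φ) ξ θ' := by
    rw [Polynomial.X_dvd_iff, coeff_zero_eq_eval_zero, h84_sub2_eval_zero, hθ0]
    exact hsm
  have hcop : IsCoprime ((X : k[X]) ^ m) (h15_sub2 (derivative Φ) ξ θ') :=
    ((Polynomial.irreducible_X (R := k)).coprime_iff_not_dvd.mpr hs0).pow_left
  have hε : X ^ m ∣ δθ - C δξ * derivative θ' := hcop.dvd_of_dvd_mul_right hεs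
  -- the function `f0`
  have hvd : P.adicValuation (aeval x d) = 1 := h84_val_aeval_of_eval_ne P hvt1 d hd
  have hvH0 : P.adicValuation (h15_ev2 x y H0) = WithZero.exp (-(m : ℤ)) := by
    rw [hH0, map_mul, hvd, one_mul, P.adicValuation_eq_exp_neg_ord hf0, hord]
  have hh : X ^ m ∣ h15_sub2 H0 ξ θ' :=
    (hiff P ξ hξ m θ' hθ'm H0).mp hvH0.le
  have hh' : ¬ X ^ (m + 1) ∣ h15_sub2 H0 ξ θ' := by
    intro hcon
    have := (hiff P ξ hξ (m + 1) θ' hθ' H0).mpr hcon
    rw [hvH0, WithZero.exp_le_exp] at this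
    push_cast at this
    omega
  have hhd := h84_sub2_derivative H0 ξ θ'
  have hstar : X ^ m ∣ C δξ * derivative (h15_sub2 H0 ξ θ') +
      ∑ l, C (δc l) * h15_sub2 (H l) ξ θ' := by
    have h : C δξ * derivative (h15_sub2 H0 ξ θ') + ∑ l, C (δc l) * h15_sub2 (H l) ξ θ' =
        (C δξ * h15_sub2 (h15_dX H0) ξ θ' + δθ * h15_sub2 (derivative H0) ξ θ' +
          ∑ l, C (δc l) * h15_sub2 (H l) ξ θ') -
        (δθ - C δξ * derivative θ') * h15_sub2 (derivative H0) ξ θ' := by
      rw [hhd]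
      ring
    rw [h]
    exact dvd_sub h2' (hε.mul_right _)
  have hhd' : X ^ (m - 1) ∣ derivative (h15_sub2 H0 ξ θ') := by
    obtain ⟨q, hq⟩ := hh
    rw [hq, derivative_mul, derivative_X_pow]
    exact dvd_add ((dvd_mul_left (X ^ (m - 1)) (C _)).mul_right q)
      ((pow_dvd_pow X (Nat.sub_le m 1)).mul_right _)
  refine ⟨?_, ?_⟩
  · have hsum : X ^ (m - 1) ∣ ∑ l, C (δc l) * h15_sub2 (H l) ξ θ' :=
      (dvd_add_right (dvd_mul_of_dvd_right hhd' _)).mp
        ((pow_dvd_pow X (Nat.sub_le m 1)).trans hstar)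
    have hsum' : ∑ l, C (δc l) * h15_sub2 (H l) ξ θ' =
        h15_sub2 (∑ l, C (C (δc l)) * H l) ξ θ' := by
      rw [h84_sub2_sum]
      refine Finset.sum_congr rfl fun l _ => ?_
      rw [h84_sub2_mul, h84_sub2_CC]
    rw [hsum'] at hsum
    have hθ'm1 : P.adicValuation (y - aeval t θ') ≤ WithZero.exp (-((m - 1 : ℕ) : ℤ)) := by
      refine hθ'm.trans ?_
      rw [WithZero.exp_le_exp]
      omega
    have hv := (hiff P ξ hξ (m - 1) θ' hθ'm1 (∑ l, C (C (δc l)) * H l)).mpr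
      hsum
    have hev : h15_ev2 x y (∑ l, C (C (δc l)) * H l) = aeval x d * ∑ l, δc l • e l := by
      rw [h84_ev2_sum_CC_mul, Finset.mul_sum]
      refine Finset.sum_congr rfl fun l _ => ?_
      rw [hH l, Algebra.smul_def]
      ring
    rw [hev, map_mul, hvd, one_mul] at hv
    refine hv.trans ?_
    rw [WithZero.exp_le_exp]
    omega
  · intro hδc
    have hstar0 : X ^ m ∣ C δξ * derivative (h15_sub2 H0 ξ θ') := by
      have h : ∑ l, C (δc l) * h15_sub2 (H l) ξ θ' = 0 := by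
        simp [hδc]
      rwa [h, add_zero] at hstar
    have hδξ : δξ = 0 := by
      by_contra hne
      have hX : X ^ m ∣ derivative (h15_sub2 H0 ξ θ') := by
        have h : derivative (h15_sub2 H0 ξ θ') =
            C δξ⁻¹ * (C δξ * derivative (h15_sub2 H0 ξ θ')) := by
          rw [← mul_assoc, ← C_mul, inv_mul_cancel₀ hne, C_1, one_mul]
        rw [h]
        exact dvd_mul_of_dvd_right hstar0 _
      obtain ⟨q, hq⟩ := hh
      rw [hq, derivative_mul, derivative_X_pow] at hX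
      have hX2 : X ^ m ∣ C (m : k) * X ^ (m - 1) * q :=
        (dvd_add_left (dvd_mul_right _ _)).mp hX
      have hX3 : (X : k[X]) ∣ C (m : k) * q := by
        have h : (X : k[X]) ^ (m - 1) * X ∣ X ^ (m - 1) * (C (m : k) * q) := by
          rw [← pow_succ, Nat.sub_add_cancel hm1]
          convert hX2 using 1
          ring
        exact (mul_dvd_mul_iff_left (pow_ne_zero _ X_ne_zero)).mp h
      have hX4 : (X : k[X]) ∣ q := by
        have h : q = C (m : k)⁻¹ * (C (m : k) * q) := by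
          rw [← mul_assoc, ← C_mul, inv_mul_cancel₀ hm, C_1, one_mul]
        rw [h]
        exact dvd_mul_of_dvd_right hX3 _
      apply hh'
      rw [hq, pow_succ]
      exact mul_dvd_mul_left _ hX4
    refine ⟨hδξ, ?_⟩
    have hδθ' : X ^ m ∣ δθ := by
      simpa [hδξ] using hε
    exact Polynomial.eq_zero_of_dvd_of_degree_lt hδθ' (by rw [degree_X_pow]; exact hδθ)

/-- **(B5d) TANGENT, core.** The tangent space of the jet system is trivial
(`m` invertible, `l(∑ T_j) = 1`, `div f0 = m ∑ T_j - m G'`); `hex`, `hiff` are the exports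
TRUNC-EX and TRUNC-ORD of row B5b for the pair `(x, y)`. -/
theorem h84_tangent_core (x y : Fb)
    (hex : ∀ (P : Place k Fb) (ξ : k), P.ord (x - algebraMap k Fb ξ) = 1 →
      y ∈ P.toValuationSubring → ∀ m : ℕ, ∃ θ : k[X], θ.degree < m ∧
        P.adicValuation (y - aeval (x - algebraMap k Fb ξ) θ) ≤ WithZero.exp (-(m : ℤ)))
    (hiff : ∀ (P : Place k Fb) (ξ : k), P.ord (x - algebraMap k Fb ξ) = 1 →
      ∀ (m : ℕ) (θ : k[X]),
        P.adicValuation (y - aeval (x - algebraMap k Fb ξ) θ) ≤ WithZero.exp (-(m : ℤ)) →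
        ∀ H : Polynomial (Polynomial k),
          (P.adicValuation (h15_ev2 x y H) ≤ WithZero.exp (-(m : ℤ)) ↔ X ^ m ∣ h15_sub2 H ξ θ))
    (Φ : Polynomial (Polynomial k))
    (hΦ : h15_ev2 x y Φ = 0) (g m M : ℕ) (hm : (m : k) ≠ 0)
    (T : Fin g → Place k Fb) (hT : Function.Injective T) (ξ : Fin g → k) (θ : Fin g → k[X])
    (hξ : ∀ j, (T j).ord (x - algebraMap k Fb (ξ j)) = 1)
    (hθ : ∀ j, (T j).adicValuation (y - aeval (x - algebraMap k Fb (ξ j)) (θ j)) ≤
      WithZero.exp (-(m : ℤ)))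
    (hsm : ∀ j, (Φ.derivative.eval (C ((θ j).eval 0))).eval (ξ j) ≠ 0)
    (d : k[X]) (hd : ∀ j, d.eval (ξ j) ≠ 0)
    (G' : Divisor k Fb) (hG' : ∀ j, G' (T j) = 0)
    (hl : Module.finrank k (riemannRochSpace (∑ j, Finsupp.single (T j) (1 : ℤ))) = 1)
    (f0 : Fb) (hf0 : f0 ≠ 0)
    (hdiv : ∀ P : Place k Fb, P.ord f0 = m * ((∑ j, Finsupp.single (T j) (1 : ℤ)) P - G' P))
    (e : Fin M → Fb) (he : ∀ l, e l ∈ riemannRochSpace (m • G'))
    (hli : LinearIndependent k (Fin.cons f0 e : Fin (M + 1) → Fb))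
    (H0 : Polynomial (Polynomial k)) (H : Fin M → Polynomial (Polynomial k))
    (hH0 : h15_ev2 x y H0 = aeval x d * f0) (hH : ∀ l, h15_ev2 x y (H l) = aeval x d * e l)
    (δξ : Fin g → k) (δθ : Fin g → k[X]) (δc : Fin M → k) (hδθ : ∀ j, (δθ j).degree < m)
    (h1 : ∀ j, X ^ m ∣ C (δξ j) * h15_sub2 (h15_dX Φ) (ξ j) (θ j) +
      δθ j * h15_sub2 (derivative Φ) (ξ j) (θ j))
    (h2 : ∀ j, X ^ m ∣ C (δξ j) * h15_sub2 (h15_dX H0) (ξ j) (θ j) +
      δθ j * h15_sub2 (derivative H0) (ξ j) (θ j) + ∑ l, C (δc l) * h15_sub2 (H l) (ξ j) (θ j)) :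
    δξ = 0 ∧ δθ = 0 ∧ δc = 0 := by
  classical
  have hST : ∀ j, (∑ i, Finsupp.single (T i) (1 : ℤ)) (T j) = 1 := by
    intro j
    rw [Finsupp.finsetSum_apply]
    simp [Finsupp.single_apply, hT.eq_iff]
  have hSQ : ∀ Q : Place k Fb, (∀ j, T j ≠ Q) → (∑ i, Finsupp.single (T i) (1 : ℤ)) Q = 0 := by
    intro Q hQ
    rw [Finsupp.finsetSum_apply]
    exact Finset.sum_eq_zero fun i _ => by simp [hQ i]
  have hSnn : ∀ Q : Place k Fb, 0 ≤ (∑ i, Finsupp.single (T i) (1 : ℤ)) Q := by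
    intro Q
    rw [Finsupp.finsetSum_apply]
    refine Finset.sum_nonneg fun i _ => ?_
    rw [Finsupp.single_apply]
    split_ifs <;> norm_num
  have hordT : ∀ j, (T j).ord f0 = m := by
    intro j
    rw [hdiv, hST, hG']
    ring
  have hloc := fun j => h84_tangent_local x y hex hiff Φ hΦ m M hm (T j) (ξ j) (θ j) (hξ j) (hθ j)
    (hsm j) d (hd j) f0 hf0 (hordT j) e H0 H hH0 hH (δξ j) (δθ j) δc (hδθ j) (h1 j) (h2 j)
  have hδfL : (∑ l, δc l • e l) ∈ riemannRochSpace ((m : ℕ) • G') :=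
    Submodule.sum_mem _ fun l _ => Submodule.smul_mem _ _ (he l)
  -- `δf / f0 ∈ L(∑ T_j)`
  have hmemL : (∑ l, δc l • e l) / f0 ∈ riemannRochSpace (∑ j, Finsupp.single (T j) (1 : ℤ)) := by
    intro Q
    have hQf0 : Q.adicValuation f0 = WithZero.exp (-Q.ord f0) :=
      Q.adicValuation_eq_exp_neg_ord hf0
    rw [map_div₀, hQf0, div_le_iff₀ (WithZero.exp_pos), ← WithZero.exp_add]
    by_cases hQ : ∃ j, T j = Q
    · obtain ⟨j, rfl⟩ := hQ
      refine (hloc j).1.trans ?_
      rw [WithZero.exp_le_exp, hST j, hordT j]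
      omega
    · push Not at hQ
      refine (hδfL Q).trans ?_
      rw [WithZero.exp_le_exp, hdiv Q, hSQ Q hQ, Finsupp.smul_apply]
      simp
  have hone : (1 : Fb) ∈ riemannRochSpace (∑ j, Finsupp.single (T j) (1 : ℤ)) := by
    intro Q
    rw [map_one, ← WithZero.exp_zero, WithZero.exp_le_exp]
    exact hSnn Q
  obtain ⟨c0, hc0⟩ := (finrank_eq_one_iff_of_nonzero'
    (⟨1, hone⟩ : riemannRochSpace (∑ j, Finsupp.single (T j) (1 : ℤ)))
    (by rw [Ne, Subtype.ext_iff]; exact one_ne_zero)).mp hl ⟨_, hmemL⟩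
  have hc0' : c0 • (1 : Fb) = (∑ l, δc l • e l) / f0 := congrArg Subtype.val hc0
  have hδf : ∑ l, δc l • e l = c0 • f0 := by
    rw [eq_div_iff hf0] at hc0'
    rw [← hc0', smul_mul_assoc, one_mul]
  have hzero := Fintype.linearIndependent_iff.mp hli (Fin.cons (-c0) δc) (by
    rw [Fin.sum_univ_succ]
    simp only [Fin.cons_zero, Fin.cons_succ]
    rw [hδf]
    simp)
  have hδc : δc = 0 := by
    funext l
    have := hzero l.succ
    simpa using this
  exact ⟨funext fun j => ((hloc j).2 hδc).1, funext fun j => ((hloc j).2 hδc).2, hδc⟩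

end Tangent

end Fermat.Agent.S27

end
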