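import Fermat.Agent.S27.Trunc
import Fermat.Agent.S27.h84_TangentCore

/-!
# S27, block B5 LIFT, row B5d TANGENT (owner helper84)

The verbatim export `h15_tangent` of the skeleton: `h84_tangent_core` with the two exports
`h15_exists_trunc`, `h15_ord_ge_iff_trunc` of row B5b plugged in.
-/

set_option autoImplicit false

noncomputable section

open AlgebraicCurve Fermat.Agent.S18 Polynomial

namespace Fermat.Agent.S27

section Tangent

variable {k Fb : Type*} [Field k] [IsAlgClosed k] [Field Fb] [Algebra k Fb]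

/-- **(B5d) TANGENT.** On the reduced curve the tangent space of the jet system is trivial
(`m` invertible, `l(∑ T_j) = 1`, `div f0 = m ∑ T_j - m G'`). -/
theorem h15_tangent {x0 : Fb} (hx0 : h75_IsChart k x0) (x y : Fb) (Φ : Polynomial (Polynomial k))
    (hΦ : h15_ev2 x y Φ = 0) (g m M : ℕ) (hm : (m : k) ≠ 0)
    (T : Fin g → Place k Fb) (hT : Function.Injective T) (ξ : Fin g → k) (θ : Fin g → k[X])
    (hξ : ∀ j, (T j).ord (x - algebraMap k Fb (ξ j)) = 1)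
    (hθ : ∀ j, (T j).adicValuation (y - aeval (x - algebraMap k Fb (ξ j)) (θ j)) ≤
      WithZero.exp (-(m : ℤ)))
    (hsm : ∀ j, (Φ.derivative.eval (C ((θ j).eval 0))).eval (ξ j) ≠ 0)
    (d : k[X]) (hd : ∀ j, d.eval (ξ j) ≠ 0)
    (G' : Divisor k Fb) (hG' : ∀ j, G' (T j) = 0)
    (hl : Module.finrank k (riemannRochSpace (∑ j, Finsupp.single (T j) (1 : ℤ))) = 1)
    (f0 : Fb) (hf0 : f0 ≠ 0)
    (hdiv : ∀ P : Place k Fb, P.ord f0 = m * ((∑ j, Finsupp.single (T j) (1 : ℤ)) P - G' P))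
    (e : Fin M → Fb) (he : ∀ l, e l ∈ riemannRochSpace (m • G'))
    (hli : LinearIndependent k (Fin.cons f0 e : Fin (M + 1) → Fb))
    (H0 : Polynomial (Polynomial k)) (H : Fin M → Polynomial (Polynomial k))
    (hH0 : h15_ev2 x y H0 = aeval x d * f0) (hH : ∀ l, h15_ev2 x y (H l) = aeval x d * e l)
    (δξ : Fin g → k) (δθ : Fin g → k[X]) (δc : Fin M → k) (hδθ : ∀ j, (δθ j).degree < m)
    (h1 : ∀ j, X ^ m ∣ C (δξ j) * h15_sub2 (h15_dX Φ) (ξ j) (θ j) +
      δθ j * h15_sub2 (derivative Φ) (ξ j) (θ j))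
    (h2 : ∀ j, X ^ m ∣ C (δξ j) * h15_sub2 (h15_dX H0) (ξ j) (θ j) +
      δθ j * h15_sub2 (derivative H0) (ξ j) (θ j) + ∑ l, C (δc l) * h15_sub2 (H l) (ξ j) (θ j)) :
    δξ = 0 ∧ δθ = 0 ∧ δc = 0 :=
  h84_tangent_core x y
    (fun P ξ' hx hy n => h15_exists_trunc hx0 P x y ξ' hx hy n)
    (fun P ξ' hx n θ' hθ' H' => h15_ord_ge_iff_trunc P x y ξ' hx n θ' hθ' H')
    Φ hΦ g m M hm T hT ξ θ hξ hθ hsm d hd G' hG' hl f0 hf0 hdiv e he hli H0 H hH0 hH
    δξ δθ δc hδθ h1 h2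

end Tangent

end Fermat.Agent.S27

end
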