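import Fermat.Agent.S27.h68_RRCons
import Fermat.Agent.S18.GR_LxDim

/-!
# S27 / B5a MOVE (row 482)

`k` algebraically closed, `xb` a chart of `Fb / k`, `g = h75_genus k xb`.

* `h82_exists_generic` : for a divisor `C` of degree `≥ 2g` and a finite set `S` of places there
  is a nonzero `h ∈ L(C)` with `ord_P h = -C P` for all `P ∈ S` (a vector space over an infinite
  field is not a finite union of proper subspaces);
* `h15_move` (row export, skeleton shape): for a degree-zero divisor `Db` and a finite set `Bad`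
  there are `g` distinct non-special places `T_j` outside `Bad`, an effective `Gp` supported in
  the poles of `xb`, and an effective `E` avoiding the `T_j`, with `deg (Gp - E) = g` and
  `∑ T_j - (Gp - E) - Db` principal.
-/

set_option autoImplicit false

open AlgebraicCurve IntermediateField

namespace Fermat.Agent.S27

open Fermat.Agent.S18

section Move

variable {k Fb : Type*} [Field k] [IsAlgClosed k] [Field Fb] [Algebra k Fb]

omit [IsAlgClosed k] in
/-- membership in `L(C - P)` for a section of `L(C)` that has extra vanishing at `P`. -/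
theorem h82_mem_sub_point {C : Divisor k Fb} {h : Fb} (hh : h ∈ riemannRochSpace C)
    (P : Place k Fb) (hP : P.ord h ≠ -C P) :
    h ∈ riemannRochSpace (C - Finsupp.single P 1) := by
  classical
  rw [mem_riemannRochSpace_iff] at hh ⊢
  intro v
  rcases hh v with h0 | h1
  · exact Or.inl h0
  · right
    rw [Finsupp.sub_apply, Finsupp.single_apply]
    split_ifs with hv
    · subst hv
      omega
    · omega

/-- **generic sections**: a divisor `C` of degree `≥ 2g` has a nonzero section with exact order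
`-C P` at every place of a given finite set. -/
theorem h82_exists_generic {xb : Fb} (hx : h75_IsChart k xb) (C : Divisor k Fb)
    (hC : 2 * (h75_genus k xb : ℤ) ≤ Divisor.degree C) (S : Finset (Place k Fb)) :
    ∃ h : Fb, h ≠ 0 ∧ h ∈ riemannRochSpace C ∧ ∀ P ∈ S, P.ord h = -C P := by
  classical
  have hfin := (h75_riemann hx C).1
  have hrr := h15_finrank_rr_of_deg hx C (by omega)
  have hinf : Infinite k := IsAlgClosed.instInfinite
  -- the proper subspaces to avoid
  let W : Place k Fb → Submodule k ↥(riemannRochSpace C) := fun P =>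
    (riemannRochSpace (C - Finsupp.single P 1)).comap (riemannRochSpace C).subtype
  have hW : ∀ P : Place k Fb, W P ≠ ⊤ := by
    intro P htop
    have hle : riemannRochSpace C ≤ riemannRochSpace (C - Finsupp.single P 1) := by
      intro f hf
      have : (⟨f, hf⟩ : ↥(riemannRochSpace C)) ∈ W P := by rw [htop]; trivial
      exact this
    have hfin' := (h75_riemann hx (C - Finsupp.single P 1)).1
    have hmono := Submodule.finrank_mono hle
    have hrr' := h15_finrank_rr_of_deg hx (C - Finsupp.single P 1) (by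
      rw [map_sub, Divisor.degree_single, h75_deg_eq_one hx P]
      push_cast
      omega)
    rw [map_sub, Divisor.degree_single, h75_deg_eq_one hx P] at hrr'
    push_cast at hrr'
    have : (Module.finrank k ↥(riemannRochSpace C) : ℤ) ≤
        Module.finrank k ↥(riemannRochSpace (C - Finsupp.single P 1)) := by exact_mod_cast hmono
    omega
  have hbot : (⊥ : Submodule k ↥(riemannRochSpace C)) ≠ ⊤ := by
    intro hbt
    have h0 : Module.finrank k ↥(riemannRochSpace C) = 0 := by
      rw [← finrank_top k ↥(riemannRochSpace C), ← hbt, finrank_bot]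
    rw [h0] at hrr
    push_cast at hrr
    omega
  let s : Finset (Submodule k ↥(riemannRochSpace C)) := insert ⊥ (S.image W)
  have hs : (⊤ : Submodule k ↥(riemannRochSpace C)) ∉ s := by
    intro hmem
    rcases Finset.mem_insert.mp hmem with h | h
    · exact hbot h.symm
    · obtain ⟨P, -, hP⟩ := Finset.mem_image.mp h
      exact hW P hP
  have hne := Subspace.biUnion_ne_univ_of_top_notMem hs
  obtain ⟨v, hv⟩ : ∃ v : ↥(riemannRochSpace C), v ∉ ⋃ p ∈ s, (p : Set ↥(riemannRochSpace C)) := by
    by_contra hall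
    push Not at hall
    exact hne (Set.eq_univ_of_forall hall)
  have hv' : ∀ p ∈ s, v ∉ p := by
    intro p hp hvp
    exact hv (Set.mem_biUnion hp hvp)
  have hv0 : (v : Fb) ≠ 0 := by
    intro h0
    refine hv' ⊥ (Finset.mem_insert_self _ _) ?_
    rw [Submodule.mem_bot]
    exact Subtype.ext h0
  refine ⟨v, hv0, v.2, fun P hP => ?_⟩
  by_contra hne'
  refine hv' (W P) (Finset.mem_insert_of_mem (Finset.mem_image_of_mem W hP)) ?_
  exact h82_mem_sub_point v.2 P hne'

/-- the degree of a sum of points. -/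
theorem h82_degree_sum_single {xb : Fb} (hx : h75_IsChart k xb) {ι : Type*} (s : Finset ι)
    (T : ι → Place k Fb) :
    Divisor.degree (∑ j ∈ s, Finsupp.single (T j) (1 : ℤ)) = s.card := by
  rw [map_sum]
  simp [Divisor.degree_single, h75_deg_eq_one hx]

/-- **MOVE** (row export, skeleton shape). -/
theorem h15_move {xb : Fb} (hx : h75_IsChart k xb) (Db : Divisor k Fb)
    (hdeg : Divisor.degree Db = 0) (Bad : Set (Place k Fb)) (hBad : Bad.Finite) :
    ∃ (T : Fin (h75_genus k xb) → Place k Fb) (Gp E : Divisor k Fb),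
      Function.Injective T ∧ (∀ j, T j ∉ Bad) ∧
      0 ≤ Gp ∧ (∀ P : Place k Fb, Gp P ≠ 0 → xb ∉ P.toValuationSubring) ∧
      0 ≤ E ∧ (∀ j, E (T j) = 0) ∧
      Divisor.degree (Gp - E) = h75_genus k xb ∧
      (∑ j, Finsupp.single (T j) (1 : ℤ)) - (Gp - E) - Db ∈
        Divisor.principal (K := k) (F := Fb) ∧
      Module.finrank k (riemannRochSpace (∑ j, Finsupp.single (T j) (1 : ℤ))) = 1 := by
  classical
  obtain ⟨T, hTinj, hTBad, -, hTrr⟩ := h68_exists_nonspecial hx hBad.toFinset
    (fun _ _ => True) (fun P => by simp)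
  obtain ⟨Einf, hEinf, hEdeg⟩ := h7_exists_poleDiv hx
  have hdpos : 0 < Module.finrank k⟮xb⟯ Fb := by
    have := hx.fin
    exact Module.finrank_pos
  obtain ⟨N, hN⟩ : ∃ N : ℕ, N = 3 * h75_genus k xb := ⟨_, rfl⟩
  obtain ⟨Gp, hGp⟩ : ∃ Gp : Divisor k Fb, Gp = N • Einf := ⟨_, rfl⟩
  have hGpapp : ∀ P : Place k Fb, Gp P = (N : ℤ) * max (-P.ord xb) 0 := by
    intro P
    rw [hGp, Finsupp.smul_apply, hEinf, nsmul_eq_mul]
  have hGpdeg : Divisor.degree Gp = (N : ℤ) * (Module.finrank k⟮xb⟯ Fb : ℤ) := by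
    rw [hGp, map_nsmul, hEdeg, nsmul_eq_mul]
  have hTdeg : Divisor.degree (∑ j, Finsupp.single (T j) (1 : ℤ)) = (h75_genus k xb : ℤ) := by
    rw [h82_degree_sum_single hx]
    simp
  obtain ⟨C, hCdef⟩ : ∃ C : Divisor k Fb,
      C = Gp - ∑ j, Finsupp.single (T j) (1 : ℤ) + Db := ⟨_, rfl⟩
  have hCdeg : Divisor.degree C =
      (N : ℤ) * (Module.finrank k⟮xb⟯ Fb : ℤ) - h75_genus k xb := by
    rw [hCdef, map_add, map_sub, hGpdeg, hTdeg, hdeg, add_zero]
  have hC2 : 2 * (h75_genus k xb : ℤ) ≤ Divisor.degree C := by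
    rw [hCdeg, hN]
    have h1 : (1 : ℤ) ≤ (Module.finrank k⟮xb⟯ Fb : ℤ) := by exact_mod_cast hdpos
    have h2 : (0 : ℤ) ≤ (h75_genus k xb : ℤ) := Int.natCast_nonneg _
    push_cast
    nlinarith
  obtain ⟨h, hh0, hhC, hhT⟩ := h82_exists_generic hx C hC2 (Finset.univ.image T)
  obtain ⟨Dh, hDh⟩ := h7_exists_div hx h hh0
  have hDhdeg := h7_degree_div hx hh0 Dh hDh
  refine ⟨T, Gp, C + Dh, hTinj, fun j hj => hTBad j (hBad.mem_toFinset.mpr hj), ?_, ?_, ?_, ?_,
    ?_, ?_, hTrr⟩
  · -- `0 ≤ Gp`
    rw [Finsupp.le_def]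
    intro P
    rw [hGpapp, Finsupp.zero_apply]
    exact mul_nonneg (Int.natCast_nonneg _) (le_max_right _ _)
  · -- support of `Gp` in the poles of `xb`
    intro P hP hmem
    apply hP
    rw [hGpapp]
    have h0 : 0 ≤ P.ord xb := (Fermat.Agent.S24.h35_mem_iff_ord_nonneg P hx.ne_zero).mp hmem
    rw [max_eq_right (by omega), mul_zero]
  · -- `0 ≤ E`
    rw [Finsupp.le_def]
    intro P
    rw [Finsupp.zero_apply, Finsupp.add_apply, hDh]
    rcases (mem_riemannRochSpace_iff.mp hhC) P with h0 | h0
    · exact absurd h0 hh0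
    · omega
  · -- `E (T j) = 0`
    intro j
    rw [Finsupp.add_apply, hDh, hhT (T j) (Finset.mem_image_of_mem T (Finset.mem_univ j))]
    omega
  · -- degree
    have : Gp - (C + Dh) = ∑ j, Finsupp.single (T j) (1 : ℤ) - Db - Dh := by
      rw [hCdef]
      abel
    rw [this, map_sub, map_sub, hTdeg, hdeg, hDhdeg]
    ring
  · -- principal
    have : ∑ j, Finsupp.single (T j) (1 : ℤ) - (Gp - (C + Dh)) - Db = Dh := by
      rw [hCdef]
      abel
    rw [this]
    exact ⟨h, hh0, hDh⟩

end Move

end Fermat.Agent.S27
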