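import Mathlib
import Fermat.Agent.S27.TruncDefs
import Fermat.Agent.S18.GR_ChartPt

/-!
# S27, block B5 LIFT, row B5b TRUNC (helper69): truncated expansions at a place

`K` algebraically closed, `F / K` a function field, `P` a place, `t = x - ξ` of positive order
(a uniformizer for TRUNC-EX / TRUNC-ORD).

* `h15_exists_trunc` : every regular `y` has a truncated expansion `θ(t)` of any order;
* `h15_trunc_of_root` : a truncated root of `Φ(ξ + u, ·)` through a simple point is the truncated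
  expansion of `y`;
* `h15_ord_ge_iff_trunc` : `ord_P H(x, y) ≥ m ↔ u^m ∣ H(ξ + u, θ(u))`;
* `h69_aeval_unif` (e) : `ord_P h(t) ≥ m ↔ u^m ∣ h` for a uniformizer `t`;
* `h69_leading_term` (f) : the coefficient of `t^m` of `H(x, y)`;
* `h69_trunc_of_root`, `h69_ord_ge_iff_trunc` : the same statements without `IsAlgClosed K`.
-/

set_option autoImplicit false

noncomputable section

open AlgebraicCurve Fermat.Agent.S18 Fermat.Agent.S24 Polynomial

namespace Fermat.Agent.S27

section Trunc

variable {K F : Type*} [Field K] [Field F] [Algebra K F]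

/-! ### The order calculus `ord_P f ≥ n` (or `f = 0`) -/

/-- `f = 0` or `ord_P f ≥ n`. -/
def h69_Ge (P : Place K F) (f : F) (n : ℤ) : Prop :=
  P.adicValuation f ≤ WithZero.exp (-n)

theorem h69_ge_iff (P : Place K F) (f : F) (n : ℤ) : h69_Ge P f n ↔ f = 0 ∨ n ≤ P.ord f := by
  unfold h69_Ge
  rw [P.adicValuation_le_exp_iff, neg_neg]

theorem h69_ge_zero (P : Place K F) (n : ℤ) : h69_Ge P 0 n :=
  (h69_ge_iff P 0 n).mpr (Or.inl rfl)

theorem h69_ge_add (P : Place K F) {f g : F} {n : ℤ} (hf : h69_Ge P f n) (hg : h69_Ge P g n) :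
    h69_Ge P (f + g) n :=
  (Valuation.map_add _ _ _).trans (max_le hf hg)

theorem h69_ge_neg (P : Place K F) {f : F} {n : ℤ} (hf : h69_Ge P f n) : h69_Ge P (-f) n := by
  unfold h69_Ge at hf ⊢
  rwa [Valuation.map_neg]

theorem h69_ge_sub (P : Place K F) {f g : F} {n : ℤ} (hf : h69_Ge P f n) (hg : h69_Ge P g n) :
    h69_Ge P (f - g) n := by
  rw [sub_eq_add_neg]
  exact h69_ge_add P hf (h69_ge_neg P hg)

theorem h69_ge_mul (P : Place K F) {f g : F} {n k : ℤ} (hf : h69_Ge P f n) (hg : h69_Ge P g k) :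
    h69_Ge P (f * g) (n + k) := by
  unfold h69_Ge at hf hg ⊢
  rw [map_mul, neg_add, WithZero.exp_add]
  exact mul_le_mul' hf hg

theorem h69_ge_mono (P : Place K F) {f : F} {n k : ℤ} (hkn : k ≤ n) (hf : h69_Ge P f n) :
    h69_Ge P f k := by
  unfold h69_Ge at hf ⊢
  exact hf.trans (WithZero.exp_le_exp.mpr (by omega))

theorem h69_ge_zero_iff (P : Place K F) (f : F) : h69_Ge P f 0 ↔ f ∈ P.toValuationSubring := by
  rw [h69_ge_iff]
  constructor
  · rintro (h | h)
    · rw [h]
      exact zero_mem _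
    · exact h24_mem_of_ord_nonneg P h
  · intro h
    exact Or.inr (h24_ord_nonneg_of_mem P h)

theorem h69_ge_one_iff (P : Place K F) (f : F) : h69_Ge P f 1 ↔ h39_Val P f 0 := by
  rw [h69_ge_iff, h39_val_zero_iff]
  constructor
  · rintro (h | h)
    · exact Or.inl h
    · exact Or.inr (by omega)
  · rintro (h | h)
    · exact Or.inl h
    · exact Or.inr (by omega)

theorem h69_ge_mul_mem (P : Place K F) {f g : F} {n : ℤ} (hf : h69_Ge P f n)
    (hg : g ∈ P.toValuationSubring) : h69_Ge P (f * g) n := by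
  have := h69_ge_mul P hf ((h69_ge_zero_iff P g).mpr hg)
  rwa [add_zero] at this

theorem h69_ge_pow (P : Place K F) {t : F} (ht : h69_Ge P t 1) (m : ℕ) :
    h69_Ge P (t ^ m) (m : ℤ) := by
  induction m with
  | zero =>
    rw [pow_zero, Nat.cast_zero, h69_ge_zero_iff]
    exact one_mem _
  | succ m ih =>
    rw [pow_succ, Nat.cast_succ]
    exact h69_ge_mul P ih ht

/-- Multiplication by a uniformizer shifts the order by one. -/
theorem h69_ge_mul_unif (P : Place K F) {t : F} (ht : P.ord t = 1) (g : F) (n : ℤ) :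
    h69_Ge P (g * t) (n + 1) ↔ h69_Ge P g n := by
  have ht0 : t ≠ 0 := by
    rintro rfl
    simp at ht
  rw [h69_ge_iff, h69_ge_iff]
  by_cases hg : g = 0
  · simp [hg]
  · rw [P.ord_mul hg ht0, ht]
    constructor
    · rintro (h | h)
      · exact absurd h (mul_ne_zero hg ht0)
      · exact Or.inr (by omega)
    · rintro (h | h)
      · exact absurd h hg
      · exact Or.inr (by omega)

/-- A regular function whose value is nonzero has valuation one. -/
theorem h69_adic_eq_one_of_val (P : Place K F) {f : F} {b : K} (hf : h39_Val P f b)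
    (hb : b ≠ 0) : P.adicValuation f = 1 := by
  have h0 : P.ord f = 0 := h39_ord_eq_zero_of_val P hf hb
  have hf0 : f ≠ 0 := by
    rintro rfl
    rcases hf with h | h
    · exact hb ((_root_.map_eq_zero (algebraMap K F)).mp h.symm)
    · rw [zero_sub, h35_ord_neg, h35_ord_algebraMap] at h
      exact lt_irrefl _ h
  rw [P.adicValuation_eq_exp_neg_ord hf0, h0, neg_zero, WithZero.exp_zero]

/-! ### Values of polynomial expressions -/

theorem h69_val_neg (P : Place K F) {f : F} {b : K} (hf : h39_Val P f b) :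
    h39_Val P (-f) (-b) := by
  have h := h39_val_mul P (h39_val_algebraMap P (-1 : K)) hf
  rw [map_neg, map_one, neg_one_mul, neg_one_mul] at h
  exact h

theorem h69_val_sub (P : Place K F) {f g : F} {b c : K} (hf : h39_Val P f b)
    (hg : h39_Val P g c) : h39_Val P (f - g) (b - c) := by
  rw [sub_eq_add_neg, sub_eq_add_neg]
  exact h39_val_add P hf (h69_val_neg P hg)

theorem h69_val_pow (P : Place K F) {f : F} {b : K} (hf : h39_Val P f b) (n : ℕ) :
    h39_Val P (f ^ n) (b ^ n) := by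
  induction n with
  | zero =>
    rw [pow_zero, pow_zero]
    have := h39_val_algebraMap P (1 : K) (F := F)
    rwa [map_one] at this
  | succ n ih =>
    rw [pow_succ, pow_succ]
    exact h39_val_mul P ih hf

theorem h69_val_aeval (P : Place K F) {z : F} {b : K} (hz : h39_Val P z b) (θ : K[X]) :
    h39_Val P (aeval z θ) (θ.eval b) := by
  induction θ using Polynomial.induction_on' with
  | add p q hp hq =>
    rw [map_add, eval_add]
    exact h39_val_add P hp hq
  | monomial n a =>
    rw [aeval_monomial, eval_monomial]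
    exact h39_val_mul P (h39_val_algebraMap P a) (h69_val_pow P hz n)

/-- The value of `H(x, y)` is `H(ξ, η)`. -/
theorem h69_val_ev2 (P : Place K F) {x y : F} {ξ η : K} (hx : h39_Val P x ξ)
    (hy : h39_Val P y η) (H : Polynomial (Polynomial K)) :
    h39_Val P (h15_ev2 x y H) ((H.eval (C η)).eval ξ) := by
  induction H using Polynomial.induction_on' with
  | add p q hp hq =>
    rw [h69_ev2_add, eval_add, eval_add]
    exact h39_val_add P hp hq
  | monomial n c =>
    rw [h69_ev2_monomial, eval_monomial, eval_mul, eval_pow, eval_C]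
    exact h39_val_mul P (h69_val_aeval P hx c) (h69_val_pow P hy n)

/-- The value of the inverse of a function with nonzero value. -/
theorem h69_val_inv (P : Place K F) {f : F} {b : K} (hf : h39_Val P f b) (hb : b ≠ 0) :
    h39_Val P f⁻¹ b⁻¹ := by
  have hv : P.adicValuation f = 1 := h69_adic_eq_one_of_val P hf hb
  have hf0 : f ≠ 0 := by
    rintro rfl
    rw [map_zero] at hv
    exact zero_ne_one hv
  have hb0 : algebraMap K F b ≠ 0 := (_root_.map_ne_zero (algebraMap K F)).mpr hb
  have hd : h39_Val P (algebraMap K F b - f) 0 := by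
    have := h69_val_sub P (h39_val_algebraMap P b) hf
    rwa [sub_self] at this
  rw [← h69_ge_one_iff] at hd
  have key : f⁻¹ - algebraMap K F b⁻¹ = (algebraMap K F b - f) * (f⁻¹ * algebraMap K F b⁻¹) := by
    rw [map_inv₀]
    field_simp
  have hmem : f⁻¹ * algebraMap K F b⁻¹ ∈ P.toValuationSubring := by
    rw [← h69_ge_zero_iff]
    unfold h69_Ge
    rw [map_mul, map_inv₀, hv, inv_one, one_mul, neg_zero, WithZero.exp_zero]
    exact P.adicValuation_algebraMap_le_one _
  have h1 : h69_Ge P (f⁻¹ - algebraMap K F b⁻¹) 1 := by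
    rw [key]
    exact h69_ge_mul_mem P hd hmem
  rw [h69_ge_iff] at h1
  rcases h1 with h | h
  · exact Or.inl (sub_eq_zero.mp h)
  · exact Or.inr (by omega)

/-! ### Two-variable evaluation inside the valuation ring -/

/-- `H(x, y)` computed inside the valuation ring. -/
theorem h69_ev2_coe (P : Place K F) (xP yP : P.toValuationSubring)
    (H : Polynomial (Polynomial K)) :
    h15_ev2 (xP : F) (yP : F) H =
      (((H.map ((aeval xP : K[X] →ₐ[K] P.toValuationSubring) :
        K[X] →+* P.toValuationSubring)).eval yP : P.toValuationSubring) : F) := by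
  have hc : ∀ c : K[X], ((aeval xP c : P.toValuationSubring) : F) = aeval (xP : F) c := by
    intro c
    have := Polynomial.aeval_algHom_apply (IsScalarTower.toAlgHom K P.toValuationSubring F) xP c
    exact this.symm
  induction H using Polynomial.induction_on' with
  | add p q hp hq =>
    rw [h69_ev2_add, hp, hq, Polynomial.map_add, eval_add]
    rfl
  | monomial n c =>
    rw [h69_ev2_monomial, Polynomial.map_monomial, eval_monomial, ← hc c]
    rfl

theorem h69_ev2_mem (P : Place K F) {x y : F} (hx : x ∈ P.toValuationSubring)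
    (hy : y ∈ P.toValuationSubring) (H : Polynomial (Polynomial K)) :
    h15_ev2 x y H ∈ P.toValuationSubring := by
  have := h69_ev2_coe P ⟨x, hx⟩ ⟨y, hy⟩ H
  rw [this]
  exact Subtype.coe_prop _

/-- Difference quotient in `Y`: `H(x, y) - H(x, a) ∈ (y - a) O_P`. -/
theorem h69_ev2_sub_le (P : Place K F) {x y a : F} (hx : x ∈ P.toValuationSubring)
    (hy : y ∈ P.toValuationSubring) (ha : a ∈ P.toValuationSubring)
    (H : Polynomial (Polynomial K)) :
    P.adicValuation (h15_ev2 x y H - h15_ev2 x a H) ≤ P.adicValuation (y - a) := by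
  obtain ⟨g, hg⟩ := Polynomial.sub_dvd_eval_sub (⟨y, hy⟩ : P.toValuationSubring) ⟨a, ha⟩
    (H.map ((aeval (⟨x, hx⟩ : P.toValuationSubring) : K[X] →ₐ[K] P.toValuationSubring) :
      K[X] →+* P.toValuationSubring))
  have h1 := h69_ev2_coe P ⟨x, hx⟩ ⟨y, hy⟩ H
  have h2 := h69_ev2_coe P ⟨x, hx⟩ ⟨a, ha⟩ H
  have h3 := congrArg (Subtype.val : P.toValuationSubring → F) hg
  have h4 : h15_ev2 x y H - h15_ev2 x a H = (y - a) * (g : F) := by
    rw [h1, h2]
    exact h3
  rw [h4, map_mul]
  exact mul_le_of_le_one_right' (P.adicValuation_le_one_of_mem g.2)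

/-- Taylor expansion in `Y` with remainder in the valuation ring. -/
theorem h69_ev2_taylor_mem (P : Place K F) {x a w : F} (hx : x ∈ P.toValuationSubring)
    (ha : a ∈ P.toValuationSubring) (hw : w ∈ P.toValuationSubring)
    (H : Polynomial (Polynomial K)) :
    ∃ k : F, k ∈ P.toValuationSubring ∧ h15_ev2 x (a + w) H =
      h15_ev2 x a H + h15_ev2 x a (derivative H) * w + k * w ^ 2 := by
  obtain ⟨k, hk⟩ := Polynomial.binomExpansion
    (H.map ((aeval (⟨x, hx⟩ : P.toValuationSubring) : K[X] →ₐ[K] P.toValuationSubring) :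
      K[X] →+* P.toValuationSubring)) (⟨a, ha⟩ : P.toValuationSubring) ⟨w, hw⟩
  refine ⟨(k : F), k.2, ?_⟩
  have h1 := h69_ev2_coe P ⟨x, hx⟩ (⟨a, ha⟩ + ⟨w, hw⟩) H
  have h2 := h69_ev2_coe P ⟨x, hx⟩ ⟨a, ha⟩ H
  have h3 := h69_ev2_coe P ⟨x, hx⟩ ⟨a, ha⟩ (derivative H)
  rw [Polynomial.derivative_map] at hk
  have h4 := congrArg (Subtype.val : P.toValuationSubring → F) hk
  have h5 : h15_ev2 x (a + w) H = _ := h1
  rw [h5, h4]
  show _ = h15_ev2 x a H + h15_ev2 x a (derivative H) * w + (k : F) * w ^ 2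
  rw [h2, h3]
  rfl

/-! ### (e) Orders of polynomials in a uniformizer -/

theorem h69_aeval_ge_of_dvd (P : Place K F) {t : F} (ht : h69_Ge P t 1) (h : K[X]) (m : ℕ)
    (hd : X ^ m ∣ h) : h69_Ge P (aeval t h) (m : ℤ) := by
  obtain ⟨q, rfl⟩ := hd
  rw [map_mul, map_pow, aeval_X]
  have htm : t ∈ P.toValuationSubring := (h69_ge_zero_iff P t).mp (h69_ge_mono P (by omega) ht)
  exact h69_ge_mul_mem P (h69_ge_pow P ht m) (h35_aeval_mem P htm q)

/-- **(e)** For a uniformizer `t` at `P`: `ord_P h(t) ≥ m ↔ u^m ∣ h`. -/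
theorem h69_aeval_unif (P : Place K F) {t : F} (ht : P.ord t = 1) (h : K[X]) (m : ℕ) :
    P.adicValuation (aeval t h) ≤ WithZero.exp (-(m : ℤ)) ↔ X ^ m ∣ h := by
  have ht1 : h69_Ge P t 1 := (h69_ge_iff P t 1).mpr (Or.inr ht.ge)
  have htv : h39_Val P t 0 := (h69_ge_one_iff P t).mp ht1
  refine ⟨fun hv => ?_, fun hd => h69_aeval_ge_of_dvd P ht1 h m hd⟩
  induction m generalizing h with
  | zero =>
    rw [pow_zero]
    exact one_dvd _
  | succ m ih =>
    have hv' : h69_Ge P (aeval t h) ((m : ℤ) + 1) := by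
      unfold h69_Ge
      rwa [Nat.cast_succ] at hv
    -- the constant coefficient vanishes
    have h0 : h.coeff 0 = 0 := by
      have hval := h69_val_aeval P htv h
      have hzero : h39_Val P (aeval t h) 0 :=
        (h69_ge_one_iff P _).mp (h69_ge_mono P (by omega) hv')
      rw [Polynomial.coeff_zero_eq_eval_zero]
      exact h39_val_unique P hval hzero
    have hdiv : h = h.divX * X := by
      conv_lhs => rw [← Polynomial.divX_mul_X_add h, h0, map_zero, add_zero]
    rw [hdiv, map_mul, aeval_X, h69_ge_mul_unif P ht] at hv'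
    have := ih h.divX hv'
    rw [hdiv, pow_succ]
    exact mul_dvd_mul_right this X

/-! ### TRUNC-ROOT, TRUNC-ORD and the leading term (no `IsAlgClosed` needed) -/

/-- The common part of TRUNC-ROOT and of the leading term: with `a = θ(t)`, `w = y - a`, there is
`Ψ` of value `Φ_Y(ξ, η)` with `w Ψ = -Φ(x, a)`. -/
theorem h69_root_aux (P : Place K F) (x y : F) (Φ : Polynomial (Polynomial K))
    (hΦ : h15_ev2 x y Φ = 0) (ξ η : K) (hx : 0 < P.ord (x - algebraMap K F ξ))
    (hy : h39_Val P y η) (θ : K[X]) (hθ0 : θ.eval 0 = η) :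
    ∃ Ψ : F, h39_Val P Ψ ((Φ.derivative.eval (C η)).eval ξ) ∧
      (y - aeval (x - algebraMap K F ξ) θ) * Ψ =
        -aeval (x - algebraMap K F ξ) (h15_sub2 Φ ξ θ) := by
  set t : F := x - algebraMap K F ξ with ht
  have hxv : h39_Val P x ξ := Or.inr hx
  have htv : h39_Val P t 0 := by
    have := h69_val_sub P hxv (h39_val_algebraMap P ξ)
    rwa [sub_self] at this
  have hav : h39_Val P (aeval t θ) η := by
    have := h69_val_aeval P htv θ
    rwa [hθ0] at this
  have hwv : h39_Val P (y - aeval t θ) 0 := by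
    have := h69_val_sub P hy hav
    rwa [sub_self] at this
  have hxm := h39_val_mem P hxv
  have ham := h39_val_mem P hav
  have hwm := h39_val_mem P hwv
  obtain ⟨k, hk, hT⟩ := h69_ev2_taylor_mem P hxm ham hwm Φ
  rw [add_sub_cancel, hΦ, h69_ev2_aeval x ξ θ Φ] at hT
  refine ⟨h15_ev2 x (aeval t θ) (derivative Φ) + k * (y - aeval t θ), ?_, ?_⟩
  · have h1 := h69_val_ev2 P hxv hav (derivative Φ)
    have h2 : h39_Val P (k * (y - aeval t θ)) 0 := by
      rw [← h69_ge_one_iff, mul_comm]
      exact h69_ge_mul_mem P ((h69_ge_one_iff P _).mpr hwv) hk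
    have := h39_val_add P h1 h2
    rwa [add_zero] at this
  · linear_combination -hT

/-- TRUNC-ROOT without `IsAlgClosed`: a truncated root of `Φ(ξ + u, ·)` through a simple point is the
truncated expansion of `y`. -/
theorem h69_trunc_of_root (P : Place K F) (x y : F) (Φ : Polynomial (Polynomial K))
    (hΦ : h15_ev2 x y Φ = 0) (ξ η : K) (hx : 0 < P.ord (x - algebraMap K F ξ))
    (hy : h39_Val P y η) (hsm : (Φ.derivative.eval (C η)).eval ξ ≠ 0)
    (m : ℕ) (θ : K[X]) (hθ0 : θ.eval 0 = η) (hθ : X ^ m ∣ h15_sub2 Φ ξ θ) :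
    P.adicValuation (y - aeval (x - algebraMap K F ξ) θ) ≤ WithZero.exp (-(m : ℤ)) := by
  obtain ⟨Ψ, hΨ, hw⟩ := h69_root_aux P x y Φ hΦ ξ η hx hy θ hθ0
  have hΨ1 : P.adicValuation Ψ = 1 := h69_adic_eq_one_of_val P hΨ hsm
  have ht1 : h69_Ge P (x - algebraMap K F ξ) 1 := (h69_ge_iff P _ 1).mpr (Or.inr hx)
  have h1 := h69_ge_neg P (h69_aeval_ge_of_dvd P ht1 _ m hθ)
  rw [← hw] at h1
  unfold h69_Ge at h1
  rwa [map_mul, hΨ1, mul_one] at h1

/-- TRUNC-ORD without `IsAlgClosed`: orders along a truncated expansion. -/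
theorem h69_ord_ge_iff_trunc (P : Place K F) (x y : F) (ξ : K)
    (hx : P.ord (x - algebraMap K F ξ) = 1) (m : ℕ) (θ : K[X])
    (hθ : P.adicValuation (y - aeval (x - algebraMap K F ξ) θ) ≤ WithZero.exp (-(m : ℤ)))
    (H : Polynomial (Polynomial K)) :
    P.adicValuation (h15_ev2 x y H) ≤ WithZero.exp (-(m : ℤ)) ↔ X ^ m ∣ h15_sub2 H ξ θ := by
  set t : F := x - algebraMap K F ξ with ht
  have ht1 : h69_Ge P t 1 := (h69_ge_iff P t 1).mpr (Or.inr hx.ge)
  have htm : t ∈ P.toValuationSubring := (h69_ge_zero_iff P t).mp (h69_ge_mono P (by omega) ht1)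
  have hxm : x ∈ P.toValuationSubring := by
    have := P.toValuationSubring.add_mem _ _ htm (P.algebraMap_mem' ξ)
    rwa [ht, sub_add_cancel] at this
  have ham : aeval t θ ∈ P.toValuationSubring := h35_aeval_mem P htm θ
  have hwge : h69_Ge P (y - aeval t θ) (m : ℤ) := hθ
  have hwm : y - aeval t θ ∈ P.toValuationSubring :=
    (h69_ge_zero_iff P _).mp (h69_ge_mono P (by omega) hwge)
  have hym : y ∈ P.toValuationSubring := by
    have := P.toValuationSubring.add_mem _ _ hwm ham
    rwa [sub_add_cancel] at this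
  have hdiff : h69_Ge P (h15_ev2 x y H - h15_ev2 x (aeval t θ) H) (m : ℤ) :=
    (h69_ev2_sub_le P hxm hym ham H).trans hθ
  rw [← h69_aeval_unif P hx (h15_sub2 H ξ θ) m, ← h69_ev2_aeval x ξ θ H]
  constructor
  · intro h
    have := h69_ge_sub P (show h69_Ge P (h15_ev2 x y H) (m : ℤ) from h) hdiff
    rwa [sub_sub_cancel] at this
  · intro h
    have := h69_ge_add P (show h69_Ge P (h15_ev2 x (aeval t θ) H) (m : ℤ) from h) hdiff
    rwa [add_sub_cancel] at this

/-- **(f) Leading term.** Under the hypotheses of `h15_trunc_of_root` with `x - ξ` a uniformizer: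
if `u^m ∣ h := H(ξ + u, θ(u))` then `H(x, y) = κ (x - ξ)^m + (order > m)` with
`κ = h_m - (H_Y(ξ, η) / Φ_Y(ξ, η)) p_m`, `p := Φ(ξ + u, θ(u))`. -/
theorem h69_leading_term (P : Place K F) (x y : F) (Φ : Polynomial (Polynomial K))
    (hΦ : h15_ev2 x y Φ = 0) (ξ η : K) (hx : P.ord (x - algebraMap K F ξ) = 1)
    (hy : h39_Val P y η) (hsm : (Φ.derivative.eval (C η)).eval ξ ≠ 0)
    (m : ℕ) (θ : K[X]) (hθ0 : θ.eval 0 = η) (hθ : X ^ m ∣ h15_sub2 Φ ξ θ)
    (H : Polynomial (Polynomial K)) (hH : X ^ m ∣ h15_sub2 H ξ θ) :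
    P.adicValuation (h15_ev2 x y H -
      algebraMap K F ((h15_sub2 H ξ θ).coeff m -
        ((H.derivative.eval (C η)).eval ξ / (Φ.derivative.eval (C η)).eval ξ) *
          (h15_sub2 Φ ξ θ).coeff m) * (x - algebraMap K F ξ) ^ m) ≤
      WithZero.exp (-((m : ℤ) + 1)) := by
  set t : F := x - algebraMap K F ξ with ht
  have hxpos : 0 < P.ord t := by rw [hx]; exact one_pos
  have ht1 : h69_Ge P t 1 := (h69_ge_iff P t 1).mpr (Or.inr hx.ge)
  have htv : h39_Val P t 0 := (h69_ge_one_iff P t).mp ht1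
  have hxv : h39_Val P x ξ := Or.inr hxpos
  have hav : h39_Val P (aeval t θ) η := by
    have := h69_val_aeval P htv θ
    rwa [hθ0] at this
  have hwv : h39_Val P (y - aeval t θ) 0 := by
    have := h69_val_sub P hy hav
    rwa [sub_self] at this
  have hxm := h39_val_mem P hxv
  have ham := h39_val_mem P hav
  have hwm := h39_val_mem P hwv
  have htpow : h69_Ge P (t ^ m) (m : ℤ) := h69_ge_pow P ht1 m
  -- the root equation
  obtain ⟨Ψ, hΨ, hw0⟩ := h69_root_aux P x y Φ hΦ ξ η hxpos hy θ hθ0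
  have hw : (y - aeval t θ) * Ψ = -aeval t (h15_sub2 Φ ξ θ) := hw0
  have hΨ1 : P.adicValuation Ψ = 1 := h69_adic_eq_one_of_val P hΨ hsm
  have hΨ0 : Ψ ≠ 0 := by
    rintro rfl
    rw [map_zero] at hΨ1
    exact zero_ne_one hΨ1
  have hΨinv := h69_val_inv P hΨ hsm
  -- the order of `w`
  have hwge : h69_Ge P (y - aeval t θ) (m : ℤ) :=
    h69_trunc_of_root P x y Φ hΦ ξ η hxpos hy hsm m θ hθ0 hθ
  have hwge1 : h69_Ge P (y - aeval t θ) 1 := (h69_ge_one_iff P _).mpr hwv
  -- the two expansions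
  obtain ⟨qp, hqp⟩ := hθ
  obtain ⟨qh, hqh⟩ := hH
  have hpm : (h15_sub2 Φ ξ θ).coeff m = qp.eval 0 := by
    rw [hqp, ← Polynomial.coeff_zero_eq_eval_zero]
    have := Polynomial.coeff_X_pow_mul qp m 0
    rwa [zero_add] at this
  have hhm : (h15_sub2 H ξ θ).coeff m = qh.eval 0 := by
    rw [hqh, ← Polynomial.coeff_zero_eq_eval_zero]
    have := Polynomial.coeff_X_pow_mul qh m 0
    rwa [zero_add] at this
  -- Taylor expansion of `H`
  obtain ⟨k, hk, hT⟩ := h69_ev2_taylor_mem P hxm ham hwm H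
  rw [add_sub_cancel, h69_ev2_aeval x ξ θ H, hqh, map_mul, map_pow, aeval_X] at hT
  have hw' : y - aeval t θ = -(t ^ m * aeval t qp) * Ψ⁻¹ := by
    rw [hqp, map_mul, map_pow, aeval_X] at hw
    rw [← hw, mul_assoc, mul_inv_cancel₀ hΨ0, mul_one]
  -- the three error terms
  have e1 : h69_Ge P (t ^ m * (aeval t qh - algebraMap K F (qh.eval 0))) ((m : ℤ) + 1) := by
    refine h69_ge_mul P htpow ?_
    rw [h69_ge_one_iff]
    have := h69_val_sub P (h69_val_aeval P htv qh) (h39_val_algebraMap P (qh.eval 0))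
    rwa [sub_self] at this
  have e2 : h69_Ge P (t ^ m * (algebraMap K F
      (((H.derivative.eval (C η)).eval ξ / (Φ.derivative.eval (C η)).eval ξ) * qp.eval 0) -
        h15_ev2 x (aeval t θ) (derivative H) * aeval t qp * Ψ⁻¹)) ((m : ℤ) + 1) := by
    refine h69_ge_mul P htpow ?_
    rw [h69_ge_one_iff]
    have h1 := h39_val_mul P (h39_val_mul P (h69_val_ev2 P hxv hav (derivative H))
      (h69_val_aeval P htv qp)) hΨinv
    have h2 := h69_val_sub P (h39_val_algebraMap P
      (((H.derivative.eval (C η)).eval ξ / (Φ.derivative.eval (C η)).eval ξ) * qp.eval 0)) h1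
    have h3 : ((H.derivative.eval (C η)).eval ξ / (Φ.derivative.eval (C η)).eval ξ) * qp.eval 0 -
        (H.derivative.eval (C η)).eval ξ * qp.eval 0 * ((Φ.derivative.eval (C η)).eval ξ)⁻¹ = 0 := by
      field_simp
      ring
    rwa [h3] at h2
  have e3 : h69_Ge P (k * (y - aeval t θ) ^ 2) ((m : ℤ) + 1) := by
    rw [mul_comm, sq]
    exact h69_ge_mul_mem P (h69_ge_mul P hwge hwge1) hk
  have key : h15_ev2 x y H - algebraMap K F ((h15_sub2 H ξ θ).coeff m -
        ((H.derivative.eval (C η)).eval ξ / (Φ.derivative.eval (C η)).eval ξ) *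
          (h15_sub2 Φ ξ θ).coeff m) * t ^ m =
      t ^ m * (aeval t qh - algebraMap K F (qh.eval 0)) +
      t ^ m * (algebraMap K F
        (((H.derivative.eval (C η)).eval ξ / (Φ.derivative.eval (C η)).eval ξ) * qp.eval 0) -
          h15_ev2 x (aeval t θ) (derivative H) * aeval t qp * Ψ⁻¹) +
      k * (y - aeval t θ) ^ 2 := by
    rw [hT, hpm, hhm]
    have hw2 : h15_ev2 x (aeval t θ) (derivative H) * (y - aeval t θ) =
        -(t ^ m * (h15_ev2 x (aeval t θ) (derivative H) * aeval t qp * Ψ⁻¹)) := by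
      rw [hw']
      ring
    rw [hw2, map_sub]
    ring
  rw [key]
  exact h69_ge_add P (h69_ge_add P e1 e2) e3

end Trunc

section TruncAC

variable {K F : Type*} [Field K] [IsAlgClosed K] [Field F] [Algebra K F]

/-- **(B5b) TRUNC-EX.** At a place where `x - ξ` is a uniformizer, every regular `y` has a
truncated expansion of any order. -/
theorem h15_exists_trunc {x0 : F} (hx0 : h75_IsChart K x0) (P : Place K F) (x y : F) (ξ : K)
    (hx : P.ord (x - algebraMap K F ξ) = 1) (hy : y ∈ P.toValuationSubring) (m : ℕ) :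
    ∃ θ : K[X], θ.degree < m ∧
      P.adicValuation (y - aeval (x - algebraMap K F ξ) θ) ≤ WithZero.exp (-(m : ℤ)) := by
  set t : F := x - algebraMap K F ξ with ht
  have ht0 : t ≠ 0 := by
    intro h0
    rw [h0] at hx
    simp at hx
  induction m generalizing y with
  | zero =>
    refine ⟨0, ?_, ?_⟩
    · rw [Polynomial.degree_zero]
      exact WithBot.bot_lt_coe _
    · rw [map_zero, sub_zero]
      exact (h69_ge_zero_iff P y).mpr hy
  | succ m ih =>
    obtain ⟨b, hb⟩ := h39_exists_val hx0 P hy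
    have h1 : h69_Ge P (y - algebraMap K F b) 1 := by
      rw [h69_ge_one_iff]
      have := h69_val_sub P hb (h39_val_algebraMap P b)
      rwa [sub_self] at this
    set y1 : F := (y - algebraMap K F b) / t with hy1
    have hy1t : y1 * t = y - algebraMap K F b := by
      rw [hy1, div_mul_cancel₀ _ ht0]
    have hy1mem : y1 ∈ P.toValuationSubring := by
      rw [← h69_ge_zero_iff, ← h69_ge_mul_unif P hx y1 0, hy1t, zero_add]
      exact h1
    obtain ⟨θ1, hdeg, hθ1⟩ := ih y1 hy1mem
    refine ⟨C b + θ1 * X, ?_, ?_⟩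
    · rw [Polynomial.degree_lt_iff_coeff_zero] at hdeg ⊢
      intro k hk
      obtain ⟨k', rfl⟩ : ∃ k', k = k' + 1 := ⟨k - 1, by omega⟩
      rw [coeff_add, coeff_C_succ, coeff_mul_X, zero_add]
      exact hdeg k' (by omega)
    · have key : y - aeval t (C b + θ1 * X) = (y1 - aeval t θ1) * t := by
        rw [map_add, map_mul, aeval_X, aeval_C, sub_mul, hy1t]
        ring
      rw [key]
      have := (h69_ge_mul_unif P hx (y1 - aeval t θ1) (m : ℤ)).mpr hθ1
      unfold h69_Ge at this
      rwa [Nat.cast_succ]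

set_option linter.unusedSectionVars false in
/-- **(B5b) TRUNC-ROOT.** A truncated root of `Φ(ξ + u, ·)` through a simple point is the
truncated expansion of `y`. -/
theorem h15_trunc_of_root (P : Place K F) (x y : F) (Φ : Polynomial (Polynomial K))
    (hΦ : h15_ev2 x y Φ = 0) (ξ η : K) (hx : 0 < P.ord (x - algebraMap K F ξ))
    (hy : h39_Val P y η) (hsm : (Φ.derivative.eval (C η)).eval ξ ≠ 0)
    (m : ℕ) (θ : K[X]) (hθ0 : θ.eval 0 = η) (hθ : X ^ m ∣ h15_sub2 Φ ξ θ) :
    P.adicValuation (y - aeval (x - algebraMap K F ξ) θ) ≤ WithZero.exp (-(m : ℤ)) :=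
  h69_trunc_of_root P x y Φ hΦ ξ η hx hy hsm m θ hθ0 hθ

set_option linter.unusedSectionVars false in
/-- **(B5b) TRUNC-ORD.** Orders along a truncated expansion. -/
theorem h15_ord_ge_iff_trunc (P : Place K F) (x y : F) (ξ : K)
    (hx : P.ord (x - algebraMap K F ξ) = 1) (m : ℕ) (θ : K[X])
    (hθ : P.adicValuation (y - aeval (x - algebraMap K F ξ) θ) ≤ WithZero.exp (-(m : ℤ)))
    (H : Polynomial (Polynomial K)) :
    P.adicValuation (h15_ev2 x y H) ≤ WithZero.exp (-(m : ℤ)) ↔ X ^ m ∣ h15_sub2 H ξ θ :=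
  h69_ord_ge_iff_trunc P x y ξ hx m θ hθ H

end TruncAC

end Fermat.Agent.S27

end
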