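import Fermat.Agent.S27.Trunc

/-!
# S27, block B5 LIFT, row B5e-CO5 GOODPOINT (row 516)

One function field `F / K`, `K` algebraically closed, any characteristic; `x` a chart,
`y` regular on the chart, `Ψ(x, y) = 0`, and `d(x)` a common denominator of the functions
regular on the chart (`d(x) f = H(x, y)`).

* `h2_val_ev2` : the value of `H(x, y)` at a place with coordinates `(b, c)` is `H(b, c)`;
* `h68_ev2_decomp` : `H(x, y) = (y - c) B(x, y) + (x - b) A(x) + H(b, c)` with
  `B(b, c) = H_Y(b, c)`;
* `h2_good_point` : at a smooth point `(b, c)` of the plane model with `d(b) ≠ 0` the function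
  `x - b` is a uniformizer and the place is determined by its coordinates.
-/

set_option autoImplicit false

noncomputable section

open AlgebraicCurve Fermat.Agent.S18 Polynomial IntermediateField

namespace Fermat.Agent.S27

variable {K F : Type*} [Field K] [Field F] [Algebra K F]

/-- **(V)** the value of `H(x, y)` at a place with coordinates `(b, c)` is `H(b, c)`. -/
theorem h2_val_ev2 (Q : Place K F) {x y : F} {b c : K} (hb : h39_Val Q x b)
    (hc : h39_Val Q y c) (H : Polynomial (Polynomial K)) :
    h39_Val Q (h15_ev2 x y H) ((H.eval (C c)).eval b) :=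
  h69_val_ev2 Q hb hc H

/-- Taylor decomposition of `H(x, y)` at the point `(b, c)`:
`H(x, y) = (y - c) B(x, y) + (x - b) A(x) + H(b, c)` with `B(b, c) = H_Y(b, c)`. -/
theorem h68_ev2_decomp (x y : F) (b c : K) (H : Polynomial (Polynomial K)) :
    ∃ (B : Polynomial (Polynomial K)) (A : K[X]),
      h15_ev2 x y H = (y - algebraMap K F c) * h15_ev2 x y B +
        (x - algebraMap K F b) * aeval x A + algebraMap K F ((H.eval (C c)).eval b) ∧
      (B.eval (C c)).eval b = (H.derivative.eval (C c)).eval b := by
  -- division by `Y - c`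
  have h1 : H = (X - C (C c)) * (H /ₘ (X - C (C c))) + C (H.eval (C c)) := by
    have := Polynomial.X_sub_C_mul_divByMonic_eq_sub_modByMonic H (C c)
    rw [Polynomial.modByMonic_X_sub_C_eq_C_eval] at this
    rw [this]
    ring
  -- division by `X - b`
  have h2 : H.eval (C c) = (X - C b) * ((H.eval (C c)) /ₘ (X - C b)) +
      C ((H.eval (C c)).eval b) := by
    have := Polynomial.X_sub_C_mul_divByMonic_eq_sub_modByMonic (H.eval (C c)) b
    rw [Polynomial.modByMonic_X_sub_C_eq_C_eval] at this
    rw [this]
    ring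
  refine ⟨H /ₘ (X - C (C c)), (H.eval (C c)) /ₘ (X - C b), ?_, ?_⟩
  · conv_lhs => rw [h1]
    rw [h69_ev2_add, h69_ev2_mul, h69_ev2_sub, h69_ev2_X, h69_ev2_C_C, h69_ev2_C]
    conv_lhs => rw [h2]
    rw [map_add, map_mul, map_sub, aeval_X, aeval_C, aeval_C]
    ring
  · have h3 := congrArg (fun G : Polynomial (Polynomial K) => (derivative G).eval (C c)) h1
    simp only [derivative_add, derivative_mul, derivative_sub, derivative_X, derivative_C,
      sub_zero, one_mul, eval_add, eval_mul, eval_sub, eval_X, eval_C, sub_self, zero_mul,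
      add_zero] at h3
    rw [h3]

set_option linter.unusedVariables false in
/-- **(CO5) GOODPOINT.** At a smooth point of the plane model outside the zeros of the
denominator `d`, the function `x - b` is a uniformizer and the place is determined by its
coordinates. -/
theorem h2_good_point [IsAlgClosed K] {x y : F} (hx : h75_IsChart K x) (hy : h39_Reg K x y)
    (Ψ : Polynomial (Polynomial K)) (hroot : h15_ev2 x y Ψ = 0) (d : K[X])
    (hden : ∀ f : F, h39_Reg K x f →
      ∃ H : Polynomial (Polynomial K), h15_ev2 x y H = aeval x d * f)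
    (Q : Place K F) (b c : K) (hb : h39_Val Q x b) (hc : h39_Val Q y c) (hd : d.eval b ≠ 0)
    (hsm : (Ψ.derivative.eval (C c)).eval b ≠ 0) :
    Q.ord (x - algebraMap K F b) = 1 ∧
      ∀ Q' : Place K F, h39_Val Q' x b → h39_Val Q' y c → Q' = Q := by
  have hxQ : x ∈ Q.toValuationSubring := h39_val_mem Q hb
  have hyQ : y ∈ Q.toValuationSubring := h39_val_mem Q hc
  have hxb : x - algebraMap K F b ≠ 0 := by
    intro h
    apply hx.tr
    rw [sub_eq_zero.mp h]
    exact isAlgebraic_algebraMap b
  have he1 : 0 < Q.ord (x - algebraMap K F b) := by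
    rcases hb with h | h
    · exact absurd (sub_eq_zero.mpr h) hxb
    · exact h
  have hzero : h39_Val Q (0 : F) 0 := by
    have := h39_val_algebraMap Q (0 : K) (F := F)
    rwa [map_zero] at this
  -- the value of `d(x)`
  have hdval : ∀ Q' : Place K F, h39_Val Q' x b → h39_Val Q' (aeval x d) (d.eval b) :=
    fun Q' h => h69_val_aeval Q' h d
  constructor
  · -- (1) `Ψ(b, c) = 0` and the order of `y - c`
    have hΨ0 : (Ψ.eval (C c)).eval b = 0 := by
      have h1 := h2_val_ev2 Q hb hc Ψ
      rw [hroot] at h1
      exact h39_val_unique Q h1 hzero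
    obtain ⟨B, A, hdec, hB⟩ := h68_ev2_decomp x y b c Ψ
    rw [hroot, hΨ0, map_zero, add_zero] at hdec
    have hBval : h39_Val Q (h15_ev2 x y B) ((Ψ.derivative.eval (C c)).eval b) := by
      rw [← hB]
      exact h2_val_ev2 Q hb hc B
    have hBadic : Q.adicValuation (h15_ev2 x y B) = 1 := h69_adic_eq_one_of_val Q hBval hsm
    set e : ℤ := Q.ord (x - algebraMap K F b) with he
    have hxe : h69_Ge Q (x - algebraMap K F b) e := (h69_ge_iff Q _ e).mpr (Or.inr le_rfl)
    -- `y - c` has order at least `e`
    have hye : h69_Ge Q (y - algebraMap K F c) e := by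
      have h1 : (y - algebraMap K F c) * h15_ev2 x y B =
          -((x - algebraMap K F b) * aeval x A) := by
        linear_combination -hdec
      have h2 : h69_Ge Q ((y - algebraMap K F c) * h15_ev2 x y B) e := by
        rw [h1]
        exact h69_ge_neg Q (h69_ge_mul_mem Q hxe
          ((h69_ge_zero_iff Q _).mp ((h69_ge_iff Q _ 0).mpr (by
            by_cases hA : aeval x A = 0
            · exact Or.inl hA
            · right
              have hm : (aeval x A : F) ∈ Q.toValuationSubring :=
                h39_val_mem Q (h69_val_aeval Q hb A)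
              exact Fermat.Agent.S24.h35_ord_nonneg_of_mem Q hm))))
      unfold h69_Ge at h2 ⊢
      rwa [map_mul, hBadic, mul_one] at h2
    -- (2) the uniformizer
    obtain ⟨π, hπreg, hπord, -⟩ := h39_exists_uniformizer hx Q b hb
    obtain ⟨H, hH⟩ := hden π hπreg
    have hπ0 : π ≠ 0 := by
      rintro rfl
      simp at hπord
    have hπval : h39_Val Q π 0 := (h39_val_zero_iff Q).mpr (Or.inr (by omega))
    have hH0 : (H.eval (C c)).eval b = 0 := by
      have h1 := h2_val_ev2 Q hb hc H
      rw [hH] at h1
      have h2 := h39_val_mul Q (hdval Q hb) hπval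
      rw [mul_zero] at h2
      exact h39_val_unique Q h1 h2
    obtain ⟨B', A', hdec', -⟩ := h68_ev2_decomp x y b c H
    rw [hH0, map_zero, add_zero, hH] at hdec'
    have hge : h69_Ge Q (aeval x d * π) e := by
      rw [hdec']
      refine h69_ge_add Q (h69_ge_mul_mem Q hye (h69_ev2_mem Q hxQ hyQ B'))
        (h69_ge_mul_mem Q hxe (h39_val_mem Q (h69_val_aeval Q hb A')))
    have hd0 : (aeval x d : F) ≠ 0 := by
      intro h
      have h1 := hdval Q hb
      rw [h] at h1
      exact hd (h39_val_unique Q h1 hzero)
    have hord : Q.ord (aeval x d * π) = 1 := by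
      rw [Q.ord_mul hd0 hπ0, h39_ord_eq_zero_of_val Q (hdval Q hb) hd, hπord, zero_add]
    rcases (h69_ge_iff Q _ e).mp hge with h | h
    · exact absurd h (mul_ne_zero hd0 hπ0)
    · rw [hord] at h
      omega
  · -- (3) uniqueness
    intro Q' hb' hc'
    symm
    refine h39_place_eq_of_val hx Q Q' hxQ (h39_val_mem Q' hb') ?_
    intro f hf v hv
    have hfQ' : f ∈ Q'.toValuationSubring := hf Q' (h39_val_mem Q' hb')
    obtain ⟨v', hv'⟩ := h39_exists_val hx Q' hfQ'
    obtain ⟨H, hH⟩ := hden f hf
    have h1 := h2_val_ev2 Q hb hc H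
    have h2 := h2_val_ev2 Q' hb' hc' H
    rw [hH] at h1 h2
    have e1 := h39_val_unique Q h1 (h39_val_mul Q (hdval Q hb) hv)
    have e2 := h39_val_unique Q' h2 (h39_val_mul Q' (hdval Q' hb') hv')
    have hvv : v = v' := by
      have : d.eval b * v = d.eval b * v' := by rw [← e1, ← e2]
      exact mul_left_cancel₀ hd this
    rw [hvv]
    exact hv'

end Fermat.Agent.S27

end
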