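import Mathlib
import Fermat.Agent.S27.h2_CoordDefs
import Fermat.Agent.S18.GR_RedAPI
import Fermat.Agent.S18.GR_Gauss
import Fermat.Agent.S18.GR_Basis
import Fermat.Agent.S18.GR_Integral

/-!
# S27, block B5 LIFT, row B5e-CO1b MODEL (row 518, helper10)

`h2_model_of_prim`: for a function `y ∈ O`, regular on the chart `x`, whose reduction is a
primitive element of `Fb / k(x̄)` (the powers `ȳ^i`, `i < n = [F : K(x)]`, are `k(x̄)`-independent),
the minimal polynomial of `y` over `K(x)` has degree `n` and coefficients in `A[x]`, and the power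
basis `1, y, …, y^(n-1)` is orthonormal for `O`: this is a plane model `h2_Model R x y Φ`.
-/

set_option autoImplicit false

noncomputable section

open AlgebraicCurve Fermat.Agent.S18 Polynomial IntermediateField

namespace Fermat.Agent.S27

variable {K F k Fb : Type*} [Field K] [Field F] [Algebra K F] [Field k] [Field Fb] [Algebra k Fb]

/-- Orthonormality of the powers of `y`: a `K(x)`-combination of the `y^i` has the valuation of
any nonzero coefficient of maximal valuation. -/
theorem h10_val_sum_pow (R : h39_RedDatum K F k Fb) {x : F} (hx : h39_WeakChart R x) {y : F}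
    (hyO : y ∈ R.O) {n : ℕ}
    (hli : LinearIndependent k⟮R.redF x⟯ (fun i : Fin n => R.redF y ^ (i : ℕ)))
    (c : Fin n → K⟮x⟯) (j : Fin n) (hj : c j ≠ 0)
    (hmax : ∀ i, R.O.valuation (c i : F) ≤ R.O.valuation (c j : F)) :
    R.O.valuation (∑ i, c i • y ^ (i : ℕ)) = R.O.valuation (c j : F) := by
  have hli' : LinearIndependent k⟮R.redF x⟯ (fun i : Fin n => R.redF (y ^ (i : ℕ))) := by
    have : (fun i : Fin n => R.redF (y ^ (i : ℕ))) = fun i : Fin n => R.redF y ^ (i : ℕ) :=
      funext fun i => h39_redF_pow R hyO i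
    rw [this]
    exact hli
  exact h44_val_sum R x (fun c _ => h39_gauss_redF_mem R hx (c : F) c.2)
    (fun i : Fin n => y ^ (i : ℕ)) (fun i => R.O.pow_mem hyO i) hli' c j hj hmax

/-- A nonzero coefficient vector has a nonzero entry of maximal valuation. -/
theorem h10_exists_max (R : h39_RedDatum K F k Fb) {x : F} {n : ℕ} (c : Fin n → K⟮x⟯)
    (i₀ : Fin n) (hi₀ : c i₀ ≠ 0) :
    ∃ j : Fin n, c j ≠ 0 ∧ ∀ i, R.O.valuation (c i : F) ≤ R.O.valuation (c j : F) := by
  obtain ⟨j, -, hjmax⟩ := Finset.exists_max_image (Finset.univ : Finset (Fin n))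
    (fun i => R.O.valuation (c i : F)) ⟨i₀, Finset.mem_univ _⟩
  refine ⟨j, ?_, fun i => hjmax i (Finset.mem_univ _)⟩
  intro hj0
  have h1 := hjmax i₀ (Finset.mem_univ _)
  rw [hj0] at h1
  have h2 : R.O.valuation ((0 : K⟮x⟯) : F) = 0 := by
    rw [ZeroMemClass.coe_zero, map_zero]
  rw [h2] at h1
  have h3 : R.O.valuation (c i₀ : F) = 0 := le_antisymm h1 zero_le
  rw [map_eq_zero] at h3
  exact hi₀ (Subtype.ext h3)

/-- the powers of `y` are `K(x)`-independent. -/
theorem h10_li_pow (R : h39_RedDatum K F k Fb) {x : F} (hx : h39_WeakChart R x) {y : F}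
    (hyO : y ∈ R.O) {n : ℕ}
    (hli : LinearIndependent k⟮R.redF x⟯ (fun i : Fin n => R.redF y ^ (i : ℕ))) :
    LinearIndependent K⟮x⟯ (fun i : Fin n => y ^ (i : ℕ)) := by
  rw [Fintype.linearIndependent_iff]
  intro g hg
  by_contra hne
  push Not at hne
  obtain ⟨i₀, hi₀⟩ := hne
  obtain ⟨j, hj, hmax⟩ := h10_exists_max R g i₀ hi₀
  have h1 := h10_val_sum_pow R hx hyO hli g j hj hmax
  rw [hg, map_zero] at h1
  have h2 : (g j : F) = 0 := by
    rw [← map_eq_zero R.O.valuation]
    exact h1.symm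
  exact hj (Subtype.ext h2)

/-- the power basis is orthonormal. -/
theorem h10_on_pow (R : h39_RedDatum K F k Fb) {x : F} (hx : h39_WeakChart R x) {y : F}
    (hyO : y ∈ R.O) {n : ℕ}
    (hli : LinearIndependent k⟮R.redF x⟯ (fun i : Fin n => R.redF y ^ (i : ℕ)))
    (c : Fin n → K⟮x⟯) (hc : ∑ i, (c i : F) * y ^ (i : ℕ) ∈ R.O) (i : Fin n) :
    (c i : F) ∈ R.O := by
  by_cases h0 : ∀ i, c i = 0
  · rw [h0 i]
    exact R.O.zero_mem
  · push Not at h0
    obtain ⟨i₀, hi₀⟩ := h0
    obtain ⟨j, hj, hmax⟩ := h10_exists_max R c i₀ hi₀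
    have h1 := h10_val_sum_pow R hx hyO hli c j hj hmax
    have h2 : ∑ i, c i • y ^ (i : ℕ) = ∑ i, (c i : F) * y ^ (i : ℕ) :=
      Finset.sum_congr rfl fun i _ => by rw [Algebra.smul_def]; rfl
    rw [h2] at h1
    have h3 : R.O.valuation (c j : F) ≤ 1 := by
      rw [← h1]
      exact (R.O.valuation_le_one_iff _).2 hc
    exact (R.O.valuation_le_one_iff _).1 ((hmax i).trans h3)

/-- the minimal polynomial of `y` over `K(x)` has degree `n = [F : K(x)]` as soon as the first
`n` powers of `y` are independent. -/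
theorem h10_natDegree_minpoly {x y : F} [FiniteDimensional K⟮x⟯ F]
    (hli : LinearIndependent K⟮x⟯ (fun i : Fin (Module.finrank K⟮x⟯ F) => y ^ (i : ℕ))) :
    (minpoly K⟮x⟯ y).natDegree = Module.finrank K⟮x⟯ F := by
  have hint : IsIntegral K⟮x⟯ y := Algebra.IsIntegral.isIntegral y
  refine le_antisymm (minpoly.natDegree_le y) ?_
  by_contra hlt
  push Not at hlt
  rw [Fintype.linearIndependent_iff] at hli
  have h1 : ∑ i : Fin (Module.finrank K⟮x⟯ F), (minpoly K⟮x⟯ y).coeff (i : ℕ) • y ^ (i : ℕ) = 0 := by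
    rw [Fin.sum_univ_eq_sum_range (fun i => (minpoly K⟮x⟯ y).coeff i • y ^ i),
      ← Polynomial.aeval_eq_sum_range' hlt, minpoly.aeval]
  have h2 := hli (fun i => (minpoly K⟮x⟯ y).coeff (i : ℕ)) h1 ⟨(minpoly K⟮x⟯ y).natDegree, hlt⟩
  have h3 : (minpoly K⟮x⟯ y).leadingCoeff = 0 := h2
  rw [(minpoly.monic hint).leadingCoeff] at h3
  exact one_ne_zero h3

variable [IsAlgClosed K] [CharZero K] [IsAlgClosed k]

/-- **(CO1b) MODEL.** The minimal polynomial of a function `y ∈ O`, regular on the chart, with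
primitive reduction has coefficients in `A[x]`, and the power basis is orthonormal. -/
theorem h2_model_of_prim (R : h39_RedDatum K F k Fb) {x : F} (hx : h39_Chart R x) {y : F}
    (hyO : y ∈ R.O) (hreg : h39_Reg K x y)
    (hli : LinearIndependent k⟮R.redF x⟯
      (fun i : Fin (Module.finrank K⟮x⟯ F) => R.redF y ^ (i : ℕ))) :
    ∃ Φ : Polynomial (Polynomial R.A), h2_Model R x y Φ := by
  have hw : h39_WeakChart R x := hx.toh39_WeakChart
  have hch : h75_IsChart K x := h39_weakChart_isChart R hw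
  have hfin : FiniteDimensional K⟮x⟯ F := hw.finite
  have hliK : LinearIndependent K⟮x⟯ (fun i : Fin (Module.finrank K⟮x⟯ F) => y ^ (i : ℕ)) :=
    h10_li_pow R hw hyO hli
  have hint' : IsIntegral K⟮x⟯ y := Algebra.IsIntegral.isIntegral y
  have hI : IsIntegral (Algebra.adjoin K {x}) y := (h75_isIntegral_iff hch y).2 hreg
  obtain ⟨b, hbO, -, hcoord⟩ := h39_exists_basis R hw
  set P : F[X] := (minpoly K⟮x⟯ y).map (algebraMap K⟮x⟯ F) with hP
  have hPm : P.Monic := (minpoly.monic hint').map _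
  have hlift : P ∈ Polynomial.lifts (h66_evalF R x) := by
    rw [Polynomial.lifts_iff_coeff_lifts]
    intro n
    rw [hP, Polynomial.coeff_map]
    have h1 := h66_minpoly_coeff_mem_O R x b hbO (fun g hg => (hcoord g).1 hg) hyO n
    have h2 := h66_minpoly_coeff_mem_adjoin hch.tr hI n
    rw [Algebra.adjoin_singleton_eq_range_aeval] at h2
    obtain ⟨p, hp⟩ := h2
    have hp' : aeval x p = (((minpoly K⟮x⟯ y).coeff n : K⟮x⟯) : F) := hp
    have hpA := (h39_gauss_mem_iff R hw p).1 (by rw [hp']; exact h1)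
    have hpl : p ∈ Polynomial.lifts (algebraMap R.A K) := by
      rw [Polynomial.lifts_iff_coeff_lifts]
      intro i
      exact ⟨⟨p.coeff i, hpA i⟩, rfl⟩
    obtain ⟨q, hq⟩ := hpl
    refine ⟨q, ?_⟩
    rw [h66_evalF_apply]
    have hq' : q.map (algebraMap R.A K) = p := hq
    rw [hq', hp']
    rfl
  obtain ⟨Φ, hΦ, hΦdeg, hΦm⟩ := Polynomial.lifts_and_natDegree_eq_and_monic hlift hPm
  refine ⟨Φ, ⟨hyO, hreg, hΦm, ?_, ?_, hliK, hli, fun c hc i => h10_on_pow R hw hyO hli c hc i⟩⟩
  · rw [hΦdeg, hP, Polynomial.natDegree_map]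
    exact h10_natDegree_minpoly hliK
  · have h1 : Polynomial.eval₂ (h66_evalF R x) y Φ = 0 := by
      rw [← Polynomial.eval_map, hΦ, hP, Polynomial.eval_map, ← Polynomial.aeval_def,
        minpoly.aeval]
    unfold h15_ev2
    rw [Polynomial.eval₂_map]
    exact h1

end Fermat.Agent.S27

end
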