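import Mathlib
import Fermat.Agent.S18.h39_GRDefs
import Fermat.Agent.S18.GR_Genus
import Fermat.Agent.S18.GR_GenusEq
import Fermat.Agent.S18.RR_Chart

/-!
# S27 / B5e-CO1a PRIM (row 517, helper96)

`h2_exists_prim` (verbatim from `h2_SkelCoord.lean`): for a reduction datum with a chart `x`
there is `y ∈ O`, regular on the chart, whose reduction is a primitive element of
`Fb / k(x̄)` (its powers `ȳ^i`, `i < [F : K(x)]`, are linearly independent over `k(x̄)`).

Proof: a primitive element `α` of `Fb / k(x̄)` becomes integral over `k[x̄]` after multiplication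
by a nonzero element of `k[x̄]`, and stays primitive; integral over `k[x̄]` = regular on the chart
(`h75_isIntegral_iff`); regular functions lift (`h39_lift_integral`, using `ḡ = g`).
-/

set_option autoImplicit false

noncomputable section

open AlgebraicCurve Fermat.Agent.S18 Polynomial IntermediateField
open scoped IntermediateField.algebraAdjoinAdjoin

namespace Fermat.Agent.S27

/-- A function field with a chart `x` has a primitive element over `K(x)` that is regular on
the chart. -/
theorem h96_exists_reg_prim {K F : Type*} [Field K] [Field F] [Algebra K F] [IsAlgClosed K]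
    {x : F} (hx : h75_IsChart K x) :
    ∃ y : F, h39_Reg K x y ∧ K⟮x⟯⟮y⟯ = ⊤ := by
  have := hx.fin
  have := hx.sep
  obtain ⟨α, hα⟩ := Field.exists_primitive_element K⟮x⟯ F
  have halg : IsAlgebraic (h75_ringA K x) α :=
    (IsFractionRing.isAlgebraic_iff (h75_ringA K x) K⟮x⟯ F).mpr
      (Algebra.IsAlgebraic.isAlgebraic α)
  obtain ⟨c, hc0, hint⟩ := halg.exists_integral_multiple
  refine ⟨c • α, (h75_isIntegral_iff hx _).mp hint, ?_⟩
  have hcL : (c : F) ∈ K⟮x⟯ := IntermediateField.algebra_adjoin_le_adjoin K {x} c.2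
  have hcF : (c : F) ≠ 0 := fun h => hc0 (Subtype.ext h)
  have hsmul : c • α = (c : F) * α := rfl
  have hmem : α ∈ K⟮x⟯⟮c • α⟯ := by
    have h1 : (⟨(c : F), hcL⟩ : K⟮x⟯)⁻¹ • (c • α) ∈ K⟮x⟯⟮c • α⟯ :=
      IntermediateField.smul_mem _ (IntermediateField.mem_adjoin_simple_self _ _)
    have h2 : (⟨(c : F), hcL⟩ : K⟮x⟯)⁻¹ • (c • α) = α := by
      rw [hsmul, Algebra.smul_def]
      show ((c : F))⁻¹ * ((c : F) * α) = α
      rw [← mul_assoc, inv_mul_cancel₀ hcF, one_mul]
    rwa [h2] at h1
  rw [eq_top_iff, ← hα]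
  exact IntermediateField.adjoin_simple_le_iff.mpr hmem

section Datum

variable {K F k Fb : Type*} [Field K] [Field F] [Algebra K F] [Field k] [Field Fb] [Algebra k Fb]
variable [IsAlgClosed K] [CharZero K] [IsAlgClosed k]

/-- **(CO1a) PRIM.** A function `y ∈ O`, regular on the chart, whose reduction is a primitive
element of `Fb / k(x̄)`. -/
theorem h2_exists_prim (R : h39_RedDatum K F k Fb) {x : F} (hx : h39_Chart R x) :
    ∃ y : F, y ∈ R.O ∧ h39_Reg K x y ∧
      LinearIndependent k⟮R.redF x⟯
        (fun i : Fin (Module.finrank K⟮x⟯ F) => R.redF y ^ (i : ℕ)) := by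
  have hxk : h75_IsChart k (R.redF x) := h39_weakChart_isChart_red R hx.toh39_WeakChart
  obtain ⟨yb, hreg, htop⟩ := h96_exists_reg_prim hxk
  obtain ⟨y, hyO, hyreg, hyred⟩ :=
    h39_lift_integral R hx.toh39_WeakChart (h39_genus_eq R hx) yb hreg
  refine ⟨y, hyO, hyreg, ?_⟩
  rw [hyred]
  have := hxk.fin
  have hdeg : (minpoly k⟮R.redF x⟯ yb).natDegree = Module.finrank K⟮x⟯ F := by
    rw [(Field.primitive_element_iff_minpoly_natDegree_eq k⟮R.redF x⟯ yb).mp htop,
      hx.finrank_eq]
  have hli := linearIndependent_pow (K := k⟮R.redF x⟯) yb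
  exact hli.comp (Fin.cast hdeg.symm) (Fin.cast_injective _)

end Datum

end Fermat.Agent.S27
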