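import Mathlib
import Fermat.Agent.S18.h75_RRDefs
import Fermat.Agent.S27.TruncDefs

/-!
# S27, block B5 LIFT, row B5e-CO4 SMOOTH (helper69)

`F / K` a function field with chart `x`, `y ∈ F` a primitive element of `F / K(x)` with monic
equation `Ψ(x, y) = 0` of degree `[F : K(x)]`.  Outside the zeros of the nonzero polynomial
`d := Res_Y(Ψ, Ψ_Y) ∈ K[X]` the points of the plane model `Ψ = 0` are smooth.

* `h2_exists_smooth` : the export;
* `h69_resultant_smooth` : the pointwise statement for `d = Res_Y(Ψ, Ψ_Y)` (any commutative ring);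
* `h69_map_toAdj_eq_minpoly` : the image of `Ψ` in `K(x)[Y]` is the minimal polynomial of `y`;
* `h69_resultant_ne_zero` : `Res_Y(Ψ, Ψ_Y) ≠ 0`.
-/

set_option autoImplicit false

noncomputable section

open AlgebraicCurve Fermat.Agent.S18 Polynomial IntermediateField

namespace Fermat.Agent.S27

section OneField

variable {K F : Type*} [Field K] [Field F] [Algebra K F]

/-- The ring homomorphism `K[X] → K(x)`, `X ↦ x`. -/
def h69_toAdj (K : Type*) {F : Type*} [Field K] [Field F] [Algebra K F] (x : F) :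
    K[X] →+* K⟮x⟯ :=
  ((aeval (⟨x, mem_adjoin_simple_self K x⟩ : K⟮x⟯) : K[X] →ₐ[K] K⟮x⟯) : K[X] →+* K⟮x⟯)

theorem h69_toAdj_coe (x : F) (p : K[X]) : ((h69_toAdj K x p : K⟮x⟯) : F) = aeval x p := by
  have := Polynomial.aeval_algHom_apply (IntermediateField.val K⟮x⟯)
    (⟨x, mem_adjoin_simple_self K x⟩ : K⟮x⟯) p
  exact this.symm

theorem h69_toAdj_injective {x : F} (hx : Transcendental K x) :
    Function.Injective (h69_toAdj K x) := by
  rw [injective_iff_map_eq_zero]
  intro p hp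
  have h1 : aeval x p = 0 := by
    rw [← h69_toAdj_coe, hp]
    rfl
  exact (transcendental_iff_injective.mp hx) (by rw [h1, map_zero])

/-- Evaluating the image of `Ψ` in `K(x)[Y]` at `y` gives `Ψ(x, y)`. -/
theorem h69_aeval_map_toAdj (x y : F) (Ψ : Polynomial (Polynomial K)) :
    aeval y (Ψ.map (h69_toAdj K x)) = h15_ev2 x y Ψ := by
  unfold h15_ev2
  rw [aeval_def, eval₂_map]
  congr 1
  exact RingHom.ext fun p => h69_toAdj_coe x p

/-- If the first `n` powers of `y` are linearly independent, a nonzero polynomial vanishing at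
`y` has degree at least `n`. -/
theorem h69_natDegree_ge_of_li {E : Type*} [Field E] [Algebra E F] {n : ℕ} {y : F}
    (hli : LinearIndependent E (fun i : Fin n => y ^ (i : ℕ))) (q : E[X]) (hq : q ≠ 0)
    (h0 : aeval y q = 0) : n ≤ q.natDegree := by
  by_contra hlt
  rw [not_le] at hlt
  have h1 : ∑ i : Fin n, q.coeff (i : ℕ) • y ^ (i : ℕ) = 0 := by
    rw [Fin.sum_univ_eq_sum_range (fun i => q.coeff i • y ^ i) n,
      ← Polynomial.aeval_eq_sum_range' hlt]
    exact h0
  have h2 := Fintype.linearIndependent_iff.mp hli (fun i => q.coeff (i : ℕ)) h1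
  apply hq
  ext i
  by_cases hi : i < n
  · exact h2 ⟨i, hi⟩
  · rw [Polynomial.coeff_zero]
    exact Polynomial.coeff_eq_zero_of_natDegree_lt (by omega)

/-- The image of `Ψ` in `K(x)[Y]` is the minimal polynomial of `y`. -/
theorem h69_map_toAdj_eq_minpoly {x y : F}
    (Ψ : Polynomial (Polynomial K)) (hmon : Ψ.Monic)
    (hdeg : Ψ.natDegree = Module.finrank K⟮x⟯ F) (hroot : h15_ev2 x y Ψ = 0)
    (hli : LinearIndependent K⟮x⟯ (fun i : Fin (Module.finrank K⟮x⟯ F) => y ^ (i : ℕ))) :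
    Ψ.map (h69_toAdj K x) = minpoly K⟮x⟯ y := by
  have hmon1 : (Ψ.map (h69_toAdj K x)).Monic := hmon.map _
  have hroot1 : aeval y (Ψ.map (h69_toAdj K x)) = 0 := by
    rw [h69_aeval_map_toAdj]
    exact hroot
  refine minpoly.unique _ _ hmon1 hroot1 (fun q hq hq0 => ?_)
  rw [Polynomial.degree_eq_natDegree hmon1.ne_zero, Polynomial.degree_eq_natDegree hq.ne_zero,
    hmon.natDegree_map, hdeg]
  exact_mod_cast h69_natDegree_ge_of_li hli q hq.ne_zero hq0

/-- **Smooth points from the resultant** (any commutative ring): if `Ψ(b, c) = 0` and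
`Res_Y(Ψ, Ψ_Y)(b) ≠ 0` then `Ψ_Y(b, c) ≠ 0`. -/
theorem h69_resultant_smooth {R : Type*} [CommRing R] (Ψ : Polynomial (Polynomial R))
    (hn0 : Ψ.natDegree ≠ 0) (b c : R) (hbc : (Ψ.eval (C c)).eval b = 0)
    (hdb : (Ψ.resultant (derivative Ψ)).eval b ≠ 0) :
    (Ψ.derivative.eval (C c)).eval b ≠ 0 := by
  obtain ⟨p, q, -, -, hpq⟩ := Polynomial.exists_mul_add_mul_eq_C_resultant Ψ (derivative Ψ)
    le_rfl le_rfl (Or.inl hn0)
  intro hder
  have h1 := congrArg (fun P : Polynomial (Polynomial R) => (P.eval (C c)).eval b) hpq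
  simp only [eval_add, eval_mul, eval_C, hbc, hder, zero_mul, add_zero] at h1
  exact hdb h1.symm

/-- `Res_Y(Ψ, Ψ_Y) ≠ 0` for the monic equation of a primitive element of `F / K(x)`. -/
theorem h69_resultant_ne_zero {x y : F} (hx : h75_IsChart K x)
    (Ψ : Polynomial (Polynomial K)) (hmon : Ψ.Monic)
    (hdeg : Ψ.natDegree = Module.finrank K⟮x⟯ F) (hroot : h15_ev2 x y Ψ = 0)
    (hli : LinearIndependent K⟮x⟯ (fun i : Fin (Module.finrank K⟮x⟯ F) => y ^ (i : ℕ))) :
    Ψ.resultant (derivative Ψ) ≠ 0 := by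
  intro hd
  have hinj := h69_toAdj_injective (K := K) hx.tr
  have hmin := h69_map_toAdj_eq_minpoly Ψ hmon hdeg hroot hli
  have := hx.sep
  have hsep : (Ψ.map (h69_toAdj K x)).Separable := by
    rw [hmin]
    exact Algebra.IsSeparable.isSeparable K⟮x⟯ y
  have hres : (Ψ.map (h69_toAdj K x)).resultant (derivative (Ψ.map (h69_toAdj K x))) ≠ 0 :=
    Polynomial.resultant_ne_zero _ _ hsep
  apply hres
  have e1 : (Ψ.map (h69_toAdj K x)).natDegree = Ψ.natDegree := hmon.natDegree_map _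
  have e2 : ((derivative Ψ).map (h69_toAdj K x)).natDegree = (derivative Ψ).natDegree :=
    Polynomial.natDegree_map_eq_of_injective hinj _
  rw [Polynomial.derivative_map, e1, e2, Polynomial.resultant_map_map, hd, map_zero]

/-- **(CO4) SMOOTH.** Outside the zeros of a nonzero `d(X)` (the resultant of `Ψ` and `Ψ_Y`)
the points of the plane model are smooth. -/
theorem h2_exists_smooth {x y : F} (hx : h75_IsChart K x)
    (Ψ : Polynomial (Polynomial K)) (hmon : Ψ.Monic)
    (hdeg : Ψ.natDegree = Module.finrank K⟮x⟯ F) (hroot : h15_ev2 x y Ψ = 0)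
    (hli : LinearIndependent K⟮x⟯ (fun i : Fin (Module.finrank K⟮x⟯ F) => y ^ (i : ℕ))) :
    ∃ d : K[X], d ≠ 0 ∧ ∀ b c : K, (Ψ.eval (C c)).eval b = 0 → d.eval b ≠ 0 →
      (Ψ.derivative.eval (C c)).eval b ≠ 0 := by
  have hn0 : Ψ.natDegree ≠ 0 := by
    intro h0
    have h1 : Ψ = 1 := Polynomial.eq_one_of_monic_natDegree_zero hmon h0
    rw [h1, h69_ev2_one] at hroot
    exact one_ne_zero hroot
  exact ⟨Ψ.resultant (derivative Ψ), h69_resultant_ne_zero hx Ψ hmon hdeg hroot hli,
    fun b c hbc hdb => h69_resultant_smooth Ψ hn0 b c hbc hdb⟩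

end OneField

end Fermat.Agent.S27

end
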