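import Fermat.Agent.S27.TruncDefs

/-!
# S27, block B5 LIFT (COMPLETE half): truncated roots are unique, exist, and are integral

For `Φ ∈ R[X][Y]` (outer variable `Y`), `ξ ∈ R`, a *truncated root of order `m`* is a polynomial
`θ ∈ R[u]` of degree `< m` with `u ^ m ∣ Φ(ξ + u, θ(u))` (`= h15_sub2 Φ ξ θ`).  If
`∂Φ/∂Y (ξ, θ(0))` is a unit then

* `h56_trunc_unique`: `θ` is determined by `θ(0)` (any commutative ring);
* `h56_trunc_exists`: a truncated root through a simple point `(ξ, η)` exists (any ring);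
* `h56_trunc_int`: over a field `K` with a subring `A` (e.g. a valuation subring), if `Φ`, `ξ`,
  `η` are defined over `A` and `∂Φ/∂Y (ξ, η)` is a unit of `A`, the truncated root over `K` has
  coefficients in `A`  (**TRUNC-INT**);
* `h56_trunc_map`, `h56_trunc_congr`: truncated roots are compatible with ring homomorphisms;
  modulo an ideal the truncated root is pinned by an approximate truncated root.

Mathlib + `TruncDefs` only.
-/

set_option autoImplicit false

noncomputable section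

open Polynomial

namespace Fermat.Agent.S27

section Unique

variable {R : Type*} [CommRing R]

/-- `X ^ m` is coprime to a polynomial with unit constant coefficient. -/
theorem h56_isCoprime_X_pow (W : R[X]) (hW : IsUnit (W.coeff 0)) (m : ℕ) :
    IsCoprime (X ^ m : R[X]) W := by
  refine IsCoprime.pow_left ?_
  obtain ⟨u, hu⟩ := hW
  -- `W = C (W.coeff 0) + X * divX W`
  refine ⟨-(C (↑u⁻¹ : R) * W.divX), C (↑u⁻¹ : R), ?_⟩
  have h := Polynomial.divX_mul_X_add W
  have h1 : C (↑u⁻¹ : R) * C (W.coeff 0) = 1 := by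
    rw [← C_mul, ← hu, Units.inv_mul, C_1]
  calc -(C (↑u⁻¹ : R) * W.divX) * X + C (↑u⁻¹ : R) * W
      = -(C (↑u⁻¹ : R) * W.divX) * X + C (↑u⁻¹ : R) * (W.divX * X + C (W.coeff 0)) := by rw [h]
    _ = C (↑u⁻¹ : R) * C (W.coeff 0) := by ring
    _ = 1 := h1

/-- A polynomial of degree `< m` divisible by `X ^ m` is zero. -/
theorem h56_eq_zero_of_X_pow_dvd (δ : R[X]) (m : ℕ) (hdeg : δ.degree < m) (h : X ^ m ∣ δ) :
    δ = 0 := by
  ext i
  rw [coeff_zero]
  by_cases hi : i < m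
  · exact (Polynomial.X_pow_dvd_iff.mp h) i hi
  · exact coeff_eq_zero_of_degree_lt (lt_of_lt_of_le hdeg (by exact_mod_cast not_lt.mp hi))

/-- **Uniqueness of truncated roots** through a point where `∂Φ/∂Y` is a unit. -/
theorem h56_trunc_unique (Φ : Polynomial (Polynomial R)) (ξ : R) (m : ℕ) (θ θ' : R[X])
    (hdeg : θ.degree < m) (hdeg' : θ'.degree < m) (h0 : θ'.eval 0 = θ.eval 0)
    (hu : IsUnit ((Φ.derivative.eval (C (θ.eval 0))).eval ξ))
    (hθ : X ^ m ∣ h15_sub2 Φ ξ θ) (hθ' : X ^ m ∣ h15_sub2 Φ ξ θ') : θ' = θ := by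
  set δ : R[X] := θ' - θ with hδ
  obtain ⟨k, hk⟩ := h69_sub2_taylor Φ ξ θ δ
  have hθ'eq : θ + δ = θ' := by rw [hδ]; ring
  rw [hθ'eq] at hk
  set W : R[X] := h15_sub2 (derivative Φ) ξ θ + k * δ with hW
  have hfac : h15_sub2 Φ ξ θ' - h15_sub2 Φ ξ θ = δ * W := by
    rw [hk, hW]; ring
  have hδ0 : δ.coeff 0 = 0 := by
    rw [hδ, coeff_sub, coeff_zero_eq_eval_zero, coeff_zero_eq_eval_zero, h0, sub_self]
  have hW0 : W.coeff 0 = (Φ.derivative.eval (C (θ.eval 0))).eval ξ := by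
    rw [hW, coeff_add, mul_coeff_zero, hδ0, mul_zero, add_zero, h69_sub2_coeff_zero,
      coeff_zero_eq_eval_zero]
  have hdvd : X ^ m ∣ δ * W := by
    rw [← hfac]
    exact dvd_sub hθ' hθ
  have hcop : IsCoprime (X ^ m : R[X]) W := h56_isCoprime_X_pow W (by rw [hW0]; exact hu) m
  have hdvd' : X ^ m ∣ δ := hcop.dvd_of_dvd_mul_right hdvd
  have hδdeg : δ.degree < m := lt_of_le_of_lt (degree_sub_le _ _) (max_lt hdeg' hdeg)
  have := h56_eq_zero_of_X_pow_dvd δ m hδdeg hdvd'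
  rw [hδ] at this
  exact sub_eq_zero.mp this

/-- **Existence of truncated roots** through a simple point `(ξ, η)` of `Φ`. -/
theorem h56_trunc_exists (Φ : Polynomial (Polynomial R)) (ξ η : R)
    (hroot : (Φ.eval (C η)).eval ξ = 0)
    (hu : IsUnit ((Φ.derivative.eval (C η)).eval ξ)) (m : ℕ) (hm : 0 < m) :
    ∃ θ : R[X], θ.degree < m ∧ θ.eval 0 = η ∧ X ^ m ∣ h15_sub2 Φ ξ θ := by
  obtain ⟨n, rfl⟩ : ∃ n, m = n + 1 := ⟨m - 1, by omega⟩
  clear hm
  induction n with
  | zero =>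
    refine ⟨C η, ?_, eval_C, ?_⟩
    · exact lt_of_le_of_lt degree_C_le (by norm_num)
    · rw [zero_add, pow_one, Polynomial.X_dvd_iff, h69_sub2_coeff_zero, coeff_C_zero]
      exact hroot
  | succ n ih =>
    obtain ⟨θ, hdeg, h0, hdvd⟩ := ih
    obtain ⟨u, hu'⟩ := hu
    set c : R := -(↑u⁻¹ : R) * (h15_sub2 Φ ξ θ).coeff (n + 1) with hc
    set ω : R[X] := C c * X ^ (n + 1) with hω
    have hω0 : ω.eval 0 = 0 := by rw [hω]; simp
    refine ⟨θ + ω, ?_, ?_, ?_⟩
    · refine lt_of_le_of_lt (degree_add_le _ _) (max_lt ?_ ?_)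
      · exact lt_trans hdeg (by exact_mod_cast Nat.lt_succ_self (n + 1))
      · refine lt_of_le_of_lt (degree_C_mul_X_pow_le (n + 1) c) ?_
        exact_mod_cast Nat.lt_succ_self (n + 1)
    · rw [eval_add, h0, hω0, add_zero]
    · obtain ⟨k, hk⟩ := h69_sub2_taylor Φ ξ θ ω
      rw [hk, Polynomial.X_pow_dvd_iff]
      intro d hd
      have hsq : ∀ d < n + 1 + 1, (k * ω ^ 2).coeff d = 0 := by
        have h2 : X ^ (n + 1 + 1) ∣ k * ω ^ 2 := by
          refine Dvd.dvd.mul_left ?_ k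
          rw [hω, mul_pow, ← pow_mul]
          refine Dvd.dvd.mul_left (pow_dvd_pow X ?_) _
          omega
        exact Polynomial.X_pow_dvd_iff.mp h2
      rw [coeff_add, coeff_add, hsq d hd, add_zero]
      have hmul : h15_sub2 (derivative Φ) ξ θ * ω =
          C c * h15_sub2 (derivative Φ) ξ θ * X ^ (n + 1) := by rw [hω]; ring
      rw [hmul]
      rcases Nat.lt_succ_iff_lt_or_eq.mp hd with hlt | heq
      · rw [Polynomial.X_pow_dvd_iff.mp hdvd d hlt, zero_add, coeff_mul_X_pow']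
        rw [if_neg (by omega)]
      · subst heq
        rw [coeff_mul_X_pow', if_pos le_rfl, Nat.sub_self, coeff_C_mul,
          h69_sub2_coeff_zero, coeff_zero_eq_eval_zero, h0, ← hu', hc]
        have : (↑u⁻¹ : R) * (u : R) = 1 := Units.inv_mul u
        linear_combination (-(h15_sub2 Φ ξ θ).coeff (n + 1)) * this

end Unique

section Map

variable {R S : Type*} [CommRing R] [CommRing S]

/-- Truncated roots map to truncated roots. -/
theorem h56_trunc_map (φ : R →+* S) (Φ : Polynomial (Polynomial R)) (ξ : R) (m : ℕ) (θ : R[X])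
    (hθ : X ^ m ∣ h15_sub2 Φ ξ θ) :
    X ^ m ∣ h15_sub2 (Φ.map (Polynomial.mapRingHom φ)) (φ ξ) (θ.map φ) := by
  rw [← h69_sub2_map]
  have := Polynomial.map_dvd φ hθ
  rwa [Polynomial.map_pow, Polynomial.map_X] at this

/-- The `Y`-derivative at a point commutes with ring homomorphisms. -/
theorem h56_dY_map (φ : R →+* S) (Φ : Polynomial (Polynomial R)) (ξ η : R) :
    (((Φ.map (Polynomial.mapRingHom φ)).derivative.eval (C (φ η))).eval (φ ξ)) =
      φ ((Φ.derivative.eval (C η)).eval ξ) := by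
  rw [Polynomial.derivative_map, ← Polynomial.map_C, ← Polynomial.coe_mapRingHom,
    Polynomial.eval_map, Polynomial.eval₂_at_apply, Polynomial.coe_mapRingHom,
    Polynomial.eval_map, Polynomial.eval₂_at_apply]

/-- The value at a point commutes with ring homomorphisms. -/
theorem h56_val_map (φ : R →+* S) (Φ : Polynomial (Polynomial R)) (ξ η : R) :
    (((Φ.map (Polynomial.mapRingHom φ)).eval (C (φ η))).eval (φ ξ)) =
      φ ((Φ.eval (C η)).eval ξ) := by
  rw [← Polynomial.map_C, ← Polynomial.coe_mapRingHom,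
    Polynomial.eval_map, Polynomial.eval₂_at_apply, Polynomial.coe_mapRingHom,
    Polynomial.eval_map, Polynomial.eval₂_at_apply]

/-- **Truncated roots are pinned by their image**: if `θ` is a truncated root over `R`, and
`θb` is a truncated root of the image of `Φ` over `S` with the same constant term, through a
point where `∂Φ/∂Y` is a unit, then `θ` maps to `θb`. -/
theorem h56_trunc_map_eq (φ : R →+* S) (Φ : Polynomial (Polynomial R)) (ξ : R) (m : ℕ)
    (θ : R[X]) (θb : S[X]) (hdeg : θ.degree < m) (hdegb : θb.degree < m)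
    (h0 : φ (θ.eval 0) = θb.eval 0)
    (hu : IsUnit (φ ((Φ.derivative.eval (C (θ.eval 0))).eval ξ)))
    (hθ : X ^ m ∣ h15_sub2 Φ ξ θ)
    (hθb : X ^ m ∣ h15_sub2 (Φ.map (Polynomial.mapRingHom φ)) (φ ξ) θb) :
    θ.map φ = θb := by
  have he0 : (θ.map φ).eval 0 = θb.eval 0 := by
    rw [Polynomial.eval_zero_map, h0]
  refine h56_trunc_unique (Φ.map (Polynomial.mapRingHom φ)) (φ ξ) m θb (θ.map φ) hdegb
    (lt_of_le_of_lt (degree_map_le) hdeg) he0 ?_ hθb (h56_trunc_map φ Φ ξ m θ hθ)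
  rw [← h0, h56_dY_map]
  exact hu

end Map

section Integral

variable {K : Type*} [Field K]

/-- **TRUNC-INT.**  Let `A` be a subring of a field `K`, `Φ ∈ A[X][Y]`, `ξ, η ∈ A` with
`∂Φ/∂Y (ξ, η)` a unit of `A`.  A truncated root `θ ∈ K[u]` of `Φ` at `ξ` with `θ(0) = η` has
coefficients in `A`: it is the image of a truncated root over `A`. -/
theorem h56_trunc_int (A : Subring K) (Φ : Polynomial (Polynomial A)) (ξ η : A)
    (hu : IsUnit ((Φ.derivative.eval (C η)).eval ξ))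
    (m : ℕ) (θ : K[X]) (hdeg : θ.degree < m) (hθ0 : θ.eval 0 = (η : K))
    (hθ : X ^ m ∣ h15_sub2 (Φ.map (Polynomial.mapRingHom A.subtype)) (ξ : K) θ) :
    ∃ θA : Polynomial A, θA.map A.subtype = θ ∧ θA.degree < m ∧ θA.eval 0 = η ∧
      X ^ m ∣ h15_sub2 Φ ξ θA := by
  rcases Nat.eq_zero_or_pos m with rfl | hm
  · -- `m = 0`: `θ = 0`
    have hθz : θ = 0 := by
      rw [← Polynomial.degree_eq_bot]
      exact Nat.WithBot.lt_zero_iff.mp (by exact_mod_cast hdeg)
    have hη : η = 0 := by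
      apply Subtype.ext
      rw [← hθ0, hθz, eval_zero]
      rfl
    refine ⟨0, by rw [Polynomial.map_zero, hθz], by rw [degree_zero]; exact WithBot.bot_lt_coe _,
      by rw [eval_zero, hη], by rw [pow_zero]; exact one_dvd _⟩
  · -- the point `(ξ, η)` lies on `Φ`
    have hroot : (Φ.eval (C η)).eval ξ = 0 := by
      have h1 : (h15_sub2 (Φ.map (Polynomial.mapRingHom A.subtype)) (ξ : K) θ).coeff 0 = 0 :=
        (Polynomial.X_pow_dvd_iff.mp hθ) 0 hm
      rw [h69_sub2_coeff_zero, coeff_zero_eq_eval_zero, hθ0] at h1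
      have h2 : (((Φ.map (Polynomial.mapRingHom A.subtype)).eval (C (η : K))).eval (ξ : K)) =
          (((Φ.eval (C η)).eval ξ : A) : K) := h56_val_map A.subtype Φ ξ η
      rw [h2] at h1
      exact Subtype.ext h1
    obtain ⟨θA, hdegA, h0A, hdvdA⟩ := h56_trunc_exists Φ ξ η hroot hu m hm
    refine ⟨θA, ?_, hdegA, h0A, hdvdA⟩
    refine h56_trunc_map_eq A.subtype Φ ξ m θA θ hdegA hdeg ?_ ?_ hdvdA hθ
    · rw [h0A, hθ0]; rfl
    · rw [h0A]
      exact hu.map A.subtype

/-- TRUNC-INT, coefficientwise form for a valuation subring. -/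
theorem h56_trunc_coeff_mem (A : ValuationSubring K) (Φ : Polynomial (Polynomial A)) (ξ η : A)
    (hu : IsUnit ((Φ.derivative.eval (C η)).eval ξ))
    (m : ℕ) (θ : K[X]) (hdeg : θ.degree < m) (hθ0 : θ.eval 0 = (η : K))
    (hθ : X ^ m ∣ h15_sub2 (Φ.map (Polynomial.mapRingHom A.subtype)) (ξ : K) θ) (i : ℕ) :
    θ.coeff i ∈ A := by
  obtain ⟨θA, hmap, -, -, -⟩ := h56_trunc_int A.toSubring Φ ξ η hu m θ hdeg hθ0 hθ
  rw [← hmap, Polynomial.coeff_map]
  exact (θA.coeff i).2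

end Integral

section Congr

variable {R : Type*} [CommRing R]

/-- **Reduction of truncated roots.**  Modulo an ideal `I`, a truncated root `θ` at `ξ` is
pinned by an approximate truncated root `θ0` at `ξ0 ≡ ξ` with `θ0(0) ≡ θ(0)`, provided
`∂Φ/∂Y (ξ, θ(0))` is a unit: all coefficients of `θ - θ0` lie in `I`. -/
theorem h56_trunc_congr (I : Ideal R) (Φ : Polynomial (Polynomial R)) (ξ ξ0 : R) (m : ℕ)
    (θ θ0 : R[X]) (hdeg : θ.degree < m) (hdeg0 : θ0.degree < m)
    (hξ : ξ - ξ0 ∈ I) (h0 : θ.eval 0 - θ0.eval 0 ∈ I)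
    (hu : IsUnit ((Φ.derivative.eval (C (θ.eval 0))).eval ξ))
    (hθ : X ^ m ∣ h15_sub2 Φ ξ θ)
    (hθ0 : ∀ i < m, (h15_sub2 Φ ξ0 θ0).coeff i ∈ I) (i : ℕ) :
    (θ - θ0).coeff i ∈ I := by
  set φ : R →+* R ⧸ I := Ideal.Quotient.mk I with hφ
  have hξ' : φ ξ = φ ξ0 := Ideal.Quotient.eq.mpr hξ
  have h0' : φ (θ.eval 0) = (θ0.map φ).eval 0 := by
    rw [Polynomial.eval_zero_map]
    exact Ideal.Quotient.eq.mpr h0
  have hb : X ^ m ∣ h15_sub2 (Φ.map (Polynomial.mapRingHom φ)) (φ ξ) (θ0.map φ) := by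
    rw [hξ', ← h69_sub2_map, Polynomial.X_pow_dvd_iff]
    intro d hd
    rw [Polynomial.coeff_map]
    exact Ideal.Quotient.eq_zero_iff_mem.mpr (hθ0 d hd)
  have hmap := h56_trunc_map_eq φ Φ ξ m θ (θ0.map φ) hdeg
    (lt_of_le_of_lt degree_map_le hdeg0) h0' (hu.map φ) hθ hb
  have hc : φ ((θ - θ0).coeff i) = 0 := by
    rw [coeff_sub, map_sub, ← Polynomial.coeff_map, ← Polynomial.coeff_map, hmap, sub_self]
  exact Ideal.Quotient.eq_zero_iff_mem.mp hc

end Congr

end Fermat.Agent.S27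

end
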