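import Fermat.Agent.S27.CoordPoint
import Fermat.Agent.S27.CoordSmooth
import Fermat.Agent.S27.CoordGood
import Fermat.Agent.S27.CoordPrim
import Fermat.Agent.S27.CoordModel
import Fermat.Agent.S27.h56_TruncInt
import Fermat.Agent.S18.GR_Integral
import Fermat.Agent.S18.GR_Gauss

/-!
# S27, block B5e COORD: assembly of the coordinate datum (hypothesis form)

* `h82_red_ev2` : reduction commutes with `H ↦ H(x, y)` for `H ∈ A[X][Y]`, `x` a weak chart,
  `y ∈ O`.
* `h82_coord_of` : the statement of the B5e export `h81_coord` (sub-skeleton of helper2) from the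
  landed rows CO1a PRIM, CO1b MODEL, CO2 KPOINT, CO4 SMOOTH, CO5 GOODPOINT, with the row
  CO3b DENOM (`h2_model_denom`) as an explicit hypothesis.
-/

set_option autoImplicit false

noncomputable section

open AlgebraicCurve Fermat.Agent.S18 Polynomial IntermediateField

namespace Fermat.Agent.S27

variable {K F k Fb : Type*} [Field K] [Field F] [Algebra K F] [Field k] [Field Fb] [Algebra k Fb]

/-- reduction commutes with the evaluation `H ↦ H(x, y)` of polynomials over `A`. -/
theorem h82_red_ev2 (R : h39_RedDatum K F k Fb) {x y : F} (hw : h39_WeakChart R x)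
    (hy : y ∈ R.O) (H : Polynomial (Polynomial R.A)) :
    h15_ev2 x y (H.map (Polynomial.mapRingHom R.A.subtype)) ∈ R.O ∧
      R.redF (h15_ev2 x y (H.map (Polynomial.mapRingHom R.A.subtype))) =
        h15_ev2 (R.redF x) (R.redF y) (H.map (Polynomial.mapRingHom R.res)) := by
  induction H using Polynomial.induction_on' with
  | add p q hp hq =>
    rw [Polynomial.map_add, Polynomial.map_add, h69_ev2_add, h69_ev2_add]
    exact ⟨R.O.add_mem _ _ hp.1 hq.1, by rw [h39_redF_add R hp.1 hq.1, hp.2, hq.2]⟩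
  | monomial j c =>
    rw [Polynomial.map_monomial, Polynomial.map_monomial, h69_ev2_monomial, h69_ev2_monomial,
      Polynomial.coe_mapRingHom, Polynomial.coe_mapRingHom]
    have hc : aeval x (c.map R.A.subtype) ∈ R.O := by
      rw [h39_gauss_mem_iff R hw]
      intro i
      rw [Polynomial.coeff_map]
      exact (c.coeff i).2
    have hyj : y ^ j ∈ R.O := R.O.pow_mem hy j
    refine ⟨R.O.mul_mem _ _ hc hyj, ?_⟩
    rw [h39_redF_mul R hc hyj, h39_redF_pow R hy]
    congr 1
    exact h39_gauss_red R hw c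

/-- **(B5e) COORD, hypothesis form**: the coordinate datum `(y, Φ, d)` from the landed rows,
with row CO3b DENOM as a hypothesis. -/
theorem h82_coord_of [IsAlgClosed K] [CharZero K] [IsAlgClosed k] (R : h39_RedDatum K F k Fb)
    {x : F} (hx : h39_Chart R x)
    (hden : ∀ {y : F} {Φ : Polynomial (Polynomial R.A)}, h2_Model R x y Φ →
      ∃ d : Polynomial R.A, d.map R.res ≠ 0 ∧
        (∀ f : F, f ∈ R.O → h39_Reg K x f → ∃ H : Polynomial (Polynomial R.A),
          h15_ev2 x y (H.map (Polynomial.mapRingHom R.A.subtype)) =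
            aeval x (d.map R.A.subtype) * f) ∧
        (∀ fb : Fb, h39_Reg k (R.redF x) fb → ∃ Hb : Polynomial (Polynomial k),
          h15_ev2 (R.redF x) (R.redF y) Hb = aeval (R.redF x) (d.map R.res) * fb)) :
    ∃ (y : F) (Φ : Polynomial (Polynomial R.A)) (d : Polynomial R.A),
      y ∈ R.O ∧ h39_Reg K x y ∧ h39_Reg k (R.redF x) (R.redF y) ∧
      h15_ev2 x y (Φ.map (Polynomial.mapRingHom R.A.subtype)) = 0 ∧
      d.map R.res ≠ 0 ∧
      (∀ f : F, f ∈ R.O → h39_Reg K x f → ∃ H : Polynomial (Polynomial R.A),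
        h15_ev2 x y (H.map (Polynomial.mapRingHom R.A.subtype)) =
          aeval x (d.map R.A.subtype) * f) ∧
      (∀ ξ η : R.A, (Φ.eval (C η)).eval ξ = 0 →
        ∃ P : Place K F, h39_Val P x (ξ : K) ∧ h39_Val P y (η : K)) ∧
      (∀ (Q : Place k Fb) (b c : k), h39_Val Q (R.redF x) b → h39_Val Q (R.redF y) c →
        (d.map R.res).eval b ≠ 0 →
          Q.ord (R.redF x - algebraMap k Fb b) = 1 ∧
          ((Φ.map (Polynomial.mapRingHom R.res)).derivative.eval (C c)).eval b ≠ 0 ∧
          ∀ Q' : Place k Fb, h39_Val Q' (R.redF x) b → h39_Val Q' (R.redF y) c → Q' = Q) := by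
  have hw : h39_WeakChart R x := hx.toh39_WeakChart
  have hxK : h75_IsChart K x := h39_weakChart_isChart R hw
  have hxk : h75_IsChart k (R.redF x) := h39_weakChart_isChart_red R hw
  obtain ⟨y, hyO, hyreg, hlired⟩ := h2_exists_prim R hx
  obtain ⟨Φ, hM⟩ := h2_model_of_prim R hx hyO hyreg hlired
  obtain ⟨d1, hd1, hdenK, hdenk⟩ := hden hM
  have hyregb : h39_Reg k (R.redF x) (R.redF y) := h39_red_integral R hw hyO hyreg
  -- the reduced model
  have hΨmon : (Φ.map (Polynomial.mapRingHom R.res)).Monic := hM.monic.map _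
  have hΨdeg : (Φ.map (Polynomial.mapRingHom R.res)).natDegree =
      Module.finrank k⟮R.redF x⟯ Fb := by
    rw [hM.monic.natDegree_map, hM.natDegree_eq, hw.finrank_eq]
  have hΨroot : h15_ev2 (R.redF x) (R.redF y) (Φ.map (Polynomial.mapRingHom R.res)) = 0 := by
    have h := (h82_red_ev2 R hw hyO Φ).2
    rw [hM.root, h39_redF_zero] at h
    exact h.symm
  have hlib : LinearIndependent k⟮R.redF x⟯
      (fun i : Fin (Module.finrank k⟮R.redF x⟯ Fb) => R.redF y ^ (i : ℕ)) := by
    have h := hM.li_red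
    rw [← hw.finrank_eq] at h
    exact h
  obtain ⟨d2b, hd2b0, hsmooth⟩ :=
    h2_exists_smooth hxk (Φ.map (Polynomial.mapRingHom R.res)) hΨmon hΨdeg hΨroot hlib
  obtain ⟨d2, hd2⟩ := Polynomial.map_surjective R.res R.res_surjective d2b
  refine ⟨y, Φ, d1 * d2, hyO, hyreg, hyregb, hM.root, ?_, ?_, ?_, ?_⟩
  · rw [Polynomial.map_mul, hd2]
    exact mul_ne_zero hd1 hd2b0
  · intro f hfO hfreg
    obtain ⟨H1, hH1⟩ := hdenK f hfO hfreg
    refine ⟨C d2 * H1, ?_⟩
    rw [Polynomial.map_mul, Polynomial.map_C, h69_ev2_mul, h69_ev2_C, hH1,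
      Polynomial.coe_mapRingHom, Polynomial.map_mul, map_mul]
    ring
  · intro ξ η h0
    refine h2_point_of_root hxK hM.reg (Φ.map (Polynomial.mapRingHom R.A.subtype))
      (hM.monic.map _) (by rw [hM.monic.natDegree_map, hM.natDegree_eq]) hM.root hM.li
      (ξ : K) (η : K) ?_
    have h := h56_val_map R.A.subtype Φ ξ η
    rw [h0, map_zero] at h
    exact h
  · intro Q b c hb hc hdb
    rw [Polynomial.map_mul, hd2, Polynomial.eval_mul] at hdb
    have hd1b : (d1.map R.res).eval b ≠ 0 := left_ne_zero_of_mul hdb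
    have hd2bb : d2b.eval b ≠ 0 := right_ne_zero_of_mul hdb
    have hval := h2_val_ev2 Q hb hc (Φ.map (Polynomial.mapRingHom R.res))
    rw [hΨroot] at hval
    have hval0 : h39_Val Q (0 : Fb) (0 : k) := Or.inl (map_zero _).symm
    have hzero : ((Φ.map (Polynomial.mapRingHom R.res)).eval (C c)).eval b = 0 :=
      h39_val_unique Q hval hval0
    have hsm := hsmooth b c hzero hd2bb
    obtain ⟨hord, huniq⟩ := h2_good_point hxk hyregb (Φ.map (Polynomial.mapRingHom R.res))
      hΨroot (d1.map R.res) hdenk Q b c hb hc hd1b hsm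
    exact ⟨hord, hsm, huniq⟩

end Fermat.Agent.S27

end
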