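import Fermat.Agent.S27.h64_LiftDiv
import Fermat.Agent.S27.RRFull
import Fermat.Agent.S27.Move
import Fermat.Agent.S27.Trunc
import Fermat.Agent.S27.LiftSystem
import Fermat.Agent.S27.LiftTangent
import Fermat.Agent.S27.CoordDenom
import Fermat.Agent.S27.h82_CoordAsm
import Fermat.Agent.S18.GR_ChartPt
import Fermat.Agent.S18.GR_ON
import Fermat.Agent.S18.GR_GenusEq
import Fermat.Agent.S18.GR_Gauss
import Fermat.Agent.S18.h64_Star

/-!
# S27, block B5 LIFT, row B5f ASM: the export `h15_lift`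

Every `m`-torsion class of the reduced curve is the reduction of an `m`-torsion class
(`m` invertible in the residue field), for ANY valuation ring (no rank-one hypothesis).
Assembly of MOVE (`Move.lean`), TRUNC (`Trunc.lean`), SYSTEM (`LiftSystem.lean`), TANGENT
(`LiftTangent.lean`) and COORD (rows CO1-CO5, `h82_CoordAsm.lean`, `CoordDenom.lean`).
-/

set_option autoImplicit false

noncomputable section

open AlgebraicCurve Fermat.Agent.S18 Polynomial IntermediateField

namespace Fermat.Agent.S27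

variable {K F k Fb : Type*} [Field K] [Field F] [Algebra K F] [Field k] [Field Fb] [Algebra k Fb]

/-! ### General lemmas -/

/-- two-variable evaluation with integral coefficients lands in `O` and commutes with
reduction. -/
theorem h2_asm_ev2_red (R : h39_RedDatum K F k Fb) {x y : F} (hx : x ∈ R.O) (hy : y ∈ R.O)
    (H : Polynomial (Polynomial R.A)) :
    h15_ev2 x y (H.map (Polynomial.mapRingHom R.A.subtype)) ∈ R.O ∧
      R.redF (h15_ev2 x y (H.map (Polynomial.mapRingHom R.A.subtype))) =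
        h15_ev2 (R.redF x) (R.redF y) (H.map (Polynomial.mapRingHom R.res)) := by
  have hc1 : R.O.subtype.comp (h89_evalO R hx) =
      ((aeval x : K[X] →ₐ[K] F) : K[X] →+* F).comp (Polynomial.mapRingHom R.A.subtype) := by
    refine RingHom.ext fun p => ?_
    exact h89_evalO_coe R hx p
  have hc2 : R.red.comp (h89_evalO R hx) =
      ((aeval (R.redF x) : k[X] →ₐ[k] Fb) : k[X] →+* Fb).comp
        (Polynomial.mapRingHom R.res) := by
    refine RingHom.ext fun p => ?_
    show R.red (h89_evalO R hx p) = aeval (R.redF x) (p.map R.res)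
    rw [h89_red_evalO, R.redF_of_mem hx]
  have key : h15_ev2 x y (H.map (Polynomial.mapRingHom R.A.subtype)) =
      ((Polynomial.eval₂ (h89_evalO R hx) (⟨y, hy⟩ : R.O) H : R.O) : F) := by
    unfold h15_ev2
    rw [Polynomial.eval₂_map, ← hc1]
    exact (Polynomial.hom_eval₂ H (h89_evalO R hx) R.O.subtype ⟨y, hy⟩).symm
  have hmem : h15_ev2 x y (H.map (Polynomial.mapRingHom R.A.subtype)) ∈ R.O := by
    rw [key]
    exact Subtype.property _
  refine ⟨hmem, ?_⟩
  rw [R.redF_of_mem hmem]
  have h2 : (⟨_, hmem⟩ : R.O) = Polynomial.eval₂ (h89_evalO R hx) (⟨y, hy⟩ : R.O) H :=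
    Subtype.ext key
  rw [h2, Polynomial.hom_eval₂, hc2]
  unfold h15_ev2
  rw [Polynomial.eval₂_map, R.redF_of_mem hy]

/-- the kernel of the residue map is the maximal ideal. -/
theorem h2_asm_res_eq_zero_iff (R : h39_RedDatum K F k Fb) (a : R.A) :
    R.res a = 0 ↔ a ∈ IsLocalRing.maximalIdeal R.A := by
  have hmax : (RingHom.ker R.res).IsMaximal :=
    RingHom.ker_isMaximal_of_surjective R.res R.res_surjective
  rw [← IsLocalRing.eq_maximalIdeal hmax, RingHom.mem_ker]

/-- coefficients below `m` in the maximal ideal: divisibility of the reduction by `X ^ m`. -/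
theorem h2_asm_coeff_mem_iff (R : h39_RedDatum K F k Fb) (p : Polynomial R.A) (m : ℕ) :
    (∀ i < m, p.coeff i ∈ IsLocalRing.maximalIdeal R.A) ↔ X ^ m ∣ p.map R.res := by
  rw [Polynomial.X_pow_dvd_iff]
  refine forall_congr' fun i => forall_congr' fun _ => ?_
  rw [Polynomial.coeff_map, h2_asm_res_eq_zero_iff]

/-- evaluation of a two-variable polynomial commutes with ring homomorphisms. -/
theorem h2_asm_eval2_map {A B : Type*} [CommRing A] [CommRing B] (φ : A →+* B)
    (H : Polynomial (Polynomial A)) (a b : A) :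
    ((H.map (Polynomial.mapRingHom φ)).eval (C (φ b))).eval (φ a) =
      φ ((H.eval (C b)).eval a) := by
  have h1 : (H.map (Polynomial.mapRingHom φ)).eval (C (φ b)) = (H.eval (C b)).map φ := by
    rw [Polynomial.eval_map]
    have h2 := Polynomial.hom_eval₂ H (RingHom.id _) (Polynomial.mapRingHom φ) (C b)
    rw [RingHom.comp_id, Polynomial.coe_mapRingHom, Polynomial.map_C] at h2
    rw [← h2]
    rfl
  rw [h1, Polynomial.eval_map, Polynomial.eval₂_at_apply]

/-- lifting a polynomial through a surjective ring homomorphism, with the same degree. -/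
theorem h2_asm_lift_poly {A B : Type*} [CommRing A] [CommRing B] (φ : A →+* B)
    (hφ : Function.Surjective φ) (p : B[X]) : ∃ q : A[X], q.map φ = p ∧ q.degree = p.degree := by
  have h1 : p ∈ Polynomial.lifts φ := by
    rw [Polynomial.mem_lifts]
    exact Polynomial.map_surjective φ hφ p
  exact Polynomial.exists_degree_eq_of_mem_lifts h1

/-! ### The calculus of values -/

theorem h2_asm_val_pow (P : Place K F) {f : F} {b : K} (hf : h39_Val P f b) (n : ℕ) :
    h39_Val P (f ^ n) (b ^ n) := by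
  induction n with
  | zero => simpa using h39_val_algebraMap P (1 : K)
  | succ n ih =>
    rw [pow_succ, pow_succ]
    exact h39_val_mul P ih hf

theorem h2_asm_val_aeval (P : Place K F) {f : F} {b : K} (hf : h39_Val P f b) (p : K[X]) :
    h39_Val P (aeval f p) (p.eval b) := by
  induction p using Polynomial.induction_on' with
  | add p q hp hq =>
    rw [map_add, Polynomial.eval_add]
    exact h39_val_add P hp hq
  | monomial n a =>
    rw [Polynomial.aeval_monomial, Polynomial.eval_monomial]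
    exact h39_val_mul P (h39_val_algebraMap P a) (h2_asm_val_pow P hf n)

theorem h2_asm_val_ev2 (P : Place K F) {x y : F} {b c : K} (hb : h39_Val P x b)
    (hc : h39_Val P y c) (H : Polynomial (Polynomial K)) :
    h39_Val P (h15_ev2 x y H) ((H.eval (C c)).eval b) := by
  induction H using Polynomial.induction_on' with
  | add p q hp hq =>
    rw [h69_ev2_add, Polynomial.eval_add, Polynomial.eval_add]
    exact h39_val_add P hp hq
  | monomial n p =>
    rw [h69_ev2_monomial, Polynomial.eval_monomial, Polynomial.eval_mul, Polynomial.eval_pow,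
      Polynomial.eval_C]
    exact h39_val_mul P (h2_asm_val_aeval P hb p) (h2_asm_val_pow P hc n)

/-- a function with a value is nonzero if the value is. -/
theorem h2_asm_ne_zero_of_val (P : Place K F) {f : F} {b : K} (hf : h39_Val P f b)
    (hb : b ≠ 0) : f ≠ 0 := by
  rintro rfl
  have h0 : h39_Val P (0 : F) 0 := by simpa using h39_val_algebraMap P (0 : K)
  exact hb (h39_val_unique P hf h0)

/-- the value of `y` along a truncated expansion of positive order. -/
theorem h2_asm_val_of_trunc (P : Place K F) {x y : F} {ξ : K}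
    (hx : 0 < P.ord (x - algebraMap K F ξ)) {m : ℕ} (hm : 0 < m) (θ : K[X])
    (hθ : P.adicValuation (y - aeval (x - algebraMap K F ξ) θ) ≤ WithZero.exp (-(m : ℤ))) :
    h39_Val P y (θ.eval 0) := by
  have h1 : h39_Val P (x - algebraMap K F ξ) 0 := (h39_val_zero_iff P).mpr (Or.inr hx)
  have h2 : h39_Val P (aeval (x - algebraMap K F ξ) θ) (θ.eval 0) := h2_asm_val_aeval P h1 θ
  have h3 : h39_Val P (y - aeval (x - algebraMap K F ξ) θ) 0 := by
    rw [h39_val_zero_iff]
    rcases P.adicValuation_le_exp_iff.mp hθ with h | h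
    · exact Or.inl h
    · right
      have : (0 : ℤ) < m := by exact_mod_cast hm
      omega
  have h4 := h39_val_add P h3 h2
  rwa [sub_add_cancel, zero_add] at h4

/-! ### Linear algebra and finiteness -/

/-- a nonzero vector of a subspace of dimension `M + 1` extends to a linearly independent
family of `M + 1` vectors of the subspace. -/
theorem h2_asm_exists_extend {k V : Type*} [Field k] [AddCommGroup V] [Module k V]
    (W : Submodule k V) [FiniteDimensional k W] (M : ℕ) (hW : Module.finrank k W = M + 1)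
    (f0 : V) (hf0 : f0 ∈ W) (hne : f0 ≠ 0) :
    ∃ e : Fin M → V, (∀ l, e l ∈ W) ∧
      LinearIndependent k (Fin.cons f0 e : Fin (M + 1) → V) := by
  have key : ∀ j : ℕ, j ≤ M → ∃ e : Fin j → W,
      LinearIndependent k (Fin.cons (⟨f0, hf0⟩ : W) e : Fin (j + 1) → W) := by
    intro j
    induction j with
    | zero =>
      intro _
      refine ⟨Fin.elim0, ?_⟩
      have : Subsingleton (Fin (0 + 1)) := inferInstanceAs (Subsingleton (Fin 1))
      refine LinearIndependent.of_subsingleton (0 : Fin (0 + 1)) ?_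
      intro h
      apply hne
      exact congrArg Subtype.val h
    | succ j ih =>
      intro hj
      obtain ⟨e, he⟩ := ih (by omega)
      obtain ⟨w, hw⟩ := exists_linearIndependent_snoc_of_lt_finrank he (by rw [hW]; omega)
      refine ⟨Fin.snoc e w, ?_⟩
      rwa [Fin.cons_snoc_eq_snoc_cons]
  obtain ⟨e, he⟩ := key M le_rfl
  refine ⟨fun l => (e l : V), fun l => (e l).2, ?_⟩
  have h1 := he.map' W.subtype (Submodule.ker_subtype W)
  have h2 : (W.subtype ∘ (Fin.cons (⟨f0, hf0⟩ : W) e : Fin (M + 1) → W)) =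
      (Fin.cons f0 (fun l => (e l : V)) : Fin (M + 1) → V) := by
    funext i
    refine Fin.cases ?_ (fun l => ?_) i
    · rfl
    · simp
  rw [h2] at h1
  exact h1

/-- the finite set of places to avoid: poles of the chart, zeros of the denominator, branch
values. -/
theorem h2_asm_bad_finite [IsAlgClosed k] {xb : Fb} (hxk : h75_IsChart k xb) (db : k[X])
    (hdb : db ≠ 0) (Zb : Set k) (hZb : Zb.Finite) :
    ({Q : Place k Fb | xb ∉ Q.toValuationSubring} ∪
      {Q | ∃ b : k, h39_Val Q xb b ∧ (db.eval b = 0 ∨ b ∈ Zb)}).Finite := by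
  refine Set.Finite.union ?_ ?_
  · refine (h75_finite_ord_ne hxk xb hxk.ne_zero).subset fun Q hQ => ?_
    intro h0
    exact hQ (Fermat.Agent.S24.h24_mem_of_ord_nonneg Q h0.ge)
  · have hB : {b : k | db.eval b = 0 ∨ b ∈ Zb}.Finite :=
      (Polynomial.finite_setOfPred_isRoot hdb).union hZb
    have h2 : (⋃ b ∈ {b : k | db.eval b = 0 ∨ b ∈ Zb},
        {Q : Place k Fb | 0 < Q.ord (xb - algebraMap k Fb b)}).Finite :=
      hB.biUnion fun b _ => h75_fibre_finite hxk b
    refine h2.subset ?_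
    rintro Q ⟨b, hb, hb'⟩
    simp only [Set.mem_iUnion, Set.mem_ofPred_eq]
    refine ⟨b, hb', ?_⟩
    rcases hb with h | h
    · exact absurd (h ▸ isAlgebraic_algebraMap b) hxk.tr
    · exact h

theorem h2_asm_mapDomain_sub {α β : Type*} (f : α → β) (D E : α →₀ ℤ) :
    Finsupp.mapDomain f (D - E) = Finsupp.mapDomain f D - Finsupp.mapDomain f E :=
  map_sub (Finsupp.mapDomain.addMonoidHom f) D E

/-! ### Step 7: the conclusion from the lifted points -/

theorem h2_asm_conclude [IsAlgClosed K] {x : F} (hxK : h75_IsChart K x) (m g : ℕ)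
    (G' : Divisor K F) (hG'deg : Divisor.degree G' = g) (T' : Fin g → Place K F)
    (hT' : Function.Injective T') (hG'T : ∀ j, G' (T' j) = 0) (f : F) (hf0 : f ≠ 0)
    (hfV : f ∈ riemannRochSpace (m • G')) (hford : ∀ j, (m : ℤ) ≤ (T' j).ord f) :
    Divisor.degree ((∑ j, Finsupp.single (T' j) (1 : ℤ)) - G') = 0 ∧
      m • ((∑ j, Finsupp.single (T' j) (1 : ℤ)) - G') ∈
        Divisor.principal (K := K) (F := F) := by
  classical
  have hdeg0 : Divisor.degree ((∑ j, Finsupp.single (T' j) (1 : ℤ)) - G') = 0 := by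
    rw [map_sub, map_sum, hG'deg]
    simp only [Divisor.degree_single, h75_deg_eq_one hxK, Nat.cast_one, mul_one,
      Finset.sum_const, Finset.card_univ, Fintype.card_fin]
    simp
  refine ⟨hdeg0, ?_⟩
  have hsum : ∀ P : Place K F, (∑ j, Finsupp.single (T' j) (1 : ℤ)) P =
      if ∃ j, T' j = P then 1 else 0 := by
    intro P
    rw [Finsupp.finsetSum_apply]
    split_ifs with h
    · obtain ⟨j, rfl⟩ := h
      rw [Finset.sum_eq_single j]
      · simp
      · intro i _ hij
        rw [Finsupp.single_apply, if_neg (fun h => hij (hT' h))]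
      · intro h
        exact absurd (Finset.mem_univ j) h
    · refine Finset.sum_eq_zero fun i _ => ?_
      rw [Finsupp.single_apply, if_neg (fun hi => h ⟨i, hi⟩)]
  have hle : ∀ P : Place K F,
      (m • ((∑ j, Finsupp.single (T' j) (1 : ℤ)) - G')) P ≤ P.ord f := by
    intro P
    rw [Finsupp.smul_apply, Finsupp.sub_apply, hsum P, nsmul_eq_mul]
    split_ifs with h
    · obtain ⟨j, rfl⟩ := h
      rw [hG'T j, sub_zero, mul_one]
      exact hford j
    · rcases (mem_riemannRochSpace_iff.mp hfV) P with h1 | h1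
      · exact absurd h1 hf0
      · rw [Finsupp.smul_apply, nsmul_eq_mul] at h1
        linarith
  have hD0 : Divisor.degree (m • ((∑ j, Finsupp.single (T' j) (1 : ℤ)) - G')) = 0 := by
    rw [map_nsmul, hdeg0, smul_zero]
  have heq := h64_ord_eq_of_le_of_degree hxK f hf0 _ hle hD0
  exact ⟨f, hf0, fun v => (heq v).symm⟩

/-! ### Step 3: lifting the linear data -/

theorem h2_asm_linear [IsAlgClosed K] [CharZero K] [IsAlgClosed k] (R : h39_RedDatum K F k Fb)
    {x : F} (hx : h39_Chart R x) (S : h39_PlaceRed R) (m : ℕ) (hm2 : 2 ≤ m)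
    (Gp E : Divisor k Fb)
    (hGpsupp : ∀ Q : Place k Fb, Gp Q ≠ 0 → R.redF x ∉ Q.toValuationSubring) (hE0 : 0 ≤ E)
    (hdegG : Divisor.degree (Gp - E) = h75_genus k (R.redF x)) :
    ∃ GpK EK : Divisor K F,
      (∀ P : Place K F, GpK P ≠ 0 → x ∉ P.toValuationSubring) ∧
      (∀ P : Place K F, 0 ≤ EK P) ∧
      (∀ P : Place K F, EK P ≠ 0 → E (S.r0 P) ≠ 0) ∧
      Finsupp.mapDomain S.r0 (GpK - EK) = Gp - E ∧
      (Module.finrank k (riemannRochSpace (m • (Gp - E))) + h75_genus k (R.redF x) =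
        m * h75_genus k (R.redF x) + 1) ∧
      ∀ fb ∈ riemannRochSpace (m • (Gp - E)),
        ∃ f ∈ riemannRochSpace (m • (GpK - EK)), f ∈ R.O ∧ R.redF f = fb := by
  have hw := hx.toh39_WeakChart
  have hxK : h75_IsChart K x := h39_weakChart_isChart R hw
  have hxk : h75_IsChart k (R.redF x) := h39_weakChart_isChart_red R hw
  have := h75_hasPrincipalDivisors hxK
  have := h75_hasPrincipalDivisors hxk
  have hgen : h75_genus k (R.redF x) = h75_genus K x := h39_genus_eq R hx
  -- lift `Gp` with poles over poles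
  have hp1 : ∀ Q : Place k Fb, ∃ P : Place K F, S.r0 P = Q ∧
      (R.redF x ∉ Q.toValuationSubring → x ∉ P.toValuationSubring) := by
    intro Q
    by_cases hQ : R.redF x ∈ Q.toValuationSubring
    · obtain ⟨P, hP⟩ := h64_r0_surjective R S Q
      exact ⟨P, hP, fun h => absurd hQ h⟩
    · have hord : Q.ord (R.redF x) < 0 := by
        by_contra h
        exact hQ (Fermat.Agent.S24.h24_mem_of_ord_nonneg Q (not_lt.mp h))
      obtain ⟨P, hP, hPx⟩ := h64_exists_pole_r0_eq R S hx.mem Q hord
      refine ⟨P, hP, fun _ hmem => ?_⟩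
      have := Fermat.Agent.S24.h24_ord_nonneg_of_mem P hmem
      omega
  obtain ⟨GpK, hGpK_map, -, hGpK_supp, -, -⟩ :=
    h64_exists_lift_divisor R S hxK hxk
      (fun Q P => R.redF x ∉ Q.toValuationSubring → x ∉ P.toValuationSubring) hp1 Gp
  obtain ⟨EK, hEK_map, -, hEK_supp, -, hEK_nonneg⟩ :=
    h64_exists_lift_divisor R S hxK hxk (fun _ _ => True)
      (fun Q => (h64_r0_surjective R S Q).imp fun P hP => ⟨hP, trivial⟩) E
  have hmap : Finsupp.mapDomain S.r0 (GpK - EK) = Gp - E := by
    rw [h2_asm_mapDomain_sub, hGpK_map, hEK_map]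
  have hmapm : Finsupp.mapDomain S.r0 (m • (GpK - EK)) = m • (Gp - E) := by
    rw [Finsupp.mapDomain_smul, hmap]
  have hdegK : Divisor.degree (GpK - EK) = h75_genus k (R.redF x) := by
    rw [← h64_degree_mapDomain_r0 R S hxK hxk, hmap, hdegG]
  have hm2' : (2 : ℤ) ≤ m := by exact_mod_cast hm2
  have hg0 : (0 : ℤ) ≤ h75_genus K x := Nat.cast_nonneg _
  have hdK : (Module.finrank K (riemannRochSpace (m • (GpK - EK))) : ℤ) =
      m * h75_genus K x + 1 - h75_genus K x := by
    have h0 : Divisor.degree (m • (GpK - EK)) = m * h75_genus K x := by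
      rw [map_nsmul, hdegK, hgen, nsmul_eq_mul]
    rw [h15_finrank_rr_of_deg hxK (m • (GpK - EK)) (by rw [h0]; nlinarith), h0]
  have hdk : (Module.finrank k (riemannRochSpace (m • (Gp - E))) : ℤ) =
      m * h75_genus K x + 1 - h75_genus K x := by
    have h0 : Divisor.degree (m • (Gp - E)) = m * h75_genus K x := by
      rw [map_nsmul, hdegG, hgen, nsmul_eq_mul]
    rw [h15_finrank_rr_of_deg hxk (m • (Gp - E)) (by rw [h0, hgen]; nlinarith), h0, hgen]
  have : FiniteDimensional K (riemannRochSpace (m • (GpK - EK))) := (h75_riemann hxK _).1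
  have : FiniteDimensional k (riemannRochSpace (m • (Gp - E))) := (h75_riemann hxk _).1
  refine ⟨GpK, EK, ?_, hEK_nonneg (fun Q => hE0 Q), ?_, hmap, ?_, ?_⟩
  · intro P hP
    obtain ⟨h1, h2⟩ := hGpK_supp P hP
    exact h1 (hGpsupp _ (h2 ▸ hP))
  · intro P hP
    rw [← (hEK_supp P hP).2]
    exact hP
  · have h3 : ((Module.finrank k (riemannRochSpace (m • (Gp - E))) +
        h75_genus k (R.redF x) : ℕ) : ℤ) = ((m * h75_genus k (R.redF x) + 1 : ℕ) : ℤ) := by
      push_cast
      rw [hdk, hgen]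
      ring
    exact_mod_cast h3
  · refine h39_red_surjective_of_finrank R hw _ _ (fun f hf hfO => ?_) ?_
    · have := h64_red_mem_rr R S.r0 S.compat (m • (GpK - EK)) hf hfO
      rwa [hmapm] at this
    · have h3 : (Module.finrank k (riemannRochSpace (m • (Gp - E))) : ℤ) =
          (Module.finrank K (riemannRochSpace (m • (GpK - EK))) : ℤ) := by rw [hdk, hdK]
      exact le_of_eq (by exact_mod_cast h3)

/-! ### The assembly -/

/-- the core of B5f: the lift, given the plane coordinates of COORD. -/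
theorem h2_asm_lift_core [IsAlgClosed K] [CharZero K] [IsAlgClosed k]
    (R : h39_RedDatum K F k Fb) {x : F} (hx : h39_Chart R x) (S : h39_PlaceRed R)
    (hS1 : ∃ r : Place K F → Place k Fb, h39_IsChartRed R x r ∧
        ∀ P : Place K F, h39_InDisc R x P → S.r0 P = r P)
    (m : ℕ) (hm2 : 2 ≤ m) (hm : (m : k) ≠ 0) (Db : Divisor k Fb)
    (hdeg : Divisor.degree Db = 0) (hDb : m • Db ∈ Divisor.principal (K := k) (F := Fb))
    (y : F) (Φ : Polynomial (Polynomial R.A)) (d : Polynomial R.A)
    (hyO : y ∈ R.O) (hyreg : h39_Reg K x y) (hybreg : h39_Reg k (R.redF x) (R.redF y))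
    (hΦ : h15_ev2 x y (Φ.map (Polynomial.mapRingHom R.A.subtype)) = 0)
    (hd0 : d.map R.res ≠ 0)
    (hden : ∀ f : F, f ∈ R.O → h39_Reg K x f → ∃ H : Polynomial (Polynomial R.A),
        h15_ev2 x y (H.map (Polynomial.mapRingHom R.A.subtype)) =
          aeval x (d.map R.A.subtype) * f)
    (hpt : ∀ ξ η : R.A, (Φ.eval (C η)).eval ξ = 0 →
        ∃ P : Place K F, h39_Val P x (ξ : K) ∧ h39_Val P y (η : K))
    (hgood : ∀ (Q : Place k Fb) (b c : k), h39_Val Q (R.redF x) b → h39_Val Q (R.redF y) c →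
        (d.map R.res).eval b ≠ 0 →
          Q.ord (R.redF x - algebraMap k Fb b) = 1 ∧
          ((Φ.map (Polynomial.mapRingHom R.res)).derivative.eval (C c)).eval b ≠ 0 ∧
          ∀ Q' : Place k Fb, h39_Val Q' (R.redF x) b → h39_Val Q' (R.redF y) c → Q' = Q) :
    ∃ D : Divisor K F, Divisor.degree D = 0 ∧ m • D ∈ Divisor.principal (K := K) (F := F) ∧
      Finsupp.mapDomain S.r0 D - Db ∈ Divisor.principal (K := k) (F := Fb) := by
  classical
  have hw := hx.toh39_WeakChart
  have hxK : h75_IsChart K x := h39_weakChart_isChart R hw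
  have hxk : h75_IsChart k (R.redF x) := h39_weakChart_isChart_red R hw
  have := h75_hasPrincipalDivisors hxK
  have := h75_hasPrincipalDivisors hxk
  have hm0 : 0 < m := by omega
  obtain ⟨Z, hZA, hZinj, hZ⟩ := hx.branch
  set xb := R.redF x with hxbdef
  set yb := R.redF y with hybdef
  set Φb := Φ.map (Polynomial.mapRingHom R.res) with hΦbdef
  set db := d.map R.res with hdbdef
  -- MOVE
  obtain ⟨T, Gp, E, hTinj, hTbad, hGp0, hGpsupp, hE0, hET, hdegG, hprinc, hl⟩ :=
    h15_move hxk Db hdeg _ (h2_asm_bad_finite hxk db hd0 (R.resK '' (Z : Set K))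
      (Z.finite_toSet.image _))
  have hTmem : ∀ j, xb ∈ (T j).toValuationSubring := by
    intro j
    by_contra h
    exact hTbad j (Or.inl h)
  choose ξb hξb using fun j => h39_exists_val hxk (T j) (hTmem j)
  have hdξ : ∀ j, db.eval (ξb j) ≠ 0 :=
    fun j h => hTbad j (Or.inr ⟨ξb j, hξb j, Or.inl h⟩)
  have hZξ : ∀ j, ξb j ∉ R.resK '' (Z : Set K) :=
    fun j h => hTbad j (Or.inr ⟨ξb j, hξb j, Or.inr h⟩)
  have hybmem : ∀ j, yb ∈ (T j).toValuationSubring := fun j => hybreg (T j) (hTmem j)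
  choose ηb hηb using fun j => h39_exists_val hxk (T j) (hybmem j)
  have hord : ∀ j, (T j).ord (xb - algebraMap k Fb (ξb j)) = 1 :=
    fun j => (hgood (T j) (ξb j) (ηb j) (hξb j) (hηb j) (hdξ j)).1
  have hsmb : ∀ j, (Φb.derivative.eval (C (ηb j))).eval (ξb j) ≠ 0 :=
    fun j => (hgood (T j) (ξb j) (ηb j) (hξb j) (hηb j) (hdξ j)).2.1
  have huniq : ∀ j, ∀ Q' : Place k Fb, h39_Val Q' xb (ξb j) → h39_Val Q' yb (ηb j) →
      Q' = T j :=
    fun j => (hgood (T j) (ξb j) (ηb j) (hξb j) (hηb j) (hdξ j)).2.2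
  have hGpT : ∀ j, Gp (T j) = 0 := by
    intro j
    by_contra h
    exact hGpsupp (T j) h (hTmem j)
  have hsumT : ∀ j, (∑ i, Finsupp.single (T i) (1 : ℤ)) (T j) = 1 := by
    intro j
    rw [Finsupp.finsetSum_apply, Finset.sum_eq_single j]
    · simp
    · intro i _ hij
      rw [Finsupp.single_apply, if_neg (fun h => hij (hTinj h))]
    · intro h
      exact absurd (Finset.mem_univ j) h
  -- linear data
  obtain ⟨GpK, EK, hGpKsupp, hEK0, hEKsupp, hmap, hdim, hsurj⟩ :=
    h2_asm_linear R hx S m hm2 Gp E hGpsupp hE0 hdegG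
  rw [← hxbdef] at hdim
  -- the function `f0b` with divisor `m (∑ T_j - (Gp - E))`
  have hprinc2 : m • ((∑ j, Finsupp.single (T j) (1 : ℤ)) - (Gp - E)) ∈
      Divisor.principal (K := k) (F := Fb) := by
    have h1 := add_mem (nsmul_mem hprinc m) hDb
    rwa [← smul_add, sub_add_cancel] at h1
  obtain ⟨f0b, hf0b0, hf0bdiv⟩ := Divisor.mem_principal.mp hprinc2
  have hdivf0 : ∀ P : Place k Fb, P.ord f0b =
      m * ((∑ j, Finsupp.single (T j) (1 : ℤ)) P - (Gp - E) P) := by
    intro P
    rw [← hf0bdiv P, Finsupp.smul_apply, Finsupp.sub_apply, nsmul_eq_mul]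
  have hf0bV : f0b ∈ riemannRochSpace (m • (Gp - E)) := by
    rw [mem_riemannRochSpace_iff]
    intro P
    right
    rw [hdivf0 P, Finsupp.smul_apply, nsmul_eq_mul]
    have h1 : (0 : ℤ) ≤ (∑ j, Finsupp.single (T j) (1 : ℤ)) P := by
      rw [Finsupp.finsetSum_apply]
      refine Finset.sum_nonneg fun i _ => ?_
      rw [Finsupp.single_apply]
      split_ifs <;> norm_num
    have h2 : (0 : ℤ) ≤ m := Nat.cast_nonneg m
    nlinarith
  -- the basis
  obtain ⟨M, hM⟩ : ∃ M : ℕ, M + h75_genus k xb = m * h75_genus k xb :=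
    ⟨m * h75_genus k xb - h75_genus k xb, by
      have : h75_genus k xb ≤ m * h75_genus k xb := Nat.le_mul_of_pos_left _ hm0
      omega⟩
  have : FiniteDimensional k (riemannRochSpace (m • (Gp - E))) := (h75_riemann hxk _).1
  have hfinrank : Module.finrank k (riemannRochSpace (m • (Gp - E))) = M + 1 := by omega
  obtain ⟨eb, hebV, hli⟩ := h2_asm_exists_extend _ M hfinrank f0b hf0bV hf0b0
  -- lifts
  obtain ⟨f0, hf0V, hf0O, hf0red⟩ := hsurj f0b hf0bV
  choose e heV heO hered using fun l => hsurj (eb l) (hebV l)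
  have hVreg : ∀ f ∈ riemannRochSpace (m • (GpK - EK)), h39_Reg K x f := by
    intro f hf P hP
    rcases (mem_riemannRochSpace_iff.mp hf) P with h | h
    · rw [h]
      exact zero_mem _
    · refine Fermat.Agent.S24.h24_mem_of_ord_nonneg P ?_
      rw [Finsupp.smul_apply, Finsupp.sub_apply, nsmul_eq_mul] at h
      have h1 : GpK P = 0 := by
        by_contra h1
        exact hGpKsupp P h1 hP
      have h2 := hEK0 P
      have h3 : (0 : ℤ) ≤ m := Nat.cast_nonneg m
      rw [h1] at h
      nlinarith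
  obtain ⟨H0, hH0⟩ := hden f0 hf0O (hVreg f0 hf0V)
  choose H hH using fun l => hden (e l) (heO l) (hVreg _ (heV l))
  -- reduced polynomial identities
  have hΦb : h15_ev2 xb yb Φb = 0 := by
    have h1 := (h2_asm_ev2_red R hx.mem hyO Φ).2
    rw [hΦ, h39_redF_zero] at h1
    exact h1.symm
  have hdred : R.redF (aeval x (d.map R.A.subtype)) = aeval xb db := h89_gauss_red R hx.mem d
  have hdO : aeval x (d.map R.A.subtype) ∈ R.O := h89_gauss_red_mem R hx.mem d
  have hH0b : h15_ev2 xb yb (H0.map (Polynomial.mapRingHom R.res)) = aeval xb db * f0b := by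
    have h1 := (h2_asm_ev2_red R hx.mem hyO H0).2
    rw [hH0, h39_redF_mul R hdO hf0O, hdred, hf0red] at h1
    exact h1.symm
  have hHb : ∀ l, h15_ev2 xb yb ((H l).map (Polynomial.mapRingHom R.res)) =
      aeval xb db * eb l := by
    intro l
    have h1 := (h2_asm_ev2_red R hx.mem hyO (H l)).2
    rw [hH l, h39_redF_mul R hdO (heO l), hdred, hered l] at h1
    exact h1.symm
  -- truncated expansions on the reduced curve
  choose θb hθbdeg hθb using
    fun j => h15_exists_trunc hxk (T j) xb yb (ξb j) (hord j) (hybmem j) m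
  have hθb0 : ∀ j, (θb j).eval 0 = ηb j := by
    intro j
    have h1 : 0 < (T j).ord (xb - algebraMap k Fb (ξb j)) := by
      rw [hord j]
      norm_num
    exact h39_val_unique (T j) (h2_asm_val_of_trunc (T j) h1 hm0 (θb j) (hθb j)) (hηb j)
  have hdivΦb : ∀ j, X ^ m ∣ h15_sub2 Φb (ξb j) (θb j) := by
    intro j
    refine (h15_ord_ge_iff_trunc (T j) xb yb (ξb j) (hord j) m (θb j) (hθb j) Φb).mp ?_
    rw [hΦb, map_zero]
    exact zero_le
  have hdb_ne : aeval xb db ≠ 0 := fun h => hd0 ((transcendental_iff.mp hxk.tr) db h)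
  have hordf0 : ∀ j, (T j).ord f0b = m := by
    intro j
    rw [hdivf0, hsumT j, Finsupp.sub_apply, hGpT j, hET j]
    ring
  have hdivH0b : ∀ j, X ^ m ∣
      h15_sub2 (H0.map (Polynomial.mapRingHom R.res)) (ξb j) (θb j) := by
    intro j
    refine (h15_ord_ge_iff_trunc (T j) xb yb (ξb j) (hord j) m (θb j) (hθb j) _).mp ?_
    rw [hH0b, (T j).adicValuation_le_exp_iff]
    right
    rw [(T j).ord_mul hdb_ne hf0b0, hordf0 j,
      h39_ord_eq_zero_of_val (T j) (h2_asm_val_aeval (T j) (hξb j) db) (hdξ j)]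
    simp
  -- approximate solution over `A`
  choose ξ0 hξ0 using fun j => R.res_surjective (ξb j)
  choose θ0 hθ0map hθ0deg using fun j => h2_asm_lift_poly R.res R.res_surjective (θb j)
  have hθ0deg' : ∀ j, (θ0 j).degree < m := fun j => by
    rw [hθ0deg j]
    exact hθbdeg j
  have h1 : ∀ j, ∀ i < m,
      (h15_sub2 Φ (ξ0 j) (θ0 j)).coeff i ∈ IsLocalRing.maximalIdeal R.A := by
    intro j
    rw [h2_asm_coeff_mem_iff, h69_sub2_map, hξ0 j, hθ0map j]
    exact hdivΦb j
  have h2 : ∀ j, ∀ i < m,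
      (h15_sub2 H0 (ξ0 j) (θ0 j)).coeff i ∈ IsLocalRing.maximalIdeal R.A := by
    intro j
    rw [h2_asm_coeff_mem_iff, h69_sub2_map, hξ0 j, hθ0map j]
    exact hdivH0b j
  -- the tangent space is trivial
  have hTan : ∀ (δξ : Fin (h75_genus k xb) → R.A)
      (δθ : Fin (h75_genus k xb) → Polynomial R.A) (δc : Fin M → R.A),
      (∀ j, (δθ j).degree < m) →
      (∀ j, ∀ i < m, (C (δξ j) * h15_sub2 (h15_dX Φ) (ξ0 j) (θ0 j) +
          δθ j * h15_sub2 (derivative Φ) (ξ0 j) (θ0 j)).coeff i ∈
            IsLocalRing.maximalIdeal R.A) →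
      (∀ j, ∀ i < m, (C (δξ j) * h15_sub2 (h15_dX H0) (ξ0 j) (θ0 j) +
          δθ j * h15_sub2 (derivative H0) (ξ0 j) (θ0 j) +
          ∑ l, C (δc l) * h15_sub2 (H l) (ξ0 j) (θ0 j)).coeff i ∈
            IsLocalRing.maximalIdeal R.A) →
      (∀ j, δξ j ∈ IsLocalRing.maximalIdeal R.A) ∧
        (∀ j i, (δθ j).coeff i ∈ IsLocalRing.maximalIdeal R.A) ∧
        ∀ l, δc l ∈ IsLocalRing.maximalIdeal R.A := by
    intro δξ δθ δc hδθ hh1 hh2
    have hh1' : ∀ j, X ^ m ∣ C (R.res (δξ j)) * h15_sub2 (h15_dX Φb) (ξb j) (θb j) +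
        (δθ j).map R.res * h15_sub2 (derivative Φb) (ξb j) (θb j) := by
      intro j
      have h3 := (h2_asm_coeff_mem_iff R _ m).mp (hh1 j)
      rw [Polynomial.map_add, Polynomial.map_mul, Polynomial.map_mul, Polynomial.map_C,
        h69_sub2_map, h69_sub2_map, hξ0 j, hθ0map j, h69_dX_map,
        ← Polynomial.derivative_map] at h3
      exact h3
    have hh2' : ∀ j, X ^ m ∣
        C (R.res (δξ j)) *
            h15_sub2 (h15_dX (H0.map (Polynomial.mapRingHom R.res))) (ξb j) (θb j) +
          (δθ j).map R.res *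
            h15_sub2 (derivative (H0.map (Polynomial.mapRingHom R.res))) (ξb j) (θb j) +
          ∑ l, C (R.res (δc l)) *
            h15_sub2 ((H l).map (Polynomial.mapRingHom R.res)) (ξb j) (θb j) := by
      intro j
      have h3 := (h2_asm_coeff_mem_iff R _ m).mp (hh2 j)
      rw [Polynomial.map_add, Polynomial.map_add, Polynomial.map_mul, Polynomial.map_mul,
        Polynomial.map_C, h69_sub2_map, h69_sub2_map, hξ0 j, hθ0map j, h69_dX_map,
        ← Polynomial.derivative_map, Polynomial.map_sum] at h3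
      simp only [Polynomial.map_mul, Polynomial.map_C, h69_sub2_map, hξ0 j, hθ0map j] at h3
      exact h3
    obtain ⟨t1, t2, t3⟩ := h15_tangent hxk xb yb Φb hΦb (h75_genus k xb) m M hm T hTinj ξb θb
      hord hθb (fun j => by rw [hθb0 j]; exact hsmb j) db hdξ (Gp - E)
      (fun j => by rw [Finsupp.sub_apply, hGpT j, hET j, sub_zero]) hl f0b hf0b0 hdivf0 eb
      hebV hli (H0.map (Polynomial.mapRingHom R.res))
      (fun l => (H l).map (Polynomial.mapRingHom R.res)) hH0b hHb
      (fun j => R.res (δξ j)) (fun j => (δθ j).map R.res) (fun l => R.res (δc l))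
      (fun j => lt_of_le_of_lt (Polynomial.degree_map_le) (hδθ j)) hh1' hh2'
    refine ⟨fun j => ?_, fun j i => ?_, fun l => ?_⟩
    · rw [← h2_asm_res_eq_zero_iff]
      exact congrFun t1 j
    · rw [← h2_asm_res_eq_zero_iff, ← Polynomial.coeff_map]
      have h4 := congrFun t2 j
      simp only [Pi.zero_apply] at h4
      rw [h4, Polynomial.coeff_zero]
    · rw [← h2_asm_res_eq_zero_iff]
      exact congrFun t3 l
  -- HENSEL
  obtain ⟨ξ, θ, c, hθdeg, hξξ0, hθθ0, hc, hsolΦ, hsolH⟩ :=
    h15_hensel_system R.A (h75_genus k xb) m M hM Φ H0 H ξ0 θ0 hθ0deg' h1 h2 hTan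
  have hresξ : ∀ j, R.res (ξ j) = ξb j := by
    intro j
    have h3 := (h2_asm_res_eq_zero_iff R _).mpr (hξξ0 j)
    rw [map_sub, sub_eq_zero] at h3
    rw [h3, hξ0 j]
  have hresθ : ∀ j, (θ j).map R.res = θb j := by
    intro j
    rw [← hθ0map j]
    ext i
    rw [Polynomial.coeff_map, Polynomial.coeff_map]
    have h3 := (h2_asm_res_eq_zero_iff R _).mpr (hθθ0 j i)
    rw [Polynomial.coeff_sub, map_sub, sub_eq_zero] at h3
    exact h3
  have hresc : ∀ l, R.res (c l) = 0 := fun l => (h2_asm_res_eq_zero_iff R _).mpr (hc l)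
  have hηres : ∀ j, R.res ((θ j).eval 0) = ηb j := by
    intro j
    rw [← hθb0 j, ← hresθ j, Polynomial.eval_zero_map]
  -- the points `T' j`
  have hroot : ∀ j, (Φ.eval (C ((θ j).eval 0))).eval (ξ j) = 0 := by
    intro j
    rw [← h69_sub2_eval_zero]
    obtain ⟨q, hq⟩ := hsolΦ j
    rw [hq, Polynomial.eval_mul, Polynomial.eval_pow, Polynomial.eval_X,
      zero_pow (by omega), zero_mul]
  choose T' hT'x hT'y using fun j => hpt (ξ j) ((θ j).eval 0) (hroot j)
  have hresKξ : ∀ j, R.resK ((ξ j : R.A) : K) = ξb j := fun j => by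
    rw [R.resK_of_mem (ξ j).2]
    exact hresξ j
  have hresKη : ∀ j, R.resK (((θ j).eval 0 : R.A) : K) = ηb j := fun j => by
    rw [R.resK_of_mem ((θ j).eval 0).2]
    exact hηres j
  have hxreg : h39_Reg K x x := fun P hP => hP
  have hdisc : ∀ j, h39_InDisc R x (T' j) :=
    fun j => ⟨((ξ j : R.A) : K), (ξ j).2, hT'x j⟩
  have hr0 : ∀ j, S.r0 (T' j) = T j := by
    intro j
    refine huniq j _ ?_ ?_
    · have h3 := h64_r0_val_of_inDisc R S hS1 (T' j) (hdisc j) x hx.mem hxreg _ (hT'x j)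
      rwa [hresKξ j] at h3
    · have h3 := h64_r0_val_of_inDisc R S hS1 (T' j) (hdisc j) y hyO hyreg _ (hT'y j)
      rwa [hresKη j] at h3
  have hT'inj : Function.Injective T' := by
    intro i j hij
    apply hTinj
    rw [← hr0 i, ← hr0 j, hij]
  have hxne : ∀ a : K, x ≠ algebraMap K F a := by
    intro a h
    exact hxK.tr (h ▸ isAlgebraic_algebraMap a)
  have hposK : ∀ j, 0 < (T' j).ord (x - algebraMap K F ((ξ j : R.A) : K)) := by
    intro j
    rcases hT'x j with h | h
    · exact absurd h (hxne _)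
    · exact h
  have hordK : ∀ j, (T' j).ord (x - algebraMap K F ((ξ j : R.A) : K)) = 1 := by
    intro j
    have h3 := hposK j
    by_contra h4
    have h5 : 2 ≤ (T' j).ord (x - algebraMap K F ((ξ j : R.A) : K)) := by omega
    exact hZξ j ⟨_, Finset.mem_coe.mpr (hZ (T' j) _ h5), hresKξ j⟩
  -- smoothness of the lifted points
  have hsmK : ∀ j, ((Φ.map (Polynomial.mapRingHom R.A.subtype)).derivative.eval
      (C (((θ j).eval 0 : R.A) : K))).eval ((ξ j : R.A) : K) ≠ 0 := by
    intro j
    rw [Polynomial.derivative_map]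
    have h3 := h2_asm_eval2_map R.A.subtype (derivative Φ) (ξ j) ((θ j).eval 0)
    intro h4
    have h5 : R.A.subtype (((derivative Φ).eval (C ((θ j).eval 0))).eval (ξ j)) = 0 := by
      rw [← h3]
      exact h4
    have h6 : ((derivative Φ).eval (C ((θ j).eval 0))).eval (ξ j) = 0 := Subtype.ext h5
    have h7 := h2_asm_eval2_map R.res (derivative Φ) (ξ j) ((θ j).eval 0)
    rw [h6, map_zero, hresξ j, hηres j, ← Polynomial.derivative_map] at h7
    exact hsmb j h7
  have hθ0K : ∀ j, ((θ j).map R.A.subtype).eval 0 = (((θ j).eval 0 : R.A) : K) :=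
    fun j => Polynomial.eval_zero_map R.A.subtype (θ j)
  have hmapdvd : ∀ p : Polynomial R.A, X ^ m ∣ p → X ^ m ∣ p.map R.A.subtype := by
    intro p hp
    have h3 := Polynomial.map_dvd R.A.subtype hp
    rwa [Polynomial.map_pow, Polynomial.map_X] at h3
  have hθK : ∀ j, (T' j).adicValuation
      (y - aeval (x - algebraMap K F ((ξ j : R.A) : K)) ((θ j).map R.A.subtype)) ≤
        WithZero.exp (-(m : ℤ)) := by
    intro j
    refine h15_trunc_of_root (T' j) x y _ hΦ _ _ (hposK j) (hT'y j) (hsmK j) m _ (hθ0K j) ?_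
    have h3 := hmapdvd _ (hsolΦ j)
    rwa [h69_sub2_map] at h3
  -- the function `f`
  have hcO : ∀ l, algebraMap K F ((c l : R.A) : K) ∈ R.O := fun l => (R.mem_iff _).mp (c l).2
  have hsumO : ∑ l, algebraMap K F ((c l : R.A) : K) * e l ∈ R.O :=
    sum_mem fun l _ => R.O.mul_mem _ _ (hcO l) (heO l)
  have hfO : f0 + ∑ l, algebraMap K F ((c l : R.A) : K) * e l ∈ R.O :=
    R.O.add_mem _ _ hf0O hsumO
  have hfV : f0 + ∑ l, algebraMap K F ((c l : R.A) : K) * e l ∈
      riemannRochSpace (m • (GpK - EK)) := by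
    refine Submodule.add_mem _ hf0V (Submodule.sum_mem _ fun l _ => ?_)
    rw [← Algebra.smul_def]
    exact Submodule.smul_mem _ _ (heV l)
  have hfred : R.redF (f0 + ∑ l, algebraMap K F ((c l : R.A) : K) * e l) = f0b := by
    rw [h39_redF_add R hf0O hsumO,
      h39_redF_sum R _ _ (fun l _ => R.O.mul_mem _ _ (hcO l) (heO l)), hf0red]
    have h3 : ∀ l ∈ Finset.univ,
        R.redF (algebraMap K F ((c l : R.A) : K) * e l) = 0 := by
      intro l _
      rw [h39_redF_mul R (hcO l) (heO l), h39_redF_algebraMap R (c l).2,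
        R.resK_of_mem (c l).2]
      have h4 : R.res ⟨((c l : R.A) : K), (c l).2⟩ = 0 := hresc l
      rw [h4, map_zero, zero_mul]
    rw [Finset.sum_eq_zero h3, add_zero]
  have hf0 : f0 + ∑ l, algebraMap K F ((c l : R.A) : K) * e l ≠ 0 := by
    intro h
    rw [h, h39_redF_zero] at hfred
    exact hf0b0 hfred.symm
  have hevf : h15_ev2 x y
      ((H0 + ∑ l, C (C (c l)) * H l).map (Polynomial.mapRingHom R.A.subtype)) =
      aeval x (d.map R.A.subtype) * (f0 + ∑ l, algebraMap K F ((c l : R.A) : K) * e l) := by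
    rw [Polynomial.map_add, Polynomial.map_sum, h69_ev2_add, h69_ev2_sum, hH0, mul_add,
      Finset.mul_sum]
    congr 1
    refine Finset.sum_congr rfl fun l _ => ?_
    rw [Polynomial.map_mul, h69_ev2_mul, hH l, Polynomial.map_C, Polynomial.coe_mapRingHom,
      Polynomial.map_C, h69_ev2_C_C]
    show algebraMap K F ((c l : R.A) : K) * _ = _
    ring
  have hdKval : ∀ j, h39_Val (T' j) (aeval x (d.map R.A.subtype))
      ((d.map R.A.subtype).eval ((ξ j : R.A) : K)) :=
    fun j => h2_asm_val_aeval (T' j) (hT'x j) _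
  have hdKne : ∀ j, (d.map R.A.subtype).eval ((ξ j : R.A) : K) ≠ 0 := by
    intro j h
    have h3 : (d.map R.A.subtype).eval (R.A.subtype (ξ j)) = R.A.subtype (d.eval (ξ j)) := by
      rw [Polynomial.eval_map, Polynomial.eval₂_at_apply]
    have h5 : d.eval (ξ j) = 0 := Subtype.ext (h3.symm.trans h)
    have h6 : (d.map R.res).eval (R.res (ξ j)) = R.res (d.eval (ξ j)) := by
      rw [Polynomial.eval_map, Polynomial.eval₂_at_apply]
    rw [h5, map_zero, hresξ j] at h6
    exact hdξ j h6
  have hford : ∀ j, (m : ℤ) ≤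
      (T' j).ord (f0 + ∑ l, algebraMap K F ((c l : R.A) : K) * e l) := by
    intro j
    have h3 : (T' j).adicValuation (h15_ev2 x y
        ((H0 + ∑ l, C (C (c l)) * H l).map (Polynomial.mapRingHom R.A.subtype))) ≤
        WithZero.exp (-(m : ℤ)) := by
      refine (h15_ord_ge_iff_trunc (T' j) x y _ (hordK j) m _ (hθK j) _).mpr ?_
      have h4 := hmapdvd _ (hsolH j)
      rwa [h69_sub2_map] at h4
    rw [hevf, (T' j).adicValuation_le_exp_iff] at h3
    have hdne : aeval x (d.map R.A.subtype) ≠ 0 :=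
      h2_asm_ne_zero_of_val (T' j) (hdKval j) (hdKne j)
    rcases h3 with h3 | h3
    · exact absurd h3 (mul_ne_zero hdne hf0)
    · rw [(T' j).ord_mul hdne hf0,
        h39_ord_eq_zero_of_val (T' j) (hdKval j) (hdKne j)] at h3
      linarith
  -- conclusion
  have hG'T : ∀ j, (GpK - EK) (T' j) = 0 := by
    intro j
    have h3 : GpK (T' j) = 0 := by
      by_contra h3
      exact hGpKsupp _ h3 (h39_val_mem (T' j) (hT'x j))
    have h4 : EK (T' j) = 0 := by
      by_contra h4
      exact hEKsupp _ h4 (by rw [hr0 j]; exact hET j)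
    rw [Finsupp.sub_apply, h3, h4, sub_zero]
  have hG'deg : Divisor.degree (GpK - EK) = (h75_genus k xb : ℕ) := by
    rw [← h64_degree_mapDomain_r0 R S hxK hxk, hmap, hdegG]
  obtain ⟨hD0, hDprinc⟩ := h2_asm_conclude hxK m (h75_genus k xb) (GpK - EK) hG'deg T'
    hT'inj hG'T _ hf0 hfV hford
  refine ⟨_, hD0, hDprinc, ?_⟩
  have hmapD : Finsupp.mapDomain S.r0 ((∑ j, Finsupp.single (T' j) (1 : ℤ)) - (GpK - EK)) =
      (∑ j, Finsupp.single (T j) (1 : ℤ)) - (Gp - E) := by
    rw [h2_asm_mapDomain_sub, hmap, Finsupp.mapDomain_finsetSum]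
    congr 1
    refine Finset.sum_congr rfl fun j _ => ?_
    rw [Finsupp.mapDomain_single, hr0 j]
  rw [hmapD]
  exact hprinc

/-- **(B5) LIFT (any rank).** Every `m`-torsion class of the reduced curve is the reduction of
an `m`-torsion class (`m` invertible in `k`), for the place reduction glued from the chart
reductions of `x` and `x⁻¹`.  No rank-one hypothesis. -/
theorem h15_lift [IsAlgClosed K] [CharZero K] [IsAlgClosed k] (R : h39_RedDatum K F k Fb)
    {x : F} (hx : h39_Chart R x) (S : h39_PlaceRed R)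
    (hS : (∃ r : Place K F → Place k Fb, h39_IsChartRed R x r ∧
        ∀ P : Place K F, h39_InDisc R x P → S.r0 P = r P) ∧
      (∃ r' : Place K F → Place k Fb, h39_IsChartRed R x⁻¹ r' ∧
        ∀ P : Place K F, ¬ h39_InDisc R x P → S.r0 P = r' P))
    (m : ℕ) (hm : (m : k) ≠ 0) (Db : Divisor k Fb) (hdeg : Divisor.degree Db = 0)
    (hDb : m • Db ∈ Divisor.principal (K := k) (F := Fb)) :
    ∃ D : Divisor K F, Divisor.degree D = 0 ∧ m • D ∈ Divisor.principal (K := K) (F := F) ∧
      Finsupp.mapDomain S.r0 D - Db ∈ Divisor.principal (K := k) (F := Fb) := by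
  have hm0 : m ≠ 0 := by
    rintro rfl
    exact hm (by simp)
  rcases Nat.lt_or_ge m 2 with hm2 | hm2
  · have hm1 : m = 1 := by omega
    subst hm1
    refine ⟨0, map_zero _, ?_, ?_⟩
    · rw [smul_zero]
      exact zero_mem _
    · rw [Finsupp.mapDomain_zero, zero_sub]
      rw [one_smul] at hDb
      exact neg_mem hDb
  · obtain ⟨y, Φ, d, hyO, hyreg, hybreg, hΦ, hd0, hden, hpt, hgood⟩ :=
      h82_coord_of R hx (fun hM => h2_model_denom R hx hM)
    exact h2_asm_lift_core R hx S hS.1 m hm2 hm Db hdeg hDb y Φ d hyO hyreg hybreg hΦ hd0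
      hden hpt hgood

end Fermat.Agent.S27

end
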