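import Fermat.Agent.S27.h82_CoordAsm
import Fermat.Agent.S27.CoordDenom

/-!
# S27, block B5e COORD: the export `h81_coord`

The coordinate datum `(y, Φ, d)` of a good-reduction datum with chart `x`, consumed by the B5f
assembly (statement of helper2's sub-skeleton `skel/h2_SkelCoord.lean`, verbatim).  Proof:
`h82_coord_of` (rows CO1a PRIM, CO1b MODEL, CO2 KPOINT, CO4 SMOOTH, CO5 GOODPOINT) applied to
row CO3b DENOM (`h2_model_denom`).
-/

set_option autoImplicit false

noncomputable section

open AlgebraicCurve Fermat.Agent.S18 Polynomial IntermediateField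

namespace Fermat.Agent.S27

section Datum

variable {K F k Fb : Type*} [Field K] [Field F] [Algebra K F] [Field k] [Field Fb] [Algebra k Fb]
variable [IsAlgClosed K] [CharZero K] [IsAlgClosed k]

/-- **(B5e) COORD**, the export consumed by B5f ASM. -/
theorem h81_coord (R : h39_RedDatum K F k Fb) {x : F} (hx : h39_Chart R x) :
    ∃ (y : F) (Φ : Polynomial (Polynomial R.A)) (d : Polynomial R.A),
      y ∈ R.O ∧ h39_Reg K x y ∧ h39_Reg k (R.redF x) (R.redF y) ∧
      h15_ev2 x y (Φ.map (Polynomial.mapRingHom R.A.subtype)) = 0 ∧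
      d.map R.res ≠ 0 ∧
      (∀ f : F, f ∈ R.O → h39_Reg K x f → ∃ H : Polynomial (Polynomial R.A),
        h15_ev2 x y (H.map (Polynomial.mapRingHom R.A.subtype)) =
          aeval x (d.map R.A.subtype) * f) ∧
      (∀ ξ η : R.A, (Φ.eval (C η)).eval ξ = 0 →
        ∃ P : Place K F, h39_Val P x (ξ : K) ∧ h39_Val P y (η : K)) ∧
      (∀ (Q : Place k Fb) (b c : k), h39_Val Q (R.redF x) b → h39_Val Q (R.redF y) c →
        (d.map R.res).eval b ≠ 0 →
          Q.ord (R.redF x - algebraMap k Fb b) = 1 ∧
          ((Φ.map (Polynomial.mapRingHom R.res)).derivative.eval (C c)).eval b ≠ 0 ∧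
          ∀ Q' : Place k Fb, h39_Val Q' (R.redF x) b → h39_Val Q' (R.redF y) c → Q' = Q) :=
  h82_coord_of R hx (fun hM => h2_model_denom R hx hM)

end Datum

end Fermat.Agent.S27

end
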