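import Mathlib
import Fermat.Agent.S18.Defs
import Fermat.Agent.S18.h64_Star
import Fermat.Agent.S18.h64_GT
import Fermat.Agent.S18.RR_Riemann
import Fermat.Agent.S18.RR_Chart
import Fermat.Agent.S18.h60_Red

set_option autoImplicit false

/-!
# S27 / SPEC-RED: the reduction homomorphism on `Pic⁰` and its injectivity on torsion

For a reduction datum `R : h39_RedDatum K F k Fb` with a place reduction `PR : h39_PlaceRed R`
(both sides having charts, so that all places have degree one and principal divisors have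
degree zero), push-forward of divisors along `PR.r0` induces a homomorphism
`h64_redPic0 : Pic0 K F →+ Pic0 k Fb`.  It is injective on `m`-torsion when `m` is invertible in
`k` (`h64_GT`), and bijective on `m`-torsion as soon as torsion classes lift (LIFT, block B5).

Main statements: `h64_mapDomain_principal`, `h64_redPic0`, `h64_redPic0_mk`,
`h64_redPic0_torsion_injective`, `h64_card_torsion_eq_of_lift`.
-/

noncomputable section

namespace Fermat.Agent.S27

open AlgebraicCurve Fermat.Agent.S18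

variable {K F k Fb : Type*} [Field K] [Field F] [Algebra K F] [Field k] [Field Fb] [Algebra k Fb]

/-- A function without zeros and poles is constant. -/
theorem h64_const_of_ord_eq_zero [IsAlgClosed K] {x : F} (hx : h75_IsChart K x) (g : F)
    (hg : ∀ P : Place K F, P.ord g = 0) : ∃ c : K, g = algebraMap K F c := by
  have hmem : g ∈ riemannRochSpace (0 : Divisor K F) := by
    rw [mem_riemannRochSpace_iff]
    intro v
    right
    rw [hg v]
    simp
  rw [h7_rr_zero_eq hx, Submodule.mem_span_singleton] at hmem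
  obtain ⟨c, hc⟩ := hmem
  exact ⟨c, by rw [← hc, Algebra.algebraMap_eq_smul_one]⟩

/-- Scaling a nonzero function to a unit of `R.O` does not change its divisor. -/
theorem h64_exists_unit_scale (R : h39_RedDatum K F k Fb) (f : F) (hf : f ≠ 0) :
    ∃ (y : F) (hy : y ∈ R.O), R.red ⟨y, hy⟩ ≠ 0 ∧ y ≠ 0 ∧ ∀ P : Place K F, P.ord y = P.ord f := by
  obtain ⟨c, hc, h1, h2⟩ := R.exists_scale f hf
  have hc' : algebraMap K F c ≠ 0 := by simpa using hc
  have hy0 : algebraMap K F c * f ≠ 0 := mul_ne_zero hc' hf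
  refine ⟨algebraMap K F c * f, h1, ?_, hy0, ?_⟩
  · intro h0
    have hmul : (⟨algebraMap K F c * f, h1⟩ : R.O) * ⟨(algebraMap K F c * f)⁻¹, h2⟩ = 1 :=
      Subtype.ext (mul_inv_cancel₀ hy0)
    have := congrArg R.red hmul
    rw [map_mul, h0, zero_mul, map_one] at this
    exact zero_ne_one this
  · intro P
    rw [P.ord_mul hc' hf, h60_ord_algebraMap, zero_add]

/-- Push-forward along a place reduction maps principal divisors to principal divisors. -/
theorem h64_mapDomain_principal (R : h39_RedDatum K F k Fb) (PR : h39_PlaceRed R)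
    (D : Divisor K F) (hD : D ∈ Divisor.principal (K := K) (F := F)) :
    Finsupp.mapDomain PR.r0 D ∈ Divisor.principal (K := k) (F := Fb) := by
  obtain ⟨f, hf, hDf⟩ := hD
  obtain ⟨y, hy, hred, -, hord⟩ := h64_exists_unit_scale R f hf
  exact ⟨R.red ⟨y, hy⟩, hred,
    fun Q => PR.compat y hy hred D (fun P => by rw [hDf P, hord P]) Q⟩

section Hom

variable (R : h39_RedDatum K F k Fb) (PR : h39_PlaceRed R)
  (hdegK : ∀ P : Place K F, P.deg = 1) (hdegk : ∀ Q : Place k Fb, Q.deg = 1)

/-- Push-forward of degree-zero divisors. -/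
def h64_redDeg0 : Divisor.degZero (K := K) (F := F) →+ Divisor.degZero (K := k) (F := Fb) where
  toFun D := ⟨Finsupp.mapDomain PR.r0 (D : Divisor K F), by
    rw [Divisor.mem_degZero, h64_degree_mapDomain hdegK hdegk]
    exact D.2⟩
  map_zero' := Subtype.ext (by simp)
  map_add' D E := Subtype.ext (by
    show Finsupp.mapDomain PR.r0 ((D : Divisor K F) + (E : Divisor K F)) = _
    rw [Finsupp.mapDomain_add]
    rfl)

/-- **The reduction homomorphism on `Pic⁰`.** -/
def h64_redPic0 : Pic0 K F →+ Pic0 k Fb :=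
  QuotientAddGroup.lift _
    ((QuotientAddGroup.mk' _).comp (h64_redDeg0 R PR hdegK hdegk))
    (by
      intro D hD
      rw [AddMonoidHom.mem_ker, AddMonoidHom.comp_apply, QuotientAddGroup.mk'_apply,
        QuotientAddGroup.eq_zero_iff]
      exact h64_mapDomain_principal R PR _ hD)

theorem h64_redPic0_mk (D : Divisor.degZero (K := K) (F := F)) :
    h64_redPic0 R PR hdegK hdegk (Pic0.mk D) = Pic0.mk (h64_redDeg0 R PR hdegK hdegk D) := rfl

end Hom

/-- A degree-zero divisor class is zero iff the divisor is principal. -/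
theorem h64_mk_eq_zero_iff (D : Divisor.degZero (K := K) (F := F)) :
    Pic0.mk D = 0 ↔ (D : Divisor K F) ∈ Divisor.principal (K := K) (F := F) := by
  unfold Pic0.mk
  rw [QuotientAddGroup.eq_zero_iff]
  rfl

/-- A class is `m`-torsion iff `m` times the divisor is principal. -/
theorem h64_mk_mem_torsion_iff (m : ℕ) (D : Divisor.degZero (K := K) (F := F)) :
    Pic0.mk D ∈ Pic0.torsion K F m ↔
      (m : ℤ) • (D : Divisor K F) ∈ Divisor.principal (K := K) (F := F) := by
  rw [Pic0.mem_torsion]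
  have : (m : ℤ) • Pic0.mk D = Pic0.mk ((m : ℤ) • D) := rfl
  rw [this, h64_mk_eq_zero_iff]
  rfl

/-- **Injectivity of reduction on `m`-torsion** (`m` invertible in the residue field). -/
theorem h64_redPic0_torsion_injective [IsAlgClosed K] [IsAlgClosed k]
    (R : h39_RedDatum K F k Fb) (PR : h39_PlaceRed R) (hR1 : h39_RankOne R.A)
    {x : F} (hxK : h75_IsChart K x) {xb : Fb} (hxk : h75_IsChart k xb)
    (m : ℕ) (hm : (m : k) ≠ 0) (z : Pic0 K F) (hz : z ∈ Pic0.torsion K F m)
    (hred : h64_redPic0 R PR (h75_deg_eq_one hxK) (h75_deg_eq_one hxk) z = 0) : z = 0 := by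
  have := h75_hasPrincipalDivisors hxK
  have := h75_hasPrincipalDivisors hxk
  obtain ⟨D, rfl⟩ := Pic0.mk_surjective z
  rw [h64_mk_mem_torsion_iff] at hz
  rw [h64_redPic0_mk, h64_mk_eq_zero_iff] at hred
  rw [h64_mk_eq_zero_iff]
  obtain ⟨u, hu0, hDu⟩ := hz
  obtain ⟨hb, hhb0, hDh⟩ := hred
  -- scale `u` to a unit of `R.O`
  obtain ⟨u1, hu1, hu1red, hu10, hu1ord⟩ := h64_exists_unit_scale R u hu0
  have hcompat := PR.compat u1 hu1 hu1red ((m : ℤ) • (D : Divisor K F))
    (fun P => by rw [hDu P, hu1ord P])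
  -- the reduction of `u1` is a constant times `hb ^ m`
  have hordq : ∀ Q : Place k Fb, Q.ord (R.red ⟨u1, hu1⟩ * (hb ^ m)⁻¹) = 0 := by
    intro Q
    have h1 := hcompat Q
    rw [Finsupp.mapDomain_smul, Finsupp.smul_apply] at h1
    have h2 : (h64_redDeg0 R PR (h75_deg_eq_one hxK) (h75_deg_eq_one hxk) D : Divisor k Fb) Q
        = Q.ord hb := hDh Q
    have h3 : Finsupp.mapDomain PR.r0 (D : Divisor K F) Q = Q.ord hb := h2
    rw [h3] at h1
    rw [Q.ord_mul hu1red (inv_ne_zero (pow_ne_zero m hhb0)), Q.ord_inv, h60_ord_pow, ← h1]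
    simp
  obtain ⟨cb, hcb⟩ := h64_const_of_ord_eq_zero hxk _ hordq
  have hcb0 : cb ≠ 0 := by
    rintro rfl
    rw [map_zero] at hcb
    exact mul_ne_zero hu1red (inv_ne_zero (pow_ne_zero m hhb0)) hcb
  -- lift `hb` and the constant
  obtain ⟨h, hh⟩ := R.red_surjective hb
  obtain ⟨c0, hc0⟩ := R.res_surjective cb
  have hh0 : (h : F) ≠ 0 := by
    intro h0
    have : h = 0 := Subtype.ext h0
    rw [this, map_zero] at hh
    exact hhb0 hh.symm
  have hc00 : (c0 : K) ≠ 0 := by
    intro h0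
    have : c0 = 0 := Subtype.ext h0
    rw [this, map_zero] at hc0
    exact hcb0 hc0.symm
  have hhinv : (h : F)⁻¹ ∈ R.O := by
    by_contra hcon
    have hnu : (h : F) ∈ R.O.nonunits := by
      rw [ValuationSubring.mem_nonunits_iff_exists_mem_maximalIdeal]
      refine ⟨h.2, ?_⟩
      rw [IsLocalRing.mem_maximalIdeal, mem_nonunits_iff]
      intro hunit
      apply hcon
      obtain ⟨w, hw⟩ := hunit
      have hw' : (h : F) * ((w⁻¹ : R.Oˣ) : R.O) = 1 := by
        have := congrArg Subtype.val (Units.mul_inv w)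
        rw [hw] at this
        exact this
      have : (h : F)⁻¹ = ((w⁻¹ : R.Oˣ) : R.O) := by
        rw [inv_eq_of_mul_eq_one_right hw']
      rw [this]
      exact SetLike.coe_mem _
    exact hhb0 (hh ▸ (h64_red_eq_zero_iff R h).mpr hnu)
  have hc0inv : (c0 : K)⁻¹ ∈ R.A := by
    by_contra hcon
    have hnu : (c0 : K) ∈ R.A.nonunits := by
      rw [ValuationSubring.mem_nonunits_iff_exists_mem_maximalIdeal]
      refine ⟨c0.2, ?_⟩
      rw [IsLocalRing.mem_maximalIdeal, mem_nonunits_iff]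
      intro hunit
      apply hcon
      obtain ⟨w, hw⟩ := hunit
      have hw' : (c0 : K) * ((w⁻¹ : R.Aˣ) : R.A) = 1 := by
        have := congrArg Subtype.val (Units.mul_inv w)
        rw [hw] at this
        exact this
      have : (c0 : K)⁻¹ = ((w⁻¹ : R.Aˣ) : R.A) := by
        rw [inv_eq_of_mul_eq_one_right hw']
      rw [this]
      exact SetLike.coe_mem _
    exact hcb0 (hc0 ▸ (h64_res_eq_zero_iff R c0).mpr hnu)
  -- the corrected Kummer function `u2 = u1 / (c0 * h ^ m)` reduces to `1`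
  have hCmem : algebraMap K F (c0 : K)⁻¹ ∈ R.O := (R.mem_iff _).mp hc0inv
  let U1 : R.O := ⟨u1, hu1⟩
  let Cc : R.O := ⟨algebraMap K F (c0 : K)⁻¹, hCmem⟩
  let Hi : R.O := ⟨(h : F)⁻¹, hhinv⟩
  have hredC : R.red Cc = algebraMap k Fb cb⁻¹ := by
    have h1 := R.red_algebraMap (c0 : K)⁻¹ hc0inv hCmem
    have h2 : R.res ⟨(c0 : K)⁻¹, hc0inv⟩ = cb⁻¹ := by
      have hmul : c0 * (⟨(c0 : K)⁻¹, hc0inv⟩ : R.A) = 1 := Subtype.ext (mul_inv_cancel₀ hc00)
      have := congrArg R.res hmul
      rw [map_mul, hc0, map_one] at this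
      exact (eq_inv_of_mul_eq_one_right this)
    rw [h1, h2]
  have hredH : R.red Hi = hb⁻¹ := by
    have hmul : h * Hi = 1 := Subtype.ext (mul_inv_cancel₀ hh0)
    have := congrArg R.red hmul
    rw [map_mul, hh, map_one] at this
    exact (eq_inv_of_mul_eq_one_right this)
  have hred2 : R.red (U1 * Cc * Hi ^ m) = 1 := by
    rw [map_mul, map_mul, map_pow, hredC, hredH, map_inv₀, inv_pow]
    have hcb' : R.red U1 = algebraMap k Fb cb * hb ^ m := by
      have := hcb
      field_simp at this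
      rw [this, mul_comm]
    rw [hcb']
    have hcbne : algebraMap k Fb cb ≠ 0 := by simpa using hcb0
    field_simp
  obtain ⟨Dh, hDh', -⟩ := HasPrincipalDivisors.exists_divisor (K := K) (h : F) hh0
  have hord2 : ∀ P : Place K F,
      P.ord ((U1 * Cc * Hi ^ m : R.O) : F) = m * ((D : Divisor K F) - Dh) P := by
    intro P
    have hval : ((U1 * Cc * Hi ^ m : R.O) : F)
        = u1 * algebraMap K F (c0 : K)⁻¹ * ((h : F)⁻¹) ^ m := rfl
    have hcne : algebraMap K F (c0 : K)⁻¹ ≠ 0 := by simpa using hc00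
    rw [hval, P.ord_mul (mul_ne_zero hu10 hcne) (pow_ne_zero m (inv_ne_zero hh0)),
      P.ord_mul hu10 hcne, h60_ord_algebraMap, h60_ord_pow, P.ord_inv, hu1ord, ← hDu P,
      Finsupp.sub_apply, hDh' P]
    simp only [Finsupp.smul_apply, smul_eq_mul]
    ring
  have hGT := h64_GT_principal R PR hR1 (fun E => (h75_riemann hxK E).1)
    (fun E => (h75_riemann hxk E).1) (h75_deg_eq_one hxK) m hm ((D : Divisor K F) - Dh)
    ((U1 * Cc * Hi ^ m : R.O) : F) (SetLike.coe_mem _) hred2 hord2
  have hDhp : Dh ∈ Divisor.principal (K := K) (F := F) := ⟨(h : F), hh0, hDh'⟩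
  have := add_mem hGT hDhp
  rwa [sub_add_cancel] at this

/-- **SPEC, cardinality part, modulo LIFT**: if every `m`-torsion class of the reduction lifts
to an `m`-torsion class, then reduction is a bijection on `m`-torsion. -/
theorem h64_card_torsion_eq_of_lift [IsAlgClosed K] [IsAlgClosed k]
    (R : h39_RedDatum K F k Fb) (PR : h39_PlaceRed R) (hR1 : h39_RankOne R.A)
    {x : F} (hxK : h75_IsChart K x) {xb : Fb} (hxk : h75_IsChart k xb)
    (m : ℕ) (hm : (m : k) ≠ 0)
    (hlift : ∀ Db : Divisor k Fb, Divisor.degree Db = 0 →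
      (m : ℤ) • Db ∈ Divisor.principal (K := k) (F := Fb) →
      ∃ D : Divisor K F, Divisor.degree D = 0 ∧
        (m : ℤ) • D ∈ Divisor.principal (K := K) (F := F) ∧
        Finsupp.mapDomain PR.r0 D - Db ∈ Divisor.principal (K := k) (F := Fb)) :
    Nat.card (Pic0.torsion K F m) = Nat.card (Pic0.torsion k Fb m) := by
  set φ := h64_redPic0 R PR (h75_deg_eq_one hxK) (h75_deg_eq_one hxk) with hφ
  have hmaps : ∀ z : Pic0.torsion K F m, φ z ∈ Pic0.torsion k Fb m := by
    intro z
    rw [Pic0.mem_torsion, ← map_zsmul, (Pic0.mem_torsion).mp z.2, map_zero]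
  let f : Pic0.torsion K F m → Pic0.torsion k Fb m := fun z => ⟨φ z, hmaps z⟩
  have hinj : Function.Injective f := by
    intro z w hzw
    have h1 : φ (z : Pic0 K F) = φ (w : Pic0 K F) := congrArg Subtype.val hzw
    have h2 : φ ((z : Pic0 K F) - (w : Pic0 K F)) = 0 := by rw [map_sub, h1, sub_self]
    have h3 := h64_redPic0_torsion_injective R PR hR1 hxK hxk m hm _
      ((Pic0.torsion K F m).sub_mem z.2 w.2) h2
    exact Subtype.ext (sub_eq_zero.mp h3)
  have hsurj : Function.Surjective f := by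
    rintro ⟨y, hy⟩
    obtain ⟨Db, rfl⟩ := Pic0.mk_surjective y
    rw [h64_mk_mem_torsion_iff] at hy
    obtain ⟨D, hD0, hDm, hDb⟩ := hlift (Db : Divisor k Fb) Db.2 hy
    refine ⟨⟨Pic0.mk ⟨D, hD0⟩, (h64_mk_mem_torsion_iff m _).mpr hDm⟩, Subtype.ext ?_⟩
    show φ (Pic0.mk ⟨D, hD0⟩) = Pic0.mk Db
    rw [hφ, h64_redPic0_mk, ← sub_eq_zero]
    have : Pic0.mk (h64_redDeg0 R PR (h75_deg_eq_one hxK) (h75_deg_eq_one hxk) ⟨D, hD0⟩)
        - Pic0.mk Db
        = Pic0.mk (h64_redDeg0 R PR (h75_deg_eq_one hxK) (h75_deg_eq_one hxk) ⟨D, hD0⟩ - Db) :=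
      rfl
    rw [this, h64_mk_eq_zero_iff]
    exact hDb
  exact Nat.card_congr (Equiv.ofBijective f ⟨hinj, hsurj⟩)

end Fermat.Agent.S27
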