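import Mathlib
import Fermat.Agent.S18.Defs
import Fermat.Agent.S18.GR_RedAPI
import Fermat.Agent.S18.h60_Red
import Fermat.Agent.S27.h64_SpecRed

/-!
# S27 / B5g COMPLETE, step (e): NORMALIZE

For a reduction datum `R` with a place reduction `S`, a family `f0, e_1, …, e_M ∈ O` whose
reductions are `k`-linearly independent is "orthonormal": a `K`-combination lies in `O` iff all
its coefficients lie in `A`, and then reduction is computed coefficientwise
(`h60_coeff_mem_of_li`, `h60_redF_sum_coeff`).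

`h60_normalize`: if `f ≠ 0` lies in the `K`-span of `f0, e_l` and the push-forward of its divisor
is the divisor of `red f0`, then `f = a • (f0 + ∑ c_l e_l)` with `a ≠ 0` and all `c_l` in the
maximal ideal of `A`.
-/

set_option autoImplicit false

noncomputable section

namespace Fermat.Agent.S27

open AlgebraicCurve Fermat.Agent.S18

variable {K F k Fb : Type*} [Field K] [Field F] [Algebra K F] [Field k] [Field Fb] [Algebra k Fb]

/-- Reduction of a combination with integral coefficients is computed coefficientwise. -/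
theorem h60_redF_sum_coeff (R : h39_RedDatum K F k Fb) {n : ℕ} (b : Fin n → F)
    (hb : ∀ i, b i ∈ R.O) (a : Fin n → K) (ha : ∀ i, a i ∈ R.A) :
    R.redF (∑ i, algebraMap K F (a i) * b i) =
      ∑ i, algebraMap k Fb (R.resK (a i)) * R.redF (b i) := by
  rw [h39_redF_sum R Finset.univ _
    (fun i _ => R.O.mul_mem _ _ ((R.mem_iff (a i)).mp (ha i)) (hb i))]
  refine Finset.sum_congr rfl fun i _ => ?_
  rw [h39_redF_mul R ((R.mem_iff (a i)).mp (ha i)) (hb i), h39_redF_algebraMap R (ha i)]

/-- Orthonormality: if the reductions of the `b i ∈ O` are `k`-independent and a `K`-combination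
of the `b i` lies in `O`, then all its coefficients lie in `A`. -/
theorem h60_coeff_mem_of_li (R : h39_RedDatum K F k Fb) {n : ℕ} (b : Fin n → F)
    (hb : ∀ i, b i ∈ R.O) (hli : LinearIndependent k (fun i => R.redF (b i)))
    (a : Fin n → K) (hsum : ∑ i, algebraMap K F (a i) * b i ∈ R.O) : ∀ i, a i ∈ R.A := by
  classical
  by_contra hcon
  push Not at hcon
  obtain ⟨i₁, hi₁⟩ := hcon
  obtain ⟨i₀, -, hmax⟩ := Finset.exists_max_image Finset.univ (fun i => R.A.valuation (a i))
    ⟨i₁, Finset.mem_univ _⟩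
  have hi₀ : a i₀ ∉ R.A := by
    intro h
    apply hi₁
    rw [← ValuationSubring.valuation_le_one_iff] at h ⊢
    exact (hmax i₁ (Finset.mem_univ _)).trans h
  have h0 : a i₀ ≠ 0 := by
    rintro h
    rw [h] at hi₀
    exact hi₀ R.A.zero_mem
  have hv0 : R.A.valuation (a i₀) ≠ 0 := (Valuation.ne_zero_iff _).mpr h0
  have hinvA : (a i₀)⁻¹ ∈ R.A := by
    rcases R.A.mem_or_inv_mem (a i₀) with h | h
    · exact absurd h hi₀
    · exact h
  have hinv0 : R.resK (a i₀)⁻¹ = 0 := by
    rw [h39_resK_eq_zero_iff R hinvA, inv_inv]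
    exact Or.inr hi₀
  -- the normalised coefficients
  have ha' : ∀ i, a i / a i₀ ∈ R.A := by
    intro i
    rw [← ValuationSubring.valuation_le_one_iff, map_div₀]
    exact div_le_one_of_le₀ (hmax i (Finset.mem_univ _)) zero_le
  have hEq : ∑ i, algebraMap K F (a i / a i₀) * b i =
      algebraMap K F (a i₀)⁻¹ * ∑ i, algebraMap K F (a i) * b i := by
    rw [Finset.mul_sum]
    refine Finset.sum_congr rfl fun i _ => ?_
    rw [div_eq_mul_inv, map_mul]
    ring
  have hred0 : R.redF (∑ i, algebraMap K F (a i / a i₀) * b i) = 0 := by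
    rw [hEq, h39_redF_mul R ((R.mem_iff _).mp hinvA) hsum, h39_redF_algebraMap R hinvA, hinv0,
      map_zero, zero_mul]
  rw [h60_redF_sum_coeff R b hb _ ha'] at hred0
  have hli' := Fintype.linearIndependent_iff.mp hli (fun i => R.resK (a i / a i₀))
    (by
      rw [← hred0]
      refine Finset.sum_congr rfl fun i _ => ?_
      rw [Algebra.smul_def]) i₀
  rw [div_self h0, h39_resK_one R] at hli'
  exact one_ne_zero hli'

/-- **NORMALIZE** (step (e) of COMPLETE). -/
theorem h60_normalize [IsAlgClosed k] (R : h39_RedDatum K F k Fb) (S : h39_PlaceRed R)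
    {xb : Fb} (hxb : h75_IsChart k xb)
    {M : ℕ} (f0 : F) (e : Fin M → F) (hf0 : f0 ∈ R.O) (he : ∀ l, e l ∈ R.O)
    (hli : LinearIndependent k (Fin.cons (R.redF f0) (fun l => R.redF (e l)) : Fin (M + 1) → Fb))
    (f : F) (hf : f ≠ 0)
    (hspan : f ∈ Submodule.span K (Set.range (Fin.cons f0 e : Fin (M + 1) → F)))
    (Df : Divisor K F) (hDf : ∀ P, Df P = P.ord f)
    (hred : ∀ Q : Place k Fb, Finsupp.mapDomain S.r0 Df Q = Q.ord (R.redF f0)) :
    ∃ (a : K) (c : Fin M → R.A), a ≠ 0 ∧ (∀ l, c l ∈ IsLocalRing.maximalIdeal R.A) ∧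
      f = algebraMap K F a * (f0 + ∑ l, algebraMap K F (c l : K) * e l) := by
  classical
  -- the family `b = (f0, e)`
  obtain ⟨b, hbdef⟩ : ∃ b : Fin (M + 1) → F, b = Fin.cons f0 e := ⟨_, rfl⟩
  have hb0 : b 0 = f0 := by rw [hbdef, Fin.cons_zero]
  have hbs : ∀ l : Fin M, b l.succ = e l := fun l => by rw [hbdef, Fin.cons_succ]
  have hb : ∀ i, b i ∈ R.O := by
    intro i
    refine Fin.cases ?_ (fun l => ?_) i
    · rw [hb0]; exact hf0
    · rw [hbs]; exact he l
  have hredb : (fun i => R.redF (b i)) =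
      (Fin.cons (R.redF f0) (fun l => R.redF (e l)) : Fin (M + 1) → Fb) := by
    funext i
    refine Fin.cases ?_ (fun l => ?_) i
    · rw [hb0, Fin.cons_zero]
    · rw [hbs, Fin.cons_succ]
  have hlib : LinearIndependent k (fun i => R.redF (b i)) := by rw [hredb]; exact hli
  have hf0red : R.redF f0 ≠ 0 := by
    have := hlib.ne_zero 0
    rwa [hb0] at this
  -- coordinates of `f`
  rw [← hbdef, Submodule.mem_span_range_iff_exists_fun] at hspan
  obtain ⟨a, ha⟩ := hspan
  -- scale `f` to a unit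
  obtain ⟨c0, hc0, hu, huinv⟩ := R.exists_scale f hf
  have hc0F : algebraMap K F c0 ≠ 0 := by simpa using hc0
  have hu0 : algebraMap K F c0 * f ≠ 0 := mul_ne_zero hc0F hf
  have hured : R.redF (algebraMap K F c0 * f) ≠ 0 := by
    intro h0
    rcases (h39_redF_eq_zero_iff R hu).mp h0 with h | h
    · exact hu0 h
    · exact h huinv
  have hured' : R.red ⟨algebraMap K F c0 * f, hu⟩ ≠ 0 := by
    rwa [R.redF_of_mem hu] at hured
  -- the reduction of the unit is a constant times `red f0`
  have hord : ∀ Q : Place k Fb,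
      Q.ord (R.redF (algebraMap K F c0 * f) * (R.redF f0)⁻¹) = 0 := by
    intro Q
    have h1 := S.compat (algebraMap K F c0 * f) hu hured' Df
      (fun P => by rw [hDf P, P.ord_mul hc0F hf, h60_ord_algebraMap, zero_add]) Q
    rw [hred Q, ← R.redF_of_mem hu] at h1
    rw [Q.ord_mul hured (inv_ne_zero hf0red), Q.ord_inv, h1]
    ring
  obtain ⟨cb, hcb⟩ := h64_const_of_ord_eq_zero hxb _ hord
  have hcb0 : cb ≠ 0 := by
    rintro rfl
    rw [map_zero] at hcb
    exact mul_ne_zero hured (inv_ne_zero hf0red) hcb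
  have hured2 : R.redF (algebraMap K F c0 * f) = algebraMap k Fb cb * R.redF f0 := by
    rw [← hcb, mul_assoc, inv_mul_cancel₀ hf0red, mul_one]
  -- lift the constant
  obtain ⟨a1, ha1, hres1⟩ := h39_resK_surjective R cb
  have ha1' : a1 ≠ 0 ∧ a1⁻¹ ∈ R.A := by
    have hne : R.resK a1 ≠ 0 := by rw [hres1]; exact hcb0
    rw [Ne, h39_resK_eq_zero_iff R ha1] at hne
    push Not at hne
    exact hne
  obtain ⟨ha10, ha1inv⟩ := ha1'
  have hres1inv : R.resK a1⁻¹ = cb⁻¹ := by
    have h1 : R.resK (a1 * a1⁻¹) = R.resK a1 * R.resK a1⁻¹ := h39_resK_mul R ha1 ha1inv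
    rw [mul_inv_cancel₀ ha10, h39_resK_one R, hres1] at h1
    exact eq_inv_of_mul_eq_one_right h1.symm
  -- the normalised function `u' = a1⁻¹ c0 f`, with coordinates `a'`
  obtain ⟨a', ha'def⟩ : ∃ a' : Fin (M + 1) → K, a' = fun i => a1⁻¹ * c0 * a i := ⟨_, rfl⟩
  have hu'eq : ∑ i, algebraMap K F (a' i) * b i =
      algebraMap K F a1⁻¹ * (algebraMap K F c0 * f) := by
    rw [← ha, Finset.mul_sum, Finset.mul_sum]
    refine Finset.sum_congr rfl fun i _ => ?_
    rw [ha'def, Algebra.smul_def, map_mul, map_mul]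
    ring
  have hu'mem : ∑ i, algebraMap K F (a' i) * b i ∈ R.O := by
    rw [hu'eq]
    exact R.O.mul_mem _ _ ((R.mem_iff _).mp ha1inv) hu
  have ha'A : ∀ i, a' i ∈ R.A := h60_coeff_mem_of_li R b hb hlib a' hu'mem
  have hu'red : ∑ i, algebraMap k Fb (R.resK (a' i)) * R.redF (b i) = R.redF f0 := by
    rw [← h60_redF_sum_coeff R b hb a' ha'A, hu'eq,
      h39_redF_mul R ((R.mem_iff _).mp ha1inv) hu, h39_redF_algebraMap R ha1inv, hres1inv,
      hured2, ← mul_assoc, ← map_mul, inv_mul_cancel₀ hcb0, map_one, one_mul]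
  -- residues of the coordinates
  have hcoord := Fintype.linearIndependent_iff.mp hlib
    (fun i => R.resK (a' i) - if i = 0 then 1 else 0)
    (by
      have h1 : ∑ i, (R.resK (a' i) - if i = 0 then 1 else 0) • R.redF (b i) =
          ∑ i, algebraMap k Fb (R.resK (a' i)) * R.redF (b i) -
            ∑ i : Fin (M + 1), (if i = 0 then (1 : k) else 0) • R.redF (b i) := by
        rw [← Finset.sum_sub_distrib]
        refine Finset.sum_congr rfl fun i _ => ?_
        rw [sub_smul, Algebra.smul_def]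
      rw [h1, hu'red]
      have h2 : ∑ i : Fin (M + 1), (if i = 0 then (1 : k) else 0) • R.redF (b i) = R.redF f0 := by
        rw [Finset.sum_eq_single (0 : Fin (M + 1))]
        · rw [if_pos rfl, one_smul, hb0]
        · intro i _ hi
          rw [if_neg hi, zero_smul]
        · intro h
          exact absurd (Finset.mem_univ _) h
      rw [h2, sub_self])
  have hres0 : R.resK (a' 0) = 1 := by
    have := hcoord 0
    rw [if_pos rfl, sub_eq_zero] at this
    exact this
  have hress : ∀ l : Fin M, R.resK (a' l.succ) = 0 := by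
    intro l
    have := hcoord l.succ
    rw [if_neg (Fin.succ_ne_zero l), sub_zero] at this
    exact this
  have ha'0 : a' 0 ≠ 0 ∧ (a' 0)⁻¹ ∈ R.A := by
    have hne : R.resK (a' 0) ≠ 0 := by rw [hres0]; exact one_ne_zero
    rw [Ne, h39_resK_eq_zero_iff R (ha'A 0)] at hne
    push Not at hne
    exact hne
  obtain ⟨ha'00, ha'0inv⟩ := ha'0
  -- the coordinates `c l = a' (succ l) / a' 0`
  have hcA : ∀ l : Fin M, a' l.succ * (a' 0)⁻¹ ∈ R.A :=
    fun l => R.A.mul_mem _ _ (ha'A l.succ) ha'0inv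
  have hcres : ∀ l : Fin M, R.resK (a' l.succ * (a' 0)⁻¹) = 0 := by
    intro l
    rw [h39_resK_mul R (ha'A l.succ) ha'0inv, hress l, zero_mul]
  refine ⟨a1 * c0⁻¹ * a' 0, fun l => ⟨a' l.succ * (a' 0)⁻¹, hcA l⟩,
    mul_ne_zero (mul_ne_zero ha10 (inv_ne_zero hc0)) ha'00, fun l => ?_, ?_⟩
  · have hker := IsLocalRing.ker_eq_maximalIdeal R.res R.res_surjective
    rw [← hker, RingHom.mem_ker, ← R.resK_of_mem (hcA l)]
    exact hcres l
  · -- `f = (a1 / c0) u'`
    have hf_eq : f = algebraMap K F (a1 * c0⁻¹) * ∑ i, algebraMap K F (a' i) * b i := by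
      rw [hu'eq, map_mul, map_inv₀, map_inv₀]
      have ha1F : algebraMap K F a1 ≠ 0 := by simpa using ha10
      field_simp
    rw [hf_eq, Fin.sum_univ_succ, hb0]
    have hsum : ∑ l : Fin M, algebraMap K F (a' l.succ) * b l.succ =
        algebraMap K F (a' 0) * ∑ l : Fin M, algebraMap K F (a' l.succ * (a' 0)⁻¹) * e l := by
      rw [Finset.mul_sum]
      refine Finset.sum_congr rfl fun l _ => ?_
      rw [hbs, map_mul, map_inv₀]
      have : algebraMap K F (a' 0) ≠ 0 := by simpa using ha'00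
      field_simp
    rw [hsum, map_mul (algebraMap K F) (a1 * c0⁻¹) (a' 0)]
    ring

end Fermat.Agent.S27
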