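import Mathlib
import Fermat.Agent.S18.Defs
import Fermat.Agent.S18.h39_GRDefs
import Fermat.Agent.S18.GR_RedAPI
import Fermat.Agent.S18.h64_Star
import Fermat.Agent.S18.h64_CompatOfLe
import Fermat.Agent.S18.RR_Riemann
import Fermat.Agent.S18.RR_Chart
import Fermat.Agent.S24.h35_PlaceBasic

set_option autoImplicit false

/-!
# S27 / B5 (LIFT): fibres of the place reduction and pointwise lifting of divisors

General facts about a place reduction `S : h39_PlaceRed R` used by the assembly of LIFT:

* `h64_exists_r0_of_ord_neg`, `h64_exists_r0_of_ord_pos`: a pole (zero) of the reduction of a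
  unit `y` of `R.O` is the reduction of a pole (zero) of `y`;
* `h64_r0_surjective`: `S.r0` is onto;
* `h64_exists_pole_r0_eq`: a pole of `x̄` is the reduction of a pole of `x`;
* `h64_r0_pole_of_pole`, `h64_r0_mem_of_inDisc`: `S.r0` maps poles of `x` to poles of `x̄` and
  points of the unit disc to finite places of `x̄`;
* `h64_mapDomain_section` and friends, `h64_exists_lift_divisor`: lifting of divisors along a
  section of `S.r0`;
* `h64_degree_mapDomain_r0`: push-forward preserves the degree;
* `h64_ord_eq_of_le_of_degree`: a principal divisor which is `≥` a divisor of degree zero is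
  equal to it.
-/

noncomputable section

namespace Fermat.Agent.S27

open AlgebraicCurve Fermat.Agent.S18

variable {K F k Fb : Type*} [Field K] [Field F] [Algebra K F] [Field k] [Field Fb] [Algebra k Fb]

/-! ### Fibres of `r0` -/

/-- A pole of the reduction of `y ∈ R.O` is the reduction of a pole of `y`. -/
theorem h64_exists_r0_of_ord_neg [HasPrincipalDivisors K F] (R : h39_RedDatum K F k Fb)
    (S : h39_PlaceRed R) (y : F) (hy : y ∈ R.O) (Q : Place k Fb)
    (hQ : Q.ord (R.red ⟨y, hy⟩) < 0) : ∃ P : Place K F, S.r0 P = Q ∧ P.ord y < 0 := by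
  classical
  have hred : R.red ⟨y, hy⟩ ≠ 0 := by
    intro h0
    rw [h0, Q.ord_zero] at hQ
    exact lt_irrefl _ hQ
  have hy0 : y ≠ 0 := by
    rintro rfl
    apply hred
    have : (⟨0, hy⟩ : R.O) = 0 := rfl
    rw [this, map_zero]
  obtain ⟨D, hD, -⟩ := HasPrincipalDivisors.exists_divisor (K := K) y hy0
  have h1 := S.compat y hy hred D hD Q
  rw [h53_mapDomain_apply] at h1
  by_contra hcon
  push Not at hcon
  have hnonneg : 0 ≤ ∑ P ∈ D.support, (if S.r0 P = Q then D P else 0) := by
    refine Finset.sum_nonneg fun P _ => ?_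
    split_ifs with hP
    · rw [hD P]
      exact hcon P hP
    · exact le_rfl
  rw [h1] at hnonneg
  exact absurd hQ (not_lt.mpr hnonneg)

/-- A zero of the reduction of `y ∈ R.O` is the reduction of a zero of `y`. -/
theorem h64_exists_r0_of_ord_pos [HasPrincipalDivisors K F] (R : h39_RedDatum K F k Fb)
    (S : h39_PlaceRed R) (y : F) (hy : y ∈ R.O) (Q : Place k Fb)
    (hQ : 0 < Q.ord (R.red ⟨y, hy⟩)) : ∃ P : Place K F, S.r0 P = Q ∧ 0 < P.ord y := by
  classical
  have hred : R.red ⟨y, hy⟩ ≠ 0 := by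
    intro h0
    rw [h0, Q.ord_zero] at hQ
    exact lt_irrefl _ hQ
  have hy0 : y ≠ 0 := by
    rintro rfl
    apply hred
    have : (⟨0, hy⟩ : R.O) = 0 := rfl
    rw [this, map_zero]
  obtain ⟨D, hD, -⟩ := HasPrincipalDivisors.exists_divisor (K := K) y hy0
  have h1 := S.compat y hy hred D hD Q
  rw [h53_mapDomain_apply] at h1
  by_contra hcon
  push Not at hcon
  have hnonpos : ∑ P ∈ D.support, (if S.r0 P = Q then D P else 0) ≤ 0 := by
    refine Finset.sum_nonpos fun P _ => ?_
    split_ifs with hP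
    · rw [hD P]
      exact hcon P hP
    · exact le_rfl
  rw [h1] at hnonpos
  exact absurd hQ (not_lt.mpr hnonpos)

/-- **`r0` is onto.** -/
theorem h64_r0_surjective [HasPrincipalDivisors K F] (R : h39_RedDatum K F k Fb)
    (S : h39_PlaceRed R) : Function.Surjective S.r0 := by
  intro Q
  -- an element of `Fb` with a pole at `Q`
  have hex : ∃ z : Fb, z ∉ Q.toValuationSubring := by
    by_contra hcon
    push Not at hcon
    exact Q.ne_top' (eq_top_iff.mpr fun z _ => hcon z)
  obtain ⟨z, hz⟩ := hex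
  have hz0 : z ≠ 0 := by
    rintro rfl
    exact hz (zero_mem _)
  have hord : Q.ord z < 0 := by
    by_contra hcon
    exact hz ((Fermat.Agent.S24.h35_mem_iff_ord_nonneg Q hz0).mpr (not_lt.mp hcon))
  obtain ⟨w, hw⟩ := R.red_surjective z
  obtain ⟨P, hP, -⟩ := h64_exists_r0_of_ord_neg R S (w : F) w.2 Q (by rw [hw]; exact hord)
  exact ⟨P, hP⟩

/-- A pole of `x̄` is the reduction of a pole of `x`. -/
theorem h64_exists_pole_r0_eq [HasPrincipalDivisors K F] (R : h39_RedDatum K F k Fb)
    (S : h39_PlaceRed R) {x : F} (hx : x ∈ R.O) (Q : Place k Fb)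
    (hQ : Q.ord (R.redF x) < 0) : ∃ P : Place K F, S.r0 P = Q ∧ P.ord x < 0 := by
  rw [R.redF_of_mem hx] at hQ
  exact h64_exists_r0_of_ord_neg R S x hx Q hQ

/-- A finite place of `x̄` at which `x̄` has a given value: zero form.  A zero of `x̄ - c̄` is
the reduction of a zero of `x - c` (`c ∈ A`). -/
theorem h64_exists_zero_r0_eq [HasPrincipalDivisors K F] (R : h39_RedDatum K F k Fb)
    (S : h39_PlaceRed R) {y : F} (hy : y ∈ R.O) (Q : Place k Fb)
    (hQ : 0 < Q.ord (R.redF y)) : ∃ P : Place K F, S.r0 P = Q ∧ 0 < P.ord y := by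
  rw [R.redF_of_mem hy] at hQ
  exact h64_exists_r0_of_ord_pos R S y hy Q hQ

/-- `r0` maps the unit disc of the chart to the finite places of `x̄`. -/
theorem h64_r0_mem_of_inDisc (R : h39_RedDatum K F k Fb) (S : h39_PlaceRed R) {x : F}
    (hS1 : ∃ r : Place K F → Place k Fb, h39_IsChartRed R x r ∧
      ∀ P : Place K F, h39_InDisc R x P → S.r0 P = r P)
    (P : Place K F) (hP : h39_InDisc R x P) :
    R.redF x ∈ (S.r0 P).toValuationSubring := by
  obtain ⟨r, hr, h1⟩ := hS1
  rw [h1 P hP]
  exact (hr P hP).1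

/-- Values are compatible with `r0` on the unit disc. -/
theorem h64_r0_val_of_inDisc (R : h39_RedDatum K F k Fb) (S : h39_PlaceRed R) {x : F}
    (hS1 : ∃ r : Place K F → Place k Fb, h39_IsChartRed R x r ∧
      ∀ P : Place K F, h39_InDisc R x P → S.r0 P = r P)
    (P : Place K F) (hP : h39_InDisc R x P) (f : F) (hf : f ∈ R.O) (hreg : h39_Reg K x f)
    (b : K) (hb : h39_Val P f b) : h39_Val (S.r0 P) (R.redF f) (R.resK b) := by
  obtain ⟨r, hr, h1⟩ := hS1
  rw [h1 P hP]
  exact (hr P hP).2 f hf hreg b hb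

/-- `r0` maps the poles of `x` to the poles of `x̄`. -/
theorem h64_r0_pole_of_pole (R : h39_RedDatum K F k Fb) (S : h39_PlaceRed R) {x : F}
    (hx : x ∈ R.O) (hxb : R.redF x ≠ 0)
    (hS2 : ∃ r' : Place K F → Place k Fb, h39_IsChartRed R x⁻¹ r' ∧
      ∀ P : Place K F, ¬ h39_InDisc R x P → S.r0 P = r' P)
    (P : Place K F) (hP : P.ord x < 0) : (S.r0 P).ord (R.redF x) < 0 := by
  obtain ⟨r', hr', h2⟩ := hS2
  have hx0 : x ≠ 0 := by
    rintro rfl
    exact hxb (h39_redF_zero R)
  -- `P` is not in the disc of `x`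
  have hnot : ¬ h39_InDisc R x P := by
    rintro ⟨a, -, ha⟩
    have hmem : x ∈ P.toValuationSubring := by
      rcases ha with ha | ha
      · rw [ha]
        exact P.algebraMap_mem' a
      · have hsub : x - algebraMap K F a ∈ P.toValuationSubring := by
          by_cases h0 : x - algebraMap K F a = 0
          · rw [h0]
            exact zero_mem _
          · exact (Fermat.Agent.S24.h35_mem_iff_ord_nonneg P h0).mpr ha.le
        have := add_mem hsub (P.algebraMap_mem' a)
        rwa [sub_add_cancel] at this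
    have := (Fermat.Agent.S24.h35_mem_iff_ord_nonneg P hx0).mp hmem
    exact absurd hP (not_lt.mpr this)
  -- `P` is in the disc of `x⁻¹`, with value `0`
  have hin : h39_InDisc R x⁻¹ P := by
    refine ⟨0, zero_mem _, Or.inr ?_⟩
    rw [map_zero, sub_zero, P.ord_inv]
    exact neg_pos.mpr hP
  have hinv := h39_inv_of_redF_ne_zero R hxb
  have hval := (hr' P hin).2 x⁻¹ hinv.1 (fun _ h => h) 0 (Or.inr (by
    rw [map_zero, sub_zero, P.ord_inv]
    exact neg_pos.mpr hP))
  rw [h2 P hnot]
  have hres0 : R.resK 0 = 0 := by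
    rw [R.resK_of_mem (zero_mem _)]
    exact map_zero R.res
  rw [hinv.2, hres0] at hval
  rcases hval with h | h
  · rw [map_zero] at h
    exact absurd h (inv_ne_zero hxb)
  · rw [map_zero, sub_zero, (r' P).ord_inv] at h
    exact neg_pos.mp h

/-! ### Lifting divisors along a section of `r0` -/

/-- A section of `r0` with a prescribed property. -/
theorem h64_exists_section (R : h39_RedDatum K F k Fb) (S : h39_PlaceRed R)
    (p : Place k Fb → Place K F → Prop) (hp : ∀ Q, ∃ P, S.r0 P = Q ∧ p Q P) :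
    ∃ σ : Place k Fb → Place K F, (∀ Q, S.r0 (σ Q) = Q) ∧ ∀ Q, p Q (σ Q) := by
  choose σ h1 h2 using hp
  exact ⟨σ, h1, h2⟩

section Section

variable {r0 : Place K F → Place k Fb} {σ : Place k Fb → Place K F}

theorem h64_section_injective (hσ : ∀ Q, r0 (σ Q) = Q) : Function.Injective σ := by
  intro Q Q' h
  rw [← hσ Q, ← hσ Q', h]

/-- Pushing forward the lift along a section gives back the divisor. -/
theorem h64_mapDomain_section (hσ : ∀ Q, r0 (σ Q) = Q) (Db : Divisor k Fb) :
    Finsupp.mapDomain r0 (Finsupp.mapDomain σ Db) = Db := by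
  rw [← Finsupp.mapDomain_comp]
  have : r0 ∘ σ = id := funext hσ
  rw [this, Finsupp.mapDomain_id]

/-- The lift along a section at a point of the section. -/
theorem h64_mapDomain_section_apply (hσ : ∀ Q, r0 (σ Q) = Q) (Db : Divisor k Fb)
    (Q : Place k Fb) : Finsupp.mapDomain σ Db (σ Q) = Db Q :=
  Finsupp.mapDomain_apply (h64_section_injective hσ) Db Q

/-- The lift along a section at any point: `Db (r0 P)` if `P` is on the section, `0`
otherwise. -/
theorem h64_mapDomain_section_apply' (hσ : ∀ Q, r0 (σ Q) = Q) (Db : Divisor k Fb)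
    (P : Place K F) :
    Finsupp.mapDomain σ Db P = (letI := Classical.propDecidable; if σ (r0 P) = P then Db (r0 P) else 0) := by
  classical
  split_ifs with h
  · rw [← h, hσ]
    exact h64_mapDomain_section_apply hσ Db _
  · apply Finsupp.mapDomain_of_notMem_range
    rintro ⟨Q, rfl⟩
    apply h
    rw [hσ]

/-- The lift of an effective divisor is effective. -/
theorem h64_mapDomain_section_nonneg (Db : Divisor k Fb) (hDb : ∀ Q, 0 ≤ Db Q)
    (P : Place K F) : 0 ≤ Finsupp.mapDomain σ Db P :=
  h53_mapDomain_nonneg σ Db P fun Q _ => hDb Q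

/-- Points of the support of the lift are on the section, over the support. -/
theorem h64_mapDomain_section_support (hσ : ∀ Q, r0 (σ Q) = Q) (Db : Divisor k Fb)
    (P : Place K F) (hP : Finsupp.mapDomain σ Db P ≠ 0) :
    σ (r0 P) = P ∧ Db (r0 P) ≠ 0 := by
  classical
  rw [h64_mapDomain_section_apply' hσ] at hP
  split_ifs at hP with h
  · exact ⟨h, hP⟩
  · exact absurd rfl hP

end Section

/-- Push-forward along `r0` preserves the degree (all places of degree one). -/
theorem h64_degree_mapDomain_r0 [IsAlgClosed K] [IsAlgClosed k] (R : h39_RedDatum K F k Fb)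
    (S : h39_PlaceRed R) {x : F} (hxK : h75_IsChart K x) {xb : Fb} (hxk : h75_IsChart k xb)
    (D : Divisor K F) : Divisor.degree (Finsupp.mapDomain S.r0 D) = Divisor.degree D :=
  h64_degree_mapDomain (h75_deg_eq_one hxK) (h75_deg_eq_one hxk) S.r0 D

/-- The lift along a section has the same degree. -/
theorem h64_degree_mapDomain_section [IsAlgClosed K] [IsAlgClosed k] {x : F}
    (hxK : h75_IsChart K x) {xb : Fb} (hxk : h75_IsChart k xb)
    (σ : Place k Fb → Place K F) (Db : Divisor k Fb) :
    Divisor.degree (Finsupp.mapDomain σ Db) = Divisor.degree Db :=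
  h64_degree_mapDomain (h75_deg_eq_one hxk) (h75_deg_eq_one hxK) σ Db

/-- **Pointwise lifting of divisors**: given, for every place `Q` of the reduced field, a place
`P` over it with a property `p Q P`, every divisor `Db` has a lift `D` (`r0_* D = Db`) of the
same degree, supported on such places, with the same coefficients, effective if `Db` is. -/
theorem h64_exists_lift_divisor [IsAlgClosed K] [IsAlgClosed k] (R : h39_RedDatum K F k Fb)
    (S : h39_PlaceRed R) {x : F} (hxK : h75_IsChart K x) {xb : Fb} (hxk : h75_IsChart k xb)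
    (p : Place k Fb → Place K F → Prop) (hp : ∀ Q, ∃ P, S.r0 P = Q ∧ p Q P)
    (Db : Divisor k Fb) :
    ∃ D : Divisor K F, Finsupp.mapDomain S.r0 D = Db ∧
      Divisor.degree D = Divisor.degree Db ∧
      (∀ P, D P ≠ 0 → p (S.r0 P) P ∧ D P = Db (S.r0 P)) ∧
      (∀ Q, ∃ P, S.r0 P = Q ∧ p Q P ∧ D P = Db Q ∧ ∀ P', S.r0 P' = Q → P' ≠ P → D P' = 0) ∧
      ((∀ Q, 0 ≤ Db Q) → ∀ P, 0 ≤ D P) := by
  classical
  obtain ⟨σ, hσ, hpσ⟩ := h64_exists_section R S p hp
  refine ⟨Finsupp.mapDomain σ Db, h64_mapDomain_section hσ Db,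
    h64_degree_mapDomain_section hxK hxk σ Db, ?_, ?_, fun h P =>
      h64_mapDomain_section_nonneg Db h P⟩
  · intro P hP
    obtain ⟨h1, -⟩ := h64_mapDomain_section_support hσ Db P hP
    refine ⟨?_, ?_⟩
    · have := hpσ (S.r0 P)
      rwa [h1] at this
    · rw [h64_mapDomain_section_apply' hσ, if_pos h1]
  · intro Q
    refine ⟨σ Q, hσ Q, hpσ Q, h64_mapDomain_section_apply hσ Db Q, fun P' hP' hne => ?_⟩
    rw [h64_mapDomain_section_apply' hσ, if_neg]
    rw [hP']
    exact fun h => hne h.symm

/-! ### Principal divisors bounded below by a divisor of degree zero -/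

/-- A principal divisor which is `≥` a divisor of degree zero is equal to it. -/
theorem h64_ord_eq_of_le_of_degree [IsAlgClosed K] {x : F} (hxK : h75_IsChart K x) (f : F)
    (hf : f ≠ 0) (D' : Divisor K F) (hle : ∀ P : Place K F, D' P ≤ P.ord f)
    (hdeg : Divisor.degree D' = 0) : ∀ P : Place K F, P.ord f = D' P := by
  have := h75_hasPrincipalDivisors hxK
  obtain ⟨D, hD, hD0⟩ := HasPrincipalDivisors.exists_divisor (K := K) f hf
  have hE : D - D' = 0 := by
    apply h64_eq_zero_of_nonneg_of_degree (h75_deg_eq_one hxK)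
    · intro P
      rw [Finsupp.sub_apply, hD P, sub_nonneg]
      exact hle P
    · rw [map_sub, hD0, hdeg, sub_zero]
  intro P
  rw [← hD P, sub_eq_zero.mp hE]

end Fermat.Agent.S27
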