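import Mathlib
import Fermat.Agent.S18.Defs
import Fermat.Agent.S18.h39_GRDefs
import Fermat.Agent.S18.GR_RedAPI
import Fermat.Agent.S18.GR_ChartPt
import Fermat.Agent.S18.h53_CoreBasic
import Fermat.Agent.S18.h53_GlueCore
import Fermat.Agent.S18.RR_Riemann
import Fermat.Agent.S18.RR_Chart
import Fermat.Agent.S24.h35_PlaceBasic
import Fermat.Agent.S27.h64_SpecRed
import Fermat.Agent.S27.h64_LiftDiv

set_option autoImplicit false

/-!
# S27 / B5 (COMPLETE): effective representatives and their reduction

Lemmas for the COMPLETE half of the LIFT dictionary: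

* `h64_r0_pole_of_not_inDisc`, `h64_inDisc_of_r0_mem`, `h64_exists_val_of_r0_mem`: a place whose
  reduction is a finite place of `x̄` lies in the unit disc of `x`, and its `x`-value reduces
  to the `x̄`-value of the reduction;
* `h64_exists_effective`: a divisor of degree `≥ g` is linearly equivalent to an effective one;
* `h64_eq_of_effective_of_finrank_one`: an effective divisor linearly equivalent to an
  effective divisor `B` with `l(B) = 1` is equal to `B`;
* `h64_exists_sum_single_of_mapDomain`: an effective divisor whose push-forward is a sum of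
  distinct points is a sum of distinct points over them;
* `h64_complete_effective`: the three steps together.
-/

noncomputable section

namespace Fermat.Agent.S27

open AlgebraicCurve Fermat.Agent.S18

variable {K F k Fb : Type*} [Field K] [Field F] [Algebra K F] [Field k] [Field Fb] [Algebra k Fb]

/-! ### The unit disc and the finite places of the reduction -/

/-- `r0` maps the places outside the unit disc of `x` to poles of `x̄`. -/
theorem h64_r0_pole_of_not_inDisc [IsAlgClosed K] (R : h39_RedDatum K F k Fb)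
    (S : h39_PlaceRed R) {x : F} (hxK : h75_IsChart K x) (hxb : R.redF x ≠ 0)
    (hS2 : ∃ r' : Place K F → Place k Fb, h39_IsChartRed R x⁻¹ r' ∧
      ∀ P : Place K F, ¬ h39_InDisc R x P → S.r0 P = r' P)
    (P : Place K F) (hP : ¬ h39_InDisc R x P) : (S.r0 P).ord (R.redF x) < 0 := by
  obtain ⟨r', hr', h2⟩ := hS2
  obtain ⟨a', ha'A, hres, hval⟩ := h53_inDisc_inv_of_not R hxK P hP
  have hin : h39_InDisc R x⁻¹ P := ⟨a', ha'A, hval⟩
  have hinv := h39_inv_of_redF_ne_zero R hxb
  have hv := (hr' P hin).2 x⁻¹ hinv.1 (fun _ h => h) a' hval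
  rw [h2 P hP]
  rw [hinv.2, hres] at hv
  rcases hv with h | h
  · rw [map_zero] at h
    exact absurd h (inv_ne_zero hxb)
  · rw [map_zero, sub_zero, (r' P).ord_inv] at h
    exact neg_pos.mp h

/-- A place whose reduction is a finite place of `x̄` lies in the unit disc of `x`. -/
theorem h64_inDisc_of_r0_mem [IsAlgClosed K] (R : h39_RedDatum K F k Fb)
    (S : h39_PlaceRed R) {x : F} (hxK : h75_IsChart K x) (hxb : R.redF x ≠ 0)
    (hS2 : ∃ r' : Place K F → Place k Fb, h39_IsChartRed R x⁻¹ r' ∧
      ∀ P : Place K F, ¬ h39_InDisc R x P → S.r0 P = r' P)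
    (P : Place K F) (hP : R.redF x ∈ (S.r0 P).toValuationSubring) : h39_InDisc R x P := by
  by_contra hcon
  have h1 := h64_r0_pole_of_not_inDisc R S hxK hxb hS2 P hcon
  have h2 := (Fermat.Agent.S24.h35_mem_iff_ord_nonneg (S.r0 P) hxb).mp hP
  exact absurd h1 (not_lt.mpr h2)

/-- A place whose reduction is a finite place of `x̄` has an `x`-value in `A`, which reduces to
the `x̄`-value of the reduction. -/
theorem h64_exists_val_of_r0_mem [IsAlgClosed K] (R : h39_RedDatum K F k Fb)
    (S : h39_PlaceRed R) {x : F} (hxK : h75_IsChart K x) (hxb : R.redF x ≠ 0)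
    (hS1 : ∃ r : Place K F → Place k Fb, h39_IsChartRed R x r ∧
      ∀ P : Place K F, h39_InDisc R x P → S.r0 P = r P)
    (hS2 : ∃ r' : Place K F → Place k Fb, h39_IsChartRed R x⁻¹ r' ∧
      ∀ P : Place K F, ¬ h39_InDisc R x P → S.r0 P = r' P)
    (P : Place K F) (hP : R.redF x ∈ (S.r0 P).toValuationSubring) :
    ∃ a : K, a ∈ R.A ∧ h39_Val P x a ∧ h39_Val (S.r0 P) (R.redF x) (R.resK a) := by
  obtain ⟨a, haA, hval⟩ := h64_inDisc_of_r0_mem R S hxK hxb hS2 P hP
  exact ⟨a, haA, hval, h64_r0_val_of_inDisc R S hS1 P ⟨a, haA, hval⟩ x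
    (h39_mem_of_redF_ne_zero R hxb) (fun _ h => h) a hval⟩

/-! ### Effective representatives -/

/-- A divisor of degree `≥ g` is linearly equivalent to an effective divisor (Riemann). -/
theorem h64_exists_effective [IsAlgClosed K] {x : F} (hx : h75_IsChart K x) (D : Divisor K F)
    (hdeg : (h75_genus K x : ℤ) ≤ Divisor.degree D) :
    ∃ h : F, h ≠ 0 ∧ ∀ P : Place K F, 0 ≤ D P + P.ord h := by
  obtain ⟨hfin, hR⟩ := h75_riemann hx D
  have hpos : 0 < Module.finrank K (riemannRochSpace D) := by
    have : (0 : ℤ) < (Module.finrank K (riemannRochSpace D) : ℤ) := by linarith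
    exact_mod_cast this
  have := hfin
  obtain ⟨w, hw⟩ := Module.finrank_pos_iff_exists_ne_zero.mp hpos
  refine ⟨(w : F), fun h0 => hw (Subtype.ext h0), fun P => ?_⟩
  rcases (mem_riemannRochSpace_iff.mp w.2) P with h | h
  · exact absurd (Subtype.ext h) hw
  · linarith

/-- An effective divisor linearly equivalent to an effective divisor `B` with `l(B) = 1` is
equal to `B`. -/
theorem h64_eq_of_effective_of_finrank_one (B E' : Divisor K F)
    (hB : ∀ Q, 0 ≤ B Q) (hrr : Module.finrank K (riemannRochSpace B) = 1)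
    (hE' : ∀ Q, 0 ≤ E' Q)
    (hlin : E' - B ∈ Divisor.principal (K := K) (F := F)) : E' = B := by
  obtain ⟨w, hw0, hw⟩ := hlin
  have hwL : w ∈ riemannRochSpace B := by
    rw [mem_riemannRochSpace_iff]
    intro v
    right
    rw [← hw v, Finsupp.sub_apply]
    linarith [hE' v]
  have h1L : (1 : F) ∈ riemannRochSpace B := by
    rw [mem_riemannRochSpace_iff]
    intro v
    right
    rw [v.ord_one]
    linarith [hB v]
  have hne : (⟨1, h1L⟩ : riemannRochSpace B) ≠ 0 := fun h =>
    one_ne_zero (congrArg Subtype.val h)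
  obtain ⟨c, hc⟩ := (finrank_eq_one_iff_of_nonzero' _ hne).mp hrr ⟨w, hwL⟩
  have hwc : w = algebraMap K F c := by
    have h1 : c • (1 : F) = w := congrArg Subtype.val hc
    rw [← h1, Algebra.algebraMap_eq_smul_one]
  ext Q
  have h2 := hw Q
  rw [hwc, Fermat.Agent.S24.h35_ord_algebraMap, Finsupp.sub_apply] at h2
  linarith

/-- An effective `ℤ`-valued finitely supported function whose push-forward is a sum of distinct
points is a sum of distinct points over them. -/
theorem h64_exists_sum_single_of_mapDomain {α β ι : Type*} [Fintype ι] (r : α → β)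
    (E : α →₀ ℤ) (hE : ∀ a, 0 ≤ E a) (Tb : ι → β) (hTb : Function.Injective Tb)
    (h : Finsupp.mapDomain r E = ∑ j, Finsupp.single (Tb j) (1 : ℤ)) :
    ∃ T : ι → α, (∀ j, r (T j) = Tb j) ∧ Function.Injective T ∧
      E = ∑ j, Finsupp.single (T j) (1 : ℤ) := by
  classical
  have hsum : ∀ b : β, (∑ j, Finsupp.single (Tb j) (1 : ℤ)) b
      = if b ∈ Set.range Tb then 1 else 0 := by
    intro b
    rw [Finsupp.finsetSum_apply]
    split_ifs with hb
    · obtain ⟨j0, rfl⟩ := hb
      rw [Finset.sum_eq_single j0]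
      · simp
      · intro j _ hj
        rw [Finsupp.single_apply, if_neg (fun h => hj (hTb h))]
      · intro h
        exact absurd (Finset.mem_univ _) h
    · apply Finset.sum_eq_zero
      intro j _
      rw [Finsupp.single_apply, if_neg (fun h => hb ⟨j, h⟩)]
  have hfib : ∀ b : β, ∑ a ∈ E.support, (if r a = b then E a else 0)
      = if b ∈ Set.range Tb then 1 else 0 := by
    intro b
    rw [← h53_mapDomain_apply, h, hsum]
  have hterm : ∀ (b : β) (a : α), 0 ≤ (if r a = b then E a else 0) := by
    intro b a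
    split_ifs
    · exact hE a
    · exact le_rfl
  have hex : ∀ j, ∃ a, r a = Tb j ∧ E a = 1 ∧ ∀ a', r a' = Tb j → a' ≠ a → E a' = 0 := by
    intro j
    have h1 := hfib (Tb j)
    rw [if_pos ⟨j, rfl⟩] at h1
    have hpos : ∃ a ∈ E.support, 0 < (if r a = Tb j then E a else 0) := by
      by_contra hcon
      push Not at hcon
      have : ∑ a ∈ E.support, (if r a = Tb j then E a else 0) ≤ 0 := Finset.sum_nonpos hcon
      omega
    obtain ⟨a, haS, hpos⟩ := hpos
    have hra : r a = Tb j := by
      by_contra hne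
      rw [if_neg hne] at hpos
      exact lt_irrefl _ hpos
    rw [if_pos hra] at hpos
    have h2 := Finset.add_sum_erase E.support (fun a => if r a = Tb j then E a else 0) haS
    rw [if_pos hra, h1] at h2
    have h3 : 0 ≤ ∑ a' ∈ E.support.erase a, (if r a' = Tb j then E a' else 0) :=
      Finset.sum_nonneg fun a' _ => hterm _ a'
    have hEa : E a = 1 := by omega
    have h4 : ∑ a' ∈ E.support.erase a, (if r a' = Tb j then E a' else 0) = 0 := by omega
    refine ⟨a, hra, hEa, fun a' hra' hne => ?_⟩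
    by_cases ha'S : a' ∈ E.support
    · have := (Finset.sum_eq_zero_iff_of_nonneg fun a'' _ => hterm _ a'').mp h4 a'
        (Finset.mem_erase.mpr ⟨hne, ha'S⟩)
      rwa [if_pos hra'] at this
    · exact Finsupp.notMem_support_iff.mp ha'S
  choose T hT1 hT2 hT3 using hex
  have hTinj : Function.Injective T := by
    intro i j hij
    apply hTb
    rw [← hT1 i, ← hT1 j, hij]
  refine ⟨T, hT1, hTinj, ?_⟩
  ext a
  rw [Finsupp.finsetSum_apply]
  by_cases ha : ∃ j, T j = a
  · obtain ⟨j0, rfl⟩ := ha
    rw [hT2 j0, Finset.sum_eq_single j0]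
    · simp
    · intro j _ hj
      rw [Finsupp.single_apply, if_neg (fun h => hj (hTinj h))]
    · intro h
      exact absurd (Finset.mem_univ _) h
  · push Not at ha
    rw [Finset.sum_eq_zero (fun j _ => by rw [Finsupp.single_apply, if_neg (ha j)])]
    by_cases hb : r a ∈ Set.range Tb
    · obtain ⟨j, hj⟩ := hb
      exact hT3 j a hj.symm (fun h => ha j h.symm)
    · have h1 := hfib (r a)
      rw [if_neg hb] at h1
      by_contra hne
      have haS : a ∈ E.support := Finsupp.mem_support_iff.mpr hne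
      have := (Finset.sum_eq_zero_iff_of_nonneg fun a'' _ => hterm _ a'').mp h1 a haS
      rw [if_pos rfl] at this
      exact hne this

/-- **COMPLETE, steps (a)-(b)**: let `Tb` be distinct places of the reduced field with
`l(∑ Tb_j) = 1`, and `D'` a divisor of degree `≥ g` whose push-forward is linearly equivalent to
`∑ Tb_j`.  Then `D'` is linearly equivalent to `∑ T_j` for places `T_j` over the `Tb_j`. -/
theorem h64_complete_effective [IsAlgClosed K] (R : h39_RedDatum K F k Fb)
    (S : h39_PlaceRed R) {x : F} (hxK : h75_IsChart K x)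
    {ι : Type*} [Fintype ι] (Tb : ι → Place k Fb) (hTb : Function.Injective Tb)
    (hrr : Module.finrank k (riemannRochSpace (∑ j, Finsupp.single (Tb j) (1 : ℤ))) = 1)
    (D' : Divisor K F) (hdeg : (h75_genus K x : ℤ) ≤ Divisor.degree D')
    (hlin : Finsupp.mapDomain S.r0 D' - (∑ j, Finsupp.single (Tb j) (1 : ℤ)) ∈
      Divisor.principal (K := k) (F := Fb)) :
    ∃ (h : F) (T : ι → Place K F), h ≠ 0 ∧ (∀ j, S.r0 (T j) = Tb j) ∧ Function.Injective T ∧
      ∀ P : Place K F, (∑ j, Finsupp.single (T j) (1 : ℤ)) P = D' P + P.ord h := by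
  obtain ⟨h, hh0, hpos⟩ := h64_exists_effective hxK D' hdeg
  obtain ⟨Dh, hDh⟩ := h7_exists_div hxK h hh0
  obtain ⟨E, hE⟩ : ∃ E : Divisor K F, E = D' + Dh := ⟨_, rfl⟩
  have hEnn : ∀ P, 0 ≤ E P := fun P => by
    rw [hE, Finsupp.add_apply, hDh]
    exact hpos P
  have hmapnn : ∀ Q, 0 ≤ Finsupp.mapDomain S.r0 E Q := fun Q =>
    h53_mapDomain_nonneg S.r0 E Q fun P _ => hEnn P
  have hDhp : Finsupp.mapDomain S.r0 Dh ∈ Divisor.principal (K := k) (F := Fb) :=
    h64_mapDomain_principal R S Dh ⟨h, hh0, hDh⟩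
  have hlin' : Finsupp.mapDomain S.r0 E - ∑ j, Finsupp.single (Tb j) (1 : ℤ) ∈
      Divisor.principal (K := k) (F := Fb) := by
    have := add_mem hlin hDhp
    rw [hE, Finsupp.mapDomain_add]
    convert this using 1
    abel
  have hBnn : ∀ Q, 0 ≤ (∑ j, Finsupp.single (Tb j) (1 : ℤ)) Q := by
    intro Q
    rw [Finsupp.finsetSum_apply]
    refine Finset.sum_nonneg fun j _ => ?_
    classical
    rw [Finsupp.single_apply]
    split_ifs
    · exact zero_le_one
    · exact le_rfl
  have heq := h64_eq_of_effective_of_finrank_one _ _ hBnn hrr hmapnn hlin'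
  obtain ⟨T, hT1, hTinj, hET⟩ := h64_exists_sum_single_of_mapDomain S.r0 E hEnn Tb hTb heq
  refine ⟨h, T, hh0, hT1, hTinj, fun P => ?_⟩
  rw [← hET, hE, Finsupp.add_apply, hDh]

end Fermat.Agent.S27
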