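import Fermat.Agent.S27.h82_HenselK

/-!
# S27, block B4 (HENSEL-AC), complement: uniqueness of the solution

A square polynomial system over a local ring has at most one solution with a given reduction at
which the Jacobian determinant is a unit (`h82_hensel_unique`): first-order Taylor expansion
shows that the ideal `I` generated by the coordinates of the difference of two solutions
satisfies `I = I ^ 2`, and Nakayama gives `I = 0`.  No valuation, no rank, no completeness.

`h82_hensel_unique_K` / `h82_hensel_ker_unique_K` are the forms matching the skeleton shapes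
`h15_hensel` / `h15_hensel_ker`: two solutions in `A` which are both congruent to the approximate
solution `a` modulo the maximal ideal coincide.  So the solution produced by `h15_hensel`
(resp. `h15_hensel_ker`) is the UNIQUE solution congruent to `a`.
-/

set_option autoImplicit false

namespace Fermat.Agent.S27

open MvPolynomial

section Taylor

variable {R : Type*} [CommRing R] {σ : Type*} [Fintype σ] [DecidableEq σ]

/-- First-order Taylor expansion: `p (a + δ) - p a - ∑ ∂_j p (a) δ_j ∈ (δ) ^ 2`. -/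
theorem h82_taylor (p : MvPolynomial σ R) (a δ : σ → R) :
    eval (a + δ) p - eval a p - ∑ j, eval a (pderiv j p) * δ j ∈
      Ideal.span (Set.range δ) ^ 2 := by
  set I : Ideal R := Ideal.span (Set.range δ) with hI
  have hδ : ∀ j, δ j ∈ I := fun j => Ideal.subset_span ⟨j, rfl⟩
  induction p using MvPolynomial.induction_on with
  | C c => simp
  | add p q hp hq =>
    have h : eval (a + δ) (p + q) - eval a (p + q) - ∑ j, eval a (pderiv j (p + q)) * δ j =
        (eval (a + δ) p - eval a p - ∑ j, eval a (pderiv j p) * δ j) +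
        (eval (a + δ) q - eval a q - ∑ j, eval a (pderiv j q) * δ j) := by
      simp only [map_add, add_mul, Finset.sum_add_distrib]
      ring
    rw [h]
    exact add_mem hp hq
  | mul_X p i hp =>
    set L : R := ∑ j, eval a (pderiv j p) * δ j with hL
    have hLI : L ∈ I := Ideal.sum_mem _ fun j _ => Ideal.mul_mem_left _ _ (hδ j)
    have hsum : ∑ j, eval a (pderiv j (p * X i)) * δ j = a i * L + eval a p * δ i := by
      have h1 : ∀ j, eval a (pderiv j (p * X i)) * δ j =
          a i * (eval a (pderiv j p) * δ j) + (if j = i then eval a p * δ i else 0) := by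
        intro j
        rw [Derivation.leibniz, pderiv_X]
        by_cases hji : j = i
        · subst hji
          simp
          ring
        · have hij : ¬ i = j := fun h => hji h.symm
          simp [hji, hij]
          ring
      rw [Finset.sum_congr rfl fun j _ => h1 j, Finset.sum_add_distrib, ← Finset.mul_sum,
        Finset.sum_ite_eq' Finset.univ i, if_pos (Finset.mem_univ i)]
    have h : eval (a + δ) (p * X i) - eval a (p * X i) -
        ∑ j, eval a (pderiv j (p * X i)) * δ j =
        L * δ i + (eval (a + δ) p - eval a p - L) * (a i + δ i) := by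
      rw [hsum]
      simp only [map_mul, eval_X, Pi.add_apply]
      ring
    rw [h]
    refine add_mem ?_ (Ideal.mul_mem_right _ _ hp)
    rw [sq]
    exact Ideal.mul_mem_mul hLI (hδ i)

end Taylor

/-- **Uniqueness in the multivariate Hensel lemma** (any local ring). -/
theorem h82_hensel_unique {R : Type*} [CommRing R] [IsLocalRing R]
    {σ : Type*} [Fintype σ] [DecidableEq σ]
    (Ψ : σ → MvPolynomial σ R) (b b' : σ → R)
    (hb : ∀ i, eval b (Ψ i) = 0) (hb' : ∀ i, eval b' (Ψ i) = 0)
    (hbb' : ∀ i, b' i - b i ∈ IsLocalRing.maximalIdeal R)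
    (hJ : IsUnit (Matrix.det (Matrix.of fun i j => eval b (pderiv j (Ψ i))))) : b = b' := by
  classical
  set δ : σ → R := fun i => b' i - b i with hδ
  set I : Ideal R := Ideal.span (Set.range δ) with hI
  set J : Matrix σ σ R := Matrix.of fun i j => eval b (pderiv j (Ψ i)) with hJdef
  have hb'eq : b + δ = b' := by
    funext i
    simp [hδ]
  -- `J δ ∈ I ^ 2`
  have h1 : ∀ i, J.mulVec δ i ∈ I ^ 2 := by
    intro i
    have h := h82_taylor (Ψ i) b δ
    rw [hb'eq, hb' i, hb i, sub_zero, zero_sub, neg_mem_iff] at h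
    exact h
  -- `δ ∈ I ^ 2`
  have h2 : ∀ j, δ j ∈ I ^ 2 := by
    intro j
    have hinv : J⁻¹ * J = 1 := Matrix.nonsing_inv_mul J hJ
    have h3 : δ = J⁻¹.mulVec (J.mulVec δ) := by
      rw [Matrix.mulVec_mulVec, hinv, Matrix.one_mulVec]
    rw [h3]
    show ∑ i, J⁻¹ j i * J.mulVec δ i ∈ I ^ 2
    exact Ideal.sum_mem _ fun i _ => Ideal.mul_mem_left _ _ (h1 i)
  have hle : I ≤ I ^ 2 := by
    rw [hI, Ideal.span_le]
    rintro _ ⟨j, rfl⟩
    exact h2 j
  have hIm : I ≤ IsLocalRing.maximalIdeal R := by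
    rw [hI, Ideal.span_le]
    rintro _ ⟨j, rfl⟩
    exact hbb' j
  have hfg : (I : Submodule R R).FG := by
    rw [hI]
    exact Submodule.fg_span (Set.finite_range δ)
  have hbot : I = ⊥ := by
    refine Submodule.eq_bot_of_le_smul_of_le_jacobson_bot I I hfg ?_ ?_
    · rw [smul_eq_mul, ← sq]
      exact hle
    · rw [IsLocalRing.jacobson_eq_maximalIdeal (⊥ : Ideal R) bot_ne_top]
      exact hIm
  funext i
  have h4 : δ i ∈ I := Ideal.subset_span ⟨i, rfl⟩
  rw [hbot, Ideal.mem_bot] at h4
  exact (sub_eq_zero.mp h4).symm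

/-- A unit determinant stays a unit when the point moves inside its residue class. -/
theorem h82_isUnit_det_congr {R : Type*} [CommRing R] [IsLocalRing R]
    {σ : Type*} [Fintype σ] [DecidableEq σ]
    (Ψ : σ → MvPolynomial σ R) (a b : σ → R)
    (hab : ∀ i, b i - a i ∈ IsLocalRing.maximalIdeal R)
    (hJ : IsUnit (Matrix.det (Matrix.of fun i j => eval a (pderiv j (Ψ i))))) :
    IsUnit (Matrix.det (Matrix.of fun i j => eval b (pderiv j (Ψ i)))) := by
  have hres : ∀ p : MvPolynomial σ R,
      IsLocalRing.residue R (eval b p) = IsLocalRing.residue R (eval a p) := by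
    intro p
    rw [eval₂_comp (IsLocalRing.residue R) b p, eval₂_comp (IsLocalRing.residue R) a p]
    congr 1
    funext i
    show IsLocalRing.residue R (b i) = IsLocalRing.residue R (a i)
    rw [← sub_eq_zero, ← map_sub, IsLocalRing.residue_eq_zero_iff]
    exact hab i
  have h1 : IsLocalRing.residue R (Matrix.det (Matrix.of fun i j => eval b (pderiv j (Ψ i)))) =
      IsLocalRing.residue R (Matrix.det (Matrix.of fun i j => eval a (pderiv j (Ψ i)))) := by
    rw [RingHom.map_det, RingHom.map_det]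
    congr 1
    ext i j
    exact hres _
  by_contra hnu
  have h2 : Matrix.det (Matrix.of fun i j => eval b (pderiv j (Ψ i))) ∈
      IsLocalRing.maximalIdeal R := hnu
  rw [← IsLocalRing.residue_eq_zero_iff, h1, IsLocalRing.residue_eq_zero_iff] at h2
  exact h2 hJ

/-- **Uniqueness, determinant form, skeleton shape**: two solutions in `A` congruent to the
approximate solution `a` coincide. -/
theorem h82_hensel_unique_K {K : Type*} [Field K] (A : ValuationSubring K)
    {σ : Type*} [Fintype σ] [DecidableEq σ]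
    (Ψ : σ → MvPolynomial σ K) (hΨ : ∀ i s, (Ψ i).coeff s ∈ A)
    (a : σ → K) (ha : ∀ i, a i ∈ A)
    (hJ : (Matrix.of fun i j => MvPolynomial.eval a (MvPolynomial.pderiv j (Ψ i))).det
      ∉ A.nonunits)
    (b b' : σ → K) (hb : ∀ i, b i ∈ A) (hb' : ∀ i, b' i ∈ A)
    (hba : ∀ i, b i - a i ∈ A.nonunits) (hb'a : ∀ i, b' i - a i ∈ A.nonunits)
    (h0 : ∀ i, MvPolynomial.eval b (Ψ i) = 0) (h0' : ∀ i, MvPolynomial.eval b' (Ψ i) = 0) :
    b = b' := by
  classical
  obtain ⟨Ψ', a', ha', hev, -, hdet⟩ := h82_lift_data A Ψ hΨ a ha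
  have hJ' : IsUnit (Matrix.det (Matrix.of fun i j => eval a' (pderiv j (Ψ' i)))) := by
    by_contra hnu
    apply hJ
    rw [← hdet, A.coe_mem_nonunits_iff, IsLocalRing.mem_maximalIdeal]
    exact hnu
  set β : σ → A := fun i => ⟨b i, hb i⟩ with hβ
  set β' : σ → A := fun i => ⟨b' i, hb' i⟩ with hβ'
  have hβa : ∀ i, β i - a' i ∈ IsLocalRing.maximalIdeal A := by
    intro i
    rw [← A.coe_mem_nonunits_iff]
    have h := hba i
    rw [← ha' i] at h
    exact h
  have hβ'a : ∀ i, β' i - a' i ∈ IsLocalRing.maximalIdeal A := by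
    intro i
    rw [← A.coe_mem_nonunits_iff]
    have h := hb'a i
    rw [← ha' i] at h
    exact h
  have hβ0 : ∀ i, eval β (Ψ' i) = 0 := by
    intro i
    apply Subtype.ext
    rw [hev β i]
    exact h0 i
  have hβ'0 : ∀ i, eval β' (Ψ' i) = 0 := by
    intro i
    apply Subtype.ext
    rw [hev β' i]
    exact h0' i
  have hJβ := h82_isUnit_det_congr Ψ' a' β hβa hJ'
  have hββ' : ∀ i, β' i - β i ∈ IsLocalRing.maximalIdeal A := by
    intro i
    have h : β' i - β i = (β' i - a' i) - (β i - a' i) := by ring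
    rw [h]
    exact sub_mem (hβ'a i) (hβa i)
  have key := h82_hensel_unique Ψ' β β' hβ0 hβ'0 hββ' hJβ
  funext i
  exact congrArg (fun x : A => (x : K)) (congrFun key i)

/-- The kernel form of the Jacobian hypothesis implies the determinant form. -/
theorem h82_det_of_ker_K {K : Type*} [Field K] (A : ValuationSubring K)
    {σ : Type*} [Fintype σ] [DecidableEq σ]
    (Ψ : σ → MvPolynomial σ K) (hΨ : ∀ i s, (Ψ i).coeff s ∈ A)
    (a : σ → K) (ha : ∀ i, a i ∈ A)
    (hJ : ∀ δ : σ → K, (∀ j, δ j ∈ A) →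
      (∀ i, ∑ j, MvPolynomial.eval a (MvPolynomial.pderiv j (Ψ i)) * δ j ∈ A.nonunits) →
      ∀ j, δ j ∈ A.nonunits) :
    (Matrix.of fun i j => MvPolynomial.eval a (MvPolynomial.pderiv j (Ψ i))).det
      ∉ A.nonunits := by
  classical
  intro hdetnu
  obtain ⟨Ψ', a', -, -, hd, hdet⟩ := h82_lift_data A Ψ hΨ a ha
  rw [← hdet, A.coe_mem_nonunits_iff] at hdetnu
  set J : Matrix σ σ A := Matrix.of fun i j => eval a' (pderiv j (Ψ' i)) with hJdef
  have hbar : ((IsLocalRing.residue A).mapMatrix J).det = 0 := by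
    rw [← RingHom.map_det]
    exact (IsLocalRing.residue_eq_zero_iff _).mpr hdetnu
  obtain ⟨v, hv0, hv⟩ := Matrix.exists_mulVec_eq_zero_iff.mpr hbar
  choose δ' hδ' using fun j => IsLocalRing.residue_surjective (R := A) (v j)
  have h1 : ∀ i, ∑ j, eval a (pderiv j (Ψ i)) * (δ' j : K) ∈ A.nonunits := by
    intro i
    have h2 : (∑ j, J i j * δ' j) ∈ IsLocalRing.maximalIdeal A := by
      rw [← IsLocalRing.residue_eq_zero_iff, map_sum]
      have h3 := congrFun hv i
      rw [Matrix.mulVec, dotProduct] at h3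
      rw [Pi.zero_apply] at h3
      rw [← h3]
      refine Finset.sum_congr rfl fun j _ => ?_
      rw [map_mul, hδ' j]
      rfl
    have h4 := A.coe_mem_nonunits_iff.mpr h2
    have h5 : ((∑ j, J i j * δ' j : A) : K) = ∑ j, eval a (pderiv j (Ψ i)) * (δ' j : K) := by
      rw [← A.subtype_apply, map_sum]
      refine Finset.sum_congr rfl fun j _ => ?_
      rw [map_mul, A.subtype_apply, A.subtype_apply, hJdef, Matrix.of_apply, hd i j]
    rw [h5] at h4
    exact h4
  have h6 := hJ (fun j => (δ' j : K)) (fun j => (δ' j).2) h1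
  apply hv0
  funext j
  rw [Pi.zero_apply, ← hδ' j, IsLocalRing.residue_eq_zero_iff, ← A.coe_mem_nonunits_iff]
  exact h6 j

/-- **Uniqueness, kernel form, skeleton shape**: two solutions in `A` congruent to the
approximate solution `a` coincide. -/
theorem h82_hensel_ker_unique_K {K : Type*} [Field K] (A : ValuationSubring K)
    {σ : Type*} [Fintype σ] [DecidableEq σ]
    (Ψ : σ → MvPolynomial σ K) (hΨ : ∀ i s, (Ψ i).coeff s ∈ A)
    (a : σ → K) (ha : ∀ i, a i ∈ A)
    (hJ : ∀ δ : σ → K, (∀ j, δ j ∈ A) →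
      (∀ i, ∑ j, MvPolynomial.eval a (MvPolynomial.pderiv j (Ψ i)) * δ j ∈ A.nonunits) →
      ∀ j, δ j ∈ A.nonunits)
    (b b' : σ → K) (hb : ∀ i, b i ∈ A) (hb' : ∀ i, b' i ∈ A)
    (hba : ∀ i, b i - a i ∈ A.nonunits) (hb'a : ∀ i, b' i - a i ∈ A.nonunits)
    (h0 : ∀ i, MvPolynomial.eval b (Ψ i) = 0) (h0' : ∀ i, MvPolynomial.eval b' (Ψ i) = 0) :
    b = b' :=
  h82_hensel_unique_K A Ψ hΨ a ha (h82_det_of_ker_K A Ψ hΨ a ha hJ) b b' hb hb' hba hb'a h0 h0'

end Fermat.Agent.S27
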