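import Fermat.Agent.S27.LiftSystem
import Fermat.Agent.S27.h82_HenselUniq

/-!
# S27, block B5: uniqueness form of the jet system (for B5g COMPLETE + UNIQ)

* `h82_isUnit_det_of_ker`, `h82_hensel_ker_unique` : over any local ring, a square system
  (equations indexed by a type of the same cardinality as the unknowns) whose Jacobian at a
  point `a` is injective modulo the maximal ideal has at most one solution congruent to `a`.
* `h15_hensel_system_unique` : two solutions of the jet system of `h15_hensel_system`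
  (`LiftSystem.lean`) with the reductions of the base point `(ξ0, θ0, c = 0)` are equal.
  Any valuation subring (no algebraic closedness, no rank hypothesis).
-/

set_option autoImplicit false

noncomputable section

open Polynomial IsLocalRing

namespace Fermat.Agent.S27

/-- injectivity of the Jacobian modulo the maximal ideal gives a unit determinant. -/
theorem h82_isUnit_det_of_ker {R : Type*} [CommRing R] [IsLocalRing R]
    {σ τ : Type*} [Fintype σ] [DecidableEq σ] [Fintype τ] (e : σ ≃ τ)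
    (Ψ : τ → MvPolynomial σ R) (a : σ → R)
    (hJ : ∀ δ : σ → R,
      (∀ t, ∑ s, MvPolynomial.eval a (MvPolynomial.pderiv s (Ψ t)) * δ s ∈ maximalIdeal R) →
      ∀ s, δ s ∈ maximalIdeal R) :
    IsUnit (Matrix.det
      (Matrix.of fun i j => MvPolynomial.eval a (MvPolynomial.pderiv j (Ψ (e i))))) := by
  by_contra hnu
  set J : Matrix σ σ R :=
    Matrix.of fun i j => MvPolynomial.eval a (MvPolynomial.pderiv j (Ψ (e i))) with hJdef
  have hbar : ((IsLocalRing.residue R).mapMatrix J).det = 0 := by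
    rw [← RingHom.map_det]
    exact (IsLocalRing.residue_eq_zero_iff _).mpr hnu
  obtain ⟨v, hv0, hv⟩ := Matrix.exists_mulVec_eq_zero_iff.mpr hbar
  choose δ' hδ' using fun j => IsLocalRing.residue_surjective (R := R) (v j)
  have h6 : ∀ s, δ' s ∈ maximalIdeal R := by
    refine hJ δ' fun t => ?_
    have h3 := congrFun hv (e.symm t)
    rw [Matrix.mulVec, dotProduct, Pi.zero_apply] at h3
    rw [← IsLocalRing.residue_eq_zero_iff, map_sum, ← h3]
    refine Finset.sum_congr rfl fun j _ => ?_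
    rw [map_mul, hδ' j, hJdef]
    simp
  apply hv0
  funext j
  rw [Pi.zero_apply, ← hδ' j, IsLocalRing.residue_eq_zero_iff]
  exact h6 j

/-- **Uniqueness, kernel form, rectangular indexing** (any local ring): two solutions
congruent to `a` coincide when the Jacobian at `a` is injective modulo the maximal ideal. -/
theorem h82_hensel_ker_unique {R : Type*} [CommRing R] [IsLocalRing R]
    {σ τ : Type*} [Fintype σ] [DecidableEq σ] [Fintype τ]
    (hcard : Fintype.card σ = Fintype.card τ)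
    (Ψ : τ → MvPolynomial σ R) (a : σ → R)
    (hJ : ∀ δ : σ → R,
      (∀ t, ∑ s, MvPolynomial.eval a (MvPolynomial.pderiv s (Ψ t)) * δ s ∈ maximalIdeal R) →
      ∀ s, δ s ∈ maximalIdeal R)
    (b b' : σ → R) (hb : ∀ t, MvPolynomial.eval b (Ψ t) = 0)
    (hb' : ∀ t, MvPolynomial.eval b' (Ψ t) = 0)
    (hba : ∀ s, b s - a s ∈ maximalIdeal R) (hb'a : ∀ s, b' s - a s ∈ maximalIdeal R) :
    b = b' := by
  classical
  let e : σ ≃ τ := Fintype.equivOfCardEq hcard
  have hdet := h82_isUnit_det_of_ker e Ψ a hJ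
  have hdetb := h82_isUnit_det_congr (fun s => Ψ (e s)) a b hba hdet
  refine h82_hensel_unique (fun s => Ψ (e s)) b b' (fun i => hb (e i)) (fun i => hb' (e i))
    (fun i => ?_) hdetb
  have h := sub_mem (hb'a i) (hba i)
  rwa [sub_sub_sub_cancel_right] at h

/-- **(B5c) SYSTEM, uniqueness form.** Two solutions of the jet system with the reductions of
the base point `(ξ0, θ0, c = 0)` coincide, under the tangent hypothesis of
`h15_hensel_system`. -/
theorem h15_hensel_system_unique {K : Type*} [Field K] (A : ValuationSubring K)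
    (g m M : ℕ) (hM : M + g = m * g)
    (Φ H0 : Polynomial (Polynomial A)) (H : Fin M → Polynomial (Polynomial A))
    (ξ0 : Fin g → A) (θ0 : Fin g → Polynomial A) (hθ0 : ∀ j, (θ0 j).degree < m)
    (hT : ∀ (δξ : Fin g → A) (δθ : Fin g → Polynomial A) (δc : Fin M → A),
      (∀ j, (δθ j).degree < m) →
      (∀ j, ∀ i < m, (C (δξ j) * h15_sub2 (h15_dX Φ) (ξ0 j) (θ0 j) +
          δθ j * h15_sub2 (derivative Φ) (ξ0 j) (θ0 j)).coeff i ∈ maximalIdeal A) →
      (∀ j, ∀ i < m, (C (δξ j) * h15_sub2 (h15_dX H0) (ξ0 j) (θ0 j) +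
          δθ j * h15_sub2 (derivative H0) (ξ0 j) (θ0 j) +
          ∑ l, C (δc l) * h15_sub2 (H l) (ξ0 j) (θ0 j)).coeff i ∈ maximalIdeal A) →
      (∀ j, δξ j ∈ maximalIdeal A) ∧ (∀ j i, (δθ j).coeff i ∈ maximalIdeal A) ∧
        ∀ l, δc l ∈ maximalIdeal A)
    (ξ ξ' : Fin g → A) (θ θ' : Fin g → Polynomial A) (c c' : Fin M → A)
    (hθ : ∀ j, (θ j).degree < m) (hθ' : ∀ j, (θ' j).degree < m)
    (hξ : ∀ j, ξ j - ξ0 j ∈ maximalIdeal A) (hξ' : ∀ j, ξ' j - ξ0 j ∈ maximalIdeal A)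
    (hθm : ∀ j i, (θ j - θ0 j).coeff i ∈ maximalIdeal A)
    (hθm' : ∀ j i, (θ' j - θ0 j).coeff i ∈ maximalIdeal A)
    (hc : ∀ l, c l ∈ maximalIdeal A) (hc' : ∀ l, c' l ∈ maximalIdeal A)
    (h1 : ∀ j, X ^ m ∣ h15_sub2 Φ (ξ j) (θ j)) (h1' : ∀ j, X ^ m ∣ h15_sub2 Φ (ξ' j) (θ' j))
    (h2 : ∀ j, X ^ m ∣ h15_sub2 (H0 + ∑ l, C (C (c l)) * H l) (ξ j) (θ j))
    (h2' : ∀ j, X ^ m ∣ h15_sub2 (H0 + ∑ l, C (C (c' l)) * H l) (ξ' j) (θ' j)) :
    ξ = ξ' ∧ θ = θ' ∧ c = c' := by
  classical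
  set a : Fin g ⊕ ((Fin g × Fin m) ⊕ Fin M) → A :=
    Sum.elim ξ0 (Sum.elim (fun ji => (θ0 ji.1).coeff ji.2) (fun _ => 0)) with ha_def
  have hcard : Fintype.card (Fin g ⊕ ((Fin g × Fin m) ⊕ Fin M)) =
      Fintype.card ((Fin g × Fin m) ⊕ (Fin g × Fin m)) := by
    simp only [Fintype.card_sum, Fintype.card_prod, Fintype.card_fin]
    have := mul_comm g m
    omega
  have hθa : ∀ j, (h66_poly m fun i' => a (Sum.inr (Sum.inl (j, i')))) = θ0 j :=
    fun j => h66_poly_of_degree_lt m (θ0 j) (hθ0 j)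
  have hca : ∀ l, a (Sum.inr (Sum.inr l)) = 0 := fun l => rfl
  -- the tangent hypothesis as injectivity of the Jacobian modulo the maximal ideal
  have hJ : ∀ δ : Fin g ⊕ ((Fin g × Fin m) ⊕ Fin M) → A,
      (∀ t, ∑ s, MvPolynomial.eval a (MvPolynomial.pderiv s (h66_sys g m M Φ H0 H t)) * δ s ∈
        maximalIdeal A) → ∀ s, δ s ∈ maximalIdeal A := by
    intro δ hδ
    have key := hT (fun j => δ (Sum.inl j))
      (fun j => h66_poly m fun i' => δ (Sum.inr (Sum.inl (j, i'))))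
      (fun l => δ (Sum.inr (Sum.inr l))) (fun j => h66_poly_degree_lt m _) ?_ ?_
    · obtain ⟨k1, k2, k3⟩ := key
      rintro (j | ⟨j, i⟩ | l)
      · exact k1 j
      · have h := k2 j i
        rwa [h66_poly_coeff_fin] at h
      · exact k3 l
    · intro j i hi
      have h := hδ (Sum.inl (j, ⟨i, hi⟩))
      rw [h66_sys_jac_inl, hθa] at h
      exact h
    · intro j i hi
      have h := hδ (Sum.inr (j, ⟨i, hi⟩))
      rw [h66_sys_jac_inr _ _ _ _ _ _ _ _ hca, hθa] at h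
      exact h
  -- a solution of the jet system is a solution of `h66_sys`, congruent to `a`
  have hsol : ∀ (ξ₁ : Fin g → A) (θ₁ : Fin g → Polynomial A) (c₁ : Fin M → A),
      (∀ j, (θ₁ j).degree < m) → (∀ j, ξ₁ j - ξ0 j ∈ maximalIdeal A) →
      (∀ j i, (θ₁ j - θ0 j).coeff i ∈ maximalIdeal A) → (∀ l, c₁ l ∈ maximalIdeal A) →
      (∀ j, X ^ m ∣ h15_sub2 Φ (ξ₁ j) (θ₁ j)) →
      (∀ j, X ^ m ∣ h15_sub2 (H0 + ∑ l, C (C (c₁ l)) * H l) (ξ₁ j) (θ₁ j)) →
      (∀ t, MvPolynomial.eval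
          (Sum.elim ξ₁ (Sum.elim (fun ji => (θ₁ ji.1).coeff ji.2) c₁) :
            Fin g ⊕ ((Fin g × Fin m) ⊕ Fin M) → A) (h66_sys g m M Φ H0 H t) = 0) ∧
        ∀ s, (Sum.elim ξ₁ (Sum.elim (fun ji => (θ₁ ji.1).coeff ji.2) c₁) :
            Fin g ⊕ ((Fin g × Fin m) ⊕ Fin M) → A) s - a s ∈ maximalIdeal A := by
    intro ξ₁ θ₁ c₁ hd hξ₁ hθ₁ hc₁ e1 e2
    have hθb : ∀ j, (h66_poly m fun i' =>
        (Sum.elim ξ₁ (Sum.elim (fun ji => (θ₁ ji.1).coeff ji.2) c₁) :
          Fin g ⊕ ((Fin g × Fin m) ⊕ Fin M) → A) (Sum.inr (Sum.inl (j, i')))) = θ₁ j :=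
      fun j => h66_poly_of_degree_lt m (θ₁ j) (hd j)
    refine ⟨?_, ?_⟩
    · rintro (⟨j, i⟩ | ⟨j, i⟩)
      · rw [h66_sys_eval_inl, hθb]
        exact (Polynomial.X_pow_dvd_iff.mp (e1 j)) i i.2
      · rw [h66_sys_eval_inr, hθb]
        have h := (Polynomial.X_pow_dvd_iff.mp (e2 j)) i i.2
        rw [h66_sub2_add, h66_sub2_sum] at h
        rw [← h]
        congr 2
        refine Finset.sum_congr rfl fun l _ => ?_
        rw [h66_sub2_mul, h66_sub2_CC]
        rfl
    · rintro (j | ⟨j, i⟩ | l)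
      · exact hξ₁ j
      · have h := hθ₁ j i
        rwa [coeff_sub] at h
      · show c₁ l - 0 ∈ maximalIdeal A
        rw [sub_zero]
        exact hc₁ l
  obtain ⟨hb0, hba⟩ := hsol ξ θ c hθ hξ hθm hc h1 h2
  obtain ⟨hb0', hba'⟩ := hsol ξ' θ' c' hθ' hξ' hθm' hc' h1' h2'
  have hbb' := h82_hensel_ker_unique hcard (h66_sys g m M Φ H0 H) a hJ _ _ hb0 hb0' hba hba'
  refine ⟨funext fun j => congrFun hbb' (Sum.inl j), funext fun j => ?_,
    funext fun l => congrFun hbb' (Sum.inr (Sum.inr l))⟩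
  refine Polynomial.ext fun n => ?_
  by_cases hn : n < m
  · exact congrFun hbb' (Sum.inr (Sum.inl (j, ⟨n, hn⟩)))
  · rw [Polynomial.coeff_eq_zero_of_degree_lt
        (lt_of_lt_of_le (hθ j) (by exact_mod_cast not_lt.mp hn)),
      Polynomial.coeff_eq_zero_of_degree_lt
        (lt_of_lt_of_le (hθ' j) (by exact_mod_cast not_lt.mp hn))]

end Fermat.Agent.S27

end
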