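import Fermat.Agent.S27.LiftTangent

/-!
# S27, block B5 LIFT: the tangent hypothesis `hT` of the jet system from the reduced curve
(owner helper84)

`h15_hensel_system` (row B5c) and its uniqueness form need the kernel hypothesis `hT` over a
valuation ring `A`, modulo the maximal ideal.  `h15_tangent` (row B5d) is the corresponding
statement over the residue field.  This file is the glue: reduce the `δ`'s with the residue map.

* `h84_res_eq_zero_iff` : a surjective ring hom from `A` onto a field kills exactly the maximal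
  ideal.
* `h84_hT_of_residue` : `hT` from the tangent statement for the reduced data (any surjective
  `φ : A →+* k`).
* `h84_hT_of_tangent` : `hT` from the hypotheses of `h15_tangent` on the reduced curve.
-/

set_option autoImplicit false

noncomputable section

open AlgebraicCurve Fermat.Agent.S18 Polynomial IsLocalRing

namespace Fermat.Agent.S27

section Residue

variable {K : Type*} [Field K] (A : ValuationSubring K) {k : Type*} [Field k]

/-- A surjective ring hom from a valuation ring onto a field kills exactly the maximal ideal. -/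
theorem h84_res_eq_zero_iff (φ : A →+* k) (hφ : Function.Surjective φ) (a : A) :
    φ a = 0 ↔ a ∈ maximalIdeal A := by
  have hmax : (RingHom.ker φ).IsMaximal := RingHom.ker_isMaximal_of_surjective φ hφ
  rw [← IsLocalRing.eq_maximalIdeal hmax, RingHom.mem_ker]

/-- `X ^ m ∣ p.map φ` as soon as the first `m` coefficients of `p` lie in the maximal ideal. -/
theorem h84_X_pow_dvd_map (φ : A →+* k) (hφ : Function.Surjective φ) (m : ℕ) (p : Polynomial A)
    (hp : ∀ i < m, p.coeff i ∈ maximalIdeal A) : X ^ m ∣ p.map φ := by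
  rw [Polynomial.X_pow_dvd_iff]
  intro i hi
  rw [Polynomial.coeff_map]
  exact (h84_res_eq_zero_iff A φ hφ _).mpr (hp i hi)

/-- **TANGENT-RED.** The kernel hypothesis `hT` of `h15_hensel_system` over a valuation ring
`A` follows from the tangent statement for the reduced data over the residue field. -/
theorem h84_hT_of_residue (φ : A →+* k) (hφ : Function.Surjective φ) (g m M : ℕ)
    (Φ H0 : Polynomial (Polynomial A)) (H : Fin M → Polynomial (Polynomial A))
    (ξ0 : Fin g → A) (θ0 : Fin g → Polynomial A)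
    (htan : ∀ (δξ : Fin g → k) (δθ : Fin g → k[X]) (δc : Fin M → k),
      (∀ j, (δθ j).degree < m) →
      (∀ j, X ^ m ∣ C (δξ j) * h15_sub2 (h15_dX (Φ.map (mapRingHom φ))) (φ (ξ0 j))
          ((θ0 j).map φ) +
        δθ j * h15_sub2 (derivative (Φ.map (mapRingHom φ))) (φ (ξ0 j)) ((θ0 j).map φ)) →
      (∀ j, X ^ m ∣ C (δξ j) * h15_sub2 (h15_dX (H0.map (mapRingHom φ))) (φ (ξ0 j))
          ((θ0 j).map φ) +
        δθ j * h15_sub2 (derivative (H0.map (mapRingHom φ))) (φ (ξ0 j)) ((θ0 j).map φ) +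
        ∑ l, C (δc l) * h15_sub2 ((H l).map (mapRingHom φ)) (φ (ξ0 j)) ((θ0 j).map φ)) →
      δξ = 0 ∧ δθ = 0 ∧ δc = 0) :
    ∀ (δξ : Fin g → A) (δθ : Fin g → Polynomial A) (δc : Fin M → A),
      (∀ j, (δθ j).degree < m) →
      (∀ j, ∀ i < m, (C (δξ j) * h15_sub2 (h15_dX Φ) (ξ0 j) (θ0 j) +
          δθ j * h15_sub2 (derivative Φ) (ξ0 j) (θ0 j)).coeff i ∈ maximalIdeal A) →
      (∀ j, ∀ i < m, (C (δξ j) * h15_sub2 (h15_dX H0) (ξ0 j) (θ0 j) +
          δθ j * h15_sub2 (derivative H0) (ξ0 j) (θ0 j) +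
          ∑ l, C (δc l) * h15_sub2 (H l) (ξ0 j) (θ0 j)).coeff i ∈ maximalIdeal A) →
      (∀ j, δξ j ∈ maximalIdeal A) ∧ (∀ j i, (δθ j).coeff i ∈ maximalIdeal A) ∧
        ∀ l, δc l ∈ maximalIdeal A := by
  intro δξ δθ δc hdeg h1 h2
  have key := htan (fun j => φ (δξ j)) (fun j => (δθ j).map φ) (fun l => φ (δc l))
    (fun j => lt_of_le_of_lt (Polynomial.degree_map_le) (hdeg j)) ?_ ?_
  · obtain ⟨k1, k2, k3⟩ := key
    refine ⟨fun j => (h84_res_eq_zero_iff A φ hφ _).mp (congrFun k1 j), fun j i => ?_,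
      fun l => (h84_res_eq_zero_iff A φ hφ _).mp (congrFun k3 l)⟩
    have h := congrArg (fun p : k[X] => p.coeff i) (congrFun k2 j)
    simp only [Polynomial.coeff_map, Pi.zero_apply, Polynomial.coeff_zero] at h
    exact (h84_res_eq_zero_iff A φ hφ _).mp h
  · intro j
    have h := h84_X_pow_dvd_map A φ hφ m _ (h1 j)
    rwa [Polynomial.map_add, Polynomial.map_mul, Polynomial.map_mul, Polynomial.map_C,
      h69_sub2_map, h69_sub2_map, h69_dX_map, ← Polynomial.derivative_map] at h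
  · intro j
    have h := h84_X_pow_dvd_map A φ hφ m _ (h2 j)
    rw [Polynomial.map_add, Polynomial.map_add, Polynomial.map_mul, Polynomial.map_mul,
      Polynomial.map_C, h69_sub2_map, h69_sub2_map, h69_dX_map, ← Polynomial.derivative_map,
      Polynomial.map_sum] at h
    have hs : ∑ l, (C (δc l) * h15_sub2 (H l) (ξ0 j) (θ0 j)).map φ =
        ∑ l, C (φ (δc l)) * h15_sub2 ((H l).map (mapRingHom φ)) (φ (ξ0 j)) ((θ0 j).map φ) := by
      refine Finset.sum_congr rfl fun l _ => ?_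
      rw [Polynomial.map_mul, Polynomial.map_C, h69_sub2_map]
    rwa [hs] at h

end Residue

section Tangent

variable {K : Type*} [Field K] (A : ValuationSubring K)
variable {k Fb : Type*} [Field k] [IsAlgClosed k] [Field Fb] [Algebra k Fb]

/-- **TANGENT-RED, geometric form.** The kernel hypothesis `hT` of `h15_hensel_system` from
the hypotheses of `h15_tangent` for the reduced data on the reduced curve `Fb / k`. -/
theorem h84_hT_of_tangent (φ : A →+* k) (hφ : Function.Surjective φ) (g m M : ℕ)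
    (Φ H0 : Polynomial (Polynomial A)) (H : Fin M → Polynomial (Polynomial A))
    (ξ0 : Fin g → A) (θ0 : Fin g → Polynomial A)
    {x0 : Fb} (hx0 : h75_IsChart k x0) (x y : Fb)
    (hΦ : h15_ev2 x y (Φ.map (mapRingHom φ)) = 0) (hm : (m : k) ≠ 0)
    (T : Fin g → Place k Fb) (hT : Function.Injective T)
    (hξ : ∀ j, (T j).ord (x - algebraMap k Fb (φ (ξ0 j))) = 1)
    (hθ : ∀ j, (T j).adicValuation (y - aeval (x - algebraMap k Fb (φ (ξ0 j)))
      ((θ0 j).map φ)) ≤ WithZero.exp (-(m : ℤ)))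
    (hsm : ∀ j, ((Φ.map (mapRingHom φ)).derivative.eval
      (C (((θ0 j).map φ).eval 0))).eval (φ (ξ0 j)) ≠ 0)
    (d : k[X]) (hd : ∀ j, d.eval (φ (ξ0 j)) ≠ 0)
    (G' : Divisor k Fb) (hG' : ∀ j, G' (T j) = 0)
    (hl : Module.finrank k (riemannRochSpace (∑ j, Finsupp.single (T j) (1 : ℤ))) = 1)
    (f0 : Fb) (hf0 : f0 ≠ 0)
    (hdiv : ∀ P : Place k Fb, P.ord f0 = m * ((∑ j, Finsupp.single (T j) (1 : ℤ)) P - G' P))
    (e : Fin M → Fb) (he : ∀ l, e l ∈ riemannRochSpace (m • G'))
    (hli : LinearIndependent k (Fin.cons f0 e : Fin (M + 1) → Fb))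
    (hH0 : h15_ev2 x y (H0.map (mapRingHom φ)) = aeval x d * f0)
    (hH : ∀ l, h15_ev2 x y ((H l).map (mapRingHom φ)) = aeval x d * e l) :
    ∀ (δξ : Fin g → A) (δθ : Fin g → Polynomial A) (δc : Fin M → A),
      (∀ j, (δθ j).degree < m) →
      (∀ j, ∀ i < m, (C (δξ j) * h15_sub2 (h15_dX Φ) (ξ0 j) (θ0 j) +
          δθ j * h15_sub2 (derivative Φ) (ξ0 j) (θ0 j)).coeff i ∈ maximalIdeal A) →
      (∀ j, ∀ i < m, (C (δξ j) * h15_sub2 (h15_dX H0) (ξ0 j) (θ0 j) +
          δθ j * h15_sub2 (derivative H0) (ξ0 j) (θ0 j) +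
          ∑ l, C (δc l) * h15_sub2 (H l) (ξ0 j) (θ0 j)).coeff i ∈ maximalIdeal A) →
      (∀ j, δξ j ∈ maximalIdeal A) ∧ (∀ j i, (δθ j).coeff i ∈ maximalIdeal A) ∧
        ∀ l, δc l ∈ maximalIdeal A :=
  h84_hT_of_residue A φ hφ g m M Φ H0 H ξ0 θ0 fun δξ δθ δc hδθ h1 h2 =>
    h15_tangent hx0 x y (Φ.map (mapRingHom φ)) hΦ g m M hm T hT (fun j => φ (ξ0 j))
      (fun j => (θ0 j).map φ) hξ hθ hsm d hd G' hG' hl f0 hf0 hdiv e he hli
      (H0.map (mapRingHom φ)) (fun l => (H l).map (mapRingHom φ)) hH0 hH δξ δθ δc hδθ h1 h2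

end Tangent

end Fermat.Agent.S27

end
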