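import Fermat.Agent.S27.CoordGood
import Fermat.Agent.S27.h56_TruncInt
import Fermat.Agent.S27.h60_Normalize
import Fermat.Agent.S27.h64_LiftEff
import Fermat.Agent.S27.h82_LiftSystemUniq
import Fermat.Agent.S27.h84_TangentRed
import Fermat.Agent.S18.GR_Integral

/-!
# S27, block B5 LIFT, row B5g (row 506): COMPLETE + UNIQ, core form

Injectivity of the reduction on `m`-torsion divisor classes (`m` invertible in the residue
field), WITHOUT a rank-one hypothesis, from the SETUP data of PLAN v2 (steps 1-4 for `Db = 0`)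
given as explicit hypotheses:

* `h24_hden_K` : the denominator property for all regular functions, from the one for `O`;
* `h24_complete` : (COMPLETE) every degree-zero divisor `D` with `m D` principal and principal
  reduction is linearly equivalent to `∑ T_j - G'` for a solution `(ξ, θ, c)` of the jet system
  with the reductions of the base point, `T_j` being the place with coordinates
  `(ξ_j, θ_j(0))`;
* `h24_lift_inj_core` : (UNIQ) hence `D` is principal.
-/

set_option autoImplicit false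

noncomputable section

open AlgebraicCurve Fermat.Agent.S18 Polynomial IsLocalRing

namespace Fermat.Agent.S27

variable {K F k Fb : Type*} [Field K] [Field F] [Algebra K F] [Field k] [Field Fb] [Algebra k Fb]

/-- The denominator property over `K` for all functions regular on the chart, from the
denominator property over `A` for the functions of `O`. -/
theorem h24_hden_K (R : h39_RedDatum K F k Fb) {x y : F} (d : Polynomial R.A)
    (hden : ∀ f : F, f ∈ R.O → h39_Reg K x f → ∃ H : Polynomial (Polynomial R.A),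
      h15_ev2 x y (H.map (Polynomial.mapRingHom R.A.subtype)) =
        aeval x (d.map R.A.subtype) * f)
    (f : F) (hf : h39_Reg K x f) :
    ∃ H : Polynomial (Polynomial K), h15_ev2 x y H = aeval x (d.map R.A.subtype) * f := by
  by_cases hf0 : f = 0
  · exact ⟨0, by rw [h69_ev2_zero, hf0, mul_zero]⟩
  obtain ⟨c, hc0, hcO, -⟩ := R.exists_scale f hf0
  have hreg : h39_Reg K x (algebraMap K F c * f) := fun P hP =>
    P.toValuationSubring.mul_mem _ _ (P.algebraMap_mem' c) (hf P hP)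
  obtain ⟨H, hH⟩ := hden _ hcO hreg
  refine ⟨C (C c⁻¹) * H.map (Polynomial.mapRingHom R.A.subtype), ?_⟩
  rw [h69_ev2_mul, h69_ev2_C_C, hH]
  have hc0' : algebraMap K F c ≠ 0 := (_root_.map_ne_zero (algebraMap K F)).mpr hc0
  rw [map_inv₀]
  field_simp

/-- `res` of an element of `A` is its `resK`. -/
theorem h24_resK_coe (R : h39_RedDatum K F k Fb) (a : R.A) : R.resK (a : K) = R.res a := by
  rw [R.resK_of_mem a.2]

/-- Congruence modulo the maximal ideal from equality of residues. -/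
theorem h24_sub_mem_of_res_eq (R : h39_RedDatum K F k Fb) {a b : R.A} (h : R.res a = R.res b) :
    a - b ∈ maximalIdeal R.A := by
  rw [← h84_res_eq_zero_iff R.A R.res R.res_surjective, map_sub, h, sub_self]

/-- An element of `A` with nonzero residue is a unit. -/
theorem h24_isUnit_of_res_ne_zero (R : h39_RedDatum K F k Fb) {a : R.A} (h : R.res a ≠ 0) :
    IsUnit a := by
  by_contra hu
  exact h ((h84_res_eq_zero_iff R.A R.res R.res_surjective a).mpr
    ((IsLocalRing.mem_maximalIdeal a).mpr hu))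

/-- Evaluation of a polynomial over `A` at a point of `A`, seen in `K`. -/
theorem h24_eval_map_subtype {A : ValuationSubring K} (d : Polynomial A) (ξ : A) :
    (d.map A.subtype).eval (ξ : K) = ((d.eval ξ : A) : K) := by
  rw [Polynomial.eval_map]
  exact Polynomial.eval₂_at_apply A.subtype ξ

/-- Evaluation of a polynomial over `A` at a point of `A`, reduced. -/
theorem h24_eval_map_res {A : Type*} [CommRing A] {k : Type*} [CommRing k] (φ : A →+* k)
    (d : Polynomial A) (ξ : A) : (d.map φ).eval (φ ξ) = φ (d.eval ξ) := by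
  rw [Polynomial.eval_map]
  exact Polynomial.eval₂_at_apply φ ξ

/-- `X ^ m` divides a polynomial over `A` as soon as it divides its image over `K`. -/
theorem h24_X_pow_dvd_of_map {A : ValuationSubring K} (m : ℕ) (p : Polynomial A)
    (h : X ^ m ∣ p.map A.subtype) : X ^ m ∣ p := by
  rw [Polynomial.X_pow_dvd_iff] at h ⊢
  intro i hi
  have := h i hi
  rw [Polynomial.coeff_map] at this
  exact Subtype.ext this

section Core

variable [IsAlgClosed K] [CharZero K] [IsAlgClosed k]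

/-- **COMPLETE, steps (c) + (d), at one place.** A place `P` whose reduction is the good point
`Q` (with coordinates the residues of the base point `(ξ0, θ0(0))`) has coordinates
`(ξ, θ(0))` in `A`, where `θ` is the integral truncated expansion of `y` at `P`; they are
congruent to the base point, and `P` is the only place with these coordinates. -/
theorem h24_complete_point (R : h39_RedDatum K F k Fb) {x : F} (hx : h39_Chart R x)
    (S : h39_PlaceRed R)
    (hS1 : ∃ r : Place K F → Place k Fb, h39_IsChartRed R x r ∧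
      ∀ P : Place K F, h39_InDisc R x P → S.r0 P = r P)
    (hS2 : ∃ r' : Place K F → Place k Fb, h39_IsChartRed R x⁻¹ r' ∧
      ∀ P : Place K F, ¬ h39_InDisc R x P → S.r0 P = r' P)
    (y : F) (hyO : y ∈ R.O) (hyreg : h39_Reg K x y)
    (Φ : Polynomial (Polynomial R.A)) (d : Polynomial R.A)
    (hΦ : h15_ev2 x y (Φ.map (Polynomial.mapRingHom R.A.subtype)) = 0)
    (hden : ∀ f : F, f ∈ R.O → h39_Reg K x f → ∃ H : Polynomial (Polynomial R.A),
      h15_ev2 x y (H.map (Polynomial.mapRingHom R.A.subtype)) =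
        aeval x (d.map R.A.subtype) * f)
    (hsm : ∀ (Q : Place k Fb) (b c : k), h39_Val Q (R.redF x) b → h39_Val Q (R.redF y) c →
      (d.map R.res).eval b ≠ 0 →
      ((Φ.map (Polynomial.mapRingHom R.res)).derivative.eval (C c)).eval b ≠ 0)
    (m : ℕ) (hm : 0 < m)
    (Q : Place k Fb) (ξ0 : R.A) (θ0 : Polynomial R.A) (hθ0 : θ0.degree < m)
    (hξ0 : h39_Val Q (R.redF x) (R.res ξ0))
    (hη0 : h39_Val Q (R.redF y) (R.res (θ0.eval 0)))
    (hd0 : (d.map R.res).eval (R.res ξ0) ≠ 0)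
    (h1 : ∀ i < m, (h15_sub2 Φ ξ0 θ0).coeff i ∈ maximalIdeal R.A)
    (P : Place K F) (hP : S.r0 P = Q) :
    ∃ (ξ : R.A) (θ : Polynomial R.A),
      h39_Val P x (ξ : K) ∧ h39_Val P y ((θ.eval 0 : R.A) : K) ∧
      θ.degree < m ∧ ξ - ξ0 ∈ maximalIdeal R.A ∧
      (∀ i, (θ - θ0).coeff i ∈ maximalIdeal R.A) ∧
      X ^ m ∣ h15_sub2 Φ ξ θ ∧
      P.ord (x - algebraMap K F (ξ : K)) = 1 ∧
      P.adicValuation (y - aeval (x - algebraMap K F (ξ : K)) (θ.map R.A.subtype)) ≤
        WithZero.exp (-(m : ℤ)) ∧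
      (∀ Q' : Place K F, h39_Val Q' x (ξ : K) → h39_Val Q' y ((θ.eval 0 : R.A) : K) →
        Q' = P) := by
  have hw : h39_WeakChart R x := hx.toh39_WeakChart
  have hxK : h75_IsChart K x := h39_weakChart_isChart R hw
  have hxb : R.redF x ≠ 0 := by
    intro h
    apply hw.transcendental
    rw [h]
    exact isAlgebraic_zero
  have hmem : R.redF x ∈ (S.r0 P).toValuationSubring := by
    rw [hP]
    exact h39_val_mem Q hξ0
  obtain ⟨a, haA, hvalx, hredx⟩ := h64_exists_val_of_r0_mem R S hxK hxb hS1 hS2 P hmem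
  have hdisc : h39_InDisc R x P := h64_inDisc_of_r0_mem R S hxK hxb hS2 P hmem
  have hyP : y ∈ P.toValuationSubring := hyreg P (h39_val_mem P hvalx)
  obtain ⟨b, hvaly⟩ := h39_exists_val hxK P hyP
  have hxa : 0 < P.ord (x - algebraMap K F a) := by
    rcases hvalx with h | h
    · exfalso
      apply hxK.tr
      rw [h]
      exact isAlgebraic_algebraMap a
    · exact h
  have hbA : b ∈ R.A := h39_eval_integral R hw hyO hyreg P a b haA hxa hvaly
  have hredy : h39_Val (S.r0 P) (R.redF y) (R.resK b) :=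
    h64_r0_val_of_inDisc R S hS1 P hdisc y hyO hyreg b hvaly
  rw [hP] at hredx hredy
  obtain ⟨ξ, hξdef⟩ : ∃ ξ : R.A, ξ = ⟨a, haA⟩ := ⟨_, rfl⟩
  obtain ⟨η, hηdef⟩ : ∃ η : R.A, η = ⟨b, hbA⟩ := ⟨_, rfl⟩
  have hξa : (ξ : K) = a := by rw [hξdef]
  have hηb : (η : K) = b := by rw [hηdef]
  rw [← hξa] at hvalx
  rw [← hηb] at hvaly
  have hresξ : R.res ξ = R.res ξ0 := by
    have := h39_val_unique Q hredx hξ0
    rwa [R.resK_of_mem haA, ← hξdef] at this
  have hresη : R.res η = R.res (θ0.eval 0) := by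
    have := h39_val_unique Q hredy hη0
    rwa [R.resK_of_mem hbA, ← hηdef] at this
  -- `d(ξ) ≠ 0`
  have hdA : R.res (d.eval ξ) ≠ 0 := by
    rw [← h24_eval_map_res, hresξ]
    exact hd0
  have hdK : (d.map R.A.subtype).eval (ξ : K) ≠ 0 := by
    rw [h24_eval_map_subtype]
    intro h
    apply hdA
    have : d.eval ξ = 0 := Subtype.ext h
    rw [this, map_zero]
  -- smoothness
  have hsmb := hsm Q (R.res ξ) (R.res η) (hresξ ▸ hξ0) (hresη ▸ hη0) (hresξ ▸ hd0)
  rw [h56_dY_map] at hsmb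
  have hu : IsUnit ((Φ.derivative.eval (C η)).eval ξ) := h24_isUnit_of_res_ne_zero R hsmb
  have hsmK : ((Φ.map (Polynomial.mapRingHom R.A.subtype)).derivative.eval
      (C (η : K))).eval (ξ : K) ≠ 0 := by
    have := h56_dY_map R.A.subtype Φ ξ η
    intro h
    apply hu.ne_zero
    apply Subtype.ext
    exact this.symm.trans h
  obtain ⟨hord1, huniq⟩ := h2_good_point hxK hyreg (Φ.map (Polynomial.mapRingHom R.A.subtype))
    hΦ (d.map R.A.subtype) (h24_hden_K R d hden) P (ξ : K) (η : K) hvalx hvaly hdK hsmK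
  obtain ⟨θK, hdegK, hθK⟩ := h15_exists_trunc hxK P x y (ξ : K) hord1 hyP m
  have hdvdK : X ^ m ∣ h15_sub2 (Φ.map (Polynomial.mapRingHom R.A.subtype)) (ξ : K) θK := by
    refine (h15_ord_ge_iff_trunc P x y (ξ : K) hord1 m θK hθK _).mp ?_
    rw [hΦ, map_zero]
    exact zero_le
  have hθK0 : θK.eval 0 = (η : K) := by
    have ht : h39_Val P (x - algebraMap K F (ξ : K)) 0 := by
      have := h69_val_sub P hvalx (h39_val_algebraMap P (ξ : K))
      rwa [sub_self] at this
    have h2 : h39_Val P (aeval (x - algebraMap K F (ξ : K)) θK) (θK.eval 0) :=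
      h69_val_aeval P ht θK
    have h3 : h39_Val P (y - aeval (x - algebraMap K F (ξ : K)) θK) 0 := by
      rw [← h69_ge_one_iff]
      exact h69_ge_mono P (by exact_mod_cast hm) hθK
    have h4 := h39_val_add P h3 h2
    rw [sub_add_cancel, zero_add] at h4
    exact h39_val_unique P h4 hvaly
  obtain ⟨θ, hmap, hdeg, hθ0', hdvd⟩ :=
    h56_trunc_int R.A.toSubring Φ ξ η hu m θK hdegK hθK0 hdvdK
  refine ⟨ξ, θ, hvalx, ?_, hdeg, h24_sub_mem_of_res_eq R hresξ, ?_, hdvd, hord1, ?_, ?_⟩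
  · rw [hθ0']
    exact hvaly
  · intro i
    refine h56_trunc_congr (maximalIdeal R.A) Φ ξ ξ0 m θ θ0 hdeg hθ0
      (h24_sub_mem_of_res_eq R hresξ) ?_ ?_ hdvd h1 i
    · rw [hθ0']
      exact h24_sub_mem_of_res_eq R hresη
    · rw [hθ0']
      exact hu
  · have hmap' : θ.map R.A.subtype = θK := hmap
    rw [hmap']
    exact hθK
  · rw [hθ0']
    exact huniq

/-- **(COMPLETE).** Let `deg D = 0`, `m D` principal, and the reduction of `D` principal.  Then
there is a solution `(ξ, θ, c)` of the jet system over `A` with the reductions of the base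
point such that `D ~ ∑ T_j - G'`, where `T_j` is THE place with coordinates
`(ξ_j, θ_j(0))`. -/
theorem h24_complete (R : h39_RedDatum K F k Fb) {x : F} (hx : h39_Chart R x)
    (S : h39_PlaceRed R)
    (hS1 : ∃ r : Place K F → Place k Fb, h39_IsChartRed R x r ∧
      ∀ P : Place K F, h39_InDisc R x P → S.r0 P = r P)
    (hS2 : ∃ r' : Place K F → Place k Fb, h39_IsChartRed R x⁻¹ r' ∧
      ∀ P : Place K F, ¬ h39_InDisc R x P → S.r0 P = r' P)
    (y : F) (hyO : y ∈ R.O) (hyreg : h39_Reg K x y)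
    (Φ : Polynomial (Polynomial R.A)) (d : Polynomial R.A)
    (hΦ : h15_ev2 x y (Φ.map (Polynomial.mapRingHom R.A.subtype)) = 0)
    (hden : ∀ f : F, f ∈ R.O → h39_Reg K x f → ∃ H : Polynomial (Polynomial R.A),
      h15_ev2 x y (H.map (Polynomial.mapRingHom R.A.subtype)) =
        aeval x (d.map R.A.subtype) * f)
    (hsm : ∀ (Q : Place k Fb) (b c : k), h39_Val Q (R.redF x) b → h39_Val Q (R.redF y) c →
      (d.map R.res).eval b ≠ 0 →
      ((Φ.map (Polynomial.mapRingHom R.res)).derivative.eval (C c)).eval b ≠ 0)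
    (g m M : ℕ) (hm : 0 < m)
    (Tb : Fin g → Place k Fb) (hTb : Function.Injective Tb)
    (hrr : Module.finrank k (riemannRochSpace (∑ j, Finsupp.single (Tb j) (1 : ℤ))) = 1)
    (G' : Divisor K F) (hG'deg : (h75_genus K x : ℤ) ≤ Divisor.degree G')
    (hG'lin : Finsupp.mapDomain S.r0 G' - ∑ j, Finsupp.single (Tb j) (1 : ℤ) ∈
      Divisor.principal (K := k) (F := Fb))
    (hG'T : ∀ (P : Place K F) (j : Fin g), S.r0 P = Tb j → G' P ≤ 0)
    (f0 : F) (e : Fin M → F) (hf0 : f0 ∈ R.O) (he : ∀ l, e l ∈ R.O)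
    (hli : LinearIndependent k
      (Fin.cons (R.redF f0) (fun l => R.redF (e l)) : Fin (M + 1) → Fb))
    (hspan : ∀ f ∈ riemannRochSpace (m • G'),
      f ∈ Submodule.span K (Set.range (Fin.cons f0 e : Fin (M + 1) → F)))
    (hf0div : ∀ Q : Place k Fb, Q.ord (R.redF f0) =
      m * ((∑ j, Finsupp.single (Tb j) (1 : ℤ)) Q - Finsupp.mapDomain S.r0 G' Q))
    (H0 : Polynomial (Polynomial R.A)) (H : Fin M → Polynomial (Polynomial R.A))
    (hH0 : h15_ev2 x y (H0.map (Polynomial.mapRingHom R.A.subtype)) =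
      aeval x (d.map R.A.subtype) * f0)
    (hH : ∀ l, h15_ev2 x y ((H l).map (Polynomial.mapRingHom R.A.subtype)) =
      aeval x (d.map R.A.subtype) * e l)
    (ξ0 : Fin g → R.A) (θ0 : Fin g → Polynomial R.A) (hθ0 : ∀ j, (θ0 j).degree < m)
    (hξ0 : ∀ j, h39_Val (Tb j) (R.redF x) (R.res (ξ0 j)))
    (hη0 : ∀ j, h39_Val (Tb j) (R.redF y) (R.res ((θ0 j).eval 0)))
    (hd0 : ∀ j, (d.map R.res).eval (R.res (ξ0 j)) ≠ 0)
    (h1 : ∀ j, ∀ i < m, (h15_sub2 Φ (ξ0 j) (θ0 j)).coeff i ∈ maximalIdeal R.A)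
    (D : Divisor K F) (hdeg : Divisor.degree D = 0)
    (hD : m • D ∈ Divisor.principal (K := K) (F := F))
    (h0 : Finsupp.mapDomain S.r0 D ∈ Divisor.principal (K := k) (F := Fb)) :
    ∃ (hh : F) (T : Fin g → Place K F) (ξ : Fin g → R.A) (θ : Fin g → Polynomial R.A)
      (c : Fin M → R.A),
      hh ≠ 0 ∧
      (∀ P : Place K F, (∑ j, Finsupp.single (T j) (1 : ℤ)) P = (D + G') P + P.ord hh) ∧
      (∀ j, h39_Val (T j) x (ξ j : K)) ∧
      (∀ j, h39_Val (T j) y (((θ j).eval 0 : R.A) : K)) ∧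
      (∀ j, ∀ Q' : Place K F, h39_Val Q' x (ξ j : K) →
        h39_Val Q' y (((θ j).eval 0 : R.A) : K) → Q' = T j) ∧
      (∀ j, (θ j).degree < m) ∧ (∀ j, ξ j - ξ0 j ∈ maximalIdeal R.A) ∧
      (∀ j i, (θ j - θ0 j).coeff i ∈ maximalIdeal R.A) ∧ (∀ l, c l ∈ maximalIdeal R.A) ∧
      (∀ j, X ^ m ∣ h15_sub2 Φ (ξ j) (θ j)) ∧
      ∀ j, X ^ m ∣ h15_sub2 (H0 + ∑ l, C (C (c l)) * H l) (ξ j) (θ j) := by
  classical
  have hw : h39_WeakChart R x := hx.toh39_WeakChart
  have hxK : h75_IsChart K x := h39_weakChart_isChart R hw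
  have hxk : h75_IsChart k (R.redF x) := h39_weakChart_isChart_red R hw
  obtain ⟨φ, hφ0, hφ⟩ := hD
  -- (a) + (b)
  have hdeg' : (h75_genus K x : ℤ) ≤ Divisor.degree (D + G') := by
    rw [map_add, hdeg, zero_add]
    exact hG'deg
  have hlin' : Finsupp.mapDomain S.r0 (D + G') - (∑ j, Finsupp.single (Tb j) (1 : ℤ)) ∈
      Divisor.principal (K := k) (F := Fb) := by
    rw [Finsupp.mapDomain_add, add_sub_assoc]
    exact AddSubgroup.add_mem _ h0 hG'lin
  obtain ⟨hh, T, hh0, hrT, hTinj, hsum⟩ :=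
    h64_complete_effective R S hxK Tb hTb hrr (D + G') hdeg' hlin'
  -- (c) + (d)
  have hpt := fun j => h24_complete_point R hx S hS1 hS2 y hyO hyreg Φ d hΦ hden hsm m hm
    (Tb j) (ξ0 j) (θ0 j) (hθ0 j) (hξ0 j) (hη0 j) (hd0 j) (h1 j) (T j) (hrT j)
  choose ξ θ hvx hvy hdegθ hξm hθm hdvd hord hval huniq using hpt
  -- (e)
  obtain ⟨f, hf⟩ : ∃ f : F, f = φ * hh ^ m := ⟨_, rfl⟩
  have hf0' : f ≠ 0 := by
    rw [hf]
    exact mul_ne_zero hφ0 (pow_ne_zero m hh0)
  have hordf : ∀ P : Place K F,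
      P.ord f = m * ((∑ j, Finsupp.single (T j) (1 : ℤ)) P - G' P) := by
    intro P
    have hpow : P.ord (hh ^ m) = m * P.ord hh := by
      have := P.ord_zpow hh (m : ℤ)
      rwa [zpow_natCast] at this
    have hφP := hφ P
    rw [Finsupp.smul_apply, nsmul_eq_mul] at hφP
    rw [hf, P.ord_mul hφ0 (pow_ne_zero m hh0), ← hφP, hsum P, hpow, Finsupp.add_apply]
    ring
  obtain ⟨Df, hDfdef⟩ : ∃ Df : Divisor K F,
      Df = m • (∑ j, Finsupp.single (T j) (1 : ℤ) - G') := ⟨_, rfl⟩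
  have hDf : ∀ P, Df P = P.ord f := by
    intro P
    rw [hordf P, hDfdef, Finsupp.smul_apply, Finsupp.sub_apply, nsmul_eq_mul]
  have hred : ∀ Q : Place k Fb, Finsupp.mapDomain S.r0 Df Q = Q.ord (R.redF f0) := by
    intro Q
    rw [hf0div Q, hDfdef, Finsupp.mapDomain_smul, Finsupp.smul_apply, Finsupp.mapDomain_sub,
      Finsupp.sub_apply, Finsupp.mapDomain_finsetSum, nsmul_eq_mul]
    simp only [Finsupp.mapDomain_single, hrT]
  have hsumnn : ∀ P : Place K F, 0 ≤ (∑ j, Finsupp.single (T j) (1 : ℤ)) P := by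
    intro P
    rw [Finsupp.finsetSum_apply]
    refine Finset.sum_nonneg fun j _ => ?_
    rw [Finsupp.single_apply]
    split_ifs <;> norm_num
  have hfL : f ∈ riemannRochSpace (m • G') := by
    rw [mem_riemannRochSpace_iff]
    intro v
    right
    rw [hordf v, Finsupp.smul_apply, nsmul_eq_mul]
    have := hsumnn v
    have hm' : (0 : ℤ) ≤ m := Nat.cast_nonneg m
    nlinarith
  obtain ⟨a, c, ha0, hc, hfa⟩ :=
    h60_normalize R S hxk f0 e hf0 he hli f hf0' (hspan f hfL) Df hDf hred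
  refine ⟨hh, T, ξ, θ, c, hh0, hsum, hvx, hvy, huniq, hdegθ, hξm, hθm, hc, hdvd, fun j => ?_⟩
  -- the last divisibility
  apply h24_X_pow_dvd_of_map
  rw [h69_sub2_map]
  refine (h15_ord_ge_iff_trunc (T j) x y (ξ j : K) (hord j) m ((θ j).map R.A.subtype)
    (hval j) _).mp ?_
  have hev : h15_ev2 x y ((H0 + ∑ l, C (C (c l)) * H l).map
      (Polynomial.mapRingHom R.A.subtype)) =
      aeval x (d.map R.A.subtype) * (algebraMap K F a⁻¹ * f) := by
    have hl : ∀ l, h15_ev2 x y ((C (C (c l)) * H l).map (Polynomial.mapRingHom R.A.subtype)) =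
        aeval x (d.map R.A.subtype) * (algebraMap K F (c l : K) * e l) := by
      intro l
      rw [Polynomial.map_mul, Polynomial.map_C, Polynomial.coe_mapRingHom, Polynomial.map_C,
        h69_ev2_mul, h69_ev2_C_C, hH l]
      show algebraMap K F (c l : K) * _ = _
      ring
    rw [Polynomial.map_add, Polynomial.map_sum, h69_ev2_add, h69_ev2_sum, hH0, hfa,
      Finset.sum_congr rfl fun l _ => hl l, ← Finset.mul_sum, ← mul_add,
      ← mul_assoc (algebraMap K F a⁻¹), ← map_mul, inv_mul_cancel₀ ha0, map_one, one_mul]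
  rw [hev]
  have hd_mem : aeval x (d.map R.A.subtype) ∈ (T j).toValuationSubring :=
    h39_val_mem _ (h69_val_aeval (T j) (hvx j) _)
  have hf_ge : h69_Ge (T j) f m := by
    rw [h69_ge_iff]
    right
    rw [hordf (T j)]
    have h1' : 1 ≤ (∑ i, Finsupp.single (T i) (1 : ℤ)) (T j) := by
      rw [Finsupp.finsetSum_apply]
      calc (1 : ℤ) = Finsupp.single (T j) (1 : ℤ) (T j) := by rw [Finsupp.single_eq_same]
        _ ≤ ∑ i, Finsupp.single (T i) (1 : ℤ) (T j) :=
          Finset.single_le_sum (f := fun i => Finsupp.single (T i) (1 : ℤ) (T j))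
            (fun i _ => by
              show 0 ≤ Finsupp.single (T i) (1 : ℤ) (T j)
              rw [Finsupp.single_apply]
              split_ifs <;> norm_num) (Finset.mem_univ j)
    have h2' : G' (T j) ≤ 0 := hG'T (T j) j (hrT j)
    have hm' : (0 : ℤ) ≤ m := Nat.cast_nonneg m
    nlinarith
  have hfin := h69_ge_mul_mem (T j) (h69_ge_mul_mem (T j) hf_ge ((T j).algebraMap_mem' a⁻¹))
    hd_mem
  have heq : aeval x (d.map R.A.subtype) * (algebraMap K F a⁻¹ * f) =
      f * algebraMap K F a⁻¹ * aeval x (d.map R.A.subtype) := by ring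
  rw [heq]
  exact hfin

/-- **(B5g) injectivity of the reduction on `m`-torsion, core form**: from the SETUP data
(steps 1-4 of PLAN v2 for `Db = 0`, as hypotheses) and the tangent hypothesis `hT` of
`h15_hensel_system`. -/
theorem h24_lift_inj_core (R : h39_RedDatum K F k Fb) {x : F} (hx : h39_Chart R x)
    (S : h39_PlaceRed R)
    (hS1 : ∃ r : Place K F → Place k Fb, h39_IsChartRed R x r ∧
      ∀ P : Place K F, h39_InDisc R x P → S.r0 P = r P)
    (hS2 : ∃ r' : Place K F → Place k Fb, h39_IsChartRed R x⁻¹ r' ∧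
      ∀ P : Place K F, ¬ h39_InDisc R x P → S.r0 P = r' P)
    (y : F) (hyO : y ∈ R.O) (hyreg : h39_Reg K x y)
    (Φ : Polynomial (Polynomial R.A)) (d : Polynomial R.A)
    (hΦ : h15_ev2 x y (Φ.map (Polynomial.mapRingHom R.A.subtype)) = 0)
    (hden : ∀ f : F, f ∈ R.O → h39_Reg K x f → ∃ H : Polynomial (Polynomial R.A),
      h15_ev2 x y (H.map (Polynomial.mapRingHom R.A.subtype)) =
        aeval x (d.map R.A.subtype) * f)
    (hsm : ∀ (Q : Place k Fb) (b c : k), h39_Val Q (R.redF x) b → h39_Val Q (R.redF y) c →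
      (d.map R.res).eval b ≠ 0 →
      ((Φ.map (Polynomial.mapRingHom R.res)).derivative.eval (C c)).eval b ≠ 0)
    (g m M : ℕ) (hm : 0 < m) (hM : M + g = m * g)
    (Tb : Fin g → Place k Fb) (hTb : Function.Injective Tb)
    (hrr : Module.finrank k (riemannRochSpace (∑ j, Finsupp.single (Tb j) (1 : ℤ))) = 1)
    (G' : Divisor K F) (hG'deg : (h75_genus K x : ℤ) ≤ Divisor.degree G')
    (hG'lin : Finsupp.mapDomain S.r0 G' - ∑ j, Finsupp.single (Tb j) (1 : ℤ) ∈
      Divisor.principal (K := k) (F := Fb))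
    (hG'T : ∀ (P : Place K F) (j : Fin g), S.r0 P = Tb j → G' P ≤ 0)
    (f0 : F) (e : Fin M → F) (hf0 : f0 ∈ R.O) (he : ∀ l, e l ∈ R.O)
    (hli : LinearIndependent k
      (Fin.cons (R.redF f0) (fun l => R.redF (e l)) : Fin (M + 1) → Fb))
    (hspan : ∀ f ∈ riemannRochSpace (m • G'),
      f ∈ Submodule.span K (Set.range (Fin.cons f0 e : Fin (M + 1) → F)))
    (hf0div : ∀ Q : Place k Fb, Q.ord (R.redF f0) =
      m * ((∑ j, Finsupp.single (Tb j) (1 : ℤ)) Q - Finsupp.mapDomain S.r0 G' Q))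
    (H0 : Polynomial (Polynomial R.A)) (H : Fin M → Polynomial (Polynomial R.A))
    (hH0 : h15_ev2 x y (H0.map (Polynomial.mapRingHom R.A.subtype)) =
      aeval x (d.map R.A.subtype) * f0)
    (hH : ∀ l, h15_ev2 x y ((H l).map (Polynomial.mapRingHom R.A.subtype)) =
      aeval x (d.map R.A.subtype) * e l)
    (ξ0 : Fin g → R.A) (θ0 : Fin g → Polynomial R.A) (hθ0 : ∀ j, (θ0 j).degree < m)
    (hξ0 : ∀ j, h39_Val (Tb j) (R.redF x) (R.res (ξ0 j)))
    (hη0 : ∀ j, h39_Val (Tb j) (R.redF y) (R.res ((θ0 j).eval 0)))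
    (hd0 : ∀ j, (d.map R.res).eval (R.res (ξ0 j)) ≠ 0)
    (h1 : ∀ j, ∀ i < m, (h15_sub2 Φ (ξ0 j) (θ0 j)).coeff i ∈ maximalIdeal R.A)
    (hT : ∀ (δξ : Fin g → R.A) (δθ : Fin g → Polynomial R.A) (δc : Fin M → R.A),
      (∀ j, (δθ j).degree < m) →
      (∀ j, ∀ i < m, (C (δξ j) * h15_sub2 (h15_dX Φ) (ξ0 j) (θ0 j) +
          δθ j * h15_sub2 (derivative Φ) (ξ0 j) (θ0 j)).coeff i ∈ maximalIdeal R.A) →
      (∀ j, ∀ i < m, (C (δξ j) * h15_sub2 (h15_dX H0) (ξ0 j) (θ0 j) +
          δθ j * h15_sub2 (derivative H0) (ξ0 j) (θ0 j) +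
          ∑ l, C (δc l) * h15_sub2 (H l) (ξ0 j) (θ0 j)).coeff i ∈ maximalIdeal R.A) →
      (∀ j, δξ j ∈ maximalIdeal R.A) ∧ (∀ j i, (δθ j).coeff i ∈ maximalIdeal R.A) ∧
        ∀ l, δc l ∈ maximalIdeal R.A)
    (D : Divisor K F) (hdeg : Divisor.degree D = 0)
    (hD : m • D ∈ Divisor.principal (K := K) (F := F))
    (h0 : Finsupp.mapDomain S.r0 D ∈ Divisor.principal (K := k) (F := Fb)) :
    D ∈ Divisor.principal (K := K) (F := F) := by
  classical
  obtain ⟨hh, T, ξ, θ, c, hh0, hsum, hvx, hvy, huniq, hdegθ, hξm, hθm, hc, hdvd, hdvd2⟩ :=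
    h24_complete R hx S hS1 hS2 y hyO hyreg Φ d hΦ hden hsm g m M hm Tb hTb hrr G' hG'deg
      hG'lin hG'T f0 e hf0 he hli hspan hf0div H0 H hH0 hH ξ0 θ0 hθ0 hξ0 hη0 hd0 h1 D hdeg hD h0
  obtain ⟨hh', T', ξ', θ', c', hh0', hsum', hvx', hvy', -, hdegθ', hξm', hθm', hc', hdvd',
      hdvd2'⟩ :=
    h24_complete R hx S hS1 hS2 y hyO hyreg Φ d hΦ hden hsm g m M hm Tb hTb hrr G' hG'deg
      hG'lin hG'T f0 e hf0 he hli hspan hf0div H0 H hH0 hH ξ0 θ0 hθ0 hξ0 hη0 hd0 h1
      (0 : Divisor K F) (map_zero _)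
      (by rw [smul_zero]; exact zero_mem _)
      (by rw [Finsupp.mapDomain_zero]; exact zero_mem _)
  obtain ⟨e1, e2, -⟩ := h15_hensel_system_unique R.A g m M hM Φ H0 H ξ0 θ0 hθ0 hT ξ ξ' θ θ' c c'
    hdegθ hdegθ' hξm hξm' hθm hθm' hc hc' hdvd hdvd' hdvd2 hdvd2'
  have hTT : T' = T := by
    funext j
    apply huniq j
    · rw [e1]
      exact hvx' j
    · rw [e2]
      exact hvy' j
  refine ⟨hh' * hh⁻¹, mul_ne_zero hh0' (inv_ne_zero hh0), fun P => ?_⟩
  have h1 := hsum P
  have h2 := hsum' P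
  rw [hTT] at h2
  rw [P.ord_mul hh0' (inv_ne_zero hh0), P.ord_inv]
  rw [Finsupp.add_apply] at h1 h2
  rw [Finsupp.zero_apply] at h2
  linarith

end Core

end Fermat.Agent.S27

end
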