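import Fermat.Agent.S18.GR_ON
import Fermat.Agent.S18.h52_ONCore
import Fermat.Agent.S18.h64_CoreAdapter

/-!
# S27, block B5 (STEP 3 of the LIFT plan): orthonormal basis with a prescribed first reduction

`R` a reduction datum with weak chart `x`; `V ⊆ F` and `W ⊆ Fb` of the same finite dimension
`M + 1` with `red (V ∩ O) ⊆ W`; `f0b ∈ W` nonzero.

* `h82_exists_cons_basis` (linear algebra): a nonzero vector of an `(M+1)`-dimensional space is
  the first vector of an independent family `Fin.cons w0 v`.
* `h82_exists_on_cons` : there are `f0, e_1 .. e_M ∈ V ∩ O` with `red f0 = f0b` whose reductions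
  `Fin.cons f0b (red ∘ e)` are `k`-linearly independent (the shape of `h15_tangent`); they are
  `K`-independent and span `V`.
* `h82_on_coords` : coordinates of an element of `V ∩ O` in such a family lie in `A` and reduce
  to the coordinates of the reduction.
-/

set_option autoImplicit false

noncomputable section

open AlgebraicCurve IntermediateField

namespace Fermat.Agent.S27

open Fermat.Agent.S18

/-- a nonzero vector of an `(M+1)`-dimensional space starts an independent family of length
`M + 1`. -/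
theorem h82_exists_cons_basis {k : Type*} [Field k] {W : Type*} [AddCommGroup W] [Module k W]
    [FiniteDimensional k W] {M : ℕ} (hW : Module.finrank k W = M + 1) (w0 : W) (h0 : w0 ≠ 0) :
    ∃ v : Fin M → W, LinearIndependent k (Fin.cons w0 v : Fin (M + 1) → W) := by
  obtain ⟨q, hq⟩ := Submodule.exists_isCompl (k ∙ w0)
  have hdim := Submodule.finrank_add_eq_of_isCompl hq
  rw [finrank_span_singleton h0, hW] at hdim
  have hqd : Module.finrank k q = M := by omega
  let bq := Module.finBasisOfFinrankEq k q hqd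
  refine ⟨fun l => ((bq l : q) : W), ?_⟩
  rw [linearIndependent_finCons]
  refine ⟨bq.linearIndependent.map' q.subtype (Submodule.ker_subtype q), fun hmem => ?_⟩
  have hle : Submodule.span k (Set.range fun l => ((bq l : q) : W)) ≤ q := by
    rw [Submodule.span_le]
    rintro _ ⟨l, rfl⟩
    exact (bq l).2
  have h1 : w0 ∈ (k ∙ w0) ⊓ q := ⟨Submodule.mem_span_singleton_self w0, hle hmem⟩
  rw [hq.disjoint.eq_bot] at h1
  exact h0 ((Submodule.mem_bot k).mp h1)

variable {K F k Fb : Type*} [Field K] [Field F] [Algebra K F] [Field k] [Field Fb] [Algebra k Fb]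

/-- **STEP 3 (orthonormal basis with prescribed first reduction).** -/
theorem h82_exists_on_cons (R : h39_RedDatum K F k Fb) {x : F} (hx : h39_WeakChart R x)
    (V : Submodule K F) [FiniteDimensional K V] (W : Submodule k Fb) [FiniteDimensional k W]
    (h : ∀ f ∈ V, f ∈ R.O → R.redF f ∈ W) {M : ℕ}
    (hV : Module.finrank K V = M + 1) (hW : Module.finrank k W = M + 1)
    (f0b : Fb) (hf0b : f0b ∈ W) (h0 : f0b ≠ 0) :
    ∃ (f0 : F) (e : Fin M → F), f0 ∈ V ∧ f0 ∈ R.O ∧ R.redF f0 = f0b ∧
      (∀ l, e l ∈ V) ∧ (∀ l, e l ∈ R.O) ∧ (∀ l, R.redF (e l) ∈ W) ∧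
      LinearIndependent k (Fin.cons f0b (fun l => R.redF (e l)) : Fin (M + 1) → Fb) ∧
      LinearIndependent K (Fin.cons f0 e : Fin (M + 1) → F) ∧
      V = Submodule.span K (Set.range (Fin.cons f0 e : Fin (M + 1) → F)) := by
  classical
  have hw0 : (⟨f0b, hf0b⟩ : W) ≠ 0 := fun hz => h0 (congrArg Subtype.val hz)
  obtain ⟨v, hv⟩ := h82_exists_cons_basis hW (⟨f0b, hf0b⟩ : W) hw0
  have hsurj := h39_red_surjective_of_finrank R hx V W h (by rw [hV, hW])
  obtain ⟨f0, hf0V, hf0O, hf0red⟩ := hsurj f0b hf0b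
  choose e heV heO hered using fun l => hsurj (v l : Fb) (v l).2
  -- the reductions
  have hfun : (Fin.cons f0b (fun l => R.redF (e l)) : Fin (M + 1) → Fb) =
      fun i => W.subtype ((Fin.cons (⟨f0b, hf0b⟩ : W) v : Fin (M + 1) → W) i) := by
    funext i
    refine Fin.cases ?_ (fun l => ?_) i
    · simp
    · simp [hered l]
  have hlik : LinearIndependent k (Fin.cons f0b (fun l => R.redF (e l)) : Fin (M + 1) → Fb) := by
    rw [hfun]
    exact hv.map' W.subtype (Submodule.ker_subtype W)
  have hfun2 : (fun i => R.redF ((Fin.cons f0 e : Fin (M + 1) → F) i)) =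
      (Fin.cons f0b (fun l => R.redF (e l)) : Fin (M + 1) → Fb) := by
    funext i
    refine Fin.cases ?_ (fun l => ?_) i
    · simp [hf0red]
    · simp
  have huO : ∀ i, (Fin.cons f0 e : Fin (M + 1) → F) i ∈ R.O := by
    intro i
    refine Fin.cases ?_ (fun l => ?_) i
    · simpa using hf0O
    · simpa using heO l
  have huV : ∀ i, (Fin.cons f0 e : Fin (M + 1) → F) i ∈ V := by
    intro i
    refine Fin.cases ?_ (fun l => ?_) i
    · simpa using hf0V
    · simpa using heV l
  have hliK : LinearIndependent K (Fin.cons f0 e : Fin (M + 1) → F) :=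
    h64_linearIndependent_of_on R.O _
      (h20_on_of_linearIndependent_red R _ huO (by rw [hfun2]; exact hlik))
  refine ⟨f0, e, hf0V, hf0O, hf0red, heV, heO, fun l => by rw [hered l]; exact (v l).2, hlik,
    hliK, ?_⟩
  symm
  apply Submodule.eq_of_le_of_finrank_eq
  · rw [Submodule.span_le]
    rintro _ ⟨i, rfl⟩
    exact huV i
  · rw [finrank_span_eq_card hliK, hV, Fintype.card_fin]

/-- coordinates in a family with independent reductions: integral, and they reduce to the
coordinates of the reduction. -/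
theorem h82_on_coords (R : h39_RedDatum K F k Fb) {ι : Type*} [Fintype ι] (u : ι → F)
    (hu : ∀ i, u i ∈ R.O) (hli : LinearIndependent k (fun i => R.redF (u i)))
    (f : F) (hf : f ∈ Submodule.span K (Set.range u)) (hfO : f ∈ R.O) :
    ∃ a : ι → K, (∀ i, a i ∈ R.A) ∧ f = ∑ i, a i • u i ∧
      R.redF f = ∑ i, R.resK (a i) • R.redF (u i) := by
  obtain ⟨a, ha⟩ := (Submodule.mem_span_range_iff_exists_fun K).mp hf
  have haA : ∀ i, a i ∈ R.A := h52_coord_mem R u hu hli a (by rw [ha]; exact hfO)
  refine ⟨a, haA, ha.symm, ?_⟩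
  rw [← ha]
  exact (h52_redF_comb R u hu a haA).2

/-- **normalisation**: an element of `V ∩ O` whose reduction is the reduction of the first
vector of the family `Fin.cons f0 e` is `a • (f0 + ∑ c_l • e_l)` with `a` a unit of `A` and
`c_l` in the maximal ideal. -/
theorem h82_on_normalise (R : h39_RedDatum K F k Fb) {M : ℕ} (f0 : F) (e : Fin M → F)
    (hf0 : f0 ∈ R.O) (he : ∀ l, e l ∈ R.O)
    (hli : LinearIndependent k (Fin.cons (R.redF f0) (fun l => R.redF (e l)) : Fin (M + 1) → Fb))
    (f : F) (hf : f ∈ Submodule.span K (Set.range (Fin.cons f0 e : Fin (M + 1) → F)))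
    (hfO : f ∈ R.O) (hred : R.redF f = R.redF f0) :
    ∃ (a : K) (c : Fin M → K), a ∈ R.A ∧ a⁻¹ ∈ R.A ∧ R.resK a = 1 ∧
      (∀ l, c l ∈ R.A.nonunits) ∧ f = a • (f0 + ∑ l, c l • e l) := by
  classical
  have huO : ∀ i, (Fin.cons f0 e : Fin (M + 1) → F) i ∈ R.O := by
    intro i
    refine Fin.cases ?_ (fun l => ?_) i
    · simpa using hf0
    · simpa using he l
  have hfun2 : (fun i => R.redF ((Fin.cons f0 e : Fin (M + 1) → F) i)) =
      (Fin.cons (R.redF f0) (fun l => R.redF (e l)) : Fin (M + 1) → Fb) := by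
    funext i
    refine Fin.cases ?_ (fun l => ?_) i
    · simp
    · simp
  have hli' : LinearIndependent k (fun i => R.redF ((Fin.cons f0 e : Fin (M + 1) → F) i)) := by
    rw [hfun2]; exact hli
  obtain ⟨a, haA, hfa, hreda⟩ := h82_on_coords R _ huO hli' f hf hfO
  -- compare the coordinates of the reduction
  have hcoord : ∑ i, (R.resK (a i) - if i = 0 then 1 else 0) •
      R.redF ((Fin.cons f0 e : Fin (M + 1) → F) i) = 0 := by
    simp only [sub_smul, Finset.sum_sub_distrib, ite_smul, one_smul, zero_smul,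
      Finset.sum_ite_eq', Finset.mem_univ, if_true]
    rw [← hreda, hred]
    simp
  have hz := (Fintype.linearIndependent_iff.mp hli') _ hcoord
  have h0res : R.resK (a 0) = 1 := by
    have := hz 0
    rw [if_pos rfl] at this
    exact sub_eq_zero.mp this
  have hsres : ∀ l : Fin M, R.resK (a l.succ) = 0 := by
    intro l
    have := hz l.succ
    rw [if_neg (Fin.succ_ne_zero l), sub_zero] at this
    exact this
  have ha0unit : a 0 ∉ R.A.nonunits := by
    intro hnu
    have := (h20_resK_eq_zero_iff R (haA 0)).mpr hnu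
    rw [h0res] at this
    exact one_ne_zero this
  have hval : R.A.valuation (a 0) = 1 := by
    have h1 : ¬ R.A.valuation (a 0) < 1 := fun h => ha0unit (R.A.mem_nonunits_iff.mpr h)
    have h2 : R.A.valuation (a 0) ≤ 1 := (R.A.valuation_le_one_iff _).mpr (haA 0)
    exact le_antisymm h2 (not_lt.mp h1)
  have ha0ne : a 0 ≠ 0 := by
    intro hz0
    rw [hz0, map_zero] at hval
    exact zero_ne_one hval
  have ha0inv : (a 0)⁻¹ ∈ R.A := by
    rw [← R.A.valuation_le_one_iff, map_inv₀, hval, inv_one]
  refine ⟨a 0, fun l => a l.succ * (a 0)⁻¹, haA 0, ha0inv, h0res, fun l => ?_, ?_⟩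
  · -- `a_l / a_0` is a non-unit
    have hl : a l.succ ∈ R.A.nonunits := (h20_resK_eq_zero_iff R (haA l.succ)).mp (hsres l)
    rw [ValuationSubring.mem_nonunits_iff] at hl ⊢
    rw [map_mul, map_inv₀, hval, inv_one, mul_one]
    exact hl
  · rw [hfa, Fin.sum_univ_succ]
    simp only [Fin.cons_zero, Fin.cons_succ]
    rw [smul_add, Finset.smul_sum]
    congr 1
    refine Finset.sum_congr rfl fun l _ => ?_
    rw [smul_smul, mul_comm (a 0), mul_assoc, inv_mul_cancel₀ ha0ne, mul_one]

end Fermat.Agent.S27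

end
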