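import Fermat.Agent.S27.Lift
import Fermat.Agent.S27.CoordAsm
import Fermat.Agent.S27.h82_LiftBasis
import Fermat.Agent.S27.h24_LiftInjCore

/-!
# S27, block B5 LIFT, row B5g (row 506): the export `h15_lift_inj`

An `m`-torsion divisor class whose reduction is trivial is trivial (`m` invertible in the
residue field), for ANY valuation ring (no rank-one hypothesis).

* `h24_lift_inj_of_coord` : the SETUP of PLAN v2 for `Db = 0` (MOVE on the reduced curve, lift
  of the linear data, orthonormal basis of `L(m G')`, denominators, truncated expansions on the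
  reduced curve, lifted base point, tangent hypothesis) feeding `h24_lift_inj_core`
  (COMPLETE + UNIQ, `h24_LiftInjCore.lean`);
* `h15_lift_inj` : the export, with the plane coordinates of `h81_coord`.
-/

set_option autoImplicit false

noncomputable section

open AlgebraicCurve Fermat.Agent.S18 Polynomial IntermediateField

namespace Fermat.Agent.S27

variable {K F k Fb : Type*} [Field K] [Field F] [Algebra K F] [Field k] [Field Fb] [Algebra k Fb]

/-- the core of B5g: injectivity, given the plane coordinates of COORD. -/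
theorem h24_lift_inj_of_coord [IsAlgClosed K] [CharZero K] [IsAlgClosed k]
    (R : h39_RedDatum K F k Fb) {x : F} (hx : h39_Chart R x) (S : h39_PlaceRed R)
    (hS1 : ∃ r : Place K F → Place k Fb, h39_IsChartRed R x r ∧
        ∀ P : Place K F, h39_InDisc R x P → S.r0 P = r P)
    (hS2 : ∃ r' : Place K F → Place k Fb, h39_IsChartRed R x⁻¹ r' ∧
        ∀ P : Place K F, ¬ h39_InDisc R x P → S.r0 P = r' P)
    (m : ℕ) (hm2 : 2 ≤ m) (hm : (m : k) ≠ 0)
    (y : F) (Φ : Polynomial (Polynomial R.A)) (d : Polynomial R.A)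
    (hyO : y ∈ R.O) (hyreg : h39_Reg K x y) (hybreg : h39_Reg k (R.redF x) (R.redF y))
    (hΦ : h15_ev2 x y (Φ.map (Polynomial.mapRingHom R.A.subtype)) = 0)
    (hd0 : d.map R.res ≠ 0)
    (hden : ∀ f : F, f ∈ R.O → h39_Reg K x f → ∃ H : Polynomial (Polynomial R.A),
        h15_ev2 x y (H.map (Polynomial.mapRingHom R.A.subtype)) =
          aeval x (d.map R.A.subtype) * f)
    (hgood : ∀ (Q : Place k Fb) (b c : k), h39_Val Q (R.redF x) b → h39_Val Q (R.redF y) c →
        (d.map R.res).eval b ≠ 0 →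
          Q.ord (R.redF x - algebraMap k Fb b) = 1 ∧
          ((Φ.map (Polynomial.mapRingHom R.res)).derivative.eval (C c)).eval b ≠ 0 ∧
          ∀ Q' : Place k Fb, h39_Val Q' (R.redF x) b → h39_Val Q' (R.redF y) c → Q' = Q)
    (D : Divisor K F) (hdeg : Divisor.degree D = 0)
    (hD : m • D ∈ Divisor.principal (K := K) (F := F))
    (h0 : Finsupp.mapDomain S.r0 D ∈ Divisor.principal (K := k) (F := Fb)) :
    D ∈ Divisor.principal (K := K) (F := F) := by
  classical
  have hw := hx.toh39_WeakChart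
  have hxK : h75_IsChart K x := h39_weakChart_isChart R hw
  have hxk : h75_IsChart k (R.redF x) := h39_weakChart_isChart_red R hw
  have := h75_hasPrincipalDivisors hxK
  have := h75_hasPrincipalDivisors hxk
  have hm0 : 0 < m := by omega
  have hgen : h75_genus k (R.redF x) = h75_genus K x := h39_genus_eq R hx
  set xb := R.redF x with hxbdef
  set yb := R.redF y with hybdef
  set Φb := Φ.map (Polynomial.mapRingHom R.res) with hΦbdef
  set db := d.map R.res with hdbdef
  -- MOVE
  obtain ⟨T, Gp, E, hTinj, hTbad, hGp0, hGpsupp, hE0, hET, hdegG, hprinc, hl⟩ :=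
    h15_move hxk (0 : Divisor k Fb) (map_zero _) _
      (h2_asm_bad_finite hxk db hd0 (∅ : Set k) Set.finite_empty)
  have hTmem : ∀ j, xb ∈ (T j).toValuationSubring := by
    intro j
    by_contra h
    exact hTbad j (Or.inl h)
  choose ξb hξb using fun j => h39_exists_val hxk (T j) (hTmem j)
  have hdξ : ∀ j, db.eval (ξb j) ≠ 0 :=
    fun j h => hTbad j (Or.inr ⟨ξb j, hξb j, Or.inl h⟩)
  have hybmem : ∀ j, yb ∈ (T j).toValuationSubring := fun j => hybreg (T j) (hTmem j)
  choose ηb hηb using fun j => h39_exists_val hxk (T j) (hybmem j)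
  have hord : ∀ j, (T j).ord (xb - algebraMap k Fb (ξb j)) = 1 :=
    fun j => (hgood (T j) (ξb j) (ηb j) (hξb j) (hηb j) (hdξ j)).1
  have hsmb : ∀ j, (Φb.derivative.eval (C (ηb j))).eval (ξb j) ≠ 0 :=
    fun j => (hgood (T j) (ξb j) (ηb j) (hξb j) (hηb j) (hdξ j)).2.1
  have hGpT : ∀ j, Gp (T j) = 0 := by
    intro j
    by_contra h
    exact hGpsupp (T j) h (hTmem j)
  have hsumT : ∀ j, (∑ i, Finsupp.single (T i) (1 : ℤ)) (T j) = 1 := by
    intro j
    rw [Finsupp.finsetSum_apply, Finset.sum_eq_single j]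
    · simp
    · intro i _ hij
      rw [Finsupp.single_apply, if_neg (fun h => hij (hTinj h))]
    · intro h
      exact absurd (Finset.mem_univ j) h
  -- linear data
  obtain ⟨GpK, EK, hGpKsupp, hEK0, hEKsupp, hmap, hdim, hsurj⟩ :=
    h2_asm_linear R hx S m hm2 Gp E hGpsupp hE0 hdegG
  rw [← hxbdef] at hdim
  have hmapm : Finsupp.mapDomain S.r0 (m • (GpK - EK)) = m • (Gp - E) := by
    rw [Finsupp.mapDomain_smul, hmap]
  have hdegK : Divisor.degree (GpK - EK) = h75_genus k xb := by
    rw [← h64_degree_mapDomain_r0 R S hxK hxk, hmap, hdegG]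
  -- the function `f0b` with divisor `m (∑ T_j - (Gp - E))`
  have hprinc' : (∑ j, Finsupp.single (T j) (1 : ℤ)) - (Gp - E) ∈
      Divisor.principal (K := k) (F := Fb) := by
    rwa [sub_zero] at hprinc
  have hprinc2 : m • ((∑ j, Finsupp.single (T j) (1 : ℤ)) - (Gp - E)) ∈
      Divisor.principal (K := k) (F := Fb) := nsmul_mem hprinc' m
  obtain ⟨f0b, hf0b0, hf0bdiv⟩ := Divisor.mem_principal.mp hprinc2
  have hdivf0 : ∀ P : Place k Fb, P.ord f0b =
      m * ((∑ j, Finsupp.single (T j) (1 : ℤ)) P - (Gp - E) P) := by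
    intro P
    rw [← hf0bdiv P, Finsupp.smul_apply, Finsupp.sub_apply, nsmul_eq_mul]
  have hf0bV : f0b ∈ riemannRochSpace (m • (Gp - E)) := by
    rw [mem_riemannRochSpace_iff]
    intro P
    right
    rw [hdivf0 P, Finsupp.smul_apply, nsmul_eq_mul]
    have h1 : (0 : ℤ) ≤ (∑ j, Finsupp.single (T j) (1 : ℤ)) P := by
      rw [Finsupp.finsetSum_apply]
      refine Finset.sum_nonneg fun i _ => ?_
      rw [Finsupp.single_apply]
      split_ifs <;> norm_num
    have h2 : (0 : ℤ) ≤ m := Nat.cast_nonneg m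
    nlinarith
  -- the dimensions
  obtain ⟨M, hM⟩ : ∃ M : ℕ, M + h75_genus k xb = m * h75_genus k xb :=
    ⟨m * h75_genus k xb - h75_genus k xb, by
      have : h75_genus k xb ≤ m * h75_genus k xb := Nat.le_mul_of_pos_left _ hm0
      omega⟩
  have : FiniteDimensional k (riemannRochSpace (m • (Gp - E))) := (h75_riemann hxk _).1
  have : FiniteDimensional K (riemannRochSpace (m • (GpK - EK))) := (h75_riemann hxK _).1
  have hfinrank : Module.finrank k (riemannRochSpace (m • (Gp - E))) = M + 1 := by omega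
  have hVdim : Module.finrank K (riemannRochSpace (m • (GpK - EK))) = M + 1 := by
    have hm2' : (2 : ℤ) ≤ m := by exact_mod_cast hm2
    have hg0 : (0 : ℤ) ≤ h75_genus K x := Nat.cast_nonneg _
    have h0' : Divisor.degree (m • (GpK - EK)) = m * h75_genus K x := by
      rw [map_nsmul, hdegK, hgen, nsmul_eq_mul]
    have h3 := h15_finrank_rr_of_deg hxK (m • (GpK - EK)) (by rw [h0']; nlinarith)
    rw [h0'] at h3
    have hM' : ((M : ℤ) + h75_genus K x) = m * h75_genus K x := by
      rw [← hgen]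
      exact_mod_cast hM
    have h4 : (Module.finrank K (riemannRochSpace (m • (GpK - EK))) : ℤ) =
        ((M + 1 : ℕ) : ℤ) := by
      push_cast
      linarith
    exact_mod_cast h4
  -- the orthonormal basis with first reduction `f0b`
  have hredV : ∀ f ∈ riemannRochSpace (m • (GpK - EK)), f ∈ R.O →
      R.redF f ∈ riemannRochSpace (m • (Gp - E)) := by
    intro f hf hfO
    have := h64_red_mem_rr R S.r0 S.compat (m • (GpK - EK)) hf hfO
    rwa [hmapm] at this
  obtain ⟨f0, e, hf0V, hf0O, hf0red, heV, heO, hebW, hlik, -, hspanV⟩ :=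
    h82_exists_on_cons R hw (riemannRochSpace (m • (GpK - EK)))
      (riemannRochSpace (m • (Gp - E))) hredV hVdim hfinrank f0b hf0bV hf0b0
  obtain ⟨eb, hebdef⟩ : ∃ eb : Fin M → Fb, eb = fun l => R.redF (e l) := ⟨_, rfl⟩
  have hered : ∀ l, R.redF (e l) = eb l := fun l => by rw [hebdef]
  have hebV : ∀ l, eb l ∈ riemannRochSpace (m • (Gp - E)) := fun l => by
    rw [← hered l]
    exact hebW l
  have hli : LinearIndependent k (Fin.cons f0b eb : Fin (M + 1) → Fb) := by
    rw [hebdef]
    exact hlik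
  have hVreg : ∀ f ∈ riemannRochSpace (m • (GpK - EK)), h39_Reg K x f := by
    intro f hf P hP
    rcases (mem_riemannRochSpace_iff.mp hf) P with h | h
    · rw [h]
      exact zero_mem _
    · refine Fermat.Agent.S24.h24_mem_of_ord_nonneg P ?_
      rw [Finsupp.smul_apply, Finsupp.sub_apply, nsmul_eq_mul] at h
      have h1 : GpK P = 0 := by
        by_contra h1
        exact hGpKsupp P h1 hP
      have h2 := hEK0 P
      have h3 : (0 : ℤ) ≤ m := Nat.cast_nonneg m
      rw [h1] at h
      nlinarith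
  obtain ⟨H0, hH0⟩ := hden f0 hf0O (hVreg f0 hf0V)
  choose H hH using fun l => hden (e l) (heO l) (hVreg _ (heV l))
  -- reduced polynomial identities
  have hΦb : h15_ev2 xb yb Φb = 0 := by
    have h1 := (h2_asm_ev2_red R hx.mem hyO Φ).2
    rw [hΦ, h39_redF_zero] at h1
    exact h1.symm
  have hdred : R.redF (aeval x (d.map R.A.subtype)) = aeval xb db := h89_gauss_red R hx.mem d
  have hdO : aeval x (d.map R.A.subtype) ∈ R.O := h89_gauss_red_mem R hx.mem d
  have hH0b : h15_ev2 xb yb (H0.map (Polynomial.mapRingHom R.res)) = aeval xb db * f0b := by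
    have h1 := (h2_asm_ev2_red R hx.mem hyO H0).2
    rw [hH0, h39_redF_mul R hdO hf0O, hdred, hf0red] at h1
    exact h1.symm
  have hHb : ∀ l, h15_ev2 xb yb ((H l).map (Polynomial.mapRingHom R.res)) =
      aeval xb db * eb l := by
    intro l
    have h1 := (h2_asm_ev2_red R hx.mem hyO (H l)).2
    rw [hH l, h39_redF_mul R hdO (heO l), hdred, hered l] at h1
    exact h1.symm
  -- truncated expansions on the reduced curve
  choose θb hθbdeg hθb using
    fun j => h15_exists_trunc hxk (T j) xb yb (ξb j) (hord j) (hybmem j) m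
  have hθb0 : ∀ j, (θb j).eval 0 = ηb j := by
    intro j
    have h1 : 0 < (T j).ord (xb - algebraMap k Fb (ξb j)) := by
      rw [hord j]
      norm_num
    exact h39_val_unique (T j) (h2_asm_val_of_trunc (T j) h1 hm0 (θb j) (hθb j)) (hηb j)
  have hdivΦb : ∀ j, X ^ m ∣ h15_sub2 Φb (ξb j) (θb j) := by
    intro j
    refine (h15_ord_ge_iff_trunc (T j) xb yb (ξb j) (hord j) m (θb j) (hθb j) Φb).mp ?_
    rw [hΦb, map_zero]
    exact zero_le
  -- approximate solution over `A`
  choose ξ0 hξ0 using fun j => R.res_surjective (ξb j)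
  choose θ0 hθ0map hθ0deg using fun j => h2_asm_lift_poly R.res R.res_surjective (θb j)
  have hθ0deg' : ∀ j, (θ0 j).degree < m := fun j => by
    rw [hθ0deg j]
    exact hθbdeg j
  have h1 : ∀ j, ∀ i < m,
      (h15_sub2 Φ (ξ0 j) (θ0 j)).coeff i ∈ IsLocalRing.maximalIdeal R.A := by
    intro j
    rw [h2_asm_coeff_mem_iff, h69_sub2_map, hξ0 j, hθ0map j]
    exact hdivΦb j
  -- the tangent space is trivial
  have hTan : ∀ (δξ : Fin (h75_genus k xb) → R.A)
      (δθ : Fin (h75_genus k xb) → Polynomial R.A) (δc : Fin M → R.A),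
      (∀ j, (δθ j).degree < m) →
      (∀ j, ∀ i < m, (C (δξ j) * h15_sub2 (h15_dX Φ) (ξ0 j) (θ0 j) +
          δθ j * h15_sub2 (derivative Φ) (ξ0 j) (θ0 j)).coeff i ∈
            IsLocalRing.maximalIdeal R.A) →
      (∀ j, ∀ i < m, (C (δξ j) * h15_sub2 (h15_dX H0) (ξ0 j) (θ0 j) +
          δθ j * h15_sub2 (derivative H0) (ξ0 j) (θ0 j) +
          ∑ l, C (δc l) * h15_sub2 (H l) (ξ0 j) (θ0 j)).coeff i ∈
            IsLocalRing.maximalIdeal R.A) →
      (∀ j, δξ j ∈ IsLocalRing.maximalIdeal R.A) ∧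
        (∀ j i, (δθ j).coeff i ∈ IsLocalRing.maximalIdeal R.A) ∧
        ∀ l, δc l ∈ IsLocalRing.maximalIdeal R.A := by
    intro δξ δθ δc hδθ hh1 hh2
    have hh1' : ∀ j, X ^ m ∣ C (R.res (δξ j)) * h15_sub2 (h15_dX Φb) (ξb j) (θb j) +
        (δθ j).map R.res * h15_sub2 (derivative Φb) (ξb j) (θb j) := by
      intro j
      have h3 := (h2_asm_coeff_mem_iff R _ m).mp (hh1 j)
      rw [Polynomial.map_add, Polynomial.map_mul, Polynomial.map_mul, Polynomial.map_C,
        h69_sub2_map, h69_sub2_map, hξ0 j, hθ0map j, h69_dX_map,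
        ← Polynomial.derivative_map] at h3
      exact h3
    have hh2' : ∀ j, X ^ m ∣
        C (R.res (δξ j)) *
            h15_sub2 (h15_dX (H0.map (Polynomial.mapRingHom R.res))) (ξb j) (θb j) +
          (δθ j).map R.res *
            h15_sub2 (derivative (H0.map (Polynomial.mapRingHom R.res))) (ξb j) (θb j) +
          ∑ l, C (R.res (δc l)) *
            h15_sub2 ((H l).map (Polynomial.mapRingHom R.res)) (ξb j) (θb j) := by
      intro j
      have h3 := (h2_asm_coeff_mem_iff R _ m).mp (hh2 j)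
      rw [Polynomial.map_add, Polynomial.map_add, Polynomial.map_mul, Polynomial.map_mul,
        Polynomial.map_C, h69_sub2_map, h69_sub2_map, hξ0 j, hθ0map j, h69_dX_map,
        ← Polynomial.derivative_map, Polynomial.map_sum] at h3
      simp only [Polynomial.map_mul, Polynomial.map_C, h69_sub2_map, hξ0 j, hθ0map j] at h3
      exact h3
    obtain ⟨t1, t2, t3⟩ := h15_tangent hxk xb yb Φb hΦb (h75_genus k xb) m M hm T hTinj ξb θb
      hord hθb (fun j => by rw [hθb0 j]; exact hsmb j) db hdξ (Gp - E)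
      (fun j => by rw [Finsupp.sub_apply, hGpT j, hET j, sub_zero]) hl f0b hf0b0 hdivf0 eb
      hebV hli (H0.map (Polynomial.mapRingHom R.res))
      (fun l => (H l).map (Polynomial.mapRingHom R.res)) hH0b hHb
      (fun j => R.res (δξ j)) (fun j => (δθ j).map R.res) (fun l => R.res (δc l))
      (fun j => lt_of_le_of_lt (Polynomial.degree_map_le) (hδθ j)) hh1' hh2'
    refine ⟨fun j => ?_, fun j i => ?_, fun l => ?_⟩
    · rw [← h2_asm_res_eq_zero_iff]
      exact congrFun t1 j
    · rw [← h2_asm_res_eq_zero_iff, ← Polynomial.coeff_map]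
      have h4 := congrFun t2 j
      simp only [Pi.zero_apply] at h4
      rw [h4, Polynomial.coeff_zero]
    · rw [← h2_asm_res_eq_zero_iff]
      exact congrFun t3 l
  -- the hypotheses of the core
  have hG'deg : (h75_genus K x : ℤ) ≤ Divisor.degree (GpK - EK) := by
    rw [hdegK, hgen]
  have hG'lin : Finsupp.mapDomain S.r0 (GpK - EK) - ∑ j, Finsupp.single (T j) (1 : ℤ) ∈
      Divisor.principal (K := k) (F := Fb) := by
    rw [hmap]
    have h3 := neg_mem hprinc'
    rwa [neg_sub] at h3
  have hG'T : ∀ (P : Place K F) (j : Fin (h75_genus k xb)), S.r0 P = T j →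
      (GpK - EK) P ≤ 0 := by
    intro P j hP
    have hxP : x ∈ P.toValuationSubring := by
      have hmem : R.redF x ∈ (S.r0 P).toValuationSubring := by
        rw [hP]
        exact hTmem j
      obtain ⟨a, -, hval⟩ := h64_inDisc_of_r0_mem R S hxK hxk.ne_zero hS2 P hmem
      exact h39_val_mem P hval
    have h3 : GpK P = 0 := by
      by_contra h3
      exact hGpKsupp P h3 hxP
    rw [Finsupp.sub_apply, h3, zero_sub]
    exact neg_nonpos.mpr (hEK0 P)
  have hli' : LinearIndependent k
      (Fin.cons (R.redF f0) (fun l => R.redF (e l)) : Fin (M + 1) → Fb) := by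
    rw [hf0red]
    exact hlik
  have hspan : ∀ f ∈ riemannRochSpace (m • (GpK - EK)),
      f ∈ Submodule.span K (Set.range (Fin.cons f0 e : Fin (M + 1) → F)) := by
    intro f hf
    rw [← hspanV]
    exact hf
  have hf0div : ∀ Q : Place k Fb, Q.ord (R.redF f0) =
      m * ((∑ j, Finsupp.single (T j) (1 : ℤ)) Q - Finsupp.mapDomain S.r0 (GpK - EK) Q) := by
    intro Q
    rw [hf0red, hmap]
    exact hdivf0 Q
  have hξ0' : ∀ j, h39_Val (T j) (R.redF x) (R.res (ξ0 j)) := fun j => by
    rw [hξ0 j]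
    exact hξb j
  have hη0' : ∀ j, h39_Val (T j) (R.redF y) (R.res ((θ0 j).eval 0)) := fun j => by
    rw [← Polynomial.eval_zero_map, hθ0map j, hθb0 j]
    exact hηb j
  have hd0' : ∀ j, (d.map R.res).eval (R.res (ξ0 j)) ≠ 0 := fun j => by
    rw [hξ0 j]
    exact hdξ j
  exact h24_lift_inj_core R hx S hS1 hS2 y hyO hyreg Φ d hΦ hden
    (fun Q b c hb hc hd => (hgood Q b c hb hc hd).2.1) (h75_genus k xb) m M hm0 hM T hTinj hl
    (GpK - EK) hG'deg hG'lin hG'T f0 e hf0O heO hli' hspan hf0div H0 H hH0 hH ξ0 θ0 hθ0deg'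
    hξ0' hη0' hd0' h1 hTan D hdeg hD h0

/-- **(B5) LIFT-INJ (any rank).** An `m`-torsion class whose reduction is trivial is trivial
(`m` invertible in `k`): uniqueness of the solution of the Hensel system.  This replaces
`h60_hpow_of_GT` (rank one) in the ANY-RANK architecture. -/
theorem h15_lift_inj [IsAlgClosed K] [CharZero K] [IsAlgClosed k] (R : h39_RedDatum K F k Fb)
    {x : F} (hx : h39_Chart R x) (S : h39_PlaceRed R)
    (hS : (∃ r : Place K F → Place k Fb, h39_IsChartRed R x r ∧
        ∀ P : Place K F, h39_InDisc R x P → S.r0 P = r P) ∧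
      (∃ r' : Place K F → Place k Fb, h39_IsChartRed R x⁻¹ r' ∧
        ∀ P : Place K F, ¬ h39_InDisc R x P → S.r0 P = r' P))
    (m : ℕ) (hm : (m : k) ≠ 0) (D : Divisor K F) (hdeg : Divisor.degree D = 0)
    (hD : m • D ∈ Divisor.principal (K := K) (F := F))
    (h0 : Finsupp.mapDomain S.r0 D ∈ Divisor.principal (K := k) (F := Fb)) :
    D ∈ Divisor.principal (K := K) (F := F) := by
  have hm0 : m ≠ 0 := by
    rintro rfl
    exact hm (by simp)
  rcases Nat.lt_or_ge m 2 with hm2 | hm2
  · have hm1 : m = 1 := by omega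
    subst hm1
    rwa [one_smul] at hD
  · obtain ⟨y, Φ, d, hyO, hyreg, hybreg, hΦ, hd0, hden, -, hgood⟩ := h81_coord R hx
    exact h24_lift_inj_of_coord R hx S hS.1 hS.2 m hm2 hm y Φ d hyO hyreg hybreg hΦ hd0 hden
      hgood D hdeg hD h0

end Fermat.Agent.S27

end
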