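/-
S27 no-regret row SEMILIN (helper57): Lang's semilinear descent.

A finite-dimensional vector space `V` over an algebraically closed field `k` with an injective
additive map `φ` which is semilinear for `c ↦ c ^ q` (`q > 1`) has a basis of `φ`-fixed vectors.
Consequences: the fixed vectors are exactly the vectors with coordinates in `F_q`, there are
`q ^ dim V` of them, every `φ`-stable line contains a nonzero fixed vector, and two fixed vectors
on one line differ by an element of `F_q`.
-/
import Mathlib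

set_option autoImplicit false

namespace Fermat.Agent.S27

open Polynomial

section Core

variable {k : Type*} [Field k]

/-- The additive polynomials of the fixed-point equation on a cyclic subspace. -/
noncomputable def h57_X (q : ℕ) (c : ℕ → k) : ℕ → k[X]
  | 0 => C (c 0) * X ^ q
  | (i + 1) => (h57_X q c i) ^ q + C (c (i + 1)) * X ^ q

theorem h57_X_zero (q : ℕ) (c : ℕ → k) : h57_X q c 0 = C (c 0) * X ^ q := rfl

theorem h57_X_succ (q : ℕ) (c : ℕ → k) (i : ℕ) :
    h57_X q c (i + 1) = (h57_X q c i) ^ q + C (c (i + 1)) * X ^ q := rfl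

theorem h57_X_dvd {q : ℕ} (hq : 1 < q) (c : ℕ → k) (i : ℕ) : (X : k[X]) ^ q ∣ h57_X q c i := by
  induction i with
  | zero => exact Dvd.intro_left _ rfl
  | succ i ih =>
    rw [h57_X_succ]
    refine dvd_add ?_ (Dvd.intro_left _ rfl)
    have h1 : (X : k[X]) ∣ h57_X q c i := dvd_trans (dvd_pow_self X (by omega)) ih
    exact pow_dvd_pow_of_dvd h1 q

theorem h57_X_ne_zero {q : ℕ} (hq : 1 < q) (c : ℕ → k) (i : ℕ) (h : ∃ j, j ≤ i ∧ c j ≠ 0) :
    h57_X q c i ≠ 0 := by
  induction i with
  | zero =>
    obtain ⟨j, hj, hcj⟩ := h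
    have hj0 : j = 0 := by omega
    subst hj0
    rw [h57_X_zero]
    exact mul_ne_zero (C_ne_zero.mpr hcj) (pow_ne_zero _ X_ne_zero)
  | succ i ih =>
    by_cases hX : h57_X q c i = 0
    · -- then the new coefficient is nonzero
      have hc : c (i + 1) ≠ 0 := by
        obtain ⟨j, hj, hcj⟩ := h
        by_cases hji : j ≤ i
        · exact absurd hX (ih ⟨j, hji, hcj⟩)
        · have : j = i + 1 := by omega
          subst this; exact hcj
      rw [h57_X_succ, hX, zero_pow (by omega), zero_add]
      exact mul_ne_zero (C_ne_zero.mpr hc) (pow_ne_zero _ X_ne_zero)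
    · -- degree argument
      intro h0
      rw [h57_X_succ] at h0
      have h1 : (h57_X q c i) ^ q = -(C (c (i + 1)) * X ^ q) := eq_neg_of_add_eq_zero_left h0
      have h2 : ((h57_X q c i) ^ q).natDegree = q * (h57_X q c i).natDegree := by
        rw [natDegree_pow]
      have h3 : q ≤ (h57_X q c i).natDegree := by
        have := natDegree_le_of_dvd (h57_X_dvd hq c i) hX
        rwa [natDegree_X_pow] at this
      have h4 : (-(C (c (i + 1)) * X ^ q) : k[X]).natDegree ≤ q := by
        rw [natDegree_neg]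
        exact (natDegree_C_mul_le _ _).trans (by rw [natDegree_X_pow])
      rw [h1] at h2
      have h5 : q * q ≤ q * (h57_X q c i).natDegree := Nat.mul_le_mul_left q h3
      have h6 : q < q * q := by nlinarith
      omega

theorem h57_exists_root [IsAlgClosed k] {q : ℕ} (hq : 1 < q) (c : ℕ → k) (i : ℕ)
    (h : ∃ j, j ≤ i ∧ c j ≠ 0) : ∃ y : k, y ≠ 0 ∧ (h57_X q c i).eval y = y := by
  obtain ⟨G, hG⟩ := h57_X_dvd hq c i
  have hG0 : G ≠ 0 := by
    rintro rfl
    exact h57_X_ne_zero hq c i h (by rw [hG, mul_zero])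
  set R : k[X] := X ^ (q - 1) * G - C 1 with hR
  have hnd : R.natDegree = (q - 1) + G.natDegree := by
    rw [hR, natDegree_sub_C, natDegree_mul (pow_ne_zero _ X_ne_zero) hG0, natDegree_X_pow]
  have hdeg : R.degree ≠ 0 := by
    intro h0
    have h1 : R.natDegree = 0 := natDegree_eq_zero_iff_degree_le_zero.mpr h0.le
    omega
  obtain ⟨y, hy⟩ := IsAlgClosed.exists_root R hdeg
  have hy' : y ^ (q - 1) * G.eval y = 1 := by
    have : R.eval y = y ^ (q - 1) * G.eval y - 1 := by
      rw [hR]; simp
    rw [IsRoot.def, this, sub_eq_zero] at hy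
    exact hy
  have hy0 : y ≠ 0 := by
    rintro rfl
    rw [zero_pow (by omega), zero_mul] at hy'
    exact zero_ne_one hy'
  refine ⟨y, hy0, ?_⟩
  rw [hG, eval_mul, eval_pow, eval_X]
  have hq' : q = (q - 1) + 1 := by omega
  calc y ^ q * G.eval y = y * (y ^ (q - 1) * G.eval y) := by
        conv_lhs => rw [hq', pow_succ]
        ring
    _ = y := by rw [hy', mul_one]

variable [IsAlgClosed k] {q : ℕ} (hq : 1 < q) (σ : k →+* k) (hσ : ∀ c : k, σ c = c ^ q)

include hq hσ in
/-- **Step 1**: a nonzero fixed vector exists. -/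
theorem h57_exists_fixed {V : Type*} [AddCommGroup V] [Module k V] [FiniteDimensional k V]
    [Nontrivial V] (φ : V →ₛₗ[σ] V) (hinj : Function.Injective φ) :
    ∃ w : V, w ≠ 0 ∧ φ w = w := by
  obtain ⟨v, hv⟩ := exists_ne (0 : V)
  set f : ℕ → V := fun i => φ^[i] v with hf
  have hfs : ∀ i, φ (f i) = f (i + 1) := fun i => by
    simp only [hf]; rw [Function.iterate_succ_apply']
  have hdep : ∃ n, ¬ LinearIndependent k (fun i : Fin n => f i) := by
    by_contra hcon
    have hcon' : ∀ n, LinearIndependent k (fun i : Fin n => f i) := fun n => by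
      by_contra h
      exact hcon ⟨n, h⟩
    have := (hcon' (Module.finrank k V + 1)).fintype_card_le_finrank
    simp at this
  classical
  have hspec := Nat.find_spec hdep
  set n := Nat.find hdep with hn
  have hn0 : n ≠ 0 := by
    intro h0
    apply hspec
    rw [h0]
    exact linearIndependent_empty_type
  obtain ⟨r, hr⟩ := Nat.exists_eq_succ_of_ne_zero hn0
  have hLI : LinearIndependent k (fun i : Fin r => f i) := by
    have := Nat.find_min hdep (m := r) (by omega)
    exact not_not.mp this
  have hmem : f r ∈ Submodule.span k (Set.range (fun i : Fin r => f i)) := by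
    by_contra hnot
    apply hspec
    rw [hr]
    have hsnoc : (fun i : Fin (r + 1) => f i) = Fin.snoc (fun i : Fin r => f i) (f r) := by
      funext i
      refine Fin.lastCases ?_ (fun j => ?_) i
      · simp
      · simp
    rw [hsnoc]
    exact linearIndependent_finSnoc.mpr ⟨hLI, hnot⟩
  obtain ⟨c, hc⟩ := (Submodule.mem_span_range_iff_exists_fun k).mp hmem
  have hr0 : r ≠ 0 := by
    rintro rfl
    apply hv
    have : f 0 = 0 := by rw [← hc]; simp
    simpa [hf] using this
  obtain ⟨r', hr'⟩ := Nat.exists_eq_succ_of_ne_zero hr0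
  set c' : ℕ → k := fun i => if h : i < r then c ⟨i, h⟩ else 0 with hc'
  have hsum : ∑ i ∈ Finset.range r, c' i • f i = f r := by
    rw [← hc, ← Fin.sum_univ_eq_sum_range (fun i => c' i • f i) r]
    refine Finset.sum_congr rfl (fun i _ => ?_)
    simp only [hc']
    rw [dif_pos i.2]
  have hex : ∃ j, j ≤ r' ∧ c' j ≠ 0 := by
    by_contra hcon
    have hcon' : ∀ j, j ≤ r' → c' j = 0 := fun j hj => by
      by_contra h
      exact hcon ⟨j, hj, h⟩
    have h0 : f r = 0 := by
      rw [← hsum]
      refine Finset.sum_eq_zero (fun i hi => ?_)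
      have : i ≤ r' := by
        have := Finset.mem_range.mp hi
        omega
      rw [hcon' i this, zero_smul]
    apply hv
    have h1 : φ^[r] v = φ^[r] 0 := by
      rw [Function.iterate_fixed (map_zero φ) r]; exact h0
    exact hinj.iterate r h1
  obtain ⟨y, hy0, hy⟩ := h57_exists_root hq c' r' hex
  set x : ℕ → k := fun i => (h57_X q c' i).eval y with hx
  have hx0 : x 0 = c' 0 * y ^ q := by
    simp [hx, h57_X_zero]
  have hxs : ∀ i, x (i + 1) = (x i) ^ q + c' (i + 1) * y ^ q := by
    intro i
    simp [hx, h57_X_succ]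
  have hxr : x r' = y := hy
  refine ⟨∑ i ∈ Finset.range r, x i • f i, ?_, ?_⟩
  · intro h0
    rw [← Fin.sum_univ_eq_sum_range (fun i => x i • f i) r] at h0
    have := Fintype.linearIndependent_iff.mp hLI (fun i => x i) h0 ⟨r', by omega⟩
    exact hy0 (by rw [← hxr]; exact this)
  · rw [map_sum]
    have e1 : ∀ i ∈ Finset.range r, φ (x i • f i) = (x i) ^ q • f (i + 1) := by
      intro i _
      rw [LinearMap.map_smulₛₗ, hσ, hfs]
    rw [Finset.sum_congr rfl e1]
    subst hr'
    rw [Finset.sum_range_succ, Finset.sum_range_succ' (fun i => x i • f i)]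
    have e2 : f (r' + 1) = ∑ i ∈ Finset.range r', c' (i + 1) • f (i + 1) + c' 0 • f 0 := by
      rw [← hsum, Finset.sum_range_succ' (fun i => c' i • f i)]
    rw [e2, hxr, smul_add, Finset.smul_sum, ← add_assoc, ← Finset.sum_add_distrib, hx0]
    congr 1
    · refine Finset.sum_congr rfl (fun i _ => ?_)
      rw [hxs, add_smul, smul_smul, mul_comm]
    · rw [smul_smul, mul_comm]

include hq hσ in
/-- Artin–Schreier correction inside the span of the fixed vectors. -/
theorem h57_AS {V : Type*} [AddCommGroup V] [Module k V] (φ : V →ₛₗ[σ] V) (t : V)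
    (ht : t ∈ Submodule.span k {v : V | φ v = v}) :
    ∃ z ∈ Submodule.span k {v : V | φ v = v}, φ z - z = t := by
  obtain ⟨n, c, g, rfl⟩ := Submodule.mem_span_set'.mp ht
  have hb : ∀ i, ∃ b : k, b ^ q - b = c i := by
    intro i
    have hdeg : (X ^ q - (X + C (c i)) : k[X]).degree ≠ 0 := by
      rw [degree_sub_eq_left_of_degree_lt]
      · rw [degree_X_pow]
        exact_mod_cast (by omega : q ≠ 0)
      · rw [degree_X_add_C, degree_X_pow]
        exact_mod_cast hq
    obtain ⟨b, hb⟩ := IsAlgClosed.exists_root _ hdeg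
    refine ⟨b, ?_⟩
    have : b ^ q - (b + c i) = 0 := by simpa using hb
    linear_combination this
  choose b hb using hb
  refine ⟨∑ i, b i • (g i : V),
    Submodule.sum_mem _ (fun i _ => Submodule.smul_mem _ _ (Submodule.subset_span (g i).2)), ?_⟩
  rw [map_sum, ← Finset.sum_sub_distrib]
  refine Finset.sum_congr rfl (fun i _ => ?_)
  have hgi : φ (g i : V) = (g i : V) := (g i).2
  rw [LinearMap.map_smulₛₗ, hσ, hgi, ← sub_smul, hb]

include hq hσ in
/-- **Step 2**: the fixed vectors span. -/
theorem h57_span_fixed {V : Type*} [AddCommGroup V] [Module k V] [FiniteDimensional k V]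
    (φ : V →ₛₗ[σ] V) (hinj : Function.Injective φ) :
    Submodule.span k {v : V | φ v = v} = ⊤ := by
  have : RingHomSurjective σ := ⟨fun c => by
    obtain ⟨z, hz⟩ := IsAlgClosed.exists_pow_nat_eq c (by omega : 0 < q)
    exact ⟨z, by rw [hσ, hz]⟩⟩
  set U : Submodule k V := Submodule.span k {v : V | φ v = v} with hU
  by_contra hne
  have hlt : U < ⊤ := lt_top_iff_ne_top.mpr hne
  have h1 : U ≤ U.comap φ := Submodule.span_le.mpr (fun s hs => by
    show φ s ∈ U
    rw [show φ s = s from hs]; exact Submodule.subset_span hs)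
  have h2 : U ≤ U.map φ :=
    Submodule.span_le.mpr (fun s hs => ⟨s, Submodule.subset_span hs, hs⟩)
  have h3 : ∀ v, φ v ∈ U → v ∈ U := by
    intro v hv
    obtain ⟨u, hu, huv⟩ := h2 hv
    rw [← hinj huv]; exact hu
  let φb : (V ⧸ U) →ₛₗ[σ] (V ⧸ U) := U.mapQ U φ h1
  have hφb : Function.Injective φb := by
    rw [injective_iff_map_eq_zero]
    intro x hx
    induction x using Submodule.Quotient.induction_on with
    | H v =>
      have hx' : Submodule.Quotient.mk (p := U) (φ v) = 0 := hx
      rw [Submodule.Quotient.mk_eq_zero] at hx'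
      exact (Submodule.Quotient.mk_eq_zero _).mpr (h3 v hx')
  have : Nontrivial (V ⧸ U) := (Submodule.Quotient.nontrivial_iff).mpr hne
  obtain ⟨x, hx0, hx⟩ := h57_exists_fixed hq σ hσ φb hφb
  induction x using Submodule.Quotient.induction_on with
  | H u =>
    have hu : u ∉ U := fun h => hx0 ((Submodule.Quotient.mk_eq_zero _).mpr h)
    have ht : φ u - u ∈ U := by
      have hx' : Submodule.Quotient.mk (p := U) (φ u) = Submodule.Quotient.mk u := hx
      exact (Submodule.Quotient.eq U).mp hx'
    obtain ⟨z, hzU, hz⟩ := h57_AS hq σ hσ φ (φ u - u) ht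
    have hfix : φ (u - z) = u - z := by
      rw [map_sub]
      have : φ u - φ z - (u - z) = (φ u - u) - (φ z - z) := by abel
      exact sub_eq_zero.mp (by rw [this, hz, sub_self])
    have h4 : u - z ∈ U := Submodule.subset_span hfix
    exact hu (by simpa using U.add_mem h4 hzU)

include hq hσ in
/-- **Step 3**: a basis of fixed vectors. -/
theorem h57_semilin_basis_core {V : Type*} [AddCommGroup V] [Module k V] [FiniteDimensional k V]
    (φ : V →ₛₗ[σ] V) (hinj : Function.Injective φ) :
    ∃ b : Module.Basis (Fin (Module.finrank k V)) k V, ∀ i, φ (b i) = b i := by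
  have hspan := h57_span_fixed hq σ hσ φ hinj
  let b₀ := Module.Basis.ofSpan (K := k) (s := {v : V | φ v = v}) hspan.ge
  have hb₀ : ∀ i, φ (b₀ i) = b₀ i := fun i => Module.Basis.ofSpan_subset hspan.ge ⟨i, rfl⟩
  have := FiniteDimensional.fintypeBasisIndex b₀
  let e := Fintype.equivFinOfCardEq (Module.finrank_eq_card_basis b₀).symm
  exact ⟨b₀.reindex e, fun i => by simp [hb₀]⟩

end Core

section Final

variable {k : Type*} [Field k] (p : ℕ) [Fact p.Prime] [CharP k p] (e : ℕ)
  (he : 0 < e) {V : Type*} [AddCommGroup V] [Module k V]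
  (φ : V →+ V) (hφ : ∀ (c : k) (v : V), φ (c • v) = c ^ (p ^ e) • φ v)

/-- `1 < p ^ e`. -/
theorem h57_one_lt_q (p : ℕ) [Fact p.Prime] (e : ℕ) (he : 0 < e) : 1 < p ^ e :=
  Nat.one_lt_pow he.ne' (Fact.out : p.Prime).one_lt

/-- The `p ^ e`-power ring endomorphism. -/
noncomputable def h57_sigma (k : Type*) [Field k] (p : ℕ) [Fact p.Prime] [CharP k p] (e : ℕ) :
    k →+* k :=
  letI : ExpChar k p := ExpChar.prime Fact.out
  iterateFrobenius k p e

theorem h57_sigma_apply (c : k) : h57_sigma k p e c = c ^ (p ^ e) := by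
  unfold h57_sigma
  exact iterateFrobenius_def _ _ _

/-- The additive map `φ` as a semilinear map. -/
noncomputable def h57_toSemilin : V →ₛₗ[h57_sigma k p e] V where
  toFun := φ
  map_add' := map_add φ
  map_smul' := fun c v => by rw [hφ, h57_sigma_apply]

theorem h57_toSemilin_apply (v : V) : h57_toSemilin p e φ hφ v = φ v := rfl

variable [IsAlgClosed k]

include he hφ in
/-- **Lang's semilinear descent**: a basis of `φ`-fixed vectors. -/
theorem h57_semilin_basis [FiniteDimensional k V] (hinj : Function.Injective φ) :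
    ∃ b : Module.Basis (Fin (Module.finrank k V)) k V, ∀ i, φ (b i) = b i :=
  h57_semilin_basis_core (h57_one_lt_q p e he) (h57_sigma k p e) (h57_sigma_apply p e)
    (h57_toSemilin p e φ hφ) hinj

omit [IsAlgClosed k] [Fact p.Prime] [CharP k p] in
include hφ in
/-- Coordinates of `φ v` in a basis of fixed vectors. -/
theorem h57_semilin_repr {ι : Type*} [Fintype ι] (b : Module.Basis ι k V)
    (hb : ∀ i, φ (b i) = b i) (v : V) (i : ι) :
    b.repr (φ v) i = (b.repr v i) ^ (p ^ e) := by
  have h1 : φ v = ∑ j, (b.repr v j) ^ (p ^ e) • b j := by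
    conv_lhs => rw [← b.sum_repr v]
    rw [map_sum]
    refine Finset.sum_congr rfl (fun j _ => ?_)
    rw [hφ, hb]
  rw [h1, b.repr_sum_self]

omit [IsAlgClosed k] [Fact p.Prime] [CharP k p] in
include hφ in
/-- The fixed vectors are the vectors with coordinates in `F_q`. -/
theorem h57_semilin_fixed_iff {ι : Type*} [Fintype ι] (b : Module.Basis ι k V)
    (hb : ∀ i, φ (b i) = b i) (v : V) :
    φ v = v ↔ ∀ i, (b.repr v i) ^ (p ^ e) = b.repr v i := by
  constructor
  · intro h i
    rw [← h57_semilin_repr p e φ hφ b hb v i, h]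
  · intro h
    apply b.repr.injective
    ext i
    rw [h57_semilin_repr p e φ hφ b hb v i, h]

include he in
/-- `F_q = {c | c ^ q = c}` has `q` elements. -/
theorem h57_card_Fq : Nat.card {c : k // c ^ (p ^ e) = c} = p ^ e := by
  classical
  have hq := h57_one_lt_q p e he
  have hne : (X ^ (p ^ e) - X : k[X]) ≠ 0 := FiniteField.X_pow_card_sub_X_ne_zero k hq
  have hsep : (X ^ (p ^ e) - X : k[X]).Separable :=
    galois_poly_separable p (p ^ e) (dvd_pow_self p he.ne')
  have hcard := card_rootSet_eq_natDegree (K := k) hsep (IsAlgClosed.splits _)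
  rw [FiniteField.X_pow_card_sub_X_natDegree_eq k hq, ← Nat.card_eq_fintype_card] at hcard
  have hcongr : Nat.card {c : k // c ^ (p ^ e) = c}
      = Nat.card ((X ^ (p ^ e) - X : k[X]).rootSet k) := by
    refine Nat.card_congr (Equiv.subtypeEquivRight (fun c => ?_))
    rw [mem_rootSet]
    simp [hne, sub_eq_zero]
  rw [hcongr, hcard]

include he hφ in
/-- The number of fixed vectors is `q ^ dim V`. -/
theorem h57_semilin_card [FiniteDimensional k V] (hinj : Function.Injective φ) :
    Nat.card {v : V // φ v = v} = (p ^ e) ^ Module.finrank k V := by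
  obtain ⟨b, hb⟩ := h57_semilin_basis p e he φ hφ hinj
  have hiff := h57_semilin_fixed_iff p e φ hφ b hb
  let E : {v : V // φ v = v} ≃ (Fin (Module.finrank k V) → {c : k // c ^ (p ^ e) = c}) :=
    { toFun := fun v i => ⟨b.repr v.1 i, (hiff v.1).mp v.2 i⟩
      invFun := fun c => ⟨∑ i, (c i : k) • b i, (hiff _).mpr (fun i => by
        rw [b.repr_sum_self]; exact (c i).2)⟩
      left_inv := fun v => by
        apply Subtype.ext
        exact b.sum_repr v.1
      right_inv := fun c => by
        funext i
        apply Subtype.ext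
        show b.repr (∑ j, (c j : k) • b j) i = (c i : k)
        rw [b.repr_sum_self] }
  rw [Nat.card_congr E, Nat.card_fun, h57_card_Fq p e he, Nat.card_fin]

omit [CharP k p] in
include he hφ in
/-- Every `φ`-stable line contains a nonzero fixed vector. -/
theorem h57_semilin_line (hinj : Function.Injective φ) (v : V) (hv : v ≠ 0) (a : k)
    (hφv : φ v = a • v) : ∃ c : k, c ≠ 0 ∧ φ (c • v) = c • v := by
  have hq := h57_one_lt_q p e he
  have ha : a ≠ 0 := by
    rintro rfl
    rw [zero_smul] at hφv
    exact hv (hinj (hφv.trans (map_zero φ).symm))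
  obtain ⟨c, hc⟩ := IsAlgClosed.exists_pow_nat_eq a⁻¹ (by omega : 0 < p ^ e - 1)
  have hc0 : c ≠ 0 := by
    rintro rfl
    rw [zero_pow (by omega)] at hc
    exact inv_ne_zero ha hc.symm
  refine ⟨c, hc0, ?_⟩
  rw [hφ, hφv, smul_smul]
  congr 1
  have hq' : p ^ e = (p ^ e - 1) + 1 := by omega
  calc c ^ (p ^ e) * a = c * (c ^ (p ^ e - 1) * a) := by
        conv_lhs => rw [hq', pow_succ]
        ring
    _ = c := by rw [hc, inv_mul_cancel₀ ha, mul_one]

omit [IsAlgClosed k] [Fact p.Prime] [CharP k p] in
include hφ in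
/-- Two fixed vectors on one line differ by an element of `F_q`. -/
theorem h57_semilin_line_unique (v w : V) (hv : φ v = v) (hw : φ w = w) (hv0 : v ≠ 0) (c : k)
    (h : w = c • v) : c ^ (p ^ e) = c := by
  have h1 : c ^ (p ^ e) • v = c • v := by
    rw [← hv, ← hφ, ← h, hw, h, hv]
  have h2 : (c ^ (p ^ e) - c) • v = 0 := by rw [sub_smul, h1, sub_self]
  rcases smul_eq_zero.mp h2 with h3 | h3
  · exact sub_eq_zero.mp h3
  · exact absurd h3 hv0

end Final

end Fermat.Agent.S27
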