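import Fermat.Agent.S27.RRFull

/-!
# S27 / RR-CONS: geometric consequences of Riemann–Roch (any characteristic)

`K` algebraically closed, `x` a chart of `F / K`, `g = h75_genus K x`.

* `h68_infinite_places`, `h68_isChart_shift`, `h68_exists_chart_of_finset` (every finite set of
  places lies in one affine chart), `h68_exists_ord` (prescribed orders on a finite set),
  `h68_moving` (moving lemma);
* `h68_div_eq` (same divisor ⇒ proportional), `h68_rr_mono`, `h68_ord_eq_of_mem`,
  `h68_rr_deg_zero` (degree `0`), `h68_rr_edge` (degree `2g - 2`), `h68_rr_point`,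
  `h68_rr_sub_point`, `h68_exists_effective`, `h68_exists_pole_exact`;
* `h68_exists_nonspecial` (`g` distinct points in general position), `h68_rr_eq_span_one`.
-/

set_option autoImplicit false

open AlgebraicCurve IntermediateField

namespace Fermat.Agent.S27

open Fermat.Agent.S18
open Fermat.Agent.S24 (h35_value_unique h35_mem_iff_ord_nonneg h35_ord_div h35_ord_algebraMap
  h24_adjoin_inv_eq h35_transcendental_inv)

variable {K F : Type*} [Field K] [Field F] [Algebra K F]

section Charts

theorem h68_adjoin_shift (x : F) (a : K) : K⟮(x - algebraMap K F a)⁻¹⟯ = K⟮x⟯ := by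
  rw [h24_adjoin_inv_eq]
  apply le_antisymm
  · rw [adjoin_simple_le_iff]
    exact K⟮x⟯.sub_mem (mem_adjoin_simple_self K x) (K⟮x⟯.algebraMap_mem a)
  · rw [adjoin_simple_le_iff]
    have := K⟮x - algebraMap K F a⟯.add_mem (mem_adjoin_simple_self K (x - algebraMap K F a))
      (K⟮x - algebraMap K F a⟯.algebraMap_mem a)
    rwa [sub_add_cancel] at this

theorem h68_shift_ne_zero {x : F} (hx : h75_IsChart K x) (a : K) : x - algebraMap K F a ≠ 0 := by
  intro h
  apply hx.tr
  rw [sub_eq_zero.mp h]
  exact isAlgebraic_algebraMap a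

/-- the chart `t = 1 / (x - a)` (the places with `x ≠ a`). -/
theorem h68_isChart_shift {x : F} (hx : h75_IsChart K x) (a : K) :
    h75_IsChart K (x - algebraMap K F a)⁻¹ := by
  have hK : K⟮(x - algebraMap K F a)⁻¹⟯ = K⟮x⟯ := h68_adjoin_shift x a
  refine ⟨h35_transcendental_inv ?_, ?_, ?_⟩
  · intro h
    apply hx.tr
    have := h.add (isAlgebraic_algebraMap (R := K) (A := F) a)
    rwa [sub_add_cancel] at this
  · rw [hK]
    exact hx.fin
  · rw [hK]
    exact hx.sep

variable [IsAlgClosed K]

/-- every point of the line has a place above it. -/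
theorem h68_exists_place_value {x : F} (hx : h75_IsChart K x) (a : K) :
    ∃ P : Place K F, 0 < P.ord (x - algebraMap K F a) := by
  classical
  obtain ⟨s, hs, hsum⟩ := h75_fibre_main hx a
  have hpos : 0 < Module.finrank K⟮x⟯ F := by
    have := hx.fin
    exact Module.finrank_pos
  have hne : s.Nonempty := by
    by_contra h
    rw [Finset.not_nonempty_iff_eq_empty] at h
    rw [h, Finset.sum_empty] at hsum
    omega
  obtain ⟨P, hP⟩ := hne
  exact ⟨P, (hs P).mp hP⟩

/-- there are infinitely many places. -/
theorem h68_infinite_places {x : F} (hx : h75_IsChart K x) : Infinite (Place K F) := by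
  choose P hP using h68_exists_place_value hx
  exact Infinite.of_injective P (fun a b hab => h35_value_unique (P a) (hP a) (hab ▸ hP b))

/-- every finite set of places lies in one affine chart. -/
theorem h68_exists_chart_of_finset {x : F} (hx : h75_IsChart K x) (S : Finset (Place K F)) :
    ∃ t : F, h75_IsChart K t ∧ ∀ P ∈ S, t ∈ P.toValuationSubring := by
  classical
  have hfin : {a : K | ∃ P ∈ S, 0 < P.ord (x - algebraMap K F a)}.Finite := by
    have h1 : {a : K | ∃ P ∈ S, 0 < P.ord (x - algebraMap K F a)} =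
        ⋃ P ∈ S, {a : K | 0 < P.ord (x - algebraMap K F a)} := by
      ext a
      simp
    rw [h1]
    refine Set.Finite.biUnion S.finite_toSet (fun P _ => ?_)
    exact Set.Subsingleton.finite (fun a ha b hb => h35_value_unique P ha hb)
  obtain ⟨a, ha⟩ := hfin.infinite_compl.nonempty
  refine ⟨(x - algebraMap K F a)⁻¹, h68_isChart_shift hx a, fun P hP => ?_⟩
  have hne := h68_shift_ne_zero hx a
  rw [h35_mem_iff_ord_nonneg P (inv_ne_zero hne), P.ord_inv]
  have : ¬ 0 < P.ord (x - algebraMap K F a) := fun h => ha ⟨P, hP, h⟩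
  omega

/-- approximation: prescribed orders on an arbitrary finite set of places. -/
theorem h68_exists_ord {x : F} (hx : h75_IsChart K x) (S : Finset (Place K F))
    (n : Place K F → ℤ) : ∃ f : F, f ≠ 0 ∧ ∀ P ∈ S, P.ord f = n P := by
  obtain ⟨t, ht, hS⟩ := h68_exists_chart_of_finset hx S
  obtain ⟨f, hf0, hfS, -⟩ := h75_exists_exact ht S hS n
  exact ⟨f, hf0, hfS⟩

/-- **moving lemma**: `D + div f` avoids a given finite set. -/
theorem h68_moving {x : F} (hx : h75_IsChart K x) (D : Divisor K F) (S : Finset (Place K F)) :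
    ∃ f : F, f ≠ 0 ∧ ∀ P ∈ S, D P + P.ord f = 0 := by
  obtain ⟨f, hf0, hf⟩ := h68_exists_ord hx S (fun P => -D P)
  exact ⟨f, hf0, fun P hP => by rw [hf P hP]; ring⟩

end Charts

section Cons

variable [IsAlgClosed K]

/-- two functions with the same divisor are proportional. -/
theorem h68_div_eq {x : F} (hx : h75_IsChart K x) {f g : F} (hf : f ≠ 0) (hg : g ≠ 0)
    (h : ∀ P : Place K F, P.ord f = P.ord g) :
    ∃ c : K, c ≠ 0 ∧ f = algebraMap K F c * g := by
  have hmem : f / g ∈ riemannRochSpace (0 : Divisor K F) := by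
    rw [mem_riemannRochSpace_iff]
    intro v
    right
    rw [h35_ord_div v hf hg, h v]
    simp
  rw [h7_rr_zero_eq hx, Submodule.mem_span_singleton] at hmem
  obtain ⟨c, hc⟩ := hmem
  refine ⟨c, ?_, ?_⟩
  · rintro rfl
    rw [zero_smul] at hc
    exact div_ne_zero hf hg hc.symm
  · rw [Algebra.smul_def, mul_one] at hc
    rw [hc]
    field_simp

omit [IsAlgClosed K] in
theorem h68_rr_mono {D D' : Divisor K F} (h : D ≤ D') :
    riemannRochSpace D ≤ riemannRochSpace D' := by
  intro f hf
  rw [mem_riemannRochSpace_iff] at hf ⊢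
  intro v
  rcases hf v with h0 | h1
  · exact Or.inl h0
  · right
    have := Finsupp.le_def.mp h v
    omega

/-- a nonzero section of a divisor of degree `0` has divisor exactly `-E`. -/
theorem h68_ord_eq_of_mem {x : F} (hx : h75_IsChart K x) {E : Divisor K F}
    (hE : Divisor.degree E = 0) {f : F} (hf : f ∈ riemannRochSpace E) (hf0 : f ≠ 0)
    (P : Place K F) : P.ord f = -E P := by
  obtain ⟨Df, hDf⟩ := h7_exists_div hx f hf0
  have hdeg := h7_degree_div hx hf0 Df hDf
  have hnn : ∀ v, 0 ≤ (Df + E) v := fun v => by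
    rw [Finsupp.add_apply, hDf]
    rcases (mem_riemannRochSpace_iff.mp hf) v with h | h
    · exact absurd h hf0
    · linarith
  have h0 : (Df + E) P = 0 := by
    by_contra hne
    have := h7_degree_pos hx _ hnn P (lt_of_le_of_ne (hnn P) (Ne.symm hne))
    rw [map_add, hdeg, hE] at this
    omega
  rw [Finsupp.add_apply, hDf] at h0
  omega

/-- degree `0`: `l(E) = 0`, or `l(E) = 1` and `E` is principal. -/
theorem h68_rr_deg_zero {x : F} (hx : h75_IsChart K x) (E : Divisor K F)
    (hE : Divisor.degree E = 0) :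
    Module.finrank K ↥(riemannRochSpace E) = 0 ∨
      (Module.finrank K ↥(riemannRochSpace E) = 1 ∧
        ∃ f : F, f ≠ 0 ∧ ∀ P : Place K F, E P = P.ord f) := by
  have hfin := (h75_riemann hx E).1
  by_cases h0 : Module.finrank K ↥(riemannRochSpace E) = 0
  · exact Or.inl h0
  right
  obtain ⟨g, hg⟩ := Module.finrank_pos_iff_exists_ne_zero.mp (Nat.pos_of_ne_zero h0)
  have hg0 : (g : F) ≠ 0 := fun h => hg (Subtype.ext h)
  refine ⟨?_, (g : F)⁻¹, inv_ne_zero hg0, fun P => ?_⟩
  · rw [finrank_eq_one_iff']
    refine ⟨g, hg, fun w => ?_⟩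
    rcases eq_or_ne (w : F) 0 with hw | hw
    · exact ⟨0, by rw [zero_smul]; exact (Subtype.ext hw).symm⟩
    · obtain ⟨c, -, hc⟩ := h68_div_eq hx hw hg0 (fun P => by
        rw [h68_ord_eq_of_mem hx hE w.2 hw, h68_ord_eq_of_mem hx hE g.2 hg0])
      refine ⟨c, Subtype.ext ?_⟩
      rw [Submodule.coe_smul, Algebra.smul_def, hc]
  · rw [Place.ord_inv, h68_ord_eq_of_mem hx hE g.2 hg0]
    ring

/-- the edge degree `2g - 2`: `l(D) = g - 1` unless `D` is canonical. -/
theorem h68_rr_edge {x : F} (hx : h75_IsChart K x) {W : Divisor K F}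
    (hW : h68_IsCanonical x W) (D : Divisor K F)
    (hD : Divisor.degree D = 2 * (h75_genus K x : ℤ) - 2) :
    (Module.finrank K ↥(riemannRochSpace D) : ℤ) = (h75_genus K x : ℤ) - 1 ∨
      (Module.finrank K ↥(riemannRochSpace D) = h75_genus K x ∧
        ∃ f : F, f ≠ 0 ∧ ∀ P : Place K F, W P - D P = P.ord f) := by
  have h := hW D
  have hdeg : Divisor.degree (W - D) = 0 := by
    rw [map_sub, h68_canonical_degree hx hW, hD, sub_self]
  rcases h68_rr_deg_zero hx (W - D) hdeg with h0 | ⟨h1, f, hf0, hf⟩
  · left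
    rw [h0] at h
    rw [h, hD]
    push_cast
    ring
  · right
    refine ⟨?_, f, hf0, fun P => ?_⟩
    · rw [h1, hD] at h
      have : (Module.finrank K ↥(riemannRochSpace D) : ℤ) = (h75_genus K x : ℤ) := by
        rw [h]
        push_cast
        ring
      exact_mod_cast this
    · rw [← hf P, Finsupp.sub_apply]

/-- adding a point raises `l` by at most one. -/
theorem h68_rr_point {x : F} (hx : h75_IsChart K x) (D : Divisor K F) (P : Place K F) :
    Module.finrank K ↥(riemannRochSpace D) ≤
        Module.finrank K ↥(riemannRochSpace (D + Finsupp.single P 1)) ∧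
      Module.finrank K ↥(riemannRochSpace (D + Finsupp.single P 1)) ≤
        Module.finrank K ↥(riemannRochSpace D) + 1 := by
  obtain ⟨W, hW⟩ := h68_exists_canonical hx
  have hle : D ≤ D + Finsupp.single P 1 := by
    rw [Finsupp.le_def]
    intro v
    rw [Finsupp.add_apply]
    have : (0 : ℤ) ≤ (Finsupp.single P (1 : ℤ)) v := by
      classical
      rw [Finsupp.single_apply]
      split_ifs <;> simp
    omega
  have hfin1 := (h75_riemann hx (D + Finsupp.single P 1)).1
  have hfin2 := (h75_riemann hx (W - D)).1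
  have hm1 := Submodule.finrank_mono (h68_rr_mono hle)
  have hle2 : W - (D + Finsupp.single P 1) ≤ W - D := sub_le_sub_left hle W
  have hm2 := Submodule.finrank_mono (h68_rr_mono hle2)
  refine ⟨hm1, ?_⟩
  have h1 := hW D
  have h2 := hW (D + Finsupp.single P 1)
  rw [map_add, Divisor.degree_single, h75_deg_eq_one hx P] at h2
  push_cast at h2
  have h3 : (Module.finrank K ↥(riemannRochSpace (W - (D + Finsupp.single P 1))) : ℤ) ≤
      (Module.finrank K ↥(riemannRochSpace (W - D)) : ℤ) := by exact_mod_cast hm2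
  have h4 : (Module.finrank K ↥(riemannRochSpace (D + Finsupp.single P 1)) : ℤ) ≤
      (Module.finrank K ↥(riemannRochSpace D) : ℤ) + 1 := by linarith
  exact_mod_cast h4

/-- every divisor of degree `≥ g` is linearly equivalent to an effective divisor. -/
theorem h68_exists_effective {x : F} (hx : h75_IsChart K x) (D : Divisor K F)
    (hD : (h75_genus K x : ℤ) ≤ Divisor.degree D) :
    ∃ f : F, f ≠ 0 ∧ ∀ P : Place K F, 0 ≤ D P + P.ord f := by
  obtain ⟨hfin, hle⟩ := h75_riemann hx D
  have hpos : 0 < Module.finrank K ↥(riemannRochSpace D) := by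
    have : (0 : ℤ) < (Module.finrank K ↥(riemannRochSpace D) : ℤ) := by linarith
    exact_mod_cast this
  obtain ⟨g, hg⟩ := Module.finrank_pos_iff_exists_ne_zero.mp hpos
  have hg0 : (g : F) ≠ 0 := fun h => hg (Subtype.ext h)
  refine ⟨g, hg0, fun P => ?_⟩
  rcases (mem_riemannRochSpace_iff.mp g.2) P with h | h
  · exact absurd h hg0
  · linarith

/-- functions with a pole of exact order `n ≥ 2g` at one point and no other pole. -/
theorem h68_exists_pole_exact {x : F} (hx : h75_IsChart K x) (P₀ : Place K F) (n : ℕ)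
    (hn : 2 * h75_genus K x ≤ n) :
    ∃ f : F, f ≠ 0 ∧ P₀.ord f = -(n : ℤ) ∧ ∀ P : Place K F, P ≠ P₀ → 0 ≤ P.ord f := by
  classical
  have hdeg : ∀ m : ℤ, Divisor.degree (Finsupp.single P₀ m : Divisor K F) = m := by
    intro m
    rw [Divisor.degree_single, h75_deg_eq_one hx P₀]
    simp
  have h1 := h68_finrank_rr_of_deg hx (Finsupp.single P₀ (n : ℤ)) (by rw [hdeg]; omega)
  have h2 := h68_finrank_rr_of_deg hx (Finsupp.single P₀ ((n : ℤ) - 1)) (by rw [hdeg]; omega)
  rw [hdeg] at h1 h2
  have hfin := (h75_riemann hx (Finsupp.single P₀ (n : ℤ))).1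
  have hnot : ¬ riemannRochSpace (Finsupp.single P₀ (n : ℤ) : Divisor K F) ≤
      riemannRochSpace (Finsupp.single P₀ ((n : ℤ) - 1) : Divisor K F) := by
    intro hle
    have hfin' := (h75_riemann hx (Finsupp.single P₀ ((n : ℤ) - 1))).1
    have := Submodule.finrank_mono hle
    omega
  obtain ⟨f, hf, hf'⟩ := SetLike.not_le_iff_exists.mp hnot
  have hf0 : f ≠ 0 := by
    rintro rfl
    exact hf' (zero_mem _)
  rw [mem_riemannRochSpace_iff] at hf hf'
  have hP : ∀ P : Place K F, P ≠ P₀ → 0 ≤ P.ord f := by
    intro P hP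
    rcases hf P with h | h
    · exact absurd h hf0
    · rw [Finsupp.single_apply, if_neg (Ne.symm hP)] at h
      omega
  refine ⟨f, hf0, ?_, hP⟩
  have h3 : -(n : ℤ) ≤ P₀.ord f := by
    rcases hf P₀ with h | h
    · exact absurd h hf0
    · rw [Finsupp.single_apply, if_pos rfl] at h
      exact h
  by_contra hne
  apply hf'
  intro v
  right
  by_cases hv : v = P₀
  · subst hv
    rw [Finsupp.single_apply, if_pos rfl]
    omega
  · rw [Finsupp.single_apply, if_neg (Ne.symm hv)]
    have := hP v hv
    omega

/-- removing a point outside the zeros, poles and the support lowers `l` by exactly one. -/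
theorem h68_rr_sub_point {x : F} (hx : h75_IsChart K x) (E : Divisor K F) {h : F}
    (hh : h ∈ riemannRochSpace E) (hh0 : h ≠ 0) (Q : Place K F) (hQ : Q.ord h = 0)
    (hQE : E Q = 0) :
    Module.finrank K ↥(riemannRochSpace (E - Finsupp.single Q 1)) + 1 =
      Module.finrank K ↥(riemannRochSpace E) := by
  have hfin := (h75_riemann hx E).1
  have h1 := (h68_rr_point hx (E - Finsupp.single Q 1) Q).2
  rw [sub_add_cancel] at h1
  have hle : E - Finsupp.single Q 1 ≤ E := by
    have := (h68_rr_point hx (E - Finsupp.single Q 1) Q)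
    rw [Finsupp.le_def]
    intro v
    rw [Finsupp.sub_apply]
    have : (0 : ℤ) ≤ (Finsupp.single Q (1 : ℤ)) v := by
      classical
      rw [Finsupp.single_apply]
      split_ifs <;> simp
    omega
  have hlt : riemannRochSpace (E - Finsupp.single Q 1) < riemannRochSpace E := by
    refine lt_of_le_of_ne (h68_rr_mono hle) (fun heq => ?_)
    rw [← heq] at hh
    rcases (mem_riemannRochSpace_iff.mp hh) Q with h0 | h0
    · exact hh0 h0
    · rw [Finsupp.sub_apply, Finsupp.single_eq_same, hQE, hQ] at h0
      omega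
  have h2 := Submodule.finrank_lt_finrank_of_lt hlt
  omega

/-- **non-special points**: `g` distinct places in general position, avoiding a finite set
and, pairwise, finitely many places depending on the earlier ones. -/
theorem h68_exists_nonspecial {x : F} (hx : h75_IsChart K x) (S : Finset (Place K F))
    (R : Place K F → Place K F → Prop) (hR : ∀ P : Place K F, {Q : Place K F | ¬ R P Q}.Finite) :
    ∃ T : Fin (h75_genus K x) → Place K F, Function.Injective T ∧ (∀ j, T j ∉ S) ∧
      (∀ i j, i < j → R (T i) (T j)) ∧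
      Module.finrank K ↥(riemannRochSpace (∑ j, Finsupp.single (T j) (1 : ℤ))) = 1 := by
  classical
  obtain ⟨W, hW⟩ := h68_exists_canonical hx
  have hinf := h68_infinite_places hx
  have key : ∀ j : ℕ, j ≤ h75_genus K x → ∃ T : Fin j → Place K F, Function.Injective T ∧
      (∀ i, T i ∉ S) ∧ (∀ i i', i < i' → R (T i) (T i')) ∧
      Module.finrank K ↥(riemannRochSpace (W - ∑ i, Finsupp.single (T i) (1 : ℤ))) + j =
        h75_genus K x := by
    intro j
    induction j with
    | zero =>
      intro _
      refine ⟨Fin.elim0, fun i => i.elim0, fun i => i.elim0, fun i => i.elim0, ?_⟩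
      rw [Finset.univ_eq_empty, Finset.sum_empty, sub_zero, add_zero]
      exact h68_canonical_finrank hx hW
    | succ j ih =>
      intro hj
      obtain ⟨T, hTinj, hTS, hTR, hTf⟩ := ih (by omega)
      have hfin := (h75_riemann hx (W - ∑ i, Finsupp.single (T i) (1 : ℤ))).1
      have hpos : 0 < Module.finrank K
          ↥(riemannRochSpace (W - ∑ i, Finsupp.single (T i) (1 : ℤ))) := by omega
      obtain ⟨h, hh⟩ := Module.finrank_pos_iff_exists_ne_zero.mp hpos
      have hh0 : (h : F) ≠ 0 := fun h' => hh (Subtype.ext h')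
      -- the finite set to avoid
      have hbad : (↑S ∪ Set.range T ∪ (⋃ i, {Q : Place K F | ¬ R (T i) Q}) ∪
          {Q : Place K F | Q.ord (h : F) ≠ 0} ∪
          ↑(W - ∑ i, Finsupp.single (T i) (1 : ℤ)).support : Set (Place K F)).Finite := by
        refine Set.Finite.union (Set.Finite.union (Set.Finite.union (Set.Finite.union
          S.finite_toSet (Set.finite_range T)) (Set.finite_iUnion fun i => hR (T i)))
          (h75_finite_ord_ne hx (h : F) hh0)) (Finset.finite_toSet _)
      obtain ⟨Q, hQ⟩ := hbad.infinite_compl.nonempty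
      rw [Set.mem_compl_iff] at hQ
      simp only [Set.mem_union, not_or] at hQ
      obtain ⟨⟨⟨⟨hQS, hQT⟩, hQR⟩, hQh⟩, hQW⟩ := hQ
      have hQS' : Q ∉ S := fun h' => hQS (Finset.mem_coe.mpr h')
      have hQR' : ∀ i, R (T i) Q := fun i => by
        by_contra h'
        exact hQR (Set.mem_iUnion.mpr ⟨i, h'⟩)
      have hQh' : Q.ord (h : F) = 0 := by
        by_contra h'
        exact hQh h'
      have hQW' : (W - ∑ i, Finsupp.single (T i) (1 : ℤ)) Q = 0 := by
        by_contra h'
        exact hQW (Finset.mem_coe.mpr (Finsupp.mem_support_iff.mpr h'))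
      have e1 : ∀ i : Fin j, (Fin.snoc T Q : Fin (j + 1) → Place K F) (Fin.castSucc i) = T i :=
        fun i => Fin.snoc_castSucc (α := fun _ => Place K F) Q T i
      have e2 : (Fin.snoc T Q : Fin (j + 1) → Place K F) (Fin.last j) = Q :=
        Fin.snoc_last (α := fun _ => Place K F) Q T
      refine ⟨Fin.snoc T Q, Fin.snoc_injective_of_injective hTinj hQT, ?_, ?_, ?_⟩
      · intro i
        induction i using Fin.lastCases with
        | last => rw [e2]; exact hQS'
        | cast i => rw [e1]; exact hTS i
      · intro i i' hii'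
        induction i' using Fin.lastCases with
        | last =>
          induction i using Fin.lastCases with
          | last => exact absurd hii' (lt_irrefl _)
          | cast i => rw [e2, e1]; exact hQR' i
        | cast i' =>
          induction i using Fin.lastCases with
          | last => exact absurd hii' (not_lt.mpr (Fin.le_last _))
          | cast i =>
            rw [e1, e1]
            exact hTR i i' (by simpa using hii')
      · rw [Fin.sum_univ_castSucc, e2, Finset.sum_congr rfl (fun i _ => by rw [e1 i]), ← sub_sub]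
        have := h68_rr_sub_point hx (W - ∑ i, Finsupp.single (T i) (1 : ℤ)) h.2 hh0 Q hQh' hQW'
        omega
  obtain ⟨T, hTinj, hTS, hTR, hTf⟩ := key (h75_genus K x) le_rfl
  refine ⟨T, hTinj, hTS, hTR, ?_⟩
  have h0 : Module.finrank K
      ↥(riemannRochSpace (W - ∑ i, Finsupp.single (T i) (1 : ℤ))) = 0 := by omega
  have h1 := hW (∑ i, Finsupp.single (T i) (1 : ℤ))
  rw [h0, map_sum] at h1
  have h2 : ∀ i : Fin (h75_genus K x),
      Divisor.degree (Finsupp.single (T i) (1 : ℤ) : Divisor K F) = 1 := by
    intro i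
    rw [Divisor.degree_single, h75_deg_eq_one hx (T i)]
    simp
  rw [Finset.sum_congr rfl (fun i _ => h2 i)] at h1
  simp only [Finset.sum_const, Finset.card_univ, Fintype.card_fin, nsmul_eq_mul, mul_one,
    Nat.cast_zero, add_zero] at h1
  have h3 : (Module.finrank K ↥(riemannRochSpace (∑ i, Finsupp.single (T i) (1 : ℤ))) : ℤ)
      = 1 := by
    rw [h1]
    ring
  exact_mod_cast h3

/-- a non-special effective divisor has only constant sections. -/
theorem h68_rr_eq_span_one {x : F} (hx : h75_IsChart K x) (D : Divisor K F) (hD : 0 ≤ D)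
    (h1 : Module.finrank K ↥(riemannRochSpace D) = 1) :
    riemannRochSpace D = Submodule.span K {(1 : F)} := by
  have hfin := (h75_riemann hx D).1
  rw [← h7_rr_zero_eq hx]
  symm
  refine Submodule.eq_of_le_of_finrank_eq (h68_rr_mono hD) ?_
  rw [h1, h75_finrank_rr_zero hx]

end Cons

end Fermat.Agent.S27
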