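/-
S27 / B6 (helper57): COUNT-CLASS.
For a `q`-Frobenius structure `σ` on `F/K` (`K` algebraically closed of characteristic `p`,
`q = p ^ e`) and a divisor `D` whose class is `σ`-invariant (`σ • D - D` principal), the
number `N` of `σ`-invariant effective divisors linearly equivalent to `D` satisfies
`(q - 1) * N + 1 = q ^ l(D)`.
Proof: `σ • D - D = div u`; `φ f := u * σ f` is a `q`-semilinear injective additive
endomorphism of `L(D)`; Lang's descent (`h57_Semilin`) gives `q ^ l(D)` fixed vectors; the
nonzero fixed vectors modulo `F_q^×` are exactly the invariant effective divisors of the class.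
-/
import Fermat.Agent.S27.h57_Semilin
import Fermat.Agent.S27.h57_SemiAct
import Fermat.Agent.S27.h68_RRCons

set_option autoImplicit false

noncomputable section

namespace Fermat.Agent.S27

open AlgebraicCurve Fermat.Agent.S18

/-- removing one point from a finite subtype -/
theorem h57_card_ne {α : Type*} (P : α → Prop) (a0 : α) (h0 : P a0) [Finite {a // P a}] :
    Nat.card {a // P a} = Nat.card {a // P a ∧ a ≠ a0} + 1 := by
  classical
  let e : {a // P a} ≃ Option {a // P a ∧ a ≠ a0} :=
    { toFun := fun a => if h : a.1 = a0 then none else some ⟨a.1, a.2, h⟩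
      invFun := fun o => o.elim ⟨a0, h0⟩ (fun a => ⟨a.1, a.2.1⟩)
      left_inv := by
        rintro ⟨a, ha⟩
        by_cases h : a = a0
        · subst h; simp
        · simp [h]
      right_inv := by
        rintro (_ | ⟨a, ha, hne⟩)
        · simp
        · simp [hne] }
  have : Finite {a // P a ∧ a ≠ a0} :=
    Finite.of_injective (fun a => (⟨a.1, a.2.1⟩ : {a // P a}))
      (by intro a b h; exact Subtype.ext (by simpa using congrArg Subtype.val h))
  rw [Nat.card_congr e, Finite.card_option]

variable {K F : Type*} [Field K] [Field F] [Algebra K F]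

/-- the twisted semilinear map `f ↦ u * σ f` on `L(D)`, where `σ • D - D = div u` -/
def h57_twist (σ : h57_SemiAut K F) (D : Divisor K F) (u : F)
    (hu : ∀ v : Place K F, (σ • D) v - D v = v.ord u) :
    riemannRochSpace D →+ riemannRochSpace D where
  toFun f := ⟨u * (σ : F ≃+* F) (f : F), by
    rcases eq_or_ne u 0 with rfl | hu0
    · rw [zero_mul]; exact zero_mem _
    rcases eq_or_ne (f : F) 0 with hf0 | hf0
    · rw [hf0, map_zero, mul_zero]; exact zero_mem _
    have hσf0 : (σ : F ≃+* F) (f : F) ≠ 0 := by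
      rwa [ne_eq, map_eq_zero_iff _ (σ : F ≃+* F).injective]
    have hmem := (h57_mem_rr_smul σ D (f : F)).mpr f.2
    rw [mem_riemannRochSpace_iff] at hmem ⊢
    intro v
    right
    rw [v.ord_mul hu0 hσf0, ← hu v]
    have := (hmem v).resolve_left hσf0
    omega⟩
  map_zero' := by ext; simp
  map_add' f g := by ext; simp [mul_add]

@[simp]
theorem h57_coe_twist (σ : h57_SemiAut K F) (D : Divisor K F) (u : F)
    (hu : ∀ v : Place K F, (σ • D) v - D v = v.ord u) (f : riemannRochSpace D) :
    ((h57_twist σ D u hu f : riemannRochSpace D) : F) = u * (σ : F ≃+* F) (f : F) := rfl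

theorem h57_twist_smul {q : ℕ} (σ : h57_SemiAut K F) (hσ : h57_IsFrob q σ) (D : Divisor K F)
    (u : F) (hu : ∀ v : Place K F, (σ • D) v - D v = v.ord u) (c : K)
    (f : riemannRochSpace D) :
    h57_twist σ D u hu (c • f) = c ^ q • h57_twist σ D u hu f := by
  ext
  rw [h57_coe_twist, Submodule.coe_smul, Submodule.coe_smul, h57_coe_twist, hσ.apply_smul,
    mul_smul_comm]

theorem h57_twist_injective (σ : h57_SemiAut K F) (D : Divisor K F) (u : F) (hu0 : u ≠ 0)
    (hu : ∀ v : Place K F, (σ • D) v - D v = v.ord u) :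
    Function.Injective (h57_twist σ D u hu) := by
  intro f g h
  have h1 := congrArg Subtype.val h
  rw [h57_coe_twist, h57_coe_twist] at h1
  exact Subtype.ext ((σ : F ≃+* F).injective (mul_left_cancel₀ hu0 h1))

section Count

variable [IsAlgClosed K] (p : ℕ) [Fact p.Prime] [CharP K p] (e : ℕ)

/-- the number of fixed vectors of the twisted Frobenius on `L(D)` -/
theorem h57_twist_card (he : 0 < e) {x : F} (hx : h75_IsChart K x) (σ : h57_SemiAut K F)
    (hσ : h57_IsFrob (p ^ e) σ) (D : Divisor K F) (u : F) (hu0 : u ≠ 0)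
    (hu : ∀ v : Place K F, (σ • D) v - D v = v.ord u) :
    Nat.card {f : riemannRochSpace D // h57_twist σ D u hu f = f}
      = (p ^ e) ^ Module.finrank K (riemannRochSpace D) := by
  have := (h75_riemann hx D).1
  exact h57_semilin_card p e he (h57_twist σ D u hu) (h57_twist_smul σ hσ D u hu)
    (h57_twist_injective σ D u hu0 hu)

theorem h57_count_class_aux (he : 0 < e) {x : F} (hx : h75_IsChart K x) (σ : h57_SemiAut K F)
    (hσ : h57_IsFrob (p ^ e) σ) (D : Divisor K F)
    (hD : σ • D - D ∈ Divisor.principal (K := K) (F := F)) :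
    Finite {E : Divisor K F //
        0 ≤ E ∧ E - D ∈ Divisor.principal (K := K) (F := F) ∧ σ • E = E} ∧
    (p ^ e - 1) * Nat.card {E : Divisor K F //
        0 ≤ E ∧ E - D ∈ Divisor.principal (K := K) (F := F) ∧ σ • E = E} + 1
      = (p ^ e) ^ Module.finrank K (riemannRochSpace D) := by
  classical
  obtain ⟨u, hu0, hu'⟩ := hD
  have hu : ∀ v : Place K F, (σ • D) v - D v = v.ord u := fun v => by
    rw [← hu' v, Finsupp.sub_apply]
  have hfin := (h75_riemann hx D).1
  set φ := h57_twist σ D u hu with hφdef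
  have hφ : ∀ (c : K) (f : riemannRochSpace D), φ (c • f) = c ^ (p ^ e) • φ f :=
    h57_twist_smul σ hσ D u hu
  have hinj : Function.Injective φ := h57_twist_injective σ D u hu0 hu
  have hcardX := h57_twist_card p e he hx σ hσ D u hu0 hu
  have hq := h57_one_lt_q p e he
  -- notation
  set Y := {E : Divisor K F //
        0 ≤ E ∧ E - D ∈ Divisor.principal (K := K) (F := F) ∧ σ • E = E} with hY
  set X' := {f : riemannRochSpace D // φ f = f ∧ f ≠ 0} with hX'
  set Fq := {c : K // c ^ (p ^ e) = c ∧ c ≠ 0} with hFq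
  -- ord of a scalar multiple
  have hord_smul : ∀ (c : K) (hc : c ≠ 0) (g : F) (v : Place K F), v.ord (c • g) = v.ord g := by
    intro c hc g v
    rcases eq_or_ne g 0 with rfl | hg
    · simp
    rw [Algebra.smul_def, v.ord_mul (by simpa using hc) hg, Fermat.Agent.S24.h35_ord_algebraMap,
      zero_add]
  -- a nonzero fixed vector gives an invariant effective divisor
  have hfix_div : ∀ (f : riemannRochSpace D), φ f = f → (f : F) ≠ 0 → ∀ (E : Divisor K F),
      (∀ v, E v = D v + v.ord (f : F)) →
        0 ≤ E ∧ E - D ∈ Divisor.principal (K := K) (F := F) ∧ σ • E = E := by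
    intro f hf hf0 E hE
    have hmem := f.2
    rw [mem_riemannRochSpace_iff] at hmem
    refine ⟨?_, ⟨(f : F), hf0, fun v => by rw [Finsupp.sub_apply, hE v]; ring⟩, ?_⟩
    · rw [Finsupp.le_def]
      intro v
      have := (hmem v).resolve_left hf0
      rw [hE v, Finsupp.zero_apply]
      omega
    · ext w
      have hσf0 : (σ : F ≃+* F) (f : F) ≠ 0 := by
        rwa [ne_eq, map_eq_zero_iff _ (σ : F ≃+* F).injective]
      have h1 : (f : F) = u * (σ : F ≃+* F) (f : F) := by
        conv_lhs => rw [← hf]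
        rfl
      have h2 : w.ord (f : F) = w.ord u + w.ord ((σ : F ≃+* F) (f : F)) := by
        conv_lhs => rw [h1]
        exact w.ord_mul hu0 hσf0
      -- (σ • E) w = (σ • D) w + w.ord (σ f)
      have h3 : (σ • E) w = (σ • D) w + w.ord ((σ : F ≃+* F) (f : F)) := by
        rw [h57_smul_apply, h57_smul_apply, hE, h57_ord_apply]
      rw [h3, hE w, h2, ← hu w]
      ring
  -- a representative fixed vector for each invariant effective divisor of the class
  have hrep : ∀ E : Y, ∃ r : X', ∀ v : Place K F, E.1 v = D v + v.ord ((r.1 : riemannRochSpace D) : F) := by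
    rintro ⟨E, hE0, ⟨g0, hg0, hEg⟩, hEσ⟩
    have hEg' : ∀ v : Place K F, E v - D v = v.ord g0 := fun v => by
      rw [← hEg v, Finsupp.sub_apply]
    have hg0mem : g0 ∈ riemannRochSpace D := by
      rw [mem_riemannRochSpace_iff]
      intro v
      right
      have := Finsupp.le_def.mp hE0 v
      rw [Finsupp.zero_apply] at this
      rw [← hEg' v]
      omega
    have hσg0 : (σ : F ≃+* F) g0 ≠ 0 := by
      rwa [ne_eq, map_eq_zero_iff _ (σ : F ≃+* F).injective]
    -- `u * σ g0` and `g0` have the same divisor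
    have hsame : ∀ P : Place K F, P.ord (u * (σ : F ≃+* F) g0) = P.ord g0 := by
      intro P
      rw [P.ord_mul hu0 hσg0, ← hu P, h57_ord_apply, ← hEg' P, ← hEg' (σ⁻¹ • P),
        ← h57_smul_apply, ← h57_smul_apply, hEσ]
      ring
    obtain ⟨a, ha0, ha⟩ := h68_div_eq hx (mul_ne_zero hu0 hσg0) hg0 hsame
    have hφg : φ ⟨g0, hg0mem⟩ = a • (⟨g0, hg0mem⟩ : riemannRochSpace D) := by
      apply Subtype.ext
      rw [hφdef, h57_coe_twist, Submodule.coe_smul, Algebra.smul_def]
      exact ha
    have hg0ne : (⟨g0, hg0mem⟩ : riemannRochSpace D) ≠ 0 := by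
      intro h
      exact hg0 (congrArg Subtype.val h)
    obtain ⟨c, hc0, hc⟩ := h57_semilin_line p e he φ hφ hinj ⟨g0, hg0mem⟩ hg0ne a hφg
    refine ⟨⟨c • ⟨g0, hg0mem⟩, hc, smul_ne_zero hc0 hg0ne⟩, fun v => ?_⟩
    show E v = D v + v.ord (c • g0)
    rw [hord_smul c hc0 g0 v, ← hEg' v]
    ring
  choose rep hrepspec using hrep
  -- the bijection `Y × F_q^× ≃ X'`
  let g : Y × Fq → X' := fun Ec =>
    ⟨(Ec.2.1 : K) • (rep Ec.1).1, by
      rw [hφ, (rep Ec.1).2.1, Ec.2.2.1], smul_ne_zero Ec.2.2.2 (rep Ec.1).2.2⟩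
  have hrep0 : ∀ E : Y, (((rep E).1 : riemannRochSpace D) : F) ≠ 0 := fun E h =>
    (rep E).2.2 (Subtype.ext h)
  have hginj : Function.Injective g := by
    rintro ⟨E, c⟩ ⟨E', c'⟩ h
    have h1 : (c.1 : K) • (rep E).1 = (c'.1 : K) • (rep E').1 := congrArg Subtype.val h
    have h2 : (c.1 : K) • (((rep E).1 : riemannRochSpace D) : F)
        = (c'.1 : K) • (((rep E').1 : riemannRochSpace D) : F) := by
      have := congrArg Subtype.val h1
      simpa using this
    have hEE : E = E' := by
      apply Subtype.ext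
      ext v
      rw [hrepspec E v, hrepspec E' v, ← hord_smul c.1 c.2.2 _ v, h2, hord_smul c'.1 c'.2.2 _ v]
    subst hEE
    have h3 : ((c.1 : K) - (c'.1 : K)) • (((rep E).1 : riemannRochSpace D) : F) = 0 := by
      rw [sub_smul, h2, sub_self]
    have h4 : (c.1 : K) = c'.1 := by
      rcases smul_eq_zero.mp h3 with h5 | h5
      · exact sub_eq_zero.mp h5
      · exact absurd h5 (hrep0 E)
    rw [Prod.mk.injEq]
    exact ⟨rfl, Subtype.ext h4⟩
  have hgsurj : Function.Surjective g := by
    rintro ⟨f, hf, hf0⟩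
    have hfF : (f : F) ≠ 0 := fun h => hf0 (Subtype.ext h)
    obtain ⟨Df, hDf⟩ := h7_exists_div hx (f : F) hfF
    have hE : ∀ v, (D + Df) v = D v + v.ord (f : F) := fun v => by
      rw [Finsupp.add_apply, hDf v]
    let E : Y := ⟨D + Df, hfix_div f hf hfF (D + Df) hE⟩
    have hsame : ∀ P : Place K F,
        P.ord (f : F) = P.ord (((rep E).1 : riemannRochSpace D) : F) := by
      intro P
      have h1 := hrepspec E P
      have h2 := hE P
      have h3 : E.1 P = (D + Df) P := rfl
      omega
    obtain ⟨c, hc0, hc⟩ := h68_div_eq hx hfF (hrep0 E) hsame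
    have hc' : f = c • (rep E).1 := by
      apply Subtype.ext
      rw [Submodule.coe_smul, Algebra.smul_def]
      exact hc
    have hcq : c ^ (p ^ e) = c :=
      h57_semilin_line_unique p e φ hφ (rep E).1 f (rep E).2.1 hf (rep E).2.2 c hc'
    refine ⟨(E, ⟨c, hcq, hc0⟩), ?_⟩
    apply Subtype.ext
    exact hc'.symm
  have hcard1 : Nat.card X' = Nat.card Y * Nat.card Fq := by
    rw [← Nat.card_prod]
    exact (Nat.card_congr (Equiv.ofBijective g ⟨hginj, hgsurj⟩)).symm
  -- the cardinalities of `F_q^×` and of the fixed vectors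
  have : Finite {c : K // c ^ (p ^ e) = c} :=
    Nat.finite_of_card_ne_zero (by rw [h57_card_Fq p e he]; omega)
  have hFqcard : Nat.card Fq + 1 = p ^ e := by
    rw [← h57_card_Fq (k := K) p e he]
    exact (h57_card_ne (fun c : K => c ^ (p ^ e) = c) 0 (zero_pow (by omega))).symm
  have : Finite {f : riemannRochSpace D // φ f = f} :=
    Nat.finite_of_card_ne_zero (by rw [hcardX]; positivity)
  have hX'card : Nat.card X' + 1 = (p ^ e) ^ Module.finrank K (riemannRochSpace D) := by
    rw [← hcardX]
    exact (h57_card_ne (fun f : riemannRochSpace D => φ f = f) 0 (map_zero φ)).symm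
  refine ⟨?_, by rw [← hX'card, hcard1, ← hFqcard, Nat.add_sub_cancel, mul_comm]⟩
  have hX'fin : Finite X' :=
    Finite.of_injective (fun f : X' => (⟨f.1, f.2.1⟩ : {f : riemannRochSpace D // φ f = f}))
      (by intro a b h; exact Subtype.ext (by simpa using congrArg Subtype.val h))
  exact Finite.of_injective (fun E : Y => g (E, ⟨1, one_pow _, one_ne_zero⟩))
    (fun E E' h => (Prod.mk.injEq _ _ _ _ ▸ hginj h).1)

/-- **COUNT-CLASS**: in a `σ`-invariant divisor class (`σ • D - D` principal), the number `N`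
of `σ`-invariant effective divisors satisfies `(q - 1) * N + 1 = q ^ l(D)`. -/
theorem h57_count_class (he : 0 < e) {x : F} (hx : h75_IsChart K x) (σ : h57_SemiAut K F)
    (hσ : h57_IsFrob (p ^ e) σ) (D : Divisor K F)
    (hD : σ • D - D ∈ Divisor.principal (K := K) (F := F)) :
    (p ^ e - 1) * Nat.card {E : Divisor K F //
        0 ≤ E ∧ E - D ∈ Divisor.principal (K := K) (F := F) ∧ σ • E = E} + 1
      = (p ^ e) ^ Module.finrank K (riemannRochSpace D) :=
  (h57_count_class_aux p e he hx σ hσ D hD).2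

/-- the invariant effective divisors of an invariant class form a finite set -/
theorem h57_finite_class (he : 0 < e) {x : F} (hx : h75_IsChart K x) (σ : h57_SemiAut K F)
    (hσ : h57_IsFrob (p ^ e) σ) (D : Divisor K F)
    (hD : σ • D - D ∈ Divisor.principal (K := K) (F := F)) :
    Finite {E : Divisor K F //
        0 ≤ E ∧ E - D ∈ Divisor.principal (K := K) (F := F) ∧ σ • E = E} :=
  (h57_count_class_aux p e he hx σ hσ D hD).1

/-- the same count over `ℤ`: `(q - 1) * N = q ^ l(D) - 1` -/
theorem h57_count_class_int (he : 0 < e) {x : F} (hx : h75_IsChart K x) (σ : h57_SemiAut K F)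
    (hσ : h57_IsFrob (p ^ e) σ) (D : Divisor K F)
    (hD : σ • D - D ∈ Divisor.principal (K := K) (F := F)) :
    (((p ^ e : ℕ) : ℤ) - 1) * (Nat.card {E : Divisor K F //
        0 ≤ E ∧ E - D ∈ Divisor.principal (K := K) (F := F) ∧ σ • E = E} : ℤ)
      = ((p ^ e : ℕ) : ℤ) ^ Module.finrank K (riemannRochSpace D) - 1 := by
  have h := h57_count_class p e he hx σ hσ D hD
  have hq := h57_one_lt_q p e he
  have h' : (((p ^ e - 1 : ℕ) : ℤ)) * (Nat.card {E : Divisor K F //
        0 ≤ E ∧ E - D ∈ Divisor.principal (K := K) (F := F) ∧ σ • E = E} : ℤ) + 1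
      = ((p ^ e : ℕ) : ℤ) ^ Module.finrank K (riemannRochSpace D) := by
    exact_mod_cast h
  rw [Nat.cast_sub hq.le, Nat.cast_one] at h'
  linarith

/-- an invariant class with `l(D) ≥ 1` contains an invariant effective divisor -/
theorem h57_exists_invariant_effective (he : 0 < e) {x : F} (hx : h75_IsChart K x)
    (σ : h57_SemiAut K F) (hσ : h57_IsFrob (p ^ e) σ) (D : Divisor K F)
    (hD : σ • D - D ∈ Divisor.principal (K := K) (F := F))
    (hl : 0 < Module.finrank K (riemannRochSpace D)) :
    ∃ E : Divisor K F, 0 ≤ E ∧ E - D ∈ Divisor.principal (K := K) (F := F) ∧ σ • E = E := by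
  have h := h57_count_class p e he hx σ hσ D hD
  have hq := h57_one_lt_q p e he
  by_contra hne
  have hempty : IsEmpty {E : Divisor K F //
      0 ≤ E ∧ E - D ∈ Divisor.principal (K := K) (F := F) ∧ σ • E = E} :=
    ⟨fun E => hne ⟨E.1, E.2⟩⟩
  rw [Nat.card_of_isEmpty, mul_zero, zero_add] at h
  have : p ^ e ≤ (p ^ e) ^ Module.finrank K (riemannRochSpace D) :=
    Nat.le_self_pow hl.ne' _
  omega

/-- for a `σ`-invariant divisor `D`, the `σ`-fixed functions in `L(D)` number `q ^ l(D)` -/
theorem h57_card_rr_fixed (he : 0 < e) {x : F} (hx : h75_IsChart K x) (σ : h57_SemiAut K F)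
    (hσ : h57_IsFrob (p ^ e) σ) (D : Divisor K F) (hD : σ • D = D) :
    Nat.card {f : riemannRochSpace D // (σ : F ≃+* F) (f : F) = (f : F)}
      = (p ^ e) ^ Module.finrank K (riemannRochSpace D) := by
  have hu : ∀ v : Place K F, (σ • D) v - D v = v.ord (1 : F) := fun v => by
    rw [hD, sub_self, Place.ord_one]
  rw [← h57_twist_card p e he hx σ hσ D 1 one_ne_zero hu]
  refine Nat.card_congr (Equiv.subtypeEquivRight fun f => ?_)
  rw [Subtype.ext_iff, h57_coe_twist, one_mul]

/-- for a `σ`-invariant divisor `D`, `L(D)` has a basis of `σ`-fixed functions -/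
theorem h57_rr_fixed_basis (he : 0 < e) {x : F} (hx : h75_IsChart K x) (σ : h57_SemiAut K F)
    (hσ : h57_IsFrob (p ^ e) σ) (D : Divisor K F) (hD : σ • D = D) :
    ∃ b : Module.Basis (Fin (Module.finrank K (riemannRochSpace D))) K (riemannRochSpace D),
      ∀ i, (σ : F ≃+* F) ((b i : riemannRochSpace D) : F) = ((b i : riemannRochSpace D) : F) := by
  have hu : ∀ v : Place K F, (σ • D) v - D v = v.ord (1 : F) := fun v => by
    rw [hD, sub_self, Place.ord_one]
  have := (h75_riemann hx D).1
  obtain ⟨b, hb⟩ := h57_semilin_basis p e he (h57_twist σ D 1 hu) (h57_twist_smul σ hσ D 1 hu)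
    (h57_twist_injective σ D 1 one_ne_zero hu)
  refine ⟨b, fun i => ?_⟩
  have h := congrArg Subtype.val (hb i)
  rwa [h57_coe_twist, one_mul] at h

end Count

end Fermat.Agent.S27
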