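/-
S27 row 493 (B6-2 FROB-LIN): export `h73_card_inv_class` VERBATIM (skeleton of helper73).
Adapter over `h57_CountClass` (helper57), which proves the count by Lang descent.
-/
import Fermat.Agent.S27.h57_CountClass

set_option autoImplicit false

open AlgebraicCurve Fermat.Agent.S18

namespace Fermat.Agent.S27

variable {k F : Type*} [Field k] [IsAlgClosed k] [Field F] [Algebra k F]
variable {p e : ℕ} [Fact p.Prime] [CharP k p]

/-- In a class fixed by `σ` (`σ • D - D` principal) the invariant effective divisors are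
counted by `L(D)`: `(q - 1) * #{E ≥ 0 | σ E = E, E ~ D} = q ^ l(D) - 1`. -/
theorem h73_card_inv_class {x : F} (hx : h75_IsChart k x) (he : 0 < e) (σ : h57_SemiAut k F)
    (hσ : h57_IsFrob (p ^ e) σ) (D : Divisor k F)
    (hD : σ • D - D ∈ Divisor.principal (K := k) (F := F)) :
    Finite {E : Divisor k F // 0 ≤ E ∧ σ • E = E ∧
      E - D ∈ Divisor.principal (K := k) (F := F)} ∧
    (((p : ℤ) ^ e - 1) * (Nat.card {E : Divisor k F // 0 ≤ E ∧ σ • E = E ∧
      E - D ∈ Divisor.principal (K := k) (F := F)} : ℤ)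
      = ((p : ℤ) ^ e) ^ Module.finrank k (riemannRochSpace D) - 1) := by
  have heq : {E : Divisor k F // 0 ≤ E ∧ E - D ∈ Divisor.principal (K := k) (F := F) ∧
      σ • E = E} ≃ {E : Divisor k F // 0 ≤ E ∧ σ • E = E ∧
      E - D ∈ Divisor.principal (K := k) (F := F)} :=
    Equiv.subtypeEquivRight fun E => ⟨fun h => ⟨h.1, h.2.2, h.2.1⟩, fun h => ⟨h.1, h.2.2, h.2.1⟩⟩
  have hfin := h57_finite_class p e he hx σ hσ D hD
  have hcount := h57_count_class_int p e he hx σ hσ D hD
  refine ⟨Finite.of_equiv _ heq, ?_⟩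
  rw [← Nat.card_congr heq]
  push_cast at hcount
  exact hcount

end Fermat.Agent.S27
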