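import Fermat.Agent.S27.h57_SemiAct

/-!
# S27 / B6 ZETA : the Frobenius-structure predicate and the three counting functions
(owner helper73; base layer = helper57's `h57_SemiAct`)

A *Frobenius structure of level `q`* on a function field `F / K` is a semilinear automorphism
`σ : h57_SemiAut K F` with `h57_IsFrob q σ` (it acts as `c ↦ c ^ q` on the constants) and
`h73_Periodic σ` (every element of `F` is fixed by a positive power of `σ`).

* `h73_N σ s` : the number of places fixed by `σ ^ s`;
* `h73_a σ d` : the number of `σ`-invariant effective divisors of degree `d`;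
* `h73_h σ`   : the number of `σ`-invariant classes in `Pic⁰`.
-/

set_option autoImplicit false

open AlgebraicCurve

namespace Fermat.Agent.S27

variable {K F : Type*} [Field K] [Field F] [Algebra K F]

/-- every element of `F` is fixed by a positive power of `σ`. -/
def h73_Periodic (σ : h57_SemiAut K F) : Prop :=
  ∀ f : F, ∃ n : ℕ, 0 < n ∧ ((σ ^ n : h57_SemiAut K F) : F ≃+* F) f = f

theorem h73_pow_pow_apply (σ : h57_SemiAut K F) (n m : ℕ) (f : F)
    (h : ((σ ^ n : h57_SemiAut K F) : F ≃+* F) f = f) :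
    ((σ ^ (n * m) : h57_SemiAut K F) : F ≃+* F) f = f := by
  induction m with
  | zero => simp
  | succ m ih =>
    rw [Nat.mul_succ, pow_add, h57_coe_mul_apply, h, ih]

/-- the powers of a periodic automorphism are periodic. -/
theorem h73_Periodic.pow {σ : h57_SemiAut K F} (hσ : h73_Periodic σ) (r : ℕ) :
    h73_Periodic (σ ^ r) := by
  intro f
  obtain ⟨n, hn, h⟩ := hσ f
  refine ⟨n, hn, ?_⟩
  rw [← pow_mul, mul_comm]
  exact h73_pow_pow_apply σ n r f h

/-- two elements have a common period. -/
theorem h73_Periodic.common {σ : h57_SemiAut K F} (hσ : h73_Periodic σ) (f g : F) :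
    ∃ n : ℕ, 0 < n ∧ ((σ ^ n : h57_SemiAut K F) : F ≃+* F) f = f ∧
      ((σ ^ n : h57_SemiAut K F) : F ≃+* F) g = g := by
  obtain ⟨n, hn, h⟩ := hσ f
  obtain ⟨m, hm, h'⟩ := hσ g
  refine ⟨n * m, Nat.mul_pos hn hm, h73_pow_pow_apply σ n m f h, ?_⟩
  rw [mul_comm]
  exact h73_pow_pow_apply σ m n g h'

/-- the constants are fixed by a power of the `q`-power map. -/
theorem h73_Periodic.const {σ : h57_SemiAut K F} (hσ : h73_Periodic σ) {q : ℕ}
    (hq : h57_IsFrob q σ) (c : K) : ∃ n : ℕ, 0 < n ∧ c ^ (q ^ n) = c := by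
  obtain ⟨n, hn, h⟩ := hσ (algebraMap K F c)
  refine ⟨n, hn, ?_⟩
  have h2 := (hq.pow n) c
  rw [h] at h2
  exact ((algebraMap K F).injective h2).symm

/-- `N_s` : the number of places fixed by `σ ^ s`. -/
noncomputable def h73_N (σ : h57_SemiAut K F) (s : ℕ) : ℤ :=
  (Nat.card {P : Place K F // σ ^ s • P = P} : ℤ)

/-- `a_d` : the number of `σ`-invariant effective divisors of degree `d`. -/
noncomputable def h73_a (σ : h57_SemiAut K F) (d : ℕ) : ℤ :=
  (Nat.card {E : Divisor K F // 0 ≤ E ∧ σ • E = E ∧ Divisor.degree E = d} : ℤ)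

/-- `h` : the number of `σ`-invariant classes of degree zero. -/
noncomputable def h73_h (σ : h57_SemiAut K F) : ℤ :=
  (Nat.card {c : Pic0 K F // σ • c = c} : ℤ)

theorem h73_N_pow (σ : h57_SemiAut K F) (r s : ℕ) : h73_N (σ ^ r) s = h73_N σ (r * s) := by
  unfold h73_N
  rw [← pow_mul]

end Fermat.Agent.S27
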