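import Fermat.Agent.S18.RR_Chart
import Fermat.Agent.S27.h73_ZetaDefs

/-!
# S27 / B6-1 FROB-PER (helper59)

Periodicity of places, divisors and classes under a periodic semilinear automorphism, and
finiteness of the set of places fixed by a positive power of a Frobenius structure.

Exports (verbatim from the B6 sub-skeleton of helper73):
`h73_place_periodic`, `h73_fix_finite`, `h73_div_periodic`, `h73_pic_periodic`.
-/

set_option autoImplicit false

open AlgebraicCurve Fermat.Agent.S18 Fermat.Agent.S24

namespace Fermat.Agent.S27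

section General

variable {K F : Type*} [Field K] [Field F] [Algebra K F]

/-- a power of a stabilising power stabilises. -/
theorem h59_pow_mul_smul_eq {M α : Type*} [Monoid M] [MulAction M α] (g : M) (n m : ℕ) (a : α)
    (h : g ^ n • a = a) : g ^ (n * m) • a = a := by
  induction m with
  | zero => simp
  | succ m ih => rw [Nat.mul_succ, pow_add, mul_smul, h, ih]

/-- a nonzero-order element is not in the valuation ring iff its inverse has positive order. -/
theorem h59_ord_inv_pos_of_not_mem (P : Place K F) {x : F}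
    (hP : x ∉ P.toValuationSubring) : 0 < P.ord x⁻¹ := by
  have hx0 : x ≠ 0 := by
    rintro rfl
    exact hP P.toValuationSubring.zero_mem
  have h1 : ¬ 0 ≤ P.ord x := fun h => hP ((h35_mem_iff_ord_nonneg P hx0).mpr h)
  rw [P.ord_inv]
  omega

end General

section Rows

variable {k F : Type*} [Field k] [IsAlgClosed k] [Field F] [Algebra k F]
variable {p e : ℕ} [Fact p.Prime] [CharP k p]

/-- In a fibre of a chart function which is fixed by `τ`, every place is `τ`-periodic. -/
theorem h59_fibre_periodic {y : F} (hy : h75_IsChart k y) (τ : h57_SemiAut k F) (a : k)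
    (hτ : (τ : F ≃+* F) (y - algebraMap k F a) = y - algebraMap k F a) (P : Place k F)
    (hP : 0 < P.ord (y - algebraMap k F a)) : ∃ n : ℕ, 0 < n ∧ τ ^ n • P = P := by
  have hfin := h75_fibre_finite hy a
  have hmem : ∀ j : ℕ, τ ^ j • P ∈ {Q : Place k F | 0 < Q.ord (y - algebraMap k F a)} := by
    intro j
    induction j with
    | zero => simpa using hP
    | succ j ih =>
      rw [pow_succ', mul_smul]
      show 0 < (τ • (τ ^ j • P)).ord (y - algebraMap k F a)
      have := h57_ord_smul τ (τ ^ j • P) (y - algebraMap k F a)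
      rw [hτ] at this
      rw [this]
      exact ih
  have hninj : ¬ Function.Injective (fun j : ℕ => τ ^ j • P) := by
    intro hinj
    exact Set.infinite_of_injective_forall_mem hinj hmem hfin
  rw [Function.Injective] at hninj
  push Not at hninj
  obtain ⟨i, j, hij, hne⟩ := hninj
  have key : ∀ i j : ℕ, i < j → τ ^ i • P = τ ^ j • P → ∃ n : ℕ, 0 < n ∧ τ ^ n • P = P := by
    intro i j hlt h
    refine ⟨j - i, by omega, ?_⟩
    have hj : j = i + (j - i) := by omega
    rw [hj, pow_add, mul_smul] at h
    exact (MulAction.injective (τ ^ i) h).symm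
  rcases lt_or_gt_of_ne hne with h | h
  · exact key i j h hij
  · exact key j i h hij.symm

/-- every place is fixed by a positive power of a periodic semilinear automorphism. -/
theorem h73_place_periodic {x : F} (hx : h75_IsChart k x) (σ : h57_SemiAut k F)
    (hper : h73_Periodic σ) (P : Place k F) : ∃ n : ℕ, 0 < n ∧ σ ^ n • P = P := by
  by_cases hP : x ∈ P.toValuationSubring
  · obtain ⟨a, ha⟩ := h75_exists_value hx P hP
    obtain ⟨m, hm, h1, h2⟩ := hper.common x (algebraMap k F a)
    have hτ : ((σ ^ m : h57_SemiAut k F) : F ≃+* F) (x - algebraMap k F a)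
        = x - algebraMap k F a := by
      rw [map_sub, h1, h2]
    obtain ⟨n, hn, h⟩ := h59_fibre_periodic hx (σ ^ m) a hτ P ha
    refine ⟨m * n, Nat.mul_pos hm hn, ?_⟩
    rwa [pow_mul]
  · have ha : 0 < P.ord (x⁻¹ - algebraMap k F 0) := by
      rw [map_zero, sub_zero]
      exact h59_ord_inv_pos_of_not_mem P hP
    obtain ⟨m, hm, h1⟩ := hper x
    have hτ : ((σ ^ m : h57_SemiAut k F) : F ≃+* F) (x⁻¹ - algebraMap k F 0)
        = x⁻¹ - algebraMap k F 0 := by
      rw [map_zero, sub_zero, map_inv₀, h1]
    obtain ⟨n, hn, h⟩ := h59_fibre_periodic (h75_isChart_inv hx) (σ ^ m) 0 hτ P ha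
    refine ⟨m * n, Nat.mul_pos hm hn, ?_⟩
    rwa [pow_mul]

omit [IsAlgClosed k] [Fact p.Prime] [CharP k p] in
/-- the fixed points of the `Q`-power map form a finite set (`Q ≥ 2`). -/
theorem h59_finite_pow_eq (Q : ℕ) (hQ : 1 < Q) : {a : k | a ^ Q = a}.Finite := by
  classical
  have hne : (Polynomial.X ^ Q - Polynomial.X : Polynomial k) ≠ 0 :=
    FiniteField.X_pow_card_sub_X_ne_zero k hQ
  refine ((Polynomial.X ^ Q - Polynomial.X : Polynomial k).roots.toFinset.finite_toSet).subset ?_
  intro a ha
  simp only [Finset.mem_coe, Multiset.mem_toFinset]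
  rw [Polynomial.mem_roots hne, Polynomial.IsRoot.def]
  simp only [Polynomial.eval_sub, Polynomial.eval_pow, Polynomial.eval_X]
  have ha' : a ^ Q = a := ha
  rw [ha', sub_self]

/-- for `s > 0` only finitely many places are fixed by the `s`-th power of a Frobenius
structure. -/
theorem h73_fix_finite {x : F} (hx : h75_IsChart k x) (he : 0 < e) (σ : h57_SemiAut k F)
    (hσ : h57_IsFrob (p ^ e) σ) (hper : h73_Periodic σ) (s : ℕ) (hs : 0 < s) :
    {P : Place k F | σ ^ s • P = P}.Finite := by
  obtain ⟨n, hn, hnx⟩ := hper x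
  -- `ρ = σ ^ (s * n)` fixes `x` and is a Frobenius of level `Q`
  set Q : ℕ := (p ^ e) ^ (s * n) with hQdef
  have hp : 1 < p := (Fact.out : p.Prime).one_lt
  have hQ : 1 < Q := by
    have h1 : 1 < p ^ e := Nat.one_lt_pow (by omega) hp
    exact Nat.one_lt_pow (Nat.mul_pos hs hn).ne' h1
  have hρx : ((σ ^ (s * n) : h57_SemiAut k F) : F ≃+* F) x = x := by
    rw [mul_comm]
    exact h73_pow_pow_apply σ n s x hnx
  have hρ : h57_IsFrob Q (σ ^ (s * n)) := hσ.pow (s * n)
  have hfinA := h59_finite_pow_eq (k := k) Q hQ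
  have hfin : (⋃ a ∈ {a : k | a ^ Q = a}, {P : Place k F | 0 < P.ord (x - algebraMap k F a)}) ∪
      {P : Place k F | 0 < P.ord (x⁻¹ - algebraMap k F 0)} |>.Finite :=
    (hfinA.biUnion fun a _ => h75_fibre_finite hx a).union
      (h75_fibre_finite (h75_isChart_inv hx) 0)
  refine hfin.subset ?_
  intro P hPfix
  have hρP : σ ^ (s * n) • P = P := h59_pow_mul_smul_eq σ s n P hPfix
  by_cases hP : x ∈ P.toValuationSubring
  · left
    obtain ⟨a, ha⟩ := h75_exists_value hx P hP
    have h1 := h57_ord_smul (σ ^ (s * n)) P (x - algebraMap k F a)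
    rw [hρP, map_sub, hρx, hρ a] at h1
    have ha' : 0 < P.ord (x - algebraMap k F (a ^ Q)) := by
      rw [h1]
      exact ha
    have haQ : a ^ Q = a := by
      by_contra hne
      have hu : x - algebraMap k F a ≠ 0 := by
        intro h0
        rw [h0, Place.ord_zero] at ha
        exact lt_irrefl _ ha
      have hu' : x - algebraMap k F (a ^ Q) ≠ 0 := by
        intro h0
        rw [h0, Place.ord_zero] at ha'
        exact lt_irrefl _ ha'
      have hdiff : (x - algebraMap k F a) - (x - algebraMap k F (a ^ Q))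
          = algebraMap k F (a ^ Q - a) := by
        rw [map_sub]
        ring
      have hc : algebraMap k F (a ^ Q - a) ≠ 0 := by
        rw [Ne, map_eq_zero, sub_eq_zero]
        exact hne
      have h2 := h35_ord_sub P hu hu' (by rw [hdiff]; exact hc)
      rw [hdiff, h35_ord_algebraMap] at h2
      have h3 : 0 < min (P.ord (x - algebraMap k F a)) (P.ord (x - algebraMap k F (a ^ Q))) :=
        lt_min ha ha'
      omega
    exact Set.mem_biUnion (show a ∈ {a : k | a ^ Q = a} from haQ) ha
  · right
    show 0 < P.ord (x⁻¹ - algebraMap k F 0)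
    rw [map_zero, sub_zero]
    exact h59_ord_inv_pos_of_not_mem P hP

/-- every divisor is fixed by a positive power. -/
theorem h73_div_periodic {x : F} (hx : h75_IsChart k x) (σ : h57_SemiAut k F)
    (hper : h73_Periodic σ) (D : Divisor k F) : ∃ n : ℕ, 0 < n ∧ σ ^ n • D = D := by
  induction D using Finsupp.induction with
  | zero => exact ⟨1, one_pos, smul_zero _⟩
  | single_add P c D _ _ ih =>
    obtain ⟨n₁, hn₁, h₁⟩ := h73_place_periodic hx σ hper P
    obtain ⟨n₂, hn₂, h₂⟩ := ih
    refine ⟨n₁ * n₂, Nat.mul_pos hn₁ hn₂, ?_⟩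
    rw [smul_add, h57_smul_single, h59_pow_mul_smul_eq σ n₁ n₂ P h₁]
    congr 1
    rw [mul_comm]
    exact h59_pow_mul_smul_eq σ n₂ n₁ D h₂

/-- every class is fixed by a positive power. -/
theorem h73_pic_periodic {x : F} (hx : h75_IsChart k x) (σ : h57_SemiAut k F)
    (hper : h73_Periodic σ) (c : Pic0 k F) : ∃ n : ℕ, 0 < n ∧ σ ^ n • c = c := by
  obtain ⟨D, rfl⟩ := Pic0.mk_surjective c
  obtain ⟨n, hn, h⟩ := h73_div_periodic hx σ hper (D : Divisor k F)
  refine ⟨n, hn, ?_⟩
  rw [h57_smul_mk]
  exact congrArg Pic0.mk (Subtype.ext (by rw [h57_coe_degZeroSMulHom, h]))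

end Rows

end Fermat.Agent.S27
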