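import Fermat.Agent.S27.h73_ZetaDefs
import Fermat.Agent.S18.RR_Chart

/-!
# S27 / B6 ZETA : FIN-FIX (helper33)

Finiteness statements for a Frobenius structure `σ` (`h57_IsFrob q σ`, `h73_Periodic σ`) on a
function field `F / K` with a chart `x`, `K` algebraically closed:

* `h33_finite_fixed`  : for `s > 0` the set of places fixed by `σ ^ s` is finite;
* `h33_pow_factorial_smul_of_mem_support` : the support of a `σ`-invariant effective divisor of
  degree `d` consists of places fixed by `σ ^ d!`;
* `h33_finite_eff`    : there are finitely many `σ`-invariant effective divisors of degree `d`.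
-/

set_option autoImplicit false

open AlgebraicCurve

namespace Fermat.Agent.S27

open Fermat.Agent.S18 Fermat.Agent.S24

variable {K F : Type*} [Field K] [Field F] [Algebra K F]

/-- the constants fixed by the `Q`-power map are finitely many. -/
theorem h33_finite_pow_fixed (K : Type*) [Field K] (Q : ℕ) (hQ : 2 ≤ Q) :
    {a : K | a ^ Q = a}.Finite := by
  classical
  have hne : (Polynomial.X ^ Q - Polynomial.X : Polynomial K) ≠ 0 :=
    FiniteField.X_pow_card_sub_X_ne_zero K (by omega)
  refine (Polynomial.X ^ Q - Polynomial.X : Polynomial K).roots.toFinset.finite_toSet.subset ?_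
  intro a ha
  rw [Finset.mem_coe, Multiset.mem_toFinset, Polynomial.mem_roots hne]
  simp only [Polynomial.IsRoot, Polynomial.eval_sub, Polynomial.eval_pow, Polynomial.eval_X]
  rw [Set.mem_ofPred_eq] at ha
  rw [ha, sub_self]

/-- a place fixed by an element of the group is fixed by its powers. -/
theorem h33_pow_smul_eq (σ : h57_SemiAut K F) (P : Place K F) (h : σ • P = P) (n : ℕ) :
    σ ^ n • P = P := by
  have h1 : σ ∈ MulAction.stabilizer (h57_SemiAut K F) P := MulAction.mem_stabilizer_iff.mpr h
  exact MulAction.mem_stabilizer_iff.mp (Subgroup.pow_mem _ h1 n)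

/-- **FIN-FIX.** For `s > 0` the set of places fixed by `σ ^ s` is finite. -/
theorem h33_finite_fixed [IsAlgClosed K] {x : F} (hx : h75_IsChart K x) {q : ℕ} (hq2 : 2 ≤ q)
    {σ : h57_SemiAut K F} (hq : h57_IsFrob q σ) (hper : h73_Periodic σ) (s : ℕ) (hs : 0 < s) :
    {P : Place K F | σ ^ s • P = P}.Finite := by
  obtain ⟨n, hn, hnx⟩ := hper x
  have hτx : ((σ ^ (n * s) : h57_SemiAut K F) : F ≃+* F) x = x := h73_pow_pow_apply σ n s x hnx
  have hτF : h57_IsFrob (q ^ (n * s)) (σ ^ (n * s)) := hq.pow (n * s)
  have hQ : 2 ≤ q ^ (n * s) := by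
    calc 2 ≤ q := hq2
      _ = q ^ 1 := (pow_one q).symm
      _ ≤ q ^ (n * s) := Nat.pow_le_pow_right (by omega) (Nat.mul_pos hn hs)
  have hfinQ := h33_finite_pow_fixed K (q ^ (n * s)) hQ
  have hfin : ((⋃ a ∈ {a : K | a ^ (q ^ (n * s)) = a},
      {P : Place K F | 0 < P.ord (x - algebraMap K F a)}) ∪
      {P : Place K F | 0 < P.ord (x⁻¹ - algebraMap K F 0)}).Finite :=
    (Set.Finite.biUnion hfinQ (fun a _ => h75_fibre_finite hx a)).union
      (h75_fibre_finite (h75_isChart_inv hx) 0)
  refine hfin.subset ?_
  intro P hP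
  rw [Set.mem_ofPred_eq] at hP
  have hτP : σ ^ (n * s) • P = P := by
    rw [mul_comm, pow_mul]
    exact h33_pow_smul_eq (σ ^ s) P hP n
  by_cases hxP : x ∈ P.toValuationSubring
  · left
    obtain ⟨a, ha⟩ := h75_exists_value hx P hxP
    have hne : x - algebraMap K F a ≠ 0 := by
      intro h0
      rw [h0, Place.ord_zero] at ha
      exact lt_irrefl _ ha
    have h1 := h57_ord_smul (σ ^ (n * s)) P (x - algebraMap K F a)
    rw [hτP, map_sub, hτx, hτF a] at h1
    have haQ : a ^ (q ^ (n * s)) = a := by
      by_contra hcon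
      have hne2 : x - algebraMap K F (a ^ (q ^ (n * s))) ≠ 0 := by
        intro h0
        rw [h0, Place.ord_zero] at h1
        omega
      have hdiff : (x - algebraMap K F a) - (x - algebraMap K F (a ^ (q ^ (n * s)))) =
          algebraMap K F (a ^ (q ^ (n * s)) - a) := by
        rw [map_sub]; ring
      have hne3 : (x - algebraMap K F a) - (x - algebraMap K F (a ^ (q ^ (n * s)))) ≠ 0 := by
        rw [hdiff]
        intro h0
        apply hcon
        have := (algebraMap K F).injective (h0.trans (map_zero _).symm)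
        exact sub_eq_zero.mp this
      have h2 := h35_ord_sub P hne hne2 hne3
      rw [hdiff, h35_ord_algebraMap, h1] at h2
      have := le_min ha.le ha.le
      omega
    simp only [Set.mem_iUnion, Set.mem_ofPred_eq, exists_prop]
    exact ⟨a, haQ, ha⟩
  · right
    rw [Set.mem_ofPred_eq, map_zero, sub_zero, Place.ord_inv]
    have : ¬ (0 ≤ P.ord x) := fun h => hxP (h24_mem_of_ord_nonneg P h)
    omega

/-- the coefficients of an invariant divisor are constant along orbits. -/
theorem h33_apply_pow_smul (σ : h57_SemiAut K F) {E : Divisor K F} (hσ : σ • E = E) (j : ℕ)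
    (P : Place K F) : E (σ ^ j • P) = E P := by
  have h1 : σ ^ j • E = E := by
    induction j with
    | zero => simp
    | succ j ih => rw [pow_succ, mul_smul, hσ, ih]
  have h2 := h57_smul_apply_smul (σ ^ j) E P
  rwa [h1] at h2

/-- the support of an effective divisor of degree `d` has at most `d` elements, and each
coefficient is at most `d`. -/
theorem h33_support_card_le [IsAlgClosed K] {x : F} (hx : h75_IsChart K x) {E : Divisor K F}
    (hE : 0 ≤ E) (d : ℕ) (hd : Divisor.degree E = d) :
    E.support.card ≤ d ∧ ∀ P : Place K F, E P ≤ d := by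
  have hsum : Divisor.degree E = ∑ P ∈ E.support, E P := by
    rw [h24_degree_eq_sum (fun v => h75_deg_eq_one hx v) E]
    rfl
  have hnn : ∀ P : Place K F, 0 ≤ E P := fun P => Finsupp.le_def.mp hE P
  constructor
  · have h1 : ∑ _P ∈ E.support, (1 : ℤ) ≤ ∑ P ∈ E.support, E P := by
      apply Finset.sum_le_sum
      intro P hP
      have := Finsupp.mem_support_iff.mp hP
      have := hnn P
      omega
    rw [Finset.sum_const, ← hsum, hd] at h1
    simpa using h1
  · intro P
    by_cases hP : P ∈ E.support
    · have := Finset.single_le_sum (f := fun P => E P) (fun v _ => hnn v) hP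
      rw [← hsum, hd] at this
      exact this
    · rw [Finsupp.notMem_support_iff.mp hP]
      exact Int.natCast_nonneg d

/-- the support of a `σ`-invariant effective divisor of degree `d` consists of places fixed
by `σ ^ d!`. -/
theorem h33_pow_factorial_smul_of_mem_support [IsAlgClosed K] {x : F} (hx : h75_IsChart K x)
    (σ : h57_SemiAut K F) {E : Divisor K F} (hE : 0 ≤ E) (hσ : σ • E = E) (d : ℕ)
    (hd : Divisor.degree E = d) (P : Place K F) (hP : E P ≠ 0) :
    σ ^ d.factorial • P = P := by
  classical
  have hcard := (h33_support_card_le hx hE d hd).1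
  have hmaps : ∀ j ∈ Finset.range (d + 1), σ ^ j • P ∈ E.support := by
    intro j _
    rw [Finsupp.mem_support_iff, h33_apply_pow_smul σ hσ j P]
    exact hP
  have hlt : E.support.card < (Finset.range (d + 1)).card := by
    rw [Finset.card_range]; omega
  obtain ⟨i, hi, j, hj, hij, heq⟩ := Finset.exists_ne_map_eq_of_card_lt_of_maps_to hlt hmaps
  rw [Finset.mem_range] at hi hj
  -- reduce to `i < j`
  have key : ∀ i j : ℕ, i < j → j < d + 1 → σ ^ i • P = σ ^ j • P → σ ^ d.factorial • P = P := by
    intro i j hlt hj heq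
    have h1 : σ ^ (j - i) • P = P := by
      have h2 : σ ^ j = σ ^ i * σ ^ (j - i) := by
        rw [← pow_add]; congr 1; omega
      rw [h2, mul_smul] at heq
      exact (MulAction.injective (σ ^ i) heq).symm
    have hdvd : (j - i) ∣ d.factorial := Nat.dvd_factorial (by omega) (by omega)
    obtain ⟨m, hm⟩ := hdvd
    rw [hm, pow_mul]
    exact h33_pow_smul_eq (σ ^ (j - i)) P h1 m
  rcases Nat.lt_or_gt_of_ne hij with h | h
  · exact key i j h hj heq
  · exact key j i h hi heq.symm

/-- **FIN-EFF.** There are finitely many `σ`-invariant effective divisors of degree `d`. -/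
theorem h33_finite_eff [IsAlgClosed K] {x : F} (hx : h75_IsChart K x) {q : ℕ} (hq2 : 2 ≤ q)
    {σ : h57_SemiAut K F} (hq : h57_IsFrob q σ) (hper : h73_Periodic σ) (d : ℕ) :
    Finite {E : Divisor K F // 0 ≤ E ∧ σ • E = E ∧ Divisor.degree E = d} := by
  classical
  have hS := h33_finite_fixed hx hq2 hq hper d.factorial (Nat.factorial_pos d)
  have hfin : {E : Divisor K F | 0 ≤ E ∧ σ • E = E ∧ Divisor.degree E = d}.Finite := by
    refine (Finset.finite_toSet
      (hS.toFinset.finsupp (fun _ => Finset.Icc (0 : ℤ) d))).subset ?_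
    rintro E ⟨hE, hσ, hd⟩
    rw [Finset.mem_coe, Finset.mem_finsupp_iff]
    refine ⟨fun P hP => ?_, fun P _ => ?_⟩
    · rw [Set.Finite.mem_toFinset, Set.mem_ofPred_eq]
      exact h33_pow_factorial_smul_of_mem_support hx σ hE hσ d hd P
        (Finsupp.mem_support_iff.mp hP)
    · rw [Finset.mem_Icc]
      exact ⟨Finsupp.le_def.mp hE P, (h33_support_card_le hx hE d hd).2 P⟩
  exact hfin.to_subtype

end Fermat.Agent.S27
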