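/-
S27 row 494 (B6-3 COUNT-CLASS, helper52): exports `h73_finite_inv_eff`, `h73_class_count`
VERBATIM from the B6 sub-skeleton of helper73.

`h73_finite_inv_eff` is an adapter over `h33_finite_eff` (helper33).
`h73_class_count` : the invariant effective divisors of degree `d` are fibred over the invariant
classes by `E ↦ [E - d P₀]`; the fibre over `[D₀]` is the set of invariant effective divisors
linearly equivalent to `D₀ + d P₀`, counted by `h73_card_inv_class` (B6-2).  For `d = g` every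
fibre is nonempty (Riemann), which gives the finiteness of the set of invariant classes.
-/
import Fermat.Agent.S27.FrobPer
import Fermat.Agent.S27.FrobLin
import Fermat.Agent.S27.h33_FinFix
import Fermat.Agent.S18.RR_Riemann
import Fermat.Agent.S27.h73_ZetaDefs

set_option autoImplicit false

open AlgebraicCurve Fermat.Agent.S18

namespace Fermat.Agent.S27

variable {k F : Type*} [Field k] [IsAlgClosed k] [Field F] [Algebra k F]
variable {p e : ℕ} [Fact p.Prime] [CharP k p]

/-- finitely many invariant effective divisors of a given degree. -/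
theorem h73_finite_inv_eff {x : F} (hx : h75_IsChart k x) (he : 0 < e) (σ : h57_SemiAut k F)
    (hσ : h57_IsFrob (p ^ e) σ) (hper : h73_Periodic σ) (d : ℕ) :
    Finite {E : Divisor k F // 0 ≤ E ∧ σ • E = E ∧ Divisor.degree E = d} :=
  h33_finite_eff hx (h57_one_lt_q p e he) hσ hper d

omit [Fact p.Prime] [CharP k p] in
/-- principal divisors have degree zero. -/
theorem h52_degree_of_mem_principal {x : F} (hx : h75_IsChart k x) {D : Divisor k F}
    (hD : D ∈ Divisor.principal (K := k) (F := F)) : Divisor.degree D = 0 := by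
  obtain ⟨f, hf, hDf⟩ := hD
  exact h7_degree_div hx hf D hDf

omit [Fact p.Prime] [CharP k p] in
/-- `E - d P₀` has degree zero when `E` has degree `d`. -/
theorem h52_sub_single_mem_degZero {x : F} (hx : h75_IsChart k x) (P₀ : Place k F) (d : ℕ)
    {E : Divisor k F} (hE : Divisor.degree E = d) :
    E - Finsupp.single P₀ (d : ℤ) ∈ Divisor.degZero (K := k) (F := F) := by
  rw [Divisor.mem_degZero, map_sub, Divisor.degree_single, h75_deg_eq_one hx P₀, hE]
  simp

omit [Fact p.Prime] [CharP k p] in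
/-- the class `[E - d P₀]` of an invariant divisor of degree `d` is invariant. -/
theorem h52_smul_mk_sub_single {x : F} (hx : h75_IsChart k x) (σ : h57_SemiAut k F)
    (P₀ : Place k F) (hP₀ : σ • P₀ = P₀) (d : ℕ) {E : Divisor k F} (hσE : σ • E = E)
    (hE : Divisor.degree E = d) :
    σ • Pic0.mk (⟨E - Finsupp.single P₀ (d : ℤ), h52_sub_single_mem_degZero hx P₀ d hE⟩ :
      Divisor.degZero (K := k) (F := F)) =
    Pic0.mk (⟨E - Finsupp.single P₀ (d : ℤ), h52_sub_single_mem_degZero hx P₀ d hE⟩ :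
      Divisor.degZero (K := k) (F := F)) := by
  rw [h57_smul_mk_eq_iff]
  have h : σ • (E - Finsupp.single P₀ (d : ℤ)) - (E - Finsupp.single P₀ (d : ℤ)) = 0 := by
    rw [smul_sub, h57_smul_single, hP₀, hσE, sub_self]
  show σ • (E - Finsupp.single P₀ (d : ℤ)) - (E - Finsupp.single P₀ (d : ℤ)) ∈ _
  rw [h]
  exact zero_mem _

omit [Fact p.Prime] [CharP k p] in
/-- the fibre of `E ↦ [E - d P₀]` over `[D₀]` is the set of invariant effective divisors
linearly equivalent to `D₀ + d P₀`. -/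
theorem h52_fibre_iff {x : F} (hx : h75_IsChart k x) (P₀ : Place k F) (d : ℕ)
    (D₀ : Divisor.degZero (K := k) (F := F)) (E : Divisor k F) :
    (∃ hE : Divisor.degree E = d,
        Pic0.mk (⟨E - Finsupp.single P₀ (d : ℤ), h52_sub_single_mem_degZero hx P₀ d hE⟩ :
          Divisor.degZero (K := k) (F := F)) = Pic0.mk D₀) ↔
      E - ((D₀ : Divisor k F) + Finsupp.single P₀ (d : ℤ)) ∈
        Divisor.principal (K := k) (F := F) := by
  have hrw : E - ((D₀ : Divisor k F) + Finsupp.single P₀ (d : ℤ)) =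
      -((D₀ : Divisor k F) - (E - Finsupp.single P₀ (d : ℤ))) := by abel
  constructor
  · rintro ⟨hE, h⟩
    rw [h57_mk_eq_mk_iff] at h
    rw [hrw]
    exact neg_mem h
  · intro h
    have hdeg := h52_degree_of_mem_principal hx h
    have hD₀ : Divisor.degree (D₀ : Divisor k F) = 0 := Divisor.mem_degZero.mp D₀.2
    have hE : Divisor.degree E = d := by
      rw [map_sub, map_add, Divisor.degree_single, h75_deg_eq_one hx P₀, hD₀] at hdeg
      simp at hdeg
      linarith
    refine ⟨hE, ?_⟩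
    rw [h57_mk_eq_mk_iff]
    rw [hrw] at h
    exact neg_mem_iff.mp h

/-- the fibre count, in the form used below: for an invariant class `[D₀]`,
`(q - 1) * #{E ≥ 0 invariant of degree d | [E - d P₀] = [D₀]} = q ^ l(D₀ + d P₀) - 1`, and the
fibre is finite. -/
theorem h52_fibre_count {x : F} (hx : h75_IsChart k x) (he : 0 < e) (σ : h57_SemiAut k F)
    (hσ : h57_IsFrob (p ^ e) σ) (P₀ : Place k F) (hP₀ : σ • P₀ = P₀) (d : ℕ)
    (D₀ : Divisor.degZero (K := k) (F := F)) (hD₀ : σ • Pic0.mk D₀ = Pic0.mk D₀) :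
    Finite {E : Divisor k F // 0 ≤ E ∧ σ • E = E ∧ ∃ hE : Divisor.degree E = d,
        Pic0.mk (⟨E - Finsupp.single P₀ (d : ℤ), h52_sub_single_mem_degZero hx P₀ d hE⟩ :
          Divisor.degZero (K := k) (F := F)) = Pic0.mk D₀} ∧
    (((p : ℤ) ^ e - 1) * (Nat.card {E : Divisor k F // 0 ≤ E ∧ σ • E = E ∧
        ∃ hE : Divisor.degree E = d,
        Pic0.mk (⟨E - Finsupp.single P₀ (d : ℤ), h52_sub_single_mem_degZero hx P₀ d hE⟩ :
          Divisor.degZero (K := k) (F := F)) = Pic0.mk D₀} : ℤ)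
      = ((p : ℤ) ^ e) ^ Module.finrank k
          (riemannRochSpace ((D₀ : Divisor k F) + Finsupp.single P₀ (d : ℤ))) - 1) := by
  have hD : σ • ((D₀ : Divisor k F) + Finsupp.single P₀ (d : ℤ)) -
      ((D₀ : Divisor k F) + Finsupp.single P₀ (d : ℤ)) ∈
        Divisor.principal (K := k) (F := F) := by
    have h := (h57_smul_mk_eq_iff σ D₀).mp hD₀
    have hrw : σ • ((D₀ : Divisor k F) + Finsupp.single P₀ (d : ℤ)) -
        ((D₀ : Divisor k F) + Finsupp.single P₀ (d : ℤ)) =
        σ • (D₀ : Divisor k F) - (D₀ : Divisor k F) := by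
      rw [smul_add, h57_smul_single, hP₀]
      abel
    rw [hrw]
    exact h
  obtain ⟨hfin, hcount⟩ := h73_card_inv_class hx he σ hσ
    ((D₀ : Divisor k F) + Finsupp.single P₀ (d : ℤ)) hD
  have heq : {E : Divisor k F // 0 ≤ E ∧ σ • E = E ∧ ∃ hE : Divisor.degree E = d,
        Pic0.mk (⟨E - Finsupp.single P₀ (d : ℤ), h52_sub_single_mem_degZero hx P₀ d hE⟩ :
          Divisor.degZero (K := k) (F := F)) = Pic0.mk D₀} ≃
      {E : Divisor k F // 0 ≤ E ∧ σ • E = E ∧
        E - ((D₀ : Divisor k F) + Finsupp.single P₀ (d : ℤ)) ∈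
          Divisor.principal (K := k) (F := F)} :=
    Equiv.subtypeEquivRight fun E => by
      rw [h52_fibre_iff hx P₀ d D₀ E]
  refine ⟨Finite.of_equiv _ heq.symm, ?_⟩
  rw [Nat.card_congr heq]
  exact hcount

/-- **Class decomposition.**  With a fixed place `P₀`: the invariant classes are finite in
number and `(q - 1) a_d = ∑_{c invariant} (q ^ l(c + d P₀) - 1)`. -/
theorem h73_class_count {x : F} (hx : h75_IsChart k x) (he : 0 < e) (σ : h57_SemiAut k F)
    (hσ : h57_IsFrob (p ^ e) σ) (hper : h73_Periodic σ)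
    (P₀ : Place k F) (hP₀ : σ • P₀ = P₀) (d : ℕ) (lf : Pic0 k F → ℕ)
    (hl : ∀ D₀ : Divisor.degZero (K := k) (F := F), lf (Pic0.mk D₀) =
      Module.finrank k (riemannRochSpace ((D₀ : Divisor k F) + Finsupp.single P₀ (d : ℤ)))) :
    Finite {c : Pic0 k F // σ • c = c} ∧
    (((p : ℤ) ^ e - 1) * h73_a σ d =
      ∑ᶠ c : {c : Pic0 k F // σ • c = c}, (((p : ℤ) ^ e) ^ lf c.1 - 1)) := by
  classical
  -- the map `κ_n : X_n → {invariant classes}`
  let κ : ∀ n : ℕ, {E : Divisor k F // 0 ≤ E ∧ σ • E = E ∧ Divisor.degree E = n} →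
      {c : Pic0 k F // σ • c = c} := fun n E =>
    ⟨Pic0.mk (⟨E.1 - Finsupp.single P₀ (n : ℤ), h52_sub_single_mem_degZero hx P₀ n E.2.2.2⟩ :
      Divisor.degZero (K := k) (F := F)),
      h52_smul_mk_sub_single hx σ P₀ hP₀ n E.2.2.1 E.2.2.2⟩
  -- the fibre of `κ_n` over `[D₀]`
  have hfib : ∀ (n : ℕ) (D₀ : Divisor.degZero (K := k) (F := F))
      (hD₀ : σ • Pic0.mk D₀ = Pic0.mk D₀),
      Nonempty ({E : {E : Divisor k F // 0 ≤ E ∧ σ • E = E ∧ Divisor.degree E = n} //
          κ n E = ⟨Pic0.mk D₀, hD₀⟩} ≃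
        {E : Divisor k F // 0 ≤ E ∧ σ • E = E ∧ ∃ hE : Divisor.degree E = n,
          Pic0.mk (⟨E - Finsupp.single P₀ (n : ℤ), h52_sub_single_mem_degZero hx P₀ n hE⟩ :
            Divisor.degZero (K := k) (F := F)) = Pic0.mk D₀}) := by
    intro n D₀ hD₀
    refine ⟨{ toFun := fun E => ⟨E.1.1, E.1.2.1, E.1.2.2.1, E.1.2.2.2,
                congrArg Subtype.val E.2⟩
              invFun := fun E => ⟨⟨E.1, E.2.1, E.2.2.1, E.2.2.2.1⟩,
                Subtype.ext E.2.2.2.2⟩
              left_inv := fun E => rfl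
              right_inv := fun E => rfl }⟩
  -- finiteness of the invariant classes: `κ_g` is onto
  have hsurj : Function.Surjective (κ (h75_genus k x)) := by
    rintro ⟨c, hc⟩
    obtain ⟨D₀, rfl⟩ := Pic0.mk_surjective c
    obtain ⟨hfin, hcount⟩ := h52_fibre_count hx he σ hσ P₀ hP₀ (h75_genus k x) D₀ hc
    have hriem := (h75_riemann hx
      ((D₀ : Divisor k F) + Finsupp.single P₀ ((h75_genus k x : ℕ) : ℤ))).2
    have hD₀ : Divisor.degree (D₀ : Divisor k F) = 0 := Divisor.mem_degZero.mp D₀.2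
    rw [map_add, Divisor.degree_single, h75_deg_eq_one hx P₀, hD₀] at hriem
    have hpos : 0 < Module.finrank k (riemannRochSpace
        ((D₀ : Divisor k F) + Finsupp.single P₀ ((h75_genus k x : ℕ) : ℤ))) := by
      have : (1 : ℤ) ≤ (Module.finrank k (riemannRochSpace
        ((D₀ : Divisor k F) + Finsupp.single P₀ ((h75_genus k x : ℕ) : ℤ))) : ℤ) := by
        simp at hriem
        linarith
      exact_mod_cast this
    have hq : (1 : ℤ) < (p : ℤ) ^ e := by
      exact_mod_cast h57_one_lt_q p e he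
    have hne : Nat.card {E : Divisor k F // 0 ≤ E ∧ σ • E = E ∧
        ∃ hE : Divisor.degree E = h75_genus k x,
        Pic0.mk (⟨E - Finsupp.single P₀ ((h75_genus k x : ℕ) : ℤ),
          h52_sub_single_mem_degZero hx P₀ (h75_genus k x) hE⟩ :
          Divisor.degZero (K := k) (F := F)) = Pic0.mk D₀} ≠ 0 := by
      intro h0
      rw [h0, Nat.cast_zero, mul_zero] at hcount
      have h1 : (p : ℤ) ^ e ≤ ((p : ℤ) ^ e) ^ Module.finrank k (riemannRochSpace
          ((D₀ : Divisor k F) + Finsupp.single P₀ ((h75_genus k x : ℕ) : ℤ))) :=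
        le_self_pow₀ hq.le hpos.ne'
      linarith
    obtain ⟨E, hE0, hσE, hE, hmk⟩ := (Nat.card_ne_zero.mp hne).1.some
    exact ⟨⟨E, hE0, hσE, hE⟩, Subtype.ext hmk⟩
  have hfinX : ∀ n : ℕ, Finite {E : Divisor k F // 0 ≤ E ∧ σ • E = E ∧ Divisor.degree E = n} :=
    fun n => h73_finite_inv_eff hx he σ hσ hper n
  have hfinC : Finite {c : Pic0 k F // σ • c = c} := Finite.of_surjective _ hsurj
  refine ⟨hfinC, ?_⟩
  have := Fintype.ofFinite {c : Pic0 k F // σ • c = c}
  rw [finsum_eq_sum_of_fintype]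
  -- count `X_d` along the fibres of `κ_d`
  have hcard : (Nat.card {E : Divisor k F // 0 ≤ E ∧ σ • E = E ∧ Divisor.degree E = d}) =
      ∑ c : {c : Pic0 k F // σ • c = c},
        Nat.card {E : {E : Divisor k F // 0 ≤ E ∧ σ • E = E ∧ Divisor.degree E = d} //
          κ d E = c} := by
    rw [← Nat.card_congr (Equiv.sigmaFiberEquiv (κ d)), Nat.card_sigma]
  unfold h73_a
  rw [hcard, Nat.cast_sum, Finset.mul_sum]
  refine Finset.sum_congr rfl fun c _ => ?_
  obtain ⟨c, hc⟩ := c
  obtain ⟨D₀, rfl⟩ := Pic0.mk_surjective c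
  obtain ⟨eqv⟩ := hfib d D₀ hc
  rw [Nat.card_congr eqv, (h52_fibre_count hx he σ hσ P₀ hP₀ d D₀ hc).2, hl D₀]

end Fermat.Agent.S27
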