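import Mathlib
import Fermat.Agent.S27.FrobClass
import Fermat.Agent.S27.RRFull
import Fermat.Agent.S27.h68_RRCons

/-!
# S27 / B6-4 COUNT-STABLE (row 495, helper74)

The two Riemann--Roch inputs of the zeta function of a Frobenius structure `σ` of level
`q = p ^ e` with a fixed place `P₀` (exports of the B6 skeleton of helper73, VERBATIM):

* `h73_stable` : for `d ≥ 2g - 1`, `(q - 1) a_d = h (q ^ (d + 1 - g) - 1)`;
* `h73_edge`   : for `g ≥ 1`, `(q - 1) a_{2g-2} = q ^ (g - 1) (q - 1) + h (q ^ (g - 1) - 1)`.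

Both follow from the class decomposition `h73_class_count` (row 494) and the full Riemann--Roch
theorem (`RRFull`, `h68_RRCons`): every class of degree `d > 2g - 2` has `l = d + 1 - g`, and a
class of degree `2g - 2` has `l = g - 1` except the canonical class, which has `l = g` and is
fixed by `σ`.
-/

set_option autoImplicit false

open AlgebraicCurve Fermat.Agent.S18

namespace Fermat.Agent.S27

/-! ### Two finite sums -/

/-- the finite sum of a constant. -/
theorem h74_finsum_const {α : Type*} [Finite α] (c : ℤ) :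
    ∑ᶠ _ : α, c = (Nat.card α : ℤ) * c := by
  have := Fintype.ofFinite α
  rw [finsum_eq_sum_of_fintype, Finset.sum_const, Finset.card_univ, Nat.card_eq_fintype_card,
    nsmul_eq_mul]

/-- the finite sum of a function that is constant off one point. -/
theorem h74_finsum_off_point {α : Type*} [Finite α] (a₀ : α) (A B : ℤ) (f : α → ℤ)
    (hf0 : f a₀ = A) (hf : ∀ a, a ≠ a₀ → f a = B) :
    ∑ᶠ a : α, f a = A + ((Nat.card α : ℤ) - 1) * B := by
  classical
  have := Fintype.ofFinite α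
  rw [finsum_eq_sum_of_fintype, ← Finset.add_sum_erase Finset.univ f (Finset.mem_univ a₀), hf0]
  congr 1
  rw [Finset.sum_congr rfl (fun a ha => hf a (Finset.ne_of_mem_erase ha)), Finset.sum_const,
    Finset.card_erase_of_mem (Finset.mem_univ a₀), Finset.card_univ, Nat.card_eq_fintype_card,
    nsmul_eq_mul]
  have h1 : 1 ≤ Fintype.card α := Fintype.card_pos_iff.mpr ⟨a₀⟩
  rw [Nat.cast_sub h1]
  simp

section Semi

variable {K F : Type*} [Field K] [Field F] [Algebra K F]

/-- a semilinear automorphism maps canonical divisors to canonical divisors. -/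
theorem h74_smul_canonical (σ : h57_SemiAut K F) {x : F} {W : Divisor K F}
    (hW : h68_IsCanonical x W) : h68_IsCanonical x (σ • W) := by
  intro D
  have h := hW (σ⁻¹ • D)
  rw [h57_finrank_rr_smul, h57_degree_smul] at h
  have h2 : σ • W - D = σ • (W - σ⁻¹ • D) := by
    rw [smul_sub, smul_inv_smul]
  rw [h2, h57_finrank_rr_smul]
  exact h

/-- the inverse of `f` is a section of `div f`. -/
theorem h74_inv_mem_rr {E : Divisor K F} {f : F} (hf : ∀ v : Place K F, E v = v.ord f) :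
    f⁻¹ ∈ riemannRochSpace E := by
  rw [mem_riemannRochSpace_iff]
  intro v
  right
  rw [Place.ord_inv, hf v]

end Semi

variable {k F : Type*} [Field k] [IsAlgClosed k] [Field F] [Algebra k F]
variable {p e : ℕ} [Fact p.Prime] [CharP k p]

/-- `deg (D₀ + d P₀) = d` for `D₀` of degree zero. -/
theorem h74_degree_add_single {x : F} (hx : h75_IsChart k x)
    (D₀ : Divisor.degZero (K := k) (F := F)) (P₀ : Place k F) (d : ℕ) :
    Divisor.degree ((D₀ : Divisor k F) + Finsupp.single P₀ (d : ℤ)) = d := by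
  rw [map_add, Divisor.degree_single, h75_deg_eq_one hx P₀, Divisor.mem_degZero.mp D₀.2]
  simp

/-- a principal divisor has a nonzero section. -/
theorem h74_finrank_pos_of_principal {x : F} (hx : h75_IsChart k x) {E : Divisor k F}
    (hE : E ∈ Divisor.principal (K := k) (F := F)) :
    0 < Module.finrank k ↥(riemannRochSpace E) := by
  obtain ⟨f, hf0, hf⟩ := hE
  have := (h75_riemann hx E).1
  exact Module.finrank_pos_iff_exists_ne_zero.mpr
    ⟨⟨f⁻¹, h74_inv_mem_rr hf⟩, fun h => inv_ne_zero hf0 (congrArg Subtype.val h)⟩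

/-- degree `≥ 2g - 1`: every invariant class contributes `(q ^ (d + 1 - g) - 1) / (q - 1)`. -/
theorem h73_stable {x : F} (hx : h75_IsChart k x) (he : 0 < e) (σ : h57_SemiAut k F)
    (hσ : h57_IsFrob (p ^ e) σ) (hper : h73_Periodic σ)
    (P₀ : Place k F) (hP₀ : σ • P₀ = P₀) (d : ℕ) (hd : 2 * h75_genus k x ≤ d + 1) :
    ((p : ℤ) ^ e - 1) * h73_a σ d =
      h73_h σ * (((p : ℤ) ^ e) ^ (d + 1 - h75_genus k x) - 1) := by
  obtain ⟨hfin, hcount⟩ := h73_class_count hx he σ hσ hper P₀ hP₀ d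
    (fun _ => d + 1 - h75_genus k x) (fun D₀ => by
      have hdeg := h74_degree_add_single hx D₀ P₀ d
      have h := h15_finrank_rr_of_deg hx ((D₀ : Divisor k F) + Finsupp.single P₀ (d : ℤ))
        (by rw [hdeg]; omega)
      rw [hdeg] at h
      omega)
  rw [hcount, h74_finsum_const]
  rfl

/-- degree `2g - 2`: `l = g - 1` except for the canonical class (which is invariant, `l = g`). -/
theorem h73_edge {x : F} (hx : h75_IsChart k x) (he : 0 < e) (σ : h57_SemiAut k F)
    (hσ : h57_IsFrob (p ^ e) σ) (hper : h73_Periodic σ)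
    (P₀ : Place k F) (hP₀ : σ • P₀ = P₀) (hg : 1 ≤ h75_genus k x) :
    ((p : ℤ) ^ e - 1) * h73_a σ (2 * h75_genus k x - 2) =
      ((p : ℤ) ^ e) ^ (h75_genus k x - 1) * ((p : ℤ) ^ e - 1) +
        h73_h σ * (((p : ℤ) ^ e) ^ (h75_genus k x - 1) - 1) := by
  classical
  obtain ⟨W, hW⟩ := h68_exists_canonical hx
  have hWdeg := h68_canonical_degree hx hW
  have hdZ : ((2 * h75_genus k x - 2 : ℕ) : ℤ) = 2 * (h75_genus k x : ℤ) - 2 := by omega
  have hW₀ : W - Finsupp.single P₀ ((2 * h75_genus k x - 2 : ℕ) : ℤ) ∈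
      Divisor.degZero (K := k) (F := F) := by
    rw [Divisor.mem_degZero, map_sub, Divisor.degree_single, h75_deg_eq_one hx P₀, hWdeg, hdZ]
    simp
  -- the canonical class is invariant
  have hinv : σ • Pic0.mk ⟨W - Finsupp.single P₀ ((2 * h75_genus k x - 2 : ℕ) : ℤ), hW₀⟩ =
      Pic0.mk ⟨W - Finsupp.single P₀ ((2 * h75_genus k x - 2 : ℕ) : ℤ), hW₀⟩ := by
    rw [h57_smul_mk_eq_iff]
    show σ • (W - Finsupp.single P₀ ((2 * h75_genus k x - 2 : ℕ) : ℤ)) -
      (W - Finsupp.single P₀ ((2 * h75_genus k x - 2 : ℕ) : ℤ)) ∈ _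
    rw [smul_sub, h57_smul_single, hP₀]
    obtain ⟨f, hf0, hf⟩ := h68_canonical_unique hx (h74_smul_canonical σ hW) hW
    refine ⟨f, hf0, fun v => ?_⟩
    rw [← hf v]
    simp only [Finsupp.sub_apply]
    ring
  -- the rank function of the classes of degree `2g - 2`
  have hl : ∀ D₀ : Divisor.degZero (K := k) (F := F),
      (if Pic0.mk D₀ =
          Pic0.mk ⟨W - Finsupp.single P₀ ((2 * h75_genus k x - 2 : ℕ) : ℤ), hW₀⟩
        then h75_genus k x else h75_genus k x - 1) =
      Module.finrank k (riemannRochSpace ((D₀ : Divisor k F) +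
        Finsupp.single P₀ ((2 * h75_genus k x - 2 : ℕ) : ℤ))) := by
    intro D₀
    have hDdeg : Divisor.degree ((D₀ : Divisor k F) +
        Finsupp.single P₀ ((2 * h75_genus k x - 2 : ℕ) : ℤ)) = 2 * (h75_genus k x : ℤ) - 2 := by
      rw [h74_degree_add_single hx D₀ P₀, hdZ]
    have hcl : Pic0.mk D₀ =
        Pic0.mk ⟨W - Finsupp.single P₀ ((2 * h75_genus k x - 2 : ℕ) : ℤ), hW₀⟩ ↔
        W - ((D₀ : Divisor k F) + Finsupp.single P₀ ((2 * h75_genus k x - 2 : ℕ) : ℤ)) ∈
          Divisor.principal (K := k) (F := F) := by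
      rw [h57_mk_eq_mk_iff]
      have h3 : (W - Finsupp.single P₀ ((2 * h75_genus k x - 2 : ℕ) : ℤ)) - (D₀ : Divisor k F) =
          W - ((D₀ : Divisor k F) + Finsupp.single P₀ ((2 * h75_genus k x - 2 : ℕ) : ℤ)) := by
        abel
      show (W - Finsupp.single P₀ ((2 * h75_genus k x - 2 : ℕ) : ℤ)) - (D₀ : Divisor k F) ∈ _ ↔ _
      rw [h3]
    by_cases hc : Pic0.mk D₀ =
        Pic0.mk ⟨W - Finsupp.single P₀ ((2 * h75_genus k x - 2 : ℕ) : ℤ), hW₀⟩
    · rw [if_pos hc]
      have hpos := h74_finrank_pos_of_principal hx (hcl.mp hc)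
      rcases h68_rr_edge hx hW _ hDdeg with h1 | ⟨h1, -⟩
      · have h := hW ((D₀ : Divisor k F) + Finsupp.single P₀ ((2 * h75_genus k x - 2 : ℕ) : ℤ))
        rw [hDdeg] at h
        omega
      · exact h1.symm
    · rw [if_neg hc]
      rcases h68_rr_edge hx hW _ hDdeg with h1 | ⟨-, f, hf0, hf⟩
      · omega
      · exact absurd (hcl.mpr ⟨f, hf0, fun v => by rw [Finsupp.sub_apply]; exact hf v⟩) hc
  obtain ⟨hfin, hcount⟩ := h73_class_count hx he σ hσ hper P₀ hP₀ (2 * h75_genus k x - 2)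
    (fun c => if c = Pic0.mk ⟨W - Finsupp.single P₀ ((2 * h75_genus k x - 2 : ℕ) : ℤ), hW₀⟩
      then h75_genus k x else h75_genus k x - 1) hl
  rw [hcount, h74_finsum_off_point
    (⟨Pic0.mk ⟨W - Finsupp.single P₀ ((2 * h75_genus k x - 2 : ℕ) : ℤ), hW₀⟩, hinv⟩ :
      {c : Pic0 k F // σ • c = c})
    (((p : ℤ) ^ e) ^ h75_genus k x - 1) (((p : ℤ) ^ e) ^ (h75_genus k x - 1) - 1) _
    (by simp) (fun a ha => by
      have hne : a.1 ≠ Pic0.mk ⟨W - Finsupp.single P₀ ((2 * h75_genus k x - 2 : ℕ) : ℤ), hW₀⟩ :=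
        fun h => ha (Subtype.ext h)
      simp [hne])]
  have hpow : ((p : ℤ) ^ e) ^ h75_genus k x =
      ((p : ℤ) ^ e) ^ (h75_genus k x - 1) * (p : ℤ) ^ e := by
    rw [← pow_succ, Nat.sub_add_cancel hg]
  unfold h73_h
  rw [hpow]
  ring

end Fermat.Agent.S27
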