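import Mathlib

set_option autoImplicit false

open PowerSeries

namespace Fermat.Agent.S27

/-
# S27 / ZETA-ABS  (helper90)

Abstract (Mathlib-only) zeta-function package for a curve of genus `g` over `𝔽_q`.

Input: integer sequences
* `a d` = number of effective divisors of degree `d` (over `𝔽_q`),
* `N s` = number of points over `𝔽_{q^s}`,
* `h`   = class number,
subject to (`h90_ZetaData q g h a N`):
* `a0`     : `a 0 = 1`,
* `recur`  : `d · a d = ∑_{s=1}^{d} N s · a (d - s)`        (Euler product, log-derivative form),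
* `stable` : `(q - 1) · a d = h · (q^{d+1-g} - 1)` for `d ≥ 2g - 1`        (Riemann-Roch),
* `edge`   : `(q - 1) · a (2g-2) = q^{g-1}(q - 1) + h · (q^{g-1} - 1)` for `g ≥ 1`.

Output:
* `h90_zeta_matrix`   : from the data at all levels `q^r`, an integer `2g × 2g` matrix `C` with
  `det C = q^g` and `h_r = det (1 - C^r)` for all `r ≥ 1`;
* `h90_zeta_no_cover` : two such data sets over the same `q` cannot satisfy `N' s = l · N s`
  for all `s ≥ 1` with `l ≥ 2` and `h ≠ 0`.

The proofs use formal power series: `Z = ∑ a_d X^d`, rationality `(1-X)(1-qX) Z = P` with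
`P` an integer polynomial of degree `2g`, `P(0) = 1`, top coefficient `q^g`, `P(1) = h`;
the log-derivative relation `X f' = ν f` and its uniqueness in characteristic zero.
-/

section LD

variable {L : Type*} [Field L]

/-- logarithmic-derivative relation `X f' = ν f` -/
def h90_LD (f ν : L⟦X⟧) : Prop := (X : L⟦X⟧) * derivative L f = ν * f

theorem h90_LD_one : h90_LD (1 : L⟦X⟧) 0 := by
  simp [h90_LD]

theorem h90_LD_mul {f g ν μ : L⟦X⟧} (hf : h90_LD f ν) (hg : h90_LD g μ) :
    h90_LD (f * g) (ν + μ) := by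
  unfold h90_LD at *
  have : derivative L (f * g) = f * derivative L g + g * derivative L f := by
    simp [smul_eq_mul]
  rw [this]
  linear_combination f * hg + g * hf

/-- the series `∑_{s ≥ 1} α^s X^s` -/
noncomputable def h90_geo (α : L) : L⟦X⟧ := PowerSeries.mk fun s => if s = 0 then 0 else α ^ s

theorem h90_coeff_geo (α : L) (s : ℕ) :
    coeff s (h90_geo α) = if s = 0 then 0 else α ^ s := by
  simp [h90_geo]

theorem h90_constantCoeff_geo (α : L) : constantCoeff (h90_geo α) = 0 := by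
  rw [← coeff_zero_eq_constantCoeff_apply, h90_coeff_geo]; simp

theorem h90_LD_lin (α : L) : h90_LD (1 - C α * X : L⟦X⟧) (-h90_geo α) := by
  unfold h90_LD
  ext n
  rcases n with _ | n
  · simp [h90_constantCoeff_geo]
  · rw [coeff_succ_X_mul]
    simp only [map_sub, derivative_one, zero_sub, neg_mul, map_neg]
    rw [mul_sub, mul_one, map_sub, ← mul_assoc, coeff_succ_mul_X]
    simp only [Derivation.leibniz, derivative_C, derivative_X, smul_eq_mul, mul_one, mul_zero,
      add_zero, coeff_mul_C, h90_coeff_geo, coeff_C]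
    rcases n with _ | n
    · simp
    · simp [pow_succ]

/-- uniqueness of the solution of `X f' = ν f` with given constant coefficient (char 0) -/
theorem h90_LD_unique [CharZero L] {f g ν : L⟦X⟧} (hν : constantCoeff ν = 0) (hf : h90_LD f ν)
    (hg : h90_LD g ν) (h0 : constantCoeff f = constantCoeff g) : f = g := by
  unfold h90_LD at *
  have key : ∀ (u : L⟦X⟧), (X : L⟦X⟧) * derivative L u = ν * u → constantCoeff u = 0 → u = 0 := by
    intro u hu hu0
    ext n
    induction n using Nat.strong_induction_on with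
    | _ n ih =>
      rcases n with _ | n
      · simpa using hu0
      · have h1 := congrArg (coeff (n + 1)) hu
        rw [coeff_succ_X_mul, coeff_derivative] at h1
        have h2 : coeff (n + 1) (ν * u) = 0 := by
          rw [coeff_mul]
          apply Finset.sum_eq_zero
          intro p hp
          rw [Finset.HasAntidiagonal.mem_antidiagonal] at hp
          by_cases hp1 : p.1 = 0
          · rw [hp1]; simp [hν]
          · have : p.2 < n + 1 := by omega
            rw [ih p.2 this]; simp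
        rw [h2] at h1
        have h3 : ((n : L) + 1) ≠ 0 := by exact_mod_cast Nat.succ_ne_zero n
        simpa [h3] using h1
  have := key (f - g) (by rw [map_sub, mul_sub, mul_sub, hf, hg]) (by rw [map_sub, h0, sub_self])
  exact sub_eq_zero.mp this

/-- `ν` is determined by `f ≠ 0` -/
theorem h90_LD_nu_unique {f ν μ : L⟦X⟧} (hf0 : f ≠ 0) (hf : h90_LD f ν) (hg : h90_LD f μ) :
    ν = μ := by
  unfold h90_LD at *
  have : (ν - μ) * f = 0 := by rw [sub_mul, ← hf, ← hg, sub_self]
  rcases mul_eq_zero.mp this with h | h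
  · exact sub_eq_zero.mp h
  · exact absurd h hf0

end LD

structure h90_ZetaData (q g : ℕ) (h : ℤ) (a N : ℕ → ℤ) : Prop where
  a0 : a 0 = 1
  recur : ∀ d : ℕ, (d : ℤ) * a d = ∑ s ∈ Finset.Icc 1 d, N s * a (d - s)
  stable : ∀ d : ℕ, 2 * g ≤ d + 1 → ((q : ℤ) - 1) * a d = h * ((q : ℤ) ^ (d + 1 - g) - 1)
  edge : 1 ≤ g → ((q : ℤ) - 1) * a (2 * g - 2) =
    (q : ℤ) ^ (g - 1) * ((q : ℤ) - 1) + h * ((q : ℤ) ^ (g - 1) - 1)

section Rat

/-- numerator series `(1 - X)(1 - qX) Z` -/
noncomputable def h90_F (q : ℕ) (a : ℕ → ℤ) : ℤ⟦X⟧ :=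
  (1 - X) * (1 - C (q : ℤ) * X) * PowerSeries.mk a

theorem h90_coeff_F (q : ℕ) (a : ℕ → ℤ) (d : ℕ) :
    coeff d (h90_F q a) = a d - (1 + (q : ℤ)) * (if 1 ≤ d then a (d - 1) else 0)
      + (q : ℤ) * (if 2 ≤ d then a (d - 2) else 0) := by
  have : h90_F q a = PowerSeries.mk a - C (1 + (q : ℤ)) * (X ^ 1 * PowerSeries.mk a)
      + C (q : ℤ) * (X ^ 2 * PowerSeries.mk a) := by
    unfold h90_F
    rw [map_add, map_one]
    ring
  rw [this, map_add, map_sub, coeff_C_mul, coeff_C_mul, coeff_X_pow_mul', coeff_X_pow_mul']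
  simp only [coeff_mk]

variable {q g : ℕ} {h : ℤ} {a N : ℕ → ℤ}

theorem h90_coeff_F_eq_zero (hq : 2 ≤ q) (hZ : h90_ZetaData q g h a N) (d : ℕ) (hd : 2 * g < d) :
    coeff d (h90_F q a) = 0 := by
  have hq1 : ((q : ℤ) - 1) ≠ 0 := by
    have : (2 : ℤ) ≤ q := by exact_mod_cast hq
    omega
  apply mul_left_cancel₀ hq1
  rw [mul_zero, h90_coeff_F]
  obtain ⟨e, rfl⟩ : ∃ e, d = e + g + 1 := ⟨d - g - 1, by omega⟩
  have s0 := hZ.stable (e + g + 1) (by omega)
  have e0 : e + g + 1 + 1 - g = e + 2 := by omega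
  rw [e0] at s0
  by_cases h2 : 2 ≤ e + g + 1
  · have s1 := hZ.stable (e + g + 1 - 1) (by omega)
    have s2 := hZ.stable (e + g + 1 - 2) (by omega)
    have e1 : e + g + 1 - 1 + 1 - g = e + 1 := by omega
    have e2 : e + g + 1 - 2 + 1 - g = e := by omega
    rw [e1] at s1
    rw [e2] at s2
    rw [if_pos (by omega), if_pos h2]
    linear_combination s0 - (1 + (q : ℤ)) * s1 + (q : ℤ) * s2
  · have hg : g = 0 := by omega
    have he : e = 0 := by omega
    subst hg he
    have s1 := hZ.stable 0 (by omega)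
    simp only [Nat.zero_add, Nat.add_zero, Nat.sub_zero, pow_one] at s0 s1 ⊢
    rw [if_pos (by omega), if_neg (by omega)]
    simp only [Nat.sub_self]
    linear_combination s0 - (1 + (q : ℤ)) * s1

theorem h90_sum_coeff_F (q : ℕ) (a : ℕ → ℤ) (D : ℕ) :
    ∑ d ∈ Finset.range (D + 1), coeff d (h90_F q a) =
      a D - (q : ℤ) * (if 1 ≤ D then a (D - 1) else 0) := by
  induction D with
  | zero => simp [h90_coeff_F]
  | succ D ih =>
    rw [Finset.sum_range_succ, ih, h90_coeff_F]
    rcases D with _ | D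
    · simp
      ring
    · simp only [Nat.add_sub_cancel, show 1 ≤ D + 1 from by omega, show 1 ≤ D + 1 + 1 from by omega,
        show 2 ≤ D + 1 + 1 from by omega, if_true]
      have : D + 1 + 1 - 2 = D := by omega
      rw [this]
      ring

/-- the numerator polynomial -/
noncomputable def h90_P (q g : ℕ) (a : ℕ → ℤ) : Polynomial ℤ := (h90_F q a).trunc (2 * g + 1)

theorem h90_coe_P (hq : 2 ≤ q) (hZ : h90_ZetaData q g h a N) :
    ((h90_P q g a : Polynomial ℤ) : ℤ⟦X⟧) = h90_F q a := by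
  ext d
  rw [Polynomial.coeff_coe, h90_P, coeff_trunc]
  split_ifs with hd
  · rfl
  · exact (h90_coeff_F_eq_zero hq hZ d (by omega)).symm

theorem h90_P_coeff (q g : ℕ) (a : ℕ → ℤ) (d : ℕ) :
    (h90_P q g a).coeff d = if d < 2 * g + 1 then coeff d (h90_F q a) else 0 := by
  rw [h90_P, coeff_trunc]

theorem h90_P_coeff_zero (hZ : h90_ZetaData q g h a N) : (h90_P q g a).coeff 0 = 1 := by
  rw [h90_P_coeff, if_pos (by omega), h90_coeff_F]
  simp [hZ.a0]

theorem h90_P_coeff_top (hq : 2 ≤ q) (hZ : h90_ZetaData q g h a N) :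
    (h90_P q g a).coeff (2 * g) = (q : ℤ) ^ g := by
  rw [h90_P_coeff, if_pos (by omega), h90_coeff_F]
  have hq1 : ((q : ℤ) - 1) ≠ 0 := by
    have : (2 : ℤ) ≤ q := by exact_mod_cast hq
    omega
  rcases Nat.eq_zero_or_pos g with hg | hg
  · subst hg
    simp [hZ.a0]
  · apply mul_left_cancel₀ hq1
    obtain ⟨k, rfl⟩ : ∃ k, g = k + 1 := ⟨g - 1, by omega⟩
    have s0 := hZ.stable (2 * (k + 1)) (by omega)
    have s1 := hZ.stable (2 * (k + 1) - 1) (by omega)
    have s2 := hZ.edge (by omega)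
    have e0 : 2 * (k + 1) + 1 - (k + 1) = k + 2 := by omega
    have e1 : 2 * (k + 1) - 1 + 1 - (k + 1) = k + 1 := by omega
    have e2 : k + 1 - 1 = k := by omega
    rw [e0] at s0
    rw [e1] at s1
    rw [e2] at s2
    rw [if_pos (by omega), if_pos (by omega)]
    linear_combination s0 - (1 + (q : ℤ)) * s1 + (q : ℤ) * s2

theorem h90_P_eval_one (hq : 2 ≤ q) (hZ : h90_ZetaData q g h a N) :
    (h90_P q g a).eval 1 = h := by
  have hq1 : ((q : ℤ) - 1) ≠ 0 := by
    have : (2 : ℤ) ≤ q := by exact_mod_cast hq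
    omega
  have h1 : (h90_P q g a).eval 1 = ∑ d ∈ Finset.range (2 * g + 1), coeff d (h90_F q a) := by
    have hdeg : (h90_P q g a).natDegree < 2 * g + 1 := by
      have := natDegree_trunc_lt (h90_F q a) (2 * g)
      rw [h90_P]; omega
    rw [Polynomial.eval_eq_sum_range' hdeg]
    apply Finset.sum_congr rfl
    intro d hd
    rw [h90_P_coeff, if_pos (Finset.mem_range.mp hd)]
    simp
  rw [h1, h90_sum_coeff_F]
  apply mul_left_cancel₀ hq1
  rcases Nat.eq_zero_or_pos g with hg | hg
  · subst hg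
    have s0 := hZ.stable 0 (by omega)
    simp only [Nat.mul_zero, Nat.zero_add, Nat.sub_zero, pow_one] at s0 ⊢
    rw [if_neg (by omega)]
    linear_combination s0
  · obtain ⟨k, rfl⟩ : ∃ k, g = k + 1 := ⟨g - 1, by omega⟩
    have s0 := hZ.stable (2 * (k + 1)) (by omega)
    have s1 := hZ.stable (2 * (k + 1) - 1) (by omega)
    have e0 : 2 * (k + 1) + 1 - (k + 1) = k + 2 := by omega
    have e1 : 2 * (k + 1) - 1 + 1 - (k + 1) = k + 1 := by omega
    rw [e0] at s0
    rw [e1] at s1
    rw [if_pos (by omega)]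
    linear_combination s0 - (q : ℤ) * s1

theorem h90_P_natDegree (hq : 2 ≤ q) (hZ : h90_ZetaData q g h a N) :
    (h90_P q g a).natDegree = 2 * g := by
  apply le_antisymm
  · have := natDegree_trunc_lt (h90_F q a) (2 * g)
    rw [h90_P]; omega
  · apply Polynomial.le_natDegree_of_ne_zero
    rw [h90_P_coeff_top hq hZ]
    have : (q : ℤ) ≠ 0 := by
      have : (2 : ℤ) ≤ q := by exact_mod_cast hq
      omega
    exact pow_ne_zero _ this

end Rat

section Cplx

variable {q g : ℕ} {h : ℤ} {a N : ℕ → ℤ}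

/-- the zeta series over `ℂ` -/
noncomputable def h90_ZC (a : ℕ → ℤ) : ℂ⟦X⟧ := PowerSeries.mk fun d => (a d : ℂ)

/-- the series `∑_{s ≥ 1} N_s X^s` over `ℂ` -/
noncomputable def h90_NC (N : ℕ → ℤ) : ℂ⟦X⟧ :=
  PowerSeries.mk fun s => if s = 0 then 0 else (N s : ℂ)

theorem h90_constantCoeff_NC (N : ℕ → ℤ) : constantCoeff (h90_NC N) = 0 := by
  rw [← coeff_zero_eq_constantCoeff_apply, h90_NC, coeff_mk]; simp

theorem h90_LD_Z (hZ : h90_ZetaData q g h a N) : h90_LD (h90_ZC a) (h90_NC N) := by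
  unfold h90_LD
  ext n
  rcases n with _ | n
  · simp [h90_constantCoeff_NC]
  · rw [coeff_succ_X_mul, coeff_derivative, coeff_mul,
      Finset.Nat.sum_antidiagonal_eq_sum_range_succ_mk, Finset.sum_range_succ']
    have hrec := hZ.recur (n + 1)
    have hrecC : ((n : ℂ) + 1) * (a (n + 1) : ℂ) =
        ∑ s ∈ Finset.Icc 1 (n + 1), (N s : ℂ) * (a (n + 1 - s) : ℂ) := by
      exact_mod_cast hrec
    have hsum : ∑ s ∈ Finset.Icc 1 (n + 1), (N s : ℂ) * (a (n + 1 - s) : ℂ) =
        ∑ k ∈ Finset.range (n + 1), (N (k + 1) : ℂ) * (a (n + 1 - (k + 1)) : ℂ) := by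
      refine Finset.sum_nbij' (fun s => s - 1) (fun k => k + 1) ?_ ?_ ?_ ?_ ?_
      · intro s hs
        rw [Finset.mem_Icc] at hs
        rw [Finset.mem_range]; omega
      · intro k hk
        rw [Finset.mem_range] at hk
        rw [Finset.mem_Icc]; omega
      · intro s hs
        rw [Finset.mem_Icc] at hs
        show s - 1 + 1 = s
        omega
      · intro k _
        show k + 1 - 1 = k
        omega
      · intro s hs
        rw [Finset.mem_Icc] at hs
        have : s - 1 + 1 = s := by omega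
        rw [this]
    simp only [h90_ZC, h90_NC, coeff_mk, Nat.succ_ne_zero, if_false, if_true, zero_mul, add_zero]
    rw [mul_comm, hrecC, hsum]

theorem h90_coe_PC (hq : 2 ≤ q) (hZ : h90_ZetaData q g h a N) :
    (((h90_P q g a).map (Int.castRingHom ℂ) : Polynomial ℂ) : ℂ⟦X⟧) =
      (1 - X) * (1 - C (q : ℂ) * X) * h90_ZC a := by
  rw [Polynomial.polynomial_map_coe, h90_coe_P hq hZ, h90_F]
  simp only [map_mul, map_sub, map_one, PowerSeries.map_X, PowerSeries.map_C]
  congr 1

theorem h90_LD_PC (hq : 2 ≤ q) (hZ : h90_ZetaData q g h a N) :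
    h90_LD (((h90_P q g a).map (Int.castRingHom ℂ) : Polynomial ℂ) : ℂ⟦X⟧)
      (-h90_geo 1 + -h90_geo (q : ℂ) + h90_NC N) := by
  rw [h90_coe_PC hq hZ]
  have h1 := h90_LD_lin (1 : ℂ)
  rw [map_one, one_mul] at h1
  exact h90_LD_mul (h90_LD_mul h1 (h90_LD_lin (q : ℂ))) (h90_LD_Z hZ)

/-- product of linear factors `1 - α X` -/
noncomputable def h90_linProd (m : Multiset ℂ) : Polynomial ℂ :=
  (m.map fun α => (1 - Polynomial.C α * Polynomial.X : Polynomial ℂ)).prod

theorem h90_linProd_zero : h90_linProd 0 = 1 := by simp [h90_linProd]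

theorem h90_linProd_cons (α : ℂ) (m : Multiset ℂ) :
    h90_linProd (α ::ₘ m) = (1 - Polynomial.C α * Polynomial.X) * h90_linProd m := by
  simp [h90_linProd]

theorem h90_eval_linProd (m : Multiset ℂ) (y : ℂ) :
    (h90_linProd m).eval y = (m.map fun α => 1 - α * y).prod := by
  induction m using Multiset.induction with
  | empty => simp [h90_linProd_zero]
  | cons α m ih => rw [h90_linProd_cons, Polynomial.eval_mul, ih]; simp

theorem h90_LD_linProd (m : Multiset ℂ) :
    h90_LD ((h90_linProd m : Polynomial ℂ) : ℂ⟦X⟧) (-(m.map h90_geo).sum) := by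
  induction m using Multiset.induction with
  | empty => simpa [h90_linProd_zero] using (h90_LD_one (L := ℂ))
  | cons α m ih =>
    rw [h90_linProd_cons, Polynomial.coe_mul, Multiset.map_cons, Multiset.sum_cons, neg_add]
    have h1 := h90_LD_lin α
    have : (((1 - Polynomial.C α * Polynomial.X : Polynomial ℂ)) : ℂ⟦X⟧) = 1 - C α * X := by
      simp
    rw [this]
    exact h90_LD_mul h1 ih

theorem h90_coeff_sum_geo (m : Multiset ℂ) (s : ℕ) (hs : s ≠ 0) :
    coeff s (m.map h90_geo).sum = (m.map fun α => α ^ s).sum := by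
  induction m using Multiset.induction with
  | empty => simp
  | cons α m ih =>
    rw [Multiset.map_cons, Multiset.sum_cons, map_add, ih, Multiset.map_cons, Multiset.sum_cons,
      h90_coeff_geo, if_neg hs]

theorem h90_constantCoeff_sum_geo (m : Multiset ℂ) :
    constantCoeff (m.map h90_geo).sum = 0 := by
  induction m using Multiset.induction with
  | empty => simp
  | cons α m ih =>
    rw [Multiset.map_cons, Multiset.sum_cons, map_add, ih, h90_constantCoeff_geo, add_zero]

/-- a complex polynomial with constant coefficient `1` is a product of factors `1 - α X` -/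
theorem h90_exists_linProd (P : Polynomial ℂ) (h0 : P.coeff 0 = 1) :
    ∃ m : Multiset ℂ, P = h90_linProd m := by
  have hsp := (IsAlgClosed.splits P).eq_prod_roots
  have hne : ∀ β ∈ P.roots, β ≠ 0 := by
    intro β hβ h
    have := (Polynomial.mem_roots'.mp hβ).2
    rw [h, Polynomial.IsRoot, ← Polynomial.coeff_zero_eq_eval_zero, h0] at this
    exact one_ne_zero this
  have key : ∀ s : Multiset ℂ, (∀ β ∈ s, β ≠ 0) →
      (s.map (Polynomial.X - Polynomial.C ·)).prod =
        Polynomial.C (s.map (-·)).prod * h90_linProd (s.map (·⁻¹)) := by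
    intro s
    induction s using Multiset.induction with
    | empty => intro _; simp [h90_linProd_zero]
    | cons β s ih =>
      intro hs
      have hβ : β ≠ 0 := hs β (Multiset.mem_cons_self β s)
      rw [Multiset.map_cons, Multiset.prod_cons, ih (fun b hb => hs b (Multiset.mem_cons_of_mem hb)),
        Multiset.map_cons, Multiset.prod_cons, Multiset.map_cons, h90_linProd_cons, map_mul]
      have : (Polynomial.X - Polynomial.C β : Polynomial ℂ) =
          Polynomial.C (-β) * (1 - Polynomial.C β⁻¹ * Polynomial.X) := by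
        rw [mul_sub, mul_one, ← mul_assoc, ← map_mul, neg_mul, mul_inv_cancel₀ hβ]
        simp
        ring
      rw [this]
      ring
  rw [key _ hne, ← mul_assoc, ← map_mul] at hsp
  refine ⟨P.roots.map (·⁻¹), ?_⟩
  have h1 : (h90_linProd (P.roots.map (·⁻¹))).coeff 0 = 1 := by
    rw [Polynomial.coeff_zero_eq_eval_zero, h90_eval_linProd]
    simp
  have h2 := congrArg (fun p : Polynomial ℂ => p.coeff 0) hsp
  simp only [Polynomial.coeff_C_mul, h1, mul_one, h0] at h2
  rw [← h2, map_one, one_mul] at hsp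
  exact hsp

end Cplx

section Matrix

/-- an integer matrix with prescribed monic characteristic polynomial -/
theorem h90_exists_matrix (f : Polynomial ℤ) (hf : f.Monic) (n : ℕ) (hn : f.natDegree = n) :
    ∃ M : Matrix (Fin n) (Fin n) ℤ, M.charpoly = f := by
  subst hn
  let pb := AdjoinRoot.powerBasis' hf
  have h1 : (Algebra.leftMulMatrix pb.basis pb.gen).charpoly = minpoly ℤ pb.gen :=
    charpoly_leftMulMatrix pb
  have h2 : f = minpoly ℤ pb.gen := by
    apply minpoly.unique' ℤ pb.gen hf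
    · show Polynomial.aeval (AdjoinRoot.root f) f = 0
      rw [AdjoinRoot.aeval_eq, AdjoinRoot.mk_self]
    · intro p hp
      by_cases hp0 : p = 0
      · exact Or.inl hp0
      · right
        show Polynomial.aeval (AdjoinRoot.root f) p ≠ 0
        rw [AdjoinRoot.aeval_eq, Ne, AdjoinRoot.mk_eq_zero]
        intro hdvd
        exact absurd (Polynomial.degree_le_of_dvd hdvd hp0) (not_le.mpr hp)
  exact ⟨Algebra.leftMulMatrix pb.basis pb.gen, h1.trans h2.symm⟩

theorem h90_reverse_reverse (P : Polynomial ℤ) (h0 : P.coeff 0 ≠ 0) : P.reverse.reverse = P := by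
  have ht : P.natTrailingDegree = 0 := Polynomial.natTrailingDegree_eq_zero.mpr (Or.inr h0)
  have hd : P.reverse.natDegree = P.natDegree := by
    rw [Polynomial.reverse_natDegree, ht, Nat.sub_zero]
  ext n
  rw [Polynomial.coeff_reverse, Polynomial.coeff_reverse, hd, Polynomial.revAt_invol]

theorem h90_eval_charpolyRev {n : ℕ} (M : Matrix (Fin n) (Fin n) ℤ) (ζ : ℂ) :
    (1 - ζ • M.map (Int.castRingHom ℂ)).det =
      (M.charpolyRev.map (Int.castRingHom ℂ)).eval ζ := by
  rw [Matrix.charpolyRev]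
  have := RingHom.map_det ((Polynomial.evalRingHom ζ).comp
    (Polynomial.mapRingHom (Int.castRingHom ℂ)))
    (1 - (Polynomial.X : Polynomial ℤ) • M.map Polynomial.C)
  rw [RingHom.comp_apply, Polynomial.coe_mapRingHom, Polynomial.coe_evalRingHom] at this
  rw [this]
  congr 1
  ext i j
  by_cases hij : i = j
  · subst hij
    simp
  · simp [hij]

theorem h90_prod_roots_of_unity (r : ℕ) (hr : 0 < r) (y : ℂ) :
    ∏ ζ ∈ Polynomial.nthRootsFinset r (1 : ℂ), (1 - ζ * y) = 1 - y ^ r := by
  have hprim := Complex.isPrimitiveRoot_exp r hr.ne'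
  have hcard := hprim.card_nthRootsFinset
  have hX := Polynomial.X_pow_sub_one_eq_prod hr hprim
  by_cases hy : y = 0
  · subst hy
    simp [hr.ne']
  · have h1 := congrArg (Polynomial.eval y⁻¹) hX
    rw [Polynomial.eval_prod] at h1
    simp only [Polynomial.eval_sub, Polynomial.eval_pow, Polynomial.eval_X, Polynomial.eval_one,
      Polynomial.eval_C] at h1
    have h2 : ∏ ζ ∈ Polynomial.nthRootsFinset r (1 : ℂ), (1 - ζ * y) =
        y ^ r * ∏ ζ ∈ Polynomial.nthRootsFinset r (1 : ℂ), (y⁻¹ - ζ) := by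
      have hc : y ^ r = ∏ _ζ ∈ Polynomial.nthRootsFinset r (1 : ℂ), y := by
        rw [Finset.prod_const, hcard]
      rw [hc, ← Finset.prod_mul_distrib]
      apply Finset.prod_congr rfl
      intro ζ _
      field_simp
    rw [h2, ← h1, mul_sub, mul_one, inv_pow, mul_inv_cancel₀ (pow_ne_zero r hy)]

theorem h90_det_one_sub_pow {n : ℕ} (A : Matrix (Fin n) (Fin n) ℂ) (r : ℕ) (hr : 0 < r) :
    (1 - A ^ r).det = ∏ ζ ∈ Polynomial.nthRootsFinset r (1 : ℂ), (1 - ζ • A).det := by
  have hpoly : ∏ ζ ∈ Polynomial.nthRootsFinset r (1 : ℂ),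
      (1 - Polynomial.C ζ * Polynomial.X : Polynomial ℂ) = 1 - Polynomial.X ^ r := by
    apply Polynomial.funext
    intro y
    rw [Polynomial.eval_prod]
    simp only [Polynomial.eval_sub, Polynomial.eval_one, Polynomial.eval_mul, Polynomial.eval_C,
      Polynomial.eval_X, Polynomial.eval_pow]
    exact h90_prod_roots_of_unity r hr y
  let Φ : Polynomial ℂ →* ℂ :=
    (Matrix.detMonoidHom (n := Fin n) (R := ℂ)).comp
      ((Polynomial.aeval A : Polynomial ℂ →ₐ[ℂ] Matrix (Fin n) (Fin n) ℂ) : Polynomial ℂ →* _)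
  have h1 := congrArg Φ hpoly
  rw [map_prod] at h1
  have h2 : Φ (1 - Polynomial.X ^ r) = (1 - A ^ r).det := by
    show (Polynomial.aeval A (1 - Polynomial.X ^ r)).det = _
    simp
  have h3 : ∀ ζ : ℂ, Φ (1 - Polynomial.C ζ * Polynomial.X) = (1 - ζ • A).det := by
    intro ζ
    show (Polynomial.aeval A (1 - Polynomial.C ζ * Polynomial.X)).det = _
    congr 1
    simp [Algebra.algebraMap_eq_smul_one]
  rw [h2] at h1
  rw [← h1]
  exact Finset.prod_congr rfl fun ζ _ => (h3 ζ)

theorem h90_prod_swap {ι : Type*} (S : Finset ι) (m : Multiset ℂ) (F : ℂ → ι → ℂ) :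
    ∏ ζ ∈ S, (m.map fun α => F α ζ).prod = (m.map fun α => ∏ ζ ∈ S, F α ζ).prod := by
  induction m using Multiset.induction with
  | empty => simp
  | cons α m ih =>
    simp only [Multiset.map_cons, Multiset.prod_cons]
    rw [Finset.prod_mul_distrib, ih]

end Matrix

section Main

variable {q g : ℕ}

theorem h90_linProd_coe_ne_zero (m : Multiset ℂ) :
    ((h90_linProd m : Polynomial ℂ) : ℂ⟦X⟧) ≠ 0 := by
  intro h
  have h1 : h90_linProd m = 0 := Polynomial.coe_injective ℂ (by rw [h]; simp)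
  have h2 := h90_eval_linProd m 0
  rw [h1] at h2
  simp at h2

/-- power sums of the inverse roots: `N_s = 1 + q^s - ∑ α^s` -/
theorem h90_powerSum (hq : 2 ≤ q) {h : ℤ} {a N : ℕ → ℤ} (hZ : h90_ZetaData q g h a N)
    (m : Multiset ℂ) (hm : (h90_P q g a).map (Int.castRingHom ℂ) = h90_linProd m) (s : ℕ)
    (hs : s ≠ 0) : (N s : ℂ) = 1 + (q : ℂ) ^ s - (m.map fun α => α ^ s).sum := by
  have h1 := h90_LD_PC hq hZ
  rw [hm] at h1
  have h3 := h90_LD_nu_unique (h90_linProd_coe_ne_zero m) h1 (h90_LD_linProd m)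
  have h4 := congrArg (coeff s) h3
  rw [map_add, map_add, map_neg, map_neg, map_neg, h90_coeff_geo, h90_coeff_geo, if_neg hs,
    if_neg hs, h90_coeff_sum_geo m s hs, h90_NC, coeff_mk, if_neg hs, one_pow] at h4
  linear_combination h4

/-- the numerator at level `r` has the `r`-th powers as inverse roots -/
theorem h90_level (hq : 2 ≤ q) {h1 : ℤ} {a1 N : ℕ → ℤ} (hZ1 : h90_ZetaData q g h1 a1 N)
    (m : Multiset ℂ) (hm : (h90_P q g a1).map (Int.castRingHom ℂ) = h90_linProd m) (r : ℕ)
    (hr : 0 < r) {hr' : ℤ} {ar : ℕ → ℤ}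
    (hZr : h90_ZetaData (q ^ r) g hr' ar (fun s => N (r * s))) :
    (h90_P (q ^ r) g ar).map (Int.castRingHom ℂ) = h90_linProd (m.map (· ^ r)) := by
  have hqr : 2 ≤ q ^ r := le_trans hq (Nat.le_self_pow hr.ne' q)
  apply Polynomial.coe_injective ℂ
  have hν : constantCoeff (-((m.map (· ^ r)).map h90_geo).sum) = 0 := by
    rw [map_neg, h90_constantCoeff_sum_geo, neg_zero]
  refine h90_LD_unique hν ?_ (h90_LD_linProd _) ?_
  · have h1 := h90_LD_PC hqr hZr
    convert h1 using 1
    ext s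
    by_cases hs : s = 0
    · subst hs
      rw [coeff_zero_eq_constantCoeff_apply, coeff_zero_eq_constantCoeff_apply, map_neg,
        h90_constantCoeff_sum_geo, map_add, map_add, map_neg, map_neg, h90_constantCoeff_geo,
        h90_constantCoeff_geo, h90_constantCoeff_NC]
      simp
    · rw [map_neg, h90_coeff_sum_geo _ s hs, map_add, map_add, map_neg, map_neg, h90_coeff_geo,
        h90_coeff_geo, if_neg hs, if_neg hs, h90_NC, coeff_mk, if_neg hs, one_pow,
        Multiset.map_map]
      have := h90_powerSum hq hZ1 m hm (r * s) (Nat.mul_ne_zero hr.ne' hs)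
      rw [this]
      push_cast
      simp only [Function.comp, ← pow_mul]
      ring
  · rw [Polynomial.constantCoeff_coe, Polynomial.constantCoeff_coe, Polynomial.coeff_map,
      h90_P_coeff_zero hZr, Polynomial.coeff_zero_eq_eval_zero, h90_eval_linProd]
    simp

/-- **ZETA-ABS, matrix form.**  From the counting data at all levels `r ≥ 1` (Euler product in
log-derivative form + Riemann-Roch in degrees `≥ 2g - 2`): an integer `2g × 2g` matrix `C` with
`det C = q^g` and `h_r = det(1 - C^r)` for all `r ≥ 1`. -/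
theorem h90_zeta_matrix (q g : ℕ) (hq : 2 ≤ q) (h : ℕ → ℤ) (a : ℕ → ℕ → ℤ) (N : ℕ → ℤ)
    (hZ : ∀ r : ℕ, 0 < r → h90_ZetaData (q ^ r) g (h r) (a r) (fun s => N (r * s))) :
    ∃ C : Matrix (Fin (2 * g)) (Fin (2 * g)) ℤ, C.det = (q : ℤ) ^ g ∧
      ∀ r : ℕ, 0 < r → h r = (1 - C ^ r).det := by
  have hZ1 : h90_ZetaData q g (h 1) (a 1) N := by
    have := hZ 1 one_pos
    simpa [pow_one, one_mul] using this
  have hP0 : (h90_P q g (a 1)).coeff 0 = 1 := h90_P_coeff_zero hZ1
  have hPtop : (h90_P q g (a 1)).coeff (2 * g) = (q : ℤ) ^ g := h90_P_coeff_top hq hZ1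
  have hPdeg : (h90_P q g (a 1)).natDegree = 2 * g := h90_P_natDegree hq hZ1
  have hP0' : (h90_P q g (a 1)).coeff 0 ≠ 0 := by rw [hP0]; exact one_ne_zero
  have ht : (h90_P q g (a 1)).natTrailingDegree = 0 :=
    Polynomial.natTrailingDegree_eq_zero.mpr (Or.inr hP0')
  have hfm : (h90_P q g (a 1)).reverse.Monic := by
    rw [Polynomial.Monic, Polynomial.reverse_leadingCoeff, Polynomial.trailingCoeff, ht, hP0]
  have hfd : (h90_P q g (a 1)).reverse.natDegree = 2 * g := by
    rw [Polynomial.reverse_natDegree, ht, Nat.sub_zero, hPdeg]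
  obtain ⟨M, hM⟩ := h90_exists_matrix _ hfm (2 * g) hfd
  have hrev : M.charpolyRev = h90_P q g (a 1) := by
    rw [← Matrix.reverse_charpoly, hM, h90_reverse_reverse _ hP0']
  refine ⟨M, ?_, ?_⟩
  · rw [Matrix.det_eq_sign_charpoly_coeff, hM, Polynomial.coeff_reverse, hPdeg, Fintype.card_fin,
      Polynomial.revAt_le (Nat.zero_le _), Nat.sub_zero, hPtop, pow_mul]
    simp
  · intro r hr
    obtain ⟨m, hm⟩ := h90_exists_linProd ((h90_P q g (a 1)).map (Int.castRingHom ℂ))
      (by rw [Polynomial.coeff_map, hP0]; simp)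
    have hlev := h90_level hq hZ1 m hm r hr (hZ r hr)
    have hqr : 2 ≤ q ^ r := le_trans hq (Nat.le_self_pow hr.ne' q)
    have e1 : ((h r : ℤ) : ℂ) = ((m.map (· ^ r)).map fun α => 1 - α * 1).prod := by
      rw [← h90_eval_linProd, ← hlev, Polynomial.eval_one_map, h90_P_eval_one hqr (hZ r hr)]
      simp
    have e2 : (((1 - M ^ r).det : ℤ) : ℂ) = ((m.map (· ^ r)).map fun α => 1 - α * 1).prod := by
      have hc : (((1 - M ^ r).det : ℤ) : ℂ) = (1 - (M.map (Int.castRingHom ℂ)) ^ r).det := by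
        have hdet : (((1 - M ^ r).det : ℤ) : ℂ) =
            ((Int.castRingHom ℂ).mapMatrix (1 - M ^ r)).det :=
          RingHom.map_det (Int.castRingHom ℂ) (1 - M ^ r)
        rw [hdet]
        congr 1
        rw [RingHom.mapMatrix_apply, Matrix.map_sub (f := Int.castRingHom ℂ) (map_sub _),
          Matrix.map_one _ (map_zero _) (map_one _),
          Matrix.map_pow (f := Int.castRingHom ℂ)]
      rw [hc, h90_det_one_sub_pow _ r hr]
      have hζ : ∀ ζ : ℂ, (1 - ζ • M.map (Int.castRingHom ℂ)).det =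
          (m.map fun α => 1 - α * ζ).prod := by
        intro ζ
        rw [h90_eval_charpolyRev, hrev, hm, h90_eval_linProd]
      simp only [hζ]
      rw [h90_prod_swap, Multiset.map_map]
      congr 1
      apply Multiset.map_congr rfl
      intro α _
      have := h90_prod_roots_of_unity r hr α
      simp only [Function.comp, mul_one]
      rw [← this]
      apply Finset.prod_congr rfl
      intro ζ _
      ring
    exact_mod_cast e1.trans e2.symm

theorem h90_LD_pow {L : Type*} [Field L] {f ν : L⟦X⟧} (hf : h90_LD f ν) (n : ℕ) :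
    h90_LD (f ^ n) (n • ν) := by
  induction n with
  | zero => simpa using (h90_LD_one (L := L))
  | succ n ih =>
    rw [pow_succ, succ_nsmul]
    exact h90_LD_mul ih hf

/-- **ZETA-ABS, no cover.**  Two function fields over the same finite field cannot have
`N'_s = l N_s` for all `s ≥ 1` (`l ≥ 2`): otherwise `Z' = Z^l`, and evaluating the numerators at
`T = 1` gives `0 = h^l`. -/
theorem h90_zeta_no_cover (q g g' : ℕ) (hq : 2 ≤ q) (h h' : ℤ) (hh : h ≠ 0) (a a' N N' : ℕ → ℤ)
    (hZ : h90_ZetaData q g h a N) (hZ' : h90_ZetaData q g' h' a' N') (l : ℕ) (hl : 2 ≤ l)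
    (hN : ∀ s, 0 < s → N' s = l * N s) : False := by
  obtain ⟨k, rfl⟩ : ∃ k, l = k + 1 := ⟨l - 1, by omega⟩
  have hk : k ≠ 0 := by omega
  set PC := (h90_P q g a).map (Int.castRingHom ℂ) with hPC
  set PC' := (h90_P q g' a').map (Int.castRingHom ℂ) with hPC'
  set Dp : Polynomial ℂ := (1 - Polynomial.X) * (1 - Polynomial.C (q : ℂ) * Polynomial.X) with hDp
  have hD : h90_LD ((Dp : Polynomial ℂ) : ℂ⟦X⟧) (-h90_geo 1 + -h90_geo (q : ℂ)) := by
    have h1 := h90_LD_lin (1 : ℂ)
    rw [map_one, one_mul] at h1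
    have h2 := h90_LD_mul h1 (h90_LD_lin (q : ℂ))
    have : ((Dp : Polynomial ℂ) : ℂ⟦X⟧) = (1 - X) * (1 - C (q : ℂ) * X) := by
      rw [hDp, Polynomial.coe_mul, Polynomial.coe_sub, Polynomial.coe_sub, Polynomial.coe_mul,
        Polynomial.coe_one, Polynomial.coe_X, Polynomial.coe_C]
    rw [this]
    exact h2
  have hNC : h90_NC N' = (k + 1) • h90_NC N := by
    ext s
    rw [map_nsmul, h90_NC, h90_NC, coeff_mk, coeff_mk]
    by_cases hs : s = 0
    · simp [hs]
    · rw [if_neg hs, if_neg hs, hN s (Nat.pos_of_ne_zero hs)]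
      push_cast
      simp [nsmul_eq_mul]
  have hL : h90_LD (((PC' * Dp ^ k : Polynomial ℂ)) : ℂ⟦X⟧)
      ((-h90_geo 1 + -h90_geo (q : ℂ) + h90_NC N') + k • (-h90_geo 1 + -h90_geo (q : ℂ))) := by
    rw [Polynomial.coe_mul, Polynomial.coe_pow]
    exact h90_LD_mul (h90_LD_PC hq hZ') (h90_LD_pow hD k)
  have hR : h90_LD (((PC ^ (k + 1) : Polynomial ℂ)) : ℂ⟦X⟧)
      ((k + 1) • (-h90_geo 1 + -h90_geo (q : ℂ) + h90_NC N)) := by
    rw [Polynomial.coe_pow]
    exact h90_LD_pow (h90_LD_PC hq hZ) (k + 1)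
  have hνeq : (-h90_geo 1 + -h90_geo (q : ℂ) + h90_NC N') + k • (-h90_geo 1 + -h90_geo (q : ℂ))
      = (k + 1) • (-h90_geo 1 + -h90_geo (q : ℂ) + h90_NC N) := by
    rw [hNC]
    simp only [nsmul_eq_mul]
    push_cast
    ring
  rw [hνeq] at hL
  have hν0 : constantCoeff ((k + 1) • (-h90_geo 1 + -h90_geo (q : ℂ) + h90_NC N)) = 0 := by
    rw [map_nsmul, map_add, map_add, map_neg, map_neg, h90_constantCoeff_geo,
      h90_constantCoeff_geo, h90_constantCoeff_NC]
    simp
  have hc0 : constantCoeff (((PC' * Dp ^ k : Polynomial ℂ)) : ℂ⟦X⟧) =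
      constantCoeff (((PC ^ (k + 1) : Polynomial ℂ)) : ℂ⟦X⟧) := by
    rw [Polynomial.constantCoeff_coe, Polynomial.constantCoeff_coe,
      Polynomial.coeff_zero_eq_eval_zero, Polynomial.coeff_zero_eq_eval_zero]
    simp only [Polynomial.eval_mul, Polynomial.eval_pow, ← Polynomial.coeff_zero_eq_eval_zero,
      hPC, hPC', Polynomial.coeff_map, h90_P_coeff_zero hZ, h90_P_coeff_zero hZ']
    simp [hDp]
  have heq := Polynomial.coe_injective ℂ (h90_LD_unique hν0 hL hR hc0)
  have h1 := congrArg (Polynomial.eval 1) heq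
  rw [Polynomial.eval_mul, Polynomial.eval_pow, Polynomial.eval_pow] at h1
  have hD1 : Dp.eval 1 = 0 := by simp [hDp]
  rw [hD1, zero_pow hk, mul_zero, hPC, Polynomial.eval_one_map, h90_P_eval_one hq hZ] at h1
  have : ((h : ℤ) : ℂ) ≠ 0 := by exact_mod_cast hh
  exact pow_ne_zero _ this h1.symm

end Main

end Fermat.Agent.S27
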