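import Fermat.Agent.S27.FrobRec
import Fermat.Agent.S27.FrobStable
import Fermat.Agent.S27.FrobClass
import Fermat.Agent.S27.RRFull
import Fermat.Agent.S27.h90_ZetaAbs
import Fermat.Agent.S27.h57_Semilin
import Fermat.Agent.S27.h57_SemiAct
import Fermat.Agent.S27.h73_ZetaDefs

/-!
# S27 / B6-8 ZETA : assembly (helper73)

For a Frobenius structure `σ` of level `q = p ^ e` on a function field `F / k` with a chart `x`
and a `σ`-fixed place `P₀`, the counts `h73_a σ d` (invariant effective divisors of degree `d`),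
`h73_N σ s` (places fixed by `σ ^ s`) and `h73_h σ` (invariant classes of degree `0`) satisfy the
abstract zeta data `h90_ZetaData` (helper90); consequently the class numbers of all powers are
`h73_h (σ ^ r) = det (1 - C ^ r)` for one integer matrix `C` of size `2 g` with `det C = q ^ g`.

Inputs: `h73_a_zero`, `h73_a_rec` (row B6-5, `FrobRec`), `h73_stable`, `h73_edge`
(row B6-4, `FrobStable`), `h73_class_count` (row B6-3, `FrobClass`), `h90_zeta_matrix`
(`h90_ZetaAbs`).

Also: `h73_finite_inv_class` (finitely many invariant classes) and `h73_zeta_interface`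
(the shape consumed by block B8: finiteness + zeta data with the counts written out).
-/

set_option autoImplicit false

open AlgebraicCurve Fermat.Agent.S18

namespace Fermat.Agent.S27

variable {k F : Type*} [Field k] [IsAlgClosed k] [Field F] [Algebra k F]
variable {p e : ℕ} [Fact p.Prime] [CharP k p]

/-- the zeta data of a Frobenius structure with a fixed place. -/
theorem h73_zetaData {x : F} (hx : h75_IsChart k x) (he : 0 < e) (σ : h57_SemiAut k F)
    (hσ : h57_IsFrob (p ^ e) σ) (hper : h73_Periodic σ) (P₀ : Place k F) (hP₀ : σ • P₀ = P₀) :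
    h90_ZetaData (p ^ e) (h75_genus k x) (h73_h σ) (h73_a σ) (h73_N σ) :=
  { a0 := h73_a_zero hx σ
    recur := fun d => h73_a_rec hx he σ hσ hper d
    stable := fun d hd => by
      have := h73_stable hx he σ hσ hper P₀ hP₀ d hd
      push_cast
      exact this
    edge := fun hg => by
      have := h73_edge hx he σ hσ hper P₀ hP₀ hg
      push_cast
      exact this }

omit [IsAlgClosed k] in
/-- a place fixed by `σ` is fixed by every power of `σ`. -/
theorem h73_pow_smul_fixed (σ : h57_SemiAut k F) (P₀ : Place k F) (hP₀ : σ • P₀ = P₀) (r : ℕ) :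
    σ ^ r • P₀ = P₀ := by
  induction r with
  | zero => simp
  | succ r ih => rw [pow_succ, mul_smul, hP₀, ih]

/-- **B6 OUTPUT.** `#Pic⁰^{σ^r} = det (1 - C^r)` for an integer matrix `C` of size `2g` with
`det C = q ^ g`. -/
theorem h73_zeta_matrix {x : F} (hx : h75_IsChart k x) (he : 0 < e) (σ : h57_SemiAut k F)
    (hσ : h57_IsFrob (p ^ e) σ) (hper : h73_Periodic σ) (P₀ : Place k F) (hP₀ : σ • P₀ = P₀) :
    ∃ C : Matrix (Fin (2 * h75_genus k x)) (Fin (2 * h75_genus k x)) ℤ,
      C.det = ((p ^ e : ℕ) : ℤ) ^ h75_genus k x ∧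
      ∀ r : ℕ, 0 < r → h73_h (σ ^ r) = (1 - C ^ r).det := by
  have hq : 2 ≤ p ^ e := h57_one_lt_q p e he
  refine h90_zeta_matrix (p ^ e) (h75_genus k x) hq (fun r => h73_h (σ ^ r))
    (fun r => h73_a (σ ^ r)) (h73_N σ) (fun r hr => ?_)
  have hP₀r : σ ^ r • P₀ = P₀ := h73_pow_smul_fixed σ P₀ hP₀ r
  have hσr : h57_IsFrob (p ^ (e * r)) (σ ^ r) := by
    rw [pow_mul]
    exact hσ.pow r
  have h := h73_zetaData (p := p) (e := e * r) hx (Nat.mul_pos he hr) (σ ^ r) hσr (hper.pow r)
    P₀ hP₀r
  have hN : h73_N (σ ^ r) = fun s => h73_N σ (r * s) := funext fun s => h73_N_pow σ r s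
  rw [hN, pow_mul] at h
  exact h

/-- with a fixed place, the invariant classes of degree zero are finite in number. -/
theorem h73_finite_inv_class {x : F} (hx : h75_IsChart k x) (he : 0 < e) (σ : h57_SemiAut k F)
    (hσ : h57_IsFrob (p ^ e) σ) (hper : h73_Periodic σ) (P₀ : Place k F) (hP₀ : σ • P₀ = P₀) :
    Finite {c : Pic0 k F // σ • c = c} := by
  refine (h73_class_count hx he σ hσ hper P₀ hP₀ (2 * h75_genus k x)
    (fun _ => h75_genus k x + 1) (fun D₀ => ?_)).1
  have hdeg : Divisor.degree ((D₀ : Divisor k F) +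
      Finsupp.single P₀ ((2 * h75_genus k x : ℕ) : ℤ)) = 2 * (h75_genus k x : ℤ) := by
    rw [map_add, Divisor.degree_single, h75_deg_eq_one hx P₀, Divisor.mem_degZero.mp D₀.2]
    push_cast
    ring
  have h := h15_finrank_rr_of_deg hx ((D₀ : Divisor k F) +
    Finsupp.single P₀ ((2 * h75_genus k x : ℕ) : ℤ)) (by rw [hdeg]; omega)
  rw [hdeg] at h
  have h2 : (Module.finrank k (riemannRochSpace ((D₀ : Divisor k F) +
      Finsupp.single P₀ ((2 * h75_genus k x : ℕ) : ℤ))) : ℤ) = (h75_genus k x + 1 : ℕ) := by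
    rw [h]
    push_cast
    ring
  exact (Nat.cast_injective h2).symm

/-- **B6 interface for block B8.**  Finiteness of the invariant classes and the zeta data, with
the three counts written out. -/
theorem h73_zeta_interface {x : F} (hx : h75_IsChart k x) (he : 0 < e) (σ : h57_SemiAut k F)
    (hσ : h57_IsFrob (p ^ e) σ) (hper : h73_Periodic σ) (P₀ : Place k F) (hP₀ : σ • P₀ = P₀) :
    Finite {c : Pic0 k F // σ • c = c} ∧ ∃ a : ℕ → ℤ,
      h90_ZetaData (p ^ e) (h75_genus k x) (Nat.card {c : Pic0 k F // σ • c = c}) a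
        (fun s => (Nat.card {P : Place k F // (σ ^ s) • P = P} : ℤ)) :=
  ⟨h73_finite_inv_class hx he σ hσ hper P₀ hP₀, h73_a σ, h73_zetaData hx he σ hσ hper P₀ hP₀⟩

end Fermat.Agent.S27
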