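import Fermat.Agent.S27.h73_ZetaDefs
import Fermat.Agent.S18.h75_RRDefs

/-!
# S27 / B6 : existence of a Frobenius structure (helper28)

`K` algebraically closed of characteristic `p`, every element of `K` algebraic over `𝔽_p`
(`∀ a, ∃ n > 0, a ^ (p ^ n) = a`), `F / K` a function field with a chart `x`.  Then there are
`e > 0` and a semilinear automorphism `σ` of `F` with `σ c = c ^ (p ^ e)` on the constants
(`h57_IsFrob (p ^ e) σ`), every element of `F` fixed by a positive power of `σ`
(`h73_Periodic σ`) and `σ x = x`.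

Construction: `τ` := the automorphism of `K(x) = Frac K[x]` induced by the coefficientwise
`p`-Frobenius; every element of `K(x)` is `τ`-periodic; `y` a primitive element of `F / K(x)`
with minimal polynomial `Φ`; `e` := a period of `Φ`; `τ ^ e` extends to `F = K(x)[Y]/Φ` by
`Y ↦ Y`.
-/

set_option autoImplicit false

open Polynomial IntermediateField

namespace Fermat.Agent.S27

open Fermat.Agent.S18

/-! ### Periodic elements of a ring automorphism -/

/-- an element fixed by `τ ^ n` is fixed by `τ ^ (n * m)`. -/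
theorem h28_pow_mul_fixed {R : Type*} [Semiring R] (τ : R ≃+* R) (n m : ℕ) (a : R)
    (h : (τ ^ n) a = a) : (τ ^ (n * m)) a = a := by
  induction m with
  | zero => simp
  | succ m ih => rw [Nat.mul_succ, pow_add, RingAut.mul_apply, h, ih]

/-- intertwining passes to powers. -/
theorem h28_pow_comm {R S : Type*} [Semiring R] [Semiring S] (j : R →+* S) (τ : R ≃+* R)
    (σ : S ≃+* S) (h : ∀ a, j (τ a) = σ (j a)) (n : ℕ) (a : R) :
    j ((τ ^ n) a) = (σ ^ n) (j a) := by
  induction n generalizing a with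
  | zero => simp
  | succ n ih => rw [pow_succ, pow_succ, RingAut.mul_apply, RingAut.mul_apply, ih, h]

/-- the periodic elements of a ring automorphism form a subring. -/
def h28_perSubring {R : Type*} [Ring R] (τ : R ≃+* R) : Subring R where
  carrier := {a | ∃ n : ℕ, 0 < n ∧ (τ ^ n) a = a}
  mul_mem' := by
    rintro a b ⟨n, hn, ha⟩ ⟨m, hm, hb⟩
    refine ⟨n * m, Nat.mul_pos hn hm, ?_⟩
    rw [map_mul, h28_pow_mul_fixed τ n m a ha, mul_comm n m, h28_pow_mul_fixed τ m n b hb]
  one_mem' := ⟨1, one_pos, map_one _⟩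
  add_mem' := by
    rintro a b ⟨n, hn, ha⟩ ⟨m, hm, hb⟩
    refine ⟨n * m, Nat.mul_pos hn hm, ?_⟩
    rw [map_add, h28_pow_mul_fixed τ n m a ha, mul_comm n m, h28_pow_mul_fixed τ m n b hb]
  zero_mem' := ⟨1, one_pos, map_zero _⟩
  neg_mem' := by
    rintro a ⟨n, hn, ha⟩
    exact ⟨n, hn, by rw [map_neg, ha]⟩

theorem h28_mem_perSubring {R : Type*} [Ring R] (τ : R ≃+* R) (a : R) :
    a ∈ h28_perSubring τ ↔ ∃ n : ℕ, 0 < n ∧ (τ ^ n) a = a := Iff.rfl

/-- the periodic elements of a field automorphism form a subfield. -/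
def h28_perSubfield {R : Type*} [Field R] (τ : R ≃+* R) : Subfield R where
  toSubring := h28_perSubring τ
  inv_mem' := by
    rintro a ⟨n, hn, ha⟩
    exact ⟨n, hn, by rw [map_inv₀, ha]⟩

theorem h28_mem_perSubfield {R : Type*} [Field R] (τ : R ≃+* R) (a : R) :
    a ∈ h28_perSubfield τ ↔ ∃ n : ℕ, 0 < n ∧ (τ ^ n) a = a := Iff.rfl

/-- a power of a periodic automorphism is periodic. -/
theorem h28_periodic_pow {R : Type*} [Semiring R] (τ : R ≃+* R)
    (h : ∀ a : R, ∃ n : ℕ, 0 < n ∧ (τ ^ n) a = a) (e : ℕ) (a : R) :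
    ∃ n : ℕ, 0 < n ∧ ((τ ^ e) ^ n) a = a := by
  obtain ⟨n, hn, ha⟩ := h a
  exact ⟨n, hn, by rw [← pow_mul, mul_comm]; exact h28_pow_mul_fixed τ n e a ha⟩

/-! ### Polynomials -/

/-- powers of the coefficientwise automorphism. -/
theorem h28_mapEquiv_pow {R : Type*} [CommRing R] (τ : R ≃+* R) (n : ℕ) (P : R[X]) :
    ((Polynomial.mapEquiv τ) ^ n) P = P.map ((τ ^ n : R ≃+* R) : R →+* R) := by
  induction n generalizing P with
  | zero =>
    simp only [pow_zero, RingAut.one_apply]
    have : (((1 : R ≃+* R)) : R →+* R) = RingHom.id R := rfl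
    rw [this, Polynomial.map_id]
  | succ n ih =>
    rw [pow_succ, RingAut.mul_apply, ih, Polynomial.mapEquiv_apply, Polynomial.map_map]
    congr 1

/-- coefficientwise periodicity: every polynomial over a ring with a periodic automorphism is
periodic. -/
theorem h28_periodic_poly {R : Type*} [CommRing R] (τ : R ≃+* R)
    (h : ∀ a : R, ∃ n : ℕ, 0 < n ∧ (τ ^ n) a = a) (P : R[X]) :
    ∃ n : ℕ, 0 < n ∧ ((Polynomial.mapEquiv τ) ^ n) P = P := by
  have hC : ∀ a : R, Polynomial.C a ∈ h28_perSubring (Polynomial.mapEquiv τ) := by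
    intro a
    obtain ⟨n, hn, ha⟩ := h a
    exact ⟨n, hn, by rw [h28_mapEquiv_pow, Polynomial.map_C, RingEquiv.coe_toRingHom, ha]⟩
  have hX : (Polynomial.X : R[X]) ∈ h28_perSubring (Polynomial.mapEquiv τ) :=
    ⟨1, one_pos, by rw [h28_mapEquiv_pow, Polynomial.map_X]⟩
  have : P ∈ h28_perSubring (Polynomial.mapEquiv τ) := by
    induction P using Polynomial.induction_on with
    | C a => exact hC a
    | add p q hp hq => exact add_mem hp hq
    | monomial n a _ => exact mul_mem (hC a) (pow_mem hX _)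
  exact this

/-! ### Fraction fields -/

/-- periodicity passes to the fraction field. -/
theorem h28_periodic_frac {A : Type*} [CommRing A] [IsDomain A] (Q : Type*) [Field Q]
    [Algebra A Q] [IsFractionRing A Q] (τ : A ≃+* A)
    (h : ∀ a : A, ∃ n : ℕ, 0 < n ∧ (τ ^ n) a = a) (r : Q) :
    ∃ n : ℕ, 0 < n ∧ ((IsFractionRing.ringEquivOfRingEquiv τ : Q ≃+* Q) ^ n) r = r := by
  have hA : ∀ a : A, algebraMap A Q a ∈
      h28_perSubfield (IsFractionRing.ringEquivOfRingEquiv τ : Q ≃+* Q) := by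
    intro a
    obtain ⟨n, hn, ha⟩ := h a
    refine ⟨n, hn, ?_⟩
    rw [← h28_pow_comm (algebraMap A Q) τ (IsFractionRing.ringEquivOfRingEquiv τ : Q ≃+* Q)
      (fun a => (IsFractionRing.ringEquivOfRingEquiv_algebraMap τ a).symm) n a, ha]
  obtain ⟨a, b, _, rfl⟩ := IsFractionRing.div_surjective (A := A) r
  exact div_mem (hA a) (hA b)

/-! ### Extension to a simple algebraic extension -/

/-- an automorphism `τ` of `L` fixing the minimal polynomial of a primitive element `y` of
`F / L` extends to an automorphism of `F` fixing `y`. -/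
theorem h28_extend {L F : Type*} [Field L] [Field F] [Algebra L F]
    (τ : L ≃+* L) (y : F) (hint : IsIntegral L y) (hy : L⟮y⟯ = ⊤)
    (hΦ : (minpoly L y).map (τ : L →+* L) = minpoly L y) :
    ∃ σ : F ≃+* F, (∀ c : L, σ (algebraMap L F c) = algebraMap L F (τ c)) ∧ σ y = y := by
  classical
  let E : AdjoinRoot (minpoly L y) ≃ₐ[L] F :=
    (IntermediateField.adjoinRootEquivAdjoin L hint).trans
      ((IntermediateField.equivOfEq hy).trans IntermediateField.topEquiv)
  have hE : E (AdjoinRoot.root (minpoly L y)) = y := by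
    simp only [E, AlgEquiv.trans_apply, IntermediateField.adjoinRootEquivAdjoin_apply_root]
    rfl
  have h0 : (minpoly L y).eval₂ ((algebraMap L F).comp (τ : L →+* L)) y = 0 := by
    rw [← Polynomial.eval₂_map, hΦ]
    exact minpoly.aeval L y
  let ψ : AdjoinRoot (minpoly L y) →+* F :=
    AdjoinRoot.lift ((algebraMap L F).comp (τ : L →+* L)) y h0
  let s : F →+* F := ψ.comp (E.symm : F →+* AdjoinRoot (minpoly L y))
  have hs1 : ∀ c : L, s (algebraMap L F c) = algebraMap L F (τ c) := by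
    intro c
    have : E.symm (algebraMap L F c) = AdjoinRoot.of (minpoly L y) c := by
      rw [AlgEquiv.commutes]; rfl
    simp only [s, RingHom.comp_apply, RingHom.coe_coe, this, ψ, AdjoinRoot.lift_of]
  have hs2 : s y = y := by
    have : E.symm y = AdjoinRoot.root (minpoly L y) := by
      rw [AlgEquiv.symm_apply_eq, hE]
    simp only [s, RingHom.comp_apply, RingHom.coe_coe, this, ψ, AdjoinRoot.lift_root]
  have hsurj : Function.Surjective s := by
    let M : IntermediateField L F := Subfield.toIntermediateField s.fieldRange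
      (fun c => ⟨algebraMap L F (τ.symm c), by rw [hs1, RingEquiv.apply_symm_apply]⟩)
    have hyM : y ∈ M := ⟨y, hs2⟩
    have hle : L⟮y⟯ ≤ M := IntermediateField.adjoin_simple_le_iff.mpr hyM
    intro f
    have hf : f ∈ M := hle (by rw [hy]; exact IntermediateField.mem_top)
    exact hf
  exact ⟨RingEquiv.ofBijective s ⟨s.injective, hsurj⟩, hs1, hs2⟩

/-! ### The Frobenius structure -/

theorem h28_frobK_pow (p : ℕ) [Fact p.Prime] {K : Type*} [Field K] [CharP K p]
    [PerfectRing K p] (n : ℕ) (a : K) : ((frobeniusEquiv K p) ^ n) a = a ^ (p ^ n) := by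
  induction n generalizing a with
  | zero => simp
  | succ n ih =>
    rw [pow_succ, RingAut.mul_apply, ih, frobeniusEquiv_apply, frobenius_def, ← pow_mul,
      ← pow_succ']

/-- **FROB-EX.** A function field with a chart over an algebraic closure of `𝔽_p` has a
Frobenius structure (of some level `p ^ e`), fixing the chart. -/
theorem h28_exists_frob (p : ℕ) [Fact p.Prime] {K F : Type*} [Field K] [IsAlgClosed K]
    [CharP K p] (halg : ∀ a : K, ∃ n : ℕ, 0 < n ∧ a ^ (p ^ n) = a) [Field F] [Algebra K F]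
    {x : F} (hx : h75_IsChart K x) :
    ∃ (e : ℕ) (σ : h57_SemiAut K F), 0 < e ∧ h57_IsFrob (p ^ e) σ ∧ h73_Periodic σ ∧
      (σ : F ≃+* F) x = x := by
  classical
  have : ExpChar K p := ExpChar.prime Fact.out
  have : PerfectRing K p := inferInstance
  have := hx.fin
  have := hx.sep
  -- the Frobenius of `K`
  have hφpow : ∀ (n : ℕ) (a : K), ((frobeniusEquiv K p) ^ n) a = a ^ (p ^ n) :=
    h28_frobK_pow p
  have hφper : ∀ a : K, ∃ n : ℕ, 0 < n ∧ ((frobeniusEquiv K p) ^ n) a = a := fun a => by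
    obtain ⟨n, hn, h⟩ := halg a
    exact ⟨n, hn, by rw [hφpow, h]⟩
  -- on `K[X]` and on `K(X)`
  have hτAper := h28_periodic_poly (frobeniusEquiv K p) hφper
  have hτRper := h28_periodic_frac (RatFunc K) (Polynomial.mapEquiv (frobeniusEquiv K p)) hτAper
  -- on `L = K(x)`
  let τR : RatFunc K ≃+* RatFunc K :=
    IsFractionRing.ringEquivOfRingEquiv (Polynomial.mapEquiv (frobeniusEquiv K p))
  let e0 : RatFunc K ≃ₐ[K] K⟮x⟯ := RatFunc.algEquivOfTranscendental x hx.tr
  let τL : K⟮x⟯ ≃+* K⟮x⟯ := e0.symm.toRingEquiv.trans (τR.trans e0.toRingEquiv)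
  have hτL : ∀ r : RatFunc K, τL (e0 r) = e0 (τR r) := by
    intro r
    simp [τL]
  have hτLper : ∀ c : K⟮x⟯, ∃ n : ℕ, 0 < n ∧ (τL ^ n) c = c := by
    intro c
    obtain ⟨n, hn, h⟩ := hτRper (e0.symm c)
    refine ⟨n, hn, ?_⟩
    have h2 := h28_pow_comm (e0 : RatFunc K →+* K⟮x⟯) τR τL (fun a => (hτL a).symm) n
      (e0.symm c)
    rw [h] at h2
    simpa using h2.symm
  have hτLK : ∀ c : K, τL (algebraMap K K⟮x⟯ c) =
      algebraMap K K⟮x⟯ ((frobeniusEquiv K p) c) := by
    intro c
    rw [← e0.commutes c, hτL, ← e0.commutes, RatFunc.algebraMap_eq_C, ← RatFunc.algebraMap_C,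
      IsFractionRing.ringEquivOfRingEquiv_algebraMap, Polynomial.mapEquiv_apply,
      Polynomial.map_C, RatFunc.algebraMap_C]
    rfl
  have hτLx : τL (AdjoinSimple.gen K x) = AdjoinSimple.gen K x := by
    have h1 : e0 (RatFunc.X : RatFunc K) = AdjoinSimple.gen K x := by
      apply Subtype.ext
      exact RatFunc.algEquivOfTranscendental_X x hx.tr
    rw [← h1, hτL, ← RatFunc.algebraMap_X, IsFractionRing.ringEquivOfRingEquiv_algebraMap,
      Polynomial.mapEquiv_apply, Polynomial.map_X]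
  -- a primitive element and a period of its minimal polynomial
  obtain ⟨y, hy⟩ := Field.exists_primitive_element K⟮x⟯ F
  have hint : IsIntegral K⟮x⟯ y := IsIntegral.of_finite _ y
  obtain ⟨e, he, hΦ⟩ := h28_periodic_poly τL hτLper (minpoly K⟮x⟯ y)
  rw [h28_mapEquiv_pow] at hΦ
  obtain ⟨σ, hσ1, hσ2⟩ := h28_extend (τL ^ e) y hint hy hΦ
  -- the action on the constants
  have hσK : ∀ c : K, σ (algebraMap K F c) = algebraMap K F (c ^ (p ^ e)) := by
    intro c
    rw [IsScalarTower.algebraMap_apply K K⟮x⟯ F c, hσ1,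
      ← h28_pow_comm (algebraMap K K⟮x⟯) (frobeniusEquiv K p) τL (fun a => (hτLK a).symm) e c,
      hφpow, ← IsScalarTower.algebraMap_apply]
  have hq : Function.Surjective (fun c : K => c ^ (p ^ e)) := by
    intro c
    refine ⟨((frobeniusEquiv K p) ^ e).symm c, ?_⟩
    change (((frobeniusEquiv K p) ^ e).symm c) ^ (p ^ e) = c
    rw [← hφpow, RingEquiv.apply_symm_apply]
  -- periodicity on `F`
  have hper : ∀ f : F, ∃ n : ℕ, 0 < n ∧ (σ ^ n) f = f := by
    let M : IntermediateField K⟮x⟯ F := Subfield.toIntermediateField (h28_perSubfield σ)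
      (fun c => by
        obtain ⟨n, hn, h⟩ := h28_periodic_pow τL hτLper e c
        exact ⟨n, hn, by
          rw [← h28_pow_comm (algebraMap K⟮x⟯ F) (τL ^ e) σ (fun a => (hσ1 a).symm) n c, h]⟩)
    have hyM : y ∈ M := ⟨1, one_pos, by rw [pow_one]; exact hσ2⟩
    have hle : K⟮x⟯⟮y⟯ ≤ M := IntermediateField.adjoin_simple_le_iff.mpr hyM
    intro f
    have hf : f ∈ M := hle (by rw [hy]; exact IntermediateField.mem_top)
    exact hf
  refine ⟨e, h57_SemiAut.ofFrob σ (p ^ e) hq hσK, he,
    h57_SemiAut.isFrob_ofFrob σ (p ^ e) hq hσK, ?_, ?_⟩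
  · intro f
    obtain ⟨n, hn, h⟩ := hper f
    refine ⟨n, hn, ?_⟩
    rw [Subgroup.coe_pow]
    exact h
  · change σ x = x
    have h1 : x = algebraMap K⟮x⟯ F (AdjoinSimple.gen K x) := rfl
    have h2 : (τL ^ e) (AdjoinSimple.gen K x) = AdjoinSimple.gen K x := by
      have := h28_pow_mul_fixed τL 1 e (AdjoinSimple.gen K x) (by rw [pow_one]; exact hτLx)
      rwa [one_mul] at this
    rw [h1, hσ1, h2]

end Fermat.Agent.S27
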