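import Mathlib
import Fermat.Agent.S27.h41_KummerFI
import Fermat.Agent.S18.GR_ChartPt
import Fermat.Agent.S18.RR_Riemann

/-!
# S27 / B8d (helper41): Kummer covers of function fields -- charts, automorphisms, fibres

`K` algebraically closed, `F / K` a function field with a chart `x`, `ℓ` a prime different from
the characteristic, `F' = F(y)` with `y ^ ℓ = f`, `f` not an `ℓ`-th power in `F`
(`h41_IsKummer ℓ f y`).

* `h41_isChart_of_finite_separable`: a chart of `F` is a chart of every finite separable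
  extension;
* `h41_IsKummer.finrank_eq`, `.finiteDimensional`, `.isSeparable`, `.twist`;
* `h41_kummerAutK`: the automorphisms `y ↦ ζ y`;
* `h41_kummer_fibre`: over a place `P` of `F` at which `f` has the value `a ≠ 0`, the places of
  `F'` above `P` correspond bijectively to the roots `η` of `X ^ ℓ = a` via the value of `y`.
-/

set_option autoImplicit false

noncomputable section

open AlgebraicCurve IntermediateField Polynomial
open Fermat.Agent.S18 Fermat.Agent.S24

namespace Fermat.Agent.S27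

variable {K F F' : Type*} [Field K] [Field F] [Field F'] [Algebra K F] [Algebra K F']
  [Algebra F F'] [IsScalarTower K F F']

/-! ### Charts of finite separable extensions -/

/-- A chart of `F` is a chart of every finite separable extension of `F`. -/
theorem h41_isChart_of_finite_separable [FiniteDimensional F F'] [Algebra.IsSeparable F F']
    {x : F} (hx : h75_IsChart K x) : h75_IsChart K (algebraMap F F' x) := by
  have key : ∀ E' : IntermediateField K F',
      E' = (K⟮x⟯).map (IsScalarTower.toAlgHom K F F') →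
        FiniteDimensional E' F' ∧ Algebra.IsSeparable E' F' := by
    rintro _ rfl
    have := hx.fin
    have := hx.sep
    have h1 : Module.Finite K⟮x⟯ F' := Module.Finite.trans F F'
    have h2 : Algebra.IsSeparable K⟮x⟯ F' := Algebra.IsSeparable.trans K⟮x⟯ F F'
    have hcomm : (algebraMap ((K⟮x⟯).map (IsScalarTower.toAlgHom K F F')) F').comp
        ((K⟮x⟯).equivMap (IsScalarTower.toAlgHom K F F')).toRingEquiv.toRingHom
        = (RingEquiv.refl F').toRingHom.comp (algebraMap K⟮x⟯ F') := by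
      ext z
      rfl
    refine ⟨Module.Finite.of_equiv_equiv
      ((K⟮x⟯).equivMap (IsScalarTower.toAlgHom K F F')).toRingEquiv (RingEquiv.refl F') hcomm,
      Algebra.IsSeparable.of_equiv_equiv
      ((K⟮x⟯).equivMap (IsScalarTower.toAlgHom K F F')).toRingEquiv (RingEquiv.refl F') hcomm⟩
  have hE : K⟮algebraMap F F' x⟯ = (K⟮x⟯).map (IsScalarTower.toAlgHom K F F') := by
    rw [IntermediateField.adjoin_map, Set.image_singleton]
    rfl
  obtain ⟨h1, h2⟩ := key _ hE
  exact ⟨(transcendental_algebraMap_iff (algebraMap F F').injective).mpr hx.tr, h1, h2⟩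

/-! ### Kummer data -/

/-- `F' = F(y)` with `y ^ ℓ = f`, `f` not an `ℓ`-th power in `F`. -/
structure h41_IsKummer (ℓ : ℕ) (f : F) (y : F') : Prop where
  pow : y ^ ℓ = algebraMap F F' f
  gen : F⟮y⟯ = ⊤
  irr : ∀ b : F, b ^ ℓ ≠ f

namespace h41_IsKummer

variable {ℓ : ℕ} [hℓ : Fact ℓ.Prime] {f : F} {y : F'}

omit [Algebra K F] [Algebra K F'] [IsScalarTower K F F'] in
theorem f_ne_zero (h : h41_IsKummer ℓ f y) : f ≠ 0 := fun h0 =>
  h.irr 0 (by rw [h0, zero_pow hℓ.out.ne_zero])

omit [Algebra K F] [Algebra K F'] [IsScalarTower K F F'] in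
theorem y_ne_zero (h : h41_IsKummer ℓ f y) : y ≠ 0 := by
  intro h0
  have h1 := h.pow
  rw [h0, zero_pow hℓ.out.ne_zero] at h1
  exact h.f_ne_zero ((map_eq_zero (algebraMap F F')).mp h1.symm)

omit [Algebra K F] [Algebra K F'] [IsScalarTower K F F'] in
theorem irreducible (h : h41_IsKummer ℓ f y) : Irreducible (X ^ ℓ - C f : F[X]) :=
  X_pow_sub_C_irreducible_of_prime hℓ.out h.irr

omit [Algebra K F] [Algebra K F'] [IsScalarTower K F F'] hℓ in
theorem aeval_eq_zero (h : h41_IsKummer ℓ f y) : aeval y (X ^ ℓ - C f : F[X]) = 0 := by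
  simp [h.pow]

omit [Algebra K F] [Algebra K F'] [IsScalarTower K F F'] hℓ in
theorem aeval_twist (h : h41_IsKummer ℓ f y) (ζ : F) (hζ : ζ ^ ℓ = 1) :
    aeval (algebraMap F F' ζ * y) (X ^ ℓ - C f : F[X]) = 0 := by
  rw [map_sub, map_pow, aeval_X, aeval_C, mul_pow, ← map_pow, hζ, map_one, one_mul, h.pow,
    sub_self]

omit [Algebra K F] [Algebra K F'] [IsScalarTower K F F'] in
theorem isIntegral (h : h41_IsKummer ℓ f y) : IsIntegral F y :=
  ⟨X ^ ℓ - C f, monic_X_pow_sub_C f hℓ.out.ne_zero, h.aeval_eq_zero⟩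

omit [Algebra K F] [Algebra K F'] [IsScalarTower K F F'] in
theorem minpoly_eq (h : h41_IsKummer ℓ f y) : minpoly F y = X ^ ℓ - C f :=
  (minpoly.eq_of_irreducible_of_monic h.irreducible h.aeval_eq_zero
    (monic_X_pow_sub_C f hℓ.out.ne_zero)).symm

omit [Algebra K F] [Algebra K F'] [IsScalarTower K F F'] in
theorem finiteDimensional (h : h41_IsKummer ℓ f y) : FiniteDimensional F F' := by
  have h1 : FiniteDimensional F F⟮y⟯ := IntermediateField.adjoin.finiteDimensional h.isIntegral
  rw [h.gen] at h1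
  exact Module.Finite.equiv (IntermediateField.topEquiv (F := F) (E := F')).toLinearEquiv

omit [Algebra K F] [Algebra K F'] [IsScalarTower K F F'] in
theorem finrank_eq (h : h41_IsKummer ℓ f y) : Module.finrank F F' = ℓ := by
  have h1 : Module.finrank F F⟮y⟯ = (minpoly F y).natDegree :=
    IntermediateField.adjoin.finrank h.isIntegral
  rw [h.gen, IntermediateField.finrank_top', h.minpoly_eq, natDegree_X_pow_sub_C] at h1
  exact h1

omit [Algebra K F] [Algebra K F'] [IsScalarTower K F F'] in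
theorem isSeparable (h : h41_IsKummer ℓ f y) (hℓF : (ℓ : F) ≠ 0) : Algebra.IsSeparable F F' := by
  have hy : IsSeparable F y := by
    unfold IsSeparable
    rw [h.minpoly_eq]
    exact separable_X_pow_sub_C f hℓF h.f_ne_zero
  have h1 : Algebra.IsSeparable F F⟮y⟯ :=
    (IntermediateField.isSeparable_adjoin_simple_iff_isSeparable F F').mpr hy
  rw [h.gen] at h1
  exact AlgEquiv.Algebra.isSeparable (IntermediateField.topEquiv (F := F) (E := F'))

omit [Algebra K F] [Algebra K F'] [IsScalarTower K F F'] hℓ in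
/-- Twisting by an `ℓ`-th power does not change the Kummer extension. -/
theorem twist (h : h41_IsKummer ℓ f y) {u : F} (hu : u ≠ 0) :
    h41_IsKummer ℓ (f * u ^ ℓ) (y * algebraMap F F' u) := by
  refine ⟨by rw [mul_pow, h.pow, map_mul, map_pow], ?_, ?_⟩
  · rw [eq_top_iff, ← h.gen, IntermediateField.adjoin_simple_le_iff]
    have h1 : y * algebraMap F F' u ∈ F⟮y * algebraMap F F' u⟯ :=
      IntermediateField.mem_adjoin_simple_self F _
    have h2 : algebraMap F F' u ∈ F⟮y * algebraMap F F' u⟯ :=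
      IntermediateField.algebraMap_mem _ u
    have h3 := mul_mem h1 (inv_mem h2)
    rwa [mul_assoc, mul_inv_cancel₀ ((map_ne_zero (algebraMap F F')).mpr hu), mul_one] at h3
  · intro b hb
    apply h.irr (b * u⁻¹)
    rw [mul_pow, hb, inv_pow, mul_assoc, mul_inv_cancel₀ (pow_ne_zero ℓ hu), mul_one]

end h41_IsKummer

/-! ### The power basis and the automorphisms `y ↦ ζ y` -/

section Aut

variable {ℓ : ℕ} [hℓ : Fact ℓ.Prime] {f : F} {y : F'}

/-- The power basis `1, y, …, y^(ℓ-1)`. -/
def h41_kummerPB (h : h41_IsKummer ℓ f y) : PowerBasis F F' :=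
  (IntermediateField.adjoin.powerBasis h.isIntegral).map
    ((IntermediateField.equivOfEq h.gen).trans IntermediateField.topEquiv)

omit [Algebra K F] [Algebra K F'] [IsScalarTower K F F'] in
theorem h41_kummerPB_gen (h : h41_IsKummer ℓ f y) : (h41_kummerPB h).gen = y := by
  simp [h41_kummerPB]

omit [Algebra K F] [Algebra K F'] [IsScalarTower K F F'] in
theorem h41_kummerPB_dim (h : h41_IsKummer ℓ f y) : (h41_kummerPB h).dim = ℓ := by
  rw [← PowerBasis.finrank, h.finrank_eq]

/-- The `F`-automorphism `y ↦ ζ y` of the Kummer extension, `ζ ^ ℓ = 1`. -/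
def h41_kummerAut (h : h41_IsKummer ℓ f y) (ζ : F) (hζ : ζ ^ ℓ = 1) : F' ≃ₐ[F] F' :=
  haveI := h.finiteDimensional
  AlgEquiv.ofBijective ((h41_kummerPB h).lift (algebraMap F F' ζ * y) (by
    rw [h41_kummerPB_gen, h.minpoly_eq]
    exact h.aeval_twist ζ hζ))
    (AlgHom.bijective _)

omit [Algebra K F] [Algebra K F'] [IsScalarTower K F F'] in
theorem h41_kummerAut_apply (h : h41_IsKummer ℓ f y) (ζ : F) (hζ : ζ ^ ℓ = 1) :
    h41_kummerAut h ζ hζ y = algebraMap F F' ζ * y := by
  have h1 := (h41_kummerPB h).lift_gen (algebraMap F F' ζ * y) (by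
    rw [h41_kummerPB_gen, h.minpoly_eq]
    exact h.aeval_twist ζ hζ)
  have h2 : h41_kummerAut h ζ hζ (h41_kummerPB h).gen = algebraMap F F' ζ * y := h1
  rwa [h41_kummerPB_gen] at h2

end Aut

/-! ### Places: restriction, automorphisms, values -/

section Places

omit [Algebra K F] [Algebra K F'] [Algebra F F'] [IsScalarTower K F F'] in
theorem h41_mem_of_pow_mem {L : Type*} [Field L] (A : ValuationSubring L) {z : L} {n : ℕ}
    (hn : n ≠ 0) (hz : z ^ n ∈ A) : z ∈ A := by
  rcases A.mem_or_inv_mem z with h | h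
  · exact h
  · rcases eq_or_ne z 0 with rfl | hz0
    · exact A.zero_mem
    · obtain ⟨m, rfl⟩ := Nat.exists_eq_succ_of_ne_zero hn
      have h1 : z = z ^ (m + 1) * (z⁻¹) ^ m := by
        rw [pow_succ, inv_pow, mul_comm (z ^ m) z, mul_assoc,
          mul_inv_cancel₀ (pow_ne_zero m hz0), mul_one]
      rw [h1]
      exact A.mul_mem _ _ hz (pow_mem h _)

omit [Algebra K F'] [Algebra F F'] [IsScalarTower K F F'] in
theorem h41_val_pow (P : Place K F) {z : F} {c : K} (hv : h39_Val P z c) (n : ℕ) :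
    h39_Val P (z ^ n) (c ^ n) := by
  induction n with
  | zero =>
    rw [pow_zero, pow_zero]
    have := h39_val_algebraMap P (1 : K)
    rwa [map_one] at this
  | succ n ih =>
    rw [pow_succ, pow_succ]
    exact h39_val_mul P ih hv

open scoped Pointwise in
/-- An automorphism of `F'` over `F` permutes the places above a place of `F`. -/
theorem h41_restrict_smul [Algebra.IsIntegral F F'] (τ : F' ≃ₐ[K] F')
    (hτ : ∀ g : F, τ (algebraMap F F' g) = algebraMap F F' g) (w : Place K F') :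
    (τ • w).restrict F = w.restrict F := by
  apply Place.ext
  ext g
  rw [Place.mem_restrict_iff, Place.mem_restrict_iff, Place.smul_toValuationSubring,
    ValuationSubring.mem_pointwise_smul_iff_inv_smul_mem]
  have h1 : τ⁻¹ • algebraMap F F' g = algebraMap F F' g := by
    rw [AlgEquiv.smul_def, AlgEquiv.aut_inv]
    exact (τ.symm_apply_eq).mpr (hτ g).symm
  rw [h1]

omit [Algebra K F] [Algebra F F'] [IsScalarTower K F F'] in
/-- Values are transported by automorphisms. -/
theorem h41_val_smul (τ : F' ≃ₐ[K] F') (w : Place K F') {z : F'} {c : K}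
    (hv : h39_Val w z c) : h39_Val (τ • w) (τ z) c := by
  rcases hv with h | h
  · left
    rw [h, τ.commutes]
  · right
    have h1 := Place.ord_smul τ w (z - algebraMap K F' c)
    rw [map_sub, τ.commutes] at h1
    rw [h1]
    exact h

/-- Values of functions of `F` at a place of `F'` are the values at its restriction. -/
theorem h41_val_of_restrict [Algebra.IsIntegral F F'] (w : Place K F') {g : F} {a : K}
    (hv : h39_Val (w.restrict F) g a) : h39_Val w (algebraMap F F' g) a := by
  rcases hv with h | h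
  · left
    rw [h, ← IsScalarTower.algebraMap_apply]
  · right
    have h1 := w.ord_restrict (g - algebraMap K F a)
    rw [map_sub, ← IsScalarTower.algebraMap_apply] at h1
    rw [h1]
    have h2 := w.ramificationIndex_pos (F := F)
    exact mul_pos (by exact_mod_cast h2) h

end Places

/-! ### The fibres of a Kummer cover -/

section Fibre

variable [IsAlgClosed K] {ℓ : ℕ} [hℓ : Fact ℓ.Prime] {f : F} {y : F'}

/-- The automorphism `y ↦ ζ y` over `K`, for a constant `ζ` with `ζ ^ ℓ = 1`. -/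
def h41_kummerAutK (h : h41_IsKummer ℓ f y) (ζ : K) (hζ : ζ ^ ℓ = 1) : F' ≃ₐ[K] F' :=
  (h41_kummerAut h (algebraMap K F ζ) (by rw [← map_pow, hζ, map_one])).restrictScalars K

omit [IsAlgClosed K] in
theorem h41_kummerAutK_algebraMap (h : h41_IsKummer ℓ f y) (ζ : K) (hζ : ζ ^ ℓ = 1) (g : F) :
    h41_kummerAutK h ζ hζ (algebraMap F F' g) = algebraMap F F' g :=
  (h41_kummerAut h (algebraMap K F ζ) (by rw [← map_pow, hζ, map_one])).commutes g

omit [IsAlgClosed K] in
theorem h41_kummerAutK_apply (h : h41_IsKummer ℓ f y) (ζ : K) (hζ : ζ ^ ℓ = 1) :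
    h41_kummerAutK h ζ hζ y = algebraMap K F' ζ * y := by
  have h1 := h41_kummerAut_apply h (algebraMap K F ζ) (by rw [← map_pow, hζ, map_one])
  rw [← IsScalarTower.algebraMap_apply] at h1
  exact h1

omit [IsAlgClosed K] in
/-- The value of `y` at the translate of a place by `y ↦ ζ y`. -/
theorem h41_val_kummerAutK (h : h41_IsKummer ℓ f y) (ζ : K) (hζ : ζ ^ ℓ = 1)
    (w : Place K F') {η : K} (hv : h39_Val w y η) :
    h39_Val (h41_kummerAutK h ζ hζ • w) y (ζ⁻¹ * η) := by
  have hζ0 : ζ ≠ 0 := by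
    rintro rfl
    rw [zero_pow hℓ.out.ne_zero] at hζ
    exact zero_ne_one hζ
  have h1 := h41_val_smul (h41_kummerAutK h ζ hζ) w hv
  rw [h41_kummerAutK_apply] at h1
  have h2 := h39_val_mul _ (h39_val_algebraMap (h41_kummerAutK h ζ hζ • w) ζ⁻¹) h1
  rwa [← mul_assoc, ← map_mul, inv_mul_cancel₀ hζ0, map_one, one_mul] at h2

end Fibre

/-! ### The fibre theorem -/

section FibreThm

variable [IsAlgClosed K] {ℓ : ℕ} [hℓ : Fact ℓ.Prime] {f : F} {y : F'}

/-- **Fibres of a Kummer cover.**  `F' = F(y)`, `y ^ ℓ = f`, `ℓ ≠ char K` prime, `f` not an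
`ℓ`-th power.  Over a place `P` of `F` at which `f` has the value `a ≠ 0`: every place of `F'`
above `P` has a `y`-value `η` with `η ^ ℓ = a`, and for every root `η` of `X ^ ℓ = a` there is
exactly one place above `P` at which `y` has the value `η`. -/
theorem h41_kummer_fibre [FiniteDimensional F F'] {x : F} (hx : h75_IsChart K x)
    (hℓK : (ℓ : K) ≠ 0) (h : h41_IsKummer ℓ f y) (P : Place K F) {a : K} (ha : a ≠ 0)
    (hPa : h39_Val P f a) :
    (∀ P' : Place K F', P'.restrict F = P → ∃ η : K, η ^ ℓ = a ∧ h39_Val P' y η) ∧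
    (∀ η : K, η ^ ℓ = a → ∃! P' : Place K F', P'.restrict F = P ∧ h39_Val P' y η) := by
  classical
  have hℓF : (ℓ : F) ≠ 0 := by
    intro h0
    apply hℓK
    apply (algebraMap K F).injective
    rw [map_natCast, h0, map_zero]
  haveI := h.isSeparable hℓF
  have hx' := h41_isChart_of_finite_separable (F' := F') hx
  haveI := h75_hasPrincipalDivisors hx'
  have hF : h73_IsFF K F := ⟨x, hx.fin⟩
  -- Part 1
  have part1 : ∀ P' : Place K F', P'.restrict F = P →
      ∃ η : K, η ^ ℓ = a ∧ h39_Val P' y η := by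
    intro P' hP'
    have hfa : h39_Val P' (algebraMap F F' f) a :=
      h41_val_of_restrict P' (by rw [hP']; exact hPa)
    have hy : y ∈ P'.toValuationSubring := by
      apply h41_mem_of_pow_mem _ hℓ.out.ne_zero
      rw [h.pow]
      exact h39_val_mem P' hfa
    obtain ⟨η, hη⟩ := h39_exists_val hx' P' hy
    refine ⟨η, ?_, hη⟩
    have h1 := h41_val_pow P' hη ℓ
    rw [h.pow] at h1
    exact h39_val_unique P' h1 hfa
  refine ⟨part1, ?_⟩
  intro η hη
  have hη0 : η ≠ 0 := by
    rintro rfl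
    rw [zero_pow hℓ.out.ne_zero] at hη
    exact ha hη.symm
  -- existence
  obtain ⟨w₀, hw₀⟩ := h41_fiber_nonempty (F' := F') hF P
  rw [Place.mem_fiber] at hw₀
  obtain ⟨η₀, hη₀, hv₀⟩ := part1 w₀ hw₀
  have hη₀0 : η₀ ≠ 0 := by
    rintro rfl
    rw [zero_pow hℓ.out.ne_zero] at hη₀
    exact ha hη₀.symm
  have hξ : (η₀ / η) ^ ℓ = 1 := by rw [div_pow, hη₀, hη, div_self ha]
  have hex : ∃ P' : Place K F', P'.restrict F = P ∧ h39_Val P' y η := by
    refine ⟨h41_kummerAutK h (η₀ / η) hξ • w₀, ?_, ?_⟩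
    · rw [h41_restrict_smul _ (h41_kummerAutK_algebraMap h _ hξ), hw₀]
    · have h1 := h41_val_kummerAutK h (η₀ / η) hξ w₀ hv₀
      have e : (η₀ / η)⁻¹ * η₀ = η := by
        field_simp
      rwa [e] at h1
  obtain ⟨w₁, hw₁, hv₁⟩ := hex
  refine ⟨w₁, ⟨hw₁, hv₁⟩, ?_⟩
  rintro w₂ ⟨hw₂, hv₂⟩
  by_contra hne
  -- a primitive `ℓ`-th root of unity
  haveI : NeZero (ℓ : K) := ⟨hℓK⟩
  obtain ⟨ζ, hζ⟩ := HasEnoughRootsOfUnity.exists_primitiveRoot K ℓ
  have hζpow : ∀ i : ℕ, (ζ ^ i) ^ ℓ = 1 := fun i => by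
    rw [← pow_mul, mul_comm, pow_mul, hζ.pow_eq_one, one_pow]
  let g : ℕ → Place K F' := fun i => h41_kummerAutK h (ζ ^ i) (hζpow i) • w₁
  have hg_res : ∀ i, (g i).restrict F = P := fun i => by
    show (h41_kummerAutK h (ζ ^ i) (hζpow i) • w₁).restrict F = P
    rw [h41_restrict_smul _ (h41_kummerAutK_algebraMap h _ (hζpow i)), hw₁]
  have hg_val : ∀ i, h39_Val (g i) y ((ζ ^ i)⁻¹ * η) := fun i =>
    h41_val_kummerAutK h (ζ ^ i) (hζpow i) w₁ hv₁
  -- the values at `g i`, `1 ≤ i < ℓ`, differ from `η`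
  have hval_ne : ∀ i ∈ Finset.Ico 1 ℓ, (ζ ^ i)⁻¹ * η ≠ η := by
    intro i hi heq
    rw [Finset.mem_Ico] at hi
    have h2 : (ζ ^ i)⁻¹ = 1 := mul_right_cancel₀ hη0 (heq.trans (one_mul η).symm)
    rw [inv_eq_one] at h2
    have h3 := (hζ.pow_eq_one_iff_dvd i).mp h2
    have h4 := Nat.le_of_dvd (by omega) h3
    omega
  have hinj : Set.InjOn g (Finset.Ico 1 ℓ : Set ℕ) := by
    intro i hi j hj hij
    rw [Finset.coe_Ico, Set.mem_Ico] at hi hj
    have h1 : (ζ ^ i)⁻¹ * η = (ζ ^ j)⁻¹ * η :=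
      h39_val_unique (g i) (hg_val i) (by rw [hij]; exact hg_val j)
    have h2 : (ζ ^ i)⁻¹ = (ζ ^ j)⁻¹ := mul_right_cancel₀ hη0 h1
    exact hζ.pow_inj hi.2 hj.2 (inv_injective h2)
  have hw₂T : w₂ ∉ (Finset.Ico 1 ℓ).image g := by
    intro hmem
    obtain ⟨i, hi, rfl⟩ := Finset.mem_image.mp hmem
    exact hval_ne i hi (h39_val_unique (g i) (hg_val i) hv₂)
  have hw₁T : w₁ ∉ insert w₂ ((Finset.Ico 1 ℓ).image g) := by
    intro hmem
    rcases Finset.mem_insert.mp hmem with h1 | hmem
    · exact hne h1.symm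
    · obtain ⟨i, hi, hgi⟩ := Finset.mem_image.mp hmem
      exact hval_ne i hi (h39_val_unique (g i) (hg_val i) (by rw [hgi]; exact hv₁))
  have hcard : (insert w₁ (insert w₂ ((Finset.Ico 1 ℓ).image g))).card = ℓ + 1 := by
    rw [Finset.card_insert_of_notMem hw₁T, Finset.card_insert_of_notMem hw₂T,
      Finset.card_image_of_injOn hinj, Nat.card_Ico]
    have := hℓ.out.one_lt
    omega
  have hsub : insert w₁ (insert w₂ ((Finset.Ico 1 ℓ).image g)) ⊆ P.fiber F' := by
    intro w hw
    rw [Place.mem_fiber]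
    rcases Finset.mem_insert.mp hw with rfl | hw
    · exact hw₁
    rcases Finset.mem_insert.mp hw with rfl | hw
    · exact hw₂
    obtain ⟨i, -, rfl⟩ := Finset.mem_image.mp hw
    exact hg_res i
  have h1 := Finset.card_le_card hsub
  have h2 := h41_card_fiber_le (F' := F') hF P
  rw [h.finrank_eq] at h2
  omega

end FibreThm

end Fermat.Agent.S27
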