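import Mathlib
import Fermat.Agent.S27.h41_Kummer
import Fermat.Agent.S27.h73_ZetaDefs
import Fermat.Agent.S27.h28_FrobEx

/-!
# S27 / B8d (helper41): Frobenius structures on Kummer covers and the fixed-place count

`F' = F(y)`, `y ^ ℓ = f` a Kummer cover (`h41_IsKummer ℓ f y`), `σ` a semilinear automorphism of
`F` with `σ f = f`.

* `h41_exists_lift`: `σ` lifts to a semilinear automorphism `σ'` of `F'` with `σ' y = y`;
* a lift of a `q`-Frobenius structure is a `q`-Frobenius structure, a lift of a periodic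
  automorphism is periodic, restriction of places is equivariant;
* `h41_fixed_of_split`: the places above a `σ`-fixed place at which (a twist of) `f` takes an
  `ℓ`-th power of an element of `𝔽_q` as value are `σ'`-fixed;
* `h41_card_fixed`: under the splitting hypothesis, `#Fix(σ') = ℓ * #Fix(σ)`;
* `h41_kummer_cover`: the packaged existence statement consumed by B8 (no-cover argument).
-/

set_option autoImplicit false

noncomputable section

open AlgebraicCurve IntermediateField Polynomial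
open Fermat.Agent.S18 Fermat.Agent.S24

namespace Fermat.Agent.S27

variable {K F F' : Type*} [Field K] [Field F] [Field F'] [Algebra K F] [Algebra K F']
  [Algebra F F'] [IsScalarTower K F F']

/-! ### Lifts of semilinear automorphisms -/

/-- `σ'` is a lift of `σ` to `F'` fixing `y`. -/
structure h41_IsLift (y : F') (σ : h57_SemiAut K F) (σ' : h57_SemiAut K F') : Prop where
  map : ∀ g : F, (σ' : F' ≃+* F') (algebraMap F F' g) = algebraMap F F' ((σ : F ≃+* F) g)
  fix : (σ' : F' ≃+* F') y = y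

section Lift

variable {ℓ : ℕ} [hℓ : Fact ℓ.Prime] {f : F} {y : F'}

/-- A semilinear automorphism of `F` fixing `f` lifts to the Kummer cover, fixing `y`. -/
theorem h41_exists_lift (h : h41_IsKummer ℓ f y) (σ : h57_SemiAut K F)
    (hσf : (σ : F ≃+* F) f = f) : ∃ σ' : h57_SemiAut K F', h41_IsLift y σ σ' := by
  have hΦ : (minpoly F y).map (((σ : F ≃+* F) : F ≃+* F) : F →+* F) = minpoly F y := by
    rw [h.minpoly_eq, Polynomial.map_sub, Polynomial.map_pow, Polynomial.map_X,
      Polynomial.map_C]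
    congr 2
  obtain ⟨σ₀, h1, h2⟩ := h28_extend (σ : F ≃+* F) y h.isIntegral h.gen hΦ
  have hmem : σ₀ ∈ h57_SemiAut K F' :=
    h57_mem_semiAut_of_map (h57_resK σ) (h57_resK σ).surjective (fun c => by
      rw [IsScalarTower.algebraMap_apply K F F', h1, h57_apply_algebraMap,
        ← IsScalarTower.algebraMap_apply])
  exact ⟨⟨σ₀, hmem⟩, h1, h2⟩

end Lift

namespace h41_IsLift

variable {y : F'} {σ : h57_SemiAut K F} {σ' : h57_SemiAut K F'}

theorem one : h41_IsLift y (1 : h57_SemiAut K F) (1 : h57_SemiAut K F') :=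
  ⟨fun _ => rfl, rfl⟩

theorem mul {τ : h57_SemiAut K F} {τ' : h57_SemiAut K F'} (h : h41_IsLift y σ σ')
    (h' : h41_IsLift y τ τ') : h41_IsLift y (σ * τ) (σ' * τ') :=
  ⟨fun g => by rw [h57_coe_mul_apply, h57_coe_mul_apply, h'.map, h.map],
    by rw [h57_coe_mul_apply, h'.fix, h.fix]⟩

theorem pow (h : h41_IsLift y σ σ') (n : ℕ) : h41_IsLift y (σ ^ n) (σ' ^ n) := by
  induction n with
  | zero =>
    rw [pow_zero, pow_zero]
    exact one
  | succ n ih =>
    rw [pow_succ, pow_succ]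
    exact ih.mul h

theorem symm_map (h : h41_IsLift y σ σ') (g : F) :
    (σ' : F' ≃+* F').symm (algebraMap F F' g) = algebraMap F F' ((σ : F ≃+* F).symm g) := by
  rw [RingEquiv.symm_apply_eq, h.map, RingEquiv.apply_symm_apply]

/-- a lift of a `q`-Frobenius structure is a `q`-Frobenius structure. -/
theorem isFrob (h : h41_IsLift y σ σ') {q : ℕ} (hq : h57_IsFrob q σ) : h57_IsFrob q σ' := by
  intro c
  rw [IsScalarTower.algebraMap_apply K F F', h.map, hq c, ← IsScalarTower.algebraMap_apply]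

/-- a lift of a periodic automorphism to `F' = F(y)` is periodic. -/
theorem periodic (h : h41_IsLift y σ σ') (hy : F⟮y⟯ = ⊤) (hper : h73_Periodic σ) :
    h73_Periodic σ' := by
  have hF : ∀ g : F, algebraMap F F' g ∈ h28_perSubfield (σ' : F' ≃+* F') := by
    intro g
    obtain ⟨n, hn, hg⟩ := hper g
    refine ⟨n, hn, ?_⟩
    have h1 := (h.pow n).map g
    rw [hg, Subgroup.coe_pow] at h1
    exact h1
  have hyp : y ∈ h28_perSubfield (σ' : F' ≃+* F') := ⟨1, one_pos, by rw [pow_one]; exact h.fix⟩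
  have hle : F⟮y⟯ ≤ (h28_perSubfield (σ' : F' ≃+* F')).toIntermediateField hF :=
    IntermediateField.adjoin_simple_le_iff.mpr hyp
  intro z
  have hz : z ∈ (h28_perSubfield (σ' : F' ≃+* F')).toIntermediateField hF := by
    apply hle
    rw [hy]
    exact IntermediateField.mem_top
  obtain ⟨n, hn, hzn⟩ := hz
  exact ⟨n, hn, by rw [Subgroup.coe_pow]; exact hzn⟩

/-- restriction of places is equivariant. -/
theorem restrict_smul [Algebra.IsIntegral F F'] (h : h41_IsLift y σ σ') (w : Place K F') :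
    (σ' • w).restrict F = σ • w.restrict F := by
  apply Place.ext
  ext g
  rw [Place.mem_restrict_iff, h57_mem_smul_place, h57_mem_smul_place, Place.mem_restrict_iff,
    h.symm_map]

end h41_IsLift

/-- Values are transported by semilinear automorphisms. -/
theorem h41_val_semi_smul {K F : Type*} [Field K] [Field F] [Algebra K F]
    (σ : h57_SemiAut K F) (w : Place K F) {z : F} {c : K}
    (hv : h39_Val w z c) : h39_Val (σ • w) ((σ : F ≃+* F) z) (h57_resK σ c) := by
  rcases hv with h | h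
  · left
    rw [h, h57_apply_algebraMap]
  · right
    have h1 := h57_ord_smul σ w (z - algebraMap K F c)
    rw [map_sub, h57_apply_algebraMap] at h1
    rw [h1]
    exact h

/-! ### Fibres have exactly `ℓ` places; fixed places above a fixed place -/

section Fixed

variable [IsAlgClosed K] {ℓ : ℕ} [hℓ : Fact ℓ.Prime] {f : F} {y : F'}

/-- Over a place at which `f` is a unit there are exactly `ℓ` places of the Kummer cover. -/
theorem h41_kummer_card_fiber [FiniteDimensional F F'] {x : F} (hx : h75_IsChart K x)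
    (hℓK : (ℓ : K) ≠ 0) (h : h41_IsKummer ℓ f y) (P : Place K F) {a : K} (ha : a ≠ 0)
    (hPa : h39_Val P f a) : Nat.card {P' : Place K F' // P'.restrict F = P} = ℓ := by
  classical
  have hℓF : (ℓ : F) ≠ 0 := by
    intro h0
    apply hℓK
    apply (algebraMap K F).injective
    rw [map_natCast, h0, map_zero]
  haveI := h.isSeparable hℓF
  have hx' := h41_isChart_of_finite_separable (F' := F') hx
  haveI := h75_hasPrincipalDivisors hx'
  have hF : h73_IsFF K F := ⟨x, hx.fin⟩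
  rw [Nat.subtype_card (P.fiber F') (fun _ => Place.mem_fiber)]
  refine le_antisymm ?_ ?_
  · have h2 := h41_card_fiber_le (F' := F') hF P
    rwa [h.finrank_eq] at h2
  · obtain ⟨-, hB⟩ := h41_kummer_fibre hx hℓK h P ha hPa
    obtain ⟨b, hb⟩ := IsAlgClosed.exists_pow_nat_eq a (Nat.pos_of_ne_zero hℓ.out.ne_zero)
    have hb0 : b ≠ 0 := by
      rintro rfl
      rw [zero_pow hℓ.out.ne_zero] at hb
      exact ha hb.symm
    haveI : NeZero (ℓ : K) := ⟨hℓK⟩
    obtain ⟨ζ, hζ⟩ := HasEnoughRootsOfUnity.exists_primitiveRoot K ℓ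
    have hroot : ∀ i : ℕ, (ζ ^ i * b) ^ ℓ = a := fun i => by
      rw [mul_pow, ← pow_mul, mul_comm i ℓ, pow_mul, hζ.pow_eq_one, one_pow, one_mul, hb]
    let w : ℕ → Place K F' := fun i => (hB (ζ ^ i * b) (hroot i)).choose
    have hw : ∀ i, (w i).restrict F = P ∧ h39_Val (w i) y (ζ ^ i * b) := fun i =>
      (hB (ζ ^ i * b) (hroot i)).choose_spec.1
    have hinj : Set.InjOn w (Finset.range ℓ : Set ℕ) := by
      intro i hi j hj hij
      rw [Finset.coe_range, Set.mem_Iio] at hi hj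
      have h1 : ζ ^ i * b = ζ ^ j * b :=
        h39_val_unique (w i) (hw i).2 (by rw [hij]; exact (hw j).2)
      exact hζ.pow_inj hi hj (mul_right_cancel₀ hb0 h1)
    have hsub : (Finset.range ℓ).image w ⊆ P.fiber F' := by
      intro v hv
      obtain ⟨i, -, rfl⟩ := Finset.mem_image.mp hv
      exact Place.mem_fiber.mpr (hw i).1
    have h3 := Finset.card_le_card hsub
    rwa [Finset.card_image_of_injOn hinj, Finset.card_range] at h3

/-- **Fixed places.**  `τ'` a lift of the `Q`-Frobenius structure `τ`, `μ_ℓ ⊆ 𝔽_Q`, `P` a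
`τ`-fixed place at which a `τ`-invariant twist `f u ^ ℓ` takes the value `b ^ ℓ` with
`b ∈ 𝔽_Q^×`.  Then every place above `P` is `τ'`-fixed. -/
theorem h41_fixed_of_split [FiniteDimensional F F'] {x : F} (hx : h75_IsChart K x)
    (hℓK : (ℓ : K) ≠ 0) (h : h41_IsKummer ℓ f y)
    {τ : h57_SemiAut K F} {τ' : h57_SemiAut K F'} (hl : h41_IsLift y τ τ') {Q : ℕ}
    (hτ : h57_IsFrob Q τ) (hμ : ∀ ζ : K, ζ ^ ℓ = 1 → ζ ^ Q = ζ)
    (P : Place K F) (hP : τ • P = P) {u : F} (hu : u ≠ 0) (hτu : (τ : F ≃+* F) u = u)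
    {b : K} (hb : b ≠ 0) (hbQ : b ^ Q = b) (hval : h39_Val P (f * u ^ ℓ) (b ^ ℓ))
    (P' : Place K F') (hP' : P'.restrict F = P) : τ' • P' = P' := by
  have h' := h.twist hu
  obtain ⟨hA, hB⟩ := h41_kummer_fibre hx hℓK h' P (pow_ne_zero ℓ hb) hval
  obtain ⟨η, hη, hvη⟩ := hA P' hP'
  have hηQ : η ^ Q = η := by
    have h1 : (η / b) ^ ℓ = 1 := by rw [div_pow, hη, div_self (pow_ne_zero ℓ hb)]
    have h2 := hμ _ h1
    rw [div_pow, hbQ] at h2
    exact (div_left_inj' hb).mp h2
  have hr : (τ' • P').restrict F = P := by rw [hl.restrict_smul, hP', hP]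
  have hv' : h39_Val (τ' • P') (y * algebraMap F F' u) η := by
    have h3 := h41_val_semi_smul τ' P' hvη
    rw [map_mul, hl.fix, hl.map, hτu, (hl.isFrob hτ).resK, hηQ] at h3
    exact h3
  exact (hB η hη).unique ⟨hr, hv'⟩ ⟨hP', hvη⟩

/-- **Count of fixed places.**  Under the splitting hypothesis at every `τ`-fixed place:
`#Fix(τ') = ℓ * #Fix(τ)`. -/
theorem h41_card_fixed [FiniteDimensional F F'] {x : F} (hx : h75_IsChart K x)
    (hℓK : (ℓ : K) ≠ 0) (h : h41_IsKummer ℓ f y)
    {τ : h57_SemiAut K F} {τ' : h57_SemiAut K F'} (hl : h41_IsLift y τ τ') {Q : ℕ}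
    (hτ : h57_IsFrob Q τ) (hμ : ∀ ζ : K, ζ ^ ℓ = 1 → ζ ^ Q = ζ)
    (hsplit : ∀ P : Place K F, τ • P = P → ∃ u : F, u ≠ 0 ∧ (τ : F ≃+* F) u = u ∧
      ∃ b : K, b ≠ 0 ∧ b ^ Q = b ∧ h39_Val P (f * u ^ ℓ) (b ^ ℓ)) :
    Nat.card {P' : Place K F' // τ' • P' = P'} = ℓ * Nat.card {P : Place K F // τ • P = P} := by
  classical
  have hcard : ∀ P : {P : Place K F // τ • P = P},
      Nat.card {P' : Place K F' // P'.restrict F = P.1} = ℓ := by
    rintro ⟨P, hP⟩
    obtain ⟨u, hu, -, b, hb, -, hval⟩ := hsplit P hP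
    exact h41_kummer_card_fiber hx hℓK (h.twist hu) P (pow_ne_zero ℓ hb) hval
  have hfin : ∀ P : {P : Place K F // τ • P = P},
      Finite {P' : Place K F' // P'.restrict F = P.1} := fun P =>
    Nat.finite_of_card_ne_zero (by rw [hcard P]; exact hℓ.out.ne_zero)
  let e : {P' : Place K F' // τ' • P' = P'} ≃
      Σ P : {P : Place K F // τ • P = P}, {P' : Place K F' // P'.restrict F = P.1} :=
    { toFun := fun P' => ⟨⟨P'.1.restrict F, by rw [← hl.restrict_smul, P'.2]⟩, ⟨P'.1, rfl⟩⟩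
      invFun := fun Q' => ⟨Q'.2.1, by
        obtain ⟨u, hu, hτu, b, hb, hbQ, hval⟩ := hsplit Q'.1.1 Q'.1.2
        exact h41_fixed_of_split hx hℓK h hl hτ hμ Q'.1.1 Q'.1.2 hu hτu hb hbQ hval Q'.2.1
          Q'.2.2⟩
      left_inv := fun P' => rfl
      right_inv := by
        rintro ⟨⟨P, hP⟩, ⟨P', hP'⟩⟩
        dsimp only at hP'
        subst hP'
        rfl }
  have e2 : (Σ P : {P : Place K F // τ • P = P}, {P' : Place K F' // P'.restrict F = P.1}) ≃
      {P : Place K F // τ • P = P} × Fin ℓ :=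
    (Equiv.sigmaCongrRight fun P => haveI := hfin P; Finite.equivFinOfCardEq (hcard P)).trans
      (Equiv.sigmaEquivProd _ _)
  rw [Nat.card_congr (e.trans e2), Nat.card_prod, Nat.card_fin, mul_comm]

end Fixed

/-! ### The packaged Kummer cover -/

section Cover

universe u v

/-- **B8d KUMMER.**  `F / k` a function field over an algebraically closed field with a chart,
`σ` a periodic `q`-Frobenius structure with a fixed place, `ℓ` a prime invertible in `k` with
`μ_ℓ ⊆ 𝔽_q`, `f` a `σ`-invariant function which is not an `ℓ`-th power, such that at every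
`σ ^ s`-fixed place a `σ ^ s`-invariant twist `f u ^ ℓ` takes as value the `ℓ`-th power of an
element of `𝔽_{q^s}^×` (`s ≥ 1`).  Then the Kummer cover `F' = F(f^(1/ℓ))` is a function field
over `k` with a chart, carrying a periodic `q`-Frobenius structure `σ'` with a fixed place, and
`#Fix(σ' ^ s) = ℓ * #Fix(σ ^ s)` for all `s ≥ 1`. -/
theorem h41_kummer_cover {k : Type u} {F : Type v} [Field k] [IsAlgClosed k] [Field F]
    [Algebra k F] {x : F} (hx : h75_IsChart k x) {q : ℕ}
    (σ : h57_SemiAut k F) (hσ : h57_IsFrob q σ) (hper : h73_Periodic σ)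
    (P₀ : Place k F) (hP₀ : σ • P₀ = P₀)
    (ℓ : ℕ) [hℓ : Fact ℓ.Prime] (hℓk : (ℓ : k) ≠ 0) (hμ : ∀ ζ : k, ζ ^ ℓ = 1 → ζ ^ q = ζ)
    (f : F) (hσf : (σ : F ≃+* F) f = f) (hirr : ∀ b : F, b ^ ℓ ≠ f)
    (hsplit : ∀ s : ℕ, 0 < s → ∀ P : Place k F, σ ^ s • P = P →
      ∃ u : F, u ≠ 0 ∧ ((σ ^ s : h57_SemiAut k F) : F ≃+* F) u = u ∧
        ∃ b : k, b ≠ 0 ∧ b ^ (q ^ s) = b ∧ h39_Val P (f * u ^ ℓ) (b ^ ℓ)) :
    ∃ (F' : Type v) (_ : Field F') (_ : Algebra k F') (x' : F') (σ' : h57_SemiAut k F')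
      (P₀' : Place k F'),
      h75_IsChart k x' ∧ h57_IsFrob q σ' ∧ h73_Periodic σ' ∧ σ' • P₀' = P₀' ∧
      ∀ s : ℕ, 0 < s → h73_N σ' s = ℓ * h73_N σ s := by
  classical
  haveI : Fact (Irreducible (X ^ ℓ - C f : F[X])) :=
    ⟨X_pow_sub_C_irreducible_of_prime hℓ.out hirr⟩
  have hK : h41_IsKummer ℓ f (AdjoinRoot.root (X ^ ℓ - C f : F[X])) := by
    refine ⟨?_, ?_, hirr⟩
    · have h1 := AdjoinRoot.eval₂_root (X ^ ℓ - C f : F[X])
      rw [eval₂_sub, eval₂_pow, eval₂_X, eval₂_C] at h1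
      exact sub_eq_zero.mp h1
    · exact IntermediateField.adjoin_eq_top_of_algebra _ _ AdjoinRoot.adjoinRoot_eq_top
  haveI := hK.finiteDimensional
  have hℓF : (ℓ : F) ≠ 0 := by
    intro h0
    apply hℓk
    apply (algebraMap k F).injective
    rw [map_natCast, h0, map_zero]
  haveI := hK.isSeparable hℓF
  have hx' := h41_isChart_of_finite_separable (K := k)
    (F' := AdjoinRoot (X ^ ℓ - C f : F[X])) hx
  obtain ⟨σ', hl⟩ := h41_exists_lift hK σ hσf
  have hμs : ∀ s : ℕ, ∀ ζ : k, ζ ^ ℓ = 1 → ζ ^ (q ^ s) = ζ := by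
    intro s
    induction s with
    | zero =>
      intro ζ _
      rw [pow_zero, pow_one]
    | succ s ih =>
      intro ζ hζ
      rw [pow_succ, pow_mul, ih ζ hζ, hμ ζ hζ]
  -- a fixed place above `P₀`
  obtain ⟨u, hu, hτu, b, hb, hbq, hval⟩ := hsplit 1 one_pos P₀ (by rw [pow_one]; exact hP₀)
  haveI := h75_hasPrincipalDivisors hx'
  obtain ⟨P₀', hP₀'⟩ := h41_fiber_nonempty (F' := AdjoinRoot (X ^ ℓ - C f : F[X]))
    ⟨x, hx.fin⟩ P₀
  rw [Place.mem_fiber] at hP₀'
  have hfix : σ' • P₀' = P₀' := by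
    have h1 := h41_fixed_of_split hx hℓk hK (hl.pow 1) (hσ.pow 1) (hμs 1) P₀
      (by rw [pow_one]; exact hP₀) hu hτu hb hbq hval P₀' hP₀'
    rwa [pow_one] at h1
  refine ⟨AdjoinRoot (X ^ ℓ - C f : F[X]), inferInstance, inferInstance,
    algebraMap F (AdjoinRoot (X ^ ℓ - C f : F[X])) x, σ', P₀', hx', hl.isFrob hσ,
    hl.periodic hK.gen hper, hfix, ?_⟩
  intro s hs
  have h1 := h41_card_fixed hx hℓk hK (hl.pow s) (hσ.pow s) (hμs s) (hsplit s hs)
  unfold h73_N
  rw [h1]
  push_cast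
  ring

end Cover

end Fermat.Agent.S27
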