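/-
S27 / B8 PAIR (sub-lead helper76): shared definitions of the block.

* `h76_FrobStr p e σ` : `σ` is a periodic `p ^ e`-Frobenius structure on `F / K`;
* `h76_val P f`, `h76_eval f E` : the value `f(P)` and `f(E) = ∏ f(P) ^ E(P)`;
* `h76_picFix σ` : the classes fixed by `σ`;  `h76_picNorm σ s = ∑ i < s, σ ^ i`;
* `h76_IsTate p e σ ℓ ψ` : `ψ` is given by the Tate--Lichtenbaum formula at the level of `σ`.
-/
import Fermat.Agent.S27.h57_SemiAct
import Fermat.Agent.S18.h39_GRDefs
import Fermat.Agent.S18.h75_RRDefs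

set_option autoImplicit false

noncomputable section

namespace Fermat.Agent.S27

open AlgebraicCurve Fermat.Agent.S18

variable {K F : Type*} [Field K] [Field F] [Algebra K F]

/-- `σ` is a periodic `p ^ e`-Frobenius structure: it raises constants to the power `p ^ e`,
and every element of `F` is fixed by some positive power of `σ`. -/
structure h76_FrobStr (p e : ℕ) (σ : h57_SemiAut K F) : Prop where
  pos : 0 < e
  frob : h57_IsFrob (p ^ e) σ
  per : ∀ f : F, ∃ n : ℕ, 0 < n ∧ ((σ ^ n : h57_SemiAut K F) : F ≃+* F) f = f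

theorem h76_FrobStr.pow {p e : ℕ} {σ : h57_SemiAut K F} (h : h76_FrobStr p e σ) {r : ℕ}
    (hr : 0 < r) : h76_FrobStr p (e * r) (σ ^ r) where
  pos := Nat.mul_pos h.pos hr
  frob := by
    have := h.frob.pow r
    rwa [← pow_mul] at this
  per := fun f => by
    obtain ⟨n, hn, hf⟩ := h.per f
    refine ⟨n, hn, ?_⟩
    rw [← pow_mul, mul_comm, pow_mul, h57_coe_pow_apply]
    exact Function.iterate_fixed hf r

/-- every constant lies in a finite field -/
theorem h76_FrobStr.const_per {p e : ℕ} {σ : h57_SemiAut K F} (h : h76_FrobStr p e σ) (a : K) :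
    ∃ n : ℕ, 0 < n ∧ a ^ (p ^ (e * n)) = a := by
  obtain ⟨n, hn, hf⟩ := h.per (algebraMap K F a)
  refine ⟨n, hn, (algebraMap K F).injective ?_⟩
  have := (h.pow hn).frob a
  rw [hf] at this
  exact this.symm

/-- The value of `f` at `P` (`0` if `f` has no value at `P`). -/
def h76_val (P : Place K F) (f : F) : K := by
  classical exact if h : ∃ b : K, h39_Val P f b then h.choose else 0

theorem h76_val_spec' (P : Place K F) {f : F} (h : ∃ b : K, h39_Val P f b) :
    h39_Val P f (h76_val P f) := by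
  unfold h76_val
  rw [dif_pos h]
  exact h.choose_spec

/-- `f(E) = ∏_P f(P) ^ E(P)`. -/
def h76_eval (f : F) (E : Divisor K F) : K := E.prod fun P n => h76_val P f ^ n

/-- the subgroup of `σ`-fixed classes -/
def h76_picFix (σ : h57_SemiAut K F) : AddSubgroup (Pic0 K F) where
  carrier := {c | σ • c = c}
  add_mem' := fun {a b} ha hb => by
    show σ • (a + b) = a + b
    rw [smul_add, ha, hb]
  zero_mem' := smul_zero σ
  neg_mem' := fun {a} ha => by
    show σ • (-a) = -a
    rw [smul_neg, ha]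

theorem h76_mem_picFix {σ : h57_SemiAut K F} {c : Pic0 K F} :
    c ∈ h76_picFix σ ↔ σ • c = c := Iff.rfl

/-- the norm `∑ i < s, σ ^ i` on `Pic0` -/
def h76_picNorm (σ : h57_SemiAut K F) (s : ℕ) : Pic0 K F →+ Pic0 K F :=
  ∑ i ∈ Finset.range s, DistribSMul.toAddMonoidHom (Pic0 K F) (σ ^ i)

theorem h76_picNorm_apply (σ : h57_SemiAut K F) (s : ℕ) (c : Pic0 K F) :
    h76_picNorm σ s c = ∑ i ∈ Finset.range s, (σ ^ i) • c := by
  unfold h76_picNorm
  rw [AddMonoidHom.finsetSum_apply]
  rfl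

/-- `ψ` is given by the Tate--Lichtenbaum formula at the level of `σ` (`q = p ^ e`):
`ψ [D] [E] = f(E) ^ ((q - 1) / ℓ)` for `σ`-invariant `D`, `E` of degree zero with disjoint
supports and `σ`-invariant `f` with `div f = ℓ D`. -/
def h76_IsTate (p e : ℕ) (σ : h57_SemiAut K F) (ℓ : ℕ) (ψ : Pic0 K F → Pic0 K F → K) : Prop :=
  ∀ (D E : Divisor.degZero (K := K) (F := F)) (f : F),
    σ • (D : Divisor K F) = D → σ • (E : Divisor K F) = E →
    (∀ P : Place K F, (D : Divisor K F) P ≠ 0 → (E : Divisor K F) P = 0) →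
    f ≠ 0 → (σ : F ≃+* F) f = f → (∀ P : Place K F, P.ord f = ℓ * (D : Divisor K F) P) →
    ψ (Pic0.mk D) (Pic0.mk E) = h76_eval f (E : Divisor K F) ^ ((p ^ e - 1) / ℓ)

end Fermat.Agent.S27
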