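/-
S27 / B8 PAIR (sub-lead helper76): bridge between the block definitions (`h76_PairDefs`) and the
landed evaluation / periodicity layers (`h92_Eval`: `h92_ev`, `h92_evDiv`; `h73_ZetaDefs`:
`h73_Periodic`).  Consumers of `h76_IsTate` should use `h76_isTate_iff` (formula in terms of
`h92_evDiv`).
-/
import Fermat.Agent.S27.h76_PairDefs
import Fermat.Agent.S27.h92_Eval
import Fermat.Agent.S27.h73_ZetaDefs

set_option autoImplicit false

noncomputable section

namespace Fermat.Agent.S27

open AlgebraicCurve Fermat.Agent.S18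

variable {K F : Type*} [Field K] [Field F] [Algebra K F]

theorem h76_val_eq_ev (P : Place K F) (f : F) : h76_val P f = h92_ev P f := by
  by_cases h : ∃ b : K, h39_Val P f b
  · exact (h92_ev_eq (h76_val_spec' P h)).symm
  · rw [h92_ev_of_not h]
    unfold h76_val
    rw [dif_neg h]

theorem h76_eval_eq_evDiv (f : F) (E : Divisor K F) : h76_eval f E = h92_evDiv f E := by
  unfold h76_eval h92_evDiv
  refine Finsupp.prod_congr (fun P _ => ?_)
  rw [h76_val_eq_ev]

/-- The Tate formula in terms of `h92_evDiv`. -/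
theorem h76_isTate_iff {p e : ℕ} {σ : h57_SemiAut K F} {ℓ : ℕ}
    {ψ : Pic0 K F → Pic0 K F → K} :
    h76_IsTate p e σ ℓ ψ ↔
      ∀ (D E : Divisor.degZero (K := K) (F := F)) (f : F),
        σ • (D : Divisor K F) = D → σ • (E : Divisor K F) = E →
        (∀ P : Place K F, (D : Divisor K F) P ≠ 0 → (E : Divisor K F) P = 0) →
        f ≠ 0 → (σ : F ≃+* F) f = f → (∀ P : Place K F, P.ord f = ℓ * (D : Divisor K F) P) →
        ψ (Pic0.mk D) (Pic0.mk E) = h92_evDiv f (E : Divisor K F) ^ ((p ^ e - 1) / ℓ) := by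
  unfold h76_IsTate
  simp only [h76_eval_eq_evDiv]

theorem h76_FrobStr.periodic {p e : ℕ} {σ : h57_SemiAut K F} (h : h76_FrobStr p e σ) :
    h73_Periodic σ := h.per

/-- a Frobenius structure in the sense of B6 (`0 < e`, `h57_IsFrob (p ^ e) σ`,
`h73_Periodic σ`) is an `h76_FrobStr`. -/
theorem h76_frobStr_of {p e : ℕ} {σ : h57_SemiAut K F} (he : 0 < e)
    (hσ : h57_IsFrob (p ^ e) σ) (hper : h73_Periodic σ) : h76_FrobStr p e σ :=
  ⟨he, hσ, hper⟩

theorem h76_FrobStr.one_lt {p e : ℕ} [Fact p.Prime] {σ : h57_SemiAut K F}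
    (h : h76_FrobStr p e σ) : 1 < p ^ e :=
  Nat.one_lt_pow h.pos.ne' (Fact.out : p.Prime).one_lt

end Fermat.Agent.S27
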