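import Mathlib
import Fermat.Agent.S27.h41_KummerFrob
import Fermat.Agent.S27.h76_TateDefs

/-!
# S27 / B8d KUMMER (helper41): the block export `h76_kummer`

`h76_kummer` is the statement of helper76's sub-skeleton `skel/h76_SkelPair.lean` (v2), VERBATIM;
`h41_kummer_natCard` is the same with the count stated with `Nat.card` (v1 shape).
It is an adapter over `h41_kummer_cover_card` (the Kummer cover `F(f^(1/ℓ))` with the lifted
Frobenius structure and the fixed-place count, without any fixed-place hypothesis).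
-/

set_option autoImplicit false

noncomputable section

open AlgebraicCurve IntermediateField Polynomial
open Fermat.Agent.S18 Fermat.Agent.S24

namespace Fermat.Agent.S27

universe u v

/-- The Kummer cover with its Frobenius structure and fixed-place count, no fixed place
needed: `F / k` with a chart, `σ` a periodic `q`-Frobenius structure, `ℓ` a prime invertible
in `k` with `μ_ℓ ⊆ 𝔽_q`, `f` a `σ`-invariant function which is not an `ℓ`-th power such that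
at every `σ ^ s`-fixed place a `σ ^ s`-invariant twist `f u ^ ℓ` takes as value the `ℓ`-th
power of an element of `𝔽_{q^s}^×`. -/
theorem h41_kummer_cover_card {k : Type u} {F : Type v} [Field k] [IsAlgClosed k] [Field F]
    [Algebra k F] {x : F} (hx : h75_IsChart k x) {q : ℕ}
    (σ : h57_SemiAut k F) (hσ : h57_IsFrob q σ) (hper : h73_Periodic σ)
    (ℓ : ℕ) [hℓ : Fact ℓ.Prime] (hℓk : (ℓ : k) ≠ 0) (hμ : ∀ ζ : k, ζ ^ ℓ = 1 → ζ ^ q = ζ)
    (f : F) (hσf : (σ : F ≃+* F) f = f) (hirr : ∀ b : F, b ^ ℓ ≠ f)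
    (hsplit : ∀ s : ℕ, 0 < s → ∀ P : Place k F, σ ^ s • P = P →
      ∃ u : F, u ≠ 0 ∧ ((σ ^ s : h57_SemiAut k F) : F ≃+* F) u = u ∧
        ∃ b : k, b ≠ 0 ∧ b ^ (q ^ s) = b ∧ h39_Val P (f * u ^ ℓ) (b ^ ℓ)) :
    ∃ (F' : Type v) (_ : Field F') (_ : Algebra k F') (x' : F') (σ' : h57_SemiAut k F'),
      h75_IsChart k x' ∧ h57_IsFrob q σ' ∧ h73_Periodic σ' ∧
      ∀ s : ℕ, 0 < s → Nat.card {P' : Place k F' // σ' ^ s • P' = P'} =
        ℓ * Nat.card {P : Place k F // σ ^ s • P = P} := by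
  classical
  haveI : Fact (Irreducible (X ^ ℓ - C f : F[X])) :=
    ⟨X_pow_sub_C_irreducible_of_prime hℓ.out hirr⟩
  have hK : h41_IsKummer ℓ f (AdjoinRoot.root (X ^ ℓ - C f : F[X])) := by
    refine ⟨?_, ?_, hirr⟩
    · have h1 := AdjoinRoot.eval₂_root (X ^ ℓ - C f : F[X])
      rw [eval₂_sub, eval₂_pow, eval₂_X, eval₂_C] at h1
      exact sub_eq_zero.mp h1
    · exact IntermediateField.adjoin_eq_top_of_algebra _ _ AdjoinRoot.adjoinRoot_eq_top
  haveI := hK.finiteDimensional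
  have hℓF : (ℓ : F) ≠ 0 := by
    intro h0
    apply hℓk
    apply (algebraMap k F).injective
    rw [map_natCast, h0, map_zero]
  haveI := hK.isSeparable hℓF
  have hx' := h41_isChart_of_finite_separable (K := k)
    (F' := AdjoinRoot (X ^ ℓ - C f : F[X])) hx
  obtain ⟨σ', hl⟩ := h41_exists_lift hK σ hσf
  have hμs : ∀ s : ℕ, ∀ ζ : k, ζ ^ ℓ = 1 → ζ ^ (q ^ s) = ζ := by
    intro s
    induction s with
    | zero =>
      intro ζ _
      rw [pow_zero, pow_one]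
    | succ s ih =>
      intro ζ hζ
      rw [pow_succ, pow_mul, ih ζ hζ, hμ ζ hζ]
  refine ⟨AdjoinRoot (X ^ ℓ - C f : F[X]), inferInstance, inferInstance,
    algebraMap F (AdjoinRoot (X ^ ℓ - C f : F[X])) x, σ', hx', hl.isFrob hσ,
    hl.periodic hK.gen hper, ?_⟩
  intro s hs
  exact h41_card_fixed hx hℓk hK (hl.pow s) (hσ.pow s) (hμs s) (hsplit s hs)

variable {K : Type u} {F : Type v} [Field K] [Field F] [Algebra K F]

section Kummer

variable [IsAlgClosed K] (p : ℕ) [Fact p.Prime] [CharP K p]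

/-- (KUMMER), `Nat.card` form (v1 of the sub-skeleton): if `f` is invariant, not an `ℓ`-th
power, and at every `σ ^ t`-fixed place the residue symbol of `f` is trivial over `𝔽_(q ^ t)`,
then there is a function field `F'` with a Frobenius structure `σ'` (same `q`) such that
`#Fix(σ' ^ t) = ℓ * #Fix(σ ^ t)` for all `t ≥ 1`. -/
theorem h41_kummer_natCard {x : F} (hx : h75_IsChart K x) {e : ℕ} {σ : h57_SemiAut K F}
    (hσ : h76_FrobStr p e σ) (ℓ : ℕ) [Fact ℓ.Prime] (hℓ : ℓ ≠ p) (hdiv : ℓ ∣ p ^ e - 1)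
    (f : F) (hσf : (σ : F ≃+* F) f = f) (hnot : ∀ g : F, f ≠ g ^ ℓ)
    (hsplit : ∀ t : ℕ, 0 < t → ∀ P : Place K F, (σ ^ t) • P = P →
      ∃ (g : F) (b : K), ((σ ^ t : h57_SemiAut K F) : F ≃+* F) g = g ∧ b ≠ 0 ∧
        b ^ (p ^ (e * t)) = b ∧ h39_Val P (f * g ^ ℓ) (b ^ ℓ)) :
    ∃ (F' : Type v) (_ : Field F') (_ : Algebra K F') (x' : F') (σ' : h57_SemiAut K F'),
      h75_IsChart K x' ∧ h76_FrobStr p e σ' ∧
      ∀ t : ℕ, 0 < t → Nat.card {P' : Place K F' // (σ' ^ t) • P' = P'} =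
        ℓ * Nat.card {P : Place K F // (σ ^ t) • P = P} := by
  have hℓp := (Fact.out : ℓ.Prime)
  have hp := (Fact.out : p.Prime)
  have hℓK : (ℓ : K) ≠ 0 := by
    rw [Ne, CharP.cast_eq_zero_iff K p]
    intro hdvd
    exact hℓ ((Nat.prime_dvd_prime_iff_eq hp hℓp).mp hdvd).symm
  have hq1 : 1 ≤ p ^ e := Nat.one_le_pow _ _ hp.pos
  have hμ : ∀ ζ : K, ζ ^ ℓ = 1 → ζ ^ (p ^ e) = ζ := by
    intro ζ hζ
    obtain ⟨m, hm⟩ := hdiv
    have h1 : ζ ^ (p ^ e - 1) = 1 := by rw [hm, pow_mul, hζ, one_pow]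
    calc ζ ^ (p ^ e) = ζ ^ (p ^ e - 1 + 1) := by rw [Nat.sub_add_cancel hq1]
      _ = ζ := by rw [pow_succ, h1, one_mul]
  have hsplit' : ∀ s : ℕ, 0 < s → ∀ P : Place K F, σ ^ s • P = P →
      ∃ u : F, u ≠ 0 ∧ ((σ ^ s : h57_SemiAut K F) : F ≃+* F) u = u ∧
        ∃ b : K, b ≠ 0 ∧ b ^ ((p ^ e) ^ s) = b ∧ h39_Val P (f * u ^ ℓ) (b ^ ℓ) := by
    intro s hs P hP
    obtain ⟨g, b, hg, hb, hbq, hval⟩ := hsplit s hs P hP
    refine ⟨g, ?_, hg, b, hb, ?_, hval⟩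
    · rintro rfl
      rw [zero_pow hℓp.ne_zero, mul_zero] at hval
      have h0 : h39_Val P (0 : F) (0 : K) := by
        have := h39_val_algebraMap P (0 : K)
        rwa [map_zero] at this
      exact pow_ne_zero ℓ hb (h39_val_unique P hval h0)
    · rw [← pow_mul]
      exact hbq
  obtain ⟨F', iF, iA, x', σ', hx', hσ', hper', hN⟩ :=
    h41_kummer_cover_card hx σ hσ.frob hσ.periodic ℓ hℓK hμ f hσf
      (fun b hb => hnot b hb.symm) hsplit'
  exact ⟨F', iF, iA, x', σ', hx', h76_frobStr_of hσ.pos hσ' hper', hN⟩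

/-- If `f` is `σ`-invariant with `div f = ℓ D`, not an `ℓ`-th power, and at every `σ ^ t`-fixed
place the residue symbol of `f` is trivial over `𝔽_(q ^ t)` (witness: a `σ ^ t`-invariant `g`
and a constant `b ∈ 𝔽_(q^t)ˣ` with `(f g^ℓ)(P) = b^ℓ`), then there is a function field `F'`
with a Frobenius structure `σ'` of the same level with `#Fix(σ' ^ t) = ℓ * #Fix(σ ^ t)`. -/
theorem h76_kummer {x : F} (hx : h75_IsChart K x) {e : ℕ} {σ : h57_SemiAut K F}
    (hσ : h76_FrobStr p e σ) (ℓ : ℕ) [Fact ℓ.Prime] (hℓ : ℓ ≠ p) (hdiv : ℓ ∣ p ^ e - 1)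
    (f : F) (hf0 : f ≠ 0) (hσf : (σ : F ≃+* F) f = f) (hnot : ∀ g : F, f ≠ g ^ ℓ)
    (D : Divisor K F) (hD : ∀ P : Place K F, P.ord f = ℓ * D P)
    (hsplit : ∀ t : ℕ, 0 < t → ∀ P : Place K F, (σ ^ t) • P = P →
      ∃ (g : F) (b : K), ((σ ^ t : h57_SemiAut K F) : F ≃+* F) g = g ∧ b ≠ 0 ∧
        b ^ (p ^ (e * t)) = b ∧ h39_Val P (f * g ^ ℓ) (b ^ ℓ)) :
    ∃ (F' : Type v) (_ : Field F') (_ : Algebra K F') (x' : F') (σ' : h57_SemiAut K F'),
      h75_IsChart K x' ∧ h76_FrobStr p e σ' ∧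
      ∀ t : ℕ, 0 < t → h73_N σ' t = ℓ * h73_N σ t := by
  obtain ⟨F', iF, iA, x', σ', hx', hσ', hN⟩ :=
    h41_kummer_natCard p hx hσ ℓ hℓ hdiv f hσf hnot hsplit
  refine ⟨F', iF, iA, x', σ', hx', hσ', fun t ht => ?_⟩
  unfold h73_N
  rw [hN t ht]
  push_cast
  ring

end Kummer

end Fermat.Agent.S27
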