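/-
S27 / B6 + B8 (helper57): INV-REP.  "Fixed classes = classes of invariant divisors."
A `σ`-fixed divisor class (`σ • D - D` principal) contains a `σ`-invariant divisor, as soon as
some `σ`-invariant divisor of positive degree exists (e.g. a `σ`-fixed place).
No Hilbert 90 and no periodicity: twist by `n • A` until `l ≥ 1` and use `h57_CountClass`.
-/
import Fermat.Agent.S27.h57_CountClass

set_option autoImplicit false

noncomputable section

namespace Fermat.Agent.S27

open AlgebraicCurve Fermat.Agent.S18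

variable {K F : Type*} [Field K] [Field F] [Algebra K F] [IsAlgClosed K]
  (p : ℕ) [Fact p.Prime] [CharP K p] (e : ℕ)

/-- a `σ`-fixed class contains a `σ`-invariant divisor (given an invariant divisor `A` of
positive degree) -/
theorem h57_exists_invariant_rep (he : 0 < e) {x : F} (hx : h75_IsChart K x)
    (σ : h57_SemiAut K F) (hσ : h57_IsFrob (p ^ e) σ) (A : Divisor K F) (hA : σ • A = A)
    (hAdeg : 0 < Divisor.degree A) (D : Divisor K F)
    (hD : σ • D - D ∈ Divisor.principal (K := K) (F := F)) :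
    ∃ D' : Divisor K F, σ • D' = D' ∧ D' - D ∈ Divisor.principal (K := K) (F := F) := by
  set n : ℕ := ((h75_genus K x : ℤ) - Divisor.degree D).toNat with hn
  set D1 : Divisor K F := D + n • A with hD1
  have hσD1 : σ • D1 - D1 = σ • D - D := by
    rw [hD1, smul_add, smul_comm σ n A, hA]
    abel
  have hdeg : (h75_genus K x : ℤ) ≤ Divisor.degree D1 := by
    rw [hD1, map_add, map_nsmul, nsmul_eq_mul]
    have h1 : (h75_genus K x : ℤ) - Divisor.degree D ≤ (n : ℤ) := Int.self_le_toNat _
    have h2 : (n : ℤ) ≤ (n : ℤ) * Divisor.degree A := by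
      nlinarith [Int.natCast_nonneg n]
    linarith
  have hl : 0 < Module.finrank K (riemannRochSpace D1) := by
    have := (h75_riemann hx D1).2
    omega
  obtain ⟨E, -, hE1, hE2⟩ := h57_exists_invariant_effective p e he hx σ hσ D1
    (by rw [hσD1]; exact hD) hl
  refine ⟨E - n • A, ?_, ?_⟩
  · rw [smul_sub, smul_comm σ n A, hA, hE2]
  · have : E - n • A - D = E - D1 := by rw [hD1]; abel
    rw [this]
    exact hE1

/-- a `σ`-fixed class contains a `σ`-invariant divisor (given a `σ`-fixed place) -/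
theorem h57_exists_invariant_rep_place (he : 0 < e) {x : F} (hx : h75_IsChart K x)
    (σ : h57_SemiAut K F) (hσ : h57_IsFrob (p ^ e) σ) (P₀ : Place K F) (hP₀ : σ • P₀ = P₀)
    (D : Divisor K F) (hD : σ • D - D ∈ Divisor.principal (K := K) (F := F)) :
    ∃ D' : Divisor K F, σ • D' = D' ∧ D' - D ∈ Divisor.principal (K := K) (F := F) := by
  refine h57_exists_invariant_rep p e he hx σ hσ (Finsupp.single P₀ 1) ?_ ?_ D hD
  · rw [h57_smul_single, hP₀]
  · rw [Divisor.degree_single, h75_deg_eq_one hx P₀]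
    norm_num

/-- a `σ`-fixed class of `Pic0` is the class of a `σ`-invariant divisor of degree zero
(given a `σ`-fixed place) -/
theorem h57_pic0_fixed_iff (he : 0 < e) {x : F} (hx : h75_IsChart K x)
    (σ : h57_SemiAut K F) (hσ : h57_IsFrob (p ^ e) σ) (P₀ : Place K F) (hP₀ : σ • P₀ = P₀)
    (c : Pic0 K F) :
    σ • c = c ↔ ∃ D : Divisor.degZero (K := K) (F := F),
      σ • (D : Divisor K F) = (D : Divisor K F) ∧ Pic0.mk D = c := by
  constructor
  · intro hc
    obtain ⟨D, rfl⟩ := Pic0.mk_surjective c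
    rw [h57_smul_mk_eq_iff] at hc
    obtain ⟨D', hD'1, hD'2⟩ := h57_exists_invariant_rep_place p e he hx σ hσ P₀ hP₀ D hc
    have hdeg : D' ∈ Divisor.degZero (K := K) (F := F) := by
      obtain ⟨f, hf0, hf⟩ := hD'2
      have h1 := h7_degree_div hx hf0 (D' - (D : Divisor K F)) hf
      rw [map_sub, (Divisor.mem_degZero.mp D.2)] at h1
      rw [Divisor.mem_degZero]
      linarith
    refine ⟨⟨D', hdeg⟩, hD'1, ?_⟩
    rw [h57_mk_eq_mk_iff]
    show (D : Divisor K F) - D' ∈ Divisor.principal (K := K) (F := F)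
    rw [← neg_sub]
    exact AddSubgroup.neg_mem _ hD'2
  · rintro ⟨D, hD, rfl⟩
    rw [h57_smul_mk_eq_iff, hD, sub_self]
    exact AddSubgroup.zero_mem _

end Fermat.Agent.S27
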