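/-
S27 / B8 (helper57): INV-FUN.  An invariant principal divisor is the divisor of a `σ`-fixed
function (unique up to `F_q^×`); a `σ`-fixed `n`-torsion class of `Pic0` is the class of an
invariant divisor `D` with `n D = div f`, `σ f = f`.
-/
import Fermat.Agent.S27.h57_InvRep

set_option autoImplicit false

noncomputable section

namespace Fermat.Agent.S27

open AlgebraicCurve Fermat.Agent.S18

variable {K F : Type*} [Field K] [Field F] [Algebra K F] [IsAlgClosed K]
  (p : ℕ) [Fact p.Prime] [CharP K p] (e : ℕ)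

omit [IsAlgClosed K] [Fact p.Prime] [CharP K p] in
/-- a constant multiple of a `σ`-fixed function by an element of `F_q` is `σ`-fixed -/
theorem h57_fixed_smul (σ : h57_SemiAut K F) (hσ : h57_IsFrob (p ^ e) σ) (c : K)
    (hc : c ^ (p ^ e) = c) (f : F) (hf : (σ : F ≃+* F) f = f) :
    (σ : F ≃+* F) (algebraMap K F c * f) = algebraMap K F c * f := by
  rw [map_mul, hσ c, hc, hf]

omit [CharP K p] in
/-- an invariant principal divisor is the divisor of a `σ`-fixed function -/
theorem h57_exists_fixed_fun (he : 0 < e) {x : F} (hx : h75_IsChart K x)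
    (σ : h57_SemiAut K F) (hσ : h57_IsFrob (p ^ e) σ) (D : Divisor K F) (hD : σ • D = D)
    (hprin : D ∈ Divisor.principal (K := K) (F := F)) :
    ∃ f : F, f ≠ 0 ∧ (σ : F ≃+* F) f = f ∧ ∀ v : Place K F, D v = v.ord f := by
  obtain ⟨g, hg0, hg⟩ := hprin
  have hq := h57_one_lt_q p e he
  have hσg0 : (σ : F ≃+* F) g ≠ 0 := by
    rwa [ne_eq, map_eq_zero_iff _ (σ : F ≃+* F).injective]
  have hsame : ∀ P : Place K F, P.ord ((σ : F ≃+* F) g) = P.ord g := by
    intro P
    rw [← h57_smul_div σ hg P, hD, hg P]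
  obtain ⟨c, hc0, hc⟩ := h68_div_eq hx hσg0 hg0 hsame
  obtain ⟨a, ha⟩ := IsAlgClosed.exists_pow_nat_eq c⁻¹ (by omega : 0 < p ^ e - 1)
  have ha0 : a ≠ 0 := by
    rintro rfl
    rw [zero_pow (by omega)] at ha
    exact inv_ne_zero hc0 ha.symm
  have haq : a ^ (p ^ e) * c = a := by
    have h1 : a ^ (p ^ e) = a ^ (p ^ e - 1) * a := by
      rw [← pow_succ, Nat.sub_add_cancel hq.le]
    rw [h1, ha]
    field_simp
  refine ⟨algebraMap K F a * g, mul_ne_zero (by simpa using ha0) hg0, ?_, fun v => ?_⟩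
  · rw [map_mul, hσ a, hc, ← mul_assoc, ← map_mul, haq]
  · rw [v.ord_mul (by simpa using ha0) hg0, Fermat.Agent.S24.h35_ord_algebraMap, zero_add, hg v]

omit [Fact p.Prime] [CharP K p] in
/-- two `σ`-fixed functions with the same divisor differ by an element of `F_q^×` -/
theorem h57_fixed_fun_unique {x : F} (hx : h75_IsChart K x)
    (σ : h57_SemiAut K F) (hσ : h57_IsFrob (p ^ e) σ) {f g : F} (hf0 : f ≠ 0) (hg0 : g ≠ 0)
    (hf : (σ : F ≃+* F) f = f) (hg : (σ : F ≃+* F) g = g)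
    (h : ∀ P : Place K F, P.ord f = P.ord g) :
    ∃ c : K, c ≠ 0 ∧ c ^ (p ^ e) = c ∧ f = algebraMap K F c * g := by
  obtain ⟨c, hc0, hc⟩ := h68_div_eq hx hf0 hg0 h
  refine ⟨c, hc0, ?_, hc⟩
  have h1 : (σ : F ≃+* F) f = algebraMap K F (c ^ (p ^ e)) * g := by
    conv_lhs => rw [hc]
    rw [map_mul, hσ c, hg]
  rw [hf, hc] at h1
  exact ((algebraMap K F).injective (mul_right_cancel₀ hg0 h1)).symm

/-- a `σ`-fixed `n`-torsion class is the class of an invariant divisor `D` of degree zero with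
`n D = div f`, `f` a `σ`-fixed function (given a `σ`-fixed place) -/
theorem h57_torsion_fixed (he : 0 < e) {x : F} (hx : h75_IsChart K x)
    (σ : h57_SemiAut K F) (hσ : h57_IsFrob (p ^ e) σ) (P₀ : Place K F) (hP₀ : σ • P₀ = P₀)
    (n : ℕ) (c : Pic0 K F) (hc : σ • c = c) (hn : n • c = 0) :
    ∃ (D : Divisor.degZero (K := K) (F := F)) (f : F),
      σ • (D : Divisor K F) = (D : Divisor K F) ∧ Pic0.mk D = c ∧ f ≠ 0 ∧
      (σ : F ≃+* F) f = f ∧ ∀ v : Place K F, (n : ℤ) * (D : Divisor K F) v = v.ord f := by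
  obtain ⟨D, hD, rfl⟩ := (h57_pic0_fixed_iff p e he hx σ hσ P₀ hP₀ c).mp hc
  have hprin : n • (D : Divisor K F) ∈ Divisor.principal (K := K) (F := F) := by
    have h1 : Pic0.mk (n • D) = Pic0.mk 0 := by
      have : Pic0.mk (n • D) = n • Pic0.mk D := by
        unfold Pic0.mk
        rfl
      rw [this, hn]
      rfl
    rw [h57_mk_eq_mk_iff] at h1
    have h2 : ((0 : Divisor.degZero (K := K) (F := F)) : Divisor K F)
        - ((n • D : Divisor.degZero (K := K) (F := F)) : Divisor K F)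
        = -(n • (D : Divisor K F)) := by
      push_cast
      abel
    rw [h2] at h1
    exact (AddSubgroup.neg_mem_iff _).mp h1
  obtain ⟨f, hf0, hf, hfD⟩ := h57_exists_fixed_fun p e he hx σ hσ (n • (D : Divisor K F))
    (by rw [smul_comm, hD]) hprin
  refine ⟨D, f, hD, rfl, hf0, hf, fun v => ?_⟩
  rw [← hfD v, Finsupp.smul_apply, nsmul_eq_mul]

end Fermat.Agent.S27
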