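import Fermat.Agent.S27.RRFull
import Fermat.Agent.S27.h68_RRCons
import Fermat.Agent.S27.h57_SemiAct
import Fermat.Agent.S27.h57_Semilin

/-!
# S27 / B8b MOVE (helper92): invariant functions with prescribed orders

`K` algebraically closed, `x` a chart of `F / K`, `σ` a semilinear automorphism of `F / K` acting
on the constants by `c ↦ c ^ q` (`h57_IsFrob q σ`, `1 < q`), every place having a finite `σ`-orbit.

* `h92_move_fun` : for a `σ`-invariant function `n` on places and a finite set `S` of places there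
  is a `σ`-fixed `g ≠ 0` with `ord_v g = n v` for all `v ∈ S`;
* `h92_move` : for a `σ`-invariant divisor `D` and finite `S` there is a `σ`-fixed `g ≠ 0` with
  `D v + ord_v g = 0` on `S`;
* `h92_move_div` : the divisor form: a `σ`-invariant `E ∼ D` with `E v = 0` on `S`.

Proof: for one orbit `O` of a stable finite set `S₀` and an invariant bound `c`, a fixed vector of
`L(mA - Σ_{S₀} c)` outside `L(mA - Σ_{S₀} c - v₀)` (Riemann–Roch + Lang's semilinear descent:
the fixed vectors span) has order exactly `c` on the whole orbit of `v₀`; the orbits are then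
treated one at a time and the solutions are added (strict ultrametric inequality).
-/

set_option autoImplicit false

open AlgebraicCurve IntermediateField

namespace Fermat.Agent.S27

open Fermat.Agent.S18
open Fermat.Agent.S24 (h35_ord_add h35_ord_sub h35_ord_neg)

variable {K F : Type*} [Field K] [Field F] [Algebra K F]

/-! ### strict ultrametric inequality -/

theorem h92_ord_add_eq_of_lt (v : Place K F) {f g : F} (hf : f ≠ 0) (hg : g ≠ 0)
    (h : v.ord f < v.ord g) : v.ord (f + g) = v.ord f := by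
  have hfg : f + g ≠ 0 := by
    intro h0
    have h1 : f = -g := eq_neg_of_add_eq_zero_left h0
    rw [h1, h35_ord_neg] at h
    exact lt_irrefl _ h
  have h1 := h35_ord_add v hf hg hfg
  rw [min_eq_left h.le] at h1
  have h2 := h35_ord_sub v hfg hg (by rwa [add_sub_cancel_right])
  rw [add_sub_cancel_right] at h2
  by_contra hne
  have h3 : v.ord f < v.ord (f + g) := lt_of_le_of_ne h1 (Ne.symm hne)
  exact absurd h2 (not_le.mpr (lt_min h3 h))

/-! ### stable finite sets of places, orbits -/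

theorem h92_pow_smul_mem (σ : h57_SemiAut K F) {S : Finset (Place K F)}
    (hS : ∀ v ∈ S, σ • v ∈ S) (i : ℕ) {v : Place K F} (hv : v ∈ S) : σ ^ i • v ∈ S := by
  induction i with
  | zero => simpa using hv
  | succ i ih =>
    rw [pow_succ', mul_smul]
    exact hS _ ih

theorem h92_smul_mem_iff (σ : h57_SemiAut K F) {S : Finset (Place K F)}
    (hS : ∀ v ∈ S, σ • v ∈ S) (v : Place K F) : σ • v ∈ S ↔ v ∈ S := by
  classical
  have himg : S.image (fun u => σ • u) = S := by
    apply Finset.eq_of_subset_of_card_le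
    · intro w hw
      obtain ⟨u, hu, rfl⟩ := Finset.mem_image.mp hw
      exact hS u hu
    · rw [Finset.card_image_of_injective _ (MulAction.injective σ)]
  constructor
  · intro h
    rw [← himg] at h
    obtain ⟨u, hu, huv⟩ := Finset.mem_image.mp h
    have : u = v := MulAction.injective σ huv
    exact this ▸ hu
  · exact hS v

theorem h92_apply_pow_smul (σ : h57_SemiAut K F) {n : Place K F → ℤ}
    (hn : ∀ v, n (σ • v) = n v) (i : ℕ) (v : Place K F) : n (σ ^ i • v) = n v := by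
  induction i with
  | zero => simp
  | succ i ih => rw [pow_succ', mul_smul, hn, ih]

open scoped Classical in
/-- the `σ`-orbit of `v` as a finset (for `σ ^ N • v = v`). -/
noncomputable def h92_orbit (σ : h57_SemiAut K F) (v : Place K F) (N : ℕ) :
    Finset (Place K F) :=
  (Finset.range N).image (fun i => σ ^ i • v)

theorem h92_mem_orbit (σ : h57_SemiAut K F) (v : Place K F) (N : ℕ) (u : Place K F) :
    u ∈ h92_orbit σ v N ↔ ∃ i, i < N ∧ σ ^ i • v = u := by
  classical
  unfold h92_orbit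
  rw [Finset.mem_image]
  constructor
  · rintro ⟨i, hi, rfl⟩
    exact ⟨i, Finset.mem_range.mp hi, rfl⟩
  · rintro ⟨i, hi, rfl⟩
    exact ⟨i, Finset.mem_range.mpr hi, rfl⟩

theorem h92_self_mem_orbit (σ : h57_SemiAut K F) (v : Place K F) (N : ℕ) (hN : 0 < N) :
    v ∈ h92_orbit σ v N :=
  (h92_mem_orbit σ v N v).mpr ⟨0, hN, by simp⟩

theorem h92_orbit_stable (σ : h57_SemiAut K F) (v : Place K F) (N : ℕ) (hN : 0 < N)
    (hv : σ ^ N • v = v) : ∀ u ∈ h92_orbit σ v N, σ • u ∈ h92_orbit σ v N := by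
  intro u hu
  obtain ⟨i, hi, rfl⟩ := (h92_mem_orbit σ v N u).mp hu
  rw [h92_mem_orbit]
  by_cases h : i + 1 < N
  · exact ⟨i + 1, h, by rw [pow_succ', mul_smul]⟩
  · have hiN : i + 1 = N := by omega
    refine ⟨0, hN, ?_⟩
    rw [pow_zero, one_smul, ← mul_smul, ← pow_succ', hiN, hv]

/-! ### the orbit sum and the divisor `Σ_S c` -/

/-- `Σ_{i < N} σ^i v` as a divisor. -/
noncomputable def h92_orbitSum (σ : h57_SemiAut K F) (v : Place K F) (N : ℕ) : Divisor K F :=
  ∑ i ∈ Finset.range N, Finsupp.single (σ ^ i • v) (1 : ℤ)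

theorem h92_smul_orbitSum (σ : h57_SemiAut K F) (v : Place K F) (N : ℕ)
    (hv : σ ^ N • v = v) : σ • h92_orbitSum σ v N = h92_orbitSum σ v N := by
  unfold h92_orbitSum
  rw [Finset.smul_sum]
  have h1 : ∀ i, σ • (Finsupp.single (σ ^ i • v) (1 : ℤ) : Divisor K F)
      = Finsupp.single (σ ^ (i + 1) • v) (1 : ℤ) := fun i => by
    rw [h57_smul_single, ← mul_smul, ← pow_succ']
  simp only [h1]
  have h2 := Finset.sum_range_succ
    (fun i => (Finsupp.single (σ ^ i • v) (1 : ℤ) : Divisor K F)) N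
  have h3 := Finset.sum_range_succ'
    (fun i => (Finsupp.single (σ ^ i • v) (1 : ℤ) : Divisor K F)) N
  rw [h2] at h3
  simp only [pow_zero, one_smul, hv] at h3
  exact (add_right_cancel h3).symm

theorem h92_orbitSum_apply_eq_zero (σ : h57_SemiAut K F) (v : Place K F) (N : ℕ)
    (w : Place K F) (hw : ∀ i, i < N → σ ^ i • v ≠ w) : h92_orbitSum σ v N w = 0 := by
  classical
  unfold h92_orbitSum
  rw [Finsupp.finsetSum_apply]
  apply Finset.sum_eq_zero
  intro i hi
  rw [Finsupp.single_apply, if_neg (hw i (Finset.mem_range.mp hi))]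

theorem h92_degree_orbitSum [IsAlgClosed K] {x : F} (hx : h75_IsChart K x)
    (σ : h57_SemiAut K F) (v : Place K F) (N : ℕ) :
    Divisor.degree (h92_orbitSum σ v N) = N := by
  unfold h92_orbitSum
  rw [map_sum]
  simp [Divisor.degree_single, h75_deg_eq_one hx]

/-- `Σ_{u ∈ S} c(u) u` as a divisor. -/
noncomputable def h92_sumDiv (S : Finset (Place K F)) (c : Place K F → ℤ) : Divisor K F :=
  ∑ u ∈ S, Finsupp.single u (c u)

open scoped Classical in
theorem h92_sumDiv_apply (S : Finset (Place K F)) (c : Place K F → ℤ) (w : Place K F) :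
    h92_sumDiv S c w = if w ∈ S then c w else 0 := by
  unfold h92_sumDiv
  rw [Finsupp.finsetSum_apply]
  by_cases h : w ∈ S
  · rw [if_pos h, Finset.sum_eq_single_of_mem w h]
    · simp
    · intro b _ hb
      rw [Finsupp.single_apply, if_neg hb]
  · rw [if_neg h]
    apply Finset.sum_eq_zero
    intro u hu
    rw [Finsupp.single_apply, if_neg]
    rintro rfl
    exact h hu

theorem h92_smul_sumDiv (σ : h57_SemiAut K F) (S : Finset (Place K F))
    (hS : ∀ v ∈ S, σ • v ∈ S) (c : Place K F → ℤ) (hc : ∀ v, c (σ • v) = c v) :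
    σ • h92_sumDiv S c = h92_sumDiv S c := by
  classical
  rw [h57_smul_eq_iff_forall]
  intro v
  rw [h92_sumDiv_apply, h92_sumDiv_apply, hc]
  simp only [h92_smul_mem_iff σ hS v]

/-! ### the Frobenius on `L(E)` and fixed vectors outside a subspace -/

/-- `σ` as a semilinear endomorphism of `L(E)` for an invariant divisor `E`. -/
noncomputable def h92_rrFrob (σ : h57_SemiAut K F) (E : Divisor K F) (hE : σ • E = E) :
    riemannRochSpace E →ₛₗ[(h57_resK σ : K →+* K)] riemannRochSpace E where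
  toFun f := ⟨(σ : F ≃+* F) f, by
    have := (h57_mem_rr_smul σ E f).mpr f.2
    rwa [hE] at this⟩
  map_add' f g := Subtype.ext (map_add _ _ _)
  map_smul' c f := Subtype.ext (h57_apply_smul σ c f)

theorem h92_coe_rrFrob (σ : h57_SemiAut K F) (E : Divisor K F) (hE : σ • E = E)
    (f : riemannRochSpace E) : ((h92_rrFrob σ E hE f : riemannRochSpace E) : F)
      = (σ : F ≃+* F) (f : F) := rfl

theorem h92_exists_fixed_not_mem [IsAlgClosed K] {q : ℕ} (hq : 1 < q) (σ : h57_SemiAut K F)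
    (hσ : h57_IsFrob q σ) (E : Divisor K F) (hE : σ • E = E)
    (hfd : Module.Finite K (riemannRochSpace E)) (W : Submodule K F)
    (hW : ¬ riemannRochSpace E ≤ W) :
    ∃ f : F, f ∈ riemannRochSpace E ∧ (σ : F ≃+* F) f = f ∧ f ∉ W := by
  by_contra hcon
  push Not at hcon
  apply hW
  have hinj : Function.Injective (h92_rrFrob σ E hE) := by
    intro f g hfg
    have h1 := congrArg Subtype.val hfg
    rw [h92_coe_rrFrob, h92_coe_rrFrob] at h1
    exact Subtype.ext ((σ : F ≃+* F).injective h1)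
  have hspan := h57_span_fixed hq (h57_resK σ : K →+* K) (fun c => hσ.resK c)
    (h92_rrFrob σ E hE) hinj
  intro f hf
  have hmem : (⟨f, hf⟩ : riemannRochSpace E) ∈
      Submodule.span K {v : riemannRochSpace E | h92_rrFrob σ E hE v = v} := by
    rw [hspan]
    trivial
  have hle : Submodule.span K {v : riemannRochSpace E | h92_rrFrob σ E hE v = v}
      ≤ W.comap (riemannRochSpace E).subtype := by
    rw [Submodule.span_le]
    intro v hv
    exact hcon v v.2 (congrArg Subtype.val hv)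
  exact hle hmem

/-! ### one orbit -/

/-- **one orbit**: for a stable finite set `S`, an invariant bound `c` and `v₀ ∈ S` there is a
fixed `f ≠ 0` with `ord ≥ c` on `S` and `ord = c` at `v₀`. -/
theorem h92_one_orbit [IsAlgClosed K] {x : F} (hx : h75_IsChart K x) {q : ℕ} (hq : 1 < q)
    (σ : h57_SemiAut K F) (hσ : h57_IsFrob q σ)
    (hfin : ∀ v : Place K F, ∃ n : ℕ, 0 < n ∧ σ ^ n • v = v)
    (S : Finset (Place K F)) (hS : ∀ v ∈ S, σ • v ∈ S) (c : Place K F → ℤ)
    (hc : ∀ v, c (σ • v) = c v) (v₀ : Place K F) (hv₀ : v₀ ∈ S) :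
    ∃ f : F, f ≠ 0 ∧ (σ : F ≃+* F) f = f ∧ (∀ u ∈ S, c u ≤ u.ord f) ∧ v₀.ord f = c v₀ := by
  classical
  have hinf := h68_infinite_places hx
  obtain ⟨P, hP⟩ := Infinite.exists_notMem_finset S
  obtain ⟨N, hN, hPN⟩ := hfin P
  have hAinv : σ • h92_orbitSum σ P N = h92_orbitSum σ P N := h92_smul_orbitSum σ P N hPN
  have hAS : ∀ u ∈ S, h92_orbitSum σ P N u = 0 := by
    intro u hu
    apply h92_orbitSum_apply_eq_zero
    intro i hi hiu
    apply hP
    have h1 : σ ^ (N - i) • u ∈ S := h92_pow_smul_mem σ hS (N - i) hu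
    rw [← hiu, ← mul_smul, ← pow_add, Nat.sub_add_cancel hi.le, hPN] at h1
    exact h1
  have hAdeg : Divisor.degree (h92_orbitSum σ P N) = N := h92_degree_orbitSum hx σ P N
  have hBinv : σ • h92_sumDiv S c = h92_sumDiv S c := h92_smul_sumDiv σ S hS c hc
  obtain ⟨m, hm⟩ : ∃ m : ℕ, 2 * (h75_genus K x : ℤ) + Divisor.degree (h92_sumDiv S c) < m :=
    ⟨(2 * (h75_genus K x : ℤ) + Divisor.degree (h92_sumDiv S c)).toNat + 1, by
      push_cast
      have := Int.self_le_toNat (2 * (h75_genus K x : ℤ) + Divisor.degree (h92_sumDiv S c))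
      omega⟩
  have hmN : (m : ℤ) ≤ (m : ℤ) * N := by
    have h1 : (1 : ℤ) ≤ (N : ℤ) := by exact_mod_cast hN
    nlinarith [Int.natCast_nonneg m]
  set E : Divisor K F := (m : ℤ) • h92_orbitSum σ P N - h92_sumDiv S c with hE
  have hEinv : σ • E = E := by
    rw [h57_smul_eq_iff_forall]
    intro v
    rw [hE, Finsupp.sub_apply, Finsupp.sub_apply, Finsupp.smul_apply, Finsupp.smul_apply,
      (h57_smul_eq_iff_forall σ).mp hAinv v, (h57_smul_eq_iff_forall σ).mp hBinv v]
  have hEdeg : Divisor.degree E = (m : ℤ) * N - Divisor.degree (h92_sumDiv S c) := by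
    rw [hE, map_sub, map_zsmul, hAdeg, smul_eq_mul]
  have hEu : ∀ u ∈ S, E u = -c u := by
    intro u hu
    rw [hE, Finsupp.sub_apply, Finsupp.smul_apply, hAS u hu, h92_sumDiv_apply, if_pos hu]
    simp
  have hfd := (h75_riemann hx E).1
  have hr1 := h15_finrank_rr_of_deg hx E (by rw [hEdeg]; linarith)
  have hdeg2 : Divisor.degree (E - Finsupp.single v₀ 1) = Divisor.degree E - 1 := by
    rw [map_sub, Divisor.degree_single, h75_deg_eq_one hx]
    simp
  have hr2 := h15_finrank_rr_of_deg hx (E - Finsupp.single v₀ 1) (by rw [hdeg2, hEdeg]; linarith)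
  have hnot : ¬ riemannRochSpace E ≤ riemannRochSpace (E - Finsupp.single v₀ 1) := by
    intro hle
    have hfd2 := (h75_riemann hx (E - Finsupp.single v₀ 1)).1
    have h1 := Submodule.finrank_mono hle
    have h2 : (Module.finrank K (riemannRochSpace E) : ℤ)
        ≤ Module.finrank K (riemannRochSpace (E - Finsupp.single v₀ 1)) := by exact_mod_cast h1
    rw [hr1, hr2, hdeg2] at h2
    linarith
  obtain ⟨f, hfE, hfix, hfn⟩ := h92_exists_fixed_not_mem hq σ hσ E hEinv hfd _ hnot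
  have hf0 : f ≠ 0 := by
    rintro rfl
    exact hfn (Submodule.zero_mem _)
  have hord : ∀ v : Place K F, -E v ≤ v.ord f := fun v =>
    ((mem_riemannRochSpace_iff.mp hfE) v).resolve_left hf0
  refine ⟨f, hf0, hfix, fun u hu => ?_, ?_⟩
  · have h1 := hord u
    rw [hEu u hu, neg_neg] at h1
    exact h1
  · have h1 := hord v₀
    rw [hEu v₀ hv₀, neg_neg] at h1
    by_contra hne
    have h2 : c v₀ + 1 ≤ v₀.ord f := by omega
    apply hfn
    rw [mem_riemannRochSpace_iff]
    intro v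
    right
    rw [Finsupp.sub_apply, Finsupp.single_apply]
    by_cases hv : v₀ = v
    · rw [if_pos hv, ← hv, hEu v₀ hv₀]
      omega
    · rw [if_neg hv]
      have := hord v
      omega

/-! ### all orbits -/

theorem h92_move_aux [IsAlgClosed K] {x : F} (hx : h75_IsChart K x) {q : ℕ} (hq : 1 < q)
    (σ : h57_SemiAut K F) (hσ : h57_IsFrob q σ)
    (hfin : ∀ v : Place K F, ∃ n : ℕ, 0 < n ∧ σ ^ n • v = v)
    (n : Place K F → ℤ) (hn : ∀ v, n (σ • v) = n v) :
    ∀ (k : ℕ) (S T : Finset (Place K F)), S.card ≤ k → (∀ v ∈ S, σ • v ∈ S) →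
      (∀ v ∈ T, σ • v ∈ T) → Disjoint S T →
      ∃ g : F, g ≠ 0 ∧ (σ : F ≃+* F) g = g ∧ (∀ u ∈ S, u.ord g = n u) ∧
        (∀ u ∈ T, n u + 1 ≤ u.ord g) := by
  classical
  intro k
  induction k with
  | zero =>
    intro S T hk hS hT hd
    have hS0 : S = ∅ := Finset.card_eq_zero.mp (Nat.le_zero.mp hk)
    subst hS0
    by_cases hT0 : T = ∅
    · subst hT0
      exact ⟨1, one_ne_zero, map_one _, by simp, by simp⟩
    · obtain ⟨v₀, hv₀⟩ := Finset.nonempty_iff_ne_empty.mpr hT0
      obtain ⟨f, hf0, hfix, hf, -⟩ := h92_one_orbit hx hq σ hσ hfin T hT (fun u => n u + 1)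
        (fun v => by rw [hn]) v₀ hv₀
      exact ⟨f, hf0, hfix, by simp, hf⟩
  | succ k ih =>
    intro S T hk hS hT hd
    by_cases hS0 : S = ∅
    · exact ih S T (by rw [hS0]; simp) hS hT hd
    obtain ⟨v₀, hv₀⟩ := Finset.nonempty_iff_ne_empty.mpr hS0
    obtain ⟨N, hN, hvN⟩ := hfin v₀
    have hOst : ∀ v ∈ h92_orbit σ v₀ N, σ • v ∈ h92_orbit σ v₀ N :=
      h92_orbit_stable σ v₀ N hN hvN
    have hOS : h92_orbit σ v₀ N ⊆ S := by
      intro u hu
      obtain ⟨i, -, rfl⟩ := (h92_mem_orbit σ v₀ N u).mp hu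
      exact h92_pow_smul_mem σ hS i hv₀
    have hv₀O : v₀ ∈ h92_orbit σ v₀ N := h92_self_mem_orbit σ v₀ N hN
    have hS' : ∀ v ∈ S \ h92_orbit σ v₀ N, σ • v ∈ S \ h92_orbit σ v₀ N := by
      intro v hv
      rw [Finset.mem_sdiff] at hv ⊢
      exact ⟨hS v hv.1, fun h => hv.2 ((h92_smul_mem_iff σ hOst v).mp h)⟩
    have hT' : ∀ v ∈ T ∪ h92_orbit σ v₀ N, σ • v ∈ T ∪ h92_orbit σ v₀ N := by
      intro v hv
      rw [Finset.mem_union] at hv ⊢
      exact hv.imp (hT v) (hOst v)
    have hd' : Disjoint (S \ h92_orbit σ v₀ N) (T ∪ h92_orbit σ v₀ N) := by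
      rw [Finset.disjoint_left]
      intro u hu hu'
      rw [Finset.mem_sdiff] at hu
      rcases Finset.mem_union.mp hu' with h | h
      · exact Finset.disjoint_left.mp hd hu.1 h
      · exact hu.2 h
    have hcard : (S \ h92_orbit σ v₀ N).card ≤ k := by
      have h1 : (S \ h92_orbit σ v₀ N).card < S.card :=
        Finset.card_lt_card (Finset.sdiff_ssubset hOS ⟨v₀, hv₀O⟩)
      omega
    obtain ⟨g₂, hg₂0, hg₂fix, hg₂S, hg₂T⟩ :=
      ih (S \ h92_orbit σ v₀ N) (T ∪ h92_orbit σ v₀ N) hcard hS' hT' hd'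
    have hST : ∀ v ∈ S ∪ T, σ • v ∈ S ∪ T := by
      intro v hv
      rw [Finset.mem_union] at hv ⊢
      exact hv.imp (hS v) (hT v)
    obtain ⟨g₁, hg₁0, hg₁fix, hg₁c, hg₁v⟩ := h92_one_orbit hx hq σ hσ hfin (S ∪ T) hST
      (fun u => if u ∈ h92_orbit σ v₀ N then n u else n u + 1)
      (fun v => by simp only [h92_smul_mem_iff σ hOst v, hn]) v₀ (Finset.mem_union_left _ hv₀)
    simp only [if_pos hv₀O] at hg₁v
    have hg₁O : ∀ u ∈ h92_orbit σ v₀ N, u.ord g₁ = n u := by
      intro u hu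
      obtain ⟨i, -, rfl⟩ := (h92_mem_orbit σ v₀ N u).mp hu
      have hfix_i : ((σ ^ i : h57_SemiAut K F) : F ≃+* F) g₁ = g₁ := by
        rw [h57_coe_pow_apply]
        exact Function.iterate_fixed hg₁fix i
      have h1 := h57_ord_smul (σ ^ i) v₀ g₁
      rw [hfix_i] at h1
      rw [h1, hg₁v, h92_apply_pow_smul σ hn]
    have hg₁out : ∀ u ∈ S ∪ T, u ∉ h92_orbit σ v₀ N → n u + 1 ≤ u.ord g₁ := by
      intro u hu hun
      have h1 := hg₁c u hu
      simp only [if_neg hun] at h1
      exact h1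
    have hne : g₁ + g₂ ≠ 0 := by
      intro h0
      have h1 : g₁ = -g₂ := eq_neg_of_add_eq_zero_left h0
      have h2 := hg₂T v₀ (Finset.mem_union_right _ hv₀O)
      rw [← h35_ord_neg, ← h1, hg₁v] at h2
      omega
    refine ⟨g₁ + g₂, hne, by rw [map_add, hg₁fix, hg₂fix], fun u hu => ?_, fun u hu => ?_⟩
    · by_cases huO : u ∈ h92_orbit σ v₀ N
      · have h1 := hg₁O u huO
        have h2 := hg₂T u (Finset.mem_union_right _ huO)
        rw [h92_ord_add_eq_of_lt u hg₁0 hg₂0 (by omega), h1]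
      · have h1 := hg₂S u (Finset.mem_sdiff.mpr ⟨hu, huO⟩)
        have h2 := hg₁out u (Finset.mem_union_left _ hu) huO
        rw [add_comm, h92_ord_add_eq_of_lt u hg₂0 hg₁0 (by omega), h1]
    · have huO : u ∉ h92_orbit σ v₀ N := fun h =>
        Finset.disjoint_left.mp hd (hOS h) hu
      have h1 := hg₁out u (Finset.mem_union_right _ hu) huO
      have h2 := hg₂T u (Finset.mem_union_left _ hu)
      have h3 := h35_ord_add u hg₁0 hg₂0 hne
      exact le_trans (le_min h1 h2) h3

/-! ### exports -/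

/-- **MOVE (function form)**: a `σ`-fixed function with prescribed (invariant) orders on a
finite set of places. -/
theorem h92_move_fun [IsAlgClosed K] {x : F} (hx : h75_IsChart K x) {q : ℕ} (hq : 1 < q)
    (σ : h57_SemiAut K F) (hσ : h57_IsFrob q σ)
    (hfin : ∀ v : Place K F, ∃ n : ℕ, 0 < n ∧ σ ^ n • v = v)
    (S : Finset (Place K F)) (n : Place K F → ℤ) (hn : ∀ v, n (σ • v) = n v) :
    ∃ g : F, g ≠ 0 ∧ (σ : F ≃+* F) g = g ∧ ∀ v ∈ S, v.ord g = n v := by
  classical
  choose N hN hvN using hfin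
  have hst : ∀ v ∈ S.biUnion (fun v => h92_orbit σ v (N v)),
      σ • v ∈ S.biUnion (fun v => h92_orbit σ v (N v)) := by
    intro v hv
    obtain ⟨w, hw, hvw⟩ := Finset.mem_biUnion.mp hv
    exact Finset.mem_biUnion.mpr ⟨w, hw, h92_orbit_stable σ w (N w) (hN w) (hvN w) v hvw⟩
  obtain ⟨g, hg0, hgfix, hgS, -⟩ := h92_move_aux hx hq σ hσ (fun v => ⟨N v, hN v, hvN v⟩) n hn
    (S.biUnion (fun v => h92_orbit σ v (N v))).card (S.biUnion (fun v => h92_orbit σ v (N v))) ∅
    le_rfl hst (by simp) (by simp)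
  exact ⟨g, hg0, hgfix, fun v hv => hgS v
    (Finset.mem_biUnion.mpr ⟨v, hv, h92_self_mem_orbit σ v (N v) (hN v)⟩)⟩

/-- **MOVE**: for a `σ`-invariant divisor `D` and a finite set `S` of places there is a `σ`-fixed
`g ≠ 0` such that `D + div g` avoids `S`. -/
theorem h92_move [IsAlgClosed K] {x : F} (hx : h75_IsChart K x) {q : ℕ} (hq : 1 < q)
    (σ : h57_SemiAut K F) (hσ : h57_IsFrob q σ)
    (hfin : ∀ v : Place K F, ∃ n : ℕ, 0 < n ∧ σ ^ n • v = v)
    (D : Divisor K F) (hD : σ • D = D) (S : Finset (Place K F)) :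
    ∃ g : F, g ≠ 0 ∧ (σ : F ≃+* F) g = g ∧ ∀ v ∈ S, D v + v.ord g = 0 := by
  obtain ⟨g, hg0, hgfix, hgS⟩ := h92_move_fun hx hq σ hσ hfin S (fun v => -D v)
    (fun v => by rw [(h57_smul_eq_iff_forall σ).mp hD v])
  exact ⟨g, hg0, hgfix, fun v hv => by rw [hgS v hv]; ring⟩

/-- **MOVE (divisor form)**: a `σ`-invariant divisor is linearly equivalent to a `σ`-invariant
divisor avoiding a given finite set of places. -/
theorem h92_move_div [IsAlgClosed K] {x : F} (hx : h75_IsChart K x) {q : ℕ} (hq : 1 < q)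
    (σ : h57_SemiAut K F) (hσ : h57_IsFrob q σ)
    (hfin : ∀ v : Place K F, ∃ n : ℕ, 0 < n ∧ σ ^ n • v = v)
    (D : Divisor K F) (hD : σ • D = D) (S : Finset (Place K F)) :
    ∃ E : Divisor K F, σ • E = E ∧ E - D ∈ Divisor.principal (K := K) (F := F) ∧
      ∀ v ∈ S, E v = 0 := by
  obtain ⟨g, hg0, hgfix, hgS⟩ := h92_move hx hq σ hσ hfin D hD S
  obtain ⟨Dg, hDg⟩ := h7_exists_div hx g hg0
  refine ⟨D + Dg, ?_, ?_, fun v hv => ?_⟩
  · rw [h57_smul_eq_iff_forall]
    intro v
    rw [Finsupp.add_apply, Finsupp.add_apply, (h57_smul_eq_iff_forall σ).mp hD v, hDg, hDg]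
    congr 1
    have h1 := h57_ord_smul σ v g
    rw [hgfix] at h1
    exact h1
  · rw [add_sub_cancel_left]
    exact ⟨g, hg0, hDg⟩
  · rw [Finsupp.add_apply, hDg]
    exact hgS v hv

end Fermat.Agent.S27
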