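import Fermat.Agent.S27.h73_ZetaDefs
import Fermat.Agent.S18.RR_Chart

/-!
# S27 / B6 : every place (divisor, class) is fixed by a power of a periodic semilinear automorphism

`σ : h57_SemiAut K F` with `h73_Periodic σ` (every element of `F` is fixed by a positive power
of `σ`), `x` a chart.  Then every place of `F / K` is fixed by a positive power of `σ`
(a nonzero function fixed by `σ ^ n` has finitely many zeros and poles, and `σ ^ n` permutes
them), hence so is every divisor and every class of `Pic⁰`.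

Consequence (`h99_exists_fixed_place`): some power `τ = σ ^ r₀` fixes a place `P₀`; then for every
`r ≥ 1` the divisor `P₀` is a `τ ^ r`-invariant divisor of degree one, so no appeal to
F. K. Schmidt's theorem is needed for the class counting of the zeta data.
-/

set_option autoImplicit false

open AlgebraicCurve Fermat.Agent.S18 Fermat.Agent.S24

namespace Fermat.Agent.S27

/-- A group element mapping a finite set into itself: a positive power fixes each of its points. -/
theorem h99_exists_pow_smul_eq {G X : Type*} [Group G] [MulAction G X] (τ : G) (Z : Set X)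
    (hZ : Z.Finite) (hτ : ∀ P ∈ Z, τ • P ∈ Z) (P : X) (hP : P ∈ Z) :
    ∃ m : ℕ, 0 < m ∧ τ ^ m • P = P := by
  have hmem : ∀ i : ℕ, τ ^ i • P ∈ Z := by
    intro i
    induction i with
    | zero => simpa using hP
    | succ i ih =>
      rw [pow_succ', mul_smul]
      exact hτ _ ih
  have : Finite Z := hZ.to_subtype
  have hnot : ¬ Function.Injective (fun i : ℕ => (⟨τ ^ i • P, hmem i⟩ : Z)) :=
    not_injective_infinite_finite _
  have key : ∀ i j : ℕ, i < j → τ ^ i • P = τ ^ j • P → ∃ m : ℕ, 0 < m ∧ τ ^ m • P = P := by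
    intro i j hij h
    refine ⟨j - i, Nat.sub_pos_of_lt hij, ?_⟩
    have hj : τ ^ j = τ ^ i * τ ^ (j - i) := by
      rw [← pow_add, Nat.add_sub_cancel' hij.le]
    rw [hj, mul_smul] at h
    exact (MulAction.injective (τ ^ i) h).symm
  obtain ⟨i, j, hij, hne⟩ : ∃ i j : ℕ,
      (⟨τ ^ i • P, hmem i⟩ : Z) = ⟨τ ^ j • P, hmem j⟩ ∧ i ≠ j := by
    by_contra hcon
    apply hnot
    intro i j hij
    by_contra hne
    exact hcon ⟨i, j, hij, hne⟩
  have hij' : τ ^ i • P = τ ^ j • P := congrArg Subtype.val hij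
  rcases lt_or_gt_of_ne hne with h | h
  · exact key i j h hij'
  · exact key j i h hij'.symm

/-- a point fixed by `τ ^ n` is fixed by `τ ^ (n * m)`. -/
theorem h99_pow_mul_smul_eq {G X : Type*} [Group G] [MulAction G X] (τ : G) (P : X) (n m : ℕ)
    (h : τ ^ n • P = P) : τ ^ (n * m) • P = P := by
  induction m with
  | zero => simp
  | succ m ih => rw [Nat.mul_succ, pow_add, mul_smul, h, ih]

variable {K F : Type*} [Field K] [Field F] [Algebra K F]

/-- **Every place is fixed by a positive power of a periodic semilinear automorphism.** -/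
theorem h99_place_periodic [IsAlgClosed K] {x : F} (hx : h75_IsChart K x)
    {σ : h57_SemiAut K F} (hper : h73_Periodic σ) (P : Place K F) :
    ∃ n : ℕ, 0 < n ∧ σ ^ n • P = P := by
  -- a nonzero function with `ord_P ≠ 0`
  have hg : ∃ g : F, g ≠ 0 ∧ P.ord g ≠ 0 := by
    by_cases hP : x ∈ P.toValuationSubring
    · obtain ⟨a, ha⟩ := h75_exists_value hx P hP
      refine ⟨x - algebraMap K F a, ?_, ha.ne'⟩
      intro h0
      rw [h0, Place.ord_zero] at ha
      exact lt_irrefl _ ha
    · refine ⟨x, hx.ne_zero, ?_⟩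
      intro h0
      exact hP (h24_mem_of_ord_nonneg P h0.ge)
  obtain ⟨g, hg0, hgP⟩ := hg
  obtain ⟨n, hn, hfix⟩ := hper g
  have hZ : {P' : Place K F | P'.ord g ≠ 0}.Finite := h75_finite_ord_ne hx g hg0
  have hstab : ∀ P' ∈ {P' : Place K F | P'.ord g ≠ 0},
      (σ ^ n) • P' ∈ {P' : Place K F | P'.ord g ≠ 0} := by
    intro P' hP'
    have h1 := h57_ord_smul (σ ^ n) P' g
    rw [hfix] at h1
    change ((σ ^ n) • P').ord g ≠ 0
    rw [h1]
    exact hP'
  obtain ⟨m, hm, hmP⟩ := h99_exists_pow_smul_eq (σ ^ n) _ hZ hstab P hgP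
  refine ⟨n * m, Nat.mul_pos hn hm, ?_⟩
  rw [pow_mul]
  exact hmP

/-- every divisor is fixed by a positive power of `σ`. -/
theorem h99_divisor_periodic [IsAlgClosed K] {x : F} (hx : h75_IsChart K x)
    {σ : h57_SemiAut K F} (hper : h73_Periodic σ) (D : Divisor K F) :
    ∃ n : ℕ, 0 < n ∧ σ ^ n • D = D := by
  induction D using Finsupp.induction with
  | zero => exact ⟨1, Nat.one_pos, smul_zero _⟩
  | single_add P b f _ _ ih =>
    obtain ⟨n₁, hn₁, h₁⟩ := h99_place_periodic hx hper P
    obtain ⟨n₂, hn₂, h₂⟩ := ih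
    refine ⟨n₁ * n₂, Nat.mul_pos hn₁ hn₂, ?_⟩
    rw [smul_add, h57_smul_single, h99_pow_mul_smul_eq σ P n₁ n₂ h₁]
    congr 1
    rw [mul_comm]
    exact h99_pow_mul_smul_eq σ f n₂ n₁ h₂

/-- every class of `Pic⁰` is fixed by a positive power of `σ`. -/
theorem h99_pic0_periodic [IsAlgClosed K] {x : F} (hx : h75_IsChart K x)
    {σ : h57_SemiAut K F} (hper : h73_Periodic σ) (c : Pic0 K F) :
    ∃ n : ℕ, 0 < n ∧ σ ^ n • c = c := by
  obtain ⟨D, rfl⟩ := Pic0.mk_surjective c
  obtain ⟨n, hn, h⟩ := h99_divisor_periodic hx hper (D : Divisor K F)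
  refine ⟨n, hn, ?_⟩
  rw [h57_smul_mk]
  congr 1
  apply Subtype.ext
  rw [h57_coe_degZeroSMulHom]
  exact h

/-- there is a place. -/
theorem h99_nonempty_place [IsAlgClosed K] {x : F} (hx : h75_IsChart K x) :
    Nonempty (Place K F) := by
  obtain ⟨s, hs, hsum⟩ := h75_fibre_main hx 0
  by_contra hne
  have hs0 : s = ∅ := by
    apply Finset.eq_empty_of_forall_notMem
    intro P _
    exact hne ⟨P⟩
  rw [hs0, Finset.sum_empty] at hsum
  have := hx.fin
  have hpos : 0 < Module.finrank (IntermediateField.adjoin K {x}) F := Module.finrank_pos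
  omega

/-- **A power of `σ` fixes some place**: there are `P₀` and `r₀ > 0` with `σ ^ r₀ • P₀ = P₀`;
then `P₀` is fixed by all powers of `τ = σ ^ r₀`, and `P₀` is a `τ ^ r`-invariant divisor of
degree one for every `r`. -/
theorem h99_exists_fixed_place [IsAlgClosed K] {x : F} (hx : h75_IsChart K x)
    {σ : h57_SemiAut K F} (hper : h73_Periodic σ) :
    ∃ (P₀ : Place K F) (r₀ : ℕ), 0 < r₀ ∧ ∀ r : ℕ, (σ ^ r₀) ^ r • P₀ = P₀ := by
  obtain ⟨P₀⟩ := h99_nonempty_place hx
  obtain ⟨r₀, hr₀, h⟩ := h99_place_periodic hx hper P₀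
  refine ⟨P₀, r₀, hr₀, fun r => ?_⟩
  rw [← pow_mul]
  exact h99_pow_mul_smul_eq σ P₀ r₀ r h

/-- a place fixed by `τ` gives a `τ`-invariant divisor of degree one. -/
theorem h99_fixed_place_divisor [IsAlgClosed K] {x : F} (hx : h75_IsChart K x)
    (τ : h57_SemiAut K F) (P₀ : Place K F) (h : τ • P₀ = P₀) :
    τ • (Finsupp.single P₀ 1 : Divisor K F) = Finsupp.single P₀ 1 ∧
      Divisor.degree (Finsupp.single P₀ 1 : Divisor K F) = 1 ∧
      (0 : Divisor K F) ≤ Finsupp.single P₀ 1 := by
  refine ⟨by rw [h57_smul_single, h], ?_, ?_⟩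
  · rw [Divisor.degree_single, h75_deg_eq_one hx P₀]
    simp
  · intro P
    by_cases hP : P = P₀
    · subst hP; simp
    · simp [Ne.symm hP]

end Fermat.Agent.S27
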