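/-
S27 / B8b-2 INV (helper57): invariant functions and divisors, in the shapes of helper76's
sub-skeleton (`h76_SkelPair.lean`).  Adapters over `h57_InvFun` / `h57_InvRep` (Lang descent),
`h92_Move` (helper92) and `h99_PlacePeriodic` (helper99).
-/
import Fermat.Agent.S27.h76_PairDefs
import Fermat.Agent.S27.h57_InvFun
import Fermat.Agent.S27.h92_Move
import Fermat.Agent.S27.h99_PlacePeriodic

set_option autoImplicit false
set_option linter.unusedSectionVars false

noncomputable section

open AlgebraicCurve Fermat.Agent.S18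

namespace Fermat.Agent.S27

universe u v

variable {K : Type u} {F : Type v} [Field K] [Field F] [Algebra K F]

/-- `1 < p ^ e` for a Frobenius structure -/
theorem h57_frobStr_one_lt (p : ℕ) [Fact p.Prime] {e : ℕ} {σ : h57_SemiAut K F}
    (hσ : h76_FrobStr p e σ) : 1 < p ^ e := h57_one_lt_q p e hσ.pos

/-- the periodicity field of `h76_FrobStr` is `h73_Periodic` -/
theorem h57_frobStr_periodic {p e : ℕ} {σ : h57_SemiAut K F} (hσ : h76_FrobStr p e σ) :
    h73_Periodic σ := hσ.per

section Inv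

variable [IsAlgClosed K] (p : ℕ) [Fact p.Prime] [CharP K p]

omit [Fact p.Prime] [CharP K p] in
/-- every place is periodic under a Frobenius structure -/
theorem h57_frobStr_place_per {x : F} (hx : h75_IsChart K x) {e : ℕ} {σ : h57_SemiAut K F}
    (hσ : h76_FrobStr p e σ) (P : Place K F) : ∃ n : ℕ, 0 < n ∧ σ ^ n • P = P :=
  h99_place_periodic hx hσ.per P

omit [Fact p.Prime] [CharP K p] in
/-- an invariant divisor of positive degree exists (orbit sum of a place) -/
theorem h57_exists_invariant_pos {x : F} (hx : h75_IsChart K x) {e : ℕ} {σ : h57_SemiAut K F}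
    (hσ : h76_FrobStr p e σ) :
    ∃ A : Divisor K F, σ • A = A ∧ 0 < Divisor.degree A := by
  obtain ⟨P⟩ := h99_nonempty_place (K := K) hx
  obtain ⟨N, hN, hP⟩ := h99_place_periodic hx hσ.per P
  refine ⟨h92_orbitSum σ P N, h92_smul_orbitSum σ P N hP, ?_⟩
  rw [h92_degree_orbitSum hx σ P N]
  exact_mod_cast hN

/-- (I2) an invariant principal divisor is the divisor of an invariant function. -/
theorem h76_inv_principal {x : F} (hx : h75_IsChart K x) {e : ℕ} {σ : h57_SemiAut K F}
    (hσ : h76_FrobStr p e σ) (D : Divisor K F) (hD : σ • D = D)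
    (hprin : D ∈ Divisor.principal (K := K) (F := F)) :
    ∃ f : F, f ≠ 0 ∧ (σ : F ≃+* F) f = f ∧ ∀ P : Place K F, D P = P.ord f :=
  h57_exists_fixed_fun p e hσ.pos hx σ hσ.frob D hD hprin

/-- (I3) an invariant function with prescribed (invariant) orders on a finite stable set. -/
theorem h76_inv_ord {x : F} (hx : h75_IsChart K x) {e : ℕ} {σ : h57_SemiAut K F}
    (hσ : h76_FrobStr p e σ) (T : Finset (Place K F)) (hT : ∀ P ∈ T, σ • P ∈ T)
    (n : Place K F → ℤ) (hn : ∀ P ∈ T, n (σ • P) = n P) :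
    ∃ h : F, h ≠ 0 ∧ (σ : F ≃+* F) h = h ∧ ∀ P ∈ T, P.ord h = n P := by
  classical
  obtain ⟨g, hg0, hg, hgT⟩ := h92_move_fun hx (h57_frobStr_one_lt p hσ) σ hσ.frob
    (fun v => h99_place_periodic hx hσ.per v) T (fun v => if v ∈ T then n v else 0)
    (fun v => by
      by_cases hv : v ∈ T
      · rw [if_pos hv, if_pos (hT v hv), hn v hv]
      · rw [if_neg hv, if_neg (fun h => hv ((h92_smul_mem_iff σ hT v).mp h))])
  exact ⟨g, hg0, hg, fun P hP => by rw [hgT P hP, if_pos hP]⟩

/-- (I1) an invariant class contains an invariant divisor. -/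
theorem h76_inv_class {x : F} (hx : h75_IsChart K x) {e : ℕ} {σ : h57_SemiAut K F}
    (hσ : h76_FrobStr p e σ) (c : Pic0 K F) (hc : σ • c = c) :
    ∃ D : Divisor.degZero (K := K) (F := F), Pic0.mk D = c ∧ σ • (D : Divisor K F) = D := by
  obtain ⟨A, hA, hAdeg⟩ := h57_exists_invariant_pos p hx hσ
  obtain ⟨D, rfl⟩ := Pic0.mk_surjective c
  rw [h57_smul_mk_eq_iff] at hc
  obtain ⟨D', hD'1, hD'2⟩ := h57_exists_invariant_rep p e hσ.pos hx σ hσ.frob A hA hAdeg D hc
  have hdeg : D' ∈ Divisor.degZero (K := K) (F := F) := by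
    obtain ⟨f, hf0, hf⟩ := hD'2
    have h1 := h7_degree_div hx hf0 (D' - (D : Divisor K F)) hf
    rw [map_sub, (Divisor.mem_degZero.mp D.2)] at h1
    rw [Divisor.mem_degZero]
    linarith
  refine ⟨⟨D', hdeg⟩, ?_, hD'1⟩
  rw [h57_mk_eq_mk_iff]
  show (D : Divisor K F) - D' ∈ Divisor.principal (K := K) (F := F)
  rw [← neg_sub]
  exact AddSubgroup.neg_mem _ hD'2

/-- (MOVE) an invariant class contains an invariant divisor off a given finite set. -/
theorem h76_inv_move {x : F} (hx : h75_IsChart K x) {e : ℕ} {σ : h57_SemiAut K F}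
    (hσ : h76_FrobStr p e σ) (c : Pic0 K F) (hc : σ • c = c) (S : Finset (Place K F)) :
    ∃ D : Divisor.degZero (K := K) (F := F), Pic0.mk D = c ∧ σ • (D : Divisor K F) = D ∧
      ∀ P ∈ S, (D : Divisor K F) P = 0 := by
  obtain ⟨D, rfl, hD⟩ := h76_inv_class p hx hσ c hc
  obtain ⟨E, hE1, hE2, hE3⟩ := h92_move_div hx (h57_frobStr_one_lt p hσ) σ hσ.frob
    (fun v => h99_place_periodic hx hσ.per v) (D : Divisor K F) hD S
  have hdeg : E ∈ Divisor.degZero (K := K) (F := F) := by
    obtain ⟨f, hf0, hf⟩ := hE2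
    have h1 := h7_degree_div hx hf0 (E - (D : Divisor K F)) hf
    rw [map_sub, (Divisor.mem_degZero.mp D.2)] at h1
    rw [Divisor.mem_degZero]
    linarith
  refine ⟨⟨E, hdeg⟩, ?_, hE1, hE3⟩
  rw [h57_mk_eq_mk_iff]
  show (D : Divisor K F) - E ∈ Divisor.principal (K := K) (F := F)
  rw [← neg_sub]
  exact AddSubgroup.neg_mem _ hE2

end Inv

end Fermat.Agent.S27
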