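import Fermat.Agent.S27.h76_PairDefs
import Fermat.Agent.S27.h92_Eval
import Fermat.Agent.S27.FrobPer

/-!
# S27 / B8b-1 VALUES (helper92): values at places and at divisors, in the names of the B8 skeleton

`h76_val` / `h76_eval` (definitions of `h76_PairDefs.lean`) coincide with `h92_ev` / `h92_evDiv`
(`h92_Eval.lean`); the statements of section VALUES of the B8 sub-skeleton
(`skel/h76_SkelPair.lean`, helper76) follow verbatim.  (`h76_weil`, the adapter over Weil
reciprocity, is not in this file.)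
-/

set_option autoImplicit false

open AlgebraicCurve

namespace Fermat.Agent.S27

open Fermat.Agent.S18
open Fermat.Agent.S24 (h35_ord_sub h35_ord_algebraMap)

variable {K F : Type*} [Field K] [Field F] [Algebra K F]

/-! ### bridges -/

theorem h92_val_eq_ev (P : Place K F) (f : F) : h76_val P f = h92_ev P f := by
  by_cases hex : ∃ b : K, h39_Val P f b
  · exact (h92_ev_eq (h76_val_spec' P hex)).symm
  · rw [h92_ev_of_not hex]
    unfold h76_val
    rw [dif_neg hex]

theorem h92_eval_eq_evDiv (f : F) (E : Divisor K F) : h76_eval f E = h92_evDiv f E := by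
  unfold h76_eval h92_evDiv
  simp only [h92_val_eq_ev]

/-! ### section VALUES of the skeleton, verbatim -/

theorem h76_val_eq (P : Place K F) {f : F} {b : K} (h : h39_Val P f b) : h76_val P f = b := by
  rw [h92_val_eq_ev]
  exact h92_ev_eq h

theorem h76_val_spec [IsAlgClosed K] {x : F} (hx : h75_IsChart K x) (P : Place K F) {f : F}
    (hf : f ∈ P.toValuationSubring) : h39_Val P f (h76_val P f) := by
  rw [h92_val_eq_ev]
  exact h92_val_ev hx P hf

/-- a unit at `P` has a nonzero value -/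
theorem h76_val_ne_zero [IsAlgClosed K] {x : F} (hx : h75_IsChart K x) (P : Place K F) {f : F}
    (hf0 : f ≠ 0) (hf : P.ord f = 0) : h76_val P f ≠ 0 := by
  rw [h92_val_eq_ev]
  exact h92_ev_ne_zero hx P hf0 hf

theorem h76_val_mul [IsAlgClosed K] {x : F} (hx : h75_IsChart K x) (P : Place K F) {f g : F}
    (hf : f ∈ P.toValuationSubring) (hg : g ∈ P.toValuationSubring) :
    h76_val P (f * g) = h76_val P f * h76_val P g := by
  rw [h92_val_eq_ev, h92_val_eq_ev, h92_val_eq_ev]
  exact h92_ev_mul hx P hf hg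

theorem h76_val_algebraMap (P : Place K F) (a : K) : h76_val P (algebraMap K F a) = a := by
  rw [h92_val_eq_ev]
  exact h92_ev_algebraMap P a

/-- (EVAL-FROB) `(σ f)(σ P) = f(P) ^ q`. -/
theorem h76_val_frob {q : ℕ} {σ : h57_SemiAut K F} (hσ : h57_IsFrob q σ) (P : Place K F) {f : F}
    {b : K} (h : h39_Val P f b) : h39_Val (σ • P) ((σ : F ≃+* F) f) (b ^ q) := by
  have h1 := h92_val_smul σ h
  rwa [hσ.resK] at h1

theorem h76_val_smul [IsAlgClosed K] {x : F} (_hx : h75_IsChart K x) {q : ℕ}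
    {σ : h57_SemiAut K F} (hσ : h57_IsFrob q σ) (P : Place K F) {f : F}
    (_hf : f ∈ P.toValuationSubring) :
    h76_val (σ • P) ((σ : F ≃+* F) f) = h76_val P f ^ q := by
  rw [h92_val_eq_ev, h92_val_eq_ev]
  exact h92_ev_frob hσ P f

/-- `f(E)` is nonzero when `f` is a unit on the support of `E`. -/
theorem h76_eval_ne_zero [IsAlgClosed K] {x : F} (hx : h75_IsChart K x) {f : F} (hf0 : f ≠ 0)
    {E : Divisor K F} (hE : ∀ P : Place K F, E P ≠ 0 → P.ord f = 0) : h76_eval f E ≠ 0 := by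
  rw [h92_eval_eq_evDiv]
  exact h92_evDiv_ne_zero hx hf0 E hE

theorem h76_eval_add [IsAlgClosed K] {x : F} (hx : h75_IsChart K x) {f : F} (hf0 : f ≠ 0)
    {E E' : Divisor K F} (hE : ∀ P : Place K F, E P ≠ 0 → P.ord f = 0)
    (hE' : ∀ P : Place K F, E' P ≠ 0 → P.ord f = 0) :
    h76_eval f (E + E') = h76_eval f E * h76_eval f E' := by
  rw [h92_eval_eq_evDiv, h92_eval_eq_evDiv, h92_eval_eq_evDiv]
  exact h92_evDiv_add hx hf0 E E' hE hE'

theorem h76_eval_neg [IsAlgClosed K] {x : F} (_hx : h75_IsChart K x) {f : F} (_hf0 : f ≠ 0)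
    {E : Divisor K F} (_hE : ∀ P : Place K F, E P ≠ 0 → P.ord f = 0) :
    h76_eval f (-E) = (h76_eval f E)⁻¹ := by
  rw [h92_eval_eq_evDiv, h92_eval_eq_evDiv]
  exact h92_evDiv_neg f E

theorem h76_eval_mul [IsAlgClosed K] {x : F} (hx : h75_IsChart K x) {f g : F} (hf0 : f ≠ 0)
    (hg0 : g ≠ 0) {E : Divisor K F} (hE : ∀ P : Place K F, E P ≠ 0 → P.ord f = 0)
    (hE' : ∀ P : Place K F, E P ≠ 0 → P.ord g = 0) :
    h76_eval (f * g) E = h76_eval f E * h76_eval g E := by
  rw [h92_eval_eq_evDiv, h92_eval_eq_evDiv, h92_eval_eq_evDiv]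
  exact h92_evDiv_mul hx hf0 hg0 E hE hE'

theorem h76_eval_pow [IsAlgClosed K] {x : F} (hx : h75_IsChart K x) {f : F} (hf0 : f ≠ 0)
    {E : Divisor K F} (hE : ∀ P : Place K F, E P ≠ 0 → P.ord f = 0) (n : ℕ) :
    h76_eval (f ^ n) E = h76_eval f E ^ n := by
  rw [h92_eval_eq_evDiv, h92_eval_eq_evDiv]
  exact h92_evDiv_pow hx hf0 E hE n

/-- constants do not matter on divisors of degree zero -/
theorem h76_eval_const [IsAlgClosed K] {x : F} (hx : h75_IsChart K x) (a : K) (ha : a ≠ 0)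
    {E : Divisor K F} (hE : Divisor.degree E = 0) : h76_eval (algebraMap K F a) E = 1 := by
  rw [h92_eval_eq_evDiv, h92_evDiv_const hx ha, hE, zpow_zero]

theorem h76_eval_single [IsAlgClosed K] (f : F) (P : Place K F) (n : ℤ) :
    h76_eval f (Finsupp.single P n) = h76_val P f ^ n := by
  rw [h92_eval_eq_evDiv, h92_val_eq_ev]
  exact h92_evDiv_single f P n

/-- `(σ f)(σ E) = f(E) ^ q` -/
theorem h76_eval_smul [IsAlgClosed K] {x : F} (_hx : h75_IsChart K x) {q : ℕ}
    {σ : h57_SemiAut K F} (hσ : h57_IsFrob q σ) {f : F} (_hf0 : f ≠ 0) {E : Divisor K F}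
    (_hE : ∀ P : Place K F, E P ≠ 0 → P.ord f = 0) :
    h76_eval ((σ : F ≃+* F) f) (σ • E) = h76_eval f E ^ q := by
  rw [h92_eval_eq_evDiv, h92_eval_eq_evDiv]
  exact h92_evDiv_frob hσ f E

/-- values of invariant functions on invariant divisors lie in `𝔽_q` -/
theorem h76_eval_fixed [IsAlgClosed K] {x : F} (_hx : h75_IsChart K x) {q : ℕ}
    {σ : h57_SemiAut K F} (hσ : h57_IsFrob q σ) {f : F} (_hf0 : f ≠ 0)
    (hσf : (σ : F ≃+* F) f = f) {E : Divisor K F} (hσE : σ • E = E)
    (_hE : ∀ P : Place K F, E P ≠ 0 → P.ord f = 0) :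
    h76_eval f E ^ q = h76_eval f E := by
  rw [h92_eval_eq_evDiv]
  exact h92_evDiv_fixed hσ hσf hσE

/-- the norm rule: for a `σ`-fixed function, `f(σ^i E) = f(E) ^ (q ^ i)`. -/
theorem h92_eval_pow_smul {q : ℕ} {σ : h57_SemiAut K F} (hσ : h57_IsFrob q σ) {f : F}
    (hf : (σ : F ≃+* F) f = f) (E : Divisor K F) (i : ℕ) :
    h76_eval f (σ ^ i • E) = h76_eval f E ^ (q ^ i) := by
  rw [h92_eval_eq_evDiv, h92_eval_eq_evDiv]
  exact h92_evDiv_pow_smul hσ hf E i

theorem h92_eval_zsmul (f : F) (E : Divisor K F) (n : ℤ) :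
    h76_eval f (n • E) = h76_eval f E ^ n := by
  rw [h92_eval_eq_evDiv, h92_eval_eq_evDiv]
  exact h92_evDiv_zsmul f E n

/-- every place is periodic -/
theorem h76_place_per [IsAlgClosed K] {x : F} (hx : h75_IsChart K x) {p e : ℕ}
    {σ : h57_SemiAut K F} (hσ : h76_FrobStr p e σ) (P : Place K F) :
    ∃ n : ℕ, 0 < n ∧ (σ ^ n) • P = P :=
  h73_place_periodic hx σ hσ.per P

/-- finitely many places are fixed by a Frobenius structure of level `Q₀ ≥ 2`. -/
theorem h92_fix_finite [IsAlgClosed K] {x : F} (hx : h75_IsChart K x) {Q₀ : ℕ} (hQ₀ : 1 < Q₀)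
    (σ : h57_SemiAut K F) (hσ : h57_IsFrob Q₀ σ) (hper : h73_Periodic σ) :
    {P : Place K F | σ • P = P}.Finite := by
  obtain ⟨n, hn, hnx⟩ := hper x
  set Q : ℕ := Q₀ ^ n with hQdef
  have hQ : 1 < Q := Nat.one_lt_pow hn.ne' hQ₀
  have hρ : h57_IsFrob Q (σ ^ n) := hσ.pow n
  have hfinA := h59_finite_pow_eq (k := K) Q hQ
  have hfin : (⋃ a ∈ {a : K | a ^ Q = a}, {P : Place K F | 0 < P.ord (x - algebraMap K F a)}) ∪
      {P : Place K F | 0 < P.ord (x⁻¹ - algebraMap K F 0)} |>.Finite :=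
    (hfinA.biUnion fun a _ => h75_fibre_finite hx a).union
      (h75_fibre_finite (h75_isChart_inv hx) 0)
  refine hfin.subset ?_
  intro P hPfix
  have hρP : σ ^ n • P = P := by
    have h1 : σ ^ 1 • P = P := by rw [pow_one]; exact hPfix
    have h2 := h59_pow_mul_smul_eq σ 1 n P h1
    rwa [one_mul] at h2
  by_cases hP : x ∈ P.toValuationSubring
  · left
    obtain ⟨a, ha⟩ := h75_exists_value hx P hP
    have h1 := h57_ord_smul (σ ^ n) P (x - algebraMap K F a)
    rw [hρP, map_sub, hnx, hρ a] at h1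
    have ha' : 0 < P.ord (x - algebraMap K F (a ^ Q)) := by
      rw [h1]
      exact ha
    have haQ : a ^ Q = a := by
      by_contra hne
      have hu : x - algebraMap K F a ≠ 0 := by
        intro h0
        rw [h0, Place.ord_zero] at ha
        exact lt_irrefl _ ha
      have hu' : x - algebraMap K F (a ^ Q) ≠ 0 := by
        intro h0
        rw [h0, Place.ord_zero] at ha'
        exact lt_irrefl _ ha'
      have hdiff : (x - algebraMap K F a) - (x - algebraMap K F (a ^ Q))
          = algebraMap K F (a ^ Q - a) := by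
        rw [map_sub]
        ring
      have hc : algebraMap K F (a ^ Q - a) ≠ 0 := by
        rw [Ne, map_eq_zero, sub_eq_zero]
        exact hne
      have h2 := h35_ord_sub P hu hu' (by rw [hdiff]; exact hc)
      rw [hdiff, h35_ord_algebraMap] at h2
      have h3 : 0 < min (P.ord (x - algebraMap K F a)) (P.ord (x - algebraMap K F (a ^ Q))) :=
        lt_min ha ha'
      omega
    exact Set.mem_biUnion (show a ∈ {a : K | a ^ Q = a} from haQ) ha
  · right
    show 0 < P.ord (x⁻¹ - algebraMap K F 0)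
    rw [map_zero, sub_zero]
    exact h59_ord_inv_pos_of_not_mem P hP

/-- finitely many fixed places.  (The skeleton statement has no hypothesis on `p`; it is false
for `p = 1`, `σ = 1`, so `1 < p` is added.) -/
theorem h76_fixed_finite [IsAlgClosed K] {x : F} (hx : h75_IsChart K x) {p e : ℕ} (hp : 1 < p)
    {σ : h57_SemiAut K F} (hσ : h76_FrobStr p e σ) :
    {P : Place K F | σ • P = P}.Finite :=
  h92_fix_finite hx (Nat.one_lt_pow hσ.pos.ne' hp) σ hσ.frob hσ.per

end Fermat.Agent.S27
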