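/-
S27 / B8 PAIR, row NONDEG (helper36): left non-degeneracy of the Tate--Lichtenbaum pairing.

`h76_tate_nondeg` VERBATIM from the sub-skeleton v2 of helper76 (`skel/h76_SkelPair.lean`).

A nonzero `σ`-fixed `ℓ`-torsion class `c = [D]` (`ℓ D = div f`, `f` invariant) which pairs
trivially with every class at every level gives, after passing to a level `s₀` with a fixed
place `P₀` off the support of `D` and normalising `f(P₀) = 1`, the splitting hypothesis of
KUMMER at every fixed place; the Kummer cover then has `N'_t = ℓ N_t` for all `t`, which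
contradicts the zeta data of the two fields (`h90_zeta_no_cover`).
-/
import Fermat.Agent.S27.PairValues
import Fermat.Agent.S27.PairInv
import Fermat.Agent.S27.Kummer
import Fermat.Agent.S27.FrobZeta
import Fermat.Agent.S27.h90_ZetaAbs
import Fermat.Agent.S27.h68_RRCons
import Fermat.Agent.S24.h24_Fibre
import Fermat.Agent.S18.RR_Chart
import Fermat.Agent.S18.RR_Riemann
import Fermat.Agent.S18.GR_ChartPt

set_option autoImplicit false

noncomputable section

open AlgebraicCurve Fermat.Agent.S18 Fermat.Agent.S24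

namespace Fermat.Agent.S27

universe u v

/-- a fixed point of `g` is fixed by the powers of `g`. -/
theorem h36_pow_smul_fixed {G X : Type*} [Monoid G] [MulAction G X] (g : G) (x : X)
    (h : g • x = x) (n : ℕ) : g ^ n • x = x := by
  induction n with
  | zero => simp
  | succ n ih => rw [pow_succ, mul_smul, h, ih]

/-- in an algebraically closed field: `u ^ ((Q - 1) / ℓ) = 1` means that `u` is an `ℓ`-th power
of an element of `𝔽_Q`. -/
theorem h36_exists_root_fixed {K : Type*} [Field K] [IsAlgClosed K] (Q ℓ : ℕ) (hQ : 2 ≤ Q)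
    (hℓ : 0 < ℓ) (hdvd : ℓ ∣ Q - 1) (u : K) (hu : u ^ ((Q - 1) / ℓ) = 1) :
    ∃ b : K, b ≠ 0 ∧ b ^ Q = b ∧ b ^ ℓ = u := by
  obtain ⟨b, hb⟩ := IsAlgClosed.exists_pow_nat_eq u hℓ
  have hpos : 0 < (Q - 1) / ℓ := Nat.div_pos (Nat.le_of_dvd (by omega) hdvd) hℓ
  have hu0 : u ≠ 0 := by
    rintro rfl
    rw [zero_pow hpos.ne'] at hu
    exact zero_ne_one hu
  have hb0 : b ≠ 0 := by
    rintro rfl
    rw [zero_pow hℓ.ne'] at hb
    exact hu0 hb.symm
  refine ⟨b, hb0, ?_, hb⟩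
  have h1 : b ^ (Q - 1) = 1 := by
    rw [← Nat.mul_div_cancel' hdvd, pow_mul, hb, hu]
  have hQ1 : Q = Q - 1 + 1 := by omega
  rw [hQ1, pow_succ, h1, one_mul]

variable {K : Type u} {F : Type v} [Field K] [Field F] [Algebra K F]

/-- a function fixed by `σ` is fixed by the powers of `σ`. -/
theorem h36_semiAut_pow_apply_fixed (σ : h57_SemiAut K F) (f : F)
    (h : (σ : F ≃+* F) f = f) (n : ℕ) : ((σ ^ n : h57_SemiAut K F) : F ≃+* F) f = f := by
  rw [h57_coe_pow_apply]
  exact Function.iterate_fixed h n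

section

variable [IsAlgClosed K]

/-- the value of a power. -/
theorem h36_val_pow {x : F} (hx : h75_IsChart K x) (P : Place K F) {f : F}
    (hf : f ∈ P.toValuationSubring) (n : ℕ) : h76_val P (f ^ n) = h76_val P f ^ n := by
  induction n with
  | zero =>
    rw [pow_zero, pow_zero]
    have := h76_val_algebraMap P (1 : K)
    rwa [map_one] at this
  | succ n ih =>
    rw [pow_succ, pow_succ, h76_val_mul hx P (pow_mem hf n) hf, ih]

/-- the value of an invariant function at a fixed place lies in `𝔽_q`. -/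
theorem h36_val_fixed {x : F} (hx : h75_IsChart K x) {q : ℕ} {σ : h57_SemiAut K F}
    (hσ : h57_IsFrob q σ) (P : Place K F) (hP : σ • P = P) {f : F}
    (hf : f ∈ P.toValuationSubring) (hσf : (σ : F ≃+* F) f = f) :
    h76_val P f ^ q = h76_val P f := by
  have := h76_val_smul hx hσ P hf
  rw [hP, hσf] at this
  exact this.symm

end

section Nondeg

variable [IsAlgClosed K] (p : ℕ) [Fact p.Prime] [CharP K p]

/-- (NONDEG) a nonzero `σ`-fixed `ℓ`-torsion class pairs nontrivially at some level. -/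
theorem h76_tate_nondeg {x : F} (hx : h75_IsChart K x) {e : ℕ} {σ : h57_SemiAut K F}
    (hσ : h76_FrobStr p e σ) (ℓ : ℕ) [Fact ℓ.Prime] (hℓ : ℓ ≠ p) (hdiv : ℓ ∣ p ^ e - 1)
    (c : Pic0 K F) (hc : σ • c = c) (hℓc : ℓ • c = 0) (hc0 : c ≠ 0) :
    ∃ s : ℕ, 0 < s ∧ ∃ d : Pic0 K F, (σ ^ s) • d = d ∧
      ∀ ψs : Pic0 K F → Pic0 K F → K, h76_IsTate p (e * s) (σ ^ s) ℓ ψs → ψs c d ≠ 1 := by
  classical
  have hℓpr : ℓ.Prime := Fact.out
  have hppr : p.Prime := Fact.out
  have hℓpos : 0 < ℓ := hℓpr.pos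
  have hℓZ : (ℓ : ℤ) ≠ 0 := by exact_mod_cast hℓpos.ne'
  have hPD : HasPrincipalDivisors K F := h75_hasPrincipalDivisors hx
  by_contra hcon
  have hker : ∀ s : ℕ, 0 < s → ∀ d : Pic0 K F, (σ ^ s) • d = d →
      ∃ ψs : Pic0 K F → Pic0 K F → K, h76_IsTate p (e * s) (σ ^ s) ℓ ψs ∧ ψs c d = 1 := by
    intro s hs d hd
    by_contra h
    exact hcon ⟨s, hs, d, hd, fun ψs hψ h1 => h ⟨ψs, hψ, h1⟩⟩
  -- an invariant representative
  obtain ⟨D, rfl, hσD⟩ := h76_inv_class p hx hσ c hc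
  -- `ℓ D` is principal
  have hprin : ℓ • (D : Divisor K F) ∈ Divisor.principal (K := K) (F := F) := by
    have h1 : Pic0.mk (ℓ • D) = Pic0.mk (0 : Divisor.degZero (K := K) (F := F)) := by
      rw [Pic0.mk_zero, ← hℓc]
      rfl
    have h2 := (h57_mk_eq_mk_iff _ _).mp h1
    have h3 : ((0 : Divisor.degZero (K := K) (F := F)) : Divisor K F)
        - ((ℓ • D : Divisor.degZero (K := K) (F := F)) : Divisor K F)
        = -(ℓ • (D : Divisor K F)) := by
      push_cast
      abel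
    rw [h3, AddSubgroup.neg_mem_iff] at h2
    exact h2
  have hσℓD : σ • (ℓ • (D : Divisor K F)) = ℓ • (D : Divisor K F) := by
    rw [smul_comm, hσD]
  obtain ⟨f, hf0, hσf, hDf⟩ := h76_inv_principal p hx hσ _ hσℓD hprin
  have hordf : ∀ P : Place K F, P.ord f = ℓ * (D : Divisor K F) P := by
    intro P
    rw [← hDf P, Finsupp.smul_apply, nsmul_eq_mul]
  -- `f` is not an `ℓ`-th power
  have hnot : ∀ g : F, f ≠ g ^ ℓ := by
    intro g hfg
    have hg0 : g ≠ 0 := by
      rintro rfl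
      rw [zero_pow hℓpos.ne'] at hfg
      exact hf0 hfg
    have hDg : ∀ P : Place K F, (D : Divisor K F) P = P.ord g := by
      intro P
      have h1 := hordf P
      rw [hfg, ← zpow_natCast, P.ord_zpow] at h1
      exact (mul_left_cancel₀ hℓZ h1).symm
    apply hc0
    have h1 : Pic0.mk D = Pic0.mk (0 : Divisor.degZero (K := K) (F := F)) := by
      rw [h57_mk_eq_mk_iff]
      have h3 : ((0 : Divisor.degZero (K := K) (F := F)) : Divisor K F) - (D : Divisor K F)
          = -(D : Divisor K F) := by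
        push_cast
        abel
      rw [h3, AddSubgroup.neg_mem_iff]
      exact ⟨g, hg0, hDg⟩
    rw [h1, Pic0.mk_zero]
  -- a place `P₀` off the support of `D`, and a level `s₀` fixing it
  have hInf : Infinite (Place K F) := h68_infinite_places hx
  obtain ⟨P₀, hP₀D⟩ := Infinite.exists_notMem_finset (D : Divisor K F).support
  have hDP₀ : (D : Divisor K F) P₀ = 0 := Finsupp.notMem_support_iff.mp hP₀D
  obtain ⟨s₀, hs₀, hP₀⟩ := h76_place_per hx hσ P₀
  have hτ₀ : h76_FrobStr p (e * s₀) (σ ^ s₀) := hσ.pow hs₀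
  have hordfP₀ : P₀.ord f = 0 := by rw [hordf, hDP₀, mul_zero]
  have hfP₀ : f ∈ P₀.toValuationSubring := h24_mem_of_ord_nonneg P₀ hordfP₀.ge
  set a₀ : K := h76_val P₀ f with ha₀
  have ha₀0 : a₀ ≠ 0 := h76_val_ne_zero hx P₀ hf0 hordfP₀
  have hτ₀f : ((σ ^ s₀ : h57_SemiAut K F) : F ≃+* F) f = f :=
    h36_semiAut_pow_apply_fixed σ f hσf s₀
  have ha₀Q : a₀ ^ (p ^ (e * s₀)) = a₀ := h36_val_fixed hx hτ₀.frob P₀ hP₀ hfP₀ hτ₀f
  -- the normalised function `f₁ = f / f(P₀)`
  set f₁ : F := algebraMap K F a₀⁻¹ * f with hf₁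
  have hc₀ : algebraMap K F a₀⁻¹ ≠ 0 := by
    rw [Ne, map_eq_zero]
    exact inv_ne_zero ha₀0
  have hf₁0 : f₁ ≠ 0 := mul_ne_zero hc₀ hf0
  have hτ₀f₁ : ((σ ^ s₀ : h57_SemiAut K F) : F ≃+* F) f₁ = f₁ := by
    rw [hf₁, map_mul, hτ₀f, hτ₀.frob a₀⁻¹, inv_pow, ha₀Q]
  have hordf₁ : ∀ P : Place K F, P.ord f₁ = ℓ * (D : Divisor K F) P := by
    intro P
    rw [hf₁, P.ord_mul hc₀ hf0, h24_ord_algebraMap, zero_add, hordf]
  have hnot₁ : ∀ g : F, f₁ ≠ g ^ ℓ := by
    intro g hg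
    obtain ⟨α, hα⟩ := IsAlgClosed.exists_pow_nat_eq a₀ hℓpos
    apply hnot (algebraMap K F α * g)
    rw [mul_pow, ← hg, ← map_pow, hα, hf₁, ← mul_assoc, ← map_mul, mul_inv_cancel₀ ha₀0,
      map_one, one_mul]
  have hval₁ : h39_Val P₀ f₁ 1 := by
    have h1 := h39_val_mul P₀ (h39_val_algebraMap P₀ a₀⁻¹) (h76_val_spec hx P₀ hfP₀)
    rwa [← ha₀, inv_mul_cancel₀ ha₀0] at h1
  have hdiv₀ : ℓ ∣ p ^ (e * s₀) - 1 := by
    exact hdiv.trans (Nat.pow_sub_one_dvd_pow_sub_one p (Dvd.intro s₀ rfl))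
  -- the splitting hypothesis of KUMMER
  have hsplit : ∀ t : ℕ, 0 < t → ∀ P : Place K F, ((σ ^ s₀) ^ t) • P = P →
      ∃ (g : F) (b : K), (((σ ^ s₀) ^ t : h57_SemiAut K F) : F ≃+* F) g = g ∧ b ≠ 0 ∧
        b ^ (p ^ (e * s₀ * t)) = b ∧ h39_Val P (f₁ * g ^ ℓ) (b ^ ℓ) := by
    intro t ht P hP
    by_cases hPP₀ : P = P₀
    · subst hPP₀
      refine ⟨1, 1, map_one _, one_ne_zero, one_pow _, ?_⟩
      rw [one_pow, mul_one, one_pow]
      exact hval₁
    have hs : 0 < s₀ * t := Nat.mul_pos hs₀ ht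
    rw [← pow_mul] at hP ⊢
    rw [mul_assoc]
    set s : ℕ := s₀ * t with hs_def
    have hτ : h76_FrobStr p (e * s) (σ ^ s) := hσ.pow hs
    have hQ2 : 2 ≤ p ^ (e * s) :=
      hppr.two_le.trans (Nat.le_self_pow (Nat.mul_pos hσ.pos hs).ne' p)
    have hdivs : ℓ ∣ p ^ (e * s) - 1 := by
      exact hdiv.trans (Nat.pow_sub_one_dvd_pow_sub_one p (Dvd.intro s rfl))
    have hτP₀ : (σ ^ s) • P₀ = P₀ := by
      rw [hs_def, pow_mul]
      exact h36_pow_smul_fixed _ _ hP₀ t
    have hτD : (σ ^ s) • (D : Divisor K F) = D := h36_pow_smul_fixed _ _ hσD s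
    have hτf : ((σ ^ s : h57_SemiAut K F) : F ≃+* F) f = f :=
      h36_semiAut_pow_apply_fixed σ f hσf s
    -- an invariant function `h` moving `D` away from `P` and `P₀`
    obtain ⟨h, hh0, hτh, hordh⟩ := h76_inv_ord p hx hτ ({P, P₀} : Finset (Place K F))
      (by
        intro R hR
        rw [Finset.mem_insert, Finset.mem_singleton] at hR ⊢
        rcases hR with rfl | rfl
        · exact Or.inl hP
        · exact Or.inr hτP₀)
      (fun R => -(D : Divisor K F) R)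
      (by
        intro R hR
        rw [Finset.mem_insert, Finset.mem_singleton] at hR
        rcases hR with rfl | rfl
        · rw [hP]
        · rw [hτP₀])
    have hordhP : P.ord h = -(D : Divisor K F) P :=
      hordh P (Finset.mem_insert_self _ _)
    have hordhP₀ : P₀.ord h = 0 := by
      rw [hordh P₀ (Finset.mem_insert_of_mem (Finset.mem_singleton_self _)), hDP₀, neg_zero]
    obtain ⟨Dh, hDh, hDhdeg⟩ := HasPrincipalDivisors.exists_divisor (K := K) h hh0
    have hτDh : (σ ^ s) • Dh = Dh := by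
      ext w
      rw [h57_smul_div (σ ^ s) hDh w, hτh, hDh]
    -- the moved representative `D' = D + div h`
    have hD'deg : (D : Divisor K F) + Dh ∈ Divisor.degZero (K := K) (F := F) := by
      rw [Divisor.mem_degZero, map_add, hDhdeg, add_zero]
      exact D.2
    set D' : Divisor.degZero (K := K) (F := F) := ⟨(D : Divisor K F) + Dh, hD'deg⟩ with hD'
    have hD'coe : (D' : Divisor K F) = (D : Divisor K F) + Dh := rfl
    have hclass : Pic0.mk D' = Pic0.mk D := by
      symm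
      rw [h57_mk_eq_mk_iff, hD'coe, add_sub_cancel_left]
      exact ⟨h, hh0, hDh⟩
    have hτD' : (σ ^ s) • (D' : Divisor K F) = D' := by
      rw [hD'coe, smul_add, hτD, hτDh]
    have hD'P : (D' : Divisor K F) P = 0 := by
      rw [hD'coe, Finsupp.add_apply, hDh, hordhP, add_neg_cancel]
    have hD'P₀ : (D' : Divisor K F) P₀ = 0 := by
      rw [hD'coe, Finsupp.add_apply, hDh, hordhP₀, hDP₀, add_zero]
    -- the divisor `E = P - P₀`
    have hEdeg : (Finsupp.single P 1 - Finsupp.single P₀ 1 : Divisor K F)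
        ∈ Divisor.degZero (K := K) (F := F) := by
      rw [Divisor.mem_degZero, map_sub, Divisor.degree_single, Divisor.degree_single,
        h75_deg_eq_one hx P, h75_deg_eq_one hx P₀]
      simp
    set E : Divisor.degZero (K := K) (F := F) :=
      ⟨Finsupp.single P 1 - Finsupp.single P₀ 1, hEdeg⟩ with hE
    have hEcoe : (E : Divisor K F) = Finsupp.single P 1 - Finsupp.single P₀ 1 := rfl
    have hτE : (σ ^ s) • (E : Divisor K F) = E := by
      rw [hEcoe, smul_sub, h57_smul_single, h57_smul_single, hP, hτP₀]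
    have hdisj : ∀ R : Place K F, (D' : Divisor K F) R ≠ 0 → (E : Divisor K F) R = 0 := by
      intro R hR
      have h1 : R ≠ P := by
        rintro rfl
        exact hR hD'P
      have h2 : R ≠ P₀ := by
        rintro rfl
        exact hR hD'P₀
      rw [hEcoe, Finsupp.sub_apply, Finsupp.single_apply, Finsupp.single_apply,
        if_neg (Ne.symm h1), if_neg (Ne.symm h2), sub_zero]
    -- the function `f' = f h^ℓ` with divisor `ℓ D'`
    set f' : F := f * h ^ ℓ with hf'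
    have hhℓ0 : h ^ ℓ ≠ 0 := pow_ne_zero _ hh0
    have hf'0 : f' ≠ 0 := mul_ne_zero hf0 hhℓ0
    have hτf' : ((σ ^ s : h57_SemiAut K F) : F ≃+* F) f' = f' := by
      rw [hf', map_mul, map_pow, hτf, hτh]
    have hordf' : ∀ R : Place K F, R.ord f' = ℓ * (D' : Divisor K F) R := by
      intro R
      rw [hf', R.ord_mul hf0 hhℓ0, ← zpow_natCast, R.ord_zpow, hordf, hD'coe,
        Finsupp.add_apply, hDh]
      ring
    have hordf'P : P.ord f' = 0 := by rw [hordf', hD'P, mul_zero]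
    have hordf'P₀ : P₀.ord f' = 0 := by rw [hordf', hD'P₀, mul_zero]
    have hf'P : f' ∈ P.toValuationSubring := h24_mem_of_ord_nonneg P hordf'P.ge
    -- the pairing is trivial on `[P - P₀]`
    have hτd : (σ ^ s) • Pic0.mk E = Pic0.mk E := by
      rw [h57_smul_mk]
      exact congrArg Pic0.mk (Subtype.ext (by rw [h57_coe_degZeroSMulHom, hτE]))
    obtain ⟨ψ, hψ, hψ1⟩ := hker s hs (Pic0.mk E) hτd
    have hev := hψ D' E f' hτD' hτE hdisj hf'0 hτf' hordf'
    rw [hclass, hψ1] at hev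
    -- compute `f'(E) = f'(P) / f'(P₀)`
    have hE1 : ∀ R : Place K F, (Finsupp.single P (1 : ℤ) : Divisor K F) R ≠ 0 →
        R.ord f' = 0 := by
      intro R hR
      rw [Finsupp.single_apply] at hR
      by_cases hRP : P = R
      · rw [← hRP]
        exact hordf'P
      · rw [if_neg hRP] at hR
        exact absurd rfl hR
    have hE2 : ∀ R : Place K F, (Finsupp.single P₀ (1 : ℤ) : Divisor K F) R ≠ 0 →
        R.ord f' = 0 := by
      intro R hR
      rw [Finsupp.single_apply] at hR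
      by_cases hRP : P₀ = R
      · rw [← hRP]
        exact hordf'P₀
      · rw [if_neg hRP] at hR
        exact absurd rfl hR
    have hE2' : ∀ R : Place K F, (-(Finsupp.single P₀ (1 : ℤ)) : Divisor K F) R ≠ 0 →
        R.ord f' = 0 := by
      intro R hR
      apply hE2 R
      intro h0
      apply hR
      rw [Finsupp.neg_apply, h0, neg_zero]
    have heval : h76_eval f' (E : Divisor K F) = h76_val P f' * (h76_val P₀ f')⁻¹ := by
      rw [hEcoe, sub_eq_add_neg, h76_eval_add hx hf'0 hE1 hE2', h76_eval_neg hx hf'0 hE2,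
        h76_eval_single, h76_eval_single, zpow_one, zpow_one]
    -- the value of `f'` at `P₀`
    have hhP₀ : h ∈ P₀.toValuationSubring := h24_mem_of_ord_nonneg P₀ hordhP₀.ge
    set η : K := h76_val P₀ h with hη
    have hη0 : η ≠ 0 := h76_val_ne_zero hx P₀ hh0 hordhP₀
    have hηQ : η ^ (p ^ (e * s)) = η := h36_val_fixed hx hτ.frob P₀ hτP₀ hhP₀ hτh
    have hvalP₀ : h76_val P₀ f' = a₀ * η ^ ℓ := by
      rw [hf', h76_val_mul hx P₀ hfP₀ (pow_mem hhP₀ ℓ), h36_val_pow hx P₀ hhP₀]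
    set u : K := h76_val P f' * (a₀ * η ^ ℓ)⁻¹ with hu
    have hu1 : u ^ ((p ^ (e * s) - 1) / ℓ) = 1 := by
      rw [hu, ← hvalP₀, ← heval]
      exact hev.symm
    obtain ⟨b₀, hb₀0, hb₀Q, hb₀ℓ⟩ := h36_exists_root_fixed (p ^ (e * s)) ℓ hQ2 hℓpos hdivs u hu1
    refine ⟨h, b₀ * η, hτh, mul_ne_zero hb₀0 hη0, ?_, ?_⟩
    · rw [mul_pow, hb₀Q, hηQ]
    · have h1 := h39_val_mul P (h39_val_algebraMap P a₀⁻¹) (h76_val_spec hx P hf'P)
      have h2 : f₁ * h ^ ℓ = algebraMap K F a₀⁻¹ * f' := by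
        rw [hf₁, hf', mul_assoc]
      have h3 : (b₀ * η) ^ ℓ = a₀⁻¹ * h76_val P f' := by
        rw [mul_pow, hb₀ℓ, hu]
        field_simp
      rw [h2, h3]
      exact h1
  -- the Kummer cover and the zeta comparison
  obtain ⟨F', _, _, x', σ', hx', hσ', hcount⟩ :=
    h76_kummer p hx hτ₀ ℓ hℓ hdiv₀ f₁ hf₁0 hτ₀f₁ hnot₁ (D : Divisor K F) hordf₁ hsplit
  have hQ2 : 2 ≤ p ^ (e * s₀) :=
    hppr.two_le.trans (Nat.le_self_pow (Nat.mul_pos hσ.pos hs₀).ne' p)
  -- zeta data of the base (fixed place `P₀`)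
  have hZ := h73_zetaData hx hτ₀.pos (σ ^ s₀) hτ₀.frob hτ₀.per P₀ hP₀
  -- a fixed place upstairs, from the count at `t = 1`
  have hfinfix : {P : Place K F | (σ ^ s₀) • P = P}.Finite :=
    h76_fixed_finite hx hppr.one_lt hτ₀
  have hN1 : h73_N (σ ^ s₀) 1 ≠ 0 := by
    unfold h73_N
    rw [pow_one]
    have h1 : Finite {P : Place K F // (σ ^ s₀) • P = P} := hfinfix.to_subtype
    have h2 : Nonempty {P : Place K F // (σ ^ s₀) • P = P} := ⟨⟨P₀, hP₀⟩⟩
    exact_mod_cast (Nat.card_pos (α := {P : Place K F // (σ ^ s₀) • P = P})).ne'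
  have hN1' : h73_N σ' 1 ≠ 0 := by
    rw [hcount 1 one_pos]
    exact mul_ne_zero hℓZ hN1
  obtain ⟨P₀', hP₀'⟩ : ∃ P₀' : Place K F', σ' • P₀' = P₀' := by
    unfold h73_N at hN1'
    have h1 : Nat.card {P : Place K F' // σ' ^ 1 • P = P} ≠ 0 := by exact_mod_cast hN1'
    obtain ⟨⟨P, hP⟩⟩ := (Nat.card_ne_zero.mp h1).1
    exact ⟨P, by rwa [pow_one] at hP⟩
  have hZ' := h73_zetaData hx' hσ'.pos σ' hσ'.frob hσ'.per P₀' hP₀'
  have hfin : Finite {c : Pic0 K F // (σ ^ s₀) • c = c} :=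
    h73_finite_inv_class hx hτ₀.pos (σ ^ s₀) hτ₀.frob hτ₀.per P₀ hP₀
  have hh : h73_h (σ ^ s₀) ≠ 0 := by
    unfold h73_h
    have h2 : Nonempty {c : Pic0 K F // (σ ^ s₀) • c = c} :=
      ⟨⟨0, h76_mem_picFix.mp (h76_picFix (σ ^ s₀)).zero_mem⟩⟩
    exact_mod_cast (Nat.card_pos (α := {c : Pic0 K F // (σ ^ s₀) • c = c})).ne'
  exact h90_zeta_no_cover (p ^ (e * s₀)) _ _ hQ2 _ _ hh _ _ _ _ hZ hZ' ℓ hℓpr.two_le hcount

end Nondeg

end Fermat.Agent.S27
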