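import Mathlib

/-!
# S27 / B8a WEIL, sub-row W1 (WEIL-POLY): the `P¹` computation

For polynomials `r, s` over an algebraically closed field, of the same degree, both nonzero at `0`,
whose root multiplicities agree outside a finite set `T` not containing `0`:

`(r(0) / s(0)) * (lc s / lc r) = ∏_{a ∈ T} a ^ (mult_a r - mult_a s)`.
-/

set_option autoImplicit false

open Polynomial

namespace Fermat.Agent.S27

/-- The value at `0` of a polynomial over an algebraically closed field, as a product over any
finite set containing its roots. -/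
theorem h11_eval_zero_eq_prod {K : Type*} [Field K] [IsAlgClosed K] (r : Polynomial K)
    (U : Finset K) (hU : ∀ a : K, r.IsRoot a → a ∈ U) (hr : r ≠ 0) :
    r.eval 0 = (-1) ^ r.natDegree * r.leadingCoeff * ∏ a ∈ U, a ^ r.rootMultiplicity a := by
  classical
  have hsplit : r.Splits := IsAlgClosed.splits r
  rw [← coeff_zero_eq_eval_zero, hsplit.coeff_zero_eq_leadingCoeff_mul_prod_roots]
  congr 1
  rw [Finset.prod_multiset_count]
  have hsub : r.roots.toFinset ⊆ U := by
    intro a ha
    rw [Multiset.mem_toFinset, mem_roots hr] at ha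
    exact hU a ha
  rw [← Finset.prod_subset hsub]
  · refine Finset.prod_congr rfl fun a _ => ?_
    rw [count_roots]
  · intro a _ ha
    rw [Multiset.mem_toFinset] at ha
    have h0 : r.rootMultiplicity a = 0 := by
      rw [← count_roots]
      exact Multiset.count_eq_zero_of_notMem ha
    rw [h0, pow_zero]

/-- **WEIL-POLY** (row 507, sub-row W1 of B8a). -/
theorem h6_weil_poly {K : Type*} [Field K] [IsAlgClosed K] (r s : Polynomial K)
    (hr : r ≠ 0) (hs : s ≠ 0) (hr0 : r.eval 0 ≠ 0) (hs0 : s.eval 0 ≠ 0)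
    (hdeg : r.natDegree = s.natDegree) (T : Finset K) (hT0 : (0 : K) ∉ T)
    (hT : ∀ a : K, a ∉ T → r.rootMultiplicity a = s.rootMultiplicity a) :
    (r.eval 0 / s.eval 0) * (s.leadingCoeff / r.leadingCoeff) =
      ∏ a ∈ T, a ^ ((r.rootMultiplicity a : ℤ) - (s.rootMultiplicity a : ℤ)) := by
  classical
  -- a common finite set containing `T` and all roots, without `0`
  set U : Finset K := r.roots.toFinset ∪ s.roots.toFinset ∪ T with hUdef
  have hrU : ∀ a : K, r.IsRoot a → a ∈ U := by
    intro a ha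
    rw [hUdef]
    exact Finset.mem_union_left _ (Finset.mem_union_left _
      (Multiset.mem_toFinset.2 ((mem_roots hr).2 ha)))
  have hsU : ∀ a : K, s.IsRoot a → a ∈ U := by
    intro a ha
    rw [hUdef]
    exact Finset.mem_union_left _ (Finset.mem_union_right _
      (Multiset.mem_toFinset.2 ((mem_roots hs).2 ha)))
  have hU0 : ∀ a ∈ U, a ≠ 0 := by
    intro a ha h0
    rw [hUdef, Finset.mem_union, Finset.mem_union, Multiset.mem_toFinset, Multiset.mem_toFinset,
      mem_roots hr, mem_roots hs] at ha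
    rcases ha with (ha | ha) | ha
    · exact hr0 (by rw [h0] at ha; exact ha)
    · exact hs0 (by rw [h0] at ha; exact ha)
    · exact hT0 (by rw [h0] at ha; exact ha)
  have hTU : T ⊆ U := by
    rw [hUdef]
    exact Finset.subset_union_right
  have hlr : r.leadingCoeff ≠ 0 := leadingCoeff_ne_zero.2 hr
  have hls : s.leadingCoeff ≠ 0 := leadingCoeff_ne_zero.2 hs
  -- the right-hand side as a product over `U`
  have hrhs : ∏ a ∈ T, a ^ ((r.rootMultiplicity a : ℤ) - (s.rootMultiplicity a : ℤ)) =
      ∏ a ∈ U, a ^ ((r.rootMultiplicity a : ℤ) - (s.rootMultiplicity a : ℤ)) := by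
    refine Finset.prod_subset hTU fun a _ ha => ?_
    rw [hT a ha, sub_self, zpow_zero]
  have hsplitU : ∏ a ∈ U, a ^ ((r.rootMultiplicity a : ℤ) - (s.rootMultiplicity a : ℤ)) =
      (∏ a ∈ U, a ^ r.rootMultiplicity a) / ∏ a ∈ U, a ^ s.rootMultiplicity a := by
    rw [← Finset.prod_div_distrib]
    refine Finset.prod_congr rfl fun a ha => ?_
    rw [zpow_sub₀ (hU0 a ha), zpow_natCast, zpow_natCast]
  have hPs : (∏ a ∈ U, a ^ s.rootMultiplicity a) ≠ 0 :=
    Finset.prod_ne_zero_iff.2 fun a ha => pow_ne_zero _ (hU0 a ha)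
  have hsign : ((-1 : K) ^ s.natDegree) ≠ 0 := pow_ne_zero _ (by norm_num)
  rw [hrhs, hsplitU, h11_eval_zero_eq_prod r U hrU hr, h11_eval_zero_eq_prod s U hsU hs, hdeg]
  field_simp

end Fermat.Agent.S27
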