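import Fermat.Agent.S27.h6w_Defs
import Fermat.Agent.S27.h6w_Poly

/-!
# S27 / B8a WEIL, sub-row W5 (WEIL-CHART-ASM)

Weil reciprocity `f(div h) = h(div f)` for a chart `h`, from the norm data `h6_NormFibre` of
`f` over the charts `h` and `1 / h` and the `P¹` computation `h6_weil_poly`.
-/

set_option autoImplicit false

open AlgebraicCurve IntermediateField Polynomial

namespace Fermat.Agent.S27

open Fermat.Agent.S18
open Fermat.Agent.S24 (h24_adjoin_inv_eq)

variable {K F : Type*} [Field K] [Field F] [Algebra K F]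

/-- The norm does not depend on how the intermediate field is presented. -/
theorem h70_norm_congr {E₁ E₂ : IntermediateField K F} (he : E₁ = E₂) (f : F) :
    ((Algebra.norm E₁ f : E₁) : F) = ((Algebra.norm E₂ f : E₂) : F) := by
  subst he
  rfl

theorem h70_prod_zpow_eq_zpow_sum {ι : Type*} {a : K} (ha : a ≠ 0) (s : Finset ι) (e : ι → ℤ) :
    ∏ i ∈ s, a ^ e i = a ^ ∑ i ∈ s, e i := by
  classical
  induction s using Finset.induction_on with
  | empty => simp
  | insert i s hi ih => rw [Finset.prod_insert hi, Finset.sum_insert hi, ih, zpow_add₀ ha]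

/-- `p(1/h) = (reverse p)(h) / h ^ deg p`. -/
theorem h70_aeval_inv_mul_pow {h : F} (hh0 : h ≠ 0) (p : K[X]) :
    aeval h⁻¹ p * h ^ p.natDegree = aeval h p.reverse := by
  let _ : Invertible h⁻¹ := invertibleOfNonzero (inv_ne_zero hh0)
  have h1 := Polynomial.eval₂_reverse_mul_pow (algebraMap K F) h⁻¹ p
  have h2 : ⅟(h⁻¹) = h := by rw [invOf_eq_inv, inv_inv]
  rw [h2] at h1
  rw [Polynomial.aeval_def, Polynomial.aeval_def, ← h1, mul_assoc, ← mul_pow,
    inv_mul_cancel₀ hh0, one_pow, mul_one]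

theorem h70_reverse_natDegree_of_eval {p : K[X]} (hp0 : p.eval 0 ≠ 0) :
    p.reverse.natDegree = p.natDegree := by
  have h0 : p.natTrailingDegree = 0 := by
    rw [Polynomial.natTrailingDegree_eq_zero]
    right
    rwa [Polynomial.coeff_zero_eq_eval_zero]
  rw [Polynomial.reverse_natDegree, h0, Nat.sub_zero]

theorem h70_reverse_leadingCoeff_of_eval {p : K[X]} (hp0 : p.eval 0 ≠ 0) :
    p.reverse.leadingCoeff = p.eval 0 := by
  have h0 : p.natTrailingDegree = 0 := by
    rw [Polynomial.natTrailingDegree_eq_zero]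
    right
    rwa [Polynomial.coeff_zero_eq_eval_zero]
  rw [Polynomial.reverse_leadingCoeff, Polynomial.trailingCoeff, h0,
    Polynomial.coeff_zero_eq_eval_zero]

theorem h70_reverse_eval_zero (p : K[X]) : p.reverse.eval 0 = p.leadingCoeff := by
  rw [← Polynomial.coeff_zero_eq_eval_zero, Polynomial.coeff_zero_reverse]

/-- comparing `r(h)/s(h) = r'(1/h)/s'(1/h)` for `h` transcendental: degrees and leading
coefficients. -/
theorem h70_poly_compare {h : F} (hh : Transcendental K h) (r s r' s' : K[X])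
    (hr0 : r.eval 0 ≠ 0) (hs0 : s.eval 0 ≠ 0) (hr0' : r'.eval 0 ≠ 0) (hs0' : s'.eval 0 ≠ 0)
    (heq : aeval h r * aeval h⁻¹ s' = aeval h s * aeval h⁻¹ r') :
    r.natDegree = s.natDegree ∧
      r.leadingCoeff * s'.eval 0 = s.leadingCoeff * r'.eval 0 := by
  have hh0 : h ≠ 0 := by
    rintro rfl
    exact hh isAlgebraic_zero
  have hinj : Function.Injective (aeval h : K[X] →ₐ[K] F) := transcendental_iff_injective.mp hh
  have hne : ∀ {p : K[X]}, p.eval 0 ≠ 0 → p ≠ 0 := by
    rintro p hp rfl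
    simp at hp
  have hrevne : ∀ {p : K[X]}, p.eval 0 ≠ 0 → p.reverse ≠ 0 := by
    intro p hp hrev
    have := h70_reverse_leadingCoeff_of_eval hp
    rw [hrev, Polynomial.leadingCoeff_zero] at this
    exact hp this.symm
  -- the polynomial identity
  have hE : r * s'.reverse * X ^ r'.natDegree = s * r'.reverse * X ^ s'.natDegree := by
    apply hinj
    simp only [map_mul, map_pow, aeval_X]
    rw [← h70_aeval_inv_mul_pow hh0 s', ← h70_aeval_inv_mul_pow hh0 r']
    linear_combination (h ^ s'.natDegree * h ^ r'.natDegree) * heq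
  have hl0 : (r * s'.reverse).coeff 0 ≠ 0 := by
    rw [Polynomial.coeff_zero_eq_eval_zero, Polynomial.eval_mul, h70_reverse_eval_zero]
    exact mul_ne_zero hr0 (Polynomial.leadingCoeff_ne_zero.mpr (hne hs0'))
  have hr0c : (s * r'.reverse).coeff 0 ≠ 0 := by
    rw [Polynomial.coeff_zero_eq_eval_zero, Polynomial.eval_mul, h70_reverse_eval_zero]
    exact mul_ne_zero hs0 (Polynomial.leadingCoeff_ne_zero.mpr (hne hr0'))
  have hlne : r * s'.reverse ≠ 0 := mul_ne_zero (hne hr0) (hrevne hs0')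
  have hrne : s * r'.reverse ≠ 0 := mul_ne_zero (hne hs0) (hrevne hr0')
  have hdd : r'.natDegree = s'.natDegree := by
    have h1 := congrArg Polynomial.natTrailingDegree hE
    rw [Polynomial.natTrailingDegree_mul_X_pow hlne, Polynomial.natTrailingDegree_mul_X_pow hrne,
      (Polynomial.natTrailingDegree_eq_zero.mpr (Or.inr hl0)),
      (Polynomial.natTrailingDegree_eq_zero.mpr (Or.inr hr0c)), zero_add, zero_add] at h1
    exact h1
  rw [hdd] at hE
  have hE' : r * s'.reverse = s * r'.reverse :=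
    mul_right_cancel₀ (pow_ne_zero _ Polynomial.X_ne_zero) hE
  constructor
  · have h1 := congrArg Polynomial.natDegree hE'
    rw [Polynomial.natDegree_mul (hne hr0) (hrevne hs0'),
      Polynomial.natDegree_mul (hne hs0) (hrevne hr0'),
      h70_reverse_natDegree_of_eval hs0', h70_reverse_natDegree_of_eval hr0', hdd] at h1
    omega
  · have h1 := congrArg Polynomial.leadingCoeff hE'
    rw [Polynomial.leadingCoeff_mul, Polynomial.leadingCoeff_mul,
      h70_reverse_leadingCoeff_of_eval hs0', h70_reverse_leadingCoeff_of_eval hr0'] at h1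
    exact h1

/-- **WEIL-CHART-ASM** (row 510, sub-row W5 of B8a). -/
theorem h6_weil_chart_of_norm [IsAlgClosed K]
    (hnorm : ∀ h : F, h75_IsChart K h → ∀ f : F, f ≠ 0 → h6_NormFibre K h f)
    (f h : F) (hf : f ≠ 0) (hh : h75_IsChart K h) : h6_WeilAt K f h := by
  classical
  intro hdisj vf vh hvf hvh Df Dh hDf hDh
  have hh0 : h ≠ 0 := hh.ne_zero
  have hhne : ∀ a : K, h ≠ algebraMap K F a := by
    intro a ha
    apply hh.tr
    rw [ha]
    exact isAlgebraic_algebraMap _
  obtain ⟨r, s, hr, hs, hn1, hn2, hn3⟩ := hnorm h hh f hf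
  obtain ⟨r', s', hr', hs', hn1', -, hn3'⟩ := hnorm h⁻¹ (h75_isChart_inv hh) f hf
  -- zeros and poles of `h`
  have hS0mem : ∀ P, P ∈ Dh.support.filter (fun P => 0 < Dh P) ↔ 0 < P.ord h := by
    intro P
    rw [Finset.mem_filter, Finsupp.mem_support_iff, hDh]
    exact ⟨fun h => h.2, fun h => ⟨h.ne', h⟩⟩
  have hSinfmem : ∀ P, P ∈ Dh.support.filter (fun P => ¬ 0 < Dh P) ↔ 0 < P.ord h⁻¹ := by
    intro P
    rw [Finset.mem_filter, Finsupp.mem_support_iff, hDh, P.ord_inv]
    constructor
    · intro h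
      have := h.1
      have := h.2
      omega
    · intro h
      exact ⟨by omega, by omega⟩
  have hfS0 : ∀ P ∈ Dh.support.filter (fun P => 0 < Dh P), P.ord f = 0 := fun P hP =>
    (hdisj P).resolve_right ((hS0mem P).mp hP).ne'
  have hfSinf : ∀ P ∈ Dh.support.filter (fun P => ¬ 0 < Dh P), P.ord f = 0 := fun P hP =>
    (hdisj P).resolve_right (by
      have := (hSinfmem P).mp hP
      rw [P.ord_inv] at this
      omega)
  obtain ⟨hr0, hs0, hrs0⟩ := hn3 _ hS0mem hfS0 vf (fun P hP => hvf P (hfS0 P hP))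
  obtain ⟨hr0', hs0', hrs0'⟩ := hn3' _ hSinfmem hfSinf vf (fun P hP => hvf P (hfSinf P hP))
  -- the two norms agree
  have hnorm_eq : ((Algebra.norm K⟮h⁻¹⟯ f : K⟮h⁻¹⟯) : F) = ((Algebra.norm K⟮h⟯ f : K⟮h⟯) : F) :=
    h70_norm_congr (h24_adjoin_inv_eq h) f
  rw [hnorm_eq] at hn1'
  have heq : aeval h r * aeval h⁻¹ s' = aeval h s * aeval h⁻¹ r' := by
    linear_combination (-(aeval h⁻¹ s')) * hn1 + (aeval h s) * hn1'
  obtain ⟨hdeg, hlc⟩ := h70_poly_compare hh.tr r s r' s' hr0 hs0 hr0' hs0' heq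
  -- the support of `div f`
  have hsuppf : ∀ P ∈ Df.support, P.ord f ≠ 0 ∧ P.ord h = 0 := by
    intro P hP
    rw [Finsupp.mem_support_iff, hDf] at hP
    exact ⟨hP, (hdisj P).resolve_left hP⟩
  have hV : ∀ (P : Place K F) (a : K), P.ord h = 0 →
      (0 < P.ord (h - algebraMap K F a) ↔ vh P = a) := by
    intro P a hP
    constructor
    · intro hpos
      exact h39_val_unique P (hvh P hP) (Or.inr hpos)
    · intro ha
      have := hvh P hP
      rw [ha] at this
      exact this.resolve_left (hhne a)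
  have hT0 : (0 : K) ∉ Df.support.image vh := by
    intro h0
    obtain ⟨P, hP, hP0⟩ := Finset.mem_image.mp h0
    have h1 := (hV P 0 (hsuppf P hP).2).mpr hP0
    rw [map_zero, sub_zero] at h1
    have := (hsuppf P hP).2
    omega
  have hmult : ∀ a : K, (r.rootMultiplicity a : ℤ) - (s.rootMultiplicity a : ℤ) =
      ∑ P ∈ Df.support.filter (fun P => vh P = a), P.ord f := by
    intro a
    obtain ⟨Sa, hSa, -⟩ := h75_fibre_main hh a
    rw [hn2 a Sa hSa]
    symm
    apply Finset.sum_subset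
    · intro P hP
      rw [Finset.mem_filter] at hP
      exact (hSa P).mpr ((hV P a (hsuppf P hP.1).2).mpr hP.2)
    · intro P hP hPn
      by_contra hne
      apply hPn
      have hPs : P ∈ Df.support := by
        rw [Finsupp.mem_support_iff, hDf]
        exact hne
      exact Finset.mem_filter.mpr ⟨hPs, (hV P a (hsuppf P hPs).2).mp ((hSa P).mp hP)⟩
  have hTout : ∀ a : K, a ∉ Df.support.image vh → r.rootMultiplicity a = s.rootMultiplicity a := by
    intro a ha
    have h1 := hmult a
    have h2 : Df.support.filter (fun P => vh P = a) = ∅ := by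
      rw [Finset.filter_eq_empty_iff]
      intro P hP hPa
      exact ha (Finset.mem_image.mpr ⟨P, hP, hPa⟩)
    rw [h2, Finset.sum_empty] at h1
    omega
  have hpoly := h6_weil_poly r s hr hs hr0 hs0 hdeg (Df.support.image vh) hT0 hTout
  -- the right-hand side
  have hRHS : Df.prod (fun P n => vh P ^ n) =
      ∏ a ∈ Df.support.image vh, a ^ ((r.rootMultiplicity a : ℤ) - (s.rootMultiplicity a : ℤ)) := by
    rw [Finsupp.prod, ← Finset.prod_fiberwise_of_maps_to
      (g := vh) (t := Df.support.image vh) (fun P hP => Finset.mem_image_of_mem vh hP)]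
    refine Finset.prod_congr rfl fun a ha => ?_
    have ha0 : a ≠ 0 := fun h => hT0 (h ▸ ha)
    rw [hmult a, ← h70_prod_zpow_eq_zpow_sum ha0]
    refine Finset.prod_congr rfl fun P hP => ?_
    rw [Finset.mem_filter] at hP
    rw [hP.2, hDf]
  -- the left-hand side
  have hLHS : Dh.prod (fun P n => vf P ^ n) =
      (∏ P ∈ Dh.support.filter (fun P => 0 < Dh P), vf P ^ (P.ord h).toNat) *
        (∏ P ∈ Dh.support.filter (fun P => ¬ 0 < Dh P), vf P ^ (P.ord h⁻¹).toNat)⁻¹ := by
    rw [Finsupp.prod, ← Finset.prod_filter_mul_prod_filter_not Dh.support (fun P => 0 < Dh P),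
      ← Finset.prod_inv_distrib]
    congr 1
    · refine Finset.prod_congr rfl fun P hP => ?_
      have h1 := (hS0mem P).mp hP
      rw [hDh, ← zpow_natCast, Int.toNat_of_nonneg h1.le]
    · refine Finset.prod_congr rfl fun P hP => ?_
      have h1 := (hSinfmem P).mp hP
      rw [hDh, ← zpow_natCast, Int.toNat_of_nonneg h1.le, ← zpow_neg, P.ord_inv, neg_neg]
  rw [hLHS, hRHS, ← hpoly]
  have hlr : r.leadingCoeff ≠ 0 := Polynomial.leadingCoeff_ne_zero.mpr hr
  set N0 := ∏ P ∈ Dh.support.filter (fun P => 0 < Dh P), vf P ^ (P.ord h).toNat with hN0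
  set Ninf := ∏ P ∈ Dh.support.filter (fun P => ¬ 0 < Dh P), vf P ^ (P.ord h⁻¹).toNat with hNinf
  have hNinf0 : Ninf ≠ 0 := by
    intro h0
    rw [h0, mul_zero] at hrs0'
    exact hr0' hrs0'
  have h1 : N0 = r.eval 0 / s.eval 0 := by
    rw [hrs0, mul_div_cancel_left₀ _ hs0]
  have h2 : Ninf⁻¹ = s.leadingCoeff / r.leadingCoeff := by
    rw [inv_eq_one_div, div_eq_div_iff hNinf0 hlr, one_mul]
    have h3 : r.leadingCoeff * s'.eval 0 = s.leadingCoeff * (s'.eval 0 * Ninf) := by
      rw [hlc, hrs0']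
    have h4 : r.leadingCoeff * s'.eval 0 = (s.leadingCoeff * Ninf) * s'.eval 0 := by
      rw [h3]; ring
    exact mul_right_cancel₀ hs0' h4
  rw [h1, h2]

end Fermat.Agent.S27
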