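import Fermat.Agent.S18.RR_Chart
import Fermat.Agent.S18.GR_ChartPt
import Fermat.Agent.S18.RR_Approx

/-!
# S27 / B8a WEIL : shared definitions (helper6)

Weil reciprocity `f(div h) = h(div f)` is proved by norms down to the line.  This file holds the
two predicates shared by the rows of the block:

* `h6_WeilAt K f h` : the statement of Weil reciprocity for the pair `(f, h)`;
* `h6_NormFibre K h f` : the norm data of `f` over the chart `h`.
-/

set_option autoImplicit false

open AlgebraicCurve IntermediateField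

namespace Fermat.Agent.S27

open Fermat.Agent.S18

/-- The statement of Weil reciprocity for the pair `(f, h)`. -/
def h6_WeilAt (K : Type*) {F : Type*} [Field K] [Field F] [Algebra K F] (f h : F) : Prop :=
  (∀ P : Place K F, P.ord f = 0 ∨ P.ord h = 0) →
    ∀ (vf vh : Place K F → K), (∀ P, P.ord f = 0 → h39_Val P f (vf P)) →
      (∀ P, P.ord h = 0 → h39_Val P h (vh P)) →
      ∀ (Df Dh : Divisor K F), (∀ P, Df P = P.ord f) → (∀ P, Dh P = P.ord h) →
        Dh.prod (fun P n => vf P ^ n) = Df.prod (fun P n => vh P ^ n)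

/-- The norm data of `f` over the chart `h`: `N_{F/K(h)} f = r(h)/s(h)` with
`ord_a (r/s) = ∑_{P | a} ord_P f` for all `a`, and `(r/s)(0) = ∏_{P | 0} f(P)^{e_P}` when `f`
is a unit along the fibre of `h` over `0`. -/
def h6_NormFibre (K : Type*) {F : Type*} [Field K] [Field F] [Algebra K F] (h f : F) : Prop :=
  ∃ r s : Polynomial K, r ≠ 0 ∧ s ≠ 0 ∧
    ((Algebra.norm K⟮h⟯ f : K⟮h⟯) : F) * Polynomial.aeval h s = Polynomial.aeval h r ∧
    (∀ (a : K) (S : Finset (Place K F)), (∀ P, P ∈ S ↔ 0 < P.ord (h - algebraMap K F a)) →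
      (r.rootMultiplicity a : ℤ) - (s.rootMultiplicity a : ℤ) = ∑ P ∈ S, P.ord f) ∧
    (∀ (S : Finset (Place K F)), (∀ P, P ∈ S ↔ 0 < P.ord h) → (∀ P ∈ S, P.ord f = 0) →
      ∀ vf : Place K F → K, (∀ P ∈ S, h39_Val P f (vf P)) →
        r.eval 0 ≠ 0 ∧ s.eval 0 ≠ 0 ∧
          r.eval 0 = s.eval 0 * ∏ P ∈ S, vf P ^ (P.ord h).toNat)

end Fermat.Agent.S27
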