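import Mathlib
import Fermat.Agent.S27.h6w_Defs
import Fermat.Agent.S18.h34_HoloCore

/-!
# S27 / B8a WEIL, row W3 : reduction of Weil reciprocity to the chart case (helper47)

`h6_weil_reduce`: if Weil reciprocity `h6_WeilAt K f h` holds whenever `h` is a chart, and the
product of a non-chart with a chart is a chart, then it holds for all nonzero `f`, `h`.

For `h` not a chart pick a Moebius transform `x' = (x - a) / (x - b)` of a chart `x` whose zero
and pole avoid the support of `div f`; then `h * x'` and `x'` are charts, and the reciprocity for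
`(f, h)` is the quotient of those for `(f, h * x')` and `(f, x')`.
-/

set_option autoImplicit false

open AlgebraicCurve IntermediateField

namespace Fermat.Agent.S27

open Fermat.Agent.S18 Fermat.Agent.S24

variable {K F : Type*} [Field K] [Field F] [Algebra K F]

/-- A Moebius transform of a chart is a chart. -/
theorem h47_moebius_chart {x : F} (hx : h75_IsChart K x) {a b : K} (hab : a ≠ b) :
    h75_IsChart K ((x - algebraMap K F a) / (x - algebraMap K F b)) := by
  have hb0 : x - algebraMap K F b ≠ 0 := by
    intro h0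
    apply hx.tr
    rw [sub_eq_zero.mp h0]
    exact isAlgebraic_algebraMap _
  have hba : algebraMap K F b - algebraMap K F a ≠ 0 := by
    rw [← map_sub]
    exact (map_ne_zero (algebraMap K F)).mpr (sub_ne_zero.mpr (Ne.symm hab))
  set x' : F := (x - algebraMap K F a) / (x - algebraMap K F b) with hx'
  have h1 : x' - 1 = (algebraMap K F b - algebraMap K F a) / (x - algebraMap K F b) := by
    rw [hx']
    field_simp
    ring
  have h10 : x' - 1 ≠ 0 := by
    rw [h1]
    exact div_ne_zero hba hb0
  have hxeq : x = (algebraMap K F b * x' - algebraMap K F a) / (x' - 1) := by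
    rw [eq_div_iff h10, h1, hx']
    field_simp
    ring
  have hK : K⟮x'⟯ = K⟮x⟯ := by
    apply le_antisymm
    · rw [adjoin_simple_le_iff]
      exact div_mem (sub_mem (mem_adjoin_simple_self K x) (IntermediateField.algebraMap_mem _ a))
        (sub_mem (mem_adjoin_simple_self K x) (IntermediateField.algebraMap_mem _ b))
    · rw [adjoin_simple_le_iff, hxeq]
      exact div_mem (sub_mem (mul_mem (IntermediateField.algebraMap_mem _ b) (mem_adjoin_simple_self K x'))
        (IntermediateField.algebraMap_mem _ a)) (sub_mem (mem_adjoin_simple_self K x') (one_mem _))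
  refine ⟨?_, ?_, ?_⟩
  · intro halg
    apply hx.tr
    have hmem : x' ∈ algebraicClosure K F := mem_algebraicClosure_iff.mpr halg
    rw [hxeq]
    exact mem_algebraicClosure_iff.mp
      (div_mem (sub_mem (mul_mem (IntermediateField.algebraMap_mem _ b) hmem) (IntermediateField.algebraMap_mem _ a))
        (sub_mem hmem (one_mem _)))
  · rw [hK]
    exact hx.fin
  · rw [hK]
    exact hx.sep

/-- The zeros and poles of the Moebius transform `(x - a) / (x - b)` lie over `a` and `b`. -/
theorem h47_moebius_ord {x : F} (hx : Transcendental K x) (a b : K) (P : Place K F)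
    (h : P.ord ((x - algebraMap K F a) / (x - algebraMap K F b)) ≠ 0) :
    0 < P.ord (x - algebraMap K F a) ∨ 0 < P.ord (x - algebraMap K F b) := by
  have hc0 : ∀ c : K, x - algebraMap K F c ≠ 0 := by
    intro c h0
    apply hx
    rw [sub_eq_zero.mp h0]
    exact isAlgebraic_algebraMap _
  rw [h35_ord_div P (hc0 a) (hc0 b)] at h
  by_cases hneg : P.ord x < 0
  · rw [h34_ord_sub_const_of_neg P x a hneg, h34_ord_sub_const_of_neg P x b hneg] at h
    exact absurd (sub_self _) h
  · have hmem : x ∈ P.toValuationSubring := h24_mem_of_ord_nonneg P (not_lt.mp hneg)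
    have ha := h24_ord_nonneg_of_mem P (sub_mem hmem (P.algebraMap_mem' a))
    have hb := h24_ord_nonneg_of_mem P (sub_mem hmem (P.algebraMap_mem' b))
    omega

/-- **Row W3 (WEIL-REDUCE).** Weil reciprocity for all pairs from the case where the second
function is a chart. -/
theorem h6_weil_reduce [IsAlgClosed K] {x : F} (hx : h75_IsChart K x)
    (hmul : ∀ (h x' : F), h ≠ 0 → ¬ h75_IsChart K h → h75_IsChart K x' →
      h75_IsChart K (h * x'))
    (hchart : ∀ (f h : F), f ≠ 0 → h75_IsChart K h → h6_WeilAt K f h)
    (f h : F) (hf : f ≠ 0) (hh : h ≠ 0) : h6_WeilAt K f h := by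
  classical
  by_cases hc : h75_IsChart K h
  · exact hchart f h hf hc
  intro hdisj vf vh hvf hvh Df Dh hDf hDh
  have hfin := h75_finite_ord_ne hx f hf
  -- the Moebius parameters avoid the `x`-values of the support of `div f`
  obtain ⟨a, b, hab, hbad⟩ : ∃ a b : K, a ≠ b ∧ ∀ P : Place K F, P.ord f ≠ 0 →
      ¬ 0 < P.ord (x - algebraMap K F a) ∧ ¬ 0 < P.ord (x - algebraMap K F b) := by
    have hexv : ∀ P : Place K F, ∃ c : K,
        ∀ c' : K, 0 < P.ord (x - algebraMap K F c') → c' = c := by
      intro P
      by_cases hP : ∃ c : K, 0 < P.ord (x - algebraMap K F c)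
      · obtain ⟨c, hc⟩ := hP
        exact ⟨c, fun c' hc' => h35_value_unique P hc' hc⟩
      · exact ⟨0, fun c' hc' => absurd ⟨c', hc'⟩ hP⟩
    choose xv hxv using hexv
    let T : Finset K := hfin.toFinset.image xv
    obtain ⟨a, ha⟩ := Infinite.exists_notMem_finset T
    obtain ⟨b, hb⟩ := Infinite.exists_notMem_finset (insert a T)
    refine ⟨a, b, ?_, ?_⟩
    · rintro rfl
      exact hb (Finset.mem_insert_self _ _)
    · intro P hP
      have hPT : xv P ∈ T := Finset.mem_image_of_mem xv (hfin.mem_toFinset.mpr hP)
      constructor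
      · intro h1
        exact ha (hxv P a h1 ▸ hPT)
      · intro h1
        exact hb (Finset.mem_insert_of_mem (hxv P b h1 ▸ hPT))
  obtain ⟨x', hx'def⟩ : ∃ x' : F, x' = (x - algebraMap K F a) / (x - algebraMap K F b) :=
    ⟨_, rfl⟩
  have hx'c : h75_IsChart K x' := hx'def ▸ h47_moebius_chart hx hab
  have hx'0 : x' ≠ 0 := hx'c.ne_zero
  have hdisj' : ∀ P : Place K F, P.ord f = 0 ∨ P.ord x' = 0 := by
    intro P
    by_contra hcon
    rw [not_or] at hcon
    rcases h47_moebius_ord hx.tr a b P (hx'def ▸ hcon.2) with h1 | h1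
    · exact (hbad P hcon.1).1 h1
    · exact (hbad P hcon.1).2 h1
  have huc : h75_IsChart K (h * x') := hmul h x' hh hc hx'c
  have hordu : ∀ P : Place K F, P.ord (h * x') = P.ord h + P.ord x' :=
    fun P => P.ord_mul hh hx'0
  have hdisju : ∀ P : Place K F, P.ord f = 0 ∨ P.ord (h * x') = 0 := by
    intro P
    rcases hdisj P with h1 | h1
    · exact Or.inl h1
    · rcases hdisj' P with h2 | h2
      · exact Or.inl h2
      · right
        rw [hordu, h1, h2, add_zero]
  -- value functions
  have hex : ∀ (g : F) (P : Place K F), ∃ c : K, P.ord g = 0 → h39_Val P g c := by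
    intro g P
    by_cases h0 : P.ord g = 0
    · obtain ⟨c, hc⟩ := h39_exists_val hx P (f := g) (h24_mem_of_ord_nonneg P h0.ge)
      exact ⟨c, fun _ => hc⟩
    · exact ⟨0, fun h => absurd h h0⟩
  choose val hval using hex
  -- the divisor of `x'`
  obtain ⟨Dx', hDx'⟩ : ∃ Dx' : Divisor K F, ∀ P, Dx' P = P.ord x' :=
    ⟨Finsupp.ofSupportFinite (fun P => P.ord x') (h75_finite_ord_ne hx x' hx'0), fun _ => rfl⟩
  have hDu : ∀ P, (Dh + Dx') P = P.ord (h * x') := by
    intro P
    rw [Finsupp.add_apply, hDh, hDx', hordu]
  have W1 := hchart f (h * x') hf huc hdisju vf (val (h * x')) hvf (hval (h * x')) Df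
    (Dh + Dx') hDf hDu
  have W2 := hchart f x' hf hx'c hdisj' vf (val x') hvf (hval x') Df Dx' hDf hDx'
  -- the value of a unit is nonzero
  have hv0 : ∀ (g : F) (P : Place K F) (c : K), g ≠ 0 → P.ord g = 0 → h39_Val P g c →
      c ≠ 0 := by
    intro g P c hg hP hval h0
    rw [h0, h39_val_zero_iff] at hval
    rcases hval with h1 | h1
    · exact hg h1
    · omega
  -- split the left side
  have hL : (Dh + Dx').prod (fun P n => vf P ^ n) =
      Dh.prod (fun P n => vf P ^ n) * Dx'.prod (fun P n => vf P ^ n) := by
    refine Finsupp.prod_add_index (fun P _ => zpow_zero _) ?_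
    intro P hP b₁ b₂
    have hPf : P.ord f = 0 := by
      rcases Finset.mem_union.mp hP with h1 | h1
      · have : P.ord h ≠ 0 := by
          rw [← hDh]
          exact Finsupp.mem_support_iff.mp h1
        exact (hdisj P).resolve_right this
      · have : P.ord x' ≠ 0 := by
          rw [← hDx']
          exact Finsupp.mem_support_iff.mp h1
        exact (hdisj' P).resolve_right this
    exact zpow_add₀ (hv0 f P _ hf hPf (hvf P hPf)) b₁ b₂
  -- split the right side
  have hR : Df.prod (fun P n => val (h * x') P ^ n) =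
      Df.prod (fun P n => vh P ^ n) * Df.prod (fun P n => val x' P ^ n) := by
    rw [← Finsupp.prod_mul]
    refine Finsupp.prod_congr ?_
    intro P hP
    have hPf : P.ord f ≠ 0 := by
      rw [← hDf]
      exact Finsupp.mem_support_iff.mp hP
    have h1 : P.ord h = 0 := (hdisj P).resolve_left hPf
    have h2 : P.ord x' = 0 := (hdisj' P).resolve_left hPf
    have h3 : P.ord (h * x') = 0 := by rw [hordu, h1, h2, add_zero]
    have h4 := h39_val_unique P (hval (h * x') P h3) (h39_val_mul P (hvh P h1) (hval x' P h2))
    rw [h4, mul_zpow]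
  have hne : Df.prod (fun P n => val x' P ^ n) ≠ 0 := by
    rw [Finsupp.prod, Finset.prod_ne_zero_iff]
    intro P hP
    have hPf : P.ord f ≠ 0 := by
      rw [← hDf]
      exact Finsupp.mem_support_iff.mp hP
    have h2 : P.ord x' = 0 := (hdisj' P).resolve_left hPf
    exact zpow_ne_zero _ (hv0 x' P _ hx'0 h2 (hval x' P h2))
  rw [hL, hR, W2] at W1
  exact mul_right_cancel₀ hne W1

end Fermat.Agent.S27
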