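import Fermat.Agent.S27.h6w_Norm
import Fermat.Agent.S27.h6w_Sep
import Fermat.Agent.S27.h6w_Reduce
import Fermat.Agent.S27.h6w_ChartAsm

/-!
# S27 / B8a WEIL : Weil reciprocity `f(div h) = h(div f)`

`K` algebraically closed (any characteristic), `F / K` a function field with a chart.  For
functions `f, h ≠ 0` with disjoint divisors, `∏_P f(P)^{ord_P h} = ∏_P h(P)^{ord_P f}`
(`h15_weil_reciprocity`).

Route: for a chart `h` the norm `N = N_{F/K(h)} f` satisfies `f(div h) = N(0)/N(∞)` and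
`h(div f) = ∏ a^{ord_a N}` (`h6_norm_fibre`, `h6_weil_chart_of_norm`); a general `h` is
`(h x') / x'` with `x'` and `h x'` charts (`h6_chart_mul`, `h6_weil_reduce`).

Also exported: `h6_ord_norm` (FACT 2: `ord_{Q₀} (N f) = e(Q₀) ∑_{P | a} ord_P f`) from
`h6w_NormOrd.lean`.
-/

set_option autoImplicit false

open AlgebraicCurve IntermediateField

namespace Fermat.Agent.S27

open Fermat.Agent.S18

variable {K F : Type*} [Field K] [Field F] [Algebra K F] [IsAlgClosed K]

/-- **Weil reciprocity** for functions with disjoint divisors. -/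
theorem h15_weil_reciprocity {x : F} (hx : h75_IsChart K x) (f h : F) (hf : f ≠ 0) (hh : h ≠ 0)
    (hdisj : ∀ P : Place K F, P.ord f = 0 ∨ P.ord h = 0)
    (vf vh : Place K F → K) (hvf : ∀ P, P.ord f = 0 → h39_Val P f (vf P))
    (hvh : ∀ P, P.ord h = 0 → h39_Val P h (vh P))
    (Df Dh : Divisor K F) (hDf : ∀ P, Df P = P.ord f) (hDh : ∀ P, Dh P = P.ord h) :
    Dh.prod (fun P n => vf P ^ n) = Df.prod (fun P n => vh P ^ n) :=
  h6_weil_reduce hx (fun h _ hh hnc hx' => h6_chart_mul hx' h hh hnc)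
    (fun f h hf hh => h6_weil_chart_of_norm (fun _ hh f hf => h6_norm_fibre hh f hf) f h hf hh)
    f h hf hh hdisj vf vh hvf hvh Df Dh hDf hDh

end Fermat.Agent.S27
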