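import Fermat.Agent.S27.h3_NormOnto

/-!
# S27, block B8f: PERFECT + NORM for a group action (shape (N) of COUNT-CHARP)

`σ` an element of a group acting additively on `A`; `A_r` = fixed points of `σ ^ r`.
A biadditive pairing `ψ` on `A_r[ℓ] × A_r`, a pairing `ψ'` on `A_{rℓ}[ℓ] × A_{rℓ}` which is
left-nondegenerate on `A_r[ℓ]`, and `ψ'(x, y) = ψ(x, ∑_{a<ℓ} σ^(r a) y)`:
then every `σ^r`-fixed `y` is `∑_{a<ℓ} σ^(r a) x + ℓ z` with `x` fixed by `σ^(r ℓ)` and `z` fixed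
by `σ ^ r`.
-/

set_option autoImplicit false

namespace Fermat.Agent.S27

section

variable {Mo A : Type*} [Group Mo] [AddCommGroup A] [DistribMulAction Mo A]

/-- The subgroup of fixed points of an element. -/
def h3_fixed (τ : Mo) : AddSubgroup A where
  carrier := {c | τ • c = c}
  zero_mem' := smul_zero τ
  add_mem' := fun {a b} ha hb => by
    show τ • (a + b) = a + b
    rw [smul_add, show τ • a = a from ha, show τ • b = b from hb]
  neg_mem' := fun {a} ha => by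
    show τ • (-a) = -a
    rw [smul_neg, show τ • a = a from ha]

theorem h3_mem_fixed (τ : Mo) (c : A) : c ∈ h3_fixed (A := A) τ ↔ τ • c = c := Iff.rfl

/-- The norm `∑_{a<ℓ} σ^(r a)` as an additive endomorphism. -/
def h3_normHom (σ : Mo) (r ℓ : ℕ) : A →+ A :=
  ∑ a ∈ Finset.range ℓ, DistribSMul.toAddMonoidHom A (σ ^ (r * a))

theorem h3_normHom_apply (σ : Mo) (r ℓ : ℕ) (y : A) :
    h3_normHom σ r ℓ y = ∑ a ∈ Finset.range ℓ, σ ^ (r * a) • y := by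
  rw [h3_normHom, AddMonoidHom.finsetSum_apply]
  rfl

/-- The norm of a `σ^(r ℓ)`-fixed element is `σ^r`-fixed. -/
theorem h3_normHom_fixed (σ : Mo) (r ℓ : ℕ) (y : A) (hy : σ ^ (r * ℓ) • y = y) :
    σ ^ r • h3_normHom σ r ℓ y = h3_normHom σ r ℓ y := by
  rw [h3_normHom_apply, Finset.smul_sum]
  have h1 : ∀ a : ℕ, σ ^ r • σ ^ (r * a) • y = σ ^ (r * (a + 1)) • y := fun a => by
    rw [smul_smul, ← pow_add]
    congr 2
    ring
  simp only [h1]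
  have h2 := Finset.sum_range_succ' (fun a => σ ^ (r * a) • y) ℓ
  have h3 := Finset.sum_range_succ (fun a => σ ^ (r * a) • y) ℓ
  have hF0 : σ ^ (r * 0) • y = y := by rw [mul_zero, pow_zero, one_smul]
  rw [h3] at h2
  simp only [hF0, hy] at h2
  exact (add_right_cancel h2).symm

end

/-- **B8f in action form** (values in an additive group with cyclic `ℓ`-torsion). -/
theorem h3_norm_onto_act (ℓ : ℕ) [Fact ℓ.Prime] {Mo A V : Type*} [Group Mo] [AddCommGroup A]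
    [DistribMulAction Mo A] [AddCommGroup V] (σ : Mo) (r : ℕ)
    [Finite {c : A // σ ^ r • c = c}] (ψ ψ' : A → A → V)
    (hadd1 : ∀ x x' y : A, σ ^ r • x = x → σ ^ r • x' = x' → ℓ • x = 0 → ℓ • x' = 0 →
      σ ^ r • y = y → ψ (x + x') y = ψ x y + ψ x' y)
    (hadd2 : ∀ x y y' : A, σ ^ r • x = x → ℓ • x = 0 → σ ^ r • y = y → σ ^ r • y' = y' →
      ψ x (y + y') = ψ x y + ψ x y')
    (hcompat : ∀ x y : A, σ ^ r • x = x → ℓ • x = 0 → σ ^ (r * ℓ) • y = y →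
      ψ' x y = ψ x (∑ a ∈ Finset.range ℓ, σ ^ (r * a) • y))
    (hnd : ∀ x : A, σ ^ r • x = x → ℓ • x = 0 → x ≠ 0 →
      ∃ y : A, σ ^ (r * ℓ) • y = y ∧ ψ' x y ≠ 0)
    (hV : ∀ a b : V, ℓ • a = 0 → ℓ • b = 0 → a ≠ 0 → ∃ n : ℕ, b = n • a)
    (y : A) (hy : σ ^ r • y = y) :
    ∃ x z : A, σ ^ (r * ℓ) • x = x ∧ σ ^ r • z = z ∧
      y = (∑ a ∈ Finset.range ℓ, σ ^ (r * a) • x) + ℓ • z := by
  haveI : Finite (h3_fixed (A := A) (σ ^ r)) := ‹Finite {c : A // σ ^ r • c = c}›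
  obtain ⟨x, hx, z, hz, e⟩ := h3_norm_onto ℓ (h3_fixed (A := A) (σ ^ r))
    (h3_fixed (A := A) (σ ^ (r * ℓ))) (h3_normHom σ r ℓ)
    (fun y hy => h3_normHom_fixed σ r ℓ y hy) ψ ψ'
    hadd1 hadd2
    (fun x y hx hxl hy => by rw [hcompat x y hx hxl hy, h3_normHom_apply])
    (fun x hx hxl hx0 => by
      obtain ⟨y, hy, hne⟩ := hnd x hx hxl hx0
      exact ⟨y, hy, hne⟩)
    hV y hy
  exact ⟨x, z, hx, hz, by rw [e, h3_normHom_apply]⟩

/-- **B8f in action form, values in the units of a field.** -/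
theorem h3_norm_onto_act_units (ℓ : ℕ) [Fact ℓ.Prime] {Mo A k : Type*} [Group Mo]
    [AddCommGroup A] [DistribMulAction Mo A] [Field k] (σ : Mo) (r : ℕ)
    [Finite {c : A // σ ^ r • c = c}] (ψ ψ' : A → A → kˣ)
    (hmul1 : ∀ x x' y : A, σ ^ r • x = x → σ ^ r • x' = x' → ℓ • x = 0 → ℓ • x' = 0 →
      σ ^ r • y = y → ψ (x + x') y = ψ x y * ψ x' y)
    (hmul2 : ∀ x y y' : A, σ ^ r • x = x → ℓ • x = 0 → σ ^ r • y = y → σ ^ r • y' = y' →
      ψ x (y + y') = ψ x y * ψ x y')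
    (hcompat : ∀ x y : A, σ ^ r • x = x → ℓ • x = 0 → σ ^ (r * ℓ) • y = y →
      ψ' x y = ψ x (∑ a ∈ Finset.range ℓ, σ ^ (r * a) • y))
    (hnd : ∀ x : A, σ ^ r • x = x → ℓ • x = 0 → x ≠ 0 →
      ∃ y : A, σ ^ (r * ℓ) • y = y ∧ ψ' x y ≠ 1)
    (y : A) (hy : σ ^ r • y = y) :
    ∃ x z : A, σ ^ (r * ℓ) • x = x ∧ σ ^ r • z = z ∧
      y = (∑ a ∈ Finset.range ℓ, σ ^ (r * a) • x) + ℓ • z := by
  haveI : Finite (h3_fixed (A := A) (σ ^ r)) := ‹Finite {c : A // σ ^ r • c = c}›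
  obtain ⟨x, hx, z, hz, e⟩ := h3_norm_onto_units ℓ (h3_fixed (A := A) (σ ^ r))
    (h3_fixed (A := A) (σ ^ (r * ℓ))) (h3_normHom σ r ℓ)
    (fun y hy => h3_normHom_fixed σ r ℓ y hy) ψ ψ'
    hmul1 hmul2
    (fun x y hx hxl hy => by rw [hcompat x y hx hxl hy, h3_normHom_apply])
    (fun x hx hxl hx0 => by
      obtain ⟨y, hy, hne⟩ := hnd x hx hxl hx0
      exact ⟨y, hy, hne⟩)
    y hy
  exact ⟨x, z, hx, hz, by rw [e, h3_normHom_apply]⟩

end Fermat.Agent.S27
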