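/-
S27 / B8 PAIR (T4) NORM, hypothesis form (helper76).

Assembly of the Tate pairing (T1 existence, T1' bilinearity / nonvanishing, T2 norm
compatibility), its left-nondegeneracy (T3) and helper3's abstract norm lemma
(`h3_norm_onto_act_units`) into the block export NORM in the shape (N) consumed by the
COUNT-CHARP assembly.  The four inputs (T1)-(T3) are named hypotheses `hT1 ... hT3`, quantified
over all Frobenius structures on the fixed function field (they are the statements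
`h76_tate_exists`, `h76_tate_ne_zero`, `h76_tate_mul_left`, `h76_tate_mul_right`,
`h76_tate_compat`, `h76_tate_nondeg` of the B8 sub-skeleton).  Finiteness of the fixed classes
comes from B6 (`h73_class_count`).
-/
import Fermat.Agent.S27.h76_TateDefs
import Fermat.Agent.S27.h3_NormAct
import Fermat.Agent.S27.FrobClass
import Fermat.Agent.S27.RRFull

set_option autoImplicit false

noncomputable section

open AlgebraicCurve Fermat.Agent.S18

namespace Fermat.Agent.S27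

universe u v

/-! ### Arithmetic of the levels -/

theorem h76_dvd_pow_mul_sub_one {ℓ p e : ℕ} (h : ℓ ∣ p ^ e - 1) (s : ℕ) :
    ℓ ∣ p ^ (e * s) - 1 := by
  exact h.trans (Nat.pow_sub_one_dvd_pow_sub_one p (Dvd.intro s rfl))

theorem h76_dvd_pow_sub_one_of_ne {ℓ p : ℕ} [hℓ : Fact ℓ.Prime] [hp : Fact p.Prime]
    (hne : ℓ ≠ p) {n : ℕ} (hn : ℓ - 1 ∣ n) : ℓ ∣ p ^ n - 1 := by
  have hcop : Nat.Coprime p ℓ := by
    rw [Nat.coprime_comm]
    exact (Nat.coprime_primes hℓ.out hp.out).mpr hne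
  have h1 : p ^ (ℓ - 1) ≡ 1 [MOD ℓ] := by
    have := Nat.ModEq.pow_totient hcop
    rwa [Nat.totient_prime hℓ.out] at this
  obtain ⟨m, rfl⟩ := hn
  have h2 : p ^ ((ℓ - 1) * m) ≡ 1 [MOD ℓ] := by
    rw [pow_mul]
    have := h1.pow m
    rwa [one_pow] at this
  exact (Nat.modEq_iff_dvd' (Nat.one_le_pow _ _ hp.out.pos)).mp h2.symm

/-! ### Group-action bookkeeping -/

section Act

variable {Mo A : Type*} [Group Mo] [AddCommGroup A] [DistribMulAction Mo A]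

theorem h76_pow_smul_fixed {M α : Type*} [Monoid M] [MulAction M α] (σ : M) (c : α)
    (h : σ • c = c) (n : ℕ) : σ ^ n • c = c := by
  induction n with
  | zero => rw [pow_zero, one_smul]
  | succ n ih => rw [pow_succ, mul_smul, h, ih]

theorem h76_smul_norm_fixed (σ : Mo) (s : ℕ) (d : A) (hd : σ ^ s • d = d) :
    σ • (∑ i ∈ Finset.range s, σ ^ i • d) = ∑ i ∈ Finset.range s, σ ^ i • d := by
  rw [Finset.smul_sum]
  have h1 : ∀ i : ℕ, σ • σ ^ i • d = σ ^ (i + 1) • d := fun i => by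
    rw [smul_smul, ← pow_succ']
  simp only [h1]
  have h2 := Finset.sum_range_succ' (fun i => σ ^ i • d) s
  have h3 := Finset.sum_range_succ (fun i => σ ^ i • d) s
  rw [h3] at h2
  simp only [pow_zero, one_smul, hd] at h2
  exact (add_right_cancel h2).symm

end Act

variable {K : Type u} {F : Type v} [Field K] [Field F] [Algebra K F]
variable [IsAlgClosed K] (p : ℕ) [Fact p.Prime] [CharP K p]

/-- the unit-valued version of a `K`-valued pairing -/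
def h76_unitize (ψ : Pic0 K F → Pic0 K F → K) (c d : Pic0 K F) : Kˣ := by
  classical exact if h : ψ c d = 0 then 1 else Units.mk0 (ψ c d) h

omit [IsAlgClosed K] in
theorem h76_unitize_coe (ψ : Pic0 K F → Pic0 K F → K) (c d : Pic0 K F) (h : ψ c d ≠ 0) :
    (h76_unitize ψ c d : K) = ψ c d := by
  unfold h76_unitize
  rw [dif_neg h]
  rfl

/-- finitely many fixed classes (B6, row 494, with the constant `l = g + 1` in degree `2g`). -/
theorem h76_fixed_classes_finite {x : F} (hx : h75_IsChart K x) {e : ℕ} {σ : h57_SemiAut K F}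
    (hσ : h76_FrobStr p e σ) (P₀ : Place K F) (hP₀ : σ • P₀ = P₀) :
    Finite {c : Pic0 K F // σ • c = c} := by
  refine (h73_class_count (p := p) hx hσ.pos σ hσ.frob hσ.periodic P₀ hP₀ (2 * h75_genus K x)
    (fun _ => h75_genus K x + 1) (fun D₀ => ?_)).1
  have hdeg : Divisor.degree ((D₀ : Divisor K F)
      + Finsupp.single P₀ ((2 * h75_genus K x : ℕ) : ℤ)) = 2 * (h75_genus K x : ℤ) := by
    rw [map_add, Divisor.degree_single, h75_deg_eq_one hx P₀, Divisor.mem_degZero.mp D₀.2]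
    push_cast
    ring
  have h := h15_finrank_rr_of_deg hx ((D₀ : Divisor K F)
      + Finsupp.single P₀ ((2 * h75_genus K x : ℕ) : ℤ)) (by rw [hdeg]; omega)
  rw [hdeg] at h
  have h' : (Module.finrank K (riemannRochSpace ((D₀ : Divisor K F)
      + Finsupp.single P₀ ((2 * h75_genus K x : ℕ) : ℤ))) : ℤ)
      = ((h75_genus K x + 1 : ℕ) : ℤ) := by
    rw [h]
    push_cast
    ring
  exact_mod_cast h'.symm

/-! ### The inputs (T1)-(T3) as predicates on the function field -/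

/-- (T1) existence of the Tate pairing at every level. -/
def h76_HypT1 (p : ℕ) (K : Type u) (F : Type v) [Field K] [Field F] [Algebra K F] (ℓ : ℕ) :
    Prop :=
  ∀ (e : ℕ) (σ : h57_SemiAut K F), h76_FrobStr p e σ → ℓ ∣ p ^ e - 1 →
    ∃ ψ : Pic0 K F → Pic0 K F → K, h76_IsTate p e σ ℓ ψ

/-- (T1') nonvanishing and bimultiplicativity of every Tate pairing. -/
def h76_HypT1' (p : ℕ) (K : Type u) (F : Type v) [Field K] [Field F] [Algebra K F] (ℓ : ℕ) :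
    Prop :=
  ∀ (e : ℕ) (σ : h57_SemiAut K F), h76_FrobStr p e σ → ℓ ∣ p ^ e - 1 →
    ∀ ψ : Pic0 K F → Pic0 K F → K, h76_IsTate p e σ ℓ ψ →
      (∀ c d : Pic0 K F, σ • c = c → ℓ • c = 0 → σ • d = d → ψ c d ≠ 0) ∧
      (∀ c c' d : Pic0 K F, σ • c = c → ℓ • c = 0 → σ • c' = c' → ℓ • c' = 0 → σ • d = d →
        ψ (c + c') d = ψ c d * ψ c' d) ∧
      (∀ c d d' : Pic0 K F, σ • c = c → ℓ • c = 0 → σ • d = d → σ • d' = d' →
        ψ c (d + d') = ψ c d * ψ c d')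

/-- (T2) compatibility of the Tate pairings with the norm. -/
def h76_HypT2 (p : ℕ) (K : Type u) (F : Type v) [Field K] [Field F] [Algebra K F] (ℓ : ℕ) :
    Prop :=
  ∀ (e : ℕ) (σ : h57_SemiAut K F), h76_FrobStr p e σ → ℓ ∣ p ^ e - 1 →
    ∀ s : ℕ, 0 < s → ∀ ψ ψs : Pic0 K F → Pic0 K F → K, h76_IsTate p e σ ℓ ψ →
      h76_IsTate p (e * s) (σ ^ s) ℓ ψs →
      ∀ c d : Pic0 K F, σ • c = c → ℓ • c = 0 → (σ ^ s) • d = d →
        ψs c d = ψ c (∑ i ∈ Finset.range s, (σ ^ i) • d)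

/-- (T3) left nondegeneracy at some level. -/
def h76_HypT3 (p : ℕ) (K : Type u) (F : Type v) [Field K] [Field F] [Algebra K F] (ℓ : ℕ) :
    Prop :=
  ∀ (e : ℕ) (σ : h57_SemiAut K F), h76_FrobStr p e σ → ℓ ∣ p ^ e - 1 →
    ∀ c : Pic0 K F, σ • c = c → ℓ • c = 0 → c ≠ 0 →
      ∃ s : ℕ, 0 < s ∧ ∃ d : Pic0 K F, (σ ^ s) • d = d ∧
        ∀ ψs : Pic0 K F → Pic0 K F → K, h76_IsTate p (e * s) (σ ^ s) ℓ ψs → ψs c d ≠ 1

/-- **NORM at one level**, from (T1)-(T3). -/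
theorem h76_norm_level_of {x : F} (hx : h75_IsChart K x) {e : ℕ} {σ : h57_SemiAut K F}
    (hσ : h76_FrobStr p e σ) (P₀ : Place K F) (hP₀ : σ • P₀ = P₀)
    (ℓ : ℕ) [Fact ℓ.Prime] (hdiv : ℓ ∣ p ^ e - 1)
    (hT1 : h76_HypT1 p K F ℓ) (hT1' : h76_HypT1' p K F ℓ) (hT2 : h76_HypT2 p K F ℓ)
    (hT3 : h76_HypT3 p K F ℓ)
    (y : Pic0 K F) (hy : σ • y = y) :
    ∃ x' z : Pic0 K F, (σ ^ ℓ) • x' = x' ∧ σ • z = z ∧
      y = (∑ a ∈ Finset.range ℓ, (σ ^ a) • x') + ℓ • z := by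
  have hℓpos : 0 < ℓ := (Fact.out : ℓ.Prime).pos
  have hσℓ : h76_FrobStr p (e * ℓ) (σ ^ ℓ) := hσ.pow hℓpos
  have hdivℓ : ℓ ∣ p ^ (e * ℓ) - 1 := h76_dvd_pow_mul_sub_one hdiv ℓ
  obtain ⟨ψ, hψ⟩ := hT1 e σ hσ hdiv
  obtain ⟨ψ', hψ'⟩ := hT1 (e * ℓ) (σ ^ ℓ) hσℓ hdivℓ
  have : Finite {c : Pic0 K F // σ ^ 1 • c = c} := by
    have := h76_fixed_classes_finite p hx hσ P₀ hP₀
    simpa only [pow_one] using this
  obtain ⟨hne, hml, hmr⟩ := hT1' e σ hσ hdiv ψ hψ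
  obtain ⟨hne', -, -⟩ := hT1' (e * ℓ) (σ ^ ℓ) hσℓ hdivℓ ψ' hψ'
  have key := h3_norm_onto_act_units ℓ σ 1 (h76_unitize ψ) (h76_unitize ψ') ?_ ?_ ?_ ?_ y
    (by rwa [pow_one])
  · obtain ⟨x', z, h1, h2, h3⟩ := key
    refine ⟨x', z, by simpa only [one_mul] using h1, by simpa only [pow_one] using h2, ?_⟩
    simpa only [one_mul] using h3
  · -- multiplicativity in the first variable
    intro c c' d hc hc' hℓc hℓc' hd
    rw [pow_one] at hc hc' hd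
    have hcc' : σ • (c + c') = c + c' := by rw [smul_add, hc, hc']
    have hℓcc' : ℓ • (c + c') = 0 := by rw [nsmul_add, hℓc, hℓc', add_zero]
    apply Units.ext
    rw [Units.val_mul, h76_unitize_coe ψ _ _ (hne _ _ hcc' hℓcc' hd),
      h76_unitize_coe ψ _ _ (hne _ _ hc hℓc hd), h76_unitize_coe ψ _ _ (hne _ _ hc' hℓc' hd)]
    exact hml c c' d hc hℓc hc' hℓc' hd
  · -- multiplicativity in the second variable
    intro c d d' hc hℓc hd hd'
    rw [pow_one] at hc hd hd'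
    have hdd' : σ • (d + d') = d + d' := by rw [smul_add, hd, hd']
    apply Units.ext
    rw [Units.val_mul, h76_unitize_coe ψ _ _ (hne _ _ hc hℓc hdd'),
      h76_unitize_coe ψ _ _ (hne _ _ hc hℓc hd), h76_unitize_coe ψ _ _ (hne _ _ hc hℓc hd')]
    exact hmr c d d' hc hℓc hd hd'
  · -- compatibility with the norm
    intro c d hc hℓc hd
    rw [pow_one] at hc
    rw [one_mul] at hd
    simp only [one_mul]
    have hcℓ : σ ^ ℓ • c = c := h76_pow_smul_fixed σ c hc ℓ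
    have hN : σ • (∑ i ∈ Finset.range ℓ, σ ^ i • d) = ∑ i ∈ Finset.range ℓ, σ ^ i • d :=
      h76_smul_norm_fixed σ ℓ d hd
    apply Units.ext
    rw [h76_unitize_coe ψ' _ _ (hne' _ _ hcℓ hℓc hd), h76_unitize_coe ψ _ _ (hne _ _ hc hℓc hN)]
    exact hT2 e σ hσ hdiv ℓ hℓpos ψ ψ' hψ hψ' c d hc hℓc hd
  · -- left nondegeneracy of the upper pairing
    intro c hc hℓc hc0
    rw [pow_one] at hc
    simp only [one_mul]
    have hcℓ : σ ^ ℓ • c = c := h76_pow_smul_fixed σ c hc ℓ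
    obtain ⟨s, hs, d, hd, hnd⟩ := hT3 (e * ℓ) (σ ^ ℓ) hσℓ hdivℓ c hcℓ hℓc hc0
    have hσℓs : h76_FrobStr p (e * ℓ * s) ((σ ^ ℓ) ^ s) := hσℓ.pow hs
    obtain ⟨ψs, hψs⟩ := hT1 (e * ℓ * s) ((σ ^ ℓ) ^ s) hσℓs (h76_dvd_pow_mul_sub_one hdivℓ s)
    have hcomp := hT2 (e * ℓ) (σ ^ ℓ) hσℓ hdivℓ s hs ψ' ψs hψ' hψs c d hcℓ hℓc hd
    have hNd : σ ^ ℓ • (∑ i ∈ Finset.range s, (σ ^ ℓ) ^ i • d)
        = ∑ i ∈ Finset.range s, (σ ^ ℓ) ^ i • d := h76_smul_norm_fixed (σ ^ ℓ) s d hd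
    refine ⟨∑ i ∈ Finset.range s, (σ ^ ℓ) ^ i • d, hNd, fun h1 => hnd ψs hψs ?_⟩
    rw [hcomp, ← h76_unitize_coe ψ' _ _ (hne' _ _ hcℓ hℓc hNd), h1, Units.val_one]

/-- **NORM** (export of block B8, hypothesis form): shape (N) of the COUNT-CHARP assembly. -/
theorem h76_norm_onto_of {x : F} (hx : h75_IsChart K x) {e : ℕ} (he : 0 < e)
    (σ : h57_SemiAut K F) (hσ : h57_IsFrob (p ^ e) σ) (hper : h73_Periodic σ)
    (P₀ : Place K F) (hP₀ : σ • P₀ = P₀) (ℓ : ℕ) [Fact ℓ.Prime] (hℓ : ℓ ≠ p)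
    (hT1 : h76_HypT1 p K F ℓ) (hT1' : h76_HypT1' p K F ℓ) (hT2 : h76_HypT2 p K F ℓ)
    (hT3 : h76_HypT3 p K F ℓ) :
    ∃ r₁ : ℕ, 0 < r₁ ∧ ∀ r : ℕ, 0 < r → r₁ ∣ r → ∀ y : Pic0 K F, σ ^ r • y = y →
      ∃ x' z : Pic0 K F, σ ^ (r * ℓ) • x' = x' ∧
        y = (∑ a ∈ Finset.range ℓ, σ ^ (r * a) • x') + ℓ • z := by
  have hℓ2 : 2 ≤ ℓ := (Fact.out : ℓ.Prime).two_le
  refine ⟨ℓ - 1, by omega, fun r hr hdvd y hy => ?_⟩
  have hS : h76_FrobStr p e σ := h76_frobStr_of he hσ hper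
  have hSr : h76_FrobStr p (e * r) (σ ^ r) := hS.pow hr
  have hdiv : ℓ ∣ p ^ (e * r) - 1 :=
    h76_dvd_pow_sub_one_of_ne hℓ (Dvd.dvd.mul_left hdvd e)
  have hP₀r : σ ^ r • P₀ = P₀ := h76_pow_smul_fixed σ P₀ hP₀ r
  obtain ⟨x', z, h1, -, h3⟩ :=
    h76_norm_level_of p hx hSr P₀ hP₀r ℓ hdiv hT1 hT1' hT2 hT3 y hy
  refine ⟨x', z, by rwa [← pow_mul] at h1, ?_⟩
  simpa only [← pow_mul] using h3

end Fermat.Agent.S27
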