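/-
S27 / B8c (T1') TATE-BIL + (T2) COMPAT (row 521, helper97): consequences of the Tate formula
`h76_IsTate` -- nonvanishing, additivity in both variables, compatibility with the norm.
Statements verbatim from helper76's sub-skeleton (`h76_SkelPair.lean`, v2).  No WEIL.
-/
import Fermat.Agent.S27.h76_TateDefs
import Fermat.Agent.S27.PairInv

set_option autoImplicit false
set_option linter.unusedSectionVars false

noncomputable section

open AlgebraicCurve Fermat.Agent.S18

namespace Fermat.Agent.S27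

universe u v

variable {K : Type u} {F : Type v} [Field K] [Field F] [Algebra K F]
variable [IsAlgClosed K] (p : ℕ) [Fact p.Prime] [CharP K p]

omit [Field K] [Field F] [Algebra K F] [IsAlgClosed K] in
/-- a point fixed by `g` is fixed by every power of `g` -/
theorem h97_pow_smul_fixed {M α : Type*} [Monoid M] [MulAction M α] {g : M} {a : α}
    (h : g • a = a) (n : ℕ) : g ^ n • a = a := by
  induction n with
  | zero => rw [pow_zero, one_smul]
  | succ n ih => rw [pow_succ, mul_smul, h, ih]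

/-- a fixed `ℓ`-torsion class is the class of an invariant divisor `D` with `ℓ D = div f`,
`f` an invariant function (no fixed place needed) -/
theorem h97_tors_rep {x : F} (hx : h75_IsChart K x) {e : ℕ} {σ : h57_SemiAut K F}
    (hσ : h76_FrobStr p e σ) (ℓ : ℕ) (c : Pic0 K F) (hc : σ • c = c) (hℓc : ℓ • c = 0) :
    ∃ (D : Divisor.degZero (K := K) (F := F)) (f : F), Pic0.mk D = c ∧
      σ • (D : Divisor K F) = D ∧ f ≠ 0 ∧ (σ : F ≃+* F) f = f ∧
      ∀ P : Place K F, P.ord f = ℓ * (D : Divisor K F) P := by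
  obtain ⟨D, rfl, hD⟩ := h76_inv_class p hx hσ c hc
  have hprin : ℓ • (D : Divisor K F) ∈ Divisor.principal (K := K) (F := F) := by
    have h1 : Pic0.mk (ℓ • D) = Pic0.mk 0 := by
      have : Pic0.mk (ℓ • D) = ℓ • Pic0.mk D := by
        unfold Pic0.mk
        rfl
      rw [this, hℓc]
      rfl
    rw [h57_mk_eq_mk_iff] at h1
    have h2 : ((0 : Divisor.degZero (K := K) (F := F)) : Divisor K F)
        - ((ℓ • D : Divisor.degZero (K := K) (F := F)) : Divisor K F)
        = -(ℓ • (D : Divisor K F)) := by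
      push_cast
      abel
    rw [h2] at h1
    exact (AddSubgroup.neg_mem_iff _).mp h1
  obtain ⟨f, hf0, hf, hfD⟩ := h76_inv_principal p hx hσ (ℓ • (D : Divisor K F))
    (by rw [smul_comm, hD]) hprin
  refine ⟨D, f, rfl, hD, hf0, hf, fun P => ?_⟩
  rw [← hfD P, Finsupp.smul_apply, nsmul_eq_mul]

omit [IsAlgClosed K] in
/-- `f` with `div f = ℓ D` is a unit on the support of any divisor disjoint from `D` -/
theorem h97_unit_of_disj {ℓ : ℕ} {D E : Divisor K F} {f : F}
    (hord : ∀ P : Place K F, P.ord f = ℓ * D P)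
    (hdisj : ∀ P : Place K F, D P ≠ 0 → E P = 0) (P : Place K F) (hP : E P ≠ 0) :
    P.ord f = 0 := by
  have h : D P = 0 := by
    by_contra h
    exact hP (hdisj P h)
  rw [hord P, h, mul_zero]

/-! ### (T1') TATE-BIL -/

theorem h76_tate_ne_zero {x : F} (hx : h75_IsChart K x) {e : ℕ} {σ : h57_SemiAut K F}
    (hσ : h76_FrobStr p e σ) (ℓ : ℕ) [Fact ℓ.Prime] (hdiv : ℓ ∣ p ^ e - 1)
    {ψ : Pic0 K F → Pic0 K F → K} (hψ : h76_IsTate p e σ ℓ ψ) (c d : Pic0 K F)
    (hc : σ • c = c) (hℓc : ℓ • c = 0) (hd : σ • d = d) : ψ c d ≠ 0 := by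
  classical
  obtain ⟨D, f, rfl, hD, hf0, hf, hord⟩ := h97_tors_rep p hx hσ ℓ c hc hℓc
  obtain ⟨E, rfl, hE, hES⟩ := h76_inv_move p hx hσ d hd (D : Divisor K F).support
  have hdisj : ∀ P : Place K F, (D : Divisor K F) P ≠ 0 → (E : Divisor K F) P = 0 :=
    fun P hP => hES P (Finsupp.mem_support_iff.mpr hP)
  rw [(h76_isTate_iff.mp hψ) D E f hD hE hdisj hf0 hf hord]
  exact pow_ne_zero _ (h92_evDiv_ne_zero hx hf0 _ (h97_unit_of_disj hord hdisj))

theorem h76_tate_mul_left {x : F} (hx : h75_IsChart K x) {e : ℕ} {σ : h57_SemiAut K F}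
    (hσ : h76_FrobStr p e σ) (ℓ : ℕ) [Fact ℓ.Prime] (hdiv : ℓ ∣ p ^ e - 1)
    {ψ : Pic0 K F → Pic0 K F → K} (hψ : h76_IsTate p e σ ℓ ψ) (c c' d : Pic0 K F)
    (hc : σ • c = c) (hℓc : ℓ • c = 0) (hc' : σ • c' = c') (hℓc' : ℓ • c' = 0)
    (hd : σ • d = d) : ψ (c + c') d = ψ c d * ψ c' d := by
  classical
  obtain ⟨D, f, rfl, hD, hf0, hf, hord⟩ := h97_tors_rep p hx hσ ℓ c hc hℓc
  obtain ⟨D', f', rfl, hD', hf0', hf', hord'⟩ := h97_tors_rep p hx hσ ℓ c' hc' hℓc'
  obtain ⟨E, rfl, hE, hES⟩ := h76_inv_move p hx hσ d hd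
    ((D : Divisor K F).support ∪ (D' : Divisor K F).support)
  have hdisj : ∀ P : Place K F, (D : Divisor K F) P ≠ 0 → (E : Divisor K F) P = 0 :=
    fun P hP => hES P (Finset.mem_union_left _ (Finsupp.mem_support_iff.mpr hP))
  have hdisj' : ∀ P : Place K F, (D' : Divisor K F) P ≠ 0 → (E : Divisor K F) P = 0 :=
    fun P hP => hES P (Finset.mem_union_right _ (Finsupp.mem_support_iff.mpr hP))
  have hcoe : ((D + D' : Divisor.degZero (K := K) (F := F)) : Divisor K F)
      = (D : Divisor K F) + (D' : Divisor K F) := rfl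
  have hdisj2 : ∀ P : Place K F,
      ((D + D' : Divisor.degZero (K := K) (F := F)) : Divisor K F) P ≠ 0 →
        (E : Divisor K F) P = 0 := by
    intro P hP
    by_contra hEP
    apply hP
    have h1 : (D : Divisor K F) P = 0 := by
      by_contra h
      exact hEP (hdisj P h)
    have h2 : (D' : Divisor K F) P = 0 := by
      by_contra h
      exact hEP (hdisj' P h)
    rw [hcoe, Finsupp.add_apply, h1, h2, add_zero]
  have hord2 : ∀ P : Place K F, P.ord (f * f')
      = ℓ * ((D + D' : Divisor.degZero (K := K) (F := F)) : Divisor K F) P := by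
    intro P
    rw [P.ord_mul hf0 hf0', hord P, hord' P, hcoe, Finsupp.add_apply, mul_add]
  have hsm : σ • ((D + D' : Divisor.degZero (K := K) (F := F)) : Divisor K F)
      = ((D + D' : Divisor.degZero (K := K) (F := F)) : Divisor K F) := by
    rw [hcoe, smul_add, hD, hD']
  have h1 := (h76_isTate_iff.mp hψ) D E f hD hE hdisj hf0 hf hord
  have h2 := (h76_isTate_iff.mp hψ) D' E f' hD' hE hdisj' hf0' hf' hord'
  have h3 := (h76_isTate_iff.mp hψ) (D + D') E (f * f') hsm hE hdisj2 (mul_ne_zero hf0 hf0')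
    (by rw [map_mul, hf, hf']) hord2
  have hadd : Pic0.mk (D + D') = Pic0.mk D + Pic0.mk D' := rfl
  rw [← hadd, h1, h2, h3, h92_evDiv_mul hx hf0 hf0' _ (h97_unit_of_disj hord hdisj)
    (h97_unit_of_disj hord' hdisj'), mul_pow]

theorem h76_tate_mul_right {x : F} (hx : h75_IsChart K x) {e : ℕ} {σ : h57_SemiAut K F}
    (hσ : h76_FrobStr p e σ) (ℓ : ℕ) [Fact ℓ.Prime] (hdiv : ℓ ∣ p ^ e - 1)
    {ψ : Pic0 K F → Pic0 K F → K} (hψ : h76_IsTate p e σ ℓ ψ) (c d d' : Pic0 K F)
    (hc : σ • c = c) (hℓc : ℓ • c = 0) (hd : σ • d = d) (hd' : σ • d' = d') :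
    ψ c (d + d') = ψ c d * ψ c d' := by
  classical
  obtain ⟨D, f, rfl, hD, hf0, hf, hord⟩ := h97_tors_rep p hx hσ ℓ c hc hℓc
  obtain ⟨E, rfl, hE, hES⟩ := h76_inv_move p hx hσ d hd (D : Divisor K F).support
  obtain ⟨E', rfl, hE', hES'⟩ := h76_inv_move p hx hσ d' hd' (D : Divisor K F).support
  have hdisj : ∀ P : Place K F, (D : Divisor K F) P ≠ 0 → (E : Divisor K F) P = 0 :=
    fun P hP => hES P (Finsupp.mem_support_iff.mpr hP)
  have hdisj' : ∀ P : Place K F, (D : Divisor K F) P ≠ 0 → (E' : Divisor K F) P = 0 :=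
    fun P hP => hES' P (Finsupp.mem_support_iff.mpr hP)
  have hcoe : ((E + E' : Divisor.degZero (K := K) (F := F)) : Divisor K F)
      = (E : Divisor K F) + (E' : Divisor K F) := rfl
  have hdisj2 : ∀ P : Place K F, (D : Divisor K F) P ≠ 0 →
      ((E + E' : Divisor.degZero (K := K) (F := F)) : Divisor K F) P = 0 := by
    intro P hP
    rw [hcoe, Finsupp.add_apply, hdisj P hP, hdisj' P hP, add_zero]
  have hsm : σ • ((E + E' : Divisor.degZero (K := K) (F := F)) : Divisor K F)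
      = ((E + E' : Divisor.degZero (K := K) (F := F)) : Divisor K F) := by
    rw [hcoe, smul_add, hE, hE']
  have h1 := (h76_isTate_iff.mp hψ) D E f hD hE hdisj hf0 hf hord
  have h2 := (h76_isTate_iff.mp hψ) D E' f hD hE' hdisj' hf0 hf hord
  have h3 := (h76_isTate_iff.mp hψ) D (E + E') f hD hsm hdisj2 hf0 hf hord
  have hadd : Pic0.mk (E + E') = Pic0.mk E + Pic0.mk E' := rfl
  rw [← hadd, h1, h2, h3, hcoe, h92_evDiv_add hx hf0 _ _ (h97_unit_of_disj hord hdisj)
    (h97_unit_of_disj hord hdisj'), mul_pow]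

/-! ### (T2) COMPAT -/

theorem h76_tate_compat {x : F} (hx : h75_IsChart K x) {e : ℕ} {σ : h57_SemiAut K F}
    (hσ : h76_FrobStr p e σ) (ℓ : ℕ) [Fact ℓ.Prime] (hdiv : ℓ ∣ p ^ e - 1) {s : ℕ} (hs : 0 < s)
    {ψ ψs : Pic0 K F → Pic0 K F → K} (hψ : h76_IsTate p e σ ℓ ψ)
    (hψs : h76_IsTate p (e * s) (σ ^ s) ℓ ψs) (c d : Pic0 K F)
    (hc : σ • c = c) (hℓc : ℓ • c = 0) (hd : (σ ^ s) • d = d) :
    ψs c d = ψ c (∑ i ∈ Finset.range s, (σ ^ i) • d) := by
  classical
  obtain ⟨D, f, rfl, hD, hf0, hf, hord⟩ := h97_tors_rep p hx hσ ℓ c hc hℓc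
  obtain ⟨E, rfl, hE, hES⟩ := h76_inv_move p hx (hσ.pow hs) d hd (D : Divisor K F).support
  have hdisj : ∀ P : Place K F, (D : Divisor K F) P ≠ 0 → (E : Divisor K F) P = 0 :=
    fun P hP => hES P (Finsupp.mem_support_iff.mpr hP)
  have hDs : ∀ i : ℕ, (σ ^ i) • (D : Divisor K F) = D := fun i => h97_pow_smul_fixed hD i
  have hfs : ∀ i : ℕ, ((σ ^ i : h57_SemiAut K F) : F ≃+* F) f = f := fun i => by
    rw [h57_coe_pow_apply]
    exact Function.iterate_fixed hf i
  -- the formula at level `s`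
  have h1 := (h76_isTate_iff.mp hψs) D E f (hDs s) hE hdisj hf0 (hfs s) hord
  -- the norm divisor
  obtain ⟨NE, hNE⟩ : ∃ NE : Divisor.degZero (K := K) (F := F),
      NE = ∑ i ∈ Finset.range s, h57_degZeroSMulHom (σ ^ i) E := ⟨_, rfl⟩
  have hNEcoe : (NE : Divisor K F) = ∑ i ∈ Finset.range s, (σ ^ i) • (E : Divisor K F) := by
    rw [hNE]
    exact map_sum (Divisor.degZero (K := K) (F := F)).subtype _ _
  have hmk : Pic0.mk NE = ∑ i ∈ Finset.range s, (σ ^ i) • Pic0.mk E := by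
    rw [hNE]
    have key : ∀ t : Finset ℕ, Pic0.mk (∑ i ∈ t, h57_degZeroSMulHom (σ ^ i) E)
        = ∑ i ∈ t, (σ ^ i) • Pic0.mk E := by
      intro t
      induction t using Finset.induction_on with
      | empty =>
        rw [Finset.sum_empty, Finset.sum_empty]
        rfl
      | insert a t ha ih =>
        rw [Finset.sum_insert ha, Finset.sum_insert ha, ← ih, h57_smul_mk]
        rfl
    exact key _
  have hNEinv : σ • (NE : Divisor K F) = NE := by
    rw [hNEcoe, Finset.smul_sum]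
    have e1 : ∑ i ∈ Finset.range s, σ • (σ ^ i) • (E : Divisor K F)
        = ∑ i ∈ Finset.range s, (σ ^ (i + 1)) • (E : Divisor K F) :=
      Finset.sum_congr rfl (fun i _ => by rw [pow_succ', mul_smul])
    rw [e1]
    have e2 := Finset.sum_range_succ (fun i => (σ ^ i) • (E : Divisor K F)) s
    have e3 := Finset.sum_range_succ' (fun i => (σ ^ i) • (E : Divisor K F)) s
    rw [e2, hE, pow_zero, one_smul] at e3
    exact (add_right_cancel e3).symm
  have hunit : ∀ (i : ℕ) (P : Place K F), ((σ ^ i) • (E : Divisor K F)) P ≠ 0 →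
      (D : Divisor K F) P = 0 := by
    intro i P hP
    rw [h57_smul_apply] at hP
    by_contra h
    apply hP
    apply hdisj
    have h2 := h57_smul_apply (σ ^ i) (D : Divisor K F) P
    rw [hDs i] at h2
    rw [← h2]
    exact h
  have hdisjN : ∀ P : Place K F, (D : Divisor K F) P ≠ 0 → (NE : Divisor K F) P = 0 := by
    intro P hP
    rw [hNEcoe, Finsupp.finsetSum_apply]
    refine Finset.sum_eq_zero (fun i _ => ?_)
    by_contra h
    exact hP (hunit i P h)
  have hval : h92_evDiv f (NE : Divisor K F)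
      = h92_evDiv f (E : Divisor K F) ^ (∑ i ∈ Finset.range s, (p ^ e) ^ i) := by
    rw [hNEcoe, ← Finset.prod_pow_eq_pow_sum]
    have key : ∀ t : Finset ℕ, h92_evDiv f (∑ i ∈ t, (σ ^ i) • (E : Divisor K F))
        = ∏ i ∈ t, h92_evDiv f ((σ ^ i) • (E : Divisor K F)) := by
      intro t
      induction t using Finset.induction_on with
      | empty => rw [Finset.sum_empty, Finset.prod_empty, h92_evDiv_zero]
      | insert a t ha ih =>
        rw [Finset.sum_insert ha, Finset.prod_insert ha, h92_evDiv_add hx hf0 _ _ ?_ ?_, ih]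
        · intro P hP
          rw [hord P, hunit a P hP, mul_zero]
        · intro P hP
          rw [Finsupp.finsetSum_apply] at hP
          obtain ⟨i, _, hi⟩ := Finset.exists_ne_zero_of_sum_ne_zero hP
          rw [hord P, hunit i P hi, mul_zero]
    rw [key]
    exact Finset.prod_congr rfl (fun i _ => h92_evDiv_pow_smul hσ.frob hf _ i)
  have h2 := (h76_isTate_iff.mp hψ) D NE f hD hNEinv hdisjN hf0 hf hord
  rw [← hmk, h1, h2, hval, ← pow_mul]
  congr 1
  obtain ⟨m, hm⟩ := hdiv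
  have hq : 1 ≤ p ^ e := Nat.one_le_pow _ _ (Fact.out : p.Prime).pos
  have hℓ : 0 < ℓ := (Fact.out : ℓ.Prime).pos
  have hgeo := geom_sum_mul_add (p ^ e - 1) s
  rw [Nat.sub_add_cancel hq] at hgeo
  have e1 : p ^ (e * s) - 1 = ℓ * ((∑ i ∈ Finset.range s, (p ^ e) ^ i) * m) := by
    rw [pow_mul, ← hgeo, Nat.add_sub_cancel, hm]
    ring
  rw [e1, hm, Nat.mul_div_cancel_left _ hℓ, Nat.mul_div_cancel_left _ hℓ]

end Fermat.Agent.S27
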