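/-
S27 / B8 PAIR (T4) NORM (helper76): the block export NORM from the two remaining inputs
(T1) `h76_HypT1` (existence of the Tate pairing = TATE-WD, needs WEIL) and
(T3) `h76_HypT3` (left nondegeneracy); (T1') and (T2) are discharged by `h97_TateBil`.
-/
import Fermat.Agent.S27.h76_NormOf
import Fermat.Agent.S27.h97_TateBil

set_option autoImplicit false

noncomputable section

open AlgebraicCurve Fermat.Agent.S18

namespace Fermat.Agent.S27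

universe u v

variable {K : Type u} {F : Type v} [Field K] [Field F] [Algebra K F]
variable [IsAlgClosed K] (p : ℕ) [Fact p.Prime] [CharP K p]

theorem h76_hypT1' {x : F} (hx : h75_IsChart K x) (ℓ : ℕ) [Fact ℓ.Prime] :
    h76_HypT1' p K F ℓ := fun _ _ hσ hdiv _ hψ =>
  ⟨fun c d hc hℓc hd => h76_tate_ne_zero p hx hσ ℓ hdiv hψ c d hc hℓc hd,
    fun c c' d hc hℓc hc' hℓc' hd =>
      h76_tate_mul_left p hx hσ ℓ hdiv hψ c c' d hc hℓc hc' hℓc' hd,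
    fun c d d' hc hℓc hd hd' => h76_tate_mul_right p hx hσ ℓ hdiv hψ c d d' hc hℓc hd hd'⟩

theorem h76_hypT2 {x : F} (hx : h75_IsChart K x) (ℓ : ℕ) [Fact ℓ.Prime] :
    h76_HypT2 p K F ℓ := fun _ _ hσ hdiv _ hs _ _ hψ hψs c d hc hℓc hd =>
  h76_tate_compat p hx hσ ℓ hdiv hs hψ hψs c d hc hℓc hd

/-- **NORM** (shape (N)) from (T1) and (T3). -/
theorem h76_norm_onto_of' {x : F} (hx : h75_IsChart K x) {e : ℕ} (he : 0 < e)
    (σ : h57_SemiAut K F) (hσ : h57_IsFrob (p ^ e) σ) (hper : h73_Periodic σ)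
    (P₀ : Place K F) (hP₀ : σ • P₀ = P₀) (ℓ : ℕ) [Fact ℓ.Prime] (hℓ : ℓ ≠ p)
    (hT1 : h76_HypT1 p K F ℓ) (hT3 : h76_HypT3 p K F ℓ) :
    ∃ r₁ : ℕ, 0 < r₁ ∧ ∀ r : ℕ, 0 < r → r₁ ∣ r → ∀ y : Pic0 K F, σ ^ r • y = y →
      ∃ x' z : Pic0 K F, σ ^ (r * ℓ) • x' = x' ∧
        y = (∑ a ∈ Finset.range ℓ, σ ^ (r * a) • x') + ℓ • z :=
  h76_norm_onto_of p hx he σ hσ hper P₀ hP₀ ℓ hℓ hT1 (h76_hypT1' p hx ℓ) (h76_hypT2 p hx ℓ) hT3

end Fermat.Agent.S27
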