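import Fermat.Agent.S27.h76_TateDefs
import Fermat.Agent.S27.h92_Move
import Fermat.Agent.S27.h57_InvFun
import Fermat.Agent.S27.FrobPer
import Fermat.Agent.S27.h6w_Defs

/-!
# S27 / B8c-T1 TATE-WD (helper92, row 520): the Tate formula is well defined on classes

`σ` a periodic `p ^ e`-Frobenius structure (`h76_FrobStr p e σ`), `q = p ^ e`, `ℓ ∣ q - 1`,
`m = (q - 1) / ℓ`.  For `σ`-invariant divisors `D`, `E` with disjoint supports and a `σ`-fixed
function `f` with `div f = ℓ D` the number `f(E) ^ m` depends only on the classes of `D` and `E`: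

* `h92_tate_change_E` : change of `E` (Weil reciprocity: `f(div h) = h(D) ^ ℓ`, `h(D) ∈ 𝔽_q`);
* `h92_tate_change_D` : change of `(D, f)` (`f' = c f g ^ ℓ`, `c ∈ 𝔽_q`, `g(E) ∈ 𝔽_q`, `deg E = 0`);
* `h92_tate_indep` : the general case, through an intermediate `E''` (moving lemma `h92_move_div`);
* `h92_tate_exists_of_weil` : `∃ ψ, h76_IsTate p e σ ℓ ψ`, with Weil reciprocity
  (`h6_WeilAt`, the statement of row 480) as a hypothesis.
-/

set_option autoImplicit false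
set_option linter.unusedSectionVars false

open AlgebraicCurve

namespace Fermat.Agent.S27

open Fermat.Agent.S18

universe u v

variable {K : Type u} {F : Type v} [Field K] [Field F] [Algebra K F]

/-- Weil reciprocity for the pair `(f, h)` in terms of `h92_evDiv`: `f(div h) = h(div f)`. -/
theorem h92_weil_evDiv [IsAlgClosed K] {x : F} (hx : h75_IsChart K x) {f h : F}
    (hweil : h6_WeilAt K f h) (hf0 : f ≠ 0) (hh0 : h ≠ 0)
    (hdisj : ∀ P : Place K F, P.ord f = 0 ∨ P.ord h = 0) (Df Dh : Divisor K F)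
    (hDf : ∀ P, Df P = P.ord f) (hDh : ∀ P, Dh P = P.ord h) :
    h92_evDiv f Dh = h92_evDiv h Df :=
  hweil hdisj (fun P => h92_ev P f) (fun P => h92_ev P h)
    (fun P hP => h92_val_ev hx P (h92_mem_of_ord_eq_zero P hf0 hP))
    (fun P hP => h92_val_ev hx P (h92_mem_of_ord_eq_zero P hh0 hP)) Df Dh hDf hDh

theorem h92_pow_pred_eq_one {a : K} {q : ℕ} (hq : 0 < q) (ha0 : a ≠ 0) (ha : a ^ q = a) :
    a ^ (q - 1) = 1 := by
  have h1 : a ^ (q - 1) * a = a := by rw [← pow_succ, Nat.sub_add_cancel hq, ha]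
  exact mul_right_cancel₀ ha0 (by rw [h1, one_mul])

section Tate

variable [IsAlgClosed K] (p : ℕ) [Fact p.Prime] [CharP K p]

/-- **change of `E`**: `f(E') ^ m = f(E) ^ m` for linearly equivalent invariant `E`, `E'` off
the support of `D`. -/
theorem h92_tate_change_E {x : F} (hx : h75_IsChart K x) {e : ℕ} {σ : h57_SemiAut K F}
    (hσ : h76_FrobStr p e σ) (ℓ : ℕ) (hdiv : ℓ ∣ p ^ e - 1)
    (hweil : ∀ f h : F, f ≠ 0 → h ≠ 0 → h6_WeilAt K f h)
    (D E E' : Divisor K F) (f : F) (hD : σ • D = D) (hE : σ • E = E) (hE' : σ • E' = E')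
    (hDE : ∀ P : Place K F, D P ≠ 0 → E P = 0) (hDE' : ∀ P : Place K F, D P ≠ 0 → E' P = 0)
    (hf0 : f ≠ 0) (_hf : (σ : F ≃+* F) f = f) (hfD : ∀ P : Place K F, P.ord f = ℓ * D P)
    (hEE' : E' - E ∈ Divisor.principal (K := K) (F := F)) :
    h92_evDiv f E' ^ ((p ^ e - 1) / ℓ) = h92_evDiv f E ^ ((p ^ e - 1) / ℓ) := by
  have hinv : σ • (E' - E) = E' - E := by rw [smul_sub, hE', hE]
  obtain ⟨h, hh0, hhfix, hh⟩ :=
    h57_exists_fixed_fun p e hσ.pos hx σ hσ.frob (E' - E) hinv hEE'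
  have hordf0 : ∀ P : Place K F, D P = 0 → P.ord f = 0 := fun P hP => by
    rw [hfD, hP, mul_zero]
  have hordh0 : ∀ P : Place K F, D P ≠ 0 → P.ord h = 0 := fun P hP => by
    rw [← hh, Finsupp.sub_apply, hDE P hP, hDE' P hP, sub_zero]
  have hdisj : ∀ P : Place K F, P.ord f = 0 ∨ P.ord h = 0 := fun P => by
    by_cases hP : D P = 0
    · exact Or.inl (hordf0 P hP)
    · exact Or.inr (hordh0 P hP)
  have hw := h92_weil_evDiv hx (hweil f h hf0 hh0) hf0 hh0 hdisj ((ℓ : ℤ) • D) (E' - E)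
    (fun P => by rw [Finsupp.smul_apply, smul_eq_mul, hfD]) (fun P => hh P)
  rw [h92_evDiv_zsmul, zpow_natCast] at hw
  have ha0 : h92_evDiv h D ≠ 0 := h92_evDiv_ne_zero hx hh0 D hordh0
  have ha : h92_evDiv h D ^ (p ^ e) = h92_evDiv h D := h92_evDiv_fixed hσ.frob hhfix hD
  have ha1 := h92_pow_pred_eq_one (pow_pos (Fact.out : p.Prime).pos e) ha0 ha
  have hsplit : h92_evDiv f E' = h92_evDiv f E * h92_evDiv f (E' - E) := by
    have h1 : E' = E + (E' - E) := by abel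
    conv_lhs => rw [h1]
    refine h92_evDiv_add hx hf0 E (E' - E) (fun P hP => hordf0 P ?_) (fun P hP => hordf0 P ?_)
    · by_contra hD0
      exact hP (hDE P hD0)
    · by_contra hD0
      exact hP (by rw [Finsupp.sub_apply, hDE P hD0, hDE' P hD0, sub_zero])
  rw [hsplit, hw, mul_pow, ← pow_mul, Nat.mul_div_cancel' hdiv, ha1, mul_one]

/-- **change of `(D, f)`**: `f'(E) ^ m = f(E) ^ m` for linearly equivalent invariant `D`, `D'`
off the support of an invariant `E` of degree zero. -/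
theorem h92_tate_change_D {x : F} (hx : h75_IsChart K x) {e : ℕ} {σ : h57_SemiAut K F}
    (hσ : h76_FrobStr p e σ) (ℓ : ℕ) (hdiv : ℓ ∣ p ^ e - 1)
    (D D' E : Divisor K F) (f f' : F) (hD : σ • D = D) (hD' : σ • D' = D') (hE : σ • E = E)
    (hEdeg : Divisor.degree E = 0)
    (hDE : ∀ P : Place K F, D P ≠ 0 → E P = 0) (hD'E : ∀ P : Place K F, D' P ≠ 0 → E P = 0)
    (hf0 : f ≠ 0) (hf : (σ : F ≃+* F) f = f) (hfD : ∀ P : Place K F, P.ord f = ℓ * D P)
    (hf'0 : f' ≠ 0) (hf' : (σ : F ≃+* F) f' = f')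
    (hf'D : ∀ P : Place K F, P.ord f' = ℓ * D' P)
    (hDD' : D' - D ∈ Divisor.principal (K := K) (F := F)) :
    h92_evDiv f' E ^ ((p ^ e - 1) / ℓ) = h92_evDiv f E ^ ((p ^ e - 1) / ℓ) := by
  have hinv : σ • (D' - D) = D' - D := by rw [smul_sub, hD', hD]
  obtain ⟨g, hg0, hgfix, hg⟩ :=
    h57_exists_fixed_fun p e hσ.pos hx σ hσ.frob (D' - D) hinv hDD'
  have hgl0 : g ^ ℓ ≠ 0 := pow_ne_zero ℓ hg0
  have hfg0 : f * g ^ ℓ ≠ 0 := mul_ne_zero hf0 hgl0
  have hfgfix : (σ : F ≃+* F) (f * g ^ ℓ) = f * g ^ ℓ := by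
    rw [map_mul, map_pow, hf, hgfix]
  have hordgl : ∀ P : Place K F, P.ord (g ^ ℓ) = ℓ * P.ord g := fun P => by
    rw [← zpow_natCast, P.ord_zpow]
  have hord : ∀ P : Place K F, P.ord f' = P.ord (f * g ^ ℓ) := fun P => by
    rw [P.ord_mul hf0 hgl0, hordgl, hf'D, hfD, ← hg, Finsupp.sub_apply]
    ring
  obtain ⟨c, hc0, -, hc⟩ :=
    h57_fixed_fun_unique p e hx σ hσ.frob hf'0 hfg0 hf' hfgfix hord
  have hEf : ∀ P : Place K F, E P ≠ 0 → P.ord f = 0 := fun P hP => by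
    have h1 : D P = 0 := by
      by_contra h
      exact hP (hDE P h)
    rw [hfD, h1, mul_zero]
  have hEg : ∀ P : Place K F, E P ≠ 0 → P.ord g = 0 := fun P hP => by
    have h1 : D P = 0 := by
      by_contra h
      exact hP (hDE P h)
    have h2 : D' P = 0 := by
      by_contra h
      exact hP (hD'E P h)
    rw [← hg, Finsupp.sub_apply, h1, h2, sub_zero]
  have hEgl : ∀ P : Place K F, E P ≠ 0 → P.ord (g ^ ℓ) = 0 := fun P hP => by
    rw [hordgl, hEg P hP, mul_zero]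
  have hEfg : ∀ P : Place K F, E P ≠ 0 → P.ord (f * g ^ ℓ) = 0 := fun P hP => by
    rw [P.ord_mul hf0 hgl0, hEf P hP, hEgl P hP, add_zero]
  have hb0 : h92_evDiv g E ≠ 0 := h92_evDiv_ne_zero hx hg0 E hEg
  have hb : h92_evDiv g E ^ (p ^ e) = h92_evDiv g E := h92_evDiv_fixed hσ.frob hgfix hE
  have hb1 := h92_pow_pred_eq_one (pow_pos (Fact.out : p.Prime).pos e) hb0 hb
  rw [hc, h92_evDiv_const_mul hx hc0 hfg0 E hEfg, hEdeg, zpow_zero, one_mul,
    h92_evDiv_mul hx hf0 hgl0 E hEf hEgl, h92_evDiv_pow hx hg0 E hEg, mul_pow, ← pow_mul,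
    Nat.mul_div_cancel' hdiv, hb1, mul_one]

/-- **independence**: `f(E) ^ m` depends only on the classes of `D` and `E`. -/
theorem h92_tate_indep {x : F} (hx : h75_IsChart K x) {e : ℕ} {σ : h57_SemiAut K F}
    (hσ : h76_FrobStr p e σ) (ℓ : ℕ) (hdiv : ℓ ∣ p ^ e - 1)
    (hweil : ∀ f h : F, f ≠ 0 → h ≠ 0 → h6_WeilAt K f h)
    (D E D' E' : Divisor K F) (f f' : F)
    (hD : σ • D = D) (hE : σ • E = E) (hEdeg : Divisor.degree E = 0)
    (hDE : ∀ P : Place K F, D P ≠ 0 → E P = 0)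
    (hf0 : f ≠ 0) (hf : (σ : F ≃+* F) f = f) (hfD : ∀ P : Place K F, P.ord f = ℓ * D P)
    (hD' : σ • D' = D') (hE' : σ • E' = E')
    (hD'E' : ∀ P : Place K F, D' P ≠ 0 → E' P = 0)
    (hf'0 : f' ≠ 0) (hf' : (σ : F ≃+* F) f' = f')
    (hf'D : ∀ P : Place K F, P.ord f' = ℓ * D' P)
    (hDD' : D' - D ∈ Divisor.principal (K := K) (F := F))
    (hEE' : E' - E ∈ Divisor.principal (K := K) (F := F)) :
    h92_evDiv f' E' ^ ((p ^ e - 1) / ℓ) = h92_evDiv f E ^ ((p ^ e - 1) / ℓ) := by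
  classical
  obtain ⟨E'', hE''inv, hE''E, hE''S⟩ := h92_move_div hx hσ.one_lt σ hσ.frob
    (fun v => h73_place_periodic hx σ hσ.per v) E hE (D.support ∪ D'.support)
  have hDE'' : ∀ P : Place K F, D P ≠ 0 → E'' P = 0 := fun P hP =>
    hE''S P (Finset.mem_union_left _ (Finsupp.mem_support_iff.mpr hP))
  have hD'E'' : ∀ P : Place K F, D' P ≠ 0 → E'' P = 0 := fun P hP =>
    hE''S P (Finset.mem_union_right _ (Finsupp.mem_support_iff.mpr hP))
  have hE''deg : Divisor.degree E'' = 0 := by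
    obtain ⟨u, hu0, hu⟩ := hE''E
    have h1 := h7_degree_div hx hu0 (E'' - E) hu
    rw [map_sub, hEdeg, sub_zero] at h1
    exact h1
  have hE'E'' : E' - E'' ∈ Divisor.principal (K := K) (F := F) := by
    have h1 : E' - E'' = (E' - E) - (E'' - E) := by abel
    rw [h1]
    exact sub_mem hEE' hE''E
  calc h92_evDiv f' E' ^ ((p ^ e - 1) / ℓ) = h92_evDiv f' E'' ^ ((p ^ e - 1) / ℓ) :=
        h92_tate_change_E p hx hσ ℓ hdiv hweil D' E'' E' f' hD' hE''inv hE' hD'E'' hD'E'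
          hf'0 hf' hf'D hE'E''
    _ = h92_evDiv f E'' ^ ((p ^ e - 1) / ℓ) :=
        h92_tate_change_D p hx hσ ℓ hdiv D D' E'' f f' hD hD' hE''inv hE''deg hDE'' hD'E''
          hf0 hf hfD hf'0 hf' hf'D hDD'
    _ = h92_evDiv f E ^ ((p ^ e - 1) / ℓ) :=
        h92_tate_change_E p hx hσ ℓ hdiv hweil D E E'' f hD hE hE''inv hDE hDE''
          hf0 hf hfD hE''E

end Tate

/-! ### the pairing -/

/-- admissible triples of the Tate formula. -/
def h92_TateAdm (σ : h57_SemiAut K F) (ℓ : ℕ) (D E : Divisor.degZero (K := K) (F := F))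
    (f : F) : Prop :=
  σ • (D : Divisor K F) = D ∧ σ • (E : Divisor K F) = E ∧
    (∀ P : Place K F, (D : Divisor K F) P ≠ 0 → (E : Divisor K F) P = 0) ∧
    f ≠ 0 ∧ (σ : F ≃+* F) f = f ∧ ∀ P : Place K F, P.ord f = ℓ * (D : Divisor K F) P

open scoped Classical in
/-- the Tate pairing: `f(E) ^ ((q - 1) / ℓ)` for a chosen admissible triple (`1` if there is
none). -/
noncomputable def h92_tatePsi (p e : ℕ) (σ : h57_SemiAut K F) (ℓ : ℕ) (c d : Pic0 K F) : K :=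
  if h : ∃ (D E : Divisor.degZero (K := K) (F := F)) (f : F),
      Pic0.mk D = c ∧ Pic0.mk E = d ∧ h92_TateAdm σ ℓ D E f then
    h92_evDiv h.choose_spec.choose_spec.choose (h.choose_spec.choose : Divisor K F)
      ^ ((p ^ e - 1) / ℓ)
  else 1

/-- **TATE-WD** (hypothesis form): the Tate formula defines a pairing on classes, given Weil
reciprocity. -/
theorem h92_tate_exists_of_weil [IsAlgClosed K] (p : ℕ) [Fact p.Prime] [CharP K p] {x : F}
    (hx : h75_IsChart K x) {e : ℕ} {σ : h57_SemiAut K F} (hσ : h76_FrobStr p e σ) (ℓ : ℕ)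
    (hdiv : ℓ ∣ p ^ e - 1) (hweil : ∀ f h : F, f ≠ 0 → h ≠ 0 → h6_WeilAt K f h) :
    ∃ ψ : Pic0 K F → Pic0 K F → K, h76_IsTate p e σ ℓ ψ := by
  classical
  refine ⟨h92_tatePsi p e σ ℓ, ?_⟩
  rw [h76_isTate_iff]
  intro D E f hD hE hDE hf0 hf hfD
  have hex : ∃ (D₁ E₁ : Divisor.degZero (K := K) (F := F)) (f₁ : F),
      Pic0.mk D₁ = Pic0.mk D ∧ Pic0.mk E₁ = Pic0.mk E ∧ h92_TateAdm σ ℓ D₁ E₁ f₁ :=
    ⟨D, E, f, rfl, rfl, hD, hE, hDE, hf0, hf, hfD⟩
  unfold h92_tatePsi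
  rw [dif_pos hex]
  obtain ⟨hD₁, hE₁, hD₁inv, hE₁inv, hD₁E₁, hf₁0, hf₁, hf₁D⟩ :=
    hex.choose_spec.choose_spec.choose_spec
  exact (h92_tate_indep p hx hσ ℓ hdiv hweil _ _ (D : Divisor K F) (E : Divisor K F) _ f
    hD₁inv hE₁inv (Divisor.mem_degZero.mp hex.choose_spec.choose.2) hD₁E₁ hf₁0 hf₁ hf₁D
    hD hE hDE hf0 hf hfD ((h57_mk_eq_mk_iff _ _).mp hD₁) ((h57_mk_eq_mk_iff _ _).mp hE₁)).symm

end Fermat.Agent.S27
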