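/-
S27 / B8 PAIR (T4) NORM (row 524, helper76): the block export, unconditional.

`h76_norm_onto` is the shape (N) consumed by the COUNT-CHARP assembly: for a Frobenius structure
`σ` with a fixed place and a prime `ℓ ≠ p`, for every level `r` divisible by `ℓ - 1`, every
`σ ^ r`-fixed class is a norm from level `r ℓ` modulo `ℓ`.

Inputs: (T1) `h92_tate_exists_of_weil` + `h15_weil_reciprocity` (helper92, helper6),
(T1')/(T2) `h97_TateBil` (helper97), (T3) `h76_tate_nondeg` (helper36; KUMMER helper41, B6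
helper73), abstract norm lemma `h3_norm_onto_act_units` (helper3), assembly `h76_NormOf`.
-/
import Fermat.Agent.S27.h76_NormOf2
import Fermat.Agent.S27.h92_Tate
import Fermat.Agent.S27.Weil
import Fermat.Agent.S27.PairNondeg

set_option autoImplicit false

noncomputable section

open AlgebraicCurve Fermat.Agent.S18

namespace Fermat.Agent.S27

universe u v

variable {K : Type u} {F : Type v} [Field K] [Field F] [Algebra K F]
variable [IsAlgClosed K] (p : ℕ) [Fact p.Prime] [CharP K p]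

/-- (T1) for every level. -/
theorem h76_hypT1 {x : F} (hx : h75_IsChart K x) (ℓ : ℕ) : h76_HypT1 p K F ℓ :=
  fun _ _ hσ hdiv => h92_tate_exists_of_weil p hx hσ ℓ hdiv
    (fun f h hf hh => h15_weil_reciprocity hx f h hf hh)

/-- (T3) for every level. -/
theorem h76_hypT3 {x : F} (hx : h75_IsChart K x) (ℓ : ℕ) [Fact ℓ.Prime] (hℓ : ℓ ≠ p) :
    h76_HypT3 p K F ℓ :=
  fun _ _ hσ hdiv c hc hℓc hc0 => h76_tate_nondeg p hx hσ ℓ hℓ hdiv c hc hℓc hc0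

/-- **NORM at one level** (`ℓ ∣ q - 1`, a fixed place). -/
theorem h76_norm_level {x : F} (hx : h75_IsChart K x) {e : ℕ} {σ : h57_SemiAut K F}
    (hσ : h76_FrobStr p e σ) (P₀ : Place K F) (hP₀ : σ • P₀ = P₀)
    (ℓ : ℕ) [Fact ℓ.Prime] (hℓ : ℓ ≠ p) (hdiv : ℓ ∣ p ^ e - 1)
    (y : Pic0 K F) (hy : σ • y = y) :
    ∃ x' z : Pic0 K F, (σ ^ ℓ) • x' = x' ∧ σ • z = z ∧
      y = (∑ a ∈ Finset.range ℓ, (σ ^ a) • x') + ℓ • z :=
  h76_norm_level_of p hx hσ P₀ hP₀ ℓ hdiv (h76_hypT1 p hx ℓ) (h76_hypT1' p hx ℓ)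
    (h76_hypT2 p hx ℓ) (h76_hypT3 p hx ℓ hℓ) y hy

/-- **NORM** (export of block B8) = shape (N) of the COUNT-CHARP assembly. -/
theorem h76_norm_onto {x : F} (hx : h75_IsChart K x) {e : ℕ} (he : 0 < e)
    (σ : h57_SemiAut K F) (hσ : h57_IsFrob (p ^ e) σ) (hper : h73_Periodic σ)
    (P₀ : Place K F) (hP₀ : σ • P₀ = P₀) (ℓ : ℕ) [Fact ℓ.Prime] (hℓ : ℓ ≠ p) :
    ∃ r₁ : ℕ, 0 < r₁ ∧ ∀ r : ℕ, 0 < r → r₁ ∣ r → ∀ y : Pic0 K F, σ ^ r • y = y →
      ∃ x' z : Pic0 K F, σ ^ (r * ℓ) • x' = x' ∧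
        y = (∑ a ∈ Finset.range ℓ, σ ^ (r * a) • x') + ℓ • z :=
  h76_norm_onto_of' p hx he σ hσ hper P₀ hP₀ ℓ hℓ (h76_hypT1 p hx ℓ) (h76_hypT3 p hx ℓ hℓ)

end Fermat.Agent.S27
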