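import Fermat.Agent.S27.h64_SpecAny

set_option autoImplicit false

/-!
# S27 / SPEC (any rank): assembly in the exact shape of the B5 exports

`h64_spec_any_of`: the statement of `h15_spec_any` from the two B5 exports `h15_lift` and
`h15_lift_inj`, taken as hypotheses in their skeleton shape (`ℕ`-multiples of divisors, the
gluing property of the place reduction as a conjunction).
-/

noncomputable section

namespace Fermat.Agent.S27

open AlgebraicCurve Fermat.Agent.S18

/-- **SPEC (any rank) modulo the two B5 exports** (shapes of `h15_lift`, `h15_lift_inj`). -/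
theorem h64_spec_any_of {K F k Fb : Type*} [Field K] [Field F] [Algebra K F] [Field k] [Field Fb]
    [Algebra k Fb] [IsAlgClosed K] [CharZero K] [IsAlgClosed k] (R : h39_RedDatum K F k Fb)
    {x : F} (hx : h39_Chart R x)
    (hlift : ∀ (S : h39_PlaceRed R)
      (_ : (∃ r : Place K F → Place k Fb, h39_IsChartRed R x r ∧
          ∀ P : Place K F, h39_InDisc R x P → S.r0 P = r P) ∧
        (∃ r' : Place K F → Place k Fb, h39_IsChartRed R x⁻¹ r' ∧
          ∀ P : Place K F, ¬ h39_InDisc R x P → S.r0 P = r' P))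
      (m : ℕ) (_ : (m : k) ≠ 0) (Db : Divisor k Fb) (_ : Divisor.degree Db = 0)
      (_ : m • Db ∈ Divisor.principal (K := k) (F := Fb)),
      ∃ D : Divisor K F, Divisor.degree D = 0 ∧ m • D ∈ Divisor.principal (K := K) (F := F) ∧
        Finsupp.mapDomain S.r0 D - Db ∈ Divisor.principal (K := k) (F := Fb))
    (hinj : ∀ (S : h39_PlaceRed R)
      (_ : (∃ r : Place K F → Place k Fb, h39_IsChartRed R x r ∧
          ∀ P : Place K F, h39_InDisc R x P → S.r0 P = r P) ∧
        (∃ r' : Place K F → Place k Fb, h39_IsChartRed R x⁻¹ r' ∧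
          ∀ P : Place K F, ¬ h39_InDisc R x P → S.r0 P = r' P))
      (m : ℕ) (_ : (m : k) ≠ 0) (D : Divisor K F) (_ : Divisor.degree D = 0)
      (_ : m • D ∈ Divisor.principal (K := K) (F := F))
      (_ : Finsupp.mapDomain S.r0 D ∈ Divisor.principal (K := k) (F := Fb)),
      D ∈ Divisor.principal (K := K) (F := F)) :
    h75_genus k (R.redF x) = h75_genus K x ∧
    ∀ m : ℕ, (m : k) ≠ 0 →
      Nat.card (Pic0.torsion K F m) = Nat.card (Pic0.torsion k Fb m) := by
  refine h64_spec_of_lift_inj R hx fun S h1 h2 m hm => ⟨?_, ?_⟩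
  · intro Db hdeg hDb
    have hDb' : m • Db ∈ Divisor.principal (K := k) (F := Fb) := by
      rwa [natCast_zsmul] at hDb
    obtain ⟨D, hD0, hDm, hDr⟩ := hlift S ⟨h1, h2⟩ m hm Db hdeg hDb'
    exact ⟨D, hD0, by rwa [natCast_zsmul], hDr⟩
  · intro D hdeg hD h0
    have hD' : m • D ∈ Divisor.principal (K := K) (F := F) := by
      rwa [natCast_zsmul] at hD
    exact hinj S ⟨h1, h2⟩ m hm D hdeg hD' h0

end Fermat.Agent.S27
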