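import Mathlib
import Fermat.Prelude.Def_AlgebraicCurve_IsCurveOver
import Fermat.Prelude.Def_AlgebraicCurve_Repartitions
import Fermat.Agent.S18.Defs
import Fermat.Agent.S18.h75_RRDefs
import Fermat.Agent.S18.GR_RedAPI
import Fermat.Agent.S27.h15_DefsAny
import Fermat.Agent.S27.BaseChart
import Fermat.Agent.S27.BaseGenus
import Fermat.Agent.S27.GoodRedAny
import Fermat.Agent.S27.h64_SpecAnyNat
import Fermat.Agent.S27.Lift
import Fermat.Agent.S27.LiftInj
import Fermat.Agent.S27.h95_CountCharpNorm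
import Fermat.Agent.S27.Norm

/-!
# S27, top level (owner helper15): the count of `ℓ`-power torsion of `Pic⁰`

ONE reduction step `(K, F) → (k, Fb)` with `k` algebraic over `𝔽_p`, for an arbitrary
algebraically closed field `K` of characteristic zero (valuation ring of any rank):

* `h15_exists_goodRedAny` (block GOODRED): a good reduction with `p ∤ ℓ`;
* `h15_top_spec` (blocks SPEC + LIFT): reduction preserves the genus and the `m`-torsion count
  (`h64_spec_any_of` with `h15_lift`, `h15_lift_inj`);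
* `h15_top_count_charp` (blocks ZETA + GROUP + PAIR): the count over an algebraic closure of
  `𝔽_p` (`h95_count_charp_of_norm` with `h76_norm_onto`).
-/

set_option autoImplicit false

noncomputable section

open AlgebraicCurve Fermat.Agent.S18

namespace Fermat.Agent.S27

universe u v

/-- **SPEC (any rank).** Good reduction does not change the `m`-torsion count (`m` invertible in
`k`) nor the genus. -/
theorem h15_top_spec {K F k Fb : Type*} [Field K] [Field F] [Algebra K F] [Field k] [Field Fb]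
    [Algebra k Fb] [IsAlgClosed K] [CharZero K] [IsAlgClosed k] (R : h39_RedDatum K F k Fb)
    {x : F} (hx : h39_Chart R x) :
    h75_genus k (R.redF x) = h75_genus K x ∧
    ∀ m : ℕ, (m : k) ≠ 0 →
      Nat.card (Pic0.torsion K F m) = Nat.card (Pic0.torsion k Fb m) :=
  h64_spec_any_of R hx
    (fun S hS m hm Db hdeg hDb => h15_lift R hx S hS m hm Db hdeg hDb)
    (fun S hS m hm D hdeg hD h0 => h15_lift_inj R hx S hS m hm D hdeg hD h0)

/-- **COUNT.** Over an algebraic closure of `𝔽_p`: `#Pic⁰[ℓ^j] = ℓ^(2gj)` for `ℓ ≠ p`. -/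
theorem h15_top_count_charp (p : ℕ) [Fact p.Prime] (k Fb : Type*) [Field k] [IsAlgClosed k]
    [CharP k p] (halg : ∀ a : k, ∃ n : ℕ, 0 < n ∧ a ^ (p ^ n) = a) [Field Fb] [Algebra k Fb]
    (ℓ : ℕ) [Fact ℓ.Prime] (hℓ : ℓ ≠ p) : h15_GoodAny k Fb ℓ :=
  h95_count_charp_of_norm p k Fb halg ℓ hℓ
    (fun _ hx _ he σ hσ hper P₀ hP₀ => h76_norm_onto p hx he σ hσ hper P₀ hP₀ ℓ hℓ)

/-- the count over an arbitrary algebraically closed field of characteristic zero. -/
theorem h15_count_any (ℓ : ℕ) [Fact ℓ.Prime] (K : Type u) (F : Type v) [Field K] [IsAlgClosed K]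
    [CharZero K] [Field F] [Algebra K F] : h15_GoodAny K F ℓ := by
  intro x hx j
  obtain ⟨G, p, hp, hchar, hpm, halg⟩ :=
    h15_exists_goodRedAny K F x hx ℓ (Fact.out : ℓ.Prime).ne_zero
  have hℓp : ℓ ≠ p := by
    rintro rfl
    exact hpm dvd_rfl
  obtain ⟨hg, hcard⟩ := h15_top_spec G.R G.chart
  have hmk : ((ℓ ^ j : ℕ) : G.k) ≠ 0 := by
    rw [Ne, CharP.cast_eq_zero_iff G.k p]
    intro hdvd
    exact hℓp ((Nat.prime_dvd_prime_iff_eq hp.out (Fact.out : ℓ.Prime)).mp
      (hp.out.dvd_of_dvd_pow hdvd)).symm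
  rw [hcard _ hmk,
    h15_top_count_charp p G.k G.Fb halg ℓ hℓp _
      (h39_weakChart_isChart_red G.R G.chart.toh39_WeakChart) j,
    hg, ← h15_genusFF_eq G.isChart, h15_genusFF_eq hx]

/-- **S27.** -/
theorem h15_S27_any (K : Type u) (F : Type v) [Field K] [Field F] [Algebra K F] [IsAlgClosed K]
    [CharZero K] [IsCurveOver K F] [Algebra.EssFiniteType K F]
    (ℓ : ℕ) [Fact ℓ.Prime] (k : ℕ) :
    Nat.card (Pic0.torsion K F (ℓ ^ k)) = ℓ ^ (2 * genusFF K F * k) := by
  obtain ⟨x, hx⟩ := h15_exists_chart (K := K) (F := F)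
  rw [h15_genusFF_eq hx]
  exact h15_count_any ℓ K F x hx k

end Fermat.Agent.S27

end
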