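import Fermat.Agent.S27.h28_FrobEx
import Fermat.Agent.S27.h99_PlacePeriodic

/-!
# S27 / B6-7 FROB-EX : existence of a Frobenius structure with a fixed place (row 498, helper96)

The skeleton statement `h73_exists_frob` (verbatim from `h73_SkelB6.lean`): over an algebraic
closure of `𝔽_p` every function field with a chart `x` has a Frobenius structure of some level
`p ^ e`, `e > 0`, fixing `x` and fixing some place.

Core = helper28's `h28_exists_frob` (a Frobenius structure fixing `x`); a place `P` is fixed by a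
power `σ ^ n` (helper99's `h99_place_periodic`), and `σ ^ n` is a Frobenius structure of level
`p ^ (e * n)` which still fixes `x`.
-/

set_option autoImplicit false

open AlgebraicCurve Fermat.Agent.S18

namespace Fermat.Agent.S27

/-- A Frobenius structure fixing `x` can be replaced by a power that also fixes a place. -/
theorem h96_frob_fix_place {k F : Type*} [Field k] [IsAlgClosed k] [Field F] [Algebra k F]
    {p : ℕ} {x : F} (hx : h75_IsChart k x) (e : ℕ) (he : 0 < e) (σ : h57_SemiAut k F)
    (hσ : h57_IsFrob (p ^ e) σ) (hper : h73_Periodic σ) (hσx : (σ : F ≃+* F) x = x) :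
    ∃ (e' : ℕ) (_ : 0 < e') (σ' : h57_SemiAut k F) (P₀ : Place k F),
      h57_IsFrob (p ^ e') σ' ∧ h73_Periodic σ' ∧ (σ' : F ≃+* F) x = x ∧ σ' • P₀ = P₀ := by
  obtain ⟨P⟩ := h99_nonempty_place hx
  obtain ⟨n, hn, hfix⟩ := h99_place_periodic hx hper P
  refine ⟨e * n, Nat.mul_pos he hn, σ ^ n, P, ?_, hper.pow n, ?_, hfix⟩
  · rw [pow_mul]
    exact hσ.pow n
  · rw [h57_coe_pow_apply]
    exact Function.iterate_fixed hσx n

/-- Over an algebraic closure of `𝔽_p` every function field with a chart `x` has a Frobenius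
structure of some level `p ^ e`, `e > 0`, fixing `x` and fixing some place. -/
theorem h73_exists_frob (p : ℕ) [Fact p.Prime] {k F : Type*} [Field k] [IsAlgClosed k]
    [CharP k p] (halg : ∀ a : k, ∃ n : ℕ, 0 < n ∧ a ^ (p ^ n) = a) [Field F] [Algebra k F]
    {x : F} (hx : h75_IsChart k x) :
    ∃ (e : ℕ) (_ : 0 < e) (σ : h57_SemiAut k F) (P₀ : Place k F),
      h57_IsFrob (p ^ e) σ ∧ h73_Periodic σ ∧ (σ : F ≃+* F) x = x ∧ σ • P₀ = P₀ := by
  obtain ⟨e, σ, he, hσ, hper, hσx⟩ := h28_exists_frob p halg hx
  exact h96_frob_fix_place hx e he σ hσ hper hσx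

end Fermat.Agent.S27
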