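import Fermat.Agent.S27.Trunc

/-!
# S27 / B5 LIFT, row B5e COORD, points (C4) + (C5)   (helper33)

Generic statements about a plane model `(x, y, Φ)` of a function field `F / K`:
`x` a chart, `y` regular on the chart, `Φ ∈ K[X][Y]` monic in `Y` with `Φ(x, y) = 0` and
`1, y, …, y^(n-1)` linearly independent over `K(x)` (`n = deg_Y Φ`).

* `h33_dvd_of_ev2_eq_zero`   : the kernel of `H ↦ H(x, y)` is `(Φ)`;
* `h33_exists_place_of_root` : (C4a) every point `(ξ, η)` of the plane curve `Φ = 0` is the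
  pair of values of `(x, y)` at some place;
* `h33_ord_eq_one_of_not_branch` : (C4b) `x - ξ` is a uniformizer away from the branch values;
* `h33_ord_eq_one_of_den`    : (C4c) `x - ξ` is a uniformizer at a point where the denominator
  `d` does not vanish and `Φ_Y ≠ 0`;
* `h33_place_eq_of_xy`       : (C4c) a place with `d(x(P)) ≠ 0` is determined by its
  `(x, y)`-values;
* `h33_r0_val`, `h33_r0_eq`  : (C5) the reduction of a point of the disc.
* `h33_exists_bezout`, `h33_sep_of_bezout` : `Φ_Y(ξ, η) ≠ 0` where the resultant of `Φ, Φ_Y`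
  does not vanish.
-/

set_option autoImplicit false

open AlgebraicCurve IntermediateField IsDedekindDomain Polynomial

namespace Fermat.Agent.S27

open Fermat.Agent.S18 Fermat.Agent.S24

variable {K F : Type*} [Field K] [Field F] [Algebra K F]

/-! ### The kernel of `H ↦ H(x, y)` -/

/-- the evaluation at a point `(ξ, η)` of the plane, as a ring homomorphism. -/
noncomputable def h33_evPt (ξ η : K) : Polynomial (Polynomial K) →+* K :=
  (Polynomial.evalRingHom ξ).comp (Polynomial.evalRingHom (C η))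

theorem h33_evPt_apply (ξ η : K) (H : Polynomial (Polynomial K)) :
    h33_evPt ξ η H = (H.eval (C η)).eval ξ := rfl

/-- **Kernel.** If `Φ` is monic with `Φ(x, y) = 0` and `1, y, …, y^(deg Φ - 1)` are linearly
independent over `K(x)`, then every `G` with `G(x, y) = 0` is a multiple of `Φ`. -/
theorem h33_dvd_of_ev2_eq_zero {x y : F} (htr : Transcendental K x)
    (Φ : Polynomial (Polynomial K)) (hmon : Φ.Monic) (hroot : h15_ev2 x y Φ = 0)
    (hli : LinearIndependent K⟮x⟯ (fun i : Fin Φ.natDegree => y ^ (i : ℕ)))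
    (G : Polynomial (Polynomial K)) (hG : h15_ev2 x y G = 0) : Φ ∣ G := by
  have hdiv := Polynomial.modByMonic_add_div G Φ
  set r := G %ₘ Φ with hr
  have hr0 : h15_ev2 x y r = 0 := by
    have h1 : h15_ev2 x y G = h15_ev2 x y r + h15_ev2 x y Φ * h15_ev2 x y (G /ₘ Φ) := by
      rw [← h69_ev2_mul, ← h69_ev2_add, hdiv]
    rw [hG, hroot, zero_mul, add_zero] at h1
    exact h1.symm
  suffices hz : r = 0 by
    rw [hz, zero_add] at hdiv
    exact ⟨_, hdiv.symm⟩
  by_contra hne
  have hdeg : r.natDegree < Φ.natDegree :=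
    Polynomial.natDegree_lt_natDegree hne (Polynomial.degree_modByMonic_lt G hmon)
  have hsum : h15_ev2 x y r =
      ∑ i : Fin Φ.natDegree, (aeval x (r.coeff i) : F) * y ^ (i : ℕ) := by
    unfold h15_ev2
    rw [Polynomial.eval₂_eq_sum_range' _ hdeg, ← Fin.sum_univ_eq_sum_range
      (fun i => ((aeval x : K[X] →ₐ[K] F) : K[X] →+* F) (r.coeff i) * y ^ i)]
    rfl
  have hmem : ∀ c : K[X], (aeval x c : F) ∈ K⟮x⟯ := fun c =>
    IntermediateField.algebra_adjoin_le_adjoin K {x} (Polynomial.aeval_mem_adjoin_singleton K x)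
  have hcoef : ∀ i : Fin Φ.natDegree, (⟨aeval x (r.coeff i), hmem _⟩ : K⟮x⟯) = 0 := by
    have h2 : ∑ i : Fin Φ.natDegree,
        (⟨aeval x (r.coeff i), hmem _⟩ : K⟮x⟯) • (y ^ (i : ℕ) : F) = 0 := by
      rw [← hr0, hsum]
      refine Finset.sum_congr rfl fun i _ => ?_
      rw [Algebra.smul_def]
      rfl
    exact Fintype.linearIndependent_iff.mp hli _ h2
  apply hne
  refine Polynomial.ext fun i => ?_
  rw [Polynomial.coeff_zero]
  by_cases hi : i < Φ.natDegree
  · have h3 := congrArg (fun z : K⟮x⟯ => (z : F)) (hcoef ⟨i, hi⟩)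
    simp only [ZeroMemClass.coe_zero] at h3
    have h4 : (aeval x (r.coeff i) : F) = aeval x (0 : K[X]) := by rw [h3, map_zero]
    exact transcendental_iff_injective.mp htr h4
  · exact Polynomial.coeff_eq_zero_of_natDegree_lt (by omega)

/-! ### (C4a) points of the plane model are places -/

/-- **(C4a).** Every point `(ξ, η)` of the plane curve `Φ = 0` is the pair of values of
`(x, y)` at some place of `F`. -/
theorem h33_exists_place_of_root {x : F} (hx : h75_IsChart K x) {y : F} (hy : h39_Reg K x y)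
    (Φ : Polynomial (Polynomial K)) (hmon : Φ.Monic) (hroot : h15_ev2 x y Φ = 0)
    (hli : LinearIndependent K⟮x⟯ (fun i : Fin Φ.natDegree => y ^ (i : ℕ)))
    (ξ η : K) (h0 : (Φ.eval (C η)).eval ξ = 0) :
    ∃ P : Place K F, h39_Val P x ξ ∧ h39_Val P y η := by
  classical
  have := h75_ringB_isDedekindDomain hx
  have := h75_ringB_isFractionRing hx
  have hyB : y ∈ h75_ringB K x := (h64_reg_iff_mem_ringB hx y).mp hy
  have hmemB : ∀ G : Polynomial (Polynomial K), h15_ev2 x y G ∈ h75_ringB K x := by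
    intro G
    induction G using Polynomial.induction_on' with
    | add p q hp hq =>
      rw [h69_ev2_add]
      exact add_mem hp hq
    | monomial j c =>
      rw [h69_ev2_monomial]
      refine mul_mem ?_ (pow_mem hyB j)
      exact (h75_ringB K x).algebraMap_mem
        ⟨aeval x c, Polynomial.aeval_mem_adjoin_singleton K x⟩
  let eB : Polynomial (Polynomial K) →+* h75_ringB K x :=
    { toFun := fun G => ⟨h15_ev2 x y G, hmemB G⟩
      map_one' := Subtype.ext (h69_ev2_one x y)
      map_mul' := fun G H => Subtype.ext (h69_ev2_mul x y G H)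
      map_zero' := Subtype.ext (h69_ev2_zero x y)
      map_add' := fun G H => Subtype.ext (h69_ev2_add x y G H) }
  have heB : ∀ G, ((eB G : h75_ringB K x) : F) = h15_ev2 x y G := fun G => rfl
  let _ : Algebra (Polynomial (Polynomial K)) (h75_ringB K x) := eB.toAlgebra
  have halg : ∀ G, algebraMap (Polynomial (Polynomial K)) (h75_ringB K x) G = eB G :=
    fun G => rfl
  -- integrality of `B` over `K[X][Y]`
  have hint : Algebra.IsIntegral (Polynomial (Polynomial K)) (h75_ringB K x) := by
    refine ⟨fun b => ?_⟩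
    obtain ⟨p, hpm, hp⟩ := b.2
    let j : h75_ringA K x →+* Polynomial (Polynomial K) :=
      (C : K[X] →+* Polynomial (Polynomial K)).comp
        ((Polynomial.algEquivOfTranscendental K x hx.tr).symm : h75_ringA K x →+* K[X])
    refine ⟨p.map j, hpm.map j, ?_⟩
    apply Subtype.ext
    rw [Polynomial.eval₂_map]
    have h1 := Polynomial.hom_eval₂ p ((algebraMap (Polynomial (Polynomial K))
      (h75_ringB K x)).comp j) ((h75_ringB K x).toSubring.subtype) b
    have h2 : ((h75_ringB K x).toSubring.subtype).comp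
        ((algebraMap (Polynomial (Polynomial K)) (h75_ringB K x)).comp j) =
        algebraMap (h75_ringA K x) F := by
      ext a
      show h15_ev2 x y (C ((Polynomial.algEquivOfTranscendental K x hx.tr).symm a)) = (a : F)
      rw [h69_ev2_C]
      have h3 := Polynomial.algEquivOfTranscendental_apply K x hx.tr
        ((Polynomial.algEquivOfTranscendental K x hx.tr).symm a)
      rw [AlgEquiv.apply_symm_apply] at h3
      have h4 : (a : F) = ((aeval (⟨x, Algebra.self_mem_adjoin_singleton K x⟩ :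
          Algebra.adjoin K {x}) ((Polynomial.algEquivOfTranscendental K x hx.tr).symm a) :
          Algebra.adjoin K {x}) : F) := congrArg Subtype.val h3
      rw [h4, Polynomial.aeval_subalgebra_coe]
    rw [h2] at h1
    exact h1.trans hp
  -- the maximal ideal of the point
  have hsurj : Function.Surjective (h33_evPt ξ η) := fun a =>
    ⟨C (C a), by simp [h33_evPt_apply]⟩
  have hmax : (RingHom.ker (h33_evPt ξ η)).IsMaximal :=
    RingHom.ker_isMaximal_of_surjective _ hsurj
  have hker : RingHom.ker (algebraMap (Polynomial (Polynomial K)) (h75_ringB K x)) ≤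
      RingHom.ker (h33_evPt ξ η) := by
    intro G hG
    rw [RingHom.mem_ker] at hG ⊢
    have hG' : h15_ev2 x y G = 0 := by
      rw [halg] at hG
      rw [← heB, hG]
      rfl
    obtain ⟨Q, rfl⟩ := h33_dvd_of_ev2_eq_zero hx.tr Φ hmon hroot hli G hG'
    rw [map_mul, h33_evPt_apply, h0, zero_mul]
  obtain ⟨Q, hQmax, hQ⟩ := Ideal.exists_ideal_over_maximal_of_isIntegral
    (S := h75_ringB K x) (RingHom.ker (h33_evPt ξ η)) hker
  have hxQ : eB (C X - C (C ξ)) ∈ Q := by
    have : (C X - C (C ξ) : Polynomial (Polynomial K)) ∈ RingHom.ker (h33_evPt ξ η) := by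
      rw [RingHom.mem_ker, h33_evPt_apply]
      simp
    rw [← hQ] at this
    exact this
  have hyQ : eB (X - C (C η)) ∈ Q := by
    have : (X - C (C η) : Polynomial (Polynomial K)) ∈ RingHom.ker (h33_evPt ξ η) := by
      rw [RingHom.mem_ker, h33_evPt_apply]
      simp
    rw [← hQ] at this
    exact this
  have hxF : ((eB (C X - C (C ξ)) : h75_ringB K x) : F) = x - algebraMap K F ξ := by
    rw [heB, h69_ev2_sub, h69_ev2_C, h69_ev2_C_C, aeval_X]
  have hyF : ((eB (X - C (C η)) : h75_ringB K x) : F) = y - algebraMap K F η := by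
    rw [heB, h69_ev2_sub, h69_ev2_X, h69_ev2_C_C]
  have hxne : x - algebraMap K F ξ ≠ 0 := by
    intro h
    apply hx.tr
    rw [sub_eq_zero.mp h]
    exact isAlgebraic_algebraMap _
  have hQne : Q ≠ ⊥ := by
    intro hbot
    rw [hbot, Ideal.mem_bot] at hxQ
    apply hxne
    rw [← hxF, hxQ]
    rfl
  let w : HeightOneSpectrum (h75_ringB K x) := ⟨Q, hQmax.isPrime, hQne⟩
  refine ⟨Place.ofHeightOneSpectrum (K := K) (F := F) w, ?_, ?_⟩
  · have h1 := (h64_mem_prime_iff w _).mp hxQ
    rw [hxF] at h1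
    rcases h1 with h1 | h1
    · exact Or.inl (sub_eq_zero.mp h1)
    · exact Or.inr h1
  · have h1 := (h64_mem_prime_iff w _).mp hyQ
    rw [hyF] at h1
    rcases h1 with h1 | h1
    · exact Or.inl (sub_eq_zero.mp h1)
    · exact Or.inr h1

/-! ### (C4b) uniformizers away from the branch values -/

theorem h33_ord_pos_of_val {x : F} (htr : Transcendental K x) (P : Place K F) {ξ : K}
    (hP : h39_Val P x ξ) : 0 < P.ord (x - algebraMap K F ξ) := by
  rcases hP with h | h
  · exact absurd (h ▸ isAlgebraic_algebraMap ξ) htr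
  · exact h

/-- **(C4b).** If `Z` contains all finite branch values of `x` and `ξ ∉ Z`, then `x - ξ` is a
uniformizer at every place where `x` takes the value `ξ`. -/
theorem h33_ord_eq_one_of_not_branch {x : F} (htr : Transcendental K x) (Z : Finset K)
    (hZ : ∀ (P : Place K F) (a : K), 2 ≤ P.ord (x - algebraMap K F a) → a ∈ Z)
    (P : Place K F) {ξ : K} (hP : h39_Val P x ξ) (hξ : ξ ∉ Z) :
    P.ord (x - algebraMap K F ξ) = 1 := by
  have h1 := h33_ord_pos_of_val htr P hP
  by_contra hne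
  exact hξ (hZ P ξ (by omega))

/-! ### (C4c) points where the denominator does not vanish -/

/-- the point `(ξ, η)` of values of `(x, y)` at a place lies on the plane curve. -/
theorem h33_evPt_eq_zero (P : Place K F) {x y : F} {ξ η : K} (hPx : h39_Val P x ξ)
    (hPy : h39_Val P y η) (G : Polynomial (Polynomial K)) (hG : h15_ev2 x y G = 0) :
    (G.eval (C η)).eval ξ = 0 := by
  have h1 := h69_val_ev2 P hPx hPy G
  rw [hG] at h1
  have h2 : h39_Val P (0 : F) (0 : K) := by
    have := h39_val_algebraMap P (0 : K) (F := F)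
    rwa [map_zero] at this
  exact h39_val_unique P h1 h2

theorem h33_ev2_algebraMap (x : F) (η : K) (H : Polynomial (Polynomial K)) :
    h15_ev2 x (algebraMap K F η) H = aeval x (H.eval (C η)) := by
  induction H using Polynomial.induction_on' with
  | add p q hp hq => rw [h69_ev2_add, hp, hq, eval_add, map_add]
  | monomial j c =>
    rw [h69_ev2_monomial, eval_monomial, map_mul, map_pow, aeval_C]

/-- `H(x, y) - H(ξ, η)` vanishes to the order of `x - ξ` at a simple point. -/
theorem h33_ev2_sub_ge (P : Place K F) {x y : F} (Φ : Polynomial (Polynomial K))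
    (hroot : h15_ev2 x y Φ = 0) {ξ η : K} (hPx : h39_Val P x ξ) (hPy : h39_Val P y η)
    (hsm : (Φ.derivative.eval (C η)).eval ξ ≠ 0) (e : ℤ) (he : 0 < e)
    (hte : h69_Ge P (x - algebraMap K F ξ) e) (hpos : 0 < P.ord (x - algebraMap K F ξ))
    (H : Polynomial (Polynomial K)) :
    h69_Ge P (h15_ev2 x y H - algebraMap K F ((H.eval (C η)).eval ξ)) e := by
  have hxm : x ∈ P.toValuationSubring := h39_val_mem P hPx
  have hym : y ∈ P.toValuationSubring := h39_val_mem P hPy
  set t : F := x - algebraMap K F ξ with ht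
  have htm : t ∈ P.toValuationSubring :=
    (h69_ge_zero_iff P t).mp (h69_ge_mono P (by omega) hte)
  -- Step A: `y - η` vanishes to order `e`
  have hye : h69_Ge P (y - algebraMap K F η) e := by
    obtain ⟨Ψ, hΨ, hw⟩ := h69_root_aux P x y Φ hroot ξ η hpos hPy (C η) (by simp)
    have hΨ1 : P.adicValuation Ψ = 1 := h69_adic_eq_one_of_val P hΨ hsm
    have h0 : (h15_sub2 Φ ξ (C η)).coeff 0 = 0 := by
      rw [h69_sub2_coeff_zero, coeff_C_zero]
      exact h33_evPt_eq_zero P hPx hPy Φ hroot
    obtain ⟨q, hq⟩ := Polynomial.X_dvd_iff.mpr h0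
    rw [aeval_C, hq, map_mul, aeval_X] at hw
    have h1 : h69_Ge P (t * aeval t q) e := h69_ge_mul_mem P hte (h35_aeval_mem P htm q)
    have h2 : h69_Ge P ((y - algebraMap K F η) * Ψ) e := by
      rw [hw]
      exact h69_ge_neg P h1
    unfold h69_Ge at h2 ⊢
    rwa [map_mul, hΨ1, mul_one] at h2
  -- Step B
  have hB1 : h69_Ge P (h15_ev2 x y H - h15_ev2 x (algebraMap K F η) H) e := by
    unfold h69_Ge
    exact (h69_ev2_sub_le P hxm hym (P.algebraMap_mem' η) H).trans hye
  have hB2 : h69_Ge P (h15_ev2 x (algebraMap K F η) H -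
      algebraMap K F ((H.eval (C η)).eval ξ)) e := by
    rw [h33_ev2_algebraMap]
    obtain ⟨q, hq⟩ := Polynomial.X_sub_C_dvd_sub_C_eval (a := ξ) (p := H.eval (C η))
    have h3 : aeval x (H.eval (C η)) - algebraMap K F ((H.eval (C η)).eval ξ) =
        t * aeval x q := by
      have := congrArg (aeval x) hq
      rw [map_sub, aeval_C, map_mul, map_sub, aeval_X, aeval_C] at this
      exact this
    rw [h3]
    exact h69_ge_mul_mem P hte (h35_aeval_mem P hxm q)
  have := h69_ge_add P hB1 hB2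
  rwa [sub_add_sub_cancel] at this

/-- **(C4c), uniformizer.** At a place `P` with `(x, y)`-values `(ξ, η)`, `d(ξ) ≠ 0` and
`Φ_Y(ξ, η) ≠ 0`, where `d(x) f ∈ K[x, y]` for all `f` regular on the chart: `x - ξ` is a
uniformizer. -/
theorem h33_ord_eq_one_of_den [IsAlgClosed K] {x : F} (hx : h75_IsChart K x) {y : F}
    (Φ : Polynomial (Polynomial K)) (hroot : h15_ev2 x y Φ = 0) (d : K[X])
    (hden : ∀ f : F, h39_Reg K x f →
      ∃ H : Polynomial (Polynomial K), h15_ev2 x y H = aeval x d * f)
    (P : Place K F) {ξ η : K} (hPx : h39_Val P x ξ) (hPy : h39_Val P y η)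
    (hd : d.eval ξ ≠ 0) (hsm : (Φ.derivative.eval (C η)).eval ξ ≠ 0) :
    P.ord (x - algebraMap K F ξ) = 1 := by
  have hpos := h33_ord_pos_of_val hx.tr P hPx
  set t : F := x - algebraMap K F ξ with ht
  set e : ℤ := P.ord t with he
  have hte : h69_Ge P t e := (h69_ge_iff P t e).mpr (Or.inr le_rfl)
  obtain ⟨π, hπreg, hπ1, -⟩ := h39_exists_uniformizer hx P ξ hPx
  obtain ⟨H, hH⟩ := hden π hπreg
  have hπ0 : π ≠ 0 := by
    rintro rfl
    simp at hπ1
  have hdv : h39_Val P (aeval x d) (d.eval ξ) := h69_val_aeval P hPx d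
  have hd0 : aeval x d ≠ 0 := by
    intro h0
    rw [h0] at hdv
    have h2 : h39_Val P (0 : F) (0 : K) := by
      have := h39_val_algebraMap P (0 : K) (F := F)
      rwa [map_zero] at this
    exact hd (h39_val_unique P hdv h2)
  have hord : P.ord (aeval x d * π) = 1 := by
    rw [P.ord_mul hd0 hπ0, h39_ord_eq_zero_of_val P hdv hd, hπ1, zero_add]
  have hB := h33_ev2_sub_ge P Φ hroot hPx hPy hsm e hpos hte hpos H
  rw [hH] at hB
  have hg1 : h69_Ge P (aeval x d * π) 1 := (h69_ge_iff P _ 1).mpr (Or.inr hord.ge)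
  have hc : (H.eval (C η)).eval ξ = 0 := by
    by_contra hc
    have h1 : h69_Ge P (algebraMap K F ((H.eval (C η)).eval ξ)) 1 := by
      have := h69_ge_sub P hg1 (h69_ge_mono P (show (1 : ℤ) ≤ e by omega) hB)
      rwa [sub_sub_cancel] at this
    rcases (h69_ge_iff P _ 1).mp h1 with h2 | h2
    · exact hc ((_root_.map_eq_zero (algebraMap K F)).mp h2)
    · rw [h35_ord_algebraMap] at h2
      omega
  rw [hc, map_zero, sub_zero] at hB
  rcases (h69_ge_iff P _ e).mp hB with h2 | h2
  · exact absurd h2 (mul_ne_zero hd0 hπ0)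
  · rw [hord] at h2
    omega

/-- **(C4c), uniqueness.** A place with `d(x(P)) ≠ 0` is determined by its `(x, y)`-values. -/
theorem h33_place_eq_of_xy [IsAlgClosed K] {x : F} (hx : h75_IsChart K x) {y : F} (d : K[X])
    (hden : ∀ f : F, h39_Reg K x f →
      ∃ H : Polynomial (Polynomial K), h15_ev2 x y H = aeval x d * f)
    (P P' : Place K F) {ξ η : K} (hPx : h39_Val P x ξ) (hPy : h39_Val P y η)
    (hPx' : h39_Val P' x ξ) (hPy' : h39_Val P' y η) (hd : d.eval ξ ≠ 0) : P = P' := by
  refine h39_place_eq_of_val hx P P' (h39_val_mem P hPx) (h39_val_mem P' hPx') ?_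
  intro f hf b hfb
  obtain ⟨H, hH⟩ := hden f hf
  obtain ⟨b', hb'⟩ := h39_exists_val hx P' (hf P' (h39_val_mem P' hPx'))
  have h1 : h39_Val P (aeval x d * f) (d.eval ξ * b) :=
    h39_val_mul P (h69_val_aeval P hPx d) hfb
  have h2 : h39_Val P' (aeval x d * f) (d.eval ξ * b') :=
    h39_val_mul P' (h69_val_aeval P' hPx' d) hb'
  rw [← hH] at h1 h2
  have e1 := h39_val_unique P h1 (h69_val_ev2 P hPx hPy H)
  have e2 := h39_val_unique P' h2 (h69_val_ev2 P' hPx' hPy' H)
  have : b' = b := mul_left_cancel₀ hd (e2.trans e1.symm)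
  rwa [this] at hb'

/-! ### `Φ_Y ≠ 0` away from the zeros of the resultant -/

/-- Bezout identity for the resultant of `Φ` and `Φ_Y` (coefficient ring arbitrary). -/
theorem h33_exists_bezout {R : Type*} [CommRing R] (Φ : Polynomial R) (hn : 0 < Φ.natDegree) :
    ∃ p q : Polynomial R, Φ * p + derivative Φ * q =
      C (Polynomial.resultant Φ (derivative Φ) Φ.natDegree (Φ.natDegree - 1)) := by
  obtain ⟨p, q, -, -, h⟩ := Polynomial.exists_mul_add_mul_eq_C_resultant (m := Φ.natDegree)
    (n := Φ.natDegree - 1) Φ (derivative Φ) le_rfl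
    (Polynomial.natDegree_derivative_le Φ) (Or.inl hn.ne')
  exact ⟨p, q, h⟩

/-- If `Φ p + Φ_Y q = d(X)`, then `Φ_Y(ξ, η) ≠ 0` at every point `(ξ, η)` of the curve with
`d(ξ) ≠ 0`. -/
theorem h33_sep_of_bezout (Φ p q : Polynomial (Polynomial K)) (d : K[X])
    (h : Φ * p + derivative Φ * q = C d) (ξ η : K) (h0 : (Φ.eval (C η)).eval ξ = 0)
    (hd : d.eval ξ ≠ 0) : (Φ.derivative.eval (C η)).eval ξ ≠ 0 := by
  intro hz
  apply hd
  have h1 := congrArg (h33_evPt ξ η) h
  simp only [map_add, map_mul, h33_evPt_apply] at h1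
  rw [h0, hz, zero_mul, zero_mul, add_zero, eval_C] at h1
  exact h1.symm

/-! ### (C5) the reduction of a point of the disc -/

section Red

variable {k Fb : Type*} [Field k] [Field Fb] [Algebra k Fb]

/-- **(C5).** For a place `P` of the disc with `(x, y)`-values `(ξ, η)`, `ξ ∈ A`, the reduced
place has `(x̄, ȳ)`-values `(res ξ, res η)`. -/
theorem h33_r0_val (R : h39_RedDatum K F k Fb) {x : F} (hxO : x ∈ R.O)
    (r0 : Place K F → Place k Fb)
    (hS : ∃ r : Place K F → Place k Fb, h39_IsChartRed R x r ∧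
      ∀ P : Place K F, h39_InDisc R x P → r0 P = r P)
    {y : F} (hyO : y ∈ R.O) (hy : h39_Reg K x y) (P : Place K F) {ξ η : K} (hξ : ξ ∈ R.A)
    (hPx : h39_Val P x ξ) (hPy : h39_Val P y η) :
    h39_Val (r0 P) (R.redF x) (R.resK ξ) ∧ h39_Val (r0 P) (R.redF y) (R.resK η) := by
  obtain ⟨r, hr, hrS⟩ := hS
  have hdisc : h39_InDisc R x P := ⟨ξ, hξ, hPx⟩
  rw [hrS P hdisc]
  obtain ⟨-, h2⟩ := hr P hdisc
  exact ⟨h2 x hxO (fun _ hP => hP) ξ hPx, h2 y hyO hy η hPy⟩

/-- **(C5), identification.** The reduction of a point `P` of the disc is THE place of the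
reduced curve with values `(res ξ, res η)`, provided `d̄(res ξ) ≠ 0`. -/
theorem h33_r0_eq [IsAlgClosed k] (R : h39_RedDatum K F k Fb) {x : F} (hxO : x ∈ R.O)
    (hxb : h75_IsChart k (R.redF x)) (r0 : Place K F → Place k Fb)
    (hS : ∃ r : Place K F → Place k Fb, h39_IsChartRed R x r ∧
      ∀ P : Place K F, h39_InDisc R x P → r0 P = r P)
    {y : F} (hyO : y ∈ R.O) (hy : h39_Reg K x y) (db : k[X])
    (hden : ∀ fb : Fb, h39_Reg k (R.redF x) fb →
      ∃ Hb : Polynomial (Polynomial k), h15_ev2 (R.redF x) (R.redF y) Hb = aeval (R.redF x) db * fb)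
    (P : Place K F) {ξ η : K} (hξ : ξ ∈ R.A) (hPx : h39_Val P x ξ) (hPy : h39_Val P y η)
    (Q : Place k Fb) (hQx : h39_Val Q (R.redF x) (R.resK ξ))
    (hQy : h39_Val Q (R.redF y) (R.resK η)) (hd : db.eval (R.resK ξ) ≠ 0) : r0 P = Q := by
  obtain ⟨h1, h2⟩ := h33_r0_val R hxO r0 hS hyO hy P hξ hPx hPy
  exact h33_place_eq_of_xy hxb db hden (r0 P) Q h1 h2 hQx hQy hd

end Red

end Fermat.Agent.S27
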