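import Fermat.Agent.S18.GR_ChartPt
import Fermat.Agent.S27.TruncDefs

/-!
# S27 B5e-CO2 KPOINT (helper88): a `K`-point of the plane model is the image of a place

One function field `F / K`, a chart `x`, a function `y` regular on the chart whose powers
`1, y, …, y^(n-1)` (`n = [F : K(x)]`) are a basis of `F / K(x)`, and a monic `Φ ∈ K[X][Y]` of
degree `n` in `Y` with `Φ(x, y) = 0`.  Then every `K`-point `(ξ, η)` of `Φ = 0` is the image
`(x(P), y(P))` of a place `P` (`h2_point_of_root`).

Proof: the kernel of `G ↦ G(x, y)` is `(Φ)` (`h88_dvd_of_ev2_eq_zero`); the chart ring is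
integral over `K[x, y]`, so lying over gives a maximal ideal of the chart ring above the kernel
of `G ↦ G(ξ, η)`; its residue field is `K`, which gives a `K`-point of the chart ring, hence a
place (`h39_exists_place_of_algHom`).
-/

set_option autoImplicit false
set_option linter.style.haveILetI false

noncomputable section

open AlgebraicCurve Fermat.Agent.S18 Polynomial IntermediateField

namespace Fermat.Agent.S27

variable {K F : Type*} [Field K] [Field F] [Algebra K F]

/-- The kernel of `G ↦ G(x, y)` is generated by the monic `Φ` of the right degree. -/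
theorem h88_dvd_of_ev2_eq_zero {x y : F} (hx : Transcendental K x)
    (Φ : Polynomial (Polynomial K)) (hmon : Φ.Monic)
    (hdeg : Φ.natDegree = Module.finrank K⟮x⟯ F) (hroot : h15_ev2 x y Φ = 0)
    (hli : LinearIndependent K⟮x⟯ (fun i : Fin (Module.finrank K⟮x⟯ F) => y ^ (i : ℕ)))
    (G : Polynomial (Polynomial K)) (hG : h15_ev2 x y G = 0) : Φ ∣ G := by
  have hr : h15_ev2 x y (G %ₘ Φ) = 0 := by
    have h1 := Polynomial.modByMonic_add_div G Φ
    have h2 : h15_ev2 x y (G %ₘ Φ + Φ * (G /ₘ Φ)) = 0 := by rw [h1]; exact hG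
    rw [h69_ev2_add, h69_ev2_mul, hroot, zero_mul, add_zero] at h2
    exact h2
  refine (Polynomial.modByMonic_eq_zero_iff_dvd hmon).mp ?_
  obtain ⟨r, hrdef⟩ : ∃ r, r = G %ₘ Φ := ⟨_, rfl⟩
  rw [← hrdef] at hr ⊢
  by_contra hr0
  have hlt : r.natDegree < Module.finrank K⟮x⟯ F := by
    rw [← hdeg]
    refine Polynomial.natDegree_lt_natDegree hr0 ?_
    rw [hrdef]
    exact Polynomial.degree_modByMonic_lt G hmon
  have hsum : h15_ev2 x y r
      = ∑ i ∈ Finset.range (Module.finrank K⟮x⟯ F), aeval x (r.coeff i) * y ^ i :=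
    Polynomial.eval₂_eq_sum_range' _ hlt y
  rw [hsum, Finset.sum_range] at hr
  have hcoe : ∀ c : K[X], algebraMap K⟮x⟯ F (aeval (AdjoinSimple.gen K x) c) = aeval x c := by
    intro c
    rw [← Polynomial.aeval_algebraMap_apply, AdjoinSimple.algebraMap_gen]
  have h0 : ∑ i : Fin (Module.finrank K⟮x⟯ F),
      (aeval (AdjoinSimple.gen K x) (r.coeff i) : K⟮x⟯) • y ^ (i : ℕ) = 0 := by
    rw [← hr]
    refine Finset.sum_congr rfl fun i _ => ?_
    rw [Algebra.smul_def, hcoe]
  have hc := Fintype.linearIndependent_iff.mp hli _ h0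
  apply hr0
  refine Polynomial.ext fun i => ?_
  rw [Polynomial.coeff_zero]
  by_cases hi : i < Module.finrank K⟮x⟯ F
  · have h1 := hc ⟨i, hi⟩
    have h2 : aeval x (r.coeff i) = 0 := by
      rw [← hcoe]
      show algebraMap K⟮x⟯ F (aeval (AdjoinSimple.gen K x) (r.coeff i)) = 0
      rw [h1, map_zero]
    exact (transcendental_iff.mp hx) _ h2
  · exact Polynomial.coeff_eq_zero_of_natDegree_lt (lt_of_lt_of_le hlt (not_lt.mp hi))

/-- Elements integral over `K[x]` are integral along `G ↦ G(x, y)`. -/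
theorem h88_isIntegralElem_ev2 {x : F} (hx : Transcendental K x) (y : F) {f : F}
    (hf : IsIntegral (Algebra.adjoin K {x}) f) :
    (h69_ev2Hom (K := K) x y).IsIntegralElem f := by
  obtain ⟨p, hp, hpf⟩ := hf
  let e : K[X] ≃ₐ[K] Algebra.adjoin K {x} := Polynomial.algEquivOfTranscendental K x hx
  have he : ∀ c : K[X], algebraMap (Algebra.adjoin K {x}) F (e c) = aeval x c := by
    intro c
    show ((aeval (⟨x, Algebra.self_mem_adjoin_singleton K x⟩ : Algebra.adjoin K {x}) c :
      Algebra.adjoin K {x}) : F) = _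
    exact (Subalgebra.aeval_coe _ _ c).symm
  refine ⟨(p.map (e.symm : Algebra.adjoin K {x} →+* K[X])).map (C : K[X] →+* _),
    (hp.map _).map _, ?_⟩
  rw [Polynomial.eval₂_map, Polynomial.eval₂_map]
  have hcomp : ((h69_ev2Hom (K := K) x y).comp (C : K[X] →+* _)).comp
      (e.symm : Algebra.adjoin K {x} →+* K[X]) = algebraMap (Algebra.adjoin K {x}) F := by
    ext a
    show h69_ev2Hom (K := K) x y (C (e.symm a)) = _
    rw [← h69_ev2_eq, h69_ev2_C, ← he, AlgEquiv.apply_symm_apply]
  rw [hcomp]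
  exact hpf

/-- **(CO2) KPOINT.** A `K`-point of the plane model is the image of a place (lying over). -/
theorem h2_point_of_root [IsAlgClosed K] {x y : F} (hx : h75_IsChart K x) (hy : h39_Reg K x y)
    (Φ : Polynomial (Polynomial K)) (hmon : Φ.Monic)
    (hdeg : Φ.natDegree = Module.finrank K⟮x⟯ F) (hroot : h15_ev2 x y Φ = 0)
    (hli : LinearIndependent K⟮x⟯ (fun i : Fin (Module.finrank K⟮x⟯ F) => y ^ (i : ℕ)))
    (ξ η : K) (h0 : (Φ.eval (C η)).eval ξ = 0) :
    ∃ P : Place K F, h39_Val P x ξ ∧ h39_Val P y η := by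
  have hxB : x ∈ h39_chartRing K x := fun P hP => hP
  have hyB : y ∈ h39_chartRing K x := hy
  -- evaluation lands in the chart ring
  have hmem : ∀ G : Polynomial (Polynomial K),
      h69_ev2Hom (K := K) x y G ∈ h39_chartRing K x := by
    intro G
    rw [← h69_ev2_eq]
    induction G using Polynomial.induction_on' with
    | add p q hp hq =>
      rw [h69_ev2_add]
      exact (h39_chartRing K x).add_mem hp hq
    | monomial j c =>
      rw [h69_ev2_monomial]
      refine (h39_chartRing K x).mul_mem ?_ ((h39_chartRing K x).pow_mem hyB j)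
      have h1 : aeval x c = ((aeval (⟨x, hxB⟩ : h39_chartRing K x) c : h39_chartRing K x) : F) :=
        (Subalgebra.aeval_coe (h39_chartRing K x) ⟨x, hxB⟩ c)
      rw [h1]
      exact Subtype.property _
  let ev' : Polynomial (Polynomial K) →+* h39_chartRing K x :=
    RingHom.codRestrict (h69_ev2Hom (K := K) x y) (h39_chartRing K x) hmem
  have hev' : ∀ G, ((ev' G : h39_chartRing K x) : F) = h15_ev2 x y G := fun G => rfl
  let pt : Polynomial (Polynomial K) →+* K := Polynomial.evalEvalRingHom ξ η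
  have hptCC : ∀ a : K, pt (C (C a)) = a := fun a => Polynomial.evalEval_CC ξ η a
  have hptmax : (RingHom.ker pt).IsMaximal :=
    RingHom.ker_isMaximal_of_surjective pt fun a => ⟨C (C a), hptCC a⟩
  -- the kernel of the evaluation at `(x, y)` lies in the kernel of the evaluation at `(ξ, η)`
  have hker : RingHom.ker ev' ≤ RingHom.ker pt := by
    intro G hG
    rw [RingHom.mem_ker] at hG ⊢
    have hG' : h15_ev2 x y G = 0 := by rw [← hev', hG]; rfl
    obtain ⟨q, rfl⟩ := h88_dvd_of_ev2_eq_zero hx.tr Φ hmon hdeg hroot hli G hG'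
    rw [map_mul]
    have : pt Φ = 0 := h0
    rw [this, zero_mul]
  letI : Algebra (Polynomial (Polynomial K)) (h39_chartRing K x) := ev'.toAlgebra
  have hint : Algebra.IsIntegral (Polynomial (Polynomial K)) (h39_chartRing K x) := by
    refine ⟨fun b => ?_⟩
    obtain ⟨p, hp, hpb⟩ := h88_isIntegralElem_ev2 hx.tr y ((h75_isIntegral_iff hx (b : F)).mpr b.2)
    refine ⟨p, hp, ?_⟩
    apply Subtype.ext
    have h1 := Polynomial.hom_eval₂ p ev' (h39_chartRing K x).val.toRingHom b
    exact h1.trans hpb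
  obtain ⟨Q, hQmax, hQ⟩ := Ideal.exists_ideal_over_maximal_of_isIntegral
    (S := h39_chartRing K x) (RingHom.ker pt) hker
  have hQmem : ∀ G : Polynomial (Polynomial K), pt G = 0 → ev' G ∈ Q := by
    intro G hG
    have : G ∈ Q.comap (algebraMap (Polynomial (Polynomial K)) (h39_chartRing K x)) := by
      rw [hQ]
      exact hG
    exact this
  letI := Ideal.Quotient.field Q
  have hevCC : ∀ a : K, ev' (C (C a)) = algebraMap K (h39_chartRing K x) a := by
    intro a
    apply Subtype.ext
    rw [hev', h69_ev2_C_C]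
    rfl
  -- modulo `Q`, evaluation at `(x, y)` is evaluation at `(ξ, η)`
  have hmk : ∀ G : Polynomial (Polynomial K),
      Ideal.Quotient.mk Q (ev' G) = algebraMap K (h39_chartRing K x ⧸ Q) (pt G) := by
    intro G
    have h1 : ev' (G - C (C (pt G))) ∈ Q := by
      apply hQmem
      rw [map_sub, hptCC, sub_self]
    rw [map_sub, hevCC] at h1
    exact Ideal.Quotient.eq.mpr h1
  have hintK : Algebra.IsIntegral K (h39_chartRing K x ⧸ Q) := by
    refine ⟨fun b' => ?_⟩
    obtain ⟨b, rfl⟩ := Ideal.Quotient.mk_surjective b'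
    obtain ⟨p, hp, hpb⟩ := hint.isIntegral b
    refine ⟨p.map pt, hp.map _, ?_⟩
    rw [Polynomial.eval₂_map]
    have hcomp : (algebraMap K (h39_chartRing K x ⧸ Q)).comp pt
        = (Ideal.Quotient.mk Q).comp ev' :=
      RingHom.ext fun G => (hmk G).symm
    rw [hcomp, ← Polynomial.hom_eval₂]
    have hpb' : Polynomial.eval₂ ev' b p = 0 := hpb
    rw [hpb', map_zero]
  have hbij : Function.Bijective (algebraMap K (h39_chartRing K x ⧸ Q)) :=
    IsAlgClosed.algebraMap_bijective_of_isIntegral
  let e : K ≃ₐ[K] (h39_chartRing K x ⧸ Q) :=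
    AlgEquiv.ofBijective (Algebra.ofId K (h39_chartRing K x ⧸ Q)) hbij
  let φ : h39_chartRing K x →ₐ[K] K :=
    (e.symm : (h39_chartRing K x ⧸ Q) →ₐ[K] K).comp (Ideal.Quotient.mkₐ K Q)
  have hφ : ∀ G : Polynomial (Polynomial K), φ (ev' G) = pt G := by
    intro G
    show e.symm (Ideal.Quotient.mk Q (ev' G)) = pt G
    rw [hmk, AlgEquiv.symm_apply_eq]
    rfl
  obtain ⟨P, -, hP⟩ := h39_exists_place_of_algHom hx φ
  refine ⟨P, ?_, ?_⟩
  · have h1 := hP (ev' (C X))
    rw [hφ] at h1
    have h2 : ((ev' (C X) : h39_chartRing K x) : F) = x := by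
      rw [hev', h69_ev2_C, aeval_X]
    have h3 : pt (C X) = ξ := by
      show (C (X : K[X]) : Polynomial (Polynomial K)).evalEval ξ η = ξ
      rw [Polynomial.evalEval_C, Polynomial.eval_X]
    rwa [h2, h3] at h1
  · have h1 := hP (ev' X)
    rw [hφ] at h1
    have h2 : ((ev' X : h39_chartRing K x) : F) = y := by
      rw [hev', h69_ev2_X]
    have h3 : pt X = η := Polynomial.evalEval_X ξ η
    rwa [h2, h3] at h1

end Fermat.Agent.S27

end
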