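import Fermat.Agent.S18.h44_Tame

/-!
# S27 / row 502 (B1b BRANCH, helper94): finitely many branch values of a chart

For a chart `x` of `F / K` (any characteristic; only separability of `F / K(x)` is used) there
are only finitely many `a : K` such that some place `P` has `ord_P (x - a) ≥ 2`.

Proof: `A = K[x]`, `B` = integral closure of `A` in `F` (Dedekind, finite over `A`).  A place
with `ord_P (x - a) ≥ 2` is the place of a prime `w` of `B` with `w ^ 2 ∣ (x - a) B`, hence
`w ∣ differentIdeal A B` (Mathlib `pow_sub_one_dvd_differentIdeal`), and the different is a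
nonzero ideal, so it has finitely many prime divisors; each prime lies over at most one `a`.
-/

set_option autoImplicit false

noncomputable section

open Module nonZeroDivisors IsDedekindDomain AlgebraicCurve IntermediateField WithZero
open Fermat.Agent.S24 Fermat.Agent.S18

namespace Fermat.Agent.S27

open scoped IntermediateField.algebraAdjoinAdjoin

attribute [local instance] FractionRing.liftAlgebra FractionRing.isScalarTower_liftAlgebra

/-- **Row 502 (B1b BRANCH).** A chart has only finitely many branch values. -/
theorem h97_branch_finite {K : Type*} {F : Type*} [Field K] [Field F] [Algebra K F]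
    [IsAlgClosed K] {x : F} (hx : h75_IsChart K x) :
    ∃ Z : Finset K, ∀ (P : Place K F) (a : K), 2 ≤ P.ord (x - algebraMap K F a) → a ∈ Z := by
  classical
  have := h75_ringA_isPrincipalIdealRing hx.tr
  have := h75_ringB_isDedekindDomain hx
  have := h75_ringB_isFractionRing hx
  have := h75_ringB_finite hx
  have := hx.fin
  have := hx.sep
  have : IsScalarTower (h75_ringA K x) (h75_ringB K x) F := Subalgebra.isScalarTower_mid _
  have hsep : Algebra.IsSeparable (FractionRing (h75_ringA K x))
      (FractionRing (h75_ringB K x)) :=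
    h44_isSeparable_fractionRing (h75_ringA K x) K⟮x⟯ F (h75_ringB K x)
  -- the different is a nonzero ideal: finitely many prime divisors
  have hdiff : differentIdeal (h75_ringA K x) (h75_ringB K x) ≠ ⊥ := differentIdeal_ne_bot
  have hfin : {w : HeightOneSpectrum (h75_ringB K x) |
      w.asIdeal ∣ differentIdeal (h75_ringA K x) (h75_ringB K x)}.Finite :=
    Ideal.finite_factors hdiff
  -- the element `x - a` of `B`
  let r : K → h75_ringB K x := fun a =>
    algebraMap (h75_ringA K x) (h75_ringB K x)
      (h75_genA K x - algebraMap K (h75_ringA K x) a)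
  have hrF : ∀ a : K, algebraMap (h75_ringB K x) F (r a) = x - algebraMap K F a := fun a => rfl
  -- each prime lies over at most one value
  have hsub : ∀ w : HeightOneSpectrum (h75_ringB K x),
      {a : K | r a ∈ w.asIdeal}.Subsingleton := by
    intro w a ha a' ha'
    by_contra hne
    have hmem : r a' - r a ∈ w.asIdeal := sub_mem ha' ha
    have hunit : IsUnit (r a' - r a) := by
      have hc : r a' - r a = algebraMap K (h75_ringB K x) (a - a') := by
        apply IsFractionRing.injective (h75_ringB K x) F
        rw [map_sub, hrF, hrF]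
        have h1 : algebraMap (h75_ringB K x) F (algebraMap K (h75_ringB K x) (a - a')) =
            algebraMap K F (a - a') := rfl
        rw [h1, map_sub]
        ring
      rw [hc]
      exact (isUnit_iff_ne_zero.mpr (sub_ne_zero.mpr hne)).map _
    exact w.isPrime.ne_top (Ideal.eq_top_of_isUnit_mem _ hmem hunit)
  have hSfin : (⋃ w ∈ {w : HeightOneSpectrum (h75_ringB K x) |
      w.asIdeal ∣ differentIdeal (h75_ringA K x) (h75_ringB K x)},
        {a : K | r a ∈ w.asIdeal}).Finite :=
    hfin.biUnion fun w _ => (hsub w).finite
  refine ⟨hSfin.toFinset, fun P a hP => ?_⟩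
  rw [Set.Finite.mem_toFinset, Set.mem_iUnion₂]
  -- the place is on the chart
  have hmem : x - algebraMap K F a ∈ P.toValuationSubring :=
    h24_mem_of_ord_nonneg P (by omega)
  have hxP : x ∈ P.toValuationSubring := by
    have := add_mem hmem (P.algebraMap_mem' a)
    simpa using this
  obtain ⟨w, hw⟩ := h75_exists_heightOneSpectrum P hxP
  set x₀ : h75_ringA K x := h75_genA K x - algebraMap K (h75_ringA K x) a with hx₀def
  have hmax : (Ideal.span {x₀} : Ideal (h75_ringA K x)).IsMaximal :=
    h44_span_sub_isMaximal hx.tr a
  have hr0 : (x - algebraMap K F a) ≠ 0 := by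
    intro h
    rw [h] at hP
    simp at hP
  have hx₀0 : x₀ ≠ 0 := by
    intro h
    apply hr0
    have h1 : ((x₀ : h75_ringA K x) : F) = x - algebraMap K F a := rfl
    rw [← h1, h]
    rfl
  have hp0 : (Ideal.span {x₀} : Ideal (h75_ringA K x)) ≠ ⊥ := by
    rw [Ne, Ideal.span_singleton_eq_bot]
    exact hx₀0
  have hmap : Ideal.map (algebraMap (h75_ringA K x) (h75_ringB K x)) (Ideal.span {x₀}) =
      Ideal.span {r a} := by
    rw [Ideal.map_span, Set.image_singleton]
  have hval : ∀ f : F, f ≠ 0 → w.valuation F f = exp (-(P.ord f)) := by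
    intro f hf
    rw [hw]
    exact h24_ofHeightOneSpectrum_val (K := K) w hf
  have hdvd_iff : ∀ n : ℕ, w.asIdeal ^ n ∣ Ideal.span {r a} ↔
      (n : ℤ) ≤ P.ord (x - algebraMap K F a) := by
    intro n
    rw [← HeightOneSpectrum.intValuation_le_pow_iff_dvd,
      ← HeightOneSpectrum.valuation_of_algebraMap (K := F)]
    change w.valuation F (algebraMap (h75_ringB K x) F (r a)) ≤ _ ↔ _
    rw [hrF, hval _ hr0, exp_le_exp]
    omega
  have h2 : w.asIdeal ^ 2 ∣
      Ideal.map (algebraMap (h75_ringA K x) (h75_ringB K x)) (Ideal.span {x₀}) := by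
    rw [hmap, hdvd_iff]
    exact_mod_cast hP
  have hdvd : w.asIdeal ∣ differentIdeal (h75_ringA K x) (h75_ringB K x) := by
    have h3 := pow_sub_one_dvd_differentIdeal (h75_ringA K x) w.asIdeal 2 hp0 h2
    simpa using h3
  have h1 : w.asIdeal ^ 1 ∣ Ideal.span {r a} := by
    rw [hdvd_iff]
    push_cast
    omega
  rw [pow_one, Ideal.dvd_span_singleton] at h1
  exact ⟨w, hdvd, h1⟩

end Fermat.Agent.S27
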