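import Fermat.Agent.S18.RR_Chart
import Fermat.Agent.S18.h39_GRDefs

/-!
# S27, block B5e (COORD), row CO3a DISCR

`h2_discr_denom` (verbatim from the sub-skeleton of helper2): for a chart `x` and a primitive
element `y` regular on the chart, the norm of `μ'(y)` (`μ` the minimal polynomial of `y` over
`K(x)`; up to sign the discriminant of the power basis `1, y, .., y^(n-1)`) is a nonzero
polynomial `δ(x)`, and `δ(x) f ∈ K[x] + K[x] y + .. + K[x] y^(n-1)` for every function `f`
regular on the chart.

Proof: `K[x]` is integrally closed with fraction field `K(x)`, regular = integral over `K[x]`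
(`h75_isIntegral_iff`), and Mathlib's `Algebra.discr_mul_isIntegral_mem_adjoin`,
`Algebra.discr_powerBasis_eq_norm`, `IsIntegral.mem_span_pow`.
-/

set_option autoImplicit false

noncomputable section

open AlgebraicCurve Fermat.Agent.S18 Polynomial IntermediateField

open scoped IntermediateField.algebraAdjoinAdjoin

namespace Fermat.Agent.S27

variable {K F : Type*} [Field K] [Field F] [Algebra K F]

/-- **(CO3a) DISCR.** The norm of `μ'(y)` (`μ` the minimal polynomial of the primitive element
`y`, i.e. up to sign the discriminant of the power basis) is a polynomial `δ(x)` and kills the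
denominators of the functions regular on the chart. -/
theorem h2_discr_denom [IsAlgClosed K] {x y : F} (hx : h75_IsChart K x) (hy : h39_Reg K x y)
    (hli : LinearIndependent K⟮x⟯ (fun i : Fin (Module.finrank K⟮x⟯ F) => y ^ (i : ℕ))) :
    ∃ δ : K[X], δ ≠ 0 ∧
      aeval x δ = ((Algebra.norm K⟮x⟯ (aeval y (derivative (minpoly K⟮x⟯ y))) : K⟮x⟯) : F) ∧
      ∀ f : F, h39_Reg K x f → ∃ c : Fin (Module.finrank K⟮x⟯ F) → K[X],
        aeval x δ * f = ∑ i, aeval x (c i) * y ^ (i : ℕ) := by
  classical
  have hfin := hx.fin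
  have hsep := hx.sep
  have hIC : IsIntegrallyClosed (Algebra.adjoin K {x}) :=
    IsIntegrallyClosed.of_equiv (Polynomial.algEquivOfTranscendental K x hx.tr).toRingEquiv
  -- the power basis
  have hne : Nonempty (Fin (Module.finrank K⟮x⟯ F)) := Fin.pos_iff_nonempty.mp Module.finrank_pos
  let b : Module.Basis (Fin (Module.finrank K⟮x⟯ F)) K⟮x⟯ F :=
    basisOfLinearIndependentOfCardEqFinrank hli (by simp)
  let pb : PowerBasis K⟮x⟯ F :=
    { gen := y, dim := Module.finrank K⟮x⟯ F, basis := b,
      basis_eq_pow := fun i => by simp [b] }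
  have hyI : IsIntegral (Algebra.adjoin K {x}) y := (h75_isIntegral_iff hx y).2 hy
  -- the discriminant and the norm
  set N : K⟮x⟯ := Algebra.norm K⟮x⟯ (aeval y (derivative (minpoly K⟮x⟯ y))) with hN
  set ε : K⟮x⟯ := (-1) ^ (Module.finrank K⟮x⟯ F * (Module.finrank K⟮x⟯ F - 1) / 2) with hε
  have hdisc : Algebra.discr K⟮x⟯ pb.basis = ε * N := Algebra.discr_powerBasis_eq_norm K⟮x⟯ pb
  have hεε : ε * ε = 1 := by
    rw [hε, ← mul_pow]
    simp
  have hNd : N = ε * Algebra.discr K⟮x⟯ pb.basis := by
    rw [hdisc, ← mul_assoc, hεε, one_mul]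
  have hdisc0 : Algebra.discr K⟮x⟯ pb.basis ≠ 0 := Algebra.discr_not_zero_of_basis K⟮x⟯ pb.basis
  have hε0 : ε ≠ 0 := fun h => by
    rw [h, mul_zero] at hεε
    exact zero_ne_one hεε
  have hN0 : N ≠ 0 := by
    rw [hNd]
    exact mul_ne_zero hε0 hdisc0
  -- integrality of `N`
  have hdiscI : IsIntegral (Algebra.adjoin K {x}) (Algebra.discr K⟮x⟯ pb.basis) :=
    Algebra.discr_isIntegral K⟮x⟯ (fun i => by
      rw [pb.basis_eq_pow]
      exact hyI.pow _)
  have hεI : IsIntegral (Algebra.adjoin K {x}) ε := by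
    rw [hε]
    exact (isIntegral_one.neg).pow _
  have hNI : IsIntegral (Algebra.adjoin K {x}) N := by
    rw [hNd]
    exact hεI.mul hdiscI
  obtain ⟨r, hr⟩ := IsIntegrallyClosed.isIntegral_iff.mp hNI
  have hr' : (r : F) ∈ (aeval x : K[X] →ₐ[K] F).range := by
    rw [← Algebra.adjoin_singleton_eq_range_aeval]
    exact r.2
  obtain ⟨δ, hδ⟩ := hr'
  have hδN : aeval x δ = (N : F) := by
    rw [← hr]
    exact hδ
  refine ⟨δ, ?_, hδN, ?_⟩
  · rintro rfl
    rw [map_zero] at hδN
    exact hN0 (by exact_mod_cast hδN.symm)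
  · intro f hf
    have hfI : IsIntegral (Algebra.adjoin K {x}) f := (h75_isIntegral_iff hx f).2 hf
    have h1 : Algebra.discr K⟮x⟯ pb.basis • f ∈
        Algebra.adjoin (Algebra.adjoin K {x}) ({y} : Set F) :=
      Algebra.discr_mul_isIntegral_mem_adjoin K⟮x⟯ (B := pb) hyI hfI
    have hεmem : (ε : F) ∈ Algebra.adjoin (Algebra.adjoin K {x}) ({y} : Set F) := by
      rw [hε]
      push_cast
      exact Subalgebra.pow_mem _ (Subalgebra.neg_mem _ (Subalgebra.one_mem _)) _
    have h2 : aeval x δ * f ∈ Algebra.adjoin (Algebra.adjoin K {x}) ({y} : Set F) := by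
      have h : aeval x δ * f = (ε : F) * (Algebra.discr K⟮x⟯ pb.basis • f) := by
        rw [hδN, hNd, Algebra.smul_def, IntermediateField.algebraMap_apply]
        push_cast
        ring
      rw [h]
      exact Subalgebra.mul_mem _ hεmem h1
    have h3 : aeval x δ * f ∈ Submodule.span (Algebra.adjoin K {x})
        (Set.range fun i : Fin (minpoly (Algebra.adjoin K {x}) y).natDegree => y ^ (i : ℕ)) := by
      refine hyI.mem_span_pow ?_
      have h2' : aeval x δ * f ∈
          (aeval y : Polynomial (Algebra.adjoin K {x}) →ₐ[Algebra.adjoin K {x}] F).range := by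
        rw [← Algebra.adjoin_singleton_eq_range_aeval]
        exact h2
      obtain ⟨p, hp⟩ := h2'
      exact ⟨p, hp.symm⟩
    have hd : (minpoly (Algebra.adjoin K {x}) y).natDegree = Module.finrank K⟮x⟯ F := by
      have h := minpoly.isIntegrallyClosed_eq_field_fractions' K⟮x⟯ hyI
      have h' : (minpoly K⟮x⟯ y).natDegree = Module.finrank K⟮x⟯ F := pb.natDegree_minpoly
      rw [h, (minpoly.monic hyI).natDegree_map] at h'
      exact h'
    rw [Submodule.mem_span_range_iff_exists_fun] at h3
    obtain ⟨c, hc⟩ := h3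
    have hcp : ∀ i, ∃ p : K[X], aeval x p = (c i : F) := fun i => by
      have h : (c i : F) ∈ (aeval x : K[X] →ₐ[K] F).range := by
        rw [← Algebra.adjoin_singleton_eq_range_aeval]
        exact (c i).2
      exact h
    choose p hp using hcp
    refine ⟨fun i => p (Fin.cast hd.symm i), ?_⟩
    rw [← hc]
    refine Fintype.sum_equiv (finCongr hd) _ _ fun i => ?_
    have hi : Fin.cast hd.symm (finCongr hd i) = i := Fin.ext rfl
    show c i • y ^ (i : ℕ) = aeval x (p (Fin.cast hd.symm (finCongr hd i))) * y ^ (i : ℕ)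
    rw [hi, hp, Algebra.smul_def]
    rfl

end Fermat.Agent.S27

end
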