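import Fermat.Agent.S27.h92_Tate
import Fermat.Agent.S27.Weil

/-!
# S27 / B8c (T1) TATE-WD : `h76_tate_exists` (row 520, helper92)

The skeleton statement `h76_tate_exists` of block B8 PAIR, VERBATIM: for a Frobenius structure
`σ` of level `p ^ e` and a prime `ℓ ∣ p ^ e - 1` there is a function `ψ` on pairs of classes
satisfying the Tate formula `h76_IsTate`.  It is `h92_tate_exists_of_weil` (`h92_Tate.lean`) fed
with Weil reciprocity `h15_weil_reciprocity` (row 480, `Weil.lean`).
-/

set_option autoImplicit false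

open AlgebraicCurve

namespace Fermat.Agent.S27

open Fermat.Agent.S18

universe u v

variable {K : Type u} {F : Type v} [Field K] [Field F] [Algebra K F]

variable [IsAlgClosed K] (p : ℕ) [Fact p.Prime] [CharP K p]

/-- **(T1) TATE-WD** (row 520): the Tate formula is well defined on classes. -/
theorem h76_tate_exists {x : F} (hx : h75_IsChart K x) {e : ℕ} {σ : h57_SemiAut K F}
    (hσ : h76_FrobStr p e σ) (ℓ : ℕ) [Fact ℓ.Prime] (hdiv : ℓ ∣ p ^ e - 1) :
    ∃ ψ : Pic0 K F → Pic0 K F → K, h76_IsTate p e σ ℓ ψ :=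
  h92_tate_exists_of_weil p hx hσ ℓ hdiv
    (fun f h hf hh => h15_weil_reciprocity hx f h hf hh)

end Fermat.Agent.S27
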