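import Fermat.Agent.S27.h95_CountCharpNorm
import Fermat.Agent.S27.h76_NormOf2
import Fermat.Agent.S27.h92_TateExists
import Fermat.Agent.S27.PairNondeg

/-!
# S27 row COUNT-CHARP (helper95): the count over an algebraic closure of `𝔽_p`

`h15_count_charp_any` : for `k` algebraically closed of characteristic `p`, every element of
which lies in a finite field, and a function field `Fb / k` with a chart:
`#Pic⁰(Fb)[ℓ^j] = ℓ^(2 g j)` for every prime `ℓ ≠ p`.

Assembly of: B6 ZETA (`h73_exists_frob`, `h73_zeta_matrix`, `h73_finite_inv_class`,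
`h73_pic_periodic`), B7 (`h15_growth`, `h76_tors_card`, the `ℓ`-primary adapter
`h95_count_abs`), B8 PAIR (`h76_norm_onto_of'` with (T1) `h76_tate_exists` -- which contains
Weil reciprocity -- and (T3) `h76_tate_nondeg`).
-/

set_option autoImplicit false

open AlgebraicCurve Fermat.Agent.S18

namespace Fermat.Agent.S27

/-- **COUNT.** Over an algebraic closure of `𝔽_p`: `#Pic⁰[ℓ^j] = ℓ^(2gj)` for `ℓ ≠ p`. -/
theorem h15_count_charp_any (p : ℕ) [Fact p.Prime] (k Fb : Type*) [Field k] [IsAlgClosed k]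
    [CharP k p] (halg : ∀ a : k, ∃ n : ℕ, 0 < n ∧ a ^ (p ^ n) = a) [Field Fb] [Algebra k Fb]
    (ℓ : ℕ) [Fact ℓ.Prime] (hℓ : ℓ ≠ p) : h15_GoodAny k Fb ℓ :=
  h95_count_charp_of_norm p k Fb halg ℓ hℓ
    (fun _ hx _ he σ hσ hper P₀ hP₀ =>
      h76_norm_onto_of' p hx he σ hσ hper P₀ hP₀ ℓ hℓ
        (fun _ _ hτ hdiv => h76_tate_exists p hx hτ ℓ hdiv)
        (fun _ _ hτ hdiv c hc hℓc hc0 => h76_tate_nondeg p hx hτ ℓ hℓ hdiv c hc hℓc hc0))

end Fermat.Agent.S27
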