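import Fermat.Agent.S27.h57_Semilin

set_option autoImplicit false

namespace Fermat.Agent.S27

theorem h15_descent_card {k : Type*} [Field k] [IsAlgClosed k] (p : ℕ) [Fact p.Prime] [CharP k p]
    (e : ℕ) (he : 0 < e) {V : Type*} [AddCommGroup V] [Module k V] [FiniteDimensional k V]
    (φ : V ≃+ V) (hφ : ∀ (c : k) (v : V), φ (c • v) = c ^ (p ^ e) • φ v)
    (_hfix : ∀ v : V, ∃ n : ℕ, 0 < n ∧ φ^[n] v = v) :
    Nat.card {v : V // φ v = v} = (p ^ e) ^ Module.finrank k V :=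
  h57_semilin_card p e he φ.toAddMonoidHom hφ φ.injective

theorem h15_descent_span {k : Type*} [Field k] [IsAlgClosed k] (p : ℕ) [Fact p.Prime] [CharP k p]
    (e : ℕ) (he : 0 < e) {V : Type*} [AddCommGroup V] [Module k V] [FiniteDimensional k V]
    (φ : V ≃+ V) (hφ : ∀ (c : k) (v : V), φ (c • v) = c ^ (p ^ e) • φ v)
    (_hfix : ∀ v : V, ∃ n : ℕ, 0 < n ∧ φ^[n] v = v) :
    Submodule.span k {v : V | φ v = v} = ⊤ :=
  h57_span_fixed (h57_one_lt_q p e he) (h57_sigma k p e) (h57_sigma_apply p e)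
    (h57_toSemilin p e φ.toAddMonoidHom hφ) φ.injective

end Fermat.Agent.S27
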