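import Mathlib

/-!
# S27 / B6-6 FROB-EXT (row 497, owner helper17)

Extension of a ring automorphism `σ₀` of a field `L` to a simple finite extension `M = L[y]`
when `σ₀` fixes the minimal polynomial of `y`; periodicity is inherited.  Mathlib only.
-/

set_option autoImplicit false

open Polynomial

namespace Fermat.Agent.S27

section Ext

variable {L M : Type*} [Field L] [Field M] [Algebra L M]

/-- `aeval y` is surjective when `y` generates `M` as an `L`-algebra. -/
theorem h17_aeval_surjective (y : M) (hy : Algebra.adjoin L {y} = ⊤) :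
    Function.Surjective (aeval y : L[X] →ₐ[L] M) := by
  intro f
  have hf : f ∈ Algebra.adjoin L {y} := by rw [hy]; exact Algebra.mem_top
  rw [Algebra.adjoin_singleton_eq_range_aeval] at hf
  exact hf

/-- The ring hom `L[X] → M`, `P ↦ (P.map τ)(y)`. -/
noncomputable def h17_twist (y : M) (τ : L →+* L) : L[X] →+* M :=
  ((aeval y : L[X] →ₐ[L] M) : L[X] →+* M).comp (Polynomial.mapRingHom τ)

theorem h17_twist_apply (y : M) (τ : L →+* L) (P : L[X]) :
    h17_twist y τ P = aeval y (P.map τ) := rfl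

theorem h17_ker_le (y : M) (τ : L →+* L) (hmin : (minpoly L y).map τ = minpoly L y) :
    RingHom.ker ((aeval y : L[X] →ₐ[L] M) : L[X] →+* M) ≤ RingHom.ker (h17_twist y τ) := by
  intro P hP
  rw [RingHom.mem_ker] at hP ⊢
  have hP' : aeval y P = 0 := hP
  obtain ⟨Q, rfl⟩ := minpoly.dvd L y hP'
  rw [h17_twist_apply, Polynomial.map_mul, hmin, map_mul, minpoly.aeval, zero_mul]

/-- The twisted endomorphism of `M`: `P(y) ↦ (P.map τ)(y)`. -/
noncomputable def h17_ext (y : M) (hy : Algebra.adjoin L {y} = ⊤) (τ : L →+* L)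
    (hmin : (minpoly L y).map τ = minpoly L y) : M →+* M :=
  RingHom.liftOfSurjective ((aeval y : L[X] →ₐ[L] M) : L[X] →+* M) (h17_aeval_surjective y hy)
    ⟨h17_twist y τ, h17_ker_le y τ hmin⟩

theorem h17_ext_aeval (y : M) (hy : Algebra.adjoin L {y} = ⊤) (τ : L →+* L)
    (hmin : (minpoly L y).map τ = minpoly L y) (P : L[X]) :
    h17_ext y hy τ hmin (aeval y P) = aeval y (P.map τ) := by
  have := RingHom.liftOfRightInverse_comp_apply
    ((aeval y : L[X] →ₐ[L] M) : L[X] →+* M)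
    (Function.surjInv (h17_aeval_surjective y hy))
    (Function.rightInverse_surjInv (h17_aeval_surjective y hy))
    ⟨h17_twist y τ, h17_ker_le y τ hmin⟩ P
  exact this

theorem h17_ext_algebraMap (y : M) (hy : Algebra.adjoin L {y} = ⊤) (τ : L →+* L)
    (hmin : (minpoly L y).map τ = minpoly L y) (a : L) :
    h17_ext y hy τ hmin (algebraMap L M a) = algebraMap L M (τ a) := by
  have h := h17_ext_aeval y hy τ hmin (C a)
  rw [aeval_C, Polynomial.map_C, aeval_C] at h
  exact h

theorem h17_ext_self (y : M) (hy : Algebra.adjoin L {y} = ⊤) (τ : L →+* L)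
    (hmin : (minpoly L y).map τ = minpoly L y) :
    h17_ext y hy τ hmin y = y := by
  have h := h17_ext_aeval y hy τ hmin X
  rw [aeval_X, Polynomial.map_X, aeval_X] at h
  exact h

theorem h17_ext_comp (y : M) (hy : Algebra.adjoin L {y} = ⊤) (τ τ' : L →+* L)
    (hmin : (minpoly L y).map τ = minpoly L y) (hmin' : (minpoly L y).map τ' = minpoly L y)
    (hττ' : τ'.comp τ = RingHom.id L) :
    (h17_ext y hy τ' hmin').comp (h17_ext y hy τ hmin) = RingHom.id M := by
  refine RingHom.ext fun f => ?_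
  obtain ⟨P, rfl⟩ := h17_aeval_surjective y hy f
  rw [RingHom.comp_apply, h17_ext_aeval, h17_ext_aeval, Polynomial.map_map, hττ',
    Polynomial.map_id, RingHom.id_apply]

end Ext

/-- A ring automorphism `σ₀` of `L` fixing the minimal polynomial of a generator `y` of `M / L`
extends to a ring automorphism of `M` fixing `y`. -/
theorem h73_exists_extension {L M : Type*} [Field L] [Field M] [Algebra L M]
    [FiniteDimensional L M] (y : M) (hy : Algebra.adjoin L {y} = ⊤) (σ₀ : L ≃+* L)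
    (hmin : (minpoly L y).map (σ₀ : L →+* L) = minpoly L y) :
    ∃ σ : M ≃+* M, (∀ a : L, σ (algebraMap L M a) = algebraMap L M (σ₀ a)) ∧ σ y = y := by
  have h1 : ((σ₀.symm : L ≃+* L) : L →+* L).comp (σ₀ : L →+* L) = RingHom.id L := by
    ext a; simp
  have h2 : (σ₀ : L →+* L).comp ((σ₀.symm : L ≃+* L) : L →+* L) = RingHom.id L := by
    ext a; simp
  have hmin' : (minpoly L y).map ((σ₀.symm : L ≃+* L) : L →+* L) = minpoly L y := by
    have h := congrArg (Polynomial.map ((σ₀.symm : L ≃+* L) : L →+* L)) hmin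
    rw [Polynomial.map_map, h1, Polynomial.map_id] at h
    exact h.symm
  refine ⟨RingEquiv.ofRingHom (h17_ext y hy (σ₀ : L →+* L) hmin)
    (h17_ext y hy ((σ₀.symm : L ≃+* L) : L →+* L) hmin')
    (h17_ext_comp y hy _ _ hmin' hmin h2) (h17_ext_comp y hy _ _ hmin hmin' h1), ?_, ?_⟩
  · intro a
    exact h17_ext_algebraMap y hy (σ₀ : L →+* L) hmin a
  · exact h17_ext_self y hy (σ₀ : L →+* L) hmin

section Periodic

variable {L M : Type*} [Field L] [Field M] [Algebra L M]

theorem h17_pow_algebraMap (σ₀ : L ≃+* L) (σ : M ≃+* M)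
    (hσ : ∀ a : L, σ (algebraMap L M a) = algebraMap L M (σ₀ a)) (n : ℕ) (a : L) :
    (σ ^ n) (algebraMap L M a) = algebraMap L M ((σ₀ ^ n) a) := by
  induction n generalizing a with
  | zero => simp
  | succ n ih =>
    rw [pow_succ, pow_succ, RingAut.mul_apply, RingAut.mul_apply, hσ, ih]

theorem h17_pow_self (σ : M ≃+* M) (y : M) (hσy : σ y = y) (n : ℕ) : (σ ^ n) y = y := by
  induction n with
  | zero => simp
  | succ n ih => rw [pow_succ, RingAut.mul_apply, hσy, ih]

theorem h17_pow_aeval (σ₀ : L ≃+* L) (σ : M ≃+* M)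
    (hσ : ∀ a : L, σ (algebraMap L M a) = algebraMap L M (σ₀ a)) (y : M) (hσy : σ y = y)
    (n : ℕ) (P : L[X]) :
    (σ ^ n) (aeval y P) = aeval y (P.map (((σ₀ ^ n : L ≃+* L)) : L →+* L)) := by
  rw [aeval_def, aeval_def, Polynomial.eval₂_map]
  have h := Polynomial.hom_eval₂ P (algebraMap L M) (((σ ^ n : M ≃+* M)) : M →+* M) y
  have e1 : (((σ ^ n : M ≃+* M)) : M →+* M) (eval₂ (algebraMap L M) y P) =
      (σ ^ n) (eval₂ (algebraMap L M) y P) := rfl
  have e2 : (((σ ^ n : M ≃+* M)) : M →+* M) y = y := h17_pow_self σ y hσy n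
  rw [e1, e2] at h
  rw [h]
  congr 1
  refine RingHom.ext fun a => ?_
  exact h17_pow_algebraMap σ₀ σ hσ n a

theorem h17_fixed_pow_mul (σ₀ : L ≃+* L) {a : L} {n : ℕ} (h : (σ₀ ^ n) a = a) (m : ℕ) :
    (σ₀ ^ (n * m)) a = a := by
  induction m with
  | zero => simp
  | succ m ih => rw [Nat.mul_succ, pow_add, RingAut.mul_apply, h, ih]

theorem h17_common_period (σ₀ : L ≃+* L)
    (hper : ∀ a : L, ∃ n : ℕ, 0 < n ∧ (σ₀ ^ n) a = a) (s : Finset L) :
    ∃ N : ℕ, 0 < N ∧ ∀ a ∈ s, (σ₀ ^ N) a = a := by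
  classical
  induction s using Finset.induction_on with
  | empty => exact ⟨1, one_pos, by simp⟩
  | insert b s _ ih =>
    obtain ⟨N, hN, hNs⟩ := ih
    obtain ⟨n, hn, hnb⟩ := hper b
    refine ⟨n * N, Nat.mul_pos hn hN, ?_⟩
    intro a ha
    rcases Finset.mem_insert.mp ha with rfl | ha
    · exact h17_fixed_pow_mul σ₀ hnb N
    · rw [Nat.mul_comm]
      exact h17_fixed_pow_mul σ₀ (hNs a ha) n

end Periodic

/-- ... and periodicity is inherited. -/
theorem h73_extension_periodic {L M : Type*} [Field L] [Field M] [Algebra L M]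
    [FiniteDimensional L M] (y : M) (hy : Algebra.adjoin L {y} = ⊤) (σ₀ : L ≃+* L)
    (hper : ∀ a : L, ∃ n : ℕ, 0 < n ∧ (σ₀ ^ n) a = a)
    (σ : M ≃+* M) (hσ : ∀ a : L, σ (algebraMap L M a) = algebraMap L M (σ₀ a)) (hσy : σ y = y)
    (f : M) : ∃ n : ℕ, 0 < n ∧ (σ ^ n) f = f := by
  classical
  obtain ⟨P, rfl⟩ := h17_aeval_surjective y hy f
  obtain ⟨N, hN, hNs⟩ := h17_common_period σ₀ hper P.coeffs
  refine ⟨N, hN, ?_⟩
  rw [h17_pow_aeval σ₀ σ hσ y hσy N P]
  congr 1
  ext i
  rw [Polynomial.coeff_map]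
  by_cases h0 : P.coeff i = 0
  · rw [h0, map_zero]
  · exact hNs _ (Polynomial.coeff_mem_coeffs h0)

end Fermat.Agent.S27
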