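import Fermat.Agent.S18.RR_Riemann
import Fermat.Agent.S27.h73_ZetaDefs

/-!
# S27 / B6-5 COUNT-REC : the bridge between invariant effective divisors and `ℕ`-valued finsupps
(owner helper93; row 496)

* generic part (Mathlib only): for a permutation `τ` of a type `X`, the map
  `D ↦ D.mapRange Nat.cast` is a bijection from
  `{D : X →₀ ℕ // D.mapDomain τ = D ∧ D.sum (fun _ m => m) = n}` onto
  `{E : X →₀ ℤ // 0 ≤ E ∧ E.mapDomain τ = E ∧ E.sum (fun _ m => m) = n}`;
* for a function field with a chart (all places of degree one):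
  `h93_card_eff` : `Nat.card {E : Divisor k F // 0 ≤ E ∧ σ • E = E ∧ degree E = n}`
  is the cardinality of the `ℕ`-finsupp model for `τ = MulAction.toPerm σ`;
* `h93_a_zero` : `h73_a σ 0 = 1`;
* `h93_a_rec_of` : the Euler recursion for `h73_a`, `h73_N` from the recursion for the
  `ℕ`-finsupp model (the conclusion of the combinatorial Euler identity of one permutation).
-/

set_option autoImplicit false

open AlgebraicCurve Fermat.Agent.S18

namespace Fermat.Agent.S27

section Generic

variable {X : Type*}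

/-- the cast of an `ℕ`-valued finsupp to a `ℤ`-valued one. -/
noncomputable def h93_castZ (D : X →₀ ℕ) : X →₀ ℤ :=
  D.mapRange (Nat.cast : ℕ → ℤ) Nat.cast_zero

theorem h93_castZ_apply (D : X →₀ ℕ) (v : X) : h93_castZ D v = (D v : ℤ) := by
  simp [h93_castZ]

theorem h93_castZ_injective : Function.Injective (h93_castZ (X := X)) :=
  Finsupp.mapRange_injective _ Nat.cast_zero Nat.cast_injective

theorem h93_castZ_nonneg (D : X →₀ ℕ) : 0 ≤ h93_castZ D := by
  intro v
  rw [h93_castZ_apply]
  exact Int.natCast_nonneg _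

theorem h93_castZ_mapDomain (τ : X → X) (D : X →₀ ℕ) :
    h93_castZ (D.mapDomain τ) = (h93_castZ D).mapDomain τ := by
  unfold h93_castZ
  exact (Finsupp.mapDomain_mapRange τ D (Nat.cast : ℕ → ℤ) Nat.cast_zero Nat.cast_add).symm

theorem h93_castZ_sum (D : X →₀ ℕ) :
    (h93_castZ D).sum (fun _ m => m) = ((D.sum (fun _ m => m) : ℕ) : ℤ) := by
  unfold h93_castZ
  rw [Finsupp.sum_mapRange_index (fun _ => rfl)]
  simp [Finsupp.sum]

theorem h93_exists_castZ (E : X →₀ ℤ) (hE : 0 ≤ E) : ∃ D : X →₀ ℕ, h93_castZ D = E := by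
  refine ⟨E.mapRange Int.toNat Int.toNat_zero, ?_⟩
  ext v
  rw [h93_castZ_apply, Finsupp.mapRange_apply]
  exact Int.toNat_of_nonneg (hE v)

/-- **Generic bridge.** -/
theorem h93_card_effZ (τ : X → X) (n : ℕ) :
    Nat.card {E : X →₀ ℤ // 0 ≤ E ∧ E.mapDomain τ = E ∧ E.sum (fun _ m => m) = (n : ℤ)} =
      Nat.card {D : X →₀ ℕ // D.mapDomain τ = D ∧ D.sum (fun _ m => m) = n} := by
  symm
  refine Nat.card_eq_of_bijective
    (fun D => ⟨h93_castZ D.1, h93_castZ_nonneg D.1, ?_, ?_⟩) ⟨?_, ?_⟩
  · rw [← h93_castZ_mapDomain, D.2.1]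
  · rw [h93_castZ_sum, D.2.2]
  · intro D D' h
    exact Subtype.ext (h93_castZ_injective (congrArg Subtype.val h))
  · rintro ⟨E, hE0, hEτ, hEn⟩
    obtain ⟨D, rfl⟩ := h93_exists_castZ E hE0
    refine ⟨⟨D, ?_, ?_⟩, rfl⟩
    · apply h93_castZ_injective
      rw [h93_castZ_mapDomain, hEτ]
    · rw [h93_castZ_sum] at hEn
      exact_mod_cast hEn

/-- the only `ℕ`-valued finsupp of total mass `0` is `0`. -/
theorem h93_card_effN_zero (τ : X → X) :
    Nat.card {D : X →₀ ℕ // D.mapDomain τ = D ∧ D.sum (fun _ m => m) = 0} = 1 := by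
  rw [Nat.card_eq_one_iff_unique]
  refine ⟨⟨?_⟩, ⟨⟨0, Finsupp.mapDomain_zero, Finsupp.sum_zero_index⟩⟩⟩
  have key : ∀ D : X →₀ ℕ, D.sum (fun _ m => m) = 0 → D = 0 := by
    intro D hD
    ext v
    by_contra hv
    have hmem : v ∈ D.support := Finsupp.mem_support_iff.mpr hv
    rw [Finsupp.sum, Finset.sum_eq_zero_iff] at hD
    exact hv (hD v hmem)
  rintro ⟨D, -, hD⟩ ⟨D', -, hD'⟩
  apply Subtype.ext
  exact (key D hD).trans (key D' hD').symm

end Generic

section Divisors

variable {k F : Type*} [Field k] [Field F] [Algebra k F]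

theorem h93_toPerm_pow_apply (σ : h57_SemiAut k F) (s : ℕ) (P : Place k F) :
    ((MulAction.toPerm σ : Equiv.Perm (Place k F)) ^ s) P = σ ^ s • P := by
  have h : (MulAction.toPerm σ : Equiv.Perm (Place k F)) ^ s = MulAction.toPerm (σ ^ s) :=
    (map_pow (MulAction.toPermHom (h57_SemiAut k F) (Place k F)) σ s).symm
  rw [h]
  rfl

/-- `h73_N` in terms of the permutation `MulAction.toPerm σ`. -/
theorem h93_N_eq (σ : h57_SemiAut k F) (s : ℕ) :
    h73_N σ s = (Nat.card {P : Place k F //
      ((MulAction.toPerm σ : Equiv.Perm (Place k F)) ^ s) P = P} : ℤ) := by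
  unfold h73_N
  congr 1
  refine Nat.card_congr (Equiv.subtypeEquivRight fun P => ?_)
  rw [h93_toPerm_pow_apply]

/-- the hypotheses of the Euler identity for `MulAction.toPerm σ`: finiteness of the fixed
points of the powers. -/
theorem h93_toPerm_fix_finite (σ : h57_SemiAut k F) (s : ℕ)
    (h : {P : Place k F | σ ^ s • P = P}.Finite) :
    {P : Place k F | ((MulAction.toPerm σ : Equiv.Perm (Place k F)) ^ s) P = P}.Finite := by
  refine h.subset fun P hP => ?_
  have hP' : ((MulAction.toPerm σ : Equiv.Perm (Place k F)) ^ s) P = P := hP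
  rw [h93_toPerm_pow_apply] at hP'
  exact hP'

/-- the hypotheses of the Euler identity for `MulAction.toPerm σ`: periodicity. -/
theorem h93_toPerm_periodic (σ : h57_SemiAut k F) (P : Place k F)
    (h : ∃ n : ℕ, 0 < n ∧ σ ^ n • P = P) :
    ∃ s : ℕ, 0 < s ∧ ((MulAction.toPerm σ : Equiv.Perm (Place k F)) ^ s) P = P := by
  obtain ⟨n, hn, hP⟩ := h
  exact ⟨n, hn, by rw [h93_toPerm_pow_apply]; exact hP⟩

variable [IsAlgClosed k]

/-- with a chart all places have degree one, so the degree is the total mass. -/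
theorem h93_degree_eq_sum {x : F} (hx : h75_IsChart k x) (E : Divisor k F) :
    Divisor.degree E = E.sum (fun _ m => m) := by
  rw [h7_degree_eq_sum, Finsupp.sum]
  refine Finset.sum_congr rfl fun v _ => ?_
  rw [h75_deg_eq_one hx v, Nat.cast_one, mul_one]

/-- **Bridge.** invariant effective divisors of degree `n` are counted by the `ℕ`-finsupp
model of the permutation `MulAction.toPerm σ` of the places. -/
theorem h93_card_eff {x : F} (hx : h75_IsChart k x) (σ : h57_SemiAut k F) (n : ℕ) :
    Nat.card {E : Divisor k F // 0 ≤ E ∧ σ • E = E ∧ Divisor.degree E = (n : ℤ)} =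
      Nat.card {D : Place k F →₀ ℕ //
        D.mapDomain (MulAction.toPerm σ : Equiv.Perm (Place k F)) = D ∧
          D.sum (fun _ m => m) = n} := by
  rw [← h93_card_effZ]
  refine Nat.card_congr (Equiv.subtypeEquivRight fun E => ?_)
  rw [h93_degree_eq_sum hx E, h57_smul_def]
  rfl

/-- `h73_a` in terms of the `ℕ`-finsupp model. -/
theorem h93_a_eq {x : F} (hx : h75_IsChart k x) (σ : h57_SemiAut k F) (n : ℕ) :
    h73_a σ n = (Nat.card {D : Place k F →₀ ℕ //
        D.mapDomain (MulAction.toPerm σ : Equiv.Perm (Place k F)) = D ∧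
          D.sum (fun _ m => m) = n} : ℤ) := by
  unfold h73_a
  rw [h93_card_eff hx σ n]

/-- `a_0 = 1`. -/
theorem h93_a_zero {x : F} (hx : h75_IsChart k x) (σ : h57_SemiAut k F) : h73_a σ 0 = 1 := by
  rw [h93_a_eq hx σ 0, h93_card_effN_zero]
  rfl

/-- **Core of COUNT-REC.** The Euler recursion for `h73_a`, `h73_N` from the combinatorial
Euler identity of the permutation `MulAction.toPerm σ` of the places (taken as a hypothesis:
the conclusion of the Euler identity of one permutation, in `ℕ`). -/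
theorem h93_a_rec_of {x : F} (hx : h75_IsChart k x) (σ : h57_SemiAut k F)
    (hE : ∀ d : ℕ,
      d * Nat.card {D : Place k F →₀ ℕ //
          D.mapDomain (MulAction.toPerm σ : Equiv.Perm (Place k F)) = D ∧
            D.sum (fun _ m => m) = d} =
        ∑ s ∈ Finset.Icc 1 d,
          Nat.card {P : Place k F //
            ((MulAction.toPerm σ : Equiv.Perm (Place k F)) ^ s) P = P} *
          Nat.card {D : Place k F →₀ ℕ //
            D.mapDomain (MulAction.toPerm σ : Equiv.Perm (Place k F)) = D ∧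
              D.sum (fun _ m => m) = d - s})
    (d : ℕ) :
    (d : ℤ) * h73_a σ d = ∑ s ∈ Finset.Icc 1 d, h73_N σ s * h73_a σ (d - s) := by
  rw [h93_a_eq hx σ d]
  have h := congrArg (Nat.cast : ℕ → ℤ) (hE d)
  rw [Nat.cast_mul, Nat.cast_sum] at h
  rw [h]
  refine Finset.sum_congr rfl fun s _ => ?_
  rw [Nat.cast_mul, h93_a_eq hx σ (d - s), h93_N_eq σ s]

end Divisors

end Fermat.Agent.S27
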