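import Fermat.Agent.S27.h90_ZetaEuler
import Fermat.Agent.S27.FrobPer
import Fermat.Agent.S27.h93_EffBridge

/-!
# S27 / B6-5 COUNT-REC (row 496, owner helper93)

`a_0 = 1` and the Euler product in logarithmic-derivative form
`d * a_d = ∑_{s = 1}^{d} N_s * a_{d - s}` for a Frobenius structure `σ` on a function field
`F / k` with a chart:

* `h73_a_zero`, `h73_a_rec` (exports, VERBATIM from the B6 sub-skeleton).

Proof: the bridge `h93_EffBridge` (invariant effective divisors of degree `n` are the
`ℕ`-valued finsupps on the places fixed by the permutation `MulAction.toPerm σ` of total mass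
`n`), helper90's Euler identity `h90_euler` of one permutation, and the two inputs
`h73_fix_finite`, `h73_place_periodic` of row 492 (`FrobPer`).
-/

set_option autoImplicit false

open AlgebraicCurve Fermat.Agent.S18

namespace Fermat.Agent.S27

variable {k F : Type*} [Field k] [IsAlgClosed k] [Field F] [Algebra k F]
variable {p e : ℕ} [Fact p.Prime] [CharP k p]

theorem h73_a_zero {x : F} (hx : h75_IsChart k x) (σ : h57_SemiAut k F) : h73_a σ 0 = 1 :=
  h93_a_zero hx σ

theorem h73_a_rec {x : F} (hx : h75_IsChart k x) (he : 0 < e) (σ : h57_SemiAut k F)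
    (hσ : h57_IsFrob (p ^ e) σ) (hper : h73_Periodic σ) (d : ℕ) :
    (d : ℤ) * h73_a σ d = ∑ s ∈ Finset.Icc 1 d, h73_N σ s * h73_a σ (d - s) :=
  h93_a_rec_of hx σ
    (h90_euler (MulAction.toPerm σ : Equiv.Perm (Place k F))
      (fun s hs => h93_toPerm_fix_finite σ s (h73_fix_finite hx he σ hσ hper s hs))
      (fun P => h93_toPerm_periodic σ P (h73_place_periodic hx σ hper P))).2 d

end Fermat.Agent.S27
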