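import Mathlib

/-!
# S27-B7b GROWTH: the `ℓ`-adic valuation of `det (1 - C ^ r)`

For an integer matrix `C` with `ℓ ∤ det C` and `det (1 - C ^ r) ≠ 0` for all `r > 0` there are
`n₀ > 0` and `c₀` with `v_ℓ (det (1 - C ^ (n₀ * ℓ ^ j * s))) = c₀ + n * j` for all `j` and all
`s > 0` prime to `ℓ`.  (`n₀` is the order of `C` in `GL_n (ℤ / ℓ ^ 2)`.)
-/

set_option autoImplicit false

namespace Fermat.Agent.S27

open Matrix Finset

/-- an integer matrix vanishing mod `q` is `q` times an integer matrix -/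
private theorem h47_exists_smul_of_map_eq_zero {n : ℕ} (q : ℕ) (A : Matrix (Fin n) (Fin n) ℤ)
    (h : (Int.castRingHom (ZMod q)).mapMatrix A = 0) :
    ∃ X : Matrix (Fin n) (Fin n) ℤ, A = (q : ℤ) • X := by
  refine ⟨Matrix.of fun i j => A i j / (q : ℤ), ?_⟩
  ext i j
  have hij : ((A i j : ℤ) : ZMod q) = 0 := by
    have := congrFun (congrFun h i) j
    simpa using this
  have hdvd : (q : ℤ) ∣ A i j := (ZMod.intCast_zmod_eq_zero_iff_dvd _ _).mp hij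
  simp only [Matrix.smul_apply, Matrix.of_apply, smul_eq_mul]
  exact (Int.mul_ediv_cancel' hdvd).symm

/-- the determinant of an integer matrix commutes with reduction mod `q` -/
private theorem h47_det_map {n : ℕ} (q : ℕ) (A : Matrix (Fin n) (Fin n) ℤ) :
    ((Int.castRingHom (ZMod q)).mapMatrix A).det = ((A.det : ℤ) : ZMod q) := by
  rw [← RingHom.map_det]; rfl

/-- a matrix which is a nonzero scalar mod `ℓ` has determinant prime to `ℓ` -/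
private theorem h47_not_dvd_det_of_map_eq {n : ℕ} (ℓ : ℕ) [Fact ℓ.Prime]
    (Y : Matrix (Fin n) (Fin n) ℤ) (u : ZMod ℓ) (hu : u ≠ 0)
    (hY : (Int.castRingHom (ZMod ℓ)).mapMatrix Y = u • (1 : Matrix (Fin n) (Fin n) (ZMod ℓ))) :
    ¬ (ℓ : ℤ) ∣ Y.det := by
  intro hd
  have h1 : ((Y.det : ℤ) : ZMod ℓ) = 0 := (ZMod.intCast_zmod_eq_zero_iff_dvd _ _).mpr hd
  rw [← h47_det_map, hY, Matrix.det_smul, det_one, mul_one] at h1
  exact pow_ne_zero _ hu h1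

/-- `v_ℓ (ℓ ^ n * d) = n` for `ℓ ∤ d` -/
private theorem h47_padicValInt_pow_mul (ℓ : ℕ) [Fact ℓ.Prime] (n : ℕ) (d : ℤ)
    (hd : ¬ (ℓ : ℤ) ∣ d) : padicValInt ℓ ((ℓ : ℤ) ^ n * d) = n := by
  have hℓ : ℓ.Prime := Fact.out
  have hd0 : d ≠ 0 := fun h => hd (h ▸ dvd_zero _)
  have hp0 : ((ℓ : ℤ) ^ n) ≠ 0 := pow_ne_zero _ (by exact_mod_cast hℓ.ne_zero)
  rw [padicValInt.mul hp0 hd0, padicValInt.eq_zero_of_not_dvd hd, add_zero]
  have : ((ℓ : ℤ) ^ n) = ((ℓ ^ n : ℕ) : ℤ) := by push_cast; rfl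
  rw [this, padicValInt.of_nat, padicValNat.prime_pow]

/-- **S27-B7b GROWTH.** -/
theorem h15_growth (ℓ : ℕ) [Fact ℓ.Prime] {n : ℕ} (C : Matrix (Fin n) (Fin n) ℤ)
    (hdet : ¬ (ℓ : ℤ) ∣ C.det) (hne : ∀ r : ℕ, 0 < r → (1 - C ^ r).det ≠ 0) :
    ∃ n₀ : ℕ, 0 < n₀ ∧ ∃ c₀ : ℕ, ∀ j s : ℕ, 0 < s → ¬ ℓ ∣ s →
      padicValInt ℓ (1 - C ^ (n₀ * ℓ ^ j * s)).det = c₀ + n * j := by
  classical
  have hℓ : ℓ.Prime := Fact.out
  have hNZ : NeZero (ℓ ^ 2) := ⟨pow_ne_zero 2 hℓ.ne_zero⟩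
  -- the two reduction maps
  let ψ : Matrix (Fin n) (Fin n) ℤ →+* Matrix (Fin n) (Fin n) (ZMod (ℓ ^ 2)) :=
    (Int.castRingHom (ZMod (ℓ ^ 2))).mapMatrix
  let φ : Matrix (Fin n) (Fin n) ℤ →+* Matrix (Fin n) (Fin n) (ZMod ℓ) :=
    (Int.castRingHom (ZMod ℓ)).mapMatrix
  have hℓsmul : ∀ B : Matrix (Fin n) (Fin n) (ZMod ℓ), ℓ • B = 0 := by
    intro B
    ext i j
    rw [Matrix.smul_apply, nsmul_eq_mul, ZMod.natCast_self, zero_mul]; rfl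
  -- `ψ A = 0 → φ A = 0`
  have hψφ : ∀ A : Matrix (Fin n) (Fin n) ℤ, ψ A = 0 → φ A = 0 := by
    intro A hA
    obtain ⟨X, rfl⟩ := h47_exists_smul_of_map_eq_zero (ℓ ^ 2) A hA
    rw [map_zsmul, natCast_zsmul, pow_two, mul_nsmul, hℓsmul]
  have hψφ1 : ∀ M : Matrix (Fin n) (Fin n) ℤ, ψ M = 1 → φ M = 1 := by
    intro M hM
    have := hψφ (M - 1) (by rw [map_sub, hM, map_one, sub_self])
    rwa [map_sub, map_one, sub_eq_zero] at this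
  -- step 1: `C` has finite order mod `ℓ ^ 2`
  have hunit : IsUnit (ψ C) := by
    rw [Matrix.isUnit_iff_isUnit_det, h47_det_map]
    have hcop : IsCoprime (C.det) ((ℓ : ℤ) ^ 2) := by
      have h1 : IsCoprime (ℓ : ℤ) C.det :=
        (Nat.prime_iff_prime_int.mp hℓ).irreducible.coprime_iff_not_dvd.mpr hdet
      exact h1.symm.pow_right
    obtain ⟨a, b, hab⟩ := hcop
    have h2 := congrArg (Int.cast : ℤ → ZMod (ℓ ^ 2)) hab
    rw [Int.cast_add, Int.cast_mul, Int.cast_mul, Int.cast_one] at h2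
    have h3 : (((ℓ : ℤ) ^ 2 : ℤ) : ZMod (ℓ ^ 2)) = 0 := by
      have := ZMod.natCast_self (ℓ ^ 2)
      rw [← this]
      push_cast
      rfl
    rw [h3, mul_zero, add_zero] at h2
    exact IsUnit.of_mul_eq_one _ (by rw [mul_comm]; exact h2)
  obtain ⟨n₀, hn₀, hpow⟩ := isOfFinOrder_iff_pow_eq_one.mp (isOfFinOrder_of_finite hunit.unit)
  have hC0 : ψ (C ^ n₀) = 1 := by
    have := congrArg Units.val hpow
    rw [Units.val_pow_eq_pow_val, IsUnit.unit_spec, Units.val_one] at this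
    rw [map_pow]; exact this
  refine ⟨n₀, hn₀, padicValInt ℓ (1 - C ^ n₀).det, ?_⟩
  -- geometric sums of matrices `≡ 1 mod ℓ²`
  have hsumφ : ∀ (M : Matrix (Fin n) (Fin n) ℤ), ψ M = 1 → ∀ s : ℕ,
      φ (∑ a ∈ range s, M ^ a) = (s : ZMod ℓ) • (1 : Matrix (Fin n) (Fin n) (ZMod ℓ)) := by
    intro M hM s
    rw [map_sum]
    simp only [map_pow, hψφ1 M hM, one_pow, sum_const, card_range]
    rw [Nat.cast_smul_eq_nsmul (ZMod ℓ)]
  have hsumℓ : ∀ (M : Matrix (Fin n) (Fin n) ℤ), ψ M = 1 →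
      ∃ Y : Matrix (Fin n) (Fin n) ℤ, ∑ a ∈ range ℓ, M ^ a = (ℓ : ℤ) • Y ∧ φ Y = 1 := by
    intro M hM
    have h0 : ψ (∑ a ∈ range ℓ, M ^ a - (ℓ : ℤ) • 1) = 0 := by
      rw [map_sub, map_sum, map_zsmul, map_one]
      simp only [map_pow, hM, one_pow, sum_const, card_range, natCast_zsmul, sub_self]
    obtain ⟨X, hX⟩ := h47_exists_smul_of_map_eq_zero (ℓ ^ 2) _ h0
    refine ⟨1 + (ℓ : ℤ) • X, ?_, ?_⟩
    · rw [sub_eq_iff_eq_add] at hX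
      rw [hX, smul_add, smul_smul]
      push_cast
      rw [pow_two, add_comm]
    · rw [map_add, map_one, map_zsmul, natCast_zsmul, hℓsmul, add_zero]
  -- the induction on `j`
  have key : ∀ j : ℕ, ψ (C ^ (n₀ * ℓ ^ j)) = 1 ∧
      padicValInt ℓ (1 - C ^ (n₀ * ℓ ^ j)).det = padicValInt ℓ (1 - C ^ n₀).det + n * j := by
    intro j
    induction j with
    | zero => simp [hC0]
    | succ j ih =>
      obtain ⟨ih1, ih2⟩ := ih
      have hpow' : C ^ (n₀ * ℓ ^ (j + 1)) = (C ^ (n₀ * ℓ ^ j)) ^ ℓ := by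
        rw [← pow_mul, pow_succ, mul_assoc]
      refine ⟨by rw [hpow', map_pow, ih1, one_pow], ?_⟩
      obtain ⟨Y, hY1, hY2⟩ := hsumℓ _ ih1
      have hfac : 1 - (C ^ (n₀ * ℓ ^ j)) ^ ℓ = (1 - C ^ (n₀ * ℓ ^ j)) * ((ℓ : ℤ) • Y) := by
        rw [← hY1, mul_neg_geom_sum]
      have hYdet : ¬ (ℓ : ℤ) ∣ Y.det :=
        h47_not_dvd_det_of_map_eq ℓ Y 1 one_ne_zero (by rw [one_smul]; exact hY2)
      have hMne : (1 - C ^ (n₀ * ℓ ^ j)).det ≠ 0 := hne _ (Nat.mul_pos hn₀ (pow_pos hℓ.pos j))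
      have h2ne : ((ℓ : ℤ) ^ n * Y.det) ≠ 0 :=
        mul_ne_zero (pow_ne_zero _ (by exact_mod_cast hℓ.ne_zero))
          (fun h => hYdet (h ▸ dvd_zero _))
      rw [hpow', hfac, det_mul, det_smul, Fintype.card_fin, padicValInt.mul hMne h2ne,
        h47_padicValInt_pow_mul ℓ n Y.det hYdet, ih2]
      ring
  intro j s hs hℓs
  obtain ⟨k1, k2⟩ := key j
  have hpow' : C ^ (n₀ * ℓ ^ j * s) = (C ^ (n₀ * ℓ ^ j)) ^ s := by rw [← pow_mul]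
  have hfac : 1 - (C ^ (n₀ * ℓ ^ j)) ^ s
      = (1 - C ^ (n₀ * ℓ ^ j)) * ∑ a ∈ range s, (C ^ (n₀ * ℓ ^ j)) ^ a :=
    (mul_neg_geom_sum _ s).symm
  have hs0 : (s : ZMod ℓ) ≠ 0 := by
    rw [Ne, ZMod.natCast_eq_zero_iff]
    exact hℓs
  have hSdet : ¬ (ℓ : ℤ) ∣ (∑ a ∈ range s, (C ^ (n₀ * ℓ ^ j)) ^ a).det :=
    h47_not_dvd_det_of_map_eq ℓ _ (s : ZMod ℓ) hs0 (hsumφ _ k1 s)
  have hMne : (1 - C ^ (n₀ * ℓ ^ j)).det ≠ 0 := hne _ (Nat.mul_pos hn₀ (pow_pos hℓ.pos j))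
  have hSne : (∑ a ∈ range s, (C ^ (n₀ * ℓ ^ j)) ^ a).det ≠ 0 :=
    fun h => hSdet (h ▸ dvd_zero _)
  rw [hpow', hfac, det_mul, padicValInt.mul hMne hSne,
    padicValInt.eq_zero_of_not_dvd hSdet, add_zero, k2]

end Fermat.Agent.S27
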