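import Fermat.Agent.S27.h82_HenselK

/-!
# S27, block B4 (HENSEL-AC): the skeleton exports, verbatim

`h15_hensel` and `h15_hensel_ker` are the statements of the S27 skeleton (row 463), verbatim.
They are the adapters `h82_hensel_K` / `h82_hensel_ker_K` of helper82 (which do not even use
the rank-one hypothesis `hA`).
-/

set_option autoImplicit false

namespace Fermat.Agent.S27

/-- **HENSEL-AC.** Multivariable Hensel lemma for a rank-one valuation ring of an algebraically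
closed field (no completeness): a square polynomial system over `A` with an approximate solution
modulo the maximal ideal at which the Jacobian determinant is a unit has an exact solution in `A`
with the same reduction. -/
theorem h15_hensel {K : Type*} [Field K] [IsAlgClosed K] (A : ValuationSubring K)
    (hA : ∀ a : K, a ∈ A → a⁻¹ ∉ A → ∀ δ : K, δ ≠ 0 → ∃ n : ℕ, a ^ n * δ⁻¹ ∈ A) {σ : Type*} [Fintype σ] [DecidableEq σ]
    (Ψ : σ → MvPolynomial σ K) (hΨ : ∀ i s, (Ψ i).coeff s ∈ A)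
    (a : σ → K) (ha : ∀ i, a i ∈ A)
    (h0 : ∀ i, MvPolynomial.eval a (Ψ i) ∈ A.nonunits)
    (hJ : (Matrix.of fun i j => MvPolynomial.eval a (MvPolynomial.pderiv j (Ψ i))).det
      ∉ A.nonunits) :
    ∃ b : σ → K, (∀ i, b i ∈ A) ∧ (∀ i, b i - a i ∈ A.nonunits) ∧
      ∀ i, MvPolynomial.eval b (Ψ i) = 0 :=
  h82_hensel_K A hA Ψ hΨ a ha h0 hJ

/-- **HENSEL-AC, kernel form** (what the consumer LIFT uses): instead of the determinant, the
Jacobian is injective modulo the maximal ideal. -/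
theorem h15_hensel_ker {K : Type*} [Field K] [IsAlgClosed K] (A : ValuationSubring K)
    (hA : ∀ a : K, a ∈ A → a⁻¹ ∉ A → ∀ δ : K, δ ≠ 0 → ∃ n : ℕ, a ^ n * δ⁻¹ ∈ A) {σ : Type*} [Fintype σ] [DecidableEq σ]
    (Ψ : σ → MvPolynomial σ K) (hΨ : ∀ i s, (Ψ i).coeff s ∈ A)
    (a : σ → K) (ha : ∀ i, a i ∈ A)
    (h0 : ∀ i, MvPolynomial.eval a (Ψ i) ∈ A.nonunits)
    (hJ : ∀ δ : σ → K, (∀ j, δ j ∈ A) →
      (∀ i, ∑ j, MvPolynomial.eval a (MvPolynomial.pderiv j (Ψ i)) * δ j ∈ A.nonunits) →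
      ∀ j, δ j ∈ A.nonunits) :
    ∃ b : σ → K, (∀ i, b i ∈ A) ∧ (∀ i, b i - a i ∈ A.nonunits) ∧
      ∀ i, MvPolynomial.eval b (Ψ i) = 0 :=
  h82_hensel_ker_K A hA Ψ hΨ a ha h0 hJ

end Fermat.Agent.S27
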