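import Fermat.Agent.S27.h81_CoordInt

/-!
# S27 / B5e COORD (row 486, helper81): the plane model of a chart with good reduction

`R` a reduction datum, `x` a chart (`h39_Chart R x`), `K`, `k` algebraically closed, `char K = 0`.

* `h15_red_ev2` (in `h81_CoordBasic.lean`) **(C3)**;
* `h15_exists_lift_reg` (in `h81_CoordBasic.lean`);
* `h15_exists_coord` **(C1) + (C2)**: there are `y ∈ O` regular on the chart, a monic
  `Φ ∈ A[X][Y]` of degree `n = [F : K(x)]` with `Φ(x, y) = 0`, generating the relations between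
  `x, y` on both curves, and `d ∈ A[X]` with `d̄ ≠ 0`, a Bezout identity `U Φ + V Φ_Y = d` and
  `d(x) f ∈ A[x][y]` for every `f ∈ O` regular on the chart (and the same on the reduced curve).
-/

set_option autoImplicit false

open AlgebraicCurve IntermediateField Polynomial

namespace Fermat.Agent.S27

open Fermat.Agent.S18

variable {K F k Fb : Type*} [Field K] [Field F] [Algebra K F] [Field k] [Field Fb] [Algebra k Fb]

/-- the monic relation of degree `n` with coefficients in `A[X]`. -/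
theorem h81_exists_phi [IsAlgClosed K] [CharZero K] [IsAlgClosed k] (R : h39_RedDatum K F k Fb)
    {x : F} (hx : h39_Chart R x) {y : F} (hyO : y ∈ R.O) (hyreg : h39_Reg K x y)
    (hlired : LinearIndependent k⟮R.redF x⟯
      (fun i : Fin (Module.finrank K⟮x⟯ F) => R.redF (y ^ (i : ℕ)))) :
    ∃ Φ : Polynomial (Polynomial R.A), Φ.Monic ∧ Φ.natDegree = Module.finrank K⟮x⟯ F ∧
      h15_ev2 x y (Φ.map (Polynomial.mapRingHom (algebraMap R.A K))) = 0 := by
  have hxW := hx.toh39_WeakChart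
  have hxK : h75_IsChart K x := h39_weakChart_isChart R hxW
  have hfinK := hxK.fin
  have hli : LinearIndependent K⟮x⟯ (fun i : Fin (Module.finrank K⟮x⟯ F) => y ^ (i : ℕ)) :=
    h81_linearIndependent_of_red R hxW _ (fun i => R.O.pow_mem hyO _) hlired
  have hint : IsIntegral (Algebra.adjoin K {x}) y := (h75_isIntegral_iff hxK y).mpr hyreg
  have hintK : IsIntegral K⟮x⟯ y := IsIntegral.of_finite _ y
  have hμdeg : (minpoly K⟮x⟯ y).natDegree = Module.finrank K⟮x⟯ F :=
    le_antisymm (minpoly.natDegree_le y) (h81_le_natDegree_minpoly hintK hli)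
  have hμm : (minpoly K⟮x⟯ y).Monic := minpoly.monic hintK
  have hcoef : ∀ i, ∃ p : K[X], aeval x p = (((minpoly K⟮x⟯ y).coeff i : K⟮x⟯) : F) := by
    intro i
    have h1 := h66_minpoly_coeff_mem_adjoin hxK.tr hint i
    rw [Algebra.adjoin_singleton_eq_range_aeval] at h1
    exact h1
  choose P hP using hcoef
  have hGKdeg : (∑ i : Fin (Module.finrank K⟮x⟯ F), C (P i) * X ^ (i : ℕ) :
      Polynomial (Polynomial K)).degree < (Module.finrank K⟮x⟯ F : ℕ) :=
    Polynomial.degree_sum_fin_lt (fun i : Fin (Module.finrank K⟮x⟯ F) => P i)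
  have hGKev : h15_ev2 x y (∑ i : Fin (Module.finrank K⟮x⟯ F), C (P i) * X ^ (i : ℕ)) =
      - y ^ (Module.finrank K⟮x⟯ F) := by
    have h0 : aeval y (minpoly K⟮x⟯ y) = 0 := minpoly.aeval _ y
    rw [aeval_eq_sum_range, hμdeg, Finset.sum_range_succ] at h0
    have h1 : (minpoly K⟮x⟯ y).coeff (Module.finrank K⟮x⟯ F) = 1 := by
      rw [← hμdeg]
      exact hμm.coeff_natDegree
    rw [h1, one_smul] at h0
    rw [h69_ev2_sum, eq_neg_iff_add_eq_zero, ← h0]
    congr 1
    rw [← Fin.sum_univ_eq_sum_range (fun i => (minpoly K⟮x⟯ y).coeff i • y ^ i)]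
    refine Finset.sum_congr rfl fun i _ => ?_
    rw [h69_ev2_mul, h69_ev2_C, h69_ev2_pow, h69_ev2_X, hP, Algebra.smul_def]
    rfl
  obtain ⟨G, hG⟩ := h81_lifts_of_mem R hxW hyO hlired _ hGKdeg
    (by rw [hGKev]; exact R.O.neg_mem _ (R.O.pow_mem hyO _))
  have hinj : Function.Injective (Polynomial.mapRingHom (algebraMap R.A K)) :=
    Polynomial.map_injective _ (fun a b h => Subtype.ext h)
  have hGdeg : G.degree < (Module.finrank K⟮x⟯ F : ℕ) := by
    rw [← Polynomial.degree_map_eq_of_injective hinj G, hG]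
    exact hGKdeg
  have hnat : (X ^ (Module.finrank K⟮x⟯ F) + G : Polynomial (Polynomial R.A)).natDegree =
      Module.finrank K⟮x⟯ F := by
    rw [natDegree_add_eq_left_of_degree_lt (by rw [degree_X_pow]; exact hGdeg), natDegree_X_pow]
  refine ⟨X ^ (Module.finrank K⟮x⟯ F) + G, monic_X_pow_add hGdeg, hnat, ?_⟩
  rw [Polynomial.map_add, Polynomial.map_pow, Polynomial.map_X, hG, h69_ev2_add, h69_ev2_pow,
    h69_ev2_X, hGKev]
  ring


/-- the uniform denominator of the regular functions, with integral coefficients. -/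
theorem h81_exists_den_int [IsAlgClosed K] [CharZero K] [IsAlgClosed k]
    (R : h39_RedDatum K F k Fb) {x : F} (hx : h39_Chart R x) {y : F} (hyO : y ∈ R.O)
    (hlired : LinearIndependent k⟮R.redF x⟯
      (fun i : Fin (Module.finrank K⟮x⟯ F) => R.redF (y ^ (i : ℕ))))
    (Φ : Polynomial (Polynomial R.A)) (hΦm : Φ.Monic)
    (hΦdeg : Φ.natDegree = Module.finrank K⟮x⟯ F)
    (hΦ : h15_ev2 x y (Φ.map (Polynomial.mapRingHom (algebraMap R.A K))) = 0) :
    ∃ D₁ : Polynomial R.A, D₁.map R.res ≠ 0 ∧ ∀ f : F, f ∈ R.O → h39_Reg K x f →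
      ∃ H : Polynomial (Polynomial R.A),
        h15_ev2 x y (H.map (Polynomial.mapRingHom (algebraMap R.A K))) =
          aeval x (D₁.map (algebraMap R.A K)) * f := by
  have hxW := hx.toh39_WeakChart
  have hxK : h75_IsChart K x := h39_weakChart_isChart R hxW
  have hfinK := hxK.fin
  have hli : LinearIndependent K⟮x⟯ (fun i : Fin (Module.finrank K⟮x⟯ F) => y ^ (i : ℕ)) :=
    h81_linearIndependent_of_red R hxW _ (fun i => R.O.pow_mem hyO _) hlired
  have hspan : ⊤ ≤ Submodule.span K⟮x⟯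
      (Set.range (fun i : Fin (Module.finrank K⟮x⟯ F) => y ^ (i : ℕ))) :=
    (hli.span_eq_top_of_card_eq_finrank' (by simp)).ge
  obtain ⟨D, hD0, hDden⟩ := h81_exists_den hxK hspan
  obtain ⟨δ, D₁, j, hδ, hj, hDeq⟩ := h89_exists_primitive R.A hD0
  refine ⟨D₁, ?_, ?_⟩
  · intro h
    have h1 : (D₁.map R.res).coeff j = 1 := by
      rw [Polynomial.coeff_map, hj, map_one]
    rw [h, coeff_zero] at h1
    exact zero_ne_one h1
  · intro f hfO hfreg
    obtain ⟨H, hH⟩ := hDden f hfreg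
    have hΦKm := hΦm.map (Polynomial.mapRingHom (algebraMap R.A K))
    have hdeg : ((C (C δ⁻¹) * H) %ₘ
        Φ.map (Polynomial.mapRingHom (algebraMap R.A K))).degree <
          (Module.finrank K⟮x⟯ F : ℕ) := by
      calc ((C (C δ⁻¹) * H) %ₘ Φ.map (Polynomial.mapRingHom (algebraMap R.A K))).degree
          < (Φ.map (Polynomial.mapRingHom (algebraMap R.A K))).degree :=
            degree_modByMonic_lt _ hΦKm
        _ = (Module.finrank K⟮x⟯ F : ℕ) := by
            rw [degree_eq_natDegree hΦKm.ne_zero, hΦm.natDegree_map, hΦdeg]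
    have hev : h15_ev2 x y ((C (C δ⁻¹) * H) %ₘ
        Φ.map (Polynomial.mapRingHom (algebraMap R.A K))) =
          aeval x (D₁.map (algebraMap R.A K)) * f := by
      have hδ' : algebraMap K F δ ≠ 0 := by
        rw [Ne, map_eq_zero_iff _ (algebraMap K F).injective]
        exact hδ
      rw [h81_ev2_modByMonic x y _ hΦ, h69_ev2_mul, h69_ev2_C_C, hH, hDeq, map_mul, aeval_C,
        map_inv₀]
      have h2 : aeval x (D₁.map R.A.subtype) = aeval x (D₁.map (algebraMap R.A K)) := rfl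
      rw [h2]
      field_simp
    obtain ⟨H₁, hH₁⟩ := h81_lifts_of_mem R hxW hyO hlired _ hdeg
      (by rw [hev]; exact R.O.mul_mem _ _ (h89_gauss_red_mem R hxW.mem D₁) hfO)
    exact ⟨H₁, by rw [hH₁, hev]⟩

/-- the Bezout identity for `Φ` and `Φ_Y`, with a denominator in `A[X]` of nonzero reduction. -/
theorem h81_exists_bezout [IsAlgClosed K] [CharZero K] [IsAlgClosed k]
    (R : h39_RedDatum K F k Fb) {x : F} (hx : h39_Chart R x) {y : F} (hyO : y ∈ R.O)
    (hlib : LinearIndependent k⟮R.redF x⟯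
      (fun i : Fin (Module.finrank K⟮x⟯ F) => R.redF y ^ (i : ℕ)))
    (Φ : Polynomial (Polynomial R.A)) (hΦm : Φ.Monic)
    (hΦdeg : Φ.natDegree = Module.finrank K⟮x⟯ F)
    (hΦ : h15_ev2 x y (Φ.map (Polynomial.mapRingHom (algebraMap R.A K))) = 0) :
    ∃ (q : Polynomial R.A) (U V : Polynomial (Polynomial R.A)), q.map R.res ≠ 0 ∧
      U * Φ + V * derivative Φ = C q := by
  have hxW := hx.toh39_WeakChart
  have hxK : h75_IsChart K x := h39_weakChart_isChart R hxW
  have hxk : h75_IsChart k (R.redF x) := h39_weakChart_isChart_red R hxW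
  have hfinK := hxK.fin
  have hlired : LinearIndependent k⟮R.redF x⟯
      (fun i : Fin (Module.finrank K⟮x⟯ F) => R.redF (y ^ (i : ℕ))) := by
    have h1 : (fun i : Fin (Module.finrank K⟮x⟯ F) => R.redF (y ^ (i : ℕ))) =
        fun i : Fin (Module.finrank K⟮x⟯ F) => R.redF y ^ (i : ℕ) := by
      funext i
      exact h39_redF_pow R hyO _
    rw [h1]
    exact hlib
  have hli : LinearIndependent K⟮x⟯ (fun i : Fin (Module.finrank K⟮x⟯ F) => y ^ (i : ℕ)) :=
    h81_linearIndependent_of_red R hxW _ (fun i => R.O.pow_mem hyO _) hlired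
  have hspan : ⊤ ≤ Submodule.span K⟮x⟯
      (Set.range (fun i : Fin (Module.finrank K⟮x⟯ F) => y ^ (i : ℕ))) :=
    (hli.span_eq_top_of_card_eq_finrank' (by simp)).ge
  have hred := h15_red_ev2 R hxW.mem hyO Φ
  have hΦb0 : h15_ev2 (R.redF x) (R.redF y) (Φ.map (Polynomial.mapRingHom R.res)) = 0 := by
    rw [← hred.2, hΦ, h39_redF_zero]
  have hsep : IsSeparable k⟮R.redF x⟯ (R.redF y) := by
    have := hxk.sep
    exact Algebra.IsSeparable.isSeparable _ _
  have hzb : h15_ev2 (R.redF x) (R.redF y)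
      (derivative (Φ.map (Polynomial.mapRingHom R.res))) ≠ 0 :=
    h81_ev2_derivative_ne_zero hsep hlib _ (hΦm.map _) (by rw [hΦm.natDegree_map, hΦdeg]) hΦb0
  have hz := h15_red_ev2 R hxW.mem hyO (derivative Φ)
  rw [← Polynomial.derivative_map, ← Polynomial.derivative_map] at hz
  have hzred : R.redF (h15_ev2 x y
      (derivative (Φ.map (Polynomial.mapRingHom (algebraMap R.A K))))) ≠ 0 := by
    rw [hz.2]
    exact hzb
  have hz0 : h15_ev2 x y (derivative (Φ.map (Polynomial.mapRingHom (algebraMap R.A K)))) ≠ 0 := by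
    intro h
    rw [h, h39_redF_zero] at hzred
    exact hzred rfl
  obtain ⟨hzinv, -⟩ := h39_inv_of_redF_ne_zero R hzred
  obtain ⟨q, V, hq, hV⟩ := h81_exists_frac R hxW hyO hlired hspan _ hzinv
  have hW : h15_ev2 x y ((V * derivative Φ - C q).map
      (Polynomial.mapRingHom (algebraMap R.A K))) = 0 := by
    rw [Polynomial.map_sub, Polynomial.map_mul, Polynomial.map_C, h69_ev2_sub, h69_ev2_mul,
      h69_ev2_C, hV, ← Polynomial.derivative_map, Polynomial.coe_mapRingHom]
    field_simp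
    ring
  have hdvdK := h81_dvd_of_ev2 hxK.tr hli _ (hΦm.map _) (by rw [hΦm.natDegree_map, hΦdeg]) hΦ
    _ hW
  have hinj : Function.Injective (Polynomial.mapRingHom (algebraMap R.A K)) :=
    Polynomial.map_injective _ (fun a b h => Subtype.ext h)
  obtain ⟨U', hU'⟩ := h81_dvd_of_map_dvd _ hinj hΦm hdvdK
  refine ⟨q, -U', V, hq, ?_⟩
  linear_combination hU'

/-- **(C1) + (C2)** the plane model of a chart with good reduction. -/
theorem h15_exists_coord [IsAlgClosed K] [CharZero K] [IsAlgClosed k] (R : h39_RedDatum K F k Fb)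
    {x : F} (hx : h39_Chart R x) :
    ∃ (y : F) (Φ : Polynomial (Polynomial R.A)) (d : Polynomial R.A),
      y ∈ R.O ∧ h39_Reg K x y ∧ h39_Reg k (R.redF x) (R.redF y) ∧
      Φ.Monic ∧ Φ.natDegree = Module.finrank K⟮x⟯ F ∧
      h15_ev2 x y (Φ.map (Polynomial.mapRingHom (algebraMap R.A K))) = 0 ∧
      h15_ev2 (R.redF x) (R.redF y) (Φ.map (Polynomial.mapRingHom R.res)) = 0 ∧
      (∀ H : Polynomial (Polynomial K), h15_ev2 x y H = 0 →
        Φ.map (Polynomial.mapRingHom (algebraMap R.A K)) ∣ H) ∧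
      (∀ Hb : Polynomial (Polynomial k), h15_ev2 (R.redF x) (R.redF y) Hb = 0 →
        Φ.map (Polynomial.mapRingHom R.res) ∣ Hb) ∧
      d.map R.res ≠ 0 ∧
      (∃ U V : Polynomial (Polynomial R.A), U * Φ + V * derivative Φ = C d) ∧
      (∀ f : F, f ∈ R.O → h39_Reg K x f → ∃ H : Polynomial (Polynomial R.A),
        h15_ev2 x y (H.map (Polynomial.mapRingHom (algebraMap R.A K))) =
          aeval x (d.map (algebraMap R.A K)) * f) ∧
      (∀ fb : Fb, h39_Reg k (R.redF x) fb → ∃ Hb : Polynomial (Polynomial k),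
        h15_ev2 (R.redF x) (R.redF y) Hb = aeval (R.redF x) (d.map R.res) * fb) := by
  have hxW := hx.toh39_WeakChart
  have hxK : h75_IsChart K x := h39_weakChart_isChart R hxW
  have hxk : h75_IsChart k (R.redF x) := h39_weakChart_isChart_red R hxW
  have hfinK := hxK.fin
  have hfink := hxk.fin
  obtain ⟨yb, hybreg, hybtop⟩ := h81_exists_primitive_reg hxk
  obtain ⟨y, hyO, hyreg, hyred⟩ := h15_exists_lift_reg R hx yb hybreg
  subst hyred
  have hlib : LinearIndependent k⟮R.redF x⟯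
      (fun i : Fin (Module.finrank K⟮x⟯ F) => R.redF y ^ (i : ℕ)) :=
    (h81_linearIndependent_pow hybtop).comp (Fin.cast hx.finrank_eq.symm) (Fin.cast_injective _)
  have hlired : LinearIndependent k⟮R.redF x⟯
      (fun i : Fin (Module.finrank K⟮x⟯ F) => R.redF (y ^ (i : ℕ))) := by
    have h1 : (fun i : Fin (Module.finrank K⟮x⟯ F) => R.redF (y ^ (i : ℕ))) =
        fun i : Fin (Module.finrank K⟮x⟯ F) => R.redF y ^ (i : ℕ) := by
      funext i
      exact h39_redF_pow R hyO _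
    rw [h1]
    exact hlib
  have hli : LinearIndependent K⟮x⟯ (fun i : Fin (Module.finrank K⟮x⟯ F) => y ^ (i : ℕ)) :=
    h81_linearIndependent_of_red R hxW _ (fun i => R.O.pow_mem hyO _) hlired
  obtain ⟨Φ, hΦm, hΦdeg, hΦ⟩ := h81_exists_phi R hx hyO hyreg hlired
  obtain ⟨D₁, hD₁, hden⟩ := h81_exists_den_int R hx hyO hlired Φ hΦm hΦdeg hΦ
  obtain ⟨q, U, V, hq, hUV⟩ := h81_exists_bezout R hx hyO hlib Φ hΦm hΦdeg hΦ
  have hΦb0 : h15_ev2 (R.redF x) (R.redF y) (Φ.map (Polynomial.mapRingHom R.res)) = 0 := by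
    rw [← (h15_red_ev2 R hxW.mem hyO Φ).2, hΦ, h39_redF_zero]
  have hden' : ∀ f : F, f ∈ R.O → h39_Reg K x f → ∃ H : Polynomial (Polynomial R.A),
      h15_ev2 x y (H.map (Polynomial.mapRingHom (algebraMap R.A K))) =
        aeval x ((D₁ * q).map (algebraMap R.A K)) * f := by
    intro f hfO hfreg
    obtain ⟨H, hH⟩ := hden f hfO hfreg
    refine ⟨C q * H, ?_⟩
    rw [Polynomial.map_mul, Polynomial.map_C, h69_ev2_mul, h69_ev2_C, hH,
      Polynomial.coe_mapRingHom, Polynomial.map_mul, map_mul]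
    ring
  refine ⟨y, Φ, D₁ * q, hyO, hyreg, hybreg, hΦm, hΦdeg, hΦ, hΦb0, ?_, ?_, ?_, ?_, hden', ?_⟩
  · exact fun H hH => h81_dvd_of_ev2 hxK.tr hli _ (hΦm.map _)
      (by rw [hΦm.natDegree_map, hΦdeg]) hΦ H hH
  · exact fun Hb hHb => h81_dvd_of_ev2 hxk.tr hlib _ (hΦm.map _)
      (by rw [hΦm.natDegree_map, hΦdeg]) hΦb0 Hb hHb
  · rw [Polynomial.map_mul]
    exact mul_ne_zero hD₁ hq
  · refine ⟨C D₁ * U, C D₁ * V, ?_⟩
    rw [map_mul C, ← hUV]
    ring
  · intro fb hfb
    obtain ⟨f, hfO, hfreg, rfl⟩ := h15_exists_lift_reg R hx fb hfb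
    obtain ⟨H, hH⟩ := hden' f hfO hfreg
    refine ⟨H.map (Polynomial.mapRingHom R.res), ?_⟩
    rw [← (h15_red_ev2 R hxW.mem hyO H).2, hH,
      h39_redF_mul R (show aeval x ((D₁ * q).map (algebraMap R.A K)) ∈ R.O from
        h89_gauss_red_mem R hxW.mem (D₁ * q)) hfO, h39_gauss_red R hxW]

end Fermat.Agent.S27
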