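import Fermat.Agent.S27.h64_SpecAnyNat
import Fermat.Agent.S27.Lift
import Fermat.Agent.S27.LiftInj

set_option autoImplicit false

/-!
# S27 / SPEC (any rank): the export `h15_spec_any`

Good reduction changes neither the genus nor the number of `m`-torsion classes (`m` invertible
in the residue field).  Assembly of `h64_spec_any_of` (reduction homomorphism on `Pic⁰`,
bijectivity on `m`-torsion from existence and uniqueness of lifts) with the two exports of block
B5: `h15_lift` (existence) and `h15_lift_inj` (uniqueness).
-/

noncomputable section

open AlgebraicCurve Fermat.Agent.S18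

namespace Fermat.Agent.S27

/-- **SPEC (any rank).** Good reduction does not change the `m`-torsion count (`m` invertible in
`k`) nor the genus. -/
theorem h15_spec_any {K F k Fb : Type*} [Field K] [Field F] [Algebra K F] [Field k] [Field Fb]
    [Algebra k Fb] [IsAlgClosed K] [CharZero K] [IsAlgClosed k] (R : h39_RedDatum K F k Fb)
    {x : F} (hx : h39_Chart R x) :
    h75_genus k (R.redF x) = h75_genus K x ∧
    ∀ m : ℕ, (m : k) ≠ 0 →
      Nat.card (Pic0.torsion K F m) = Nat.card (Pic0.torsion k Fb m) :=
  h64_spec_any_of R hx (fun S hS m hm Db hdeg hDb => h15_lift R hx S hS m hm Db hdeg hDb)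
    (fun S hS m hm D hdeg hD h0 => h15_lift_inj R hx S hS m hm D hdeg hD h0)

end Fermat.Agent.S27
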