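import Fermat.Agent.S27.h64_SpecRed
import Fermat.Agent.S18.GR_RedAPI

set_option autoImplicit false

/-!
# S27 / row SPEC-RED: the exports `h15_exists_redPic`, `h15_redPic_injOn`

Verbatim statements of the skeleton, wrappers over `h64_SpecRed.lean`.
-/

noncomputable section

open AlgebraicCurve Fermat.Agent.S18

namespace Fermat.Agent.S27

variable {K F k Fb : Type*} [Field K] [Field F] [Algebra K F] [Field k] [Field Fb] [Algebra k Fb]

/-- (SPEC-RED) the reduction homomorphism on `Pic⁰` attached to a place reduction. -/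
theorem h15_exists_redPic [IsAlgClosed K] [CharZero K] [IsAlgClosed k] (R : h39_RedDatum K F k Fb)
    {x : F} (hx : h39_Chart R x) (S : h39_PlaceRed R) :
    ∃ ρ : Pic0 K F →+ Pic0 k Fb,
      ∀ (D : Divisor.degZero (K := K) (F := F)) (Db : Divisor.degZero (K := k) (F := Fb)),
        (Db : Divisor k Fb) = Finsupp.mapDomain S.r0 (D : Divisor K F) →
          ρ (Pic0.mk D) = Pic0.mk Db := by
  have hw : h39_WeakChart R x := hx.toh39_WeakChart
  have hxK : h75_IsChart K x := h39_weakChart_isChart R hw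
  have hxk : h75_IsChart k (R.redF x) := h39_weakChart_isChart_red R hw
  refine ⟨h64_redPic0 R S (h75_deg_eq_one hxK) (h75_deg_eq_one hxk), fun D Db h => ?_⟩
  rw [h64_redPic0_mk]
  exact congrArg Pic0.mk (Subtype.ext h.symm)

/-- (SPEC-INJ) injectivity on `m`-torsion, from `h64_GT`. -/
theorem h15_redPic_injOn [IsAlgClosed K] [CharZero K] [IsAlgClosed k] (R : h39_RedDatum K F k Fb)
    {x : F} (hx : h39_Chart R x) (hR1 : h39_RankOne R.A) (S : h39_PlaceRed R)
    (ρ : Pic0 K F →+ Pic0 k Fb)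
    (hρ : ∀ (D : Divisor.degZero (K := K) (F := F)) (Db : Divisor.degZero (K := k) (F := Fb)),
        (Db : Divisor k Fb) = Finsupp.mapDomain S.r0 (D : Divisor K F) →
          ρ (Pic0.mk D) = Pic0.mk Db)
    (m : ℕ) (hm : (m : k) ≠ 0) (z : Pic0 K F) (hz : z ∈ Pic0.torsion K F m) (h0 : ρ z = 0) :
    z = 0 := by
  have hw : h39_WeakChart R x := hx.toh39_WeakChart
  have hxK : h75_IsChart K x := h39_weakChart_isChart R hw
  have hxk : h75_IsChart k (R.redF x) := h39_weakChart_isChart_red R hw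
  apply h64_redPic0_torsion_injective R S hR1 hxK hxk m hm z hz
  obtain ⟨D, rfl⟩ := Pic0.mk_surjective z
  rw [h64_redPic0_mk, ← hρ D (h64_redDeg0 R S (h75_deg_eq_one hxK) (h75_deg_eq_one hxk) D) rfl]
  exact h0

end Fermat.Agent.S27
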