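import Fermat.Agent.S27.h14_WIrr

/-!
# S27 / B2a WTIRR : irreducibility from the weights `n`, `n + 1` (row 467, helper96)

The skeleton statement `h15_irreducible_of_weights` (verbatim from `h15_SkelAbs.lean`), as a
corollary of helper14's weighted-form irreducibility `h14_wirr_ratFunc`.
-/

namespace Fermat.Agent.S27

theorem h15_irreducible_of_weights {k : Type*} [Field k] (n : ℕ) (hn : 0 < n)
    (Φ : Polynomial (Polynomial k)) (hmonic : Φ.Monic) (hdeg : Φ.natDegree = n)
    (hc : ∀ i : ℕ, 0 < i → i < n → (Φ.coeff (n - i)).natDegree ≤ i)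
    (hcn : (Φ.coeff 0).natDegree = n + 1) :
    Irreducible (Φ.map (algebraMap (Polynomial k) (RatFunc k))) := by
  refine h14_wirr_ratFunc n hn Φ hmonic hdeg hcn fun j hj hjn => ?_
  have h := hc (n - j) (by omega) (by omega)
  rw [show n - (n - j) = j by omega] at h
  calc n * (Φ.coeff j).natDegree + (n + 1) * j
      ≤ n * (n - j) + (n + 1) * j := Nat.add_le_add_right (Nat.mul_le_mul_left n h) _
    _ < n * (n + 1) := by
      obtain ⟨d, rfl⟩ : ∃ d, n = j + d := ⟨n - j, by omega⟩
      have hd : 0 < d := by omega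
      rw [Nat.add_sub_cancel_left]
      nlinarith

end Fermat.Agent.S27
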