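import Fermat.Agent.S18.RR_Chart

/-!
# S27 / B8a WEIL, W4-(F2) ORDERS (helper14)

The order of the norm `N_{B/A} b` at a point `a` of the line is the sum of the orders of `b`
at the places over `a`.  Route: Mathlib's relative ideal norm `Ideal.relNorm`.
-/

set_option autoImplicit false

open AlgebraicCurve IntermediateField IsDedekindDomain WithZero UniqueFactorizationMonoid
open Fermat.Agent.S24 Fermat.Agent.S18

namespace Fermat.Agent.S27

open scoped IntermediateField.algebraAdjoinAdjoin

section Abstract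

variable {R S : Type*} [CommRing R] [IsDedekindDomain R] [CommRing S] [IsDedekindDomain S]
  [Algebra R S] [Module.Finite R S] [Module.IsTorsionFree R S]

/-- In a Dedekind domain, `p ^ a = p ^ b` forces `a = b` for a maximal ideal `p ≠ ⊥`. -/
theorem h14_ideal_pow_inj (p : Ideal R) [p.IsMaximal] (hp0 : p ≠ ⊥) {a b : ℕ}
    (h : p ^ a = p ^ b) : a = b := by
  have h1 : p ≠ 1 := by
    rw [Ideal.one_eq_top]
    exact Ideal.IsMaximal.ne_top inferInstance
  exact ((IsLeftCancelMulZero.mul_left_cancel_of_ne_zero hp0).pow_injective h1) h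

/-- The relative norm of a prime over `p` is `p` itself when all inertia degrees over `p`
are one.  (Mathlib's `Ideal.relNorm_eq_pow_of_isMaximal` needs a perfect fraction field.) -/
theorem h14_relNorm_prime (p : Ideal R) [p.IsMaximal] (hp0 : p ≠ ⊥)
    (hdeg : ∀ Q : Ideal S, Q ∈ p.primesOver S → Q.inertiaDeg R = 1)
    (Q : Ideal S) (hQ : Q ∈ p.primesOver S) : Ideal.relNorm R Q = p := by
  classical
  -- exponents
  have hex : ∀ P : p.primesOver S, ∃ s : ℕ, Ideal.relNorm R (P : Ideal S) = p ^ s := by
    intro P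
    have h1 : (P : Ideal S).IsPrime := P.2.1
    have h2 : (P : Ideal S).LiesOver p := P.2.2
    exact Ideal.exists_relNorm_eq_pow_of_isPrime (P : Ideal S) p
  choose s hs using hex
  have hs1 : ∀ P : p.primesOver S, 1 ≤ s P := by
    intro P
    by_contra hlt
    have h0 : s P = 0 := by omega
    have h2 : (P : Ideal S).LiesOver p := P.2.2
    have h3 := Ideal.relNorm_le_comap (R := R) (P : Ideal S)
    rw [hs P, h0, pow_zero, Ideal.one_eq_top, ← Ideal.under_def,
      ← (Ideal.liesOver_iff (P : Ideal S) p).mp h2] at h3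
    exact (Ideal.IsMaximal.ne_top inferInstance) (top_le_iff.mp h3)
  have hprod := Ideal.map_algebraMap_eq_finsetProd_pow (R := S) (p := p) hp0
  have hnorm := Ideal.relNorm_algebraMap (R := R) S p
  rw [hprod, map_prod] at hnorm
  have hsum := Ideal.sum_ramification_inertia_eq_finrank p S
  -- rewrite the product over the subtype
  have hnorm2 : ∏ P : p.primesOver S, p ^ (s P * (P : Ideal S).ramificationIdx R) =
      p ^ Module.finrank R S := by
    rw [← hnorm, ← Finset.prod_set_coe (p.primesOver S)]
    refine Finset.prod_congr rfl fun P _ => ?_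
    rw [map_pow, hs P, ← pow_mul]
  rw [Finset.prod_pow_eq_pow_sum] at hnorm2
  have hsum2 : ∑ P : p.primesOver S, s P * (P : Ideal S).ramificationIdx R =
      ∑ P : p.primesOver S, (P : Ideal S).ramificationIdx R := by
    rw [h14_ideal_pow_inj p hp0 hnorm2, ← hsum]
    refine Finset.sum_congr rfl fun P _ => ?_
    rw [hdeg P P.2, mul_one]
  have he : ∀ P : p.primesOver S, 1 ≤ (P : Ideal S).ramificationIdx R := by
    intro P
    have h1 : (P : Ideal S).IsPrime := P.2.1
    exact Ideal.ramificationIdx_pos (R := R) (P : Ideal S)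
  -- all exponents are one
  have hall : ∀ P : p.primesOver S, s P = 1 := by
    by_contra hne
    push Not at hne
    obtain ⟨P0, hP0⟩ := hne
    have hlt : ∑ P : p.primesOver S, (P : Ideal S).ramificationIdx R <
        ∑ P : p.primesOver S, s P * (P : Ideal S).ramificationIdx R := by
      refine Finset.sum_lt_sum (fun P _ => ?_) ⟨P0, Finset.mem_univ _, ?_⟩
      · exact Nat.le_mul_of_pos_left _ (hs1 P)
      · have h2 : 2 ≤ s P0 := by have := hs1 P0; omega
        have h3 := he P0
        nlinarith
    omega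
  have := hs ⟨Q, hQ⟩
  rw [hall ⟨Q, hQ⟩, pow_one] at this
  exact this

/-- The `p`-part of the relative norm of a single prime. -/
theorem h14_count_relNorm_prime (p : Ideal R) [p.IsMaximal] (hp0 : p ≠ ⊥)
    (hdeg : ∀ Q : Ideal S, Q ∈ p.primesOver S → Q.inertiaDeg R = 1)
    (Q : Ideal S) (hQp : Q.IsPrime) (hQ0 : Q ≠ ⊥) [DecidablePred (· ∈ p.primesOver S)] :
    Multiset.count p (normalizedFactors (Ideal.relNorm R Q)) =
      if Q ∈ p.primesOver S then 1 else 0 := by
  classical
  have hpirr : Irreducible p := (Ideal.prime_of_isPrime hp0 inferInstance).irreducible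
  split_ifs with hQ
  · rw [h14_relNorm_prime p hp0 hdeg Q hQ, normalizedFactors_irreducible hpirr, normalize_eq,
      Multiset.count_singleton_self]
  · rw [Multiset.count_eq_zero]
    intro hmem
    apply hQ
    -- `q := Q ∩ R`
    have hlo : Q.LiesOver (Q.under R) := ⟨rfl⟩
    obtain ⟨s, hs⟩ := Ideal.exists_relNorm_eq_pow_of_isPrime Q (Q.under R)
    have hdvd : p ∣ Q.under R ^ s := by
      rw [← hs]
      exact dvd_of_mem_normalizedFactors hmem
    have hdvd2 : p ∣ Q.under R := (Ideal.prime_of_isPrime hp0 inferInstance).dvd_of_dvd_pow hdvd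
    have hle : Q.under R ≤ p := Ideal.le_of_dvd hdvd2
    have hq0 : Q.under R ≠ ⊥ := by
      intro h0
      exact hQ0 (Ideal.eq_bot_of_comap_eq_bot (R := R) h0)
    have hqmax : (Q.under R).IsMaximal := Ring.DimensionLEOne.maximalOfPrime hq0 inferInstance
    have heq : Q.under R = p := hqmax.eq_of_le (Ideal.IsMaximal.ne_top inferInstance) hle
    exact ⟨hQp, ⟨heq.symm⟩⟩

/-- The `p`-part of the relative norm of an ideal: the number of prime factors over `p`. -/
theorem h14_count_relNorm_card (p : Ideal R) [p.IsMaximal] (hp0 : p ≠ ⊥)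
    (hdeg : ∀ Q : Ideal S, Q ∈ p.primesOver S → Q.inertiaDeg R = 1)
    (I : Ideal S) (hI : I ≠ ⊥) [DecidablePred (· ∈ p.primesOver S)] :
    Multiset.count p (normalizedFactors (Ideal.relNorm R I)) =
      Multiset.card ((normalizedFactors I).filter (· ∈ p.primesOver S)) := by
  classical
  have key : ∀ m : Multiset (Ideal S), (∀ Q ∈ m, Q.IsPrime ∧ Q ≠ ⊥) →
      Ideal.relNorm R m.prod ≠ ⊥ ∧
      Multiset.count p (normalizedFactors (Ideal.relNorm R m.prod)) =
        Multiset.card (m.filter (· ∈ p.primesOver S)) := by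
    intro m
    induction m using Multiset.induction_on with
    | empty =>
      intro _
      refine ⟨?_, ?_⟩
      · rw [Multiset.prod_zero, map_one]
        exact one_ne_zero
      · rw [Multiset.prod_zero, map_one, normalizedFactors_one]
        simp
    | cons Q m ih =>
      intro hm
      obtain ⟨ih1, ih2⟩ := ih (fun Q' hQ' => hm Q' (Multiset.mem_cons_of_mem hQ'))
      obtain ⟨hQp, hQ0⟩ := hm Q (Multiset.mem_cons_self Q m)
      have hQn : Ideal.relNorm R Q ≠ ⊥ := by
        rw [Ne, Ideal.relNorm_eq_bot_iff]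
        exact hQ0
      refine ⟨?_, ?_⟩
      · rw [Multiset.prod_cons, map_mul]
        exact mul_ne_zero hQn ih1
      · rw [Multiset.prod_cons, map_mul, normalizedFactors_mul hQn ih1, Multiset.count_add, ih2,
          h14_count_relNorm_prime p hp0 hdeg Q hQp hQ0, Multiset.filter_cons]
        split_ifs with hQ
        · rw [Multiset.card_add, Multiset.card_singleton]
        · rw [zero_add, zero_add]
  have h1 := key (normalizedFactors I) (fun Q hQ =>
    ⟨Ideal.isPrime_of_prime (prime_of_normalized_factor Q hQ), ne_zero_of_mem_normalizedFactors hQ⟩)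
  rw [Ideal.prod_normalizedFactors_eq_self hI] at h1
  exact h1.2

/-- The `p`-part of the relative norm of an ideal, as a sum over the primes above `p`. -/
theorem h14_count_relNorm (p : Ideal R) [p.IsMaximal] (hp0 : p ≠ ⊥)
    (hdeg : ∀ Q : Ideal S, Q ∈ p.primesOver S → Q.inertiaDeg R = 1)
    (I : Ideal S) (hI : I ≠ ⊥) (T : Finset (HeightOneSpectrum S))
    (hT : ∀ w : HeightOneSpectrum S, w ∈ T ↔ w.asIdeal.LiesOver p) :
    Multiset.count p (normalizedFactors (Ideal.relNorm R I)) =
      ∑ w ∈ T, Multiset.count w.asIdeal (normalizedFactors I) := by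
  classical
  rw [h14_count_relNorm_card p hp0 hdeg I hI]
  have hinj : ∀ w ∈ T, ∀ w' ∈ T, w.asIdeal = w'.asIdeal → w = w' :=
    fun w _ w' _ h => HeightOneSpectrum.ext h
  rw [← Finset.sum_image (s := T) (g := fun w : HeightOneSpectrum S => w.asIdeal)
    (f := fun Q => Multiset.count Q (normalizedFactors I)) hinj]
  have hmem : ∀ Q ∈ (normalizedFactors I).filter (· ∈ p.primesOver S),
      Q ∈ T.image (fun w : HeightOneSpectrum S => w.asIdeal) := by
    intro Q hQ
    rw [Multiset.mem_filter] at hQ
    obtain ⟨hQ1, hQ2⟩ := hQ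
    rw [Finset.mem_image]
    refine ⟨⟨Q, hQ2.1, ne_zero_of_mem_normalizedFactors hQ1⟩, ?_, rfl⟩
    rw [hT]
    exact hQ2.2
  rw [← Multiset.sum_count_eq_card hmem]
  refine Finset.sum_congr rfl fun Q hQ => ?_
  rw [Finset.mem_image] at hQ
  obtain ⟨w, hw, rfl⟩ := hQ
  rw [Multiset.count_filter_of_pos]
  exact ⟨w.isPrime, (hT w).mp hw⟩

/-- In a Dedekind domain the count of a prime in the factorisation is the multiplicity. -/
theorem h14_count_eq_multiplicity {D : Type*} [CommRing D] [IsDedekindDomain D] (Q I : Ideal D)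
    (hQ : Q.IsPrime) (hQ0 : Q ≠ ⊥) (hI : I ≠ ⊥) :
    Multiset.count Q (normalizedFactors I) = multiplicity Q I := by
  rw [multiplicity_eq_of_emultiplicity_eq_some (emultiplicity_eq_count_normalizedFactors
      (Ideal.prime_of_isPrime hQ0 hQ).irreducible hI), normalize_eq]

end Abstract

section Concrete

variable {K F : Type*} [Field K] [Field F] [Algebra K F]

/-- `h - a` as an element of `K[h]`. -/
def h14_pt (K : Type*) {F : Type*} [Field K] [Field F] [Algebra K F] (h : F) (a : K) :
    h75_ringA K h :=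
  h75_genA K h - algebraMap K (h75_ringA K h) a

theorem h14_pt_coe (h : F) (a : K) :
    ((h14_pt K h a : h75_ringA K h) : F) = h - algebraMap K F a := rfl

theorem h14_equiv_pt {h : F} (hh : Transcendental K h) (a : K) :
    Polynomial.algEquivOfTranscendental K h hh (Polynomial.X - Polynomial.C a) = h14_pt K h a := by
  rw [map_sub]
  have h1 : Polynomial.algEquivOfTranscendental K h hh (Polynomial.C a) =
      algebraMap K (h75_ringA K h) a := (Polynomial.algEquivOfTranscendental K h hh).commutes a
  rw [h1]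
  exact congrArg (· - algebraMap K (h75_ringA K h) a)
    (Polynomial.algEquivOfTranscendental_apply_X K h hh)

theorem h14_pt_ne_zero {h : F} (hh : Transcendental K h) (a : K) : h14_pt K h a ≠ 0 := by
  rw [← h14_equiv_pt hh a]
  exact (map_ne_zero_iff _ (Polynomial.algEquivOfTranscendental K h hh).injective).mpr
    (Polynomial.X_sub_C_ne_zero a)

theorem h14_pt_res {h : F} (hh : Transcendental K h) (a : K) :
    Function.Surjective
      (algebraMap K (h75_ringA K h ⧸ (Ideal.span {h14_pt K h a} : Ideal (h75_ringA K h)))) := by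
  set e := Polynomial.algEquivOfTranscendental K h hh with he
  intro y
  obtain ⟨y, rfl⟩ := Ideal.Quotient.mk_surjective y
  obtain ⟨P, rfl⟩ := e.surjective y
  refine ⟨P.eval a, ?_⟩
  change Ideal.Quotient.mk _ (algebraMap K (h75_ringA K h) (P.eval a)) =
    Ideal.Quotient.mk _ (e P)
  rw [Ideal.Quotient.eq, Ideal.mem_span_singleton']
  obtain ⟨Q, hQ⟩ := Polynomial.X_sub_C_dvd_sub_C_eval (a := a) (p := P)
  refine ⟨-e Q, ?_⟩
  have h2 : e (P - Polynomial.C (P.eval a)) = e (Polynomial.X - Polynomial.C a) * e Q := by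
    rw [hQ, map_mul]
  rw [h14_equiv_pt hh a, map_sub] at h2
  have heC : e (Polynomial.C (P.eval a)) = algebraMap K (h75_ringA K h) (P.eval a) :=
    e.commutes _
  rw [heC] at h2
  rw [neg_mul, mul_comm, ← h2]
  ring

theorem h14_pt_maximal {h : F} (hh : Transcendental K h) (a : K) :
    (Ideal.span {h14_pt K h a} : Ideal (h75_ringA K h)).IsMaximal := by
  set e := Polynomial.algEquivOfTranscendental K h hh with he
  have hnt : (Ideal.span {h14_pt K h a} : Ideal (h75_ringA K h)) ≠ ⊤ := by
    rw [Ne, Ideal.eq_top_iff_one, Ideal.mem_span_singleton']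
    rintro ⟨y, hy⟩
    obtain ⟨Q, rfl⟩ := e.surjective y
    rw [← h14_equiv_pt hh a, ← map_mul] at hy
    have h1 : Q * (Polynomial.X - Polynomial.C a) = 1 := e.injective (by rw [hy, map_one])
    have := congrArg (Polynomial.eval a) h1
    simp at this
  have : Nontrivial (h75_ringA K h ⧸ (Ideal.span {h14_pt K h a} : Ideal (h75_ringA K h))) :=
    Ideal.Quotient.nontrivial_iff.mpr hnt
  exact Ideal.Quotient.maximal_of_isField _ (MulEquiv.isField (Field.toIsField K)
    (RingEquiv.ofBijective
      (algebraMap K (h75_ringA K h ⧸ (Ideal.span {h14_pt K h a} : Ideal (h75_ringA K h))))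
      ⟨(algebraMap K _).injective, h14_pt_res hh a⟩).symm.toMulEquiv)

/-- The dictionary for the fibre of a chart over `a`: places over `a` are the primes of `B`
containing `h - a`. -/
theorem h14_fibre_dict {h : F} (hh : h75_IsChart K h) (a : K)
    [IsDedekindDomain (h75_ringB K h)] [IsFractionRing (h75_ringB K h) F] (P : Place K F) :
    0 < P.ord (h - algebraMap K F a) ↔
      ∃ w : HeightOneSpectrum (h75_ringB K h),
        algebraMap (h75_ringA K h) (h75_ringB K h) (h14_pt K h a) ∈ w.asIdeal ∧
        Place.ofHeightOneSpectrum (K := K) (F := F) w = P := by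
  set x' : h75_ringB K h := algebraMap (h75_ringA K h) (h75_ringB K h) (h14_pt K h a) with hx'
  have hx'F : algebraMap (h75_ringB K h) F x' = h - algebraMap K F a := rfl
  have hxF0 : h - algebraMap K F a ≠ 0 := by
    have h1 := h14_pt_ne_zero hh.tr a
    intro h0
    apply h1
    exact Subtype.ext h0
  constructor
  · intro hpos
    have hmem : h - algebraMap K F a ∈ P.toValuationSubring := h24_mem_of_ord_nonneg P hpos.le
    have ht_mem : h ∈ P.toValuationSubring := by
      have := add_mem hmem (P.algebraMap_mem' a)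
      simpa using this
    obtain ⟨w, rfl⟩ := h75_exists_heightOneSpectrum P ht_mem
    refine ⟨w, ?_, rfl⟩
    have h0 : w.valuation F (algebraMap (h75_ringB K h) F x') ≠ 0 := by
      rw [hx'F]
      exact (Valuation.ne_zero_iff _).mpr hxF0
    rw [← hx'F, h24_ofHeightOneSpectrum_ord, neg_pos, ← log_one, log_lt_log h0 one_ne_zero] at hpos
    exact (w.valuation_lt_one_iff_mem x').mp hpos
  · rintro ⟨w, hw, rfl⟩
    rw [← hx'F, h24_ofHeightOneSpectrum_ord]
    have h1 : w.valuation F (algebraMap (h75_ringB K h) F x') < 1 :=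
      (w.valuation_lt_one_iff_mem x').mpr hw
    have h0 : w.valuation F (algebraMap (h75_ringB K h) F x') ≠ 0 := by
      rw [hx'F]
      exact (Valuation.ne_zero_iff _).mpr hxF0
    rw [neg_pos, ← log_one, log_lt_log h0 one_ne_zero]
    exact h1

/-- **(F2) ORDERS**: the order at `a` of the norm of an integral element is the sum of its
orders along the fibre over `a`. -/
theorem h14_norm_ord [IsAlgClosed K] {h : F} (hh : h75_IsChart K h) (b : h75_ringB K h)
    (hb : b ≠ 0) (r : Polynomial K)
    (hr : Polynomial.aeval h r = ((Algebra.norm (h75_ringA K h) b : h75_ringA K h) : F))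
    (a : K) (S : Finset (Place K F))
    (hS : ∀ P, P ∈ S ↔ 0 < P.ord (h - algebraMap K F a)) :
    (r.rootMultiplicity a : ℤ) = ∑ P ∈ S, P.ord (b : F) := by
  classical
  have := h75_ringA_isPrincipalIdealRing hh.tr
  have := h75_ringB_isDedekindDomain hh
  have := h75_ringB_isFractionRing hh
  have := h75_ringB_finite hh
  have := h75_ringB_free hh
  set e := Polynomial.algEquivOfTranscendental K h hh.tr with he
  set x₀ := h14_pt K h a with hx₀
  set p : Ideal (h75_ringA K h) := Ideal.span {x₀} with hp
  have hpmax : p.IsMaximal := h14_pt_maximal hh.tr a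
  have hp0 : p ≠ ⊥ := by
    rw [hp, Ne, Ideal.span_singleton_eq_bot]
    exact h14_pt_ne_zero hh.tr a
  have hres := h14_pt_res hh.tr a
  have hdeg : ∀ Q : Ideal (h75_ringB K h), Q ∈ p.primesOver (h75_ringB K h) →
      Q.inertiaDeg (h75_ringA K h) = 1 := by
    intro Q hQ
    have h1 : Q.IsPrime := hQ.1
    have h2 : Q.LiesOver p := hQ.2
    exact h24_inertiaDeg_eq_one (K := K) p Q hres
  set x' : h75_ringB K h := algebraMap (h75_ringA K h) (h75_ringB K h) x₀ with hx'
  have hinjAB : Function.Injective (algebraMap (h75_ringA K h) (h75_ringB K h)) :=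
    FaithfulSMul.algebraMap_injective _ _
  have hx'0 : x' ≠ 0 := (map_ne_zero_iff _ hinjAB).mpr (h14_pt_ne_zero hh.tr a)
  have hmap : p.map (algebraMap (h75_ringA K h) (h75_ringB K h)) = Ideal.span {x'} := by
    rw [hp, Ideal.map_span, Set.image_singleton]
  have hfin : {w : HeightOneSpectrum (h75_ringB K h) | x' ∈ w.asIdeal}.Finite := by
    have h1 := Ideal.finite_factors (R := h75_ringB K h) (I := Ideal.span {x'})
      (by rw [Ne, Ideal.zero_eq_bot, Ideal.span_singleton_eq_bot]; exact hx'0)
    refine h1.subset fun w hw => ?_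
    exact Ideal.dvd_span_singleton.mpr hw
  have hT : ∀ w : HeightOneSpectrum (h75_ringB K h),
      w ∈ hfin.toFinset ↔ w.asIdeal.LiesOver p := by
    intro w
    rw [Set.Finite.mem_toFinset, Set.mem_ofPred_eq,
      Ideal.liesOver_iff_dvd_map w.isPrime.ne_top, hmap, Ideal.dvd_span_singleton]
  have hI : (Ideal.span {b} : Ideal (h75_ringB K h)) ≠ ⊥ := by
    rw [Ne, Ideal.span_singleton_eq_bot]
    exact hb
  have hcount := h14_count_relNorm p hp0 hdeg (Ideal.span {b}) hI hfin.toFinset hT
  -- the right-hand side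
  have hSimg : S = hfin.toFinset.image (Place.ofHeightOneSpectrum (K := K) (F := F)) := by
    ext P
    rw [hS, h14_fibre_dict hh a P, Finset.mem_image]
    constructor
    · rintro ⟨w, hw, rfl⟩
      exact ⟨w, hfin.mem_toFinset.mpr hw, rfl⟩
    · rintro ⟨w, hw, rfl⟩
      exact ⟨w, hfin.mem_toFinset.mp hw, rfl⟩
  rw [hSimg, Finset.sum_image (fun _ _ _ _ h => h24_ofHeightOneSpectrum_injective h)]
  have hord : ∀ w ∈ hfin.toFinset,
      (Place.ofHeightOneSpectrum (K := K) (F := F) w).ord (b : F) =
        ((Multiset.count w.asIdeal (normalizedFactors (Ideal.span {b})) : ℕ) : ℤ) := by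
    intro w _
    rw [h14_count_eq_multiplicity _ _ w.isPrime w.ne_bot hI]
    have hbF : (b : F) = algebraMap (h75_ringB K h) F b := rfl
    rw [hbF, h24_ofHeightOneSpectrum_ord, HeightOneSpectrum.valuation_of_algebraMap,
      w.intValuation_eq_exp_neg_multiplicity hb, log_exp, neg_neg]
  rw [Finset.sum_congr rfl hord, ← Nat.cast_sum, ← hcount]
  -- the left-hand side
  congr 1
  rw [Ideal.relNorm_singleton, Algebra.intNorm_eq_norm]
  set N := Algebra.norm (h75_ringA K h) b with hN
  have hN0 : N ≠ 0 := Algebra.norm_ne_zero_iff.mpr hb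
  have her : e r = N := by
    apply Subtype.ext
    rw [he, Polynomial.algEquivOfTranscendental_apply, Polynomial.aeval_subalgebra_coe]
    exact hr
  have hr0 : r ≠ 0 := by
    intro h0
    rw [h0, map_zero] at her
    exact hN0 her.symm
  have hIN : (Ideal.span {N} : Ideal (h75_ringA K h)) ≠ ⊥ := by
    rw [Ne, Ideal.span_singleton_eq_bot]
    exact hN0
  rw [h14_count_eq_multiplicity _ _ hpmax.isPrime hp0 hIN, Polynomial.rootMultiplicity_eq_multiplicity,
    if_neg hr0, ← multiplicity_map_eq e, h14_equiv_pt, her]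
  exact multiplicity_eq_of_emultiplicity_eq Ideal.emultiplicity_eq_emultiplicity_span.symm

/-- The field norm of an integral element is its determinant over `A = K[h]`. -/
theorem h14_norm_field_eq {h : F} (hh : h75_IsChart K h) (b : h75_ringB K h) :
    ((Algebra.norm K⟮h⟯ (b : F) : K⟮h⟯) : F) =
      ((Algebra.norm (h75_ringA K h) b : h75_ringA K h) : F) := by
  have := h75_ringA_isPrincipalIdealRing hh.tr
  have := h75_ringB_isDedekindDomain hh
  have := h75_ringB_isFractionRing hh
  have := h75_ringB_finite hh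
  have := h75_ringB_free hh
  have := hh.fin
  have := hh.sep
  have h1 := Algebra.algebraMap_intNorm (A := h75_ringA K h) (K := K⟮h⟯) (L := F)
    (B := h75_ringB K h) b
  rw [Algebra.intNorm_eq_norm] at h1
  have h2 : algebraMap (h75_ringB K h) F b = (b : F) := rfl
  rw [h2] at h1
  rw [← h1]
  rfl

/-- The norm of a nonzero integral element is a nonzero polynomial in `h`. -/
theorem h14_exists_norm_poly {h : F} (hh : h75_IsChart K h) (b : h75_ringB K h) (hb : b ≠ 0) :
    ∃ r : Polynomial K, r ≠ 0 ∧
      Polynomial.aeval h r = ((Algebra.norm (h75_ringA K h) b : h75_ringA K h) : F) := by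
  have := h75_ringA_isPrincipalIdealRing hh.tr
  have := h75_ringB_isDedekindDomain hh
  have := h75_ringB_finite hh
  have := h75_ringB_free hh
  set e := Polynomial.algEquivOfTranscendental K h hh.tr with he
  have hN0 : Algebra.norm (h75_ringA K h) b ≠ 0 := Algebra.norm_ne_zero_iff.mpr hb
  obtain ⟨r, hr⟩ := e.surjective (Algebra.norm (h75_ringA K h) b)
  refine ⟨r, ?_, ?_⟩
  · intro h0
    rw [h0, map_zero] at hr
    exact hN0 hr.symm
  · rw [← hr, he, Polynomial.algEquivOfTranscendental_apply, Polynomial.aeval_subalgebra_coe]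

/-- **(F2) for a quotient** `f = b / c` of integral elements: the first two clauses of the norm
data `h6_NormFibre K h f`. -/
theorem h14_normFibre_ord [IsAlgClosed K] {h : F} (hh : h75_IsChart K h)
    (b c : h75_ringB K h) (hb : b ≠ 0) (hc : c ≠ 0) (f : F) (hf : f * (c : F) = (b : F)) :
    ∃ r s : Polynomial K, r ≠ 0 ∧ s ≠ 0 ∧
      Polynomial.aeval h r = ((Algebra.norm (h75_ringA K h) b : h75_ringA K h) : F) ∧
      Polynomial.aeval h s = ((Algebra.norm (h75_ringA K h) c : h75_ringA K h) : F) ∧
      ((Algebra.norm K⟮h⟯ f : K⟮h⟯) : F) * Polynomial.aeval h s = Polynomial.aeval h r ∧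
      ∀ (a : K) (S : Finset (Place K F)),
        (∀ P, P ∈ S ↔ 0 < P.ord (h - algebraMap K F a)) →
        (r.rootMultiplicity a : ℤ) - (s.rootMultiplicity a : ℤ) = ∑ P ∈ S, P.ord f := by
  obtain ⟨r, hr0, hr⟩ := h14_exists_norm_poly hh b hb
  obtain ⟨s, hs0, hs⟩ := h14_exists_norm_poly hh c hc
  have hcF : (c : F) ≠ 0 := fun h0 => hc (Subtype.ext h0)
  have hbF : (b : F) ≠ 0 := fun h0 => hb (Subtype.ext h0)
  have hf0 : f ≠ 0 := by
    rintro rfl
    rw [zero_mul] at hf
    exact hbF hf.symm
  refine ⟨r, s, hr0, hs0, hr, hs, ?_, ?_⟩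
  · rw [hr, hs, ← h14_norm_field_eq hh b, ← h14_norm_field_eq hh c, ← hf, map_mul]
    rfl
  · intro a S hS
    rw [h14_norm_ord hh b hb r hr a S hS, h14_norm_ord hh c hc s hs a S hS, ← Finset.sum_sub_distrib]
    refine Finset.sum_congr rfl fun P _ => ?_
    rw [← hf, Place.ord_mul P hf0 hcF]
    ring

end Concrete

end Fermat.Agent.S27
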