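import Mathlib
import Fermat.Agent.S27.h14_ValFam
import Fermat.Agent.S27.h14_ValFamP

/-!
# S27 / VALFAM, family (ii): valuation subrings over `t - a` (helper14)

* `h14_valfam_over` : `K'` algebraically closed and infinite, `t ∈ K` transcendental over `K'`,
  `K` algebraic over `K'[t]`; for every finite set `S` of nonzero elements of `K` there is a
  rank-one valuation subring `A ⊇ K'` of `K` in which every `s ∈ S` is a unit and whose residue
  field is `K'`.
* `h14_valfam_t` : the form needed by the induction on the transcendence degree of S27.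
-/

namespace Fermat.Agent.S27

open Polynomial

/-- transport of algebraicity along an inclusion of images. -/
theorem h14_isAlgebraic_trans_range {R S L : Type*} [CommRing R] [CommRing S] [CommRing L]
    [Algebra R L] (φ : S →+* L) (hR : Function.Injective (algebraMap R L))
    (hrange : ∀ r : R, algebraMap R L r ∈ Set.range φ) {a : L} (h : IsAlgebraic R a) :
    ∃ Q : S[X], Q.map φ ≠ 0 ∧ Q.eval₂ φ a = 0 := by
  obtain ⟨P, hP0, hPa⟩ := h
  have hl : P.map (algebraMap R L) ∈ lifts φ := by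
    rw [lifts_iff_coeff_lifts]
    intro n
    rw [coeff_map]
    exact hrange _
  obtain ⟨Q, hQ⟩ := (mem_lifts _).mp hl
  refine ⟨Q, ?_, ?_⟩
  · rw [hQ]
    exact (Polynomial.map_ne_zero_iff hR).mpr hP0
  · rw [← eval_map, hQ, eval_map, ← aeval_def]
    exact hPa

/-- **VALFAM over a subfield.** -/
theorem h14_valfam_over {K' K : Type*} [Field K'] [IsAlgClosed K'] [Infinite K'] [Field K]
    [Algebra K' K] (t : K) (ht : Transcendental K' t)
    (halg : ∀ a : K, ∃ P : K'[X][X],
      P.map ((aeval t : K'[X] →ₐ[K'] K) : K'[X] →+* K) ≠ 0 ∧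
      P.eval₂ ((aeval t : K'[X] →ₐ[K'] K) : K'[X] →+* K) a = 0)
    (S : Finset K) (hS : ∀ s ∈ S, s ≠ 0) :
    ∃ (A : ValuationSubring K) (hA : ∀ c : K', algebraMap K' K c ∈ A),
      (∀ a : K, a ∈ A → a⁻¹ ∉ A → ∀ δ : K, δ ≠ 0 → ∃ n : ℕ, a ^ n * δ⁻¹ ∈ A) ∧
      (∀ s ∈ S, s ∈ A ∧ s⁻¹ ∈ A) ∧
      Function.Bijective (fun c : K' => IsLocalRing.residue A ⟨algebraMap K' K c, hA c⟩) := by
  classical
  letI : Algebra K'[X] K := ((aeval t : K'[X] →ₐ[K'] K) : K'[X] →+* K).toAlgebra
  have hamap : ∀ q : K'[X], algebraMap K'[X] K q = aeval t q := fun q => rfl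
  have hinj : Function.Injective (algebraMap K'[X] K) := transcendental_iff_injective.mp ht
  haveI : Algebra.IsAlgebraic K'[X] K := ⟨fun a => by
    obtain ⟨P, hP0, hPa⟩ := halg a
    exact ⟨P, fun h => hP0 (by rw [h, Polynomial.map_zero]), by rw [aeval_def]; exact hPa⟩⟩
  have hex : ∀ s : K, ∃ P : K'[X][X], P.leadingCoeff ≠ 0 ∧ P.coeff 0 ≠ 0 ∧
      (s ≠ 0 → aeval s P = 0) := by
    intro s
    by_cases hs : s = 0
    · exact ⟨1, by simp, by simp, fun h => absurd hs h⟩
    · obtain ⟨P, hP, hP0⟩ :=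
        h14_exists_poly_coeff_zero_ne hs (Algebra.IsAlgebraic.isAlgebraic (R := K'[X]) s)
      refine ⟨P, ?_, hP0, fun _ => hP⟩
      rw [Ne, leadingCoeff_eq_zero]
      rintro rfl
      simp at hP0
  choose P hPl hPc hPa using hex
  set b : K'[X] := ∏ s ∈ S, ((P s).leadingCoeff * (P s).coeff 0) with hb
  have hb0 : b ≠ 0 := by
    rw [hb]
    exact Finset.prod_ne_zero_iff.mpr fun s _ => mul_ne_zero (hPl s) (hPc s)
  obtain ⟨a0, ha0⟩ := Infinite.exists_notMem_finset b.roots.toFinset
  have hroot : ¬ IsRoot b a0 := by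
    intro h
    exact ha0 (Multiset.mem_toFinset.mpr ((mem_roots hb0).mpr h))
  have hπ : Irreducible (X - C a0 : K'[X]) := irreducible_X_sub_C a0
  have hndvd : ∀ q : K'[X], q ∣ b → ¬ (X - C a0) ∣ q :=
    fun q hq h => hroot (dvd_iff_isRoot.mp (h.trans hq))
  obtain ⟨A, hRA, hπA⟩ := h14_vf_exists (R := K'[X]) (K := K) hinj hπ
  have hA : ∀ c : K', algebraMap K' K c ∈ A := by
    intro c
    have := hRA (C c)
    rwa [hamap, aeval_C] at this
  refine ⟨A, hA, h14_vf_rankOne A hRA hπ hπA, ?_, ?_⟩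
  · intro s hs
    have hdvd : (P s).leadingCoeff * (P s).coeff 0 ∣ b := by
      rw [hb]
      exact Finset.dvd_prod_of_mem _ hs
    refine h14_vf_unit_of_poly A hRA hπ hπA (P s) (hPa s (hS s hs)) ?_ ?_
    · exact hndvd _ ((dvd_mul_right _ _).trans hdvd)
    · exact hndvd _ ((dvd_mul_left _ _).trans hdvd)
  · set ρ : K' →+* IsLocalRing.ResidueField A := (h14_vfRes A hRA).comp C with hρ
    have hρapp : ∀ c : K', ρ c = IsLocalRing.residue A ⟨algebraMap K' K c, hA c⟩ := by
      intro c
      rw [hρ, RingHom.comp_apply, h14_vfRes_apply]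
      congr 1
      apply Subtype.ext
      show algebraMap K'[X] K (C c) = algebraMap K' K c
      rw [hamap, aeval_C]
    have hfun : (fun c : K' => IsLocalRing.residue A ⟨algebraMap K' K c, hA c⟩) = ρ := by
      funext c
      exact (hρapp c).symm
    rw [hfun]
    refine ⟨ρ.injective, fun a => ?_⟩
    obtain ⟨Q, hQ0, hQa⟩ := h14_vf_res_alg A hRA hπ hπA a
    have hψ : h14_vfRes A hRA = ρ.comp (evalRingHom a0) := by
      apply Polynomial.ringHom_ext
      · intro c
        simp [hρ]
      · have h1 := h14_vfRes_pi A hRA hπA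
        rw [map_sub, sub_eq_zero] at h1
        simp [hρ, h1]
    have hmap : (Q.map (evalRingHom a0)).map ρ = Q.map (h14_vfRes A hRA) := by
      rw [Polynomial.map_map, ← hψ]
    have hQ'0 : Q.map (evalRingHom a0) ≠ 0 := by
      intro h
      apply hQ0
      rw [← hmap, h, Polynomial.map_zero]
    have hroot' : ((Q.map (evalRingHom a0)).map ρ).IsRoot a := by
      rw [hmap, IsRoot, eval_map]
      exact hQa
    obtain ⟨r, hr⟩ := (IsAlgClosed.splits (Q.map (evalRingHom a0))).mem_range_of_isRoot hQ'0 hroot'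
    exact ⟨r, hr⟩

/-- lifting an annihilating polynomial along an inclusion of images (ring-hom form). -/
theorem h14_lift_poly_range {R S L : Type*} [CommRing R] [CommRing S] [CommRing L]
    (γ : R →+* L) (φ : S →+* L) (hγ : Function.Injective γ)
    (hrange : ∀ r : R, γ r ∈ Set.range φ) {a : L} (P : R[X]) (hP0 : P ≠ 0)
    (hPa : P.eval₂ γ a = 0) :
    ∃ Q : S[X], Q.map φ ≠ 0 ∧ Q.eval₂ φ a = 0 := by
  have hl : P.map γ ∈ lifts φ := by
    rw [lifts_iff_coeff_lifts]
    intro n
    rw [coeff_map]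
    exact hrange _
  obtain ⟨Q, hQ⟩ := (mem_lifts _).mp hl
  refine ⟨Q, ?_, ?_⟩
  · rw [hQ]
    exact (Polynomial.map_ne_zero_iff hγ).mpr hP0
  · rw [← eval_map, hQ, eval_map]
    exact hPa

/-- The elements of `K` algebraic over a subring `D`, as an intermediate field over `ℚ`. -/
noncomputable def h14_algClosureIn {K : Type*} [Field K] [CharZero K] (D : Subalgebra ℤ K) :
    IntermediateField ℚ K where
  carrier := {a | IsAlgebraic D a}
  mul_mem' := fun ha hb => IsAlgebraic.mul ha hb
  one_mem' := isAlgebraic_one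
  add_mem' := fun ha hb => IsAlgebraic.add ha hb
  zero_mem' := isAlgebraic_zero
  algebraMap_mem' := fun q => by
    show IsAlgebraic D (algebraMap ℚ K q)
    rw [eq_ratCast, Rat.cast_def, div_eq_mul_inv]
    have h1 : IsAlgebraic D ((q.num : K)) := by
      have := isAlgebraic_algebraMap (R := D) (A := K) (q.num : D)
      simpa using this
    have h2 : IsAlgebraic D ((q.den : K)) := by
      have := isAlgebraic_algebraMap (R := D) (A := K) (q.den : D)
      simpa using this
    exact h1.mul h2.inv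
  inv_mem' := fun x hx => IsAlgebraic.inv hx

theorem h14_mem_algClosureIn {K : Type*} [Field K] [CharZero K] (D : Subalgebra ℤ K) (a : K) :
    a ∈ h14_algClosureIn D ↔ IsAlgebraic D a := Iff.rfl

theorem h14_le_algClosureIn {K : Type*} [Field K] [CharZero K] (D : Subalgebra ℤ K) {a : K}
    (ha : a ∈ D) : a ∈ h14_algClosureIn D :=
  isAlgebraic_algebraMap (R := D) (A := K) ⟨a, ha⟩

/-- the inclusion `D → K'`. -/
noncomputable def h14_inclD {K : Type*} [Field K] [CharZero K] (D : Subalgebra ℤ K) :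
    D →+* h14_algClosureIn D where
  toFun x := ⟨(x : K), h14_le_algClosureIn D x.2⟩
  map_one' := rfl
  map_mul' _ _ := rfl
  map_zero' := rfl
  map_add' _ _ := rfl

/-- transitivity: algebraic over the algebraic closure of `D` implies algebraic over `D`. -/
theorem h14_algClosureIn_trans {K : Type*} [Field K] [CharZero K] (D : Subalgebra ℤ K) {a : K}
    (h : IsAlgebraic (h14_algClosureIn D) a) : IsAlgebraic D a := by
  letI : Algebra D (h14_algClosureIn D) := (h14_inclD D).toAlgebra
  haveI : IsScalarTower D (h14_algClosureIn D) K := IsScalarTower.of_algebraMap_eq (fun x => rfl)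
  haveI : Algebra.IsAlgebraic D (h14_algClosureIn D) :=
    ⟨fun a => (isAlgebraic_algebraMap_iff
      (algebraMap (h14_algClosureIn D) K).injective).mp a.2⟩
  exact IsAlgebraic.restrictScalars D h

theorem h14_algClosureIn_isAlgClosed {K : Type*} [Field K] [CharZero K] [IsAlgClosed K]
    (D : Subalgebra ℤ K) : IsAlgClosed (h14_algClosureIn D) := by
  apply IsAlgClosed.of_exists_root
  intro p hmon hirr
  have hdeg : (p.map (algebraMap (h14_algClosureIn D) K)).degree ≠ 0 := by
    rw [degree_map]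
    exact (degree_pos_of_irreducible hirr).ne'
  obtain ⟨x, hx⟩ := IsAlgClosed.exists_root _ hdeg
  rw [IsRoot, eval_map] at hx
  have hxalg : IsAlgebraic (h14_algClosureIn D) x :=
    ⟨p, hmon.ne_zero, by rw [aeval_def]; exact hx⟩
  have hxD : IsAlgebraic D x := h14_algClosureIn_trans D hxalg
  refine ⟨⟨x, hxD⟩, ?_⟩
  apply (algebraMap (h14_algClosureIn D) K).injective
  rw [map_zero, ← eval₂_at_apply]
  exact hx

/-- **VALFAM, family (ii).** -/
theorem h14_valfam_t (d : ℕ) (K : Type*) [Field K] [IsAlgClosed K] [CharZero K]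
    (hK : ∃ s : Fin (d + 1) → K, ∀ a : K, IsAlgebraic (Algebra.adjoin ℤ (Set.range s)) a)
    (hK' : ¬ ∃ s : Fin d → K, ∀ a : K, IsAlgebraic (Algebra.adjoin ℤ (Set.range s)) a)
    (S : Finset K) (hS : ∀ s ∈ S, s ≠ 0) :
    ∃ A : ValuationSubring K,
      (∀ a : K, a ∈ A → a⁻¹ ∉ A → ∀ δ : K, δ ≠ 0 → ∃ n : ℕ, a ^ n * δ⁻¹ ∈ A) ∧
      (∀ s ∈ S, s ∈ A ∧ s⁻¹ ∈ A) ∧ CharZero (IsLocalRing.ResidueField A) ∧
      IsAlgClosed (IsLocalRing.ResidueField A) ∧
      ∃ s' : Fin d → IsLocalRing.ResidueField A,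
        ∀ a : IsLocalRing.ResidueField A, IsAlgebraic (Algebra.adjoin ℤ (Set.range s')) a := by
  obtain ⟨s, hs⟩ := hK
  set s0 : Fin d → K := fun i => s i.castSucc with hs0
  set t : K := s (Fin.last d) with ht
  set D : Subalgebra ℤ K := Algebra.adjoin ℤ (Set.range s0) with hD
  haveI : IsAlgClosed (h14_algClosureIn D) := h14_algClosureIn_isAlgClosed D
  haveI : CharZero (h14_algClosureIn D) := (algebraMap (h14_algClosureIn D) K).charZero
  have hs0mem : ∀ i, s0 i ∈ h14_algClosureIn D := fun i =>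
    h14_le_algClosureIn D (Algebra.subset_adjoin ⟨i, rfl⟩)
  -- `t` is transcendental over `K'`
  have htr : Transcendental (h14_algClosureIn D) t := by
    intro halg
    have htK' : t ∈ h14_algClosureIn D := h14_algClosureIn_trans D halg
    apply hK'
    refine ⟨s0, fun a => ?_⟩
    apply h14_algClosureIn_trans D
    have hrange : ∀ r : Algebra.adjoin ℤ (Set.range s),
        algebraMap (Algebra.adjoin ℤ (Set.range s)) K r
          ∈ Set.range (algebraMap (h14_algClosureIn D) K) := by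
      rintro ⟨r, hr⟩
      have hr' := hr
      rw [Algebra.adjoin_int] at hr'
      have hle : Subring.closure (Set.range s) ≤ (algebraMap (h14_algClosureIn D) K).range := by
        rw [Subring.closure_le]
        rintro _ ⟨i, rfl⟩
        refine Fin.lastCases ?_ (fun j => ?_) i
        · exact ⟨⟨t, htK'⟩, rfl⟩
        · exact ⟨⟨s0 j, hs0mem j⟩, rfl⟩
      exact hle (mem_subalgebraOfSubring.mp hr')
    obtain ⟨P, hP0, hPa⟩ := hs a
    obtain ⟨Q, hQ0, hQa⟩ := h14_lift_poly_range
      (algebraMap (Algebra.adjoin ℤ (Set.range s)) K) (algebraMap (h14_algClosureIn D) K)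
      Subtype.val_injective hrange P hP0 (by rw [← aeval_def]; exact hPa)
    exact ⟨Q, fun h => hQ0 (by rw [h, Polynomial.map_zero]), by rw [aeval_def]; exact hQa⟩
  -- `K` is algebraic over `K'[t]`
  have halg : ∀ a : K, ∃ P : (h14_algClosureIn D)[X][X],
      P.map ((aeval t : (h14_algClosureIn D)[X] →ₐ[h14_algClosureIn D] K) :
        (h14_algClosureIn D)[X] →+* K) ≠ 0 ∧
      P.eval₂ ((aeval t : (h14_algClosureIn D)[X] →ₐ[h14_algClosureIn D] K) :
        (h14_algClosureIn D)[X] →+* K) a = 0 := by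
    intro a
    obtain ⟨P, hP0, hPa⟩ := hs a
    refine h14_lift_poly_range (algebraMap (Algebra.adjoin ℤ (Set.range s)) K) _
      Subtype.val_injective ?_ P hP0 (by rw [← aeval_def]; exact hPa)
    rintro ⟨r, hr⟩
    have hr' := hr
    rw [Algebra.adjoin_int] at hr'
    have hle : Subring.closure (Set.range s)
        ≤ ((aeval t : (h14_algClosureIn D)[X] →ₐ[h14_algClosureIn D] K) :
          (h14_algClosureIn D)[X] →+* K).range := by
      rw [Subring.closure_le]
      rintro _ ⟨i, rfl⟩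
      refine Fin.lastCases ?_ (fun j => ?_) i
      · exact ⟨X, by simp [ht]⟩
      · exact ⟨C ⟨s0 j, hs0mem j⟩, by simp [hs0]⟩
    exact hle (mem_subalgebraOfSubring.mp hr')
  obtain ⟨A, hA, hrank, hunits, hbij⟩ := h14_valfam_over t htr halg S hS
  let ρh : h14_algClosureIn D →+* IsLocalRing.ResidueField A :=
    (IsLocalRing.residue A).comp ((algebraMap (h14_algClosureIn D) K).codRestrict A hA)
  refine ⟨A, hrank, hunits, charZero_of_injective_ringHom ρh.injective,
    h14_resField_isAlgClosed A, fun i => ρh ⟨s0 i, hs0mem i⟩, fun a => ?_⟩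
  obtain ⟨b, rfl⟩ := hbij.2 a
  show IsAlgebraic _ (ρh b)
  obtain ⟨P, hP0, hPb⟩ := (h14_mem_algClosureIn D (b : K)).mp b.2
  -- the composite `γ : D → K' → k`
  set γ : D →+* IsLocalRing.ResidueField A := ρh.comp (h14_inclD D) with hγ
  have hγinj : Function.Injective γ := by
    rw [hγ, RingHom.coe_comp]
    refine ρh.injective.comp ?_
    intro x y hxy
    exact Subtype.ext (congrArg (fun z : h14_algClosureIn D => (z : K)) hxy)
  have hPγ : P.eval₂ γ (ρh b) = 0 := by
    rw [hγ, ← hom_eval₂]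
    have h0 : P.eval₂ (h14_inclD D) b = 0 := by
      apply (algebraMap (h14_algClosureIn D) K).injective
      rw [map_zero, hom_eval₂]
      rw [aeval_def] at hPb
      exact hPb
    rw [h0, map_zero]
  -- the image of `γ` lies in `ℤ[s']`
  have hγrange : ∀ r : D, γ r ∈ Set.range
      (algebraMap (Algebra.adjoin ℤ (Set.range fun i => ρh ⟨s0 i, hs0mem i⟩))
        (IsLocalRing.ResidueField A)) := by
    rintro ⟨r, hr⟩
    have hr' := hr
    rw [hD, Algebra.adjoin_int] at hr'
    have hle : Subring.closure (Set.range s0) ≤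
        Subring.map (algebraMap (h14_algClosureIn D) K)
          (Subring.comap ρh
            (Algebra.adjoin ℤ (Set.range fun i => ρh ⟨s0 i, hs0mem i⟩)).toSubring) := by
      rw [Subring.closure_le]
      rintro _ ⟨i, rfl⟩
      exact ⟨⟨s0 i, hs0mem i⟩, Algebra.subset_adjoin ⟨i, rfl⟩, rfl⟩
    obtain ⟨y, hy, hyr⟩ := hle (mem_subalgebraOfSubring.mp hr')
    have hyeq : y = h14_inclD D ⟨r, hr⟩ := Subtype.ext hyr
    refine ⟨⟨γ ⟨r, hr⟩, ?_⟩, rfl⟩
    rw [hγ, RingHom.comp_apply, ← hyeq]
    exact hy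
  obtain ⟨Q, hQ0, hQa⟩ := h14_lift_poly_range γ _ hγinj hγrange P hP0 hPγ
  exact ⟨Q, fun h => hQ0 (by rw [h, Polynomial.map_zero]), by rw [aeval_def]; exact hQa⟩

end Fermat.Agent.S27
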