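/-
S27 / B3 (C2)+(C3) (helper22): constant field extension of function fields.

Setting: a commutative square of fields `K₁ → K`, `K₁ → F₁ → F`, `K → F` (both `K₁`, `K`
algebraically closed of characteristic zero), `x₁ : F₁` a chart of `F₁ / K₁` whose image is a
chart of `F / K`, `K` and `F₁` linearly disjoint over `K₁`, and the dictionary of places
(`h22_CE`; fields `ex`, `uniq`, `ord`, `cases` = (C1) of the block).

Results: the genus does not change (`h22_ce_genus`), `L_F(ext D) = K · L_{F₁}(D)` (`h22_ce_rr`)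
and a divisor of `F₁` that becomes principal in `F` is principal (`h22_ce_principal`).
-/
import Mathlib
import Fermat.Agent.S18.GR_HoloOmega
import Fermat.Agent.S18.RR_Large
import Fermat.Agent.S18.h53_CoreBasic

set_option autoImplicit false

noncomputable section

namespace Fermat.Agent.S27

open AlgebraicCurve IntermediateField
open Fermat.Agent.S24 Fermat.Agent.S18

section CE

variable {K₁ K F₁ F : Type*} [Field K₁] [Field K] [Field F₁] [Field F]
  [Algebra K₁ K] [Algebra K₁ F₁] [Algebra K F] [Algebra F₁ F] [Algebra K₁ F]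

/-- The place `P` of `F / K` lies over the place `Q` of `F₁ / K₁`. -/
def h22_Over (P : Place K F) (Q : Place K₁ F₁) : Prop :=
  ∀ f : F₁, f ∈ Q.toValuationSubring ↔ algebraMap F₁ F f ∈ P.toValuationSubring

/-- The place `P` of `F / K` is generic: trivial on `F₁`. -/
def h22_Generic (F₁ : Type*) {K F : Type*} [Field F₁] [Field K] [Field F] [Algebra K F]
    [Algebra F₁ F] (P : Place K F) : Prop :=
  ∀ u : F₁, u ≠ 0 → P.ord (algebraMap F₁ F u) = 0

/-- The data of a constant field extension `(K₁, F₁) → (K, F)` with chart `x₁`. -/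
structure h22_CE (K₁ K F : Type*) {F₁ : Type*} [Field K₁] [Field K] [Field F₁] [Field F]
    [Algebra K₁ K] [Algebra K₁ F₁] [Algebra K F] [Algebra F₁ F] [Algebra K₁ F] (x₁ : F₁) :
    Prop where
  chart₁ : h75_IsChart K₁ x₁
  chart : h75_IsChart K (algebraMap F₁ F x₁)
  ld : ∀ (n : ℕ) (u : Fin n → F₁), LinearIndependent K₁ u →
    LinearIndependent K (fun i => algebraMap F₁ F (u i))
  ex : ∀ Q : Place K₁ F₁, ∃ P : Place K F, h22_Over P Q
  uniq : ∀ (P P' : Place K F) (Q : Place K₁ F₁), h22_Over P Q → h22_Over P' Q → P = P'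
  ord : ∀ (P : Place K F) (Q : Place K₁ F₁), h22_Over P Q →
    ∀ f : F₁, P.ord (algebraMap F₁ F f) = Q.ord f
  cases : ∀ P : Place K F, h22_Generic F₁ P ∨ ∃ Q : Place K₁ F₁, h22_Over P Q

theorem h22_over_unique {P : Place K F} {Q Q' : Place K₁ F₁} (h : h22_Over P Q)
    (h' : h22_Over P Q') : Q = Q' :=
  Place.ext (SetLike.ext fun f => (h f).trans (h' f).symm)

theorem h22_exists_ord_one (Q : Place K₁ F₁) : ∃ t : F₁, t ≠ 0 ∧ Q.ord t = 1 := by
  obtain ⟨π, hπ⟩ := IsDiscreteValuationRing.exists_irreducible Q.toValuationSubring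
  refine ⟨(π : F₁), ?_, Q.ord_coe_irreducible hπ⟩
  simpa [ne_eq, ZeroMemClass.coe_eq_zero] using hπ.ne_zero

variable {x₁ : F₁}

theorem h22_not_generic_of_over (h : h22_CE K₁ K F x₁) {P : Place K F} {Q : Place K₁ F₁}
    (hPQ : h22_Over P Q) : ¬ h22_Generic F₁ P := by
  intro hg
  obtain ⟨t, ht0, ht⟩ := h22_exists_ord_one Q
  have := hg t ht0
  rw [h.ord P Q hPQ t, ht] at this
  exact one_ne_zero this

theorem h22_ordGE_iff (h : h22_CE K₁ K F x₁) {P : Place K F} {Q : Place K₁ F₁}
    (hPQ : h22_Over P Q) (u : F₁) (n : ℤ) :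
    h53_OrdGE P (algebraMap F₁ F u) n ↔ h53_OrdGE Q u n := by
  unfold h53_OrdGE
  rw [h.ord P Q hPQ u, map_eq_zero_iff _ (algebraMap F₁ F).injective]

theorem h22_ordGE_generic {P : Place K F} (hg : h22_Generic F₁ P) (u : F₁) :
    h53_OrdGE P (algebraMap F₁ F u) 0 := by
  by_cases hu : u = 0
  · left; rw [hu, map_zero]
  · right; rw [hg u hu]

variable [IsScalarTower K₁ K F] [IsScalarTower K₁ F₁ F]

omit [Algebra K₁ K] [IsScalarTower K₁ K F] in
theorem h22_map_const_aux (c : K₁) :
    algebraMap F₁ F (algebraMap K₁ F₁ c) = algebraMap K₁ F c :=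
  (IsScalarTower.algebraMap_apply K₁ F₁ F c).symm

theorem h22_map_const (c : K₁) :
    algebraMap F₁ F (algebraMap K₁ F₁ c) = algebraMap K F (algebraMap K₁ K c) := by
  rw [← IsScalarTower.algebraMap_apply K₁ F₁ F, ← IsScalarTower.algebraMap_apply K₁ K F]

/-- Holomorphic differentials stay holomorphic. -/
theorem h22_holo_map [IsAlgClosed K₁] (h : h22_CE K₁ K F x₁) {w : F₁}
    (hw : w ∈ h39_holo K₁ x₁) : algebraMap F₁ F w ∈ h39_holo K (algebraMap F₁ F x₁) := by
  rw [h39_mem_holo_iff] at hw ⊢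
  intro P
  have hx₁0 : x₁ ≠ 0 := h.chart₁.ne_zero
  rcases h.cases P with hg | ⟨Q, hPQ⟩
  · refine ⟨fun a ha => ?_, fun hx => ?_⟩
    · by_cases hw0 : w = 0
      · left; rw [hw0, map_zero]
      · right; rw [hg w hw0]; omega
    · rw [hg x₁ hx₁0] at hx
      exact absurd hx (lt_irrefl 0)
  · have hord := h.ord P Q hPQ
    refine ⟨fun a ha => ?_, fun hx => ?_⟩
    · -- `x₁` is regular at `Q`, with a value in `K₁`
      have hne : algebraMap F₁ F x₁ - algebraMap K F a ≠ 0 := by
        intro h0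
        rw [h0, P.ord_zero] at ha
        exact lt_irrefl 0 ha
      have hxP : algebraMap F₁ F x₁ ∈ P.toValuationSubring := by
        have h1 : algebraMap F₁ F x₁ - algebraMap K F a ∈ P.toValuationSubring :=
          (h35_mem_iff_ord_nonneg P hne).mpr ha.le
        have h2 := P.toValuationSubring.add_mem _ _ h1 (P.algebraMap_mem' a)
        simpa using h2
      have hxQ : x₁ ∈ Q.toValuationSubring := (hPQ x₁).mpr hxP
      have := h.chart₁.fin
      obtain ⟨c, hc | hc⟩ := h35_exists_value h.chart₁.tr Q hxQ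
      · exact absurd (hc ▸ isAlgebraic_algebraMap c : IsAlgebraic K₁ x₁) h.chart₁.tr
      · have hc' : 0 < P.ord (algebraMap F₁ F x₁ - algebraMap K F (algebraMap K₁ K c)) := by
          rw [← h22_map_const (F₁ := F₁) c, ← map_sub, hord]
          exact hc
        have hac : a = algebraMap K₁ K c := h35_value_unique P ha hc'
        have key : P.ord (algebraMap F₁ F x₁ - algebraMap K F a)
            = Q.ord (x₁ - algebraMap K₁ F₁ c) := by
          rw [hac, ← h22_map_const (F₁ := F₁) c, ← map_sub, hord]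
        rcases (hw Q).1 c hc with h0 | h0
        · left; rw [h0, map_zero]
        · right; rw [key, hord]; exact h0
    · rw [hord] at hx
      rcases (hw Q).2 hx with h0 | h0
      · left; rw [h0, map_zero]
      · right; rw [hord, hord]; exact h0

/-! ### Linear disjointness and dimensions -/

theorem h22_map_smul (c : K₁) (u : F₁) :
    algebraMap F₁ F (c • u) = (algebraMap K₁ K c) • algebraMap F₁ F u := by
  rw [Algebra.smul_def, map_mul, h22_map_const (K := K), Algebra.smul_def]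

theorem h22_finrank_le (h : h22_CE K₁ K F x₁) (V₁ : Submodule K₁ F₁) (V : Submodule K F)
    [Module.Finite K₁ V₁] [Module.Finite K V]
    (hV : ∀ u ∈ V₁, algebraMap F₁ F u ∈ V) :
    Module.finrank K₁ V₁ ≤ Module.finrank K V := by
  classical
  let b := Module.finBasis K₁ V₁
  have hli₁ : LinearIndependent K₁ (fun i => (b i : F₁)) :=
    b.linearIndependent.map' V₁.subtype (Submodule.ker_subtype V₁)
  have hli := h.ld _ _ hli₁
  let w : Fin (Module.finrank K₁ V₁) → V :=
    fun i => ⟨algebraMap F₁ F (b i : F₁), hV _ (b i).2⟩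
  have hw : LinearIndependent K w := by
    apply LinearIndependent.of_comp V.subtype
    exact hli
  have := hw.fintype_card_le_finrank
  simpa using this

theorem h22_finrank_span (h : h22_CE K₁ K F x₁) (V₁ : Submodule K₁ F₁) [Module.Finite K₁ V₁] :
    Module.finrank K (Submodule.span K (algebraMap F₁ F '' (V₁ : Set F₁)))
      = Module.finrank K₁ V₁ := by
  classical
  let b := Module.finBasis K₁ V₁
  have hli₁ : LinearIndependent K₁ (fun i => (b i : F₁)) :=
    b.linearIndependent.map' V₁.subtype (Submodule.ker_subtype V₁)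
  have hli := h.ld _ _ hli₁
  have hspan : Submodule.span K (algebraMap F₁ F '' (V₁ : Set F₁))
      = Submodule.span K (Set.range fun i => algebraMap F₁ F (b i : F₁)) := by
    apply le_antisymm
    · rw [Submodule.span_le]
      rintro _ ⟨v, hv, rfl⟩
      have hv' : v = ∑ i, (b.repr ⟨v, hv⟩ i) • (b i : F₁) := by
        have h1 := congrArg (Subtype.val) (b.sum_repr ⟨v, hv⟩)
        rw [Submodule.coe_sum] at h1
        exact h1.symm
      rw [hv', map_sum]
      refine Submodule.sum_mem _ fun i _ => ?_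
      rw [h22_map_smul (K := K)]
      exact Submodule.smul_mem _ _ (Submodule.subset_span ⟨i, rfl⟩)
    · rw [Submodule.span_le]
      rintro _ ⟨i, rfl⟩
      exact Submodule.subset_span ⟨_, (b i).2, rfl⟩
  rw [hspan, finrank_span_eq_card hli]
  simp

/-! ### The genus -/

theorem h22_genus_eq_finrank_holo {K F : Type*} [Field K] [Field F] [Algebra K F]
    [IsAlgClosed K] [CharZero K] {x : F} (hx : h75_IsChart K x) :
    Module.Finite K (h39_holo K x) ∧ h75_genus K x = Module.finrank K (h39_holo K x) := by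
  rw [h39_holo_eq_Omega hx]
  exact ⟨(h75_dual hx 0).1, (h75_finrank_Omega_zero hx).symm⟩

variable [IsAlgClosed K₁] [IsAlgClosed K] [CharZero K₁] [CharZero K]

theorem h22_ce_genus_ge (h : h22_CE K₁ K F x₁) :
    h75_genus K₁ x₁ ≤ h75_genus K (algebraMap F₁ F x₁) := by
  obtain ⟨hfin₁, hg₁⟩ := h22_genus_eq_finrank_holo h.chart₁
  obtain ⟨hfin, hg⟩ := h22_genus_eq_finrank_holo h.chart
  rw [hg₁, hg]
  exact h22_finrank_le h _ _ fun u hu => h22_holo_map h hu

/-! ### Extension of divisors -/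

/-- The place of `F` over a place of `F₁`. -/
def h22_ext (h : h22_CE K₁ K F x₁) (Q : Place K₁ F₁) : Place K F := Classical.choose (h.ex Q)

omit [IsScalarTower K₁ K F] [IsScalarTower K₁ F₁ F] [IsAlgClosed K₁] [IsAlgClosed K]
  [CharZero K₁] [CharZero K] in
theorem h22_ext_over (h : h22_CE K₁ K F x₁) (Q : Place K₁ F₁) : h22_Over (h22_ext h Q) Q :=
  Classical.choose_spec (h.ex Q)

omit [IsScalarTower K₁ K F] [IsScalarTower K₁ F₁ F] [IsAlgClosed K₁] [IsAlgClosed K]
  [CharZero K₁] [CharZero K] in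
theorem h22_eq_ext (h : h22_CE K₁ K F x₁) {P : Place K F} {Q : Place K₁ F₁}
    (hPQ : h22_Over P Q) : P = h22_ext h Q :=
  h.uniq _ _ _ hPQ (h22_ext_over h Q)

omit [IsScalarTower K₁ K F] [IsScalarTower K₁ F₁ F] [IsAlgClosed K₁] [IsAlgClosed K]
  [CharZero K₁] [CharZero K] in
theorem h22_ext_injective (h : h22_CE K₁ K F x₁) : Function.Injective (h22_ext h) := by
  intro Q Q' hQ
  have h1 := h22_ext_over h Q
  have h2 := h22_ext_over h Q'
  rw [← hQ] at h2
  exact h22_over_unique h1 h2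

/-- Extension of divisors. -/
def h22_extDiv (h : h22_CE K₁ K F x₁) (D : Divisor K₁ F₁) : Divisor K F :=
  Finsupp.mapDomain (h22_ext h) D

omit [IsScalarTower K₁ K F] [IsScalarTower K₁ F₁ F] [IsAlgClosed K₁] [IsAlgClosed K]
  [CharZero K₁] [CharZero K] in
theorem h22_extDiv_over (h : h22_CE K₁ K F x₁) (D : Divisor K₁ F₁) {P : Place K F}
    {Q : Place K₁ F₁} (hPQ : h22_Over P Q) : h22_extDiv h D P = D Q := by
  rw [h22_eq_ext h hPQ]
  exact Finsupp.mapDomain_apply (h22_ext_injective h) D Q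

omit [IsScalarTower K₁ K F] [IsScalarTower K₁ F₁ F] [IsAlgClosed K₁] [IsAlgClosed K]
  [CharZero K₁] [CharZero K] in
theorem h22_extDiv_generic (h : h22_CE K₁ K F x₁) (D : Divisor K₁ F₁) {P : Place K F}
    (hg : h22_Generic F₁ P) : h22_extDiv h D P = 0 := by
  apply Finsupp.mapDomain_of_notMem_range
  rintro ⟨Q, rfl⟩
  exact h22_not_generic_of_over h (h22_ext_over h Q) hg

omit [IsScalarTower K₁ K F] [IsScalarTower K₁ F₁ F] [CharZero K₁] [CharZero K] in
theorem h22_degree_extDiv (h : h22_CE K₁ K F x₁) (D : Divisor K₁ F₁) :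
    Divisor.degree (h22_extDiv h D) = Divisor.degree D := by
  unfold h22_extDiv
  induction D using Finsupp.induction_linear with
  | zero => simp
  | add D E hD hE => rw [Finsupp.mapDomain_add, map_add, map_add, hD, hE]
  | single Q n =>
    rw [Finsupp.mapDomain_single, Divisor.degree_single, Divisor.degree_single,
      h75_deg_eq_one h.chart, h75_deg_eq_one h.chart₁]

omit [IsScalarTower K₁ K F] [IsScalarTower K₁ F₁ F] [IsAlgClosed K₁] [IsAlgClosed K]
  [CharZero K₁] [CharZero K] in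
theorem h22_mem_rr_ext_iff (h : h22_CE K₁ K F x₁) (D : Divisor K₁ F₁) (f : F) :
    f ∈ riemannRochSpace (h22_extDiv h D) ↔
      (∀ (P : Place K F) (Q : Place K₁ F₁), h22_Over P Q → h53_OrdGE P f (-D Q)) ∧
        (∀ P : Place K F, h22_Generic F₁ P → h53_OrdGE P f 0) := by
  rw [mem_riemannRochSpace_iff]
  constructor
  · intro hf
    refine ⟨fun P Q hPQ => ?_, fun P hg => ?_⟩
    · have := hf P
      rwa [h22_extDiv_over h D hPQ] at this
    · have := hf P
      rwa [h22_extDiv_generic h D hg, neg_zero] at this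
  · rintro ⟨h1, h2⟩ P
    rcases h.cases P with hg | ⟨Q, hPQ⟩
    · rw [h22_extDiv_generic h D hg, neg_zero]
      exact h2 P hg
    · rw [h22_extDiv_over h D hPQ]
      exact h1 P Q hPQ

omit [IsScalarTower K₁ K F] [IsScalarTower K₁ F₁ F] [IsAlgClosed K₁] [IsAlgClosed K]
  [CharZero K₁] [CharZero K] in
theorem h22_map_mem_rr (h : h22_CE K₁ K F x₁) (D : Divisor K₁ F₁) {u : F₁}
    (hu : u ∈ riemannRochSpace D) : algebraMap F₁ F u ∈ riemannRochSpace (h22_extDiv h D) := by
  rw [h22_mem_rr_ext_iff]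
  rw [mem_riemannRochSpace_iff] at hu
  exact ⟨fun P Q hPQ => (h22_ordGE_iff h hPQ u _).mpr (hu Q),
    fun P hg => h22_ordGE_generic hg u⟩

omit [IsScalarTower K₁ K F] [IsScalarTower K₁ F₁ F] [IsAlgClosed K₁] [IsAlgClosed K]
  [CharZero K₁] [CharZero K] in
theorem h22_span_le_rr (h : h22_CE K₁ K F x₁) (D : Divisor K₁ F₁) :
    Submodule.span K (algebraMap F₁ F '' (riemannRochSpace D : Set F₁))
      ≤ riemannRochSpace (h22_extDiv h D) := by
  rw [Submodule.span_le]
  rintro _ ⟨u, hu, rfl⟩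
  exact h22_map_mem_rr h D hu

theorem h22_ce_genus_le (h : h22_CE K₁ K F x₁) :
    h75_genus K (algebraMap F₁ F x₁) ≤ h75_genus K₁ x₁ := by
  obtain ⟨c₁, hc₁⟩ := h75_rr h.chart₁
  obtain ⟨c, hc⟩ := h75_rr h.chart
  obtain ⟨Q₀⟩ := h7_exists_place h.chart₁
  set N : ℕ := (max c₁ c).toNat with hN
  set D : Divisor K₁ F₁ := Finsupp.single Q₀ (N : ℤ) with hD
  have hdeg : Divisor.degree D = N := by
    rw [hD, Divisor.degree_single, h75_deg_eq_one h.chart₁]
    simp
  have hN1 : c₁ ≤ (N : ℤ) := by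
    rw [hN]; have := le_max_left c₁ c; have := Int.self_le_toNat (max c₁ c); omega
  have hN2 : c ≤ (N : ℤ) := by
    rw [hN]; have := le_max_right c₁ c; have := Int.self_le_toNat (max c₁ c); omega
  have e1 := hc₁ D (by rw [hdeg]; exact hN1)
  have e2 := hc (h22_extDiv h D) (by rw [h22_degree_extDiv, hdeg]; exact hN2)
  rw [h22_degree_extDiv] at e2
  haveI := (h75_riemann h.chart₁ D).1
  haveI := (h75_riemann h.chart (h22_extDiv h D)).1
  have hle := h22_finrank_le h (riemannRochSpace D) (riemannRochSpace (h22_extDiv h D))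
    fun u hu => h22_map_mem_rr h D hu
  have hle' : (Module.finrank K₁ ↥(riemannRochSpace D) : ℤ)
      ≤ Module.finrank K ↥(riemannRochSpace (h22_extDiv h D)) := by exact_mod_cast hle
  omega

/-- **(C3)** The genus does not change under a constant field extension. -/
theorem h22_ce_genus (h : h22_CE K₁ K F x₁) :
    h75_genus K (algebraMap F₁ F x₁) = h75_genus K₁ x₁ :=
  le_antisymm (h22_ce_genus_le h) (h22_ce_genus_ge h)

/-- For divisors of large degree, `L_F(ext E) = K · L_{F₁}(E)`. -/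
theorem h22_span_eq_rr_large (h : h22_CE K₁ K F x₁) :
    ∃ c : ℤ, ∀ E : Divisor K₁ F₁, c ≤ Divisor.degree E →
      Submodule.span K (algebraMap F₁ F '' (riemannRochSpace E : Set F₁))
        = riemannRochSpace (h22_extDiv h E) := by
  obtain ⟨c₁, hc₁⟩ := h75_rr h.chart₁
  obtain ⟨c, hc⟩ := h75_rr h.chart
  refine ⟨max c₁ c, fun E hE => ?_⟩
  have e1 := hc₁ E ((le_max_left c₁ c).trans hE)
  have e2 := hc (h22_extDiv h E) (by rw [h22_degree_extDiv]; exact (le_max_right c₁ c).trans hE)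
  rw [h22_degree_extDiv, h22_ce_genus h] at e2
  haveI := (h75_riemann h.chart₁ E).1
  haveI := (h75_riemann h.chart (h22_extDiv h E)).1
  apply Submodule.eq_of_le_of_finrank_eq (h22_span_le_rr h E)
  rw [h22_finrank_span h]
  have : (Module.finrank K₁ ↥(riemannRochSpace E) : ℤ)
      = Module.finrank K ↥(riemannRochSpace (h22_extDiv h E)) := by rw [e1, e2]
  exact_mod_cast this

/-! ### One step of the descent: from `L(E)` to `L(E - Q₀)` -/

omit [Algebra K₁ K] [Algebra F₁ F] [Algebra K₁ F] [IsScalarTower K₁ K F] [IsScalarTower K₁ F₁ F]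
  [IsAlgClosed K₁] [IsAlgClosed K] [CharZero K₁] [CharZero K] [Field K] [Field F] [Algebra K F] in
theorem h22_mem_rr_sub_single_iff (E : Divisor K₁ F₁) (Q₀ : Place K₁ F₁) (u : F₁) :
    u ∈ riemannRochSpace (E - Finsupp.single Q₀ 1) ↔
      u ∈ riemannRochSpace E ∧ h53_OrdGE Q₀ u (-E Q₀ + 1) := by
  classical
  rw [mem_riemannRochSpace_iff, mem_riemannRochSpace_iff]
  constructor
  · intro hu
    refine ⟨fun Q => ?_, ?_⟩
    · have h1 : h53_OrdGE Q u (-((E - Finsupp.single Q₀ 1 : Divisor K₁ F₁) Q)) := hu Q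
      refine h1.mono ?_
      rw [Finsupp.sub_apply, Finsupp.single_apply]
      split_ifs <;> omega
    · have h1 : h53_OrdGE Q₀ u (-((E - Finsupp.single Q₀ 1 : Divisor K₁ F₁) Q₀)) := hu Q₀
      refine h1.mono ?_
      rw [Finsupp.sub_apply, Finsupp.single_apply, if_pos rfl]
      omega
  · rintro ⟨hu, hu0⟩ Q
    show h53_OrdGE Q u (-((E - Finsupp.single Q₀ 1 : Divisor K₁ F₁) Q))
    by_cases hQ : Q = Q₀
    · subst hQ
      refine hu0.mono ?_
      rw [Finsupp.sub_apply, Finsupp.single_apply, if_pos rfl]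
      omega
    · have h1 : h53_OrdGE Q u (-E Q) := hu Q
      refine h1.mono ?_
      rw [Finsupp.sub_apply, Finsupp.single_apply, if_neg (Ne.symm hQ)]
      omega

omit [Algebra K₁ K] [Algebra F₁ F] [Algebra K₁ F] [IsScalarTower K₁ K F] [IsScalarTower K₁ F₁ F]
  [IsAlgClosed K] [CharZero K₁] [CharZero K] [Field K] [Field F] [Algebra K F] in
theorem h22_codim_one (hx₁ : h75_IsChart K₁ x₁) (E : Divisor K₁ F₁) (Q₀ : Place K₁ F₁)
    (u₀ : F₁) (hu₀ : u₀ ∈ riemannRochSpace E) (hu₀' : ¬ h53_OrdGE Q₀ u₀ (-E Q₀ + 1))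
    (u : F₁) (hu : u ∈ riemannRochSpace E) :
    ∃ d : K₁, u - d • u₀ ∈ riemannRochSpace (E - Finsupp.single Q₀ 1) := by
  have hu₀0 : u₀ ≠ 0 := fun h0 => hu₀' (Or.inl h0)
  have h1 : -E Q₀ ≤ Q₀.ord u₀ :=
    ((mem_riemannRochSpace_iff.mp hu₀) Q₀).resolve_left hu₀0
  have h2 : ¬ (-E Q₀ + 1 ≤ Q₀.ord u₀) := fun h => hu₀' (Or.inr h)
  have hord₀ : Q₀.ord u₀ = -E Q₀ := by omega
  by_cases hu0 : u = 0
  · exact ⟨0, by rw [hu0, zero_smul, sub_zero]; exact Submodule.zero_mem _⟩
  have h3 : -E Q₀ ≤ Q₀.ord u := ((mem_riemannRochSpace_iff.mp hu) Q₀).resolve_left hu0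
  have hv : u / u₀ ∈ Q₀.toValuationSubring := by
    rw [h35_mem_iff_ord_nonneg Q₀ (div_ne_zero hu0 hu₀0), h35_ord_div Q₀ hu0 hu₀0]
    omega
  have := hx₁.fin
  obtain ⟨d, hd⟩ := h35_exists_value hx₁.tr Q₀ hv
  refine ⟨d, ?_⟩
  have hw : u - d • u₀ = (u / u₀ - algebraMap K₁ F₁ d) * u₀ := by
    rw [Algebra.smul_def]
    field_simp
  rw [h22_mem_rr_sub_single_iff]
  refine ⟨Submodule.sub_mem _ hu (Submodule.smul_mem _ _ hu₀), ?_⟩
  rw [hw]
  rcases hd with hd | hd
  · left; rw [hd, sub_self, zero_mul]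
  · have hne : u / u₀ - algebraMap K₁ F₁ d ≠ 0 := by
      intro h0
      rw [h0, Q₀.ord_zero] at hd
      exact lt_irrefl 0 hd
    right
    rw [Q₀.ord_mul hne hu₀0, hord₀]
    omega

theorem h22_descend_step (h : h22_CE K₁ K F x₁) (E : Divisor K₁ F₁) (Q₀ : Place K₁ F₁) (f : F)
    (hf : f ∈ Submodule.span K (algebraMap F₁ F '' (riemannRochSpace E : Set F₁)))
    (hord : h53_OrdGE (h22_ext h Q₀) f (-E Q₀ + 1)) :
    f ∈ Submodule.span K
      (algebraMap F₁ F '' (riemannRochSpace (E - Finsupp.single Q₀ 1) : Set F₁)) := by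
  classical
  by_cases hA : ∀ u ∈ riemannRochSpace E, h53_OrdGE Q₀ u (-E Q₀ + 1)
  · refine Submodule.span_mono (Set.image_mono ?_) hf
    intro u hu
    exact (h22_mem_rr_sub_single_iff E Q₀ u).mpr ⟨hu, hA u hu⟩
  · push Not at hA
    obtain ⟨u₀, hu₀, hu₀'⟩ := hA
    have key := h22_codim_one h.chart₁ E Q₀ u₀ hu₀ hu₀'
    have hspan' : ∀ y ∈ Submodule.span K (algebraMap F₁ F '' (riemannRochSpace E : Set F₁)),
        ∃ A : K, y - A • algebraMap F₁ F u₀ ∈ Submodule.span K
        (algebraMap F₁ F '' (riemannRochSpace (E - Finsupp.single Q₀ 1) : Set F₁)) := by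
      intro y hy
      induction hy using Submodule.span_induction with
      | mem y hy =>
        obtain ⟨u, hu, rfl⟩ := hy
        obtain ⟨d, hd⟩ := key u hu
        refine ⟨algebraMap K₁ K d, ?_⟩
        have e : algebraMap F₁ F u - algebraMap K₁ K d • algebraMap F₁ F u₀
            = algebraMap F₁ F (u - d • u₀) := by
          rw [map_sub, h22_map_smul (K := K)]
        rw [e]
        exact Submodule.subset_span ⟨_, hd, rfl⟩
      | zero => exact ⟨0, by simp⟩
      | add y z _ _ hy hz =>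
        obtain ⟨A, hA⟩ := hy
        obtain ⟨B, hB⟩ := hz
        refine ⟨A + B, ?_⟩
        have := Submodule.add_mem _ hA hB
        convert this using 1
        rw [add_smul]; ring
      | smul a y _ hy =>
        obtain ⟨A, hA⟩ := hy
        refine ⟨a * A, ?_⟩
        have := Submodule.smul_mem _ a hA
        convert this using 1
        rw [smul_sub, mul_smul]
    obtain ⟨A, hA⟩ := hspan' f hf
    have hr' : h53_OrdGE (h22_ext h Q₀) (f - A • algebraMap F₁ F u₀) (-E Q₀ + 1) := by
      have h1 := h22_span_le_rr h _ hA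
      rw [h22_mem_rr_ext_iff] at h1
      have h2 := h1.1 _ Q₀ (h22_ext_over h Q₀)
      refine h2.mono ?_
      rw [Finsupp.sub_apply, Finsupp.single_apply, if_pos rfl]
      omega
    have hAu : h53_OrdGE (h22_ext h Q₀) (A • algebraMap F₁ F u₀) (-E Q₀ + 1) := by
      have := hord.sub hr'
      simpa using this
    by_cases hA0 : A = 0
    · rw [hA0, zero_smul, sub_zero] at hA
      exact hA
    · exfalso
      have h3 : h53_OrdGE (h22_ext h Q₀) (algebraMap F₁ F u₀) (-E Q₀ + 1) := by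
        have := hAu.smul A⁻¹
        rwa [smul_smul, inv_mul_cancel₀ hA0, one_smul] at this
      exact hu₀' ((h22_ordGE_iff h (h22_ext_over h Q₀) u₀ _).mp h3)

/-- **(C2), Riemann–Roch spaces.** `L_F(ext D) = K · L_{F₁}(D)`. -/
theorem h22_ce_rr (h : h22_CE K₁ K F x₁) (D : Divisor K₁ F₁) (f : F)
    (hf : ∀ (P : Place K F) (Q : Place K₁ F₁), h22_Over P Q → h53_OrdGE P f (-D Q))
    (hgen : ∀ P : Place K F, h22_Generic F₁ P → h53_OrdGE P f 0) :
    f ∈ Submodule.span K (algebraMap F₁ F '' (riemannRochSpace D : Set F₁)) := by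
  classical
  obtain ⟨c, hc⟩ := h22_span_eq_rr_large h
  obtain ⟨Q₀⟩ := h7_exists_place h.chart₁
  set N : ℕ := (c - Divisor.degree D).toNat with hN
  have key : ∀ j : ℕ, j ≤ N → f ∈ Submodule.span K (algebraMap F₁ F ''
      (riemannRochSpace (D + Finsupp.single Q₀ ((N - j : ℕ) : ℤ)) : Set F₁)) := by
    intro j
    induction j with
    | zero =>
      intro _
      rw [Nat.sub_zero, hc]
      · rw [h22_mem_rr_ext_iff]
        refine ⟨fun P Q hPQ => (hf P Q hPQ).mono ?_, hgen⟩
        rw [Finsupp.add_apply, Finsupp.single_apply]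
        split_ifs <;> omega
      · rw [map_add, Divisor.degree_single, h75_deg_eq_one h.chart₁]
        have := Int.self_le_toNat (c - Divisor.degree D)
        push_cast
        omega
    | succ j ih =>
      intro hj
      have ih' := ih (by omega)
      have hE : D + Finsupp.single Q₀ ((N - j : ℕ) : ℤ) - Finsupp.single Q₀ 1
          = D + Finsupp.single Q₀ ((N - (j + 1) : ℕ) : ℤ) := by
        rw [add_sub_assoc, ← Finsupp.single_sub]
        congr 2
        omega
      rw [← hE]
      apply h22_descend_step h _ Q₀ f ih'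
      refine (hf _ Q₀ (h22_ext_over h Q₀)).mono ?_
      rw [Finsupp.add_apply, Finsupp.single_apply, if_pos rfl]
      omega
  have := key N le_rfl
  simpa using this

/-- **(C2), injectivity on divisor classes.** A divisor of `F₁` that becomes principal in `F`
is principal. -/
theorem h22_ce_principal (h : h22_CE K₁ K F x₁) (D : Divisor K₁ F₁) (f : F) (hf0 : f ≠ 0)
    (hf : ∀ (P : Place K F) (Q : Place K₁ F₁), h22_Over P Q → P.ord f = D Q)
    (hgen : ∀ P : Place K F, h22_Generic F₁ P → P.ord f = 0) :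
    ∃ u : F₁, u ≠ 0 ∧ ∀ Q : Place K₁ F₁, Q.ord u = D Q := by
  classical
  have hmem := h22_ce_rr h (-D) f
    (fun P Q hPQ => Or.inr (by rw [Finsupp.neg_apply, neg_neg, hf P Q hPQ]))
    (fun P hg => Or.inr (by rw [hgen P hg]))
  -- a nonzero element of `L(-D)`
  obtain ⟨u, hu, hu0⟩ : ∃ u ∈ riemannRochSpace (-D : Divisor K₁ F₁), u ≠ 0 := by
    by_contra hcon
    push Not at hcon
    have : Submodule.span K (algebraMap F₁ F '' (riemannRochSpace (-D) : Set F₁)) = ⊥ := by
      rw [Submodule.span_eq_bot]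
      rintro _ ⟨u, hu, rfl⟩
      rw [hcon u hu, map_zero]
    rw [this, Submodule.mem_bot] at hmem
    exact hf0 hmem
  refine ⟨u, hu0, ?_⟩
  have hle : ∀ Q : Place K₁ F₁, D Q ≤ Q.ord u := by
    intro Q
    have := ((mem_riemannRochSpace_iff.mp hu) Q).resolve_left hu0
    rwa [Finsupp.neg_apply, neg_neg] at this
  -- degrees
  have hdegD : Divisor.degree D = 0 := by
    rw [← h22_degree_extDiv h D]
    apply h7_degree_div h.chart hf0
    intro P
    rcases h.cases P with hg | ⟨Q, hPQ⟩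
    · rw [h22_extDiv_generic h D hg, hgen P hg]
    · rw [h22_extDiv_over h D hPQ, hf P Q hPQ]
  obtain ⟨Du, hDu⟩ := h7_exists_div h.chart₁ u hu0
  have hdegDu : Divisor.degree Du = 0 := h7_degree_div h.chart₁ hu0 Du hDu
  by_contra hcon
  push Not at hcon
  obtain ⟨Q, hQ⟩ := hcon
  have hpos : 0 < Divisor.degree (Du - D) := by
    apply h7_degree_pos h.chart₁ (Du - D) (fun v => ?_) Q
    · rw [Finsupp.sub_apply, hDu]
      have := hle Q
      omega
    · rw [Finsupp.sub_apply, hDu]
      have := hle v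
      omega
  rw [map_sub, hdegD, hdegDu] at hpos
  simp at hpos

end CE

end Fermat.Agent.S27

end
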