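import Mathlib

/-!
# S27, block B8e COMPARE (Mathlib only)

Two "zeta data" `N t = Q^t + 1 - tr C^t`, `N' t = Q^t + 1 - tr C'^t` with `1` not an eigenvalue of
`C`, `C'` cannot satisfy `N' t = ℓ * N t` for all `t ≥ 1` when `ℓ ≥ 2`, `Q ≥ 2`.

Proof without eigenvalues: apply the shift operator `p(S)`, `p = (X - Q) χ_C χ_C'`, to the
sequence `(ℓ - 1)(Q^t + 1) - ℓ tr C^t + tr C'^t`; Cayley–Hamilton kills the traces, `p(Q) = 0`
kills `Q^t`, and what is left is `(ℓ - 1) p(1) ≠ 0`.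
-/

set_option autoImplicit false

namespace Fermat.Agent.S27

open Polynomial

/-- `∑ pᵢ tr (C^(t+i)) = tr (C^t p(C))`. -/
theorem h3_sum_coeff_trace {n : ℕ} (C : Matrix (Fin n) (Fin n) ℤ) (p : ℤ[X]) (t : ℕ) :
    ∑ i ∈ Finset.range (p.natDegree + 1), p.coeff i * (C ^ (t + i)).trace =
      (C ^ t * aeval C p).trace := by
  rw [aeval_eq_sum_range, Finset.mul_sum, Matrix.trace_sum]
  refine Finset.sum_congr rfl fun i _ => ?_
  rw [Matrix.mul_smul, Matrix.trace_smul, pow_add, smul_eq_mul]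

/-- `∑ pᵢ q^(t+i) = q^t p(q)`. -/
theorem h3_sum_coeff_pow (q : ℤ) (p : ℤ[X]) (t : ℕ) :
    ∑ i ∈ Finset.range (p.natDegree + 1), p.coeff i * q ^ (t + i) = q ^ t * p.eval q := by
  rw [eval_eq_sum_range, Finset.mul_sum]
  refine Finset.sum_congr rfl fun i _ => ?_
  rw [pow_add]; ring

/-- **COMPARE, polynomial-free core**: a linear relation
`c (Q^t + 1) = u tr C^t + u' tr C'^t` for all `t ≥ 1` forces `c = 0` if `1` is not an
eigenvalue of `C`, `C'` and `Q ≠ 1`. -/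
theorem h3_compare_core (Q : ℤ) (hQ : Q ≠ 1) {n n' : ℕ} (C : Matrix (Fin n) (Fin n) ℤ)
    (C' : Matrix (Fin n') (Fin n') ℤ) (h1 : (1 - C).det ≠ 0) (h1' : (1 - C').det ≠ 0)
    (c u u' : ℤ)
    (h : ∀ t : ℕ, 0 < t → c * (Q ^ t + 1) = u * (C ^ t).trace + u' * (C' ^ t).trace) :
    c = 0 := by
  set p : ℤ[X] := (X - Polynomial.C Q) * C.charpoly * C'.charpoly with hp
  have hpQ : p.eval Q = 0 := by simp [hp]
  have hpC : aeval C p = 0 := by
    rw [hp, map_mul, map_mul, Matrix.aeval_self_charpoly]; simp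
  have hpC' : aeval C' p = 0 := by
    rw [hp, map_mul, Matrix.aeval_self_charpoly]; simp
  have hp1 : p.eval 1 = (1 - Q) * (1 - C).det * (1 - C').det := by
    rw [hp, eval_mul, eval_mul, Matrix.eval_charpoly, Matrix.eval_charpoly]
    simp
  have hp1ne : p.eval 1 ≠ 0 := by
    rw [hp1]
    exact mul_ne_zero (mul_ne_zero (sub_ne_zero.mpr (Ne.symm hQ)) h1) h1'
  -- apply the shift operator at `t = 1`
  have key : ∑ i ∈ Finset.range (p.natDegree + 1), p.coeff i * (c * (Q ^ (1 + i) + 1)) =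
      ∑ i ∈ Finset.range (p.natDegree + 1),
        p.coeff i * (u * (C ^ (1 + i)).trace + u' * (C' ^ (1 + i)).trace) :=
    Finset.sum_congr rfl fun i _ => by rw [h (1 + i) (by omega)]
  have hL : ∑ i ∈ Finset.range (p.natDegree + 1), p.coeff i * (c * (Q ^ (1 + i) + 1)) =
      c * (Q ^ 1 * p.eval Q) + c * p.eval 1 := by
    rw [← h3_sum_coeff_pow Q p 1, eval_eq_sum_range (p := p) 1, Finset.mul_sum, Finset.mul_sum,
      ← Finset.sum_add_distrib]
    refine Finset.sum_congr rfl fun i _ => ?_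
    ring
  have hR : ∑ i ∈ Finset.range (p.natDegree + 1),
        p.coeff i * (u * (C ^ (1 + i)).trace + u' * (C' ^ (1 + i)).trace) =
      u * (C ^ 1 * aeval C p).trace + u' * (C' ^ 1 * aeval C' p).trace := by
    rw [← h3_sum_coeff_trace C p 1, ← h3_sum_coeff_trace C' p 1, Finset.mul_sum, Finset.mul_sum,
      ← Finset.sum_add_distrib]
    refine Finset.sum_congr rfl fun i _ => ?_
    ring
  rw [hL, hR, hpQ, hpC, hpC'] at key
  simp only [mul_zero, Matrix.trace_zero, zero_add] at key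
  exact (mul_eq_zero.mp key).resolve_right hp1ne

/-- **B8e COMPARE.** If `N t = Q^t + 1 - tr C^t` and `N' t = Q^t + 1 - tr C'^t` (numbers of
points of two curves over the extensions of a finite field with `Q` elements), `det (1 - C) ≠ 0`,
`det (1 - C') ≠ 0`, then `N' t = ℓ * N t` for all `t ≥ 1` is impossible for `ℓ ≥ 2`, `Q ≥ 2`. -/
theorem h3_compare (Q ℓ : ℕ) (hQ : 2 ≤ Q) (hℓ : 2 ≤ ℓ) {n n' : ℕ}
    (C : Matrix (Fin n) (Fin n) ℤ) (C' : Matrix (Fin n') (Fin n') ℤ)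
    (h1 : (1 - C).det ≠ 0) (h1' : (1 - C').det ≠ 0) (N N' : ℕ → ℤ)
    (hN : ∀ t : ℕ, 0 < t → N t = (Q : ℤ) ^ t + 1 - (C ^ t).trace)
    (hN' : ∀ t : ℕ, 0 < t → N' t = (Q : ℤ) ^ t + 1 - (C' ^ t).trace)
    (h : ∀ t : ℕ, 0 < t → N' t = ℓ * N t) : False := by
  have hQ1 : (Q : ℤ) ≠ 1 := by
    have : (2 : ℤ) ≤ Q := by exact_mod_cast hQ
    omega
  have hc : ((ℓ : ℤ) - 1) = 0 := by
    refine h3_compare_core (Q : ℤ) hQ1 C C' h1 h1' ((ℓ : ℤ) - 1) (ℓ : ℤ) (-1) fun t ht => ?_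
    have h3 := h t ht
    rw [hN t ht, hN' t ht] at h3
    linear_combination -h3
  have : (2 : ℤ) ≤ ℓ := by exact_mod_cast hℓ
  omega

/-- Variant of COMPARE for a subset count: if only the inequality-free statement
"`N' t = ℓ * M t` with `M t = N t` for all `t`" is available the previous theorem applies; this
variant is the contrapositive form used by the Kummer cover argument: there is `t ≥ 1` with
`N' t ≠ ℓ * N t`. -/
theorem h3_compare_exists (Q ℓ : ℕ) (hQ : 2 ≤ Q) (hℓ : 2 ≤ ℓ) {n n' : ℕ}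
    (C : Matrix (Fin n) (Fin n) ℤ) (C' : Matrix (Fin n') (Fin n') ℤ)
    (h1 : (1 - C).det ≠ 0) (h1' : (1 - C').det ≠ 0) (N N' : ℕ → ℤ)
    (hN : ∀ t : ℕ, 0 < t → N t = (Q : ℤ) ^ t + 1 - (C ^ t).trace)
    (hN' : ∀ t : ℕ, 0 < t → N' t = (Q : ℤ) ^ t + 1 - (C' ^ t).trace) :
    ∃ t : ℕ, 0 < t ∧ N' t ≠ ℓ * N t := by
  by_contra hcon
  exact h3_compare Q ℓ hQ hℓ C C' h1 h1' N N' hN hN'
    fun t ht => by_contra fun hne => hcon ⟨t, ht, hne⟩

end Fermat.Agent.S27
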