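import Fermat.Agent.S27.h76_PairDefs
import Fermat.Agent.S27.h3_NormAct

/-!
# S27 block B8g NORM, assembly in hypothesis form (helper3)

`h3_norm_onto_of` : the block export `h76_norm_onto` of `skel/h76_SkelPair.lean` from the
PAIR statements (`h76_tate_exists`, `h76_tate_ne_zero`, `h76_tate_mul_left`, `h76_tate_mul_right`,
`h76_tate_compat`), NONDEG (`h76_tate_nondeg`) and finiteness of the fixed classes, each taken as
an explicit hypothesis in the skeleton shape (for all Frobenius structures on `F`; they are used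
for `σ`, `σ ^ ℓ` and `(σ ^ ℓ) ^ s`).
-/

set_option autoImplicit false

noncomputable section

open AlgebraicCurve Fermat.Agent.S18

namespace Fermat.Agent.S27

universe u v

variable {K : Type u} {F : Type v} [Field K] [Field F] [Algebra K F]

/-- `ℓ ∣ q - 1 ⟹ ℓ ∣ q ^ s - 1`, in the `p ^ (e * s)` form of the levels. -/
theorem h3_dvd_level {p e ℓ : ℕ} (hdiv : ℓ ∣ p ^ e - 1) (s : ℕ) : ℓ ∣ p ^ (e * s) - 1 :=
  hdiv.trans (Nat.pow_sub_one_dvd_pow_sub_one p (Dvd.intro s rfl))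

/-- the norm of a `τ ^ s`-fixed class is `τ`-fixed -/
theorem h3_picNorm_fixed (τ : h57_SemiAut K F) (s : ℕ) (d : Pic0 K F)
    (hd : (τ ^ s) • d = d) : τ • h76_picNorm τ s d = h76_picNorm τ s d := by
  have h := h3_normHom_fixed (A := Pic0 K F) τ 1 s d (by rwa [one_mul])
  rw [pow_one, h3_normHom_apply] at h
  rw [h76_picNorm_apply]
  simpa only [one_mul] using h

/-- the `Kˣ`-valued version of a `K`-valued pairing (`1` where the value is `0`) -/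
def h3_unitPair (ψ : Pic0 K F → Pic0 K F → K) (c d : Pic0 K F) : Kˣ := by
  classical exact if h : ψ c d = 0 then 1 else Units.mk0 (ψ c d) h

theorem h3_unitPair_val {ψ : Pic0 K F → Pic0 K F → K} {c d : Pic0 K F} (h : ψ c d ≠ 0) :
    ((h3_unitPair ψ c d : Kˣ) : K) = ψ c d := by
  unfold h3_unitPair
  rw [dif_neg h]
  rfl

/-- **B8g NORM, hypothesis form.** -/
theorem h3_norm_onto_of (p : ℕ) {e : ℕ} {σ : h57_SemiAut K F}
    (hσ : h76_FrobStr p e σ) (ℓ : ℕ) [Fact ℓ.Prime] (hdiv : ℓ ∣ p ^ e - 1)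
    (hex : ∀ {e' : ℕ} {τ : h57_SemiAut K F}, h76_FrobStr p e' τ → ℓ ∣ p ^ e' - 1 →
      ∃ ψ : Pic0 K F → Pic0 K F → K, h76_IsTate p e' τ ℓ ψ)
    (hne : ∀ {e' : ℕ} {τ : h57_SemiAut K F}, h76_FrobStr p e' τ → ℓ ∣ p ^ e' - 1 →
      ∀ {ψ : Pic0 K F → Pic0 K F → K}, h76_IsTate p e' τ ℓ ψ → ∀ c d : Pic0 K F,
        τ • c = c → ℓ • c = 0 → τ • d = d → ψ c d ≠ 0)
    (hml : ∀ {e' : ℕ} {τ : h57_SemiAut K F}, h76_FrobStr p e' τ → ℓ ∣ p ^ e' - 1 →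
      ∀ {ψ : Pic0 K F → Pic0 K F → K}, h76_IsTate p e' τ ℓ ψ → ∀ c c' d : Pic0 K F,
        τ • c = c → ℓ • c = 0 → τ • c' = c' → ℓ • c' = 0 → τ • d = d →
        ψ (c + c') d = ψ c d * ψ c' d)
    (hmr : ∀ {e' : ℕ} {τ : h57_SemiAut K F}, h76_FrobStr p e' τ → ℓ ∣ p ^ e' - 1 →
      ∀ {ψ : Pic0 K F → Pic0 K F → K}, h76_IsTate p e' τ ℓ ψ → ∀ c d d' : Pic0 K F,
        τ • c = c → ℓ • c = 0 → τ • d = d → τ • d' = d' → ψ c (d + d') = ψ c d * ψ c d')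
    (hcompat : ∀ {e' : ℕ} {τ : h57_SemiAut K F}, h76_FrobStr p e' τ → ℓ ∣ p ^ e' - 1 →
      ∀ {s : ℕ}, 0 < s → ∀ {ψ ψs : Pic0 K F → Pic0 K F → K}, h76_IsTate p e' τ ℓ ψ →
        h76_IsTate p (e' * s) (τ ^ s) ℓ ψs → ∀ c d : Pic0 K F,
        τ • c = c → ℓ • c = 0 → (τ ^ s) • d = d → ψs c d = ψ c (h76_picNorm τ s d))
    (hnd : ∀ {e' : ℕ} {τ : h57_SemiAut K F}, h76_FrobStr p e' τ → ℓ ∣ p ^ e' - 1 →
      ∀ c : Pic0 K F, τ • c = c → ℓ • c = 0 → c ≠ 0 →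
        ∃ s : ℕ, 0 < s ∧ ∃ d : Pic0 K F, (τ ^ s) • d = d ∧
          ∀ ψs : Pic0 K F → Pic0 K F → K, h76_IsTate p (e' * s) (τ ^ s) ℓ ψs → ψs c d ≠ 1)
    (hfin : Finite (h76_picFix σ))
    (y : Pic0 K F) (hy : σ • y = y) :
    ∃ x' z : Pic0 K F, (σ ^ ℓ) • x' = x' ∧ σ • z = z ∧
      y = (∑ i ∈ Finset.range ℓ, (σ ^ i) • x') + ℓ • z := by
  have hℓ : ℓ.Prime := Fact.out
  have hσℓ : h76_FrobStr p (e * ℓ) (σ ^ ℓ) := hσ.pow hℓ.pos
  have hdivℓ : ℓ ∣ p ^ (e * ℓ) - 1 := h3_dvd_level hdiv ℓ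
  obtain ⟨ψ, hψ⟩ := hex hσ hdiv
  obtain ⟨ψ', hψ'⟩ := hex hσℓ hdivℓ
  -- a `σ`-fixed class is `σ ^ n`-fixed
  have hpowfix : ∀ (n : ℕ) (c : Pic0 K F), σ • c = c → (σ ^ n) • c = c := by
    intro n c hc
    induction n with
    | zero => rw [pow_zero, one_smul]
    | succ n ih => rw [pow_succ, mul_smul, hc, ih]
  haveI : Finite {c : Pic0 K F // σ ^ 1 • c = c} := by
    rw [pow_one]
    exact hfin
  have key := h3_norm_onto_act_units ℓ (Mo := h57_SemiAut K F) (A := Pic0 K F) (k := K) σ 1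
    (h3_unitPair ψ) (h3_unitPair ψ') ?_ ?_ ?_ ?_ y (by rwa [pow_one])
  · obtain ⟨x', z, hx', hz, e'⟩ := key
    refine ⟨x', z, by rwa [one_mul] at hx', by rwa [pow_one] at hz, ?_⟩
    rw [e']
    simp only [one_mul]
  · -- multiplicative on the left
    intro c c' d hc hc' hℓc hℓc' hd
    rw [pow_one] at hc hc' hd
    have hcc' : σ • (c + c') = c + c' := by rw [smul_add, hc, hc']
    have hℓcc' : ℓ • (c + c') = 0 := by rw [nsmul_add, hℓc, hℓc', add_zero]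
    apply Units.ext
    rw [Units.val_mul, h3_unitPair_val (hne hσ hdiv hψ _ _ hcc' hℓcc' hd),
      h3_unitPair_val (hne hσ hdiv hψ _ _ hc hℓc hd),
      h3_unitPair_val (hne hσ hdiv hψ _ _ hc' hℓc' hd)]
    exact hml hσ hdiv hψ c c' d hc hℓc hc' hℓc' hd
  · -- multiplicative on the right
    intro c d d' hc hℓc hd hd'
    rw [pow_one] at hc hd hd'
    have hdd' : σ • (d + d') = d + d' := by rw [smul_add, hd, hd']
    apply Units.ext
    rw [Units.val_mul, h3_unitPair_val (hne hσ hdiv hψ _ _ hc hℓc hdd'),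
      h3_unitPair_val (hne hσ hdiv hψ _ _ hc hℓc hd),
      h3_unitPair_val (hne hσ hdiv hψ _ _ hc hℓc hd')]
    exact hmr hσ hdiv hψ c d d' hc hℓc hd hd'
  · -- compatibility with the norm
    intro c d hc hℓc hd
    rw [pow_one] at hc
    rw [one_mul] at hd
    have hNd : σ • h76_picNorm σ ℓ d = h76_picNorm σ ℓ d := h3_picNorm_fixed σ ℓ d hd
    have hsum : (∑ a ∈ Finset.range ℓ, σ ^ (1 * a) • d) = h76_picNorm σ ℓ d := by
      rw [h76_picNorm_apply]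
      simp only [one_mul]
    rw [hsum]
    apply Units.ext
    rw [h3_unitPair_val (hne hσℓ hdivℓ hψ' _ _ (hpowfix ℓ c hc) hℓc hd),
      h3_unitPair_val (hne hσ hdiv hψ _ _ hc hℓc hNd)]
    exact hcompat hσ hdiv hℓ.pos hψ hψ' c d hc hℓc hd
  · -- left nondegeneracy at level `ℓ`
    intro c hc hℓc hc0
    rw [pow_one] at hc
    have hcℓ : (σ ^ ℓ) • c = c := hpowfix ℓ c hc
    obtain ⟨s, hs, d, hd, hndd⟩ := hnd hσℓ hdivℓ c hcℓ hℓc hc0
    obtain ⟨ψs, hψs⟩ := hex (hσℓ.pow hs) (h3_dvd_level hdivℓ s)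
    have hne1 := hndd ψs hψs
    rw [hcompat hσℓ hdivℓ hs hψ' hψs c d hcℓ hℓc hd] at hne1
    have hNd : (σ ^ ℓ) • h76_picNorm (σ ^ ℓ) s d = h76_picNorm (σ ^ ℓ) s d :=
      h3_picNorm_fixed (σ ^ ℓ) s d hd
    refine ⟨h76_picNorm (σ ^ ℓ) s d, by rwa [one_mul], fun h1 => hne1 ?_⟩
    have := congrArg (fun u : Kˣ => (u : K)) h1
    simp only [Units.val_one] at this
    rwa [h3_unitPair_val (hne hσℓ hdivℓ hψ' _ _ hcℓ hℓc hNd)] at this

end Fermat.Agent.S27
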