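import Fermat.Agent.S27.h76_PairDefs
import Fermat.Agent.S27.h3_NormAsm
import Fermat.Agent.S27.h90_ZetaAbs
import Fermat.Agent.S18.RR_Riemann
import Fermat.Agent.S24.h35_PlaceBasic

/-!
# S27 block B8e NONDEG, assembly in hypothesis form (helper3)

`h3_tate_nondeg_of` : the statement `h76_tate_nondeg` of `skel/h76_SkelPair.lean`
(a nonzero fixed `ℓ`-torsion class pairs nontrivially at some level) from

* VALUES : `h76_val_spec`, `h76_val_ne_zero`, `h76_val_mul`, `h76_val_algebraMap`, `h76_val_smul`,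
  `h76_eval_add`, `h76_eval_neg`, `h76_eval_single`, `h76_place_per`, `h76_fixed_finite`;
* INV : `h76_inv_principal`, `h76_inv_ord`, `h76_inv_move`;
* KUMMER : `h76_kummer`;
* ZETA : zeta data for every Frobenius structure WITH A FIXED PLACE (hypothesis `hZ`, for all
  function fields in the universe of `F`: it is applied to `F` and to the Kummer cover);

each taken as a hypothesis, named as in the skeleton and in the skeleton shape (for the fixed
`K`, `F`, `p`, `ℓ`).  The proof: pass to a power of `σ` fixing a place `P₀`; if all pairings with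
the class `c` were trivial, then for `D ∈ c` invariant off `P₀`, `div f = ℓ D`, `f(P₀) = 1`, every
`τ ^ t`-fixed place `P` satisfies the splitting condition of the Kummer cover (evaluate the
pairing on `P - P₀` after moving `D` off the orbit of `P`), so the cover has `ℓ N_t` fixed places
for all `t`, contradicting `h90_zeta_no_cover`.
-/

set_option autoImplicit false

noncomputable section

open AlgebraicCurve Fermat.Agent.S18 Fermat.Agent.S24

namespace Fermat.Agent.S27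

universe u v

variable {K : Type u} {F : Type v} [Field K] [Field F] [Algebra K F]

/-- a fixed element is fixed by the powers -/
theorem h3_pow_smul_fixed {M α : Type*} [Monoid M] [MulAction M α] (τ : M) (a : α)
    (h : τ • a = a) (n : ℕ) : (τ ^ n) • a = a := by
  induction n with
  | zero => rw [pow_zero, one_smul]
  | succ n ih => rw [pow_succ, mul_smul, h, ih]

/-- a fixed function is fixed by the powers -/
theorem h3_pow_apply_fixed (τ : h57_SemiAut K F) (f : F) (h : (τ : F ≃+* F) f = f) (n : ℕ) :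
    ((τ ^ n : h57_SemiAut K F) : F ≃+* F) f = f := by
  rw [h57_coe_pow_apply]
  exact Function.iterate_fixed h n

/-- `b ^ ℓ = a`, `a ^ ((Q - 1) / ℓ) = 1` ⟹ `b ^ Q = b`. -/
theorem h3_root_fixed {Q ℓ : ℕ} (hQ : 0 < Q) (hdvd : ℓ ∣ Q - 1) (a b : K) (hb : b ^ ℓ = a)
    (ha : a ^ ((Q - 1) / ℓ) = 1) : b ^ Q = b := by
  have h1 : b ^ (Q - 1) = 1 := by
    conv_lhs => rw [← Nat.mul_div_cancel' hdvd, pow_mul, hb]
    exact ha
  have : Q = Q - 1 + 1 := by omega
  rw [this, pow_succ, h1, one_mul]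

section Nondeg

variable [IsAlgClosed K] (p : ℕ) [Fact p.Prime] [CharP K p] (ℓ : ℕ) [Fact ℓ.Prime]

-- VALUES (skeleton shapes)
variable
  (h76_val_spec : ∀ {x : F} (_ : h75_IsChart K x) (P : Place K F) {f : F}
    (_ : f ∈ P.toValuationSubring), h39_Val P f (h76_val P f))
  (h76_val_ne_zero : ∀ {x : F} (_ : h75_IsChart K x) (P : Place K F) {f : F}
    (_ : f ≠ 0) (_ : P.ord f = 0), h76_val P f ≠ 0)
  (h76_val_mul : ∀ {x : F} (_ : h75_IsChart K x) (P : Place K F) {f g : F}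
    (_ : f ∈ P.toValuationSubring) (_ : g ∈ P.toValuationSubring),
    h76_val P (f * g) = h76_val P f * h76_val P g)
  (h76_val_algebraMap : ∀ (P : Place K F) (a : K), h76_val P (algebraMap K F a) = a)
  (h76_val_smul : ∀ {x : F} (_ : h75_IsChart K x) {q : ℕ} {σ : h57_SemiAut K F}
    (_ : h57_IsFrob q σ) (P : Place K F) {f : F} (_ : f ∈ P.toValuationSubring),
    h76_val (σ • P) ((σ : F ≃+* F) f) = h76_val P f ^ q)

omit [IsAlgClosed K] in
include h76_val_mul h76_val_algebraMap in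
/-- the value of a power -/
theorem h3_val_pow {x : F} (hx : h75_IsChart K x) (P : Place K F) {g : F}
    (hg : g ∈ P.toValuationSubring) (n : ℕ) : h76_val P (g ^ n) = h76_val P g ^ n := by
  induction n with
  | zero =>
    rw [pow_zero, pow_zero]
    have := h76_val_algebraMap P (1 : K)
    rwa [map_one] at this
  | succ n ih =>
    rw [pow_succ, pow_succ, h76_val_mul hx P (pow_mem hg n) hg, ih]

omit [IsAlgClosed K] [Fact p.Prime] [CharP K p] in
include h76_val_ne_zero h76_val_mul h76_val_algebraMap h76_val_smul in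
/-- normalise an invariant function at a fixed place -/
theorem h3_normalize {x : F} (hx : h75_IsChart K x) {e : ℕ} {τ : h57_SemiAut K F}
    (hτ : h76_FrobStr p e τ) (P₀ : Place K F) (hP₀ : τ • P₀ = P₀) (f₀ : F) (hf₀0 : f₀ ≠ 0)
    (hf₀τ : (τ : F ≃+* F) f₀ = f₀) (hord : P₀.ord f₀ = 0) :
    ∃ f : F, f ≠ 0 ∧ (τ : F ≃+* F) f = f ∧ (∀ P : Place K F, P.ord f = P.ord f₀) ∧
      h76_val P₀ f = 1 := by
  have hmem : f₀ ∈ P₀.toValuationSubring := (h35_mem_iff_ord_nonneg P₀ hf₀0).mpr hord.ge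
  have ha0 : h76_val P₀ f₀ ≠ 0 := h76_val_ne_zero hx P₀ hf₀0 hord
  have haq : h76_val P₀ f₀ ^ (p ^ e) = h76_val P₀ f₀ := by
    have := h76_val_smul hx hτ.frob P₀ hmem
    rw [hP₀, hf₀τ] at this
    exact this.symm
  set a := h76_val P₀ f₀ with ha
  have hc0 : algebraMap K F a⁻¹ ≠ 0 := by
    simpa using ha0
  refine ⟨algebraMap K F a⁻¹ * f₀, mul_ne_zero hc0 hf₀0, ?_, fun P => ?_, ?_⟩
  · rw [map_mul, hf₀τ, hτ.frob a⁻¹, inv_pow, haq]
  · rw [P.ord_mul hc0 hf₀0, h35_ord_algebraMap, zero_add]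
  · rw [h76_val_mul hx P₀ (P₀.algebraMap_mem' a⁻¹) hmem, h76_val_algebraMap, ← ha,
      inv_mul_cancel₀ ha0]


-- EVAL, periodicity, INV, KUMMER (skeleton shapes)
variable
  (h76_eval_add : ∀ {x : F} (_ : h75_IsChart K x) {f : F} (_ : f ≠ 0) {E E' : Divisor K F}
    (_ : ∀ P : Place K F, E P ≠ 0 → P.ord f = 0) (_ : ∀ P : Place K F, E' P ≠ 0 → P.ord f = 0),
    h76_eval f (E + E') = h76_eval f E * h76_eval f E')
  (h76_eval_neg : ∀ {x : F} (_ : h75_IsChart K x) {f : F} (_ : f ≠ 0) {E : Divisor K F}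
    (_ : ∀ P : Place K F, E P ≠ 0 → P.ord f = 0), h76_eval f (-E) = (h76_eval f E)⁻¹)
  (h76_eval_single : ∀ (f : F) (P : Place K F) (n : ℤ),
    h76_eval f (Finsupp.single P n) = h76_val P f ^ n)
  (h76_place_per : ∀ {x : F} (_ : h75_IsChart K x) {e : ℕ} {σ : h57_SemiAut K F}
    (_ : h76_FrobStr p e σ) (P : Place K F), ∃ n : ℕ, 0 < n ∧ (σ ^ n) • P = P)
  (h76_fixed_finite : ∀ {x : F} (_ : h75_IsChart K x) {e : ℕ} {σ : h57_SemiAut K F}
    (_ : h76_FrobStr p e σ), {P : Place K F | σ • P = P}.Finite)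
  (h76_inv_principal : ∀ {x : F} (_ : h75_IsChart K x) {e : ℕ} {σ : h57_SemiAut K F}
    (_ : h76_FrobStr p e σ) (D : Divisor K F) (_ : σ • D = D)
    (_ : D ∈ Divisor.principal (K := K) (F := F)),
    ∃ f : F, f ≠ 0 ∧ (σ : F ≃+* F) f = f ∧ ∀ P : Place K F, D P = P.ord f)
  (h76_inv_ord : ∀ {x : F} (_ : h75_IsChart K x) {e : ℕ} {σ : h57_SemiAut K F}
    (_ : h76_FrobStr p e σ) (T : Finset (Place K F)) (_ : ∀ P ∈ T, σ • P ∈ T)
    (n : Place K F → ℤ) (_ : ∀ P ∈ T, n (σ • P) = n P),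
    ∃ h : F, h ≠ 0 ∧ (σ : F ≃+* F) h = h ∧ ∀ P ∈ T, P.ord h = n P)
  (h76_inv_move : ∀ {x : F} (_ : h75_IsChart K x) {e : ℕ} {σ : h57_SemiAut K F}
    (_ : h76_FrobStr p e σ) (c : Pic0 K F) (_ : σ • c = c) (S : Finset (Place K F)),
    ∃ D : Divisor.degZero (K := K) (F := F), Pic0.mk D = c ∧ σ • (D : Divisor K F) = D ∧
      ∀ P ∈ S, (D : Divisor K F) P = 0)
  (h76_kummer : ∀ {x : F} (_ : h75_IsChart K x) {e : ℕ} {σ : h57_SemiAut K F}
    (_ : h76_FrobStr p e σ) (_ : ℓ ≠ p) (_ : ℓ ∣ p ^ e - 1)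
    (f : F) (_ : f ≠ 0) (_ : (σ : F ≃+* F) f = f) (_ : ∀ g : F, f ≠ g ^ ℓ)
    (D : Divisor K F) (_ : ∀ P : Place K F, P.ord f = ℓ * D P)
    (_ : ∀ t : ℕ, 0 < t → ∀ P : Place K F, (σ ^ t) • P = P →
      ∃ (g : F) (b : K), ((σ ^ t : h57_SemiAut K F) : F ≃+* F) g = g ∧ b ≠ 0 ∧
        b ^ (p ^ (e * t)) = b ∧ h39_Val P (f * g ^ ℓ) (b ^ ℓ)),
    ∃ (F' : Type v) (_ : Field F') (_ : Algebra K F') (x' : F') (σ' : h57_SemiAut K F'),
      h75_IsChart K x' ∧ h76_FrobStr p e σ' ∧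
      ∀ t : ℕ, 0 < t → Nat.card {P' : Place K F' // (σ' ^ t) • P' = P'} =
        ℓ * Nat.card {P : Place K F // (σ ^ t) • P = P})

omit [CharP K p] in
include h76_val_spec h76_val_ne_zero h76_val_mul h76_val_algebraMap h76_val_smul h76_eval_add
  h76_eval_neg h76_eval_single h76_fixed_finite h76_inv_principal h76_inv_ord h76_inv_move
  h76_kummer in
/-- NONDEG for a structure with a fixed place (hypothesis form). -/
theorem h3_nondeg_fixed_of
    (hZ : ∀ {F' : Type v} [Field F'] [Algebra K F'] {x' : F'} (_ : h75_IsChart K x') {e' : ℕ}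
      {σ' : h57_SemiAut K F'} (_ : h76_FrobStr p e' σ') (P₀' : Place K F') (_ : σ' • P₀' = P₀'),
      Finite (h76_picFix σ') ∧ ∃ a : ℕ → ℤ,
        h90_ZetaData (p ^ e') (h75_genus K x') (Nat.card (h76_picFix σ')) a
          (fun s => (Nat.card {P : Place K F' // (σ' ^ s) • P = P} : ℤ)))
    {x : F} (hx : h75_IsChart K x) {e : ℕ} {τ : h57_SemiAut K F}
    (hτ : h76_FrobStr p e τ) (hℓ : ℓ ≠ p) (hdiv : ℓ ∣ p ^ e - 1)
    (P₀ : Place K F) (hP₀ : τ • P₀ = P₀)
    (c : Pic0 K F) (hc : τ • c = c) (hℓc : ℓ • c = 0) (hc0 : c ≠ 0) :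
    ∃ s : ℕ, 0 < s ∧ ∃ d : Pic0 K F, (τ ^ s) • d = d ∧
      ∀ ψs : Pic0 K F → Pic0 K F → K, h76_IsTate p (e * s) (τ ^ s) ℓ ψs → ψs c d ≠ 1 := by
  classical
  by_contra hcon
  push Not at hcon
  have hℓp : ℓ.Prime := Fact.out
  have hpp : p.Prime := Fact.out
  haveI : HasPrincipalDivisors K F := h75_hasPrincipalDivisors hx
  -- (a) an invariant divisor of the class off `P₀`
  obtain ⟨D₀, hD₀c, hD₀τ, hD₀S⟩ := h76_inv_move hx hτ c hc {P₀}
  have hD₀P₀ : (D₀ : Divisor K F) P₀ = 0 := hD₀S P₀ (Finset.mem_singleton_self _)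
  -- (b) `ℓ D₀ = div f₀`, `f₀` invariant
  have hprin : ℓ • (D₀ : Divisor K F) ∈ Divisor.principal (K := K) (F := F) := by
    have h1 : Pic0.mk (ℓ • D₀) = Pic0.mk 0 := by
      have : Pic0.mk (ℓ • D₀) = ℓ • Pic0.mk D₀ := rfl
      rw [this, hD₀c, hℓc]
      rfl
    have h2 := (h57_mk_eq_mk_iff (ℓ • D₀) 0).mp h1
    have h3 : ((0 : Divisor.degZero (K := K) (F := F)) : Divisor K F) -
        ((ℓ • D₀ : Divisor.degZero (K := K) (F := F)) : Divisor K F) =
        -(ℓ • (D₀ : Divisor K F)) := by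
      push_cast
      abel
    rw [h3] at h2
    exact (AddSubgroup.neg_mem_iff _).mp h2
  obtain ⟨f₀, hf₀0, hf₀τ, hf₀ord⟩ := h76_inv_principal hx hτ (ℓ • (D₀ : Divisor K F))
    (by rw [smul_comm, hD₀τ]) hprin
  have hf₀ord' : ∀ P : Place K F, P.ord f₀ = ℓ * (D₀ : Divisor K F) P := fun P => by
    rw [← hf₀ord P, Finsupp.smul_apply, nsmul_eq_mul]
  -- (c) normalise: `f(P₀) = 1`
  obtain ⟨f, hf0, hfτ, hfeq, hfP₀⟩ := h3_normalize p h76_val_ne_zero h76_val_mul h76_val_algebraMap h76_val_smul hx hτ P₀ hP₀ f₀ hf₀0 hf₀τ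
    (by rw [hf₀ord', hD₀P₀, mul_zero])
  have hford : ∀ P : Place K F, P.ord f = ℓ * (D₀ : Divisor K F) P := fun P => by
    rw [hfeq, hf₀ord']
  -- (d) `f` is not an `ℓ`-th power
  have hnot : ∀ g : F, f ≠ g ^ ℓ := by
    intro g hg
    have hg0 : g ≠ 0 := by
      rintro rfl
      rw [zero_pow hℓp.ne_zero] at hg
      exact hf0 hg
    have hD₀prin : (D₀ : Divisor K F) ∈ Divisor.principal (K := K) (F := F) := by
      refine ⟨g, hg0, fun v => ?_⟩
      have h1 := hford v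
      rw [hg, ← zpow_natCast, v.ord_zpow] at h1
      have hℓ0 : (ℓ : ℤ) ≠ 0 := by exact_mod_cast hℓp.ne_zero
      exact (mul_left_cancel₀ hℓ0 h1).symm
    apply hc0
    rw [← hD₀c]
    have h2 : Pic0.mk D₀ = Pic0.mk 0 := by
      rw [h57_mk_eq_mk_iff]
      have : ((0 : Divisor.degZero (K := K) (F := F)) : Divisor K F) - (D₀ : Divisor K F) =
          -(D₀ : Divisor K F) := by
        push_cast
        abel
      rw [this]
      exact (AddSubgroup.neg_mem_iff _).mpr hD₀prin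
    rw [h2]
    rfl
  -- (e) the splitting hypothesis of the Kummer cover
  have hsplit : ∀ t : ℕ, 0 < t → ∀ P : Place K F, (τ ^ t) • P = P →
      ∃ (g : F) (b : K), ((τ ^ t : h57_SemiAut K F) : F ≃+* F) g = g ∧ b ≠ 0 ∧
        b ^ (p ^ (e * t)) = b ∧ h39_Val P (f * g ^ ℓ) (b ^ ℓ) := by
    intro t ht P hP
    -- the stable set `T`
    set T : Finset (Place K F) :=
      insert P₀ ((Finset.range t).image (fun i => (τ ^ i) • P)) with hTdef
    have hP₀T : P₀ ∈ T := Finset.mem_insert_self _ _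
    have hPT : P ∈ T := by
      refine Finset.mem_insert_of_mem (Finset.mem_image.mpr ⟨0, Finset.mem_range.mpr ht, ?_⟩)
      rw [pow_zero, one_smul]
    have hT : ∀ P' ∈ T, τ • P' ∈ T := by
      intro P' hP'
      rcases Finset.mem_insert.mp hP' with rfl | hP'
      · rw [hP₀]; exact hP₀T
      · obtain ⟨i, hi, rfl⟩ := Finset.mem_image.mp hP'
        rw [Finset.mem_range] at hi
        rw [← mul_smul, ← pow_succ']
        by_cases hi' : i + 1 < t
        · exact Finset.mem_insert_of_mem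
            (Finset.mem_image.mpr ⟨i + 1, Finset.mem_range.mpr hi', rfl⟩)
        · have : i + 1 = t := by omega
          rw [this, hP]
          exact hPT
    have hD₀inv : ∀ P' : Place K F, (D₀ : Divisor K F) (τ • P') = (D₀ : Divisor K F) P' :=
      fun P' => by
        have := h57_smul_apply_smul τ (D₀ : Divisor K F) P'
        rwa [hD₀τ] at this
    obtain ⟨g₀, hg₀0, hg₀τ, hg₀ord⟩ := h76_inv_ord hx hτ T hT
      (fun P' => -(D₀ : Divisor K F) P') (fun P' _ => by rw [hD₀inv])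
    obtain ⟨g, hg0, hgτ, hgeq, hgP₀⟩ := h3_normalize p h76_val_ne_zero h76_val_mul h76_val_algebraMap h76_val_smul hx hτ P₀ hP₀ g₀ hg₀0 hg₀τ
      (by rw [hg₀ord P₀ hP₀T, hD₀P₀, neg_zero])
    have hgord : ∀ P' ∈ T, P'.ord g = -(D₀ : Divisor K F) P' := fun P' hP' => by
      rw [hgeq, hg₀ord P' hP']
    have hgτt : ((τ ^ t : h57_SemiAut K F) : F ≃+* F) g = g := h3_pow_apply_fixed τ g hgτ t
    have hF₁0 : f * g ^ ℓ ≠ 0 := mul_ne_zero hf0 (pow_ne_zero _ hg0)
    have hF₁ord : ∀ P' : Place K F,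
        P'.ord (f * g ^ ℓ) = ℓ * ((D₀ : Divisor K F) P' + P'.ord g) := fun P' => by
      rw [P'.ord_mul hf0 (pow_ne_zero _ hg0), hford, ← zpow_natCast, P'.ord_zpow]
      ring
    have hF₁ordT : ∀ P' ∈ T, P'.ord (f * g ^ ℓ) = 0 := fun P' hP' => by
      rw [hF₁ord, hgord P' hP', add_neg_cancel, mul_zero]
    have hF₁mem : ∀ P' ∈ T, f * g ^ ℓ ∈ P'.toValuationSubring := fun P' hP' =>
      (h35_mem_iff_ord_nonneg P' hF₁0).mpr (hF₁ordT P' hP').ge
    have hfmemP₀ : f ∈ P₀.toValuationSubring :=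
      (h35_mem_iff_ord_nonneg P₀ hf0).mpr (by rw [hford, hD₀P₀, mul_zero])
    have hgmemP₀ : g ∈ P₀.toValuationSubring :=
      (h35_mem_iff_ord_nonneg P₀ hg0).mpr (by rw [hgord P₀ hP₀T, hD₀P₀, neg_zero])
    have hF₁P₀ : h76_val P₀ (f * g ^ ℓ) = 1 := by
      rw [h76_val_mul hx P₀ hfmemP₀ (pow_mem hgmemP₀ ℓ), h3_val_pow h76_val_mul h76_val_algebraMap hx P₀ hgmemP₀, hfP₀, hgP₀,
        one_pow, one_mul]
    by_cases hPP₀ : P = P₀
    · refine ⟨g, 1, hgτt, one_ne_zero, one_pow _, ?_⟩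
      have := h76_val_spec hx P₀ (hF₁mem P₀ hP₀T)
      rw [hF₁P₀] at this
      rw [hPP₀, one_pow]
      exact this
    -- the divisor of `g`
    obtain ⟨Dg, hDg, hDgdeg⟩ := HasPrincipalDivisors.exists_divisor (K := K) g hg0
    set D₁ : Divisor.degZero (K := K) (F := F) := D₀ + ⟨Dg, hDgdeg⟩ with hD₁def
    have hD₁app : ∀ P' : Place K F,
        (D₁ : Divisor K F) P' = (D₀ : Divisor K F) P' + P'.ord g := fun P' => by
      rw [hD₁def, AddSubgroup.coe_add, Finsupp.add_apply, hDg]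
    have hD₁c : Pic0.mk D₁ = c := by
      rw [← hD₀c, eq_comm, h57_mk_eq_mk_iff]
      have : (D₁ : Divisor K F) - (D₀ : Divisor K F) = Dg := by
        rw [hD₁def, AddSubgroup.coe_add]
        abel
      rw [this]
      exact ⟨g, hg0, hDg⟩
    have hDgτ : τ • Dg = Dg := by
      ext w
      rw [h57_smul_div τ hDg w, hgτ, hDg]
    have hD₁τ : τ • (D₁ : Divisor K F) = D₁ := by
      rw [hD₁def, AddSubgroup.coe_add, smul_add, hD₀τ, hDgτ]
    have hD₁T : ∀ P' ∈ T, (D₁ : Divisor K F) P' = 0 := fun P' hP' => by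
      rw [hD₁app, hgord P' hP', add_neg_cancel]
    -- the divisor `E = P - P₀`
    set E₀ : Divisor K F := Finsupp.single P 1 - Finsupp.single P₀ 1 with hE₀def
    have hE₀deg : E₀ ∈ Divisor.degZero (K := K) (F := F) := by
      rw [Divisor.mem_degZero, hE₀def, map_sub, Divisor.degree_single, Divisor.degree_single,
        h75_deg_eq_one hx, h75_deg_eq_one hx]
      simp
    have hP₀t : (τ ^ t) • P₀ = P₀ := h3_pow_smul_fixed τ P₀ hP₀ t
    have hE₀τ : (τ ^ t) • E₀ = E₀ := by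
      rw [hE₀def, smul_sub, h57_smul_single, h57_smul_single, hP, hP₀t]
    have hE₀supp : ∀ P' : Place K F, E₀ P' ≠ 0 → P' = P ∨ P' = P₀ := by
      intro P' h
      by_contra hne
      push Not at hne
      apply h
      rw [hE₀def, Finsupp.sub_apply, Finsupp.single_apply, Finsupp.single_apply,
        if_neg (Ne.symm hne.1), if_neg (Ne.symm hne.2), sub_zero]
    have hdisj : ∀ P' : Place K F, (D₁ : Divisor K F) P' ≠ 0 →
        ((⟨E₀, hE₀deg⟩ : Divisor.degZero (K := K) (F := F)) : Divisor K F) P' = 0 := by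
      intro P' h
      by_contra hE
      rcases hE₀supp P' hE with rfl | rfl
      · exact h (hD₁T _ hPT)
      · exact h (hD₁T _ hP₀T)
    have hd : (τ ^ t) • Pic0.mk (⟨E₀, hE₀deg⟩ : Divisor.degZero (K := K) (F := F)) =
        Pic0.mk ⟨E₀, hE₀deg⟩ := by
      rw [h57_smul_mk]
      exact congrArg Pic0.mk (Subtype.ext (by rw [h57_coe_degZeroSMulHom]; exact hE₀τ))
    obtain ⟨ψs, hψs, h1⟩ := hcon t ht _ hd
    have hform := hψs D₁ ⟨E₀, hE₀deg⟩ (f * g ^ ℓ)
      (h3_pow_smul_fixed τ _ hD₁τ t) hE₀τ hdisj hF₁0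
      (by rw [map_mul, map_pow, hgτt, h3_pow_apply_fixed τ f hfτ t])
      (fun P' => by rw [hF₁ord, hD₁app])
    rw [hD₁c, h1] at hform
    -- evaluate
    have hev : h76_eval (f * g ^ ℓ) E₀ = h76_val P (f * g ^ ℓ) := by
      have hs1 : ∀ P' : Place K F, (Finsupp.single P (1 : ℤ) : Divisor K F) P' ≠ 0 →
          P'.ord (f * g ^ ℓ) = 0 := by
        intro P' h
        have : P' = P := by
          by_contra hne
          exact h (by rw [Finsupp.single_apply, if_neg (Ne.symm hne)])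
        rw [this]
        exact hF₁ordT P hPT
      have hs2 : ∀ P' : Place K F, (Finsupp.single P₀ (1 : ℤ) : Divisor K F) P' ≠ 0 →
          P'.ord (f * g ^ ℓ) = 0 := by
        intro P' h
        have : P' = P₀ := by
          by_contra hne
          exact h (by rw [Finsupp.single_apply, if_neg (Ne.symm hne)])
        rw [this]
        exact hF₁ordT P₀ hP₀T
      have hs2' : ∀ P' : Place K F, (-(Finsupp.single P₀ (1 : ℤ)) : Divisor K F) P' ≠ 0 →
          P'.ord (f * g ^ ℓ) = 0 := by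
        intro P' h
        exact hs2 P' (fun h0 => h (by rw [Finsupp.neg_apply, h0, neg_zero]))
      rw [hE₀def, sub_eq_add_neg, h76_eval_add hx hF₁0 hs1 hs2', h76_eval_neg hx hF₁0 hs2,
        h76_eval_single, h76_eval_single, zpow_one, zpow_one, hF₁P₀, inv_one, mul_one]
    rw [hev] at hform
    -- extract the root
    obtain ⟨b, hb⟩ := IsAlgClosed.exists_pow_nat_eq (h76_val P (f * g ^ ℓ)) hℓp.pos
    have hane : h76_val P (f * g ^ ℓ) ≠ 0 := h76_val_ne_zero hx P hF₁0 (hF₁ordT P hPT)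
    have hb0 : b ≠ 0 := by
      rintro rfl
      rw [zero_pow hℓp.ne_zero] at hb
      exact hane hb.symm
    refine ⟨g, b, hgτt, hb0, ?_, ?_⟩
    · exact h3_root_fixed (Nat.pos_of_ne_zero (pow_ne_zero _ hpp.ne_zero))
        (h3_dvd_level hdiv t) _ b hb hform.symm
    · rw [hb]
      exact h76_val_spec hx P (hF₁mem P hPT)
  -- (f) the Kummer cover
  obtain ⟨F', _, _, x', σ', hx', hσ', hcount⟩ := h76_kummer hx hτ hℓ hdiv f hf0 hfτ hnot
    (D₀ : Divisor K F) hford hsplit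
  -- (g) a fixed place upstairs
  have hfixfin : Finite {P : Place K F // τ • P = P} := (h76_fixed_finite hx hτ).to_subtype
  have hcard1 : 0 < Nat.card {P : Place K F // τ • P = P} := by
    haveI : Nonempty {P : Place K F // τ • P = P} := ⟨⟨P₀, hP₀⟩⟩
    exact Nat.card_pos
  have hc1 := hcount 1 one_pos
  simp only [pow_one] at hc1
  have hcard1' : 0 < Nat.card {P' : Place K F' // σ' • P' = P'} := by
    rw [hc1]
    exact Nat.mul_pos hℓp.pos hcard1
  obtain ⟨⟨P₀', hP₀'⟩⟩ := (Nat.card_pos_iff.mp hcard1').1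
  -- (h) zeta data downstairs and upstairs
  obtain ⟨hfin, a, hZd⟩ := hZ hx hτ P₀ hP₀
  obtain ⟨hfin', a', hZd'⟩ := hZ hx' hσ' P₀' hP₀'
  have hh : (Nat.card (h76_picFix τ) : ℤ) ≠ 0 := by
    haveI := hfin
    exact_mod_cast (Nat.card_pos (α := h76_picFix τ)).ne'
  have hq : 2 ≤ p ^ e := by
    calc 2 ≤ p := hpp.two_le
      _ = p ^ 1 := (pow_one p).symm
      _ ≤ p ^ e := Nat.pow_le_pow_right hpp.pos hτ.pos
  exact h90_zeta_no_cover (p ^ e) _ _ hq _ _ hh a a' _ _ hZd hZd' ℓ hℓp.two_le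
    (fun s hs => by
      show ((Nat.card {P' : Place K F' // (σ' ^ s) • P' = P'} : ℕ) : ℤ) =
        (ℓ : ℤ) * ((Nat.card {P : Place K F // (τ ^ s) • P = P} : ℕ) : ℤ)
      rw [hcount s hs]
      push_cast
      rfl)

omit [CharP K p] in
include h76_val_spec h76_val_ne_zero h76_val_mul h76_val_algebraMap h76_val_smul h76_eval_add
  h76_eval_neg h76_eval_single h76_place_per h76_fixed_finite h76_inv_principal h76_inv_ord
  h76_inv_move h76_kummer in
/-- **B8e NONDEG, hypothesis form** = skeleton `h76_tate_nondeg`. -/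
theorem h3_tate_nondeg_of
    (hZ : ∀ {F' : Type v} [Field F'] [Algebra K F'] {x' : F'} (_ : h75_IsChart K x') {e' : ℕ}
      {σ' : h57_SemiAut K F'} (_ : h76_FrobStr p e' σ') (P₀' : Place K F') (_ : σ' • P₀' = P₀'),
      Finite (h76_picFix σ') ∧ ∃ a : ℕ → ℤ,
        h90_ZetaData (p ^ e') (h75_genus K x') (Nat.card (h76_picFix σ')) a
          (fun s => (Nat.card {P : Place K F' // (σ' ^ s) • P = P} : ℤ)))
    {x : F} (hx : h75_IsChart K x) {e : ℕ} {σ : h57_SemiAut K F}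
    (hσ : h76_FrobStr p e σ) (hℓ : ℓ ≠ p) (hdiv : ℓ ∣ p ^ e - 1)
    (c : Pic0 K F) (hc : σ • c = c) (hℓc : ℓ • c = 0) (hc0 : c ≠ 0) :
    ∃ s : ℕ, 0 < s ∧ ∃ d : Pic0 K F, (σ ^ s) • d = d ∧
      ∀ ψs : Pic0 K F → Pic0 K F → K, h76_IsTate p (e * s) (σ ^ s) ℓ ψs → ψs c d ≠ 1 := by
  obtain ⟨P₀⟩ := h7_exists_place hx
  obtain ⟨n₁, hn₁, hP₀⟩ := h76_place_per hx hσ P₀
  obtain ⟨s, hs, d, hd, H⟩ := h3_nondeg_fixed_of p ℓ h76_val_spec h76_val_ne_zero h76_val_mul
    h76_val_algebraMap h76_val_smul h76_eval_add h76_eval_neg h76_eval_single h76_fixed_finite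
    h76_inv_principal h76_inv_ord h76_inv_move h76_kummer hZ hx (hσ.pow hn₁) hℓ
    (h3_dvd_level hdiv n₁)
    P₀ hP₀ c (h3_pow_smul_fixed σ c hc n₁) hℓc hc0
  refine ⟨n₁ * s, Nat.mul_pos hn₁ hs, d, by rwa [pow_mul], fun ψs hψs => H ψs ?_⟩
  rwa [mul_assoc, ← pow_mul]

end Nondeg

end Fermat.Agent.S27
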