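import Mathlib

/-!
# S27, block B8f PERFECT + NORM (Mathlib only)

Finite abelian group algebra behind "the norm is onto modulo `ℓ`":
a pairing `A[ℓ] × A → (cyclic of order ℓ)` which is left-nondegenerate is perfect
(`#A[ℓ] = #A/ℓA`), so a proper subgroup `H ⊇ ℓA` of `A` is annihilated by a nonzero element of
`A[ℓ]`.  Applied to `H = N(A') + ℓA` and the compatibility `ψ'(x, y) = ψ(x, N y)` this gives
`N(A') + ℓA = A` from the left-nondegeneracy of the upper pairing `ψ'`.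
-/

set_option autoImplicit false

namespace Fermat.Agent.S27

open Module

/-- Linear algebra: an injective pairing between spaces of the same finite dimension; a proper
subspace of the right-hand space is annihilated by a nonzero vector on the left. -/
theorem h3_exists_annihilator {K T V : Type*} [Field K] [AddCommGroup T] [Module K T]
    [AddCommGroup V] [Module K V] [FiniteDimensional K T] [FiniteDimensional K V]
    (B : T →ₗ[K] V →ₗ[K] K) (hB : Function.Injective B)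
    (hdim : finrank K T = finrank K V) (W : Submodule K V) (hW : W ≠ ⊤) :
    ∃ x : T, x ≠ 0 ∧ ∀ w ∈ W, B x w = 0 := by
  have hsurj : Function.Surjective B :=
    (LinearMap.injective_iff_surjective_of_finrank_eq_finrank
      (hdim.trans (Subspace.dual_finrank_eq (K := K) (V := V)).symm)).mp hB
  obtain ⟨f, hf0, hf⟩ := W.exists_le_ker_of_lt_top (lt_top_iff_ne_top.mpr hW)
  obtain ⟨x, rfl⟩ := hsurj f
  refine ⟨x, fun hx => hf0 (by rw [hx, map_zero]), fun w hw => ?_⟩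
  exact hf hw

/-- The same for a pairing given as a function with the four linearity properties, and a
subgroup stable under scalars. -/
theorem h3_exists_annihilator' {K T V : Type*} [Field K] [AddCommGroup T] [Module K T]
    [AddCommGroup V] [Module K V] [FiniteDimensional K T] [FiniteDimensional K V]
    (b : T → V → K) (h1 : ∀ (x x' : T) (v : V), b (x + x') v = b x v + b x' v)
    (h2 : ∀ (c : K) (x : T) (v : V), b (c • x) v = c • b x v)
    (h3 : ∀ (x : T) (v v' : V), b x (v + v') = b x v + b x v')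
    (h4 : ∀ (c : K) (x : T) (v : V), b x (c • v) = c • b x v)
    (hnd : ∀ x : T, (∀ v : V, b x v = 0) → x = 0)
    (hdim : finrank K T = finrank K V) (W : AddSubgroup V)
    (hWs : ∀ (c : K) (w : V), w ∈ W → c • w ∈ W) (hW : W ≠ ⊤) :
    ∃ x : T, x ≠ 0 ∧ ∀ w ∈ W, b x w = 0 := by
  let W' : Submodule K V :=
    { carrier := W
      add_mem' := fun ha hb => W.add_mem ha hb
      zero_mem' := W.zero_mem
      smul_mem' := fun c w hw => hWs c w hw }
  have hW' : W' ≠ ⊤ := by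
    intro h
    apply hW
    rw [eq_top_iff]
    intro v _
    have hv : v ∈ W' := by rw [h]; exact Submodule.mem_top
    exact hv
  obtain ⟨x, hx0, hx⟩ := h3_exists_annihilator (LinearMap.mk₂ K b h1 h2 h3 h4) (by
    rw [injective_iff_map_eq_zero]
    intro x hx
    refine hnd x fun v => ?_
    have := congrArg (fun L : V →ₗ[K] K => L v) hx
    simpa using this) hdim W' hW'
  exact ⟨x, hx0, fun w hw => hx w hw⟩

/-- Finite vector spaces over a finite field with the same cardinality have the same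
dimension. -/
theorem h3_finrank_eq_of_card_eq {K T V : Type*} [Field K] [Finite K] [AddCommGroup T]
    [Module K T] [AddCommGroup V] [Module K V] [Finite T] [Finite V]
    (h : Nat.card T = Nat.card V) : finrank K T = finrank K V := by
  have : Module.Finite K T := Module.Finite.of_finite
  have : Module.Finite K V := Module.Finite.of_finite
  have h1 : Nat.card T = Nat.card K ^ finrank K T := Module.natCard_eq_pow_finrank
  have h2 : Nat.card V = Nat.card K ^ finrank K V := Module.natCard_eq_pow_finrank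
  rw [h1, h2] at h
  exact Nat.pow_right_injective Finite.one_lt_card h

/-- For a finite abelian group, `#A[ℓ] = #(A/ℓA)`. -/
theorem h3_card_ker_eq_card_quot (ℓ : ℕ) {A : Type*} [AddCommGroup A] [Finite A] :
    Nat.card (nsmulAddMonoidHom (α := A) ℓ).ker =
      Nat.card (A ⧸ (nsmulAddMonoidHom (α := A) ℓ).range) := by
  set φ : A →+ A := nsmulAddMonoidHom ℓ
  have h1 := AddSubgroup.card_eq_card_quotient_mul_card_addSubgroup φ.ker
  have h2 := AddSubgroup.card_eq_card_quotient_mul_card_addSubgroup φ.range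
  have h3 : Nat.card (A ⧸ φ.ker) = Nat.card φ.range :=
    Nat.card_congr (QuotientAddGroup.quotientKerEquivRange φ).toEquiv
  have hpos : 0 < Nat.card φ.range := Nat.card_pos
  rw [h3] at h1
  rw [h1, mul_comm] at h2
  exact Nat.eq_of_mul_eq_mul_right hpos h2

/-- **PERFECT, core.** `A` a finite abelian group, `b : A[ℓ] × A → ℤ/ℓ` biadditive and
left-nondegenerate.  Every proper subgroup `H ⊇ ℓA` is annihilated by a nonzero `x ∈ A[ℓ]`. -/
theorem h3_perfect_core (ℓ : ℕ) [Fact ℓ.Prime] {A : Type*} [AddCommGroup A] [Finite A]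
    (b : A → A → ZMod ℓ)
    (hb1 : ∀ x x' y : A, ℓ • x = 0 → ℓ • x' = 0 → b (x + x') y = b x y + b x' y)
    (hb2 : ∀ x y y' : A, ℓ • x = 0 → b x (y + y') = b x y + b x y')
    (hnd : ∀ x : A, ℓ • x = 0 → x ≠ 0 → ∃ y : A, b x y ≠ 0)
    (H : AddSubgroup A) (hH : ∀ y : A, ℓ • y ∈ H) (hHne : H ≠ ⊤) :
    ∃ x : A, ℓ • x = 0 ∧ x ≠ 0 ∧ ∀ y ∈ H, b x y = 0 := by
  classical
  have hℓ : ℓ.Prime := Fact.out
  have : NeZero ℓ := ⟨hℓ.ne_zero⟩
  set φ : A →+ A := nsmulAddMonoidHom ℓ with hφ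
  set T : AddSubgroup A := φ.ker with hT
  set R : AddSubgroup A := φ.range with hR
  have hTmem : ∀ x : A, x ∈ T ↔ ℓ • x = 0 := fun x => by
    rw [hT, AddMonoidHom.mem_ker, hφ, nsmulAddMonoidHom_apply]
  have hRH : R ≤ H := by
    rintro _ ⟨y, rfl⟩
    exact hH y
  letI modT : Module (ZMod ℓ) T := AddCommGroup.zmodModule (n := ℓ) (fun x =>
    Subtype.ext (by rw [AddSubgroup.coe_nsmul, (hTmem x).mp x.2]; rfl))
  letI modV : Module (ZMod ℓ) (A ⧸ R) :=
    QuotientAddGroup.zmodModule (n := ℓ) (H := R) (fun x => ⟨x, rfl⟩)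
  -- the pairing
  let f : T → (A →+ ZMod ℓ) := fun x =>
    AddMonoidHom.mk' (b x) (fun y y' => hb2 x y y' ((hTmem x).mp x.2))
  have hfR : ∀ x : T, R ≤ (f x).ker := by
    rintro x _ ⟨y, rfl⟩
    rw [AddMonoidHom.mem_ker, hφ, nsmulAddMonoidHom_apply, map_nsmul, nsmul_eq_mul,
      ZMod.natCast_self, zero_mul]
  let g : T → (A ⧸ R →+ ZMod ℓ) := fun x => QuotientAddGroup.lift R (f x) (hfR x)
  have hg : ∀ (x : T) (y : A), g x (QuotientAddGroup.mk y) = b x y := fun x y => rfl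
  let Φ₀ : T →+ (A ⧸ R →+ ZMod ℓ) := AddMonoidHom.mk' g (fun x x' => by
    refine AddMonoidHom.ext fun v => ?_
    obtain ⟨y, rfl⟩ := QuotientAddGroup.mk_surjective v
    rw [AddMonoidHom.add_apply, hg, hg, hg, AddSubgroup.coe_add]
    exact hb1 x x' y ((hTmem x).mp x.2) ((hTmem x').mp x'.2))
  haveI : Finite (A ⧸ R) := inferInstance
  haveI : Module.Finite (ZMod ℓ) T := Module.Finite.of_finite
  haveI : Module.Finite (ZMod ℓ) (A ⧸ R) := Module.Finite.of_finite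
  have hdim : finrank (ZMod ℓ) T = finrank (ZMod ℓ) (A ⧸ R) :=
    h3_finrank_eq_of_card_eq (K := ZMod ℓ) (h3_card_ker_eq_card_quot ℓ)
  have hW : H.map (QuotientAddGroup.mk' R) ≠ ⊤ := by
    intro h
    apply hHne
    rw [eq_top_iff]
    intro y _
    have hy : (QuotientAddGroup.mk' R y) ∈ H.map (QuotientAddGroup.mk' R) := by
      rw [h]; exact AddSubgroup.mem_top _
    obtain ⟨h', hh', he⟩ := hy
    have hsub : -h' + y ∈ R := QuotientAddGroup.eq.mp he
    have : y = h' + (-h' + y) := by abel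
    rw [this]
    exact H.add_mem hh' (hRH hsub)
  obtain ⟨x, hx0, hxW⟩ := @h3_exists_annihilator' (ZMod ℓ) T (A ⧸ R) (ZMod.instField ℓ)
    (inferInstance : AddCommGroup T) modT (inferInstance : AddCommGroup (A ⧸ R)) modV
    Module.Finite.of_finite Module.Finite.of_finite
    (fun (x : T) (v : A ⧸ R) => Φ₀ x v)
    (fun x x' v => by rw [map_add, AddMonoidHom.add_apply])
    (fun c x v => ZMod.map_smul ((AddMonoidHom.eval v).comp Φ₀) c x)
    (fun x v v' => map_add (Φ₀ x) v v')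
    (fun c x v => ZMod.map_smul (Φ₀ x) c v)
    (fun x hx => by
      by_contra hx0
      obtain ⟨y, hy⟩ := hnd x ((hTmem x).mp x.2) (fun h => hx0 (Subtype.ext h))
      exact hy (hx (QuotientAddGroup.mk y)))
    hdim (H.map (QuotientAddGroup.mk' R)) (fun c w hw => ZMod.smul_mem hw c) hW
  refine ⟨x, (hTmem x).mp x.2, fun h => hx0 (Subtype.ext h), fun y hy => ?_⟩
  exact hxW (QuotientAddGroup.mk y) ⟨y, hy, rfl⟩

/-- A "discrete logarithm" on the multiples of an element of prime order `ℓ`. -/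
theorem h3_exists_log (ℓ : ℕ) [Fact ℓ.Prime] {M : Type*} [AddCommGroup M] (ζ : M)
    (hζ : ℓ • ζ = 0) (hζ0 : ζ ≠ 0) :
    ∃ lg : M → ZMod ℓ, ∀ n : ℕ, lg (n • ζ) = n := by
  classical
  have hord : addOrderOf ζ = ℓ := addOrderOf_eq_prime hζ hζ0
  refine ⟨fun a => if h : ∃ n : ℕ, a = n • ζ then ((h.choose : ℕ) : ZMod ℓ) else 0, fun n => ?_⟩
  have h : ∃ m : ℕ, n • ζ = m • ζ := ⟨n, rfl⟩
  beta_reduce
  rw [dif_pos h]
  have hspec := h.choose_spec
  rw [nsmul_eq_nsmul_iff_modEq, hord] at hspec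
  exact ((ZMod.natCast_eq_natCast_iff _ _ _).mpr hspec).symm

/-- **B8f PERFECT + NORM.**  `A ≤ A'` subgroups of `G`, `A` finite, `N : A' → A` additive,
`ψ` a pairing on `A[ℓ] × A` (biadditive), `ψ'` a pairing on `A'[ℓ] × A'` with
`ψ'(x, y) = ψ(x, N y)` for `x ∈ A[ℓ]`, `y ∈ A'`, values in a group whose `ℓ`-torsion is cyclic.
If `ψ'` is left-nondegenerate on `A[ℓ]`, then `N(A') + ℓ A = A`. -/
theorem h3_norm_onto (ℓ : ℕ) [Fact ℓ.Prime] {G M : Type*} [AddCommGroup G] [AddCommGroup M]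
    (A A' : AddSubgroup G) [Finite A] (N : G →+ G) (hN : ∀ y ∈ A', N y ∈ A)
    (ψ ψ' : G → G → M)
    (hadd1 : ∀ x x' y : G, x ∈ A → x' ∈ A → ℓ • x = 0 → ℓ • x' = 0 → y ∈ A →
      ψ (x + x') y = ψ x y + ψ x' y)
    (hadd2 : ∀ x y y' : G, x ∈ A → ℓ • x = 0 → y ∈ A → y' ∈ A →
      ψ x (y + y') = ψ x y + ψ x y')
    (hcompat : ∀ x y : G, x ∈ A → ℓ • x = 0 → y ∈ A' → ψ' x y = ψ x (N y))
    (hnd : ∀ x : G, x ∈ A → ℓ • x = 0 → x ≠ 0 → ∃ y ∈ A', ψ' x y ≠ 0)
    (hM : ∀ a b : M, ℓ • a = 0 → ℓ • b = 0 → a ≠ 0 → ∃ n : ℕ, b = n • a) :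
    ∀ y ∈ A, ∃ x ∈ A', ∃ z ∈ A, y = N x + ℓ • z := by
  classical
  have hℓ : ℓ.Prime := Fact.out
  intro y hy
  by_contra hcon
  let H : AddSubgroup A :=
    { carrier := {y : A | ∃ x ∈ A', ∃ z ∈ A, (y : G) = N x + ℓ • z}
      zero_mem' := ⟨0, A'.zero_mem, 0, A.zero_mem, by simp⟩
      add_mem' := by
        rintro a b ⟨x, hx, z, hz, e⟩ ⟨x', hx', z', hz', e'⟩
        refine ⟨x + x', A'.add_mem hx hx', z + z', A.add_mem hz hz', ?_⟩
        rw [AddSubgroup.coe_add, e, e', map_add, nsmul_add]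
        abel
      neg_mem' := by
        rintro a ⟨x, hx, z, hz, e⟩
        refine ⟨-x, A'.neg_mem hx, -z, A.neg_mem hz, ?_⟩
        rw [AddSubgroup.coe_neg, e, map_neg, smul_neg]
        abel }
  have hHmem : ∀ a : A, a ∈ H ↔ ∃ x ∈ A', ∃ z ∈ A, (a : G) = N x + ℓ • z := fun a => Iff.rfl
  have hHne : H ≠ ⊤ := fun h => hcon (by
    have : (⟨y, hy⟩ : A) ∈ H := by rw [h]; trivial
    exact (hHmem _).mp this)
  have hHℓ : ∀ z : A, ℓ • z ∈ H := fun z =>
    (hHmem _).mpr ⟨0, A'.zero_mem, z, z.2, by simp⟩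
  have hcoe : ∀ x : A, ℓ • x = 0 → ℓ • (x : G) = 0 := fun x hx => by
    rw [← AddSubgroup.coe_nsmul, hx]; rfl
  by_cases htors : ∃ x₀ ∈ A, ℓ • x₀ = 0 ∧ x₀ ≠ 0
  · obtain ⟨x₀, hx₀A, hx₀ℓ, hx₀0⟩ := htors
    obtain ⟨y₀, hy₀, hψ0⟩ := hnd x₀ hx₀A hx₀ℓ hx₀0
    have hψ_zero : ∀ y ∈ A, ψ 0 y = 0 := fun y hy => by
      have h := hadd1 0 0 y A.zero_mem A.zero_mem (by simp) (by simp) hy
      rw [add_zero] at h
      exact left_eq_add.mp h
    have hψ_nsmul : ∀ (n : ℕ) (x y : G), x ∈ A → ℓ • x = 0 → y ∈ A →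
        ψ (n • x) y = n • ψ x y := by
      intro n
      induction n with
      | zero => intro x y hx hxl hy; rw [zero_nsmul, zero_nsmul, hψ_zero y hy]
      | succ n ih =>
        intro x y hx hxl hy
        rw [succ_nsmul, hadd1 (n • x) x y (A.nsmul_mem hx n) hx
          (by rw [smul_comm, hxl, smul_zero]) hxl hy, ih x y hx hxl hy, succ_nsmul]
    have hψ_tors : ∀ x y : G, x ∈ A → ℓ • x = 0 → y ∈ A → ℓ • ψ x y = 0 :=
      fun x y hx hxl hy => by rw [← hψ_nsmul ℓ x y hx hxl hy, hxl, hψ_zero y hy]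
    have hζℓ : ℓ • ψ' x₀ y₀ = 0 := by
      rw [hcompat x₀ y₀ hx₀A hx₀ℓ hy₀]
      exact hψ_tors _ _ hx₀A hx₀ℓ (hN y₀ hy₀)
    obtain ⟨lg, hlg⟩ := h3_exists_log ℓ (ψ' x₀ y₀) hζℓ hψ0
    have hlg_add : ∀ a b : M, ℓ • a = 0 → ℓ • b = 0 → lg (a + b) = lg a + lg b := by
      intro a b ha hb
      obtain ⟨n, rfl⟩ := hM _ a hζℓ ha hψ0
      obtain ⟨m, rfl⟩ := hM _ b hζℓ hb hψ0
      rw [← add_nsmul, hlg, hlg, hlg, Nat.cast_add]
    have hlg_zero : ∀ a : M, ℓ • a = 0 → lg a = 0 → a = 0 := by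
      intro a ha h0
      obtain ⟨n, rfl⟩ := hM _ a hζℓ ha hψ0
      rw [hlg, ZMod.natCast_eq_zero_iff] at h0
      obtain ⟨c, rfl⟩ := h0
      rw [mul_nsmul, hζℓ, smul_zero]
    obtain ⟨x, hxℓ, hx0, hxH⟩ := h3_perfect_core ℓ (A := A) (fun x y => lg (ψ x y))
      (fun x x' y hx hx' => by
        show lg (ψ ((x + x' : A) : G) y) = _
        rw [AddSubgroup.coe_add, hadd1 x x' y x.2 x'.2 (hcoe x hx) (hcoe x' hx') y.2]
        exact hlg_add _ _ (hψ_tors _ _ x.2 (hcoe x hx) y.2) (hψ_tors _ _ x'.2 (hcoe x' hx') y.2))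
      (fun x y y' hx => by
        show lg (ψ x ((y + y' : A) : G)) = _
        rw [AddSubgroup.coe_add, hadd2 x y y' x.2 (hcoe x hx) y.2 y'.2]
        exact hlg_add _ _ (hψ_tors _ _ x.2 (hcoe x hx) y.2) (hψ_tors _ _ x.2 (hcoe x hx) y'.2))
      (fun x hx hx0 => by
        obtain ⟨y', hy', hne⟩ := hnd x x.2 (hcoe x hx)
          (fun h => hx0 (Subtype.ext h))
        refine ⟨⟨N y', hN y' hy'⟩, fun h => hne ?_⟩
        rw [hcompat x y' x.2 (hcoe x hx) hy']
        exact hlg_zero _ (hψ_tors _ _ x.2 (hcoe x hx) (hN y' hy')) h)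
      H hHℓ hHne
    obtain ⟨y', hy', hne⟩ := hnd x x.2 (hcoe x hxℓ) (fun h => hx0 (Subtype.ext h))
    apply hne
    rw [hcompat x y' x.2 (hcoe x hxℓ) hy']
    have h := hxH ⟨N y', hN y' hy'⟩ ((hHmem _).mpr ⟨y', hy', 0, A.zero_mem, by simp⟩)
    exact hlg_zero _ (hψ_tors _ _ x.2 (hcoe x hxℓ) (hN y' hy')) h
  · obtain ⟨x, hxℓ, hx0, -⟩ := h3_perfect_core ℓ (A := A) (fun _ _ => 0)
      (fun _ _ _ _ _ => by simp) (fun _ _ _ _ => by simp)
      (fun x hx hx0 => absurd ⟨(x : G), x.2, hcoe x hx, fun h => hx0 (Subtype.ext h)⟩ htors)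
      H hHℓ hHne
    exact htors ⟨x, x.2, hcoe x hxℓ, fun h => hx0 (Subtype.ext h)⟩

/-- **B8f, values in the units of a field** (the Tate pairing takes values in `μ_ℓ(k) ⊆ kˣ`). -/
theorem h3_norm_onto_units (ℓ : ℕ) [Fact ℓ.Prime] {G k : Type*} [AddCommGroup G] [Field k]
    (A A' : AddSubgroup G) [Finite A] (N : G →+ G) (hN : ∀ y ∈ A', N y ∈ A)
    (ψ ψ' : G → G → kˣ)
    (hmul1 : ∀ x x' y : G, x ∈ A → x' ∈ A → ℓ • x = 0 → ℓ • x' = 0 → y ∈ A →
      ψ (x + x') y = ψ x y * ψ x' y)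
    (hmul2 : ∀ x y y' : G, x ∈ A → ℓ • x = 0 → y ∈ A → y' ∈ A →
      ψ x (y + y') = ψ x y * ψ x y')
    (hcompat : ∀ x y : G, x ∈ A → ℓ • x = 0 → y ∈ A' → ψ' x y = ψ x (N y))
    (hnd : ∀ x : G, x ∈ A → ℓ • x = 0 → x ≠ 0 → ∃ y ∈ A', ψ' x y ≠ 1) :
    ∀ y ∈ A, ∃ x ∈ A', ∃ z ∈ A, y = N x + ℓ • z := by
  have hℓ : ℓ.Prime := Fact.out
  have : NeZero ℓ := ⟨hℓ.ne_zero⟩
  refine h3_norm_onto ℓ (M := Additive kˣ) A A' N hN (fun x y => Additive.ofMul (ψ x y))
    (fun x y => Additive.ofMul (ψ' x y)) ?_ ?_ ?_ ?_ ?_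
  · intro x x' y hx hx' hxl hx'l hy
    show Additive.ofMul (ψ (x + x') y) = Additive.ofMul (ψ x y * ψ x' y)
    rw [hmul1 x x' y hx hx' hxl hx'l hy]
  · intro x y y' hx hxl hy hy'
    show Additive.ofMul (ψ x (y + y')) = Additive.ofMul (ψ x y * ψ x y')
    rw [hmul2 x y y' hx hxl hy hy']
  · intro x y hx hxl hy
    show Additive.ofMul (ψ' x y) = Additive.ofMul (ψ x (N y))
    rw [hcompat x y hx hxl hy]
  · intro x hx hxl hx0
    obtain ⟨y, hy, hne⟩ := hnd x hx hxl hx0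
    exact ⟨y, hy, fun h => hne (Additive.ofMul.injective h)⟩
  · intro a b ha hb ha0
    -- multiplicatively: a ^ ℓ = 1, b ^ ℓ = 1, a ≠ 1 ⟹ b = a ^ n
    have ha' : (Additive.toMul a) ^ ℓ = 1 := by
      have := congrArg Additive.toMul ha
      simpa using this
    have hb' : (Additive.toMul b) ^ ℓ = 1 := by
      have := congrArg Additive.toMul hb
      simpa using this
    have ha0' : Additive.toMul a ≠ 1 := fun h => ha0 (Additive.toMul.injective h)
    have hord : orderOf (Additive.toMul a) = ℓ := orderOf_eq_prime ha' ha0'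
    have hprim : IsPrimitiveRoot ((Additive.toMul a : kˣ) : k) ℓ := by
      rw [IsPrimitiveRoot.coe_units_iff, ← hord]
      exact IsPrimitiveRoot.orderOf _
    have hbk : ((Additive.toMul b : kˣ) : k) ^ ℓ = 1 := by
      rw [← Units.val_pow_eq_pow_val, hb']; rfl
    obtain ⟨i, -, hi⟩ := hprim.eq_pow_of_pow_eq_one hbk
    refine ⟨i, ?_⟩
    apply Additive.toMul.injective
    rw [toMul_nsmul]
    exact Units.ext (by rw [Units.val_pow_eq_pow_val]; exact hi.symm)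

end Fermat.Agent.S27
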