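import Mathlib
import Fermat.Agent.S18.Defs
import Fermat.Agent.S18.h9_RedAbs
import Fermat.Agent.S27.h44_RedConstr

/-!
# S27 / B1 RED-CONSTR (G4), chart part (helper44)

The reduction datum `R` of `h44_redConstr` (residue field `k(X)[Y]/Φ̄`, `x ↦ X`, `y ↦ root`)
satisfies the weak chart hypothesis `h39_WeakChart R x` as soon as `Φ̄` is separable.
-/

set_option autoImplicit false

noncomputable section

namespace Fermat.Agent.S27

open Polynomial IntermediateField Fermat.Agent.S18

/-! ## The field `k(X)[Y]/q` over `k(X̄)` -/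

section AR

variable {k : Type*} [Field k] (q : Polynomial (RatFunc k))

theorem h44_of_algebraMap (p : Polynomial k) :
    AdjoinRoot.of q (algebraMap (Polynomial k) (RatFunc k) p) =
      aeval (AdjoinRoot.of q RatFunc.X) p := by
  rw [← RatFunc.aeval_X_left_eq_algebraMap]
  exact (Polynomial.aeval_algHom_apply (IsScalarTower.toAlgHom k (RatFunc k) (AdjoinRoot q))
    RatFunc.X p).symm

theorem h44_mk_poly {n : ℕ} (p : Fin n → Polynomial k) :
    AdjoinRoot.mk q (h44_poly (fun i => algebraMap (Polynomial k) (RatFunc k) (p i))) =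
      ∑ i, aeval (AdjoinRoot.of q RatFunc.X) (p i) * AdjoinRoot.root q ^ (i : ℕ) := by
  unfold h44_poly
  rw [map_sum]
  refine Finset.sum_congr rfl fun i _ => ?_
  rw [map_mul, map_pow, AdjoinRoot.mk_C, AdjoinRoot.mk_X, h44_of_algebraMap]

theorem h44_ar_transcendental [Fact (Irreducible q)] :
    Transcendental k (AdjoinRoot.of q RatFunc.X) := by
  have h : Transcendental k (algebraMap (RatFunc k) (AdjoinRoot q) RatFunc.X) :=
    (transcendental_algebraMap_iff (algebraMap (RatFunc k) (AdjoinRoot q)).injective).mpr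
      RatFunc.transcendental_X
  exact h

theorem h44_aeval_mem_adjoin {K F : Type*} [Field K] [Field F] [Algebra K F] (x : F)
    (p : Polynomial K) : aeval x p ∈ K⟮x⟯ := by
  rw [← h44_coe_aeval_gen]
  exact Subtype.property _

theorem h44_ar_of_mem [Fact (Irreducible q)] (r : RatFunc k) :
    AdjoinRoot.of q r ∈ k⟮AdjoinRoot.of q RatFunc.X⟯ := by
  rw [← RatFunc.num_div_denom r, map_div₀, h44_of_algebraMap, h44_of_algebraMap]
  exact div_mem (h44_aeval_mem_adjoin _ _) (h44_aeval_mem_adjoin _ _)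

theorem h44_ar_finrank [Fact (Irreducible q)] (hmon : q.Monic) (n : ℕ) (hdeg : q.natDegree = n) :
    Module.finrank k⟮AdjoinRoot.of q RatFunc.X⟯ (AdjoinRoot q) = n := by
  classical
  refine h9_finrank_of_powerBasis (AdjoinRoot.of q RatFunc.X) (AdjoinRoot.root q) n ?_ ?_
  · intro p hp h0
    rw [← h44_mk_poly, AdjoinRoot.mk_eq_zero] at h0
    have hz : h44_poly (fun i => algebraMap (Polynomial k) (RatFunc k) (p i)) = 0 := by
      by_contra hne
      refine hmon.not_dvd_of_degree_lt hne ?_ h0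
      rw [degree_eq_natDegree hmon.ne_zero, hdeg]
      exact h44_poly_degree_lt _
    apply hp
    funext i
    have h1 := h44_poly_coeff (fun i => algebraMap (Polynomial k) (RatFunc k) (p i)) i
    rw [hz, coeff_zero] at h1
    rw [Pi.zero_apply]
    exact (map_eq_zero_iff _ (IsFractionRing.injective (Polynomial k) (RatFunc k))).mp h1.symm
  · intro z
    obtain ⟨g, rfl⟩ := AdjoinRoot.mk_surjective z
    have hrdeg : (g %ₘ q).degree < n := by
      have := degree_modByMonic_lt g hmon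
      rwa [degree_eq_natDegree hmon.ne_zero, hdeg] at this
    have hmk : AdjoinRoot.mk q g = AdjoinRoot.mk q (g %ₘ q) := by
      rw [AdjoinRoot.mk_eq_mk]
      refine ⟨g /ₘ q, ?_⟩
      have := modByMonic_add_div g q
      linear_combination -this
    obtain ⟨b, hb⟩ := IsLocalization.exist_integer_multiples (nonZeroDivisors (Polynomial k))
      (Finset.univ : Finset (Fin n)) (fun i => (g %ₘ q).coeff i)
    choose p hp using fun i : Fin n => hb i (Finset.mem_univ i)
    have hb0 : algebraMap (Polynomial k) (RatFunc k) (b : Polynomial k) ≠ 0 := by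
      intro h0
      exact nonZeroDivisors.ne_zero b.2
        ((map_eq_zero_iff _ (IsFractionRing.injective (Polynomial k) (RatFunc k))).mp h0)
    refine ⟨p, (b : Polynomial k), ?_, ?_⟩
    · rw [← h44_of_algebraMap, Ne, map_eq_zero]
      exact hb0
    · rw [← h44_of_algebraMap, hmk, ← h44_mk_poly, ← AdjoinRoot.mk_C, ← map_mul]
      congr 1
      refine Polynomial.ext fun m => ?_
      rw [coeff_C_mul]
      by_cases hm : m < n
      · have h1 := h44_poly_coeff (fun i => algebraMap (Polynomial k) (RatFunc k) (p i)) ⟨m, hm⟩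
        rw [show ((⟨m, hm⟩ : Fin n) : ℕ) = m from rfl] at h1
        rw [h1, hp ⟨m, hm⟩, Algebra.smul_def]
      · rw [h44_poly_coeff_ge _ m (not_lt.mp hm),
          coeff_eq_zero_of_degree_lt (lt_of_lt_of_le hrdeg (by exact_mod_cast not_lt.mp hm)),
          mul_zero]

theorem h44_ar_separable [Fact (Irreducible q)] (hsep : q.Separable) :
    Algebra.IsSeparable k⟮AdjoinRoot.of q RatFunc.X⟯ (AdjoinRoot q) := by
  rw [← separableClosure.eq_top_iff]
  have hofmem : ∀ r : RatFunc k, AdjoinRoot.of q r ∈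
      separableClosure k⟮AdjoinRoot.of q RatFunc.X⟯ (AdjoinRoot q) := by
    intro r
    exact (separableClosure k⟮AdjoinRoot.of q RatFunc.X⟯ (AdjoinRoot q)).algebraMap_mem
      ⟨_, h44_ar_of_mem q r⟩
  have hroot : AdjoinRoot.root q ∈
      separableClosure k⟮AdjoinRoot.of q RatFunc.X⟯ (AdjoinRoot q) := by
    rw [mem_separableClosure_iff]
    let φ : RatFunc k →+* k⟮AdjoinRoot.of q RatFunc.X⟯ :=
      (AdjoinRoot.of q).codRestrict k⟮AdjoinRoot.of q RatFunc.X⟯.toSubring (h44_ar_of_mem q)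
    have hφ : (algebraMap k⟮AdjoinRoot.of q RatFunc.X⟯ (AdjoinRoot q)).comp φ =
        AdjoinRoot.of q := RingHom.ext fun r => rfl
    have hsep' : (q.map φ).Separable := by
      rw [← Polynomial.separable_map (algebraMap k⟮AdjoinRoot.of q RatFunc.X⟯ (AdjoinRoot q)),
        Polynomial.map_map, hφ]
      exact hsep.map
    have hroot0 : aeval (AdjoinRoot.root q) (q.map φ) = 0 := by
      rw [aeval_def, eval₂_map, hφ]
      exact AdjoinRoot.eval₂_root q
    exact hsep'.of_dvd (minpoly.dvd _ _ hroot0)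
  rw [eq_top_iff]
  intro z _
  obtain ⟨g, rfl⟩ := AdjoinRoot.mk_surjective z
  rw [← AdjoinRoot.aeval_eq, aeval_eq_sum_range]
  refine sum_mem fun i _ => ?_
  rw [Algebra.smul_def, AdjoinRoot.algebraMap_eq]
  exact mul_mem (hofmem _) (pow_mem hroot _)

end AR

/-! ## The weak chart -/

section Chart

variable {K F : Type*} [Field K] [Field F] [Algebra K F] (A : ValuationSubring K)
  {k : Type*} [Field k] (res : A →+* k)

/-- A reduction datum with residue field `k(X)[Y]/Φ̄` reducing `G(x, y)` to `Ḡ mod Φ̄` is a weak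
chart at `x`. -/
theorem h44_weakChart_of_red (x y : F) (n : ℕ) (Φ : Polynomial (Polynomial A)) (hmon : Φ.Monic)
    (hdeg : Φ.natDegree = n)
    (hspan : ∀ f : F, ∃ c : Fin n → K⟮x⟯, f = ∑ i, algebraMap K⟮x⟯ F (c i) * y ^ (i : ℕ))
    (hli : ∀ c : Fin n → K⟮x⟯, ∑ i, algebraMap K⟮x⟯ F (c i) * y ^ (i : ℕ) = 0 → ∀ i, c i = 0)
    [Fact (Irreducible (Φ.map (h44_cred A res)))] (hsep : (Φ.map (h44_cred A res)).Separable)
    (R : h39_RedDatum K F k (AdjoinRoot (Φ.map (h44_cred A res))))
    (hR : ∀ P : Polynomial (Polynomial A), ∃ h : P.eval₂ (h44_cev A x) y ∈ R.O,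
      R.red ⟨_, h⟩ = AdjoinRoot.mk (Φ.map (h44_cred A res)) (P.map (h44_cred A res))) :
    h39_WeakChart R x := by
  classical
  -- `x ∈ O` and its reduction
  obtain ⟨h, hh⟩ := hR (C X)
  have e : (C X : Polynomial (Polynomial A)).eval₂ (h44_cev A x) y = x := by
    rw [eval₂_C, h44_cev_apply, Polynomial.map_X, aeval_X]
  have hxmem : x ∈ R.O := e ▸ h
  have aux : ∀ (f g : F) (hfg : f = g) (hf : f ∈ R.O) (hg : g ∈ R.O),
      R.red ⟨f, hf⟩ = R.red ⟨g, hg⟩ := by
    rintro f g rfl hf hg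
    rfl
  have hredx : R.redF x = AdjoinRoot.of (Φ.map (h44_cred A res)) RatFunc.X := by
    rw [R.redF_of_mem hxmem, ← aux _ _ e h hxmem, hh, Polynomial.map_C, AdjoinRoot.mk_C,
      h44_cred_apply, Polynomial.map_X, RatFunc.algebraMap_X]
  -- the basis `1, y, …, y^(n-1)` of `F` over `K(x)`
  have hli' : LinearIndependent K⟮x⟯ (fun i : Fin n => y ^ (i : ℕ)) := by
    rw [Fintype.linearIndependent_iff]
    intro g hg
    apply hli g
    rw [← hg]
    exact Finset.sum_congr rfl fun i _ => (Algebra.smul_def _ _).symm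
  have hsp : ⊤ ≤ Submodule.span K⟮x⟯ (Set.range fun i : Fin n => y ^ (i : ℕ)) := by
    intro f _
    obtain ⟨c, rfl⟩ := hspan f
    refine Submodule.sum_mem _ fun i _ => ?_
    rw [← Algebra.smul_def]
    exact Submodule.smul_mem _ _ (Submodule.subset_span ⟨i, rfl⟩)
  have hfin : Module.Finite K⟮x⟯ F := Module.Finite.of_basis (Module.Basis.mk hli' hsp)
  have hrank : Module.finrank K⟮x⟯ F = n := by
    rw [Module.finrank_eq_card_basis (Module.Basis.mk hli' hsp), Fintype.card_fin]
  refine ⟨hxmem, ?_, hfin, ?_, ?_⟩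
  · rw [hredx]
    exact h44_ar_transcendental _
  · rw [hredx, hrank]
    exact h44_ar_finrank _ (hmon.map _) n (by rw [hmon.natDegree_map, hdeg])
  · rw [hredx]
    exact h44_ar_separable _ hsep

/-- **RED-CONSTR, datum + weak chart.** -/
theorem h44_redConstr_weakChart (hres : Function.Surjective res) (x y : F)
    (hx : Transcendental K x) (n : ℕ) (Φ : Polynomial (Polynomial A)) (hmon : Φ.Monic)
    (hdeg : Φ.natDegree = n) (hroot : Φ.eval₂ (h44_cev A x) y = 0)
    (hspan : ∀ f : F, ∃ c : Fin n → K⟮x⟯, f = ∑ i, algebraMap K⟮x⟯ F (c i) * y ^ (i : ℕ))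
    (hli : ∀ c : Fin n → K⟮x⟯, ∑ i, algebraMap K⟮x⟯ F (c i) * y ^ (i : ℕ) = 0 → ∀ i, c i = 0)
    [Fact (Irreducible (Φ.map (h44_cred A res)))] (hsep : (Φ.map (h44_cred A res)).Separable) :
    ∃ R : h39_RedDatum K F k (AdjoinRoot (Φ.map (h44_cred A res))),
      R.A = A ∧ (∀ (a : K) (ha : a ∈ A), R.resK a = res ⟨a, ha⟩) ∧
      (∀ P : Polynomial (Polynomial A), ∃ h : P.eval₂ (h44_cev A x) y ∈ R.O,
        R.red ⟨_, h⟩ = AdjoinRoot.mk (Φ.map (h44_cred A res)) (P.map (h44_cred A res))) ∧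
      h39_WeakChart R x := by
  obtain ⟨R, hRA, hRres, hR⟩ := h44_redConstr A res hres x y hx n Φ hmon hdeg hroot hspan hli
  exact ⟨R, hRA, hRres, hR, h44_weakChart_of_red A res x y n Φ hmon hdeg hspan hli hsep R hR⟩

end Chart

end Fermat.Agent.S27
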