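import Mathlib
import Fermat.Agent.S18.Defs
import Fermat.Agent.S18.h39_GRDefs
import Fermat.Agent.S18.GR_RedAPI
import Fermat.Agent.S18.h20_ONCore
import Fermat.Agent.S18.h64_CoreAdapter
import Fermat.Agent.S18.RR_Riemann
import Fermat.Agent.S24.h35_PlaceBasic
import Fermat.Agent.S27.h64_SpecRed

set_option autoImplicit false

/-!
# S27 / B5 (COMPLETE): coordinates in a residually independent family, normalisation of a
function by its reduction

* `h64_coords_mem_of_red_indep`, `h64_redF_coords`: if the reductions of `e i ∈ O` are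
  `k`-linearly independent and `∑ a i • e i ∈ O`, then `a i ∈ A` and the reduction is
  `∑ res (a i) • red (e i)`;
* `h64_coords_of_red_eq`, `h64_coords_normalized`: if moreover the reduction is `red (e i0)`, then
  `res (a i0) = 1`, `res (a i) = 0` for `i ≠ i0`, and the normalised coordinates `a i / a i0`
  lie in the maximal ideal of `A`;
* `h64_exists_scale_red_eq`: a function whose divisor pushes forward to the divisor of `gb` has
  a constant multiple in `O` with reduction `gb`.
-/

noncomputable section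

namespace Fermat.Agent.S27

open AlgebraicCurve Fermat.Agent.S18

variable {K F k Fb : Type*} [Field K] [Field F] [Algebra K F] [Field k] [Field Fb] [Algebra k Fb]

/-- Coordinates of an integral element in a residually independent integral family are
integral. -/
theorem h64_coords_mem_of_red_indep (R : h39_RedDatum K F k Fb) {ι : Type*} [Fintype ι]
    (e : ι → F) (he : ∀ i, e i ∈ R.O) (hind : LinearIndependent k (fun i => R.redF (e i)))
    (a : ι → K) (hf : ∑ i, a i • e i ∈ R.O) : ∀ i, a i ∈ R.A := by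
  intro i
  rw [R.mem_iff]
  exact h64_strong_of_on R.O e (h20_on_of_linearIndependent_red R e he hind) a hf i

/-- The reduction of an integral element in coordinates. -/
theorem h64_redF_coords (R : h39_RedDatum K F k Fb) {ι : Type*} [Fintype ι]
    (e : ι → F) (he : ∀ i, e i ∈ R.O) (hind : LinearIndependent k (fun i => R.redF (e i)))
    (a : ι → K) (hf : ∑ i, a i • e i ∈ R.O) :
    R.redF (∑ i, a i • e i) = ∑ i, R.resK (a i) • R.redF (e i) :=
  h20_redF_sum_smul R Finset.univ a e (h64_coords_mem_of_red_indep R e he hind a hf) he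

/-- If the reduction of `∑ a i • e i` is the reduction of `e i0`, then `res (a i0) = 1` and
`res (a i) = 0` for `i ≠ i0`. -/
theorem h64_coords_of_red_eq (R : h39_RedDatum K F k Fb) {ι : Type*} [Fintype ι]
    (e : ι → F) (he : ∀ i, e i ∈ R.O) (hind : LinearIndependent k (fun i => R.redF (e i)))
    (a : ι → K) (hf : ∑ i, a i • e i ∈ R.O) (i0 : ι)
    (hred : R.redF (∑ i, a i • e i) = R.redF (e i0)) :
    (∀ i, a i ∈ R.A) ∧ R.resK (a i0) = 1 ∧ ∀ i, i ≠ i0 → R.resK (a i) = 0 := by
  classical
  have hA := h64_coords_mem_of_red_indep R e he hind a hf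
  rw [h64_redF_coords R e he hind a hf] at hred
  have h0 : ∑ i, (R.resK (a i) - if i = i0 then 1 else 0) • R.redF (e i) = 0 := by
    simp only [sub_smul, Finset.sum_sub_distrib, hred]
    simp
  have h1 := Fintype.linearIndependent_iff.mp hind _ h0
  refine ⟨hA, ?_, fun i hi => ?_⟩
  · have := h1 i0
    rw [if_pos rfl, sub_eq_zero] at this
    exact this
  · have := h1 i
    rw [if_neg hi, sub_zero] at this
    exact this

/-- The normalised coordinates `a i / a i0` (`i ≠ i0`) lie in the maximal ideal of `A`, and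
`a i0` is a unit of `A`. -/
theorem h64_coords_normalized (R : h39_RedDatum K F k Fb) {ι : Type*} [Fintype ι]
    (e : ι → F) (he : ∀ i, e i ∈ R.O) (hind : LinearIndependent k (fun i => R.redF (e i)))
    (a : ι → K) (hf : ∑ i, a i • e i ∈ R.O) (i0 : ι)
    (hred : R.redF (∑ i, a i • e i) = R.redF (e i0)) :
    a i0 ≠ 0 ∧ a i0 ∈ R.A ∧ (a i0)⁻¹ ∈ R.A ∧
      ∀ i, i ≠ i0 → a i / a i0 ∈ R.A ∧ R.resK (a i / a i0) = 0 := by
  obtain ⟨hA, h1, h2⟩ := h64_coords_of_red_eq R e he hind a hf i0 hred
  have hne : ¬ (a i0 = 0 ∨ (a i0)⁻¹ ∉ R.A) := by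
    intro h
    have := (h39_resK_eq_zero_iff R (hA i0)).mpr h
    rw [h1] at this
    exact one_ne_zero this
  push Not at hne
  refine ⟨hne.1, hA i0, hne.2, fun i hi => ?_⟩
  rw [div_eq_mul_inv]
  refine ⟨R.A.mul_mem _ _ (hA i) hne.2, ?_⟩
  rw [h39_resK_mul R (hA i) hne.2, h2 i hi, zero_mul]

/-- **Normalisation by the reduction.**  If the push-forward of the divisor of `f` is the
divisor of `gb ≠ 0`, then a constant multiple of `f` lies in `O` and reduces to `gb`. -/
theorem h64_exists_scale_red_eq [IsAlgClosed k] (R : h39_RedDatum K F k Fb)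
    (S : h39_PlaceRed R) {xb : Fb} (hxk : h75_IsChart k xb) (f : F) (hf : f ≠ 0)
    (Df : Divisor K F) (hDf : ∀ P : Place K F, Df P = P.ord f) (gb : Fb) (hgb : gb ≠ 0)
    (hdiv : ∀ Q : Place k Fb, Q.ord gb = Finsupp.mapDomain S.r0 Df Q) :
    ∃ c : K, c ≠ 0 ∧ algebraMap K F c * f ∈ R.O ∧ R.redF (algebraMap K F c * f) = gb := by
  obtain ⟨c1, hc1, h1, h2⟩ := R.exists_scale f hf
  have hc1' : algebraMap K F c1 ≠ 0 := by simpa using hc1
  have hy0 : algebraMap K F c1 * f ≠ 0 := mul_ne_zero hc1' hf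
  have hred : R.red ⟨algebraMap K F c1 * f, h1⟩ ≠ 0 := by
    intro h0
    have hmul : (⟨algebraMap K F c1 * f, h1⟩ : R.O) * ⟨(algebraMap K F c1 * f)⁻¹, h2⟩ = 1 :=
      Subtype.ext (mul_inv_cancel₀ hy0)
    have := congrArg R.red hmul
    rw [map_mul, h0, zero_mul, map_one] at this
    exact zero_ne_one this
  have hordy : ∀ P : Place K F, Df P = P.ord (algebraMap K F c1 * f) := by
    intro P
    rw [hDf P, P.ord_mul hc1' hf, Fermat.Agent.S24.h35_ord_algebraMap, zero_add]
  have hcompat := S.compat _ h1 hred Df hordy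
  have hu : ∀ Q : Place k Fb, Q.ord (R.red ⟨algebraMap K F c1 * f, h1⟩ / gb) = 0 := by
    intro Q
    rw [div_eq_mul_inv, Q.ord_mul hred (inv_ne_zero hgb), Q.ord_inv, ← hcompat Q, hdiv Q,
      add_neg_cancel]
  obtain ⟨cb, hcb⟩ := h64_const_of_ord_eq_zero hxk _ hu
  have hcb0 : cb ≠ 0 := by
    rintro rfl
    rw [map_zero] at hcb
    exact (div_ne_zero hred hgb) hcb
  obtain ⟨a, haA, hares⟩ := h39_resK_surjective R cb⁻¹
  have ha0 : a ≠ 0 := by
    rintro rfl
    have h00 : R.resK 0 = 0 := by
      rw [R.resK_of_mem (zero_mem _)]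
      exact map_zero R.res
    rw [h00] at hares
    exact inv_ne_zero hcb0 hares.symm
  have haO : algebraMap K F a ∈ R.O := (R.mem_iff a).mp haA
  refine ⟨a * c1, mul_ne_zero ha0 hc1, ?_, ?_⟩
  · rw [map_mul, mul_assoc]
    exact R.O.mul_mem _ _ haO h1
  · rw [map_mul, mul_assoc, h39_redF_mul R haO h1, h39_redF_algebraMap R haA, hares,
      R.redF_of_mem h1]
    have hy : R.red ⟨algebraMap K F c1 * f, h1⟩ = algebraMap k Fb cb * gb := by
      rw [← hcb, div_mul_cancel₀ _ hgb]
    rw [hy, ← mul_assoc, ← map_mul, inv_mul_cancel₀ hcb0, map_one, one_mul]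

end Fermat.Agent.S27
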