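import Fermat.Agent.S27.h64_SpecAsm

set_option autoImplicit false

/-!
# S27 / SPEC: rank-free assembly modulo LIFT and INJ

A variant of `h64_spec_of_lift` without any rank-one hypothesis: the cardinality statement for
the `m`-torsion follows from the two properties of the place reduction

* `h64_LiftProp` (existence): every `m`-torsion class of the reduced field is the reduction of
  an `m`-torsion class;
* `h64_InjProp` (uniqueness): an `m`-torsion class with trivial reduction is trivial.

In the rank-one setting `h64_InjProp` is `h64_injProp_of_rankOne` (from the GT theorem).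
-/

noncomputable section

namespace Fermat.Agent.S27

open AlgebraicCurve Fermat.Agent.S18

variable {K F k Fb : Type*} [Field K] [Field F] [Algebra K F] [Field k] [Field Fb] [Algebra k Fb]

/-- The uniqueness property of a place reduction on `m`-torsion, in divisor form. -/
def h64_InjProp (R : h39_RedDatum K F k Fb) (S : h39_PlaceRed R) (m : ℕ) : Prop :=
  ∀ D : Divisor K F, Divisor.degree D = 0 →
    (m : ℤ) • D ∈ Divisor.principal (K := K) (F := F) →
    Finsupp.mapDomain S.r0 D ∈ Divisor.principal (K := k) (F := Fb) →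
    D ∈ Divisor.principal (K := K) (F := F)

/-- The uniqueness property in the form "two `m`-torsion lifts of the same class are
equivalent" implies `h64_InjProp`. -/
theorem h64_injProp_of_unique (R : h39_RedDatum K F k Fb) (S : h39_PlaceRed R) (m : ℕ)
    (h : ∀ D D' : Divisor K F, Divisor.degree D = 0 → Divisor.degree D' = 0 →
      (m : ℤ) • D ∈ Divisor.principal (K := K) (F := F) →
      (m : ℤ) • D' ∈ Divisor.principal (K := K) (F := F) →
      Finsupp.mapDomain S.r0 D - Finsupp.mapDomain S.r0 D' ∈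
        Divisor.principal (K := k) (F := Fb) →
      D - D' ∈ Divisor.principal (K := K) (F := F)) :
    h64_InjProp R S m := by
  intro D hD0 hDm hDr
  have := h D 0 hD0 (map_zero _) hDm (by rw [smul_zero]; exact zero_mem _)
    (by rw [Finsupp.mapDomain_zero, sub_zero]; exact hDr)
  rwa [sub_zero] at this

/-- `h64_InjProp` implies the "two lifts" form. -/
theorem h64_unique_of_injProp (R : h39_RedDatum K F k Fb) (S : h39_PlaceRed R) (m : ℕ)
    (h : h64_InjProp R S m) (D D' : Divisor K F) (hD0 : Divisor.degree D = 0)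
    (hD0' : Divisor.degree D' = 0)
    (hDm : (m : ℤ) • D ∈ Divisor.principal (K := K) (F := F))
    (hDm' : (m : ℤ) • D' ∈ Divisor.principal (K := K) (F := F))
    (hr : Finsupp.mapDomain S.r0 D - Finsupp.mapDomain S.r0 D' ∈
        Divisor.principal (K := k) (F := Fb)) :
    D - D' ∈ Divisor.principal (K := K) (F := F) := by
  apply h (D - D')
  · rw [map_sub, hD0, hD0', sub_zero]
  · rw [smul_sub]
    exact sub_mem hDm hDm'
  · rw [Finsupp.mapDomain_sub]
    exact hr

/-- In the rank-one setting, the uniqueness property holds (`m` invertible in the residue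
field): this is the GT theorem. -/
theorem h64_injProp_of_rankOne [IsAlgClosed K] [IsAlgClosed k]
    (R : h39_RedDatum K F k Fb) (PR : h39_PlaceRed R) (hR1 : h39_RankOne R.A)
    {x : F} (hxK : h75_IsChart K x) {xb : Fb} (hxk : h75_IsChart k xb)
    (m : ℕ) (hm : (m : k) ≠ 0) : h64_InjProp R PR m := by
  intro D hD0 hDm hDr
  have h1 := h64_redPic0_torsion_injective R PR hR1 hxK hxk m hm (Pic0.mk ⟨D, hD0⟩)
    ((h64_mk_mem_torsion_iff m _).mpr hDm)
    (by
      rw [h64_redPic0_mk, h64_mk_eq_zero_iff]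
      exact hDr)
  exact (h64_mk_eq_zero_iff _).mp h1

/-- **SPEC, cardinality part, modulo LIFT and INJ** (no rank hypothesis): reduction is a
bijection on `m`-torsion. -/
theorem h64_card_torsion_eq_of_lift_inj [IsAlgClosed K] [IsAlgClosed k]
    (R : h39_RedDatum K F k Fb) (PR : h39_PlaceRed R)
    {x : F} (hxK : h75_IsChart K x) {xb : Fb} (hxk : h75_IsChart k xb)
    (m : ℕ) (hlift : h64_LiftProp R PR m) (hinj : h64_InjProp R PR m) :
    Nat.card (Pic0.torsion K F m) = Nat.card (Pic0.torsion k Fb m) := by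
  set φ := h64_redPic0 R PR (h75_deg_eq_one hxK) (h75_deg_eq_one hxk) with hφ
  have hmaps : ∀ z : Pic0.torsion K F m, φ z ∈ Pic0.torsion k Fb m := by
    intro z
    rw [Pic0.mem_torsion, ← map_zsmul, (Pic0.mem_torsion).mp z.2, map_zero]
  let f : Pic0.torsion K F m → Pic0.torsion k Fb m := fun z => ⟨φ z, hmaps z⟩
  have hker : ∀ z : Pic0 K F, z ∈ Pic0.torsion K F m → φ z = 0 → z = 0 := by
    intro z hz h0
    obtain ⟨D, rfl⟩ := Pic0.mk_surjective z
    rw [h64_mk_mem_torsion_iff] at hz
    rw [hφ, h64_redPic0_mk, h64_mk_eq_zero_iff] at h0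
    rw [h64_mk_eq_zero_iff]
    exact hinj (D : Divisor K F) D.2 hz h0
  have hinj' : Function.Injective f := by
    intro z w hzw
    have h1 : φ (z : Pic0 K F) = φ (w : Pic0 K F) := congrArg Subtype.val hzw
    have h2 : φ ((z : Pic0 K F) - (w : Pic0 K F)) = 0 := by rw [map_sub, h1, sub_self]
    have h3 := hker _ ((Pic0.torsion K F m).sub_mem z.2 w.2) h2
    exact Subtype.ext (sub_eq_zero.mp h3)
  have hsurj : Function.Surjective f := by
    rintro ⟨y, hy⟩
    obtain ⟨Db, rfl⟩ := Pic0.mk_surjective y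
    rw [h64_mk_mem_torsion_iff] at hy
    obtain ⟨D, hD0, hDm, hDb⟩ := hlift (Db : Divisor k Fb) Db.2 hy
    refine ⟨⟨Pic0.mk ⟨D, hD0⟩, (h64_mk_mem_torsion_iff m _).mpr hDm⟩, Subtype.ext ?_⟩
    show φ (Pic0.mk ⟨D, hD0⟩) = Pic0.mk Db
    rw [hφ, h64_redPic0_mk, ← sub_eq_zero]
    have : Pic0.mk (h64_redDeg0 R PR (h75_deg_eq_one hxK) (h75_deg_eq_one hxk) ⟨D, hD0⟩)
        - Pic0.mk Db
        = Pic0.mk (h64_redDeg0 R PR (h75_deg_eq_one hxK) (h75_deg_eq_one hxk) ⟨D, hD0⟩ - Db) :=
      rfl
    rw [this, h64_mk_eq_zero_iff]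
    exact hDb
  exact Nat.card_congr (Equiv.ofBijective f ⟨hinj', hsurj⟩)

/-- **SPEC modulo LIFT and INJ**, without any rank hypothesis. -/
theorem h64_spec_of_lift_inj [IsAlgClosed K] [CharZero K] [IsAlgClosed k]
    (R : h39_RedDatum K F k Fb) {x : F} (hx : h39_Chart R x)
    (hlift : ∀ S : h39_PlaceRed R,
      (∃ r : Place K F → Place k Fb, h39_IsChartRed R x r ∧
        ∀ P : Place K F, h39_InDisc R x P → S.r0 P = r P) →
      (∃ r' : Place K F → Place k Fb, h39_IsChartRed R x⁻¹ r' ∧
        ∀ P : Place K F, ¬ h39_InDisc R x P → S.r0 P = r' P) →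
      ∀ m : ℕ, (m : k) ≠ 0 → h64_LiftProp R S m ∧ h64_InjProp R S m) :
    h75_genus k (R.redF x) = h75_genus K x ∧
    ∀ m : ℕ, (m : k) ≠ 0 →
      Nat.card (Pic0.torsion K F m) = Nat.card (Pic0.torsion k Fb m) := by
  have hw : h39_WeakChart R x := hx.toh39_WeakChart
  have hxK : h75_IsChart K x := h39_weakChart_isChart R hw
  have hxk : h75_IsChart k (R.redF x) := h39_weakChart_isChart_red R hw
  obtain ⟨S, hS1, hS2⟩ := h39_exists_placeRed' R hx
  exact ⟨h39_genus_eq R hx, fun m hm =>
    h64_card_torsion_eq_of_lift_inj R S hxK hxk m (hlift S hS1 hS2 m hm).1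
      (hlift S hS1 hS2 m hm).2⟩

end Fermat.Agent.S27
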