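import Fermat.Agent.S27.h64_SpecRed
import Fermat.Agent.S18.GR_PlaceRed
import Fermat.Agent.S18.GR_GenusEq
import Fermat.Agent.S18.GR_RedAPI

set_option autoImplicit false

/-!
# S27 / SPEC: assembly modulo LIFT

`h64_spec_of_lift`: the statement of `h15_spec` (genus equality and equality of the numbers of
`m`-torsion classes under good reduction) from the LIFT property of the place reduction of
`h39_exists_placeRed'` (block B5): every `m`-torsion class of the reduced function field is the
reduction of an `m`-torsion class.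
-/

noncomputable section

namespace Fermat.Agent.S27

open AlgebraicCurve Fermat.Agent.S18

variable {K F k Fb : Type*} [Field K] [Field F] [Algebra K F] [Field k] [Field Fb] [Algebra k Fb]

/-- The LIFT property of a place reduction for `m`-torsion (the export of block B5, as a
proposition). -/
def h64_LiftProp (R : h39_RedDatum K F k Fb) (S : h39_PlaceRed R) (m : ℕ) : Prop :=
  ∀ Db : Divisor k Fb, Divisor.degree Db = 0 →
    (m : ℤ) • Db ∈ Divisor.principal (K := k) (F := Fb) →
    ∃ D : Divisor K F, Divisor.degree D = 0 ∧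
      (m : ℤ) • D ∈ Divisor.principal (K := K) (F := F) ∧
      Finsupp.mapDomain S.r0 D - Db ∈ Divisor.principal (K := k) (F := Fb)

/-- **SPEC modulo LIFT**, in the shape of `h15_spec`. -/
theorem h64_spec_of_lift [IsAlgClosed K] [CharZero K] [IsAlgClosed k]
    (R : h39_RedDatum K F k Fb) {x : F} (hx : h39_Chart R x) (hR1 : h39_RankOne R.A)
    (hlift : ∀ S : h39_PlaceRed R,
      (∃ r : Place K F → Place k Fb, h39_IsChartRed R x r ∧
        ∀ P : Place K F, h39_InDisc R x P → S.r0 P = r P) →
      (∃ r' : Place K F → Place k Fb, h39_IsChartRed R x⁻¹ r' ∧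
        ∀ P : Place K F, ¬ h39_InDisc R x P → S.r0 P = r' P) →
      ∀ m : ℕ, (m : k) ≠ 0 → h64_LiftProp R S m) :
    h75_genus k (R.redF x) = h75_genus K x ∧
    ∀ m : ℕ, (m : k) ≠ 0 →
      Nat.card (Pic0.torsion K F m) = Nat.card (Pic0.torsion k Fb m) := by
  have hw : h39_WeakChart R x := hx.toh39_WeakChart
  have hxK : h75_IsChart K x := h39_weakChart_isChart R hw
  have hxk : h75_IsChart k (R.redF x) := h39_weakChart_isChart_red R hw
  obtain ⟨S, hS1, hS2⟩ := h39_exists_placeRed' R hx
  exact ⟨h39_genus_eq R hx, fun m hm =>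
    h64_card_torsion_eq_of_lift R S hR1 hxK hxk m hm (hlift S hS1 hS2 m hm)⟩

end Fermat.Agent.S27
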