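import Fermat.Agent.S27.LiftSystem
import Fermat.Agent.S27.h82_HenselUniq

/-!
# S27, block B5c (SYSTEM): uniqueness form of the jet system

`h66_hensel_system_unique`: two solutions of the jet system of `h15_hensel_system` that are both
congruent to the base point `(ξ0, θ0, c = 0)` modulo the maximal ideal are equal, provided the
tangent space at the base point is trivial modulo the maximal ideal (the hypothesis `hT` of
`h15_hensel_system`).  Any valuation subring of any field (no algebraic closedness, no rank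
condition).  This is the input (UNIQ) of row 506 (B5g COMPLETE).

Proof: the solutions are zeros of the square system `h66_sys`; the kernel hypothesis gives a unit
Jacobian determinant at the base point (`h66_isUnit_det_of_ker`), hence at every point congruent
to it (`h82_isUnit_det_congr`), and `h82_hensel_unique` applies.
-/

set_option autoImplicit false

noncomputable section

open Polynomial IsLocalRing

namespace Fermat.Agent.S27

/-- Over a local ring: a square system whose Jacobian is injective modulo the maximal ideal has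
unit Jacobian determinant. -/
theorem h66_isUnit_det_of_ker {R : Type*} [CommRing R] [IsLocalRing R]
    {σ τ : Type*} [Fintype σ] [DecidableEq σ] (e : σ ≃ τ)
    (Ψ : τ → MvPolynomial σ R) (a : σ → R)
    (hJ : ∀ δ : σ → R,
      (∀ t, ∑ s, MvPolynomial.eval a (MvPolynomial.pderiv s (Ψ t)) * δ s ∈ maximalIdeal R) →
      ∀ s, δ s ∈ maximalIdeal R) :
    IsUnit (Matrix.det
      (Matrix.of fun i j => MvPolynomial.eval a (MvPolynomial.pderiv j (Ψ (e i))))) := by
  classical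
  by_contra hnu
  set J : Matrix σ σ R :=
    Matrix.of fun i j => MvPolynomial.eval a (MvPolynomial.pderiv j (Ψ (e i))) with hJdef
  have hbar : ((IsLocalRing.residue R).mapMatrix J).det = 0 := by
    rw [← RingHom.map_det]
    exact (IsLocalRing.residue_eq_zero_iff _).mpr hnu
  obtain ⟨v, hv0, hv⟩ := Matrix.exists_mulVec_eq_zero_iff.mpr hbar
  choose δ' hδ' using fun j => IsLocalRing.residue_surjective (R := R) (v j)
  have h6 : ∀ s, δ' s ∈ maximalIdeal R := by
    refine hJ δ' fun t => ?_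
    have h3 := congrFun hv (e.symm t)
    rw [Matrix.mulVec, dotProduct, Pi.zero_apply] at h3
    rw [← IsLocalRing.residue_eq_zero_iff, map_sum, ← h3]
    refine Finset.sum_congr rfl fun j _ => ?_
    rw [map_mul, hδ' j, hJdef]
    simp
  apply hv0
  funext j
  rw [Pi.zero_apply, ← hδ' j, IsLocalRing.residue_eq_zero_iff]
  exact h6 j

section Point

variable {R : Type*} [CommRing R] (g m M : ℕ)

/-- The point of the coordinate space of `h66_sys` with coordinates `ξ_j`, the first `m`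
coefficients of `θ_j`, and `c_l`. -/
def h66_pt (ξ : Fin g → R) (θ : Fin g → Polynomial R) (c : Fin M → R) :
    Fin g ⊕ ((Fin g × Fin m) ⊕ Fin M) → R :=
  Sum.elim ξ (Sum.elim (fun ji => (θ ji.1).coeff ji.2) c)

theorem h66_pt_poly (ξ : Fin g → R) (θ : Fin g → Polynomial R) (c : Fin M → R)
    (hθ : ∀ j, (θ j).degree < m) (j : Fin g) :
    (h66_poly m fun i' => h66_pt g m M ξ θ c (Sum.inr (Sum.inl (j, i')))) = θ j :=
  h66_poly_of_degree_lt m (θ j) (hθ j)

/-- Value of the first half of the system at `h66_pt`. -/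
theorem h66_sys_eval_pt_inl (Φ H0 : Polynomial (Polynomial R))
    (H : Fin M → Polynomial (Polynomial R))
    (ξ : Fin g → R) (θ : Fin g → Polynomial R) (c : Fin M → R)
    (hθ : ∀ j, (θ j).degree < m) (j : Fin g) (i : Fin m) :
    MvPolynomial.eval (h66_pt g m M ξ θ c) (h66_sys g m M Φ H0 H (Sum.inl (j, i))) =
      (h15_sub2 Φ (ξ j) (θ j)).coeff i := by
  rw [h66_sys_eval_inl, h66_pt_poly g m M ξ θ c hθ]
  rfl

/-- Value of the second half of the system at `h66_pt`. -/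
theorem h66_sys_eval_pt_inr (Φ H0 : Polynomial (Polynomial R))
    (H : Fin M → Polynomial (Polynomial R))
    (ξ : Fin g → R) (θ : Fin g → Polynomial R) (c : Fin M → R)
    (hθ : ∀ j, (θ j).degree < m) (j : Fin g) (i : Fin m) :
    MvPolynomial.eval (h66_pt g m M ξ θ c) (h66_sys g m M Φ H0 H (Sum.inr (j, i))) =
      (h15_sub2 (H0 + ∑ l, C (C (c l)) * H l) (ξ j) (θ j)).coeff i := by
  rw [h66_sys_eval_inr, h66_pt_poly g m M ξ θ c hθ, h66_sub2_add, h66_sub2_sum]
  congr 2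
  refine Finset.sum_congr rfl fun l _ => ?_
  rw [h66_sub2_mul, h66_sub2_CC]
  rfl

/-- The tangent hypothesis of `h15_hensel_system` is the injectivity of the Jacobian of
`h66_sys` at the base point modulo the maximal ideal. -/
theorem h66_sys_ker [IsLocalRing R] (Φ H0 : Polynomial (Polynomial R))
    (H : Fin M → Polynomial (Polynomial R))
    (ξ0 : Fin g → R) (θ0 : Fin g → Polynomial R) (hθ0 : ∀ j, (θ0 j).degree < m)
    (hT : ∀ (δξ : Fin g → R) (δθ : Fin g → Polynomial R) (δc : Fin M → R),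
      (∀ j, (δθ j).degree < m) →
      (∀ j, ∀ i < m, (C (δξ j) * h15_sub2 (h15_dX Φ) (ξ0 j) (θ0 j) +
          δθ j * h15_sub2 (derivative Φ) (ξ0 j) (θ0 j)).coeff i ∈ maximalIdeal R) →
      (∀ j, ∀ i < m, (C (δξ j) * h15_sub2 (h15_dX H0) (ξ0 j) (θ0 j) +
          δθ j * h15_sub2 (derivative H0) (ξ0 j) (θ0 j) +
          ∑ l, C (δc l) * h15_sub2 (H l) (ξ0 j) (θ0 j)).coeff i ∈ maximalIdeal R) →
      (∀ j, δξ j ∈ maximalIdeal R) ∧ (∀ j i, (δθ j).coeff i ∈ maximalIdeal R) ∧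
        ∀ l, δc l ∈ maximalIdeal R)
    (δ : Fin g ⊕ ((Fin g × Fin m) ⊕ Fin M) → R)
    (hδ : ∀ t, ∑ s, MvPolynomial.eval (h66_pt g m M ξ0 θ0 0)
      (MvPolynomial.pderiv s (h66_sys g m M Φ H0 H t)) * δ s ∈ maximalIdeal R) :
    ∀ s, δ s ∈ maximalIdeal R := by
  classical
  have hθa := h66_pt_poly g m M ξ0 θ0 0 hθ0
  have hca : ∀ l, h66_pt g m M ξ0 θ0 (0 : Fin M → R) (Sum.inr (Sum.inr l)) = 0 := fun l => rfl
  have key := hT (fun j => δ (Sum.inl j))
    (fun j => h66_poly m fun i' => δ (Sum.inr (Sum.inl (j, i'))))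
    (fun l => δ (Sum.inr (Sum.inr l))) (fun j => h66_poly_degree_lt m _) ?_ ?_
  · obtain ⟨k1, k2, k3⟩ := key
    rintro (j | ⟨j, i⟩ | l)
    · exact k1 j
    · have h := k2 j i
      rwa [h66_poly_coeff_fin] at h
    · exact k3 l
  · intro j i hi
    have h := hδ (Sum.inl (j, ⟨i, hi⟩))
    rw [h66_sys_jac_inl, hθa] at h
    exact h
  · intro j i hi
    have h := hδ (Sum.inr (j, ⟨i, hi⟩))
    rw [h66_sys_jac_inr _ _ _ _ _ _ _ _ hca, hθa] at h
    exact h

end Point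

/-- **(B5c) SYSTEM, uniqueness form.**  Two solutions of the jet system congruent to the base
point `(ξ0, θ0, 0)` modulo the maximal ideal are equal, if the tangent space at the base point
is trivial modulo the maximal ideal. -/
theorem h66_hensel_system_unique {K : Type*} [Field K] (A : ValuationSubring K)
    (g m M : ℕ) (hM : M + g = m * g)
    (Φ H0 : Polynomial (Polynomial A)) (H : Fin M → Polynomial (Polynomial A))
    (ξ0 : Fin g → A) (θ0 : Fin g → Polynomial A) (hθ0 : ∀ j, (θ0 j).degree < m)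
    (hT : ∀ (δξ : Fin g → A) (δθ : Fin g → Polynomial A) (δc : Fin M → A),
      (∀ j, (δθ j).degree < m) →
      (∀ j, ∀ i < m, (C (δξ j) * h15_sub2 (h15_dX Φ) (ξ0 j) (θ0 j) +
          δθ j * h15_sub2 (derivative Φ) (ξ0 j) (θ0 j)).coeff i ∈ maximalIdeal A) →
      (∀ j, ∀ i < m, (C (δξ j) * h15_sub2 (h15_dX H0) (ξ0 j) (θ0 j) +
          δθ j * h15_sub2 (derivative H0) (ξ0 j) (θ0 j) +
          ∑ l, C (δc l) * h15_sub2 (H l) (ξ0 j) (θ0 j)).coeff i ∈ maximalIdeal A) →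
      (∀ j, δξ j ∈ maximalIdeal A) ∧ (∀ j i, (δθ j).coeff i ∈ maximalIdeal A) ∧
        ∀ l, δc l ∈ maximalIdeal A)
    (ξ ξ' : Fin g → A) (θ θ' : Fin g → Polynomial A) (c c' : Fin M → A)
    (hθ : ∀ j, (θ j).degree < m) (hξ : ∀ j, ξ j - ξ0 j ∈ maximalIdeal A)
    (hθc : ∀ j i, (θ j - θ0 j).coeff i ∈ maximalIdeal A) (hc : ∀ l, c l ∈ maximalIdeal A)
    (hΦ : ∀ j, X ^ m ∣ h15_sub2 Φ (ξ j) (θ j))
    (hH : ∀ j, X ^ m ∣ h15_sub2 (H0 + ∑ l, C (C (c l)) * H l) (ξ j) (θ j))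
    (hθ' : ∀ j, (θ' j).degree < m) (hξ' : ∀ j, ξ' j - ξ0 j ∈ maximalIdeal A)
    (hθc' : ∀ j i, (θ' j - θ0 j).coeff i ∈ maximalIdeal A) (hc' : ∀ l, c' l ∈ maximalIdeal A)
    (hΦ' : ∀ j, X ^ m ∣ h15_sub2 Φ (ξ' j) (θ' j))
    (hH' : ∀ j, X ^ m ∣ h15_sub2 (H0 + ∑ l, C (C (c' l)) * H l) (ξ' j) (θ' j)) :
    ξ = ξ' ∧ θ = θ' ∧ c = c' := by
  classical
  have hcard : Fintype.card (Fin g ⊕ ((Fin g × Fin m) ⊕ Fin M)) =
      Fintype.card ((Fin g × Fin m) ⊕ (Fin g × Fin m)) := by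
    simp only [Fintype.card_sum, Fintype.card_prod, Fintype.card_fin]
    have := mul_comm g m
    omega
  let e : Fin g ⊕ ((Fin g × Fin m) ⊕ Fin M) ≃ (Fin g × Fin m) ⊕ (Fin g × Fin m) :=
    Fintype.equivOfCardEq hcard
  set a := h66_pt g m M ξ0 θ0 (0 : Fin M → A) with ha
  set b := h66_pt g m M ξ θ c with hb
  set b' := h66_pt g m M ξ' θ' c' with hb'
  -- congruences
  have hcong : ∀ (ξ₁ : Fin g → A) (θ₁ : Fin g → Polynomial A) (c₁ : Fin M → A),
      (∀ j, ξ₁ j - ξ0 j ∈ maximalIdeal A) → (∀ j i, (θ₁ j - θ0 j).coeff i ∈ maximalIdeal A) →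
      (∀ l, c₁ l ∈ maximalIdeal A) → ∀ s, h66_pt g m M ξ₁ θ₁ c₁ s - a s ∈ maximalIdeal A := by
    intro ξ₁ θ₁ c₁ h1 h2 h3
    rintro (j | ⟨j, i⟩ | l)
    · exact h1 j
    · have h := h2 j i
      rwa [coeff_sub] at h
    · have h := h3 l
      show c₁ l - 0 ∈ maximalIdeal A
      rwa [sub_zero]
  have hba := hcong ξ θ c hξ hθc hc
  have hb'a := hcong ξ' θ' c' hξ' hθc' hc'
  -- zeros
  have hzero : ∀ (ξ₁ : Fin g → A) (θ₁ : Fin g → Polynomial A) (c₁ : Fin M → A),
      (∀ j, (θ₁ j).degree < m) → (∀ j, X ^ m ∣ h15_sub2 Φ (ξ₁ j) (θ₁ j)) →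
      (∀ j, X ^ m ∣ h15_sub2 (H0 + ∑ l, C (C (c₁ l)) * H l) (ξ₁ j) (θ₁ j)) →
      ∀ t, MvPolynomial.eval (h66_pt g m M ξ₁ θ₁ c₁) (h66_sys g m M Φ H0 H t) = 0 := by
    intro ξ₁ θ₁ c₁ h1 h2 h3
    rintro (⟨j, i⟩ | ⟨j, i⟩)
    · rw [h66_sys_eval_pt_inl g m M Φ H0 H ξ₁ θ₁ c₁ h1]
      exact Polynomial.X_pow_dvd_iff.mp (h2 j) i i.2
    · rw [h66_sys_eval_pt_inr g m M Φ H0 H ξ₁ θ₁ c₁ h1]
      exact Polynomial.X_pow_dvd_iff.mp (h3 j) i i.2
  have hb0 := hzero ξ θ c hθ hΦ hH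
  have hb'0 := hzero ξ' θ' c' hθ' hΦ' hH'
  -- unit Jacobian at the base point, hence at `b`
  have hdet_a := h66_isUnit_det_of_ker e (h66_sys g m M Φ H0 H) a
    (h66_sys_ker g m M Φ H0 H ξ0 θ0 hθ0 hT)
  have hdet_b := h82_isUnit_det_congr (fun s => h66_sys g m M Φ H0 H (e s)) a b hba hdet_a
  have hbb' : b = b' := by
    refine h82_hensel_unique (fun s => h66_sys g m M Φ H0 H (e s)) b b' (fun s => hb0 (e s))
      (fun s => hb'0 (e s)) (fun s => ?_) hdet_b
    have h : b' s - b s = (b' s - a s) - (b s - a s) := by ring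
    rw [h]
    exact sub_mem (hb'a s) (hba s)
  refine ⟨funext fun j => congrFun hbb' (Sum.inl j), funext fun j => ?_, funext fun l =>
    congrFun hbb' (Sum.inr (Sum.inr l))⟩
  rw [← h66_pt_poly g m M ξ θ c hθ j, ← h66_pt_poly g m M ξ' θ' c' hθ' j]
  show (h66_poly m fun i' => b (Sum.inr (Sum.inl (j, i')))) =
    h66_poly m fun i' => b' (Sum.inr (Sum.inl (j, i')))
  rw [hbb']

end Fermat.Agent.S27

end
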