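import Fermat.Agent.S27.h68_RRCons

/-!
# S27 / B5g COMPLETE, steps (a) and (b): from a class to points

* `h68_mapDomain_eq_sum` : a nonnegative finitely supported function whose push-forward is a sum
  of distinct points is a sum of distinct points above them;
* `h68_effective_unique` : the only effective divisor in a non-special class;
* `h68_exists_effective_div` : every divisor of degree `≥ g` is linearly equivalent to an
  effective divisor;
* `h68_complete_points` : an effective divisor whose reduction is linearly equivalent to a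
  non-special sum of distinct points is a sum of distinct points above them.
-/

set_option autoImplicit false

open AlgebraicCurve IntermediateField

namespace Fermat.Agent.S27

open Fermat.Agent.S18

section Comb

/-- a nonnegative finitely supported function whose push-forward is a sum of distinct points is
a sum of distinct points above them. -/
theorem h68_mapDomain_eq_sum {P Q : Type*} (r : P → Q) (E : P →₀ ℤ) (hE : 0 ≤ E) {g : ℕ}
    (Tb : Fin g → Q) (hTb : Function.Injective Tb)
    (h : Finsupp.mapDomain r E = ∑ j, Finsupp.single (Tb j) (1 : ℤ)) :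
    ∃ T : Fin g → P, Function.Injective T ∧ (∀ j, r (T j) = Tb j) ∧
      E = ∑ j, Finsupp.single (T j) (1 : ℤ) := by
  classical
  have hEnn : ∀ a, 0 ≤ E a := fun a => Finsupp.le_def.mp hE a
  -- the value of the push-forward
  have hval : ∀ q : Q, Finsupp.mapDomain r E q = ∑ a ∈ E.support, if r a = q then E a else 0 := by
    intro q
    rw [Finsupp.mapDomain, Finsupp.sum, Finsupp.finsetSum_apply]
    refine Finset.sum_congr rfl fun a _ => ?_
    rw [Finsupp.single_apply]
  have hsum : ∀ q : Q, (∑ j, Finsupp.single (Tb j) (1 : ℤ)) q =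
      if q ∈ Set.range Tb then 1 else 0 := by
    intro q
    rw [Finsupp.finsetSum_apply]
    by_cases hq : q ∈ Set.range Tb
    · obtain ⟨j, rfl⟩ := hq
      rw [if_pos (Set.mem_range_self j), Finset.sum_eq_single j]
      · rw [Finsupp.single_eq_same]
      · intro i _ hij
        rw [Finsupp.single_apply, if_neg (fun h' => hij (hTb h'))]
      · intro hj
        exact absurd (Finset.mem_univ j) hj
    · rw [if_neg hq]
      refine Finset.sum_eq_zero fun i _ => ?_
      rw [Finsupp.single_apply, if_neg (fun h' => hq ⟨i, h'⟩)]
  have hkey : ∀ q : Q, (∑ a ∈ E.support, if r a = q then E a else 0) =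
      if q ∈ Set.range Tb then 1 else 0 := by
    intro q
    rw [← hval, h, hsum]
  have hterm : ∀ q : Q, ∀ a ∈ E.support, (0 : ℤ) ≤ if r a = q then E a else 0 := by
    intro q a _
    split_ifs
    · exact hEnn a
    · exact le_rfl
  -- every point of the support lies over some `Tb j`, with coefficient `1`
  have hsupp : ∀ a ∈ E.support, r a ∈ Set.range Tb ∧ E a = 1 := by
    intro a ha
    have hpos : 0 < E a := lt_of_le_of_ne (hEnn a) (Ne.symm (Finsupp.mem_support_iff.mp ha))
    have h1 := Finset.single_le_sum (hterm (r a)) ha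
    rw [if_pos rfl, hkey] at h1
    by_cases hq : r a ∈ Set.range Tb
    · rw [if_pos hq] at h1
      exact ⟨hq, by omega⟩
    · rw [if_neg hq] at h1
      omega
  -- over each `Tb j` there is a point of the support
  have hex : ∀ j : Fin g, ∃ a ∈ E.support, r a = Tb j := by
    intro j
    by_contra hno
    have h0 : (∑ a ∈ E.support, if r a = Tb j then E a else 0) = 0 := by
      refine Finset.sum_eq_zero fun a ha => ?_
      rw [if_neg (fun h' => hno ⟨a, ha, h'⟩)]
    rw [hkey, if_pos (Set.mem_range_self j)] at h0
    omega
  choose T hT1 hT2 using hex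
  have hTinj : Function.Injective T := fun i j hij => hTb (by rw [← hT2 i, ← hT2 j, hij])
  -- uniqueness of the point over `Tb j`
  have huniq : ∀ a ∈ E.support, ∀ j, r a = Tb j → a = T j := by
    intro a ha j haj
    by_contra hne
    have h2 : (∑ b ∈ ({a, T j} : Finset P), if r b = Tb j then E b else 0) ≤
        ∑ b ∈ E.support, if r b = Tb j then E b else 0 := by
      refine Finset.sum_le_sum_of_subset_of_nonneg ?_ (fun b hb _ => hterm (Tb j) b hb)
      intro b hb
      rw [Finset.mem_insert, Finset.mem_singleton] at hb
      rcases hb with rfl | rfl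
      · exact ha
      · exact hT1 j
    rw [hkey, if_pos (Set.mem_range_self j), Finset.sum_pair hne, if_pos haj, if_pos (hT2 j),
      (hsupp a ha).2, (hsupp (T j) (hT1 j)).2] at h2
    omega
  refine ⟨T, hTinj, hT2, ?_⟩
  ext a
  rw [Finsupp.finsetSum_apply]
  by_cases ha : a ∈ E.support
  · obtain ⟨⟨j, hj⟩, h1⟩ := hsupp a ha
    have haj : a = T j := huniq a ha j hj.symm
    rw [h1, Finset.sum_eq_single j]
    · rw [haj, Finsupp.single_eq_same]
    · intro i _ hij
      rw [Finsupp.single_apply, if_neg]
      intro h'
      exact hij (hTinj (h'.trans haj))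
    · intro hj'
      exact absurd (Finset.mem_univ j) hj'
  · rw [Finsupp.notMem_support_iff.mp ha]
    symm
    refine Finset.sum_eq_zero fun i _ => ?_
    rw [Finsupp.single_apply, if_neg]
    intro h'
    exact ha (h' ▸ hT1 i)

end Comb

variable {K F : Type*} [Field K] [Field F] [Algebra K F]

section RR

variable [IsAlgClosed K]

/-- the only effective divisor in a non-special class. -/
theorem h68_effective_unique {x : F} (hx : h75_IsChart K x) {D₀ E : Divisor K F} (hD₀ : 0 ≤ D₀)
    (hl : Module.finrank K ↥(riemannRochSpace D₀) = 1) (hE : 0 ≤ E)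
    (hlin : E - D₀ ∈ Divisor.principal (K := K) (F := F)) : E = D₀ := by
  obtain ⟨φ, hφ0, hφ⟩ := hlin
  have hmem : φ ∈ riemannRochSpace D₀ := by
    rw [mem_riemannRochSpace_iff]
    intro v
    right
    have h1 := hφ v
    have h2 := Finsupp.le_def.mp hE v
    rw [Finsupp.sub_apply] at h1
    simp only [Finsupp.coe_zero, Pi.zero_apply] at h2
    omega
  rw [h68_rr_eq_span_one hx D₀ hD₀ hl, Submodule.mem_span_singleton] at hmem
  obtain ⟨c, hc⟩ := hmem
  ext v
  have h1 := hφ v
  rw [Finsupp.sub_apply, ← hc, Algebra.smul_def, mul_one,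
    Fermat.Agent.S24.h35_ord_algebraMap] at h1
  omega

/-- every divisor of degree `≥ g` is linearly equivalent to an effective divisor. -/
theorem h68_exists_effective_div {x : F} (hx : h75_IsChart K x) (D : Divisor K F)
    (hD : (h75_genus K x : ℤ) ≤ Divisor.degree D) :
    ∃ E : Divisor K F, 0 ≤ E ∧ E - D ∈ Divisor.principal (K := K) (F := F) := by
  obtain ⟨f, hf0, hf⟩ := h68_exists_effective hx D hD
  obtain ⟨Df, hDf⟩ := h7_exists_div hx f hf0
  refine ⟨D + Df, ?_, f, hf0, fun v => ?_⟩
  · rw [Finsupp.le_def]
    intro v
    rw [Finsupp.add_apply, hDf]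
    simpa using hf v
  · rw [add_sub_cancel_left, hDf]

end RR

section Points

variable {k Fb : Type*} [Field k] [Field Fb] [Algebra k Fb] [IsAlgClosed k]

/-- **COMPLETE, step (b)**: an effective divisor whose reduction is linearly equivalent to a
non-special sum of distinct points is a sum of distinct points above them. -/
theorem h68_complete_points {xb : Fb} (hxb : h75_IsChart k xb) (r0 : Place K F → Place k Fb)
    (E : Divisor K F) (hE : 0 ≤ E) {g : ℕ} (Tb : Fin g → Place k Fb)
    (hTb : Function.Injective Tb)
    (hl : Module.finrank k ↥(riemannRochSpace (∑ j, Finsupp.single (Tb j) (1 : ℤ))) = 1)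
    (hlin : Finsupp.mapDomain r0 E - ∑ j, Finsupp.single (Tb j) (1 : ℤ) ∈
      Divisor.principal (K := k) (F := Fb)) :
    ∃ T : Fin g → Place K F, Function.Injective T ∧ (∀ j, r0 (T j) = Tb j) ∧
      E = ∑ j, Finsupp.single (T j) (1 : ℤ) := by
  classical
  have h0 : (0 : Divisor k Fb) ≤ ∑ j, Finsupp.single (Tb j) (1 : ℤ) :=
    Finset.sum_nonneg fun j _ => by
      rw [Finsupp.le_def]
      intro v
      rw [Finsupp.single_apply]
      split_ifs <;> simp
  have h1 : (0 : Divisor k Fb) ≤ Finsupp.mapDomain r0 E := by
    rw [Finsupp.le_def]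
    intro q
    rw [Finsupp.mapDomain, Finsupp.sum, Finsupp.finsetSum_apply]
    refine Finset.sum_nonneg fun a _ => ?_
    rw [Finsupp.single_apply]
    split_ifs
    · exact Finsupp.le_def.mp hE a
    · exact le_rfl
  have h2 := h68_effective_unique hxb h0 hl h1 hlin
  exact h68_mapDomain_eq_sum r0 E hE Tb hTb h2

end Points

end Fermat.Agent.S27
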