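import Fermat.Agent.S18.RR_Large

/-!
# S27 / RR-FULL (row 479, core): canonical divisor and full Riemann–Roch, any characteristic

`K` algebraically closed, `F / K` a function field with a chart `x` (`h75_IsChart K x`),
`g = h75_genus K x`.  From RR-B7 (`h75_dual`: `h¹(D) = dim Ω(x, D)`, where `Ω(x, D) ⊆ F` is the
space of `w` with `Tr(w M_x(D)) ⊆ K[x]`, `Tr(w M_{1/x}(D)) ⊆ x⁻² K[x⁻¹]`) we get the canonical
divisor:

* `h68_chart_sup` : `M_t(D₁ ⊔ D₂) ≤ M_t(D₁) ⊔ M_t(D₂)` (partition of unity in the Dedekind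
  domain of the chart, Chinese remainder theorem);
* `h68_Omega_anti`, `h68_Omega_mul` (`f · Ω(x, D) = Ω(x, D + div f)`), `h68_Omega_sup`;
* `h68_exists_largest` : a nonzero `w₀ ∈ Ω(x, D₀)` has a largest divisor `W` with
  `w₀ ∈ Ω(x, W)` (uses RR-B8 `h75_Omega_eq_bot`);
* `h68_Omega_eq` : `Ω(x, D) = w₀ · L(W - D)`;
* `h68_IsCanonical`, `h68_exists_canonical` : `l(D) = deg D + 1 - g + l(W - D)`;
* `h68_canonical_degree`, `h68_canonical_finrank`, `h68_finrank_rr_of_deg`,
  `h68_canonical_unique`.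
-/

set_option autoImplicit false

open AlgebraicCurve IntermediateField IsDedekindDomain WithZero

namespace Fermat.Agent.S27

open Fermat.Agent.S18
open Fermat.Agent.S24 (h24_ofHeightOneSpectrum_ord h24_exists_heightOneSpectrum
  h24_ofHeightOneSpectrum_injective)

section Dedekind

variable {R : Type*} [CommRing R] [IsDedekindDomain R]
variable {F : Type*} [Field F] [Algebra R F] [IsFractionRing R F]

/-- A partition of unity in a Dedekind domain: `u ≡ 0` to order `N` on `S₁`, `u ≡ 1` to order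
`N` on `S₂`. -/
theorem h68_exists_partition (S₁ S₂ : Finset (HeightOneSpectrum R)) (N : ℕ) :
    ∃ u : R, (∀ w ∈ S₁, w.valuation F (algebraMap R F u) ≤ exp (-(N : ℤ))) ∧
      (∀ w ∈ S₂, w ∉ S₁ → w.valuation F (algebraMap R F (1 - u)) ≤ exp (-(N : ℤ))) := by
  classical
  obtain ⟨y, hy⟩ := IsDedekindDomain.exists_forall_sub_mem_ideal (s := S₁ ∪ S₂)
    (fun w : HeightOneSpectrum R => w.asIdeal) (fun _ => N) (fun w _ => w.prime)
    (fun w _ w' _ hne h => hne (HeightOneSpectrum.ext h))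
    (fun i => if (i : HeightOneSpectrum R) ∈ S₁ then 0 else 1)
  refine ⟨y, fun w hw => ?_, fun w hw hw' => ?_⟩
  · have h := hy w (Finset.mem_union_left _ hw)
    simp only [if_pos hw, sub_zero] at h
    rw [HeightOneSpectrum.valuation_of_algebraMap, HeightOneSpectrum.intValuation_le_pow_iff_mem]
    exact h
  · have h := hy w (Finset.mem_union_right _ hw)
    simp only [if_neg hw'] at h
    rw [HeightOneSpectrum.valuation_of_algebraMap, HeightOneSpectrum.intValuation_le_pow_iff_mem]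
    have h2 := neg_mem h
    rwa [neg_sub] at h2

end Dedekind

section Chart

open scoped IntermediateField.algebraAdjoinAdjoin

variable {K F : Type*} [Field K] [Field F] [Algebra K F]

/-- A partition of unity on a chart. -/
theorem h68_exists_chart_partition {t : F} (ht : h75_IsChart K t) (S₁ S₂ : Finset (Place K F))
    (N : ℕ) :
    ∃ u : F, (∀ P : Place K F, t ∈ P.toValuationSubring → u ∈ P.toValuationSubring) ∧
      (∀ P ∈ S₁, t ∈ P.toValuationSubring → P.adicValuation u ≤ exp (-(N : ℤ))) ∧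
      (∀ P ∈ S₂, P ∉ S₁ → t ∈ P.toValuationSubring →
        P.adicValuation (1 - u) ≤ exp (-(N : ℤ))) := by
  classical
  have := h75_ringB_isDedekindDomain ht
  have := h75_ringB_isFractionRing ht
  have hinj : Function.Injective
      (Place.ofHeightOneSpectrum (K := K) (F := F) (R := h75_ringB K t)) :=
    h24_ofHeightOneSpectrum_injective
  let S₁' : Finset (HeightOneSpectrum (h75_ringB K t)) :=
    S₁.preimage (Place.ofHeightOneSpectrum (K := K) (F := F) (R := h75_ringB K t)) hinj.injOn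
  let S₂' : Finset (HeightOneSpectrum (h75_ringB K t)) :=
    S₂.preimage (Place.ofHeightOneSpectrum (K := K) (F := F) (R := h75_ringB K t)) hinj.injOn
  obtain ⟨u, hu1, hu2⟩ := h68_exists_partition (F := F) S₁' S₂' N
  have hkey : ∀ (w : HeightOneSpectrum (h75_ringB K t)) (f : F),
      w.valuation F f ≤ exp (-(N : ℤ)) →
      (Place.ofHeightOneSpectrum (K := K) (F := F) w).adicValuation f ≤ exp (-(N : ℤ)) := by
    intro w f hf
    rw [Place.adicValuation_le_exp_iff]
    rcases eq_or_ne f 0 with rfl | hf0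
    · exact Or.inl rfl
    · right
      rw [h24_ofHeightOneSpectrum_ord]
      have hne : w.valuation F f ≠ 0 := (Valuation.ne_zero_iff _).mpr hf0
      rw [← exp_log hne, exp_le_exp] at hf
      omega
  refine ⟨(u : F), fun P hP => h75_ringB_le P hP u, fun P hP hPt => ?_, fun P hP hP' hPt => ?_⟩
  · obtain ⟨w, rfl⟩ := h75_exists_heightOneSpectrum P hPt
    exact hkey w _ (hu1 w (Finset.mem_preimage.mpr hP))
  · obtain ⟨w, rfl⟩ := h75_exists_heightOneSpectrum P hPt
    have h := hu2 w (Finset.mem_preimage.mpr hP) (fun h => hP' (Finset.mem_preimage.mp h))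
    exact hkey w _ (by simpa using h)


/-- **lcm-closure on a chart**: `M_t(D₁ ⊔ D₂) ≤ M_t(D₁) + M_t(D₂)`. -/
theorem h68_chart_sup {t : F} (ht : h75_IsChart K t) (D₁ D₂ : Divisor K F) :
    h75_chart t (D₁ ⊔ D₂) ≤ h75_chart t D₁ ⊔ h75_chart t D₂ := by
  classical
  intro f hf
  let S₁ : Finset (Place K F) := (D₁ - D₂).support.filter (fun P => D₁ P < D₂ P)
  let S₂ : Finset (Place K F) := (D₁ - D₂).support.filter (fun P => D₂ P < D₁ P)
  obtain ⟨N, hN⟩ : ∃ N : ℕ, ∀ P : Place K F, |D₁ P - D₂ P| ≤ (N : ℤ) := by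
    refine ⟨∑ P ∈ (D₁ - D₂).support, (D₁ P - D₂ P).natAbs, fun P => ?_⟩
    by_cases hP : P ∈ (D₁ - D₂).support
    · have h1 := Finset.single_le_sum (f := fun P : Place K F => (D₁ P - D₂ P).natAbs)
        (fun _ _ => Nat.zero_le _) hP
      have h2 : |D₁ P - D₂ P| = ((D₁ P - D₂ P).natAbs : ℤ) := Int.abs_eq_natAbs _
      rw [h2]
      exact_mod_cast h1
    · rw [Finsupp.notMem_support_iff, Finsupp.sub_apply] at hP
      rw [hP, abs_zero]
      exact Int.natCast_nonneg _
  have hmem₁ : ∀ P : Place K F, D₁ P < D₂ P → P ∈ S₁ := by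
    intro P h
    refine Finset.mem_filter.mpr ⟨Finsupp.mem_support_iff.mpr ?_, h⟩
    rw [Finsupp.sub_apply]
    omega
  have hmem₂ : ∀ P : Place K F, D₂ P < D₁ P → P ∈ S₂ ∧ P ∉ S₁ := by
    intro P h
    refine ⟨Finset.mem_filter.mpr ⟨Finsupp.mem_support_iff.mpr ?_, h⟩, fun h' => ?_⟩
    · rw [Finsupp.sub_apply]
      omega
    · have := (Finset.mem_filter.mp h').2
      omega
  obtain ⟨u, hu0, hu1, hu2⟩ := h68_exists_chart_partition ht S₁ S₂ N
  rw [Submodule.mem_sup]
  refine ⟨u * f, ?_, (1 - u) * f, ?_, by ring⟩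
  · intro P hP
    have hfP : P.adicValuation f ≤ exp (D₁ P ⊔ D₂ P) := hf P hP
    rw [map_mul]
    by_cases h : D₁ P < D₂ P
    · have h1 := hu1 P (hmem₁ P h) hP
      rw [sup_eq_right.mpr h.le] at hfP
      calc P.adicValuation u * P.adicValuation f ≤ exp (-(N : ℤ)) * exp (D₂ P) :=
            mul_le_mul' h1 hfP
        _ = exp (-(N : ℤ) + D₂ P) := (exp_add _ _).symm
        _ ≤ exp (D₁ P) := exp_le_exp.mpr (by
            have := abs_le.mp (hN P)
            omega)
    · rw [sup_eq_left.mpr (not_lt.mp h)] at hfP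
      exact (mul_le_of_le_one_left' (P.adicValuation_le_one_of_mem (hu0 P hP))).trans hfP
  · intro P hP
    have hfP : P.adicValuation f ≤ exp (D₁ P ⊔ D₂ P) := hf P hP
    rw [map_mul]
    by_cases h : D₂ P < D₁ P
    · have h1 := hu2 P (hmem₂ P h).1 (hmem₂ P h).2 hP
      rw [sup_eq_left.mpr h.le] at hfP
      calc P.adicValuation (1 - u) * P.adicValuation f ≤ exp (-(N : ℤ)) * exp (D₁ P) :=
            mul_le_mul' h1 hfP
        _ = exp (-(N : ℤ) + D₁ P) := (exp_add _ _).symm
        _ ≤ exp (D₂ P) := exp_le_exp.mpr (by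
            have := abs_le.mp (hN P)
            omega)
    · rw [sup_eq_right.mpr (not_lt.mp h)] at hfP
      have h1 : (1 - u) ∈ P.toValuationSubring :=
        sub_mem P.toValuationSubring.one_mem (hu0 P hP)
      exact (mul_le_of_le_one_left' (P.adicValuation_le_one_of_mem h1)).trans hfP

end Chart

section Omega

variable {K F : Type*} [Field K] [Field F] [Algebra K F]

theorem h68_mem_Omega {x : F} {D : Divisor K F} {w : F} :
    w ∈ h75_Omega x D ↔
      (∀ m ∈ h75_chart x D, Algebra.trace K⟮x⟯ F (w * m) ∈ h75_poly K x) ∧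
      (∀ l ∈ h75_chart x⁻¹ D,
        AdjoinSimple.gen K x ^ 2 * Algebra.trace K⟮x⟯ F (w * l) ∈ h75_polyInv K x) :=
  Iff.rfl

/-- `Ω(x, ·)` is antitone. -/
theorem h68_Omega_anti (x : F) {D D' : Divisor K F} (h : D ≤ D') :
    h75_Omega x D' ≤ h75_Omega x D := by
  rintro w ⟨h1, h2⟩
  exact ⟨fun m hm => h1 m (h75_chart_mono x h hm), fun l hl => h2 l (h75_chart_mono x⁻¹ h hl)⟩

theorem h68_mul_mem_chart_iff {f : F} (hf : f ≠ 0) (Df : Divisor K F)
    (hDf : ∀ v : Place K F, Df v = v.ord f) (t : F) (D : Divisor K F) (g : F) :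
    f * g ∈ h75_chart t D ↔ g ∈ h75_chart t (D + Df) := by
  have h := h7_mul_mem_chart_iff hf Df hDf t (D + Df) g
  rwa [add_sub_cancel_right] at h

/-- **twisting**: `f · Ω(x, D) = Ω(x, D + div f)`. -/
theorem h68_Omega_mul {f : F} (hf : f ≠ 0) (Df : Divisor K F)
    (hDf : ∀ v : Place K F, Df v = v.ord f) (x : F) (D : Divisor K F) (w : F) :
    f * w ∈ h75_Omega x (D + Df) ↔ w ∈ h75_Omega x D := by
  constructor
  · rintro ⟨h1, h2⟩
    refine ⟨fun m hm => ?_, fun l hl => ?_⟩
    · have hm' : f⁻¹ * m ∈ h75_chart x (D + Df) := by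
        rw [← h68_mul_mem_chart_iff hf Df hDf, mul_inv_cancel_left₀ hf]
        exact hm
      have := h1 _ hm'
      rwa [show f * w * (f⁻¹ * m) = w * m by field_simp] at this
    · have hl' : f⁻¹ * l ∈ h75_chart x⁻¹ (D + Df) := by
        rw [← h68_mul_mem_chart_iff hf Df hDf, mul_inv_cancel_left₀ hf]
        exact hl
      have := h2 _ hl'
      rwa [show f * w * (f⁻¹ * l) = w * l by field_simp] at this
  · rintro ⟨h1, h2⟩
    refine ⟨fun m hm => ?_, fun l hl => ?_⟩
    · have := h1 _ ((h68_mul_mem_chart_iff hf Df hDf x D m).mpr hm)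
      rwa [show w * (f * m) = f * w * m by ring] at this
    · have := h2 _ ((h68_mul_mem_chart_iff hf Df hDf x⁻¹ D l).mpr hl)
      rwa [show w * (f * l) = f * w * l by ring] at this

/-- **lcm-closure of `Ω`**. -/
theorem h68_Omega_sup {x : F} (hx : h75_IsChart K x) (D₁ D₂ : Divisor K F) :
    h75_Omega x D₁ ⊓ h75_Omega x D₂ ≤ h75_Omega x (D₁ ⊔ D₂) := by
  rintro w ⟨⟨h1, h1'⟩, ⟨h2, h2'⟩⟩
  refine ⟨fun m hm => ?_, fun l hl => ?_⟩
  · obtain ⟨m₁, hm₁, m₂, hm₂, rfl⟩ := Submodule.mem_sup.mp (h68_chart_sup hx D₁ D₂ hm)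
    rw [mul_add, map_add]
    exact add_mem (h1 m₁ hm₁) (h2 m₂ hm₂)
  · obtain ⟨l₁, hl₁, l₂, hl₂, rfl⟩ :=
      Submodule.mem_sup.mp (h68_chart_sup (h75_isChart_inv hx) D₁ D₂ hl)
    rw [mul_add, map_add, mul_add]
    exact add_mem (h1' l₁ hl₁) (h2' l₂ hl₂)

variable [IsAlgClosed K]

/-- `dim Ω(x, D) = l(D) - deg D - 1 + g`. -/
theorem h68_finrank_Omega {x : F} (hx : h75_IsChart K x) (D : Divisor K F) :
    (Module.finrank K ↥(h75_Omega x D) : ℤ) =
      (Module.finrank K ↥(riemannRochSpace D) : ℤ) - Divisor.degree D - 1 +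
        (h75_genus K x : ℤ) := by
  have h1 := (h75_dual hx D).2
  have h2 := h75_chiD_eq hx D
  rw [h75_chiD_zero hx] at h2
  unfold h75_chiD h75_chi at h2
  rw [← h75_rrSpace_eq x D, ← h1] at h2
  linarith

/-- a nonzero "differential". -/
theorem h68_exists_Omega_ne_zero {x : F} (hx : h75_IsChart K x) :
    ∃ (D₀ : Divisor K F) (w₀ : F), w₀ ≠ 0 ∧ w₀ ∈ h75_Omega x D₀ := by
  obtain ⟨P⟩ := h7_exists_place hx
  have hdeg : Divisor.degree (Finsupp.single P (-2) : Divisor K F) = -2 := by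
    rw [Divisor.degree_single, h75_deg_eq_one hx P]
    simp
  have hfr := h68_finrank_Omega hx (Finsupp.single P (-2) : Divisor K F)
  have hpos : 0 < Module.finrank K ↥(h75_Omega x (Finsupp.single P (-2) : Divisor K F)) := by
    have h1 : (0 : ℤ) ≤
        (Module.finrank K ↥(riemannRochSpace (Finsupp.single P (-2) : Divisor K F)) : ℤ) :=
      Int.natCast_nonneg _
    have h2 : (0 : ℤ) ≤ (h75_genus K x : ℤ) := Int.natCast_nonneg _
    omega
  have := (h75_dual hx (Finsupp.single P (-2) : Divisor K F)).1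
  obtain ⟨w, hw⟩ := Module.finrank_pos_iff_exists_ne_zero.mp hpos
  exact ⟨_, w, fun h => hw (Subtype.ext h), w.2⟩

/-- every nonzero "differential" has a largest divisor. -/
theorem h68_exists_largest {x : F} (hx : h75_IsChart K x) {w₀ : F} (hw₀ : w₀ ≠ 0)
    {D₀ : Divisor K F} (h₀ : w₀ ∈ h75_Omega x D₀) :
    ∃ W : Divisor K F, w₀ ∈ h75_Omega x W ∧
      ∀ E : Divisor K F, w₀ ∈ h75_Omega x E → E ≤ W := by
  obtain ⟨c, hc⟩ := h75_Omega_eq_bot hx
  obtain ⟨d, ⟨W, hW, hWd⟩, hmax⟩ := Int.exists_greatest_of_bdd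
    (P := fun d => ∃ E : Divisor K F, w₀ ∈ h75_Omega x E ∧ Divisor.degree E = d)
    ⟨c, by
      rintro z ⟨E, hE, hEz⟩
      by_contra hlt
      have := hc E (by omega)
      rw [this, Submodule.mem_bot] at hE
      exact hw₀ hE⟩ ⟨_, D₀, h₀, rfl⟩
  refine ⟨W, hW, fun E hE => ?_⟩
  have hsup : w₀ ∈ h75_Omega x (E ⊔ W) := h68_Omega_sup hx E W ⟨hE, hW⟩
  have hle := hmax _ ⟨E ⊔ W, hsup, rfl⟩
  by_contra hnot
  rw [Finsupp.le_def] at hnot
  simp only [not_forall, not_le] at hnot
  obtain ⟨Q, hQ⟩ := hnot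
  have hpos := h7_degree_pos hx (E ⊔ W - W) (fun v => by
    rw [Finsupp.sub_apply, Finsupp.sup_apply]
    have := le_sup_right (a := E v) (b := W v)
    omega) Q (by
    rw [Finsupp.sub_apply, Finsupp.sup_apply]
    have := le_sup_left (a := E Q) (b := W Q)
    omega)
  rw [map_sub] at hpos
  omega

/-- `Ω(x, D) = w₀ · L(W - D)`. -/
theorem h68_Omega_eq {x : F} (hx : h75_IsChart K x) {w₀ : F} (hw₀ : w₀ ≠ 0) {W : Divisor K F}
    (hW : w₀ ∈ h75_Omega x W) (hmax : ∀ E : Divisor K F, w₀ ∈ h75_Omega x E → E ≤ W)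
    (D : Divisor K F) :
    h75_Omega x D =
      (riemannRochSpace (W - D)).map ((h75_mulEquiv K w₀ hw₀ : F ≃ₗ[K] F) : F →ₗ[K] F) := by
  ext w
  rw [Submodule.mem_map]
  constructor
  · intro hw
    refine ⟨w₀⁻¹ * w, ?_, ?_⟩
    · rcases eq_or_ne w 0 with rfl | hw0
      · simp
      · have hf0 : w₀⁻¹ * w ≠ 0 := mul_ne_zero (inv_ne_zero hw₀) hw0
        obtain ⟨Df, hDf⟩ := h7_exists_div hx (w₀⁻¹ * w) hf0
        have h1 : w₀ ∈ h75_Omega x (D - Df) := by
          rw [← h68_Omega_mul hf0 Df hDf x (D - Df) w₀, sub_add_cancel]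
          have : w₀⁻¹ * w * w₀ = w := by field_simp
          rwa [this]
        have h2 := Finsupp.le_def.mp (hmax _ h1)
        rw [mem_riemannRochSpace_iff]
        intro v
        right
        have := h2 v
        rw [Finsupp.sub_apply, hDf] at this
        rw [Finsupp.sub_apply]
        omega
    · show w₀ * (w₀⁻¹ * w) = w
      exact mul_inv_cancel_left₀ hw₀ w
  · rintro ⟨f, hf, rfl⟩
    show w₀ * f ∈ h75_Omega x D
    rcases eq_or_ne f 0 with rfl | hf0
    · simp
    · obtain ⟨Df, hDf⟩ := h7_exists_div hx f hf0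
      have h1 : f * w₀ ∈ h75_Omega x (W + Df) := (h68_Omega_mul hf0 Df hDf x W w₀).mpr hW
      rw [mul_comm]
      refine h68_Omega_anti x ?_ h1
      rw [Finsupp.le_def]
      intro v
      rw [Finsupp.add_apply, hDf]
      rcases (mem_riemannRochSpace_iff.mp hf) v with h | h
      · exact absurd h hf0
      · rw [Finsupp.sub_apply] at h
        omega

/-! ### The canonical divisor -/

/-- `W` is a canonical divisor: the full Riemann–Roch formula holds with `W`. -/
def h68_IsCanonical (x : F) (W : Divisor K F) : Prop :=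
  ∀ D : Divisor K F, (Module.finrank K ↥(riemannRochSpace D) : ℤ) =
    Divisor.degree D + 1 - (h75_genus K x : ℤ) +
      (Module.finrank K ↥(riemannRochSpace (W - D)) : ℤ)

/-- **Riemann–Roch** (any characteristic): a canonical divisor exists. -/
theorem h68_exists_canonical {x : F} (hx : h75_IsChart K x) :
    ∃ W : Divisor K F, h68_IsCanonical x W := by
  obtain ⟨D₀, w₀, hw₀, h₀⟩ := h68_exists_Omega_ne_zero hx
  obtain ⟨W, hW, hmax⟩ := h68_exists_largest hx hw₀ h₀
  refine ⟨W, fun D => ?_⟩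
  have h1 := h68_finrank_Omega hx D
  have h2 : Module.finrank K ↥(h75_Omega x D) =
      Module.finrank K ↥(riemannRochSpace (W - D)) := by
    rw [h68_Omega_eq hx hw₀ hW hmax D]
    exact LinearEquiv.finrank_map_eq (h75_mulEquiv K w₀ hw₀) _
  rw [h2] at h1
  linarith

theorem h68_canonical_finrank {x : F} (hx : h75_IsChart K x) {W : Divisor K F}
    (hW : h68_IsCanonical x W) :
    Module.finrank K ↥(riemannRochSpace W) = h75_genus K x := by
  have h := hW 0
  rw [sub_zero, h75_finrank_rr_zero hx, map_zero] at h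
  have h' : (Module.finrank K ↥(riemannRochSpace W) : ℤ) = (h75_genus K x : ℤ) := by
    push_cast at h
    linarith
  exact_mod_cast h'

theorem h68_canonical_degree {x : F} (hx : h75_IsChart K x) {W : Divisor K F}
    (hW : h68_IsCanonical x W) :
    Divisor.degree W = 2 * (h75_genus K x : ℤ) - 2 := by
  have h := hW W
  rw [sub_self, h75_finrank_rr_zero hx, h68_canonical_finrank hx hW] at h
  push_cast at h
  linarith

/-- Riemann–Roch for `deg D > 2g - 2`. -/
theorem h68_finrank_rr_of_deg {x : F} (hx : h75_IsChart K x) (D : Divisor K F)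
    (hD : 2 * (h75_genus K x : ℤ) - 2 < Divisor.degree D) :
    (Module.finrank K ↥(riemannRochSpace D) : ℤ) =
      Divisor.degree D + 1 - (h75_genus K x : ℤ) := by
  obtain ⟨W, hW⟩ := h68_exists_canonical hx
  have h := hW D
  have hbot : riemannRochSpace (W - D) = ⊥ :=
    h75_rr_eq_bot_of_neg hx _ (by
      rw [map_sub, h68_canonical_degree hx hW]
      linarith)
  rw [hbot, finrank_bot] at h
  simpa using h

/-- two canonical divisors are linearly equivalent. -/
theorem h68_canonical_unique {x : F} (hx : h75_IsChart K x) {W W' : Divisor K F}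
    (hW : h68_IsCanonical x W) (hW' : h68_IsCanonical x W') :
    ∃ f : F, f ≠ 0 ∧ ∀ P : Place K F, W P - W' P = P.ord f := by
  have h := hW W'
  rw [h68_canonical_finrank hx hW', h68_canonical_degree hx hW'] at h
  have h1 : 0 < Module.finrank K ↥(riemannRochSpace (W - W')) := by
    have : (0 : ℤ) < (Module.finrank K ↥(riemannRochSpace (W - W')) : ℤ) := by linarith
    exact_mod_cast this
  have hfin := (h75_riemann hx (W - W')).1
  obtain ⟨g, hg⟩ := Module.finrank_pos_iff_exists_ne_zero.mp h1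
  have hg0 : (g : F) ≠ 0 := fun h => hg (Subtype.ext h)
  obtain ⟨Dg, hDg⟩ := h7_exists_div hx (g : F) hg0
  have hdeg := h7_degree_div hx hg0 Dg hDg
  have hE : ∀ v, 0 ≤ (Dg + (W - W')) v := fun v => by
    rw [Finsupp.add_apply, hDg]
    rcases (mem_riemannRochSpace_iff.mp g.2) v with h | h
    · exact absurd h hg0
    · linarith
  have hEdeg : Divisor.degree (Dg + (W - W')) = 0 := by
    rw [map_add, map_sub, hdeg, h68_canonical_degree hx hW, h68_canonical_degree hx hW']
    ring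
  have hE0 : ∀ v, (Dg + (W - W')) v = 0 := by
    intro v
    by_contra hne
    have := h7_degree_pos hx _ hE v (lt_of_le_of_ne (hE v) (Ne.symm hne))
    omega
  refine ⟨(g : F)⁻¹, inv_ne_zero hg0, fun P => ?_⟩
  have := hE0 P
  rw [Finsupp.add_apply, hDg, Finsupp.sub_apply] at this
  rw [Place.ord_inv]
  linarith

end Omega

end Fermat.Agent.S27
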