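import Fermat.Agent.S18.RR_Large

/-!
# S27: strong approximation with principal parts on an affine chart

* `h68_dedekind_approx` : in the fraction field `F` of a Dedekind domain `R`, for finitely many
  primes `w ∈ S` and targets `a w ∈ F` there is `f ∈ F` which is `N`-close to `a w` at every
  `w ∈ S` and integral at all other primes (Chinese remainder theorem with a common
  denominator);
* `h68_strong_approx` : the same on a chart `t` of a function field, in the language of places.
-/

set_option autoImplicit false

open AlgebraicCurve IntermediateField IsDedekindDomain WithZero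

namespace Fermat.Agent.S27

open Fermat.Agent.S18
open Fermat.Agent.S24 (h24_ofHeightOneSpectrum_ord h24_exists_heightOneSpectrum
  h24_ofHeightOneSpectrum_injective)

section Dedekind

variable {R : Type*} [CommRing R] [IsDedekindDomain R]
variable {F : Type*} [Field F] [Algebra R F] [IsFractionRing R F]

/-- **Strong approximation with principal parts** in the fraction field of a Dedekind domain. -/
theorem h68_dedekind_approx (S : Finset (HeightOneSpectrum R)) (a : HeightOneSpectrum R → F)
    (N : ℕ) :
    ∃ f : F, (∀ w ∈ S, w.valuation F (f - a w) ≤ exp (-(N : ℤ))) ∧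
      ∀ w : HeightOneSpectrum R, w ∉ S → w.valuation F f ≤ 1 := by
  classical
  -- a common denominator
  obtain ⟨⟨z, hzmem⟩, hzint⟩ := IsLocalization.exist_integer_multiples_of_finset
    (nonZeroDivisors R) (S.image a)
  have hz0 : z ≠ 0 := nonZeroDivisors.ne_zero hzmem
  have hr : ∀ w : HeightOneSpectrum R, ∃ r : R, w ∈ S → algebraMap R F r = algebraMap R F z * a w := by
    intro w
    by_cases hw : w ∈ S
    · obtain ⟨r, hr⟩ := hzint (a w) (Finset.mem_image_of_mem a hw)
      refine ⟨r, fun _ => ?_⟩
      rw [hr, Algebra.smul_def]
    · exact ⟨0, fun h => absurd h hw⟩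
  choose r hr using hr
  have hzval : ∀ w : HeightOneSpectrum R,
      w.intValuation z = exp (-(((-(log (w.intValuation z))).toNat : ℕ) : ℤ)) := by
    intro w
    have hne : w.intValuation z ≠ 0 := w.intValuation_ne_zero z hz0
    have hle : w.intValuation z ≤ 1 := w.intValuation_le_one z
    have hlog : log (w.intValuation z) ≤ 0 := by
      rw [← exp_log hne, ← exp_zero, exp_le_exp] at hle
      exact hle
    conv_lhs => rw [← exp_log hne]
    rw [exp_inj]
    omega
  set c : HeightOneSpectrum R → ℕ := fun w => (-(log (w.intValuation z))).toNat with hc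
  have hspan : (Ideal.span {z} : Ideal R) ≠ 0 := by
    rw [Ne, Ideal.zero_eq_bot, Ideal.span_singleton_eq_bot]
    exact hz0
  set T : Finset (HeightOneSpectrum R) := (Ideal.finite_factors hspan).toFinset with hT
  obtain ⟨y, hy⟩ := IsDedekindDomain.exists_forall_sub_mem_ideal (s := S ∪ T)
    (fun w : HeightOneSpectrum R => w.asIdeal) (fun w => N + c w) (fun w _ => w.prime)
    (fun w _ w' _ hne h => hne (HeightOneSpectrum.ext h))
    (fun i => if (i : HeightOneSpectrum R) ∈ S then r i else 0)
  have hzF : algebraMap R F z ≠ 0 := by
    rw [Ne, map_eq_zero_iff _ (IsFractionRing.injective R F)]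
    exact hz0
  refine ⟨algebraMap R F y / algebraMap R F z, fun w hw => ?_, fun w hw => ?_⟩
  · have h := hy w (Finset.mem_union_left _ hw)
    simp only [if_pos hw] at h
    have h1 : w.intValuation (y - r w) ≤ exp (-((N + c w : ℕ) : ℤ)) :=
      (w.intValuation_le_pow_iff_mem _ _).mpr h
    have h2 : algebraMap R F y / algebraMap R F z - a w =
        algebraMap R F (y - r w) / algebraMap R F z := by
      rw [map_sub, hr w hw]
      field_simp
    rw [h2, map_div₀, HeightOneSpectrum.valuation_of_algebraMap,
      HeightOneSpectrum.valuation_of_algebraMap]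
    have hzpos : 0 < w.intValuation z := zero_lt_iff.mpr (w.intValuation_ne_zero z hz0)
    rw [div_le_iff₀ hzpos, hzval w, ← exp_add]
    refine h1.trans (exp_le_exp.mpr ?_)
    simp only [hc]
    push_cast
    omega
  · rw [map_div₀, HeightOneSpectrum.valuation_of_algebraMap,
      HeightOneSpectrum.valuation_of_algebraMap]
    have hzpos : 0 < w.intValuation z := zero_lt_iff.mpr (w.intValuation_ne_zero z hz0)
    rw [div_le_one₀ hzpos]
    by_cases hwT : w ∈ T
    · have h := hy w (Finset.mem_union_right _ hwT)
      simp only [if_neg hw, sub_zero] at h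
      have h1 : w.intValuation y ≤ exp (-((N + c w : ℕ) : ℤ)) :=
        (w.intValuation_le_pow_iff_mem _ _).mpr h
      rw [hzval w]
      refine h1.trans (exp_le_exp.mpr ?_)
      simp only [hc]
      push_cast
      omega
    · have hnd : ¬ w.asIdeal ∣ Ideal.span {z} := by
        intro hd
        apply hwT
        rw [hT, Set.Finite.mem_toFinset]
        exact hd
      have hzw : z ∉ w.asIdeal := by
        intro hmem
        exact hnd (Ideal.dvd_span_singleton.mpr hmem)
      have h1 : w.intValuation z = 1 := by
        have hnlt : ¬ w.intValuation z < 1 := fun h =>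
          hzw ((w.intValuation_lt_one_iff_mem z).mp h)
        exact le_antisymm (w.intValuation_le_one z) (not_lt.mp hnlt)
      rw [h1]
      exact w.intValuation_le_one y

end Dedekind

section Chart

open scoped IntermediateField.algebraAdjoinAdjoin

variable {K F : Type*} [Field K] [Field F] [Algebra K F]

/-- **Strong approximation with principal parts on a chart**: `f` is `N`-close to `a P` at the
places `P ∈ S` and regular at all other places of the chart. -/
theorem h68_strong_approx {t : F} (ht : h75_IsChart K t) (S : Finset (Place K F))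
    (hS : ∀ P ∈ S, t ∈ P.toValuationSubring) (a : Place K F → F) (N : ℕ) :
    ∃ f : F, (∀ P ∈ S, P.adicValuation (f - a P) ≤ exp (-(N : ℤ))) ∧
      ∀ P : Place K F, t ∈ P.toValuationSubring → P ∉ S → f ∈ P.toValuationSubring := by
  classical
  have := h75_ringB_isDedekindDomain ht
  have := h75_ringB_isFractionRing ht
  have hinj : Function.Injective
      (Place.ofHeightOneSpectrum (K := K) (F := F) (R := h75_ringB K t)) :=
    h24_ofHeightOneSpectrum_injective
  let S' : Finset (HeightOneSpectrum (h75_ringB K t)) :=
    S.preimage (Place.ofHeightOneSpectrum (K := K) (F := F) (R := h75_ringB K t)) hinj.injOn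
  obtain ⟨f, hf1, hf2⟩ := h68_dedekind_approx (F := F) S'
    (fun w => a (Place.ofHeightOneSpectrum (K := K) (F := F) w)) N
  refine ⟨f, fun P hP => ?_, fun P hPt hP => ?_⟩
  · obtain ⟨w, rfl⟩ := h75_exists_heightOneSpectrum P (hS P hP)
    have h := hf1 w (Finset.mem_preimage.mpr hP)
    rw [Place.adicValuation_le_exp_iff]
    rcases eq_or_ne (f - a (Place.ofHeightOneSpectrum (K := K) (F := F) w)) 0 with h0 | h0
    · exact Or.inl h0
    · right
      rw [h24_ofHeightOneSpectrum_ord]
      have hne : w.valuation F (f - a (Place.ofHeightOneSpectrum (K := K) (F := F) w)) ≠ 0 :=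
        (Valuation.ne_zero_iff _).mpr h0
      rw [← exp_log hne, exp_le_exp] at h
      omega
  · obtain ⟨w, rfl⟩ := h75_exists_heightOneSpectrum P hPt
    rw [Place.ofHeightOneSpectrum_toValuationSubring]
    exact (Valuation.mem_valuationSubring_iff _ _).mpr
      (hf2 w (fun h => hP (Finset.mem_preimage.mp h)))

end Chart

end Fermat.Agent.S27
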