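import Mathlib

/-!
# S27 / row 512 (B8a-W6 WEIL-GENEIG, helper94): the determinant from generalized eigenspaces

If every eigenvalue of `M` is one of the values `val j` (`j ∈ S`), the generalized eigenspace of
each value `v` has dimension at most `∑_{val j = v} e j`, and `∑_{j ∈ S} e j` is the size of
`M`, then `det M = ∏_{j ∈ S} val j ^ e j`.
-/

set_option autoImplicit false

namespace Fermat.Agent.S27

open Polynomial

/-- **Row 512 (B8a-W6 WEIL-GENEIG).** -/
theorem h6_det_of_genEigen {K : Type*} [Field K] [IsAlgClosed K] {ι : Type*} [Fintype ι]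
    [DecidableEq ι] (M : Matrix ι ι K) {J : Type*} (S : Finset J) (e : J → ℕ) (val : J → K)
    (ha : ∀ c : K, (∀ j ∈ S, val j ≠ c) → (Matrix.scalar ι c - M).det ≠ 0)
    (hb : ∀ (v : K) (S' : Finset J), (∀ j, j ∈ S' ↔ j ∈ S ∧ val j = v) →
      Module.finrank K (Module.End.maxGenEigenspace (Matrix.toLin' M) v) ≤ ∑ j ∈ S', e j)
    (hc : Fintype.card ι = ∑ j ∈ S, e j) :
    M.det = ∏ j ∈ S, val j ^ e j := by
  classical
  set χ := M.charpoly with hχ
  have hχ0 : χ ≠ 0 := (Matrix.charpoly_monic M).ne_zero
  set V : Finset K := S.image val with hV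
  -- multiplicities are bounded by the `e`-sums
  have hle : ∀ v : K, χ.rootMultiplicity v ≤ ∑ j ∈ S.filter (fun j => val j = v), e j := by
    intro v
    have h1 := hb v (S.filter (fun j => val j = v)) (fun j => by simp [Finset.mem_filter])
    rw [LinearMap.finrank_maxGenEigenspace_eq, Matrix.charpoly_toLin'] at h1
    exact h1
  -- every root is a value
  have hroots : χ.roots.toFinset ⊆ V := by
    intro v hv
    rw [Multiset.mem_toFinset, mem_roots hχ0, IsRoot.def, hχ, Matrix.eval_charpoly] at hv
    by_contra hnot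
    refine ha v (fun j hj hjv => hnot (Finset.mem_image.mpr ⟨j, hj, hjv⟩)) hv
  have hcount0 : ∀ v : K, v ∉ χ.roots.toFinset → χ.rootMultiplicity v = 0 := by
    intro v hv
    rw [Multiset.mem_toFinset] at hv
    rw [← count_roots]
    exact Multiset.count_eq_zero_of_notMem hv
  -- the sum of the multiplicities is the size
  have hsum_mult : ∑ v ∈ V, χ.rootMultiplicity v = Fintype.card ι := by
    have h1 : ∑ v ∈ χ.roots.toFinset, χ.roots.count v = χ.roots.card :=
      Multiset.toFinset_sum_count_eq _
    rw [← Finset.sum_subset hroots (fun v _ hv => hcount0 v hv)]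
    rw [Finset.sum_congr rfl (fun v _ => (count_roots χ).symm), h1,
      IsAlgClosed.card_roots_eq_natDegree, hχ, Matrix.charpoly_natDegree_eq_dim]
  have hsum_E : ∑ v ∈ V, ∑ j ∈ S.filter (fun j => val j = v), e j = Fintype.card ι := by
    rw [hc]
    exact Finset.sum_fiberwise_of_maps_to (fun j hj => Finset.mem_image_of_mem val hj) e
  have heq : ∀ v ∈ V, χ.rootMultiplicity v = ∑ j ∈ S.filter (fun j => val j = v), e j :=
    (Finset.sum_eq_sum_iff_of_le (fun v _ => hle v)).mp (hsum_mult.trans hsum_E.symm)
  -- the determinant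
  rw [Matrix.det_eq_prod_roots_charpoly, ← hχ]
  have hprod : χ.roots.prod = ∏ v ∈ V, v ^ χ.rootMultiplicity v := by
    rw [Finset.prod_multiset_count]
    rw [← Finset.prod_subset hroots (fun v _ hv => by rw [hcount0 v hv, pow_zero])]
    exact Finset.prod_congr rfl (fun v _ => by rw [count_roots])
  rw [hprod, Finset.prod_congr rfl (fun v hv => by rw [heq v hv])]
  rw [← Finset.prod_fiberwise_of_maps_to (fun j hj => Finset.mem_image_of_mem val hj)
    (fun j => val j ^ e j)]
  refine Finset.prod_congr rfl (fun v _ => ?_)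
  rw [← Finset.prod_pow_eq_pow_sum]
  exact Finset.prod_congr rfl (fun j hj => by rw [(Finset.mem_filter.mp hj).2])

end Fermat.Agent.S27
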