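import Fermat.Agent.S27.h6w_NormVal

/-!
# S27 / B8a WEIL (W4, helper6): the norm data of a function over a chart

`h6_norm_fibre` : for a chart `h` and `f ≠ 0` the norm `N_{F/K(h)} f` is `r(h)/s(h)` with
`mult_a r - mult_a s = ∑_{P | a} ord_P f` for all `a` (FACT 2, `h6_ord_norm`) and
`r(0)/s(0) = ∏_{P | 0} f(P)^{e_P}` when `f` is a unit along the fibre over `0`
(FACT 1, `h6_nu_eval_eq_prod`).
-/

set_option autoImplicit false

noncomputable section

open AlgebraicCurve IntermediateField IsDedekindDomain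

namespace Fermat.Agent.S27

open Fermat.Agent.S18 Fermat.Agent.S24

variable {K F : Type*} [Field K] [Field F] [Algebra K F] [IsAlgClosed K]

/-- **Row W4** of the Weil block: the norm data of `f` over the chart `h`. -/
theorem h6_norm_fibre {h : F} (hh : h75_IsChart K h) (f : F) (hf : f ≠ 0) :
    h6_NormFibre K h f := by
  classical
  obtain ⟨S₀, hS₀, -⟩ := h75_fibre_main hh (0 : K)
  have hS₀c : ∀ P ∈ S₀, h ∈ P.toValuationSubring :=
    fun P hP => h6_mem_of_fibre P 0 ((hS₀ P).mp hP)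
  obtain ⟨c, hc0, hcf, hcS⟩ := h6_exists_den hh S₀ hS₀c f hf
  have hcf0 : (c : F) * f ≠ 0 := mul_ne_zero hc0 hf
  have hcfcoe : (((⟨(c : F) * f, hcf⟩ : h75_ringB K h)) : F) = (c : F) * f := rfl
  have hNcf : h6_N K h ((c : F) * f) = Polynomial.aeval h (h6_nu hh.tr ⟨(c : F) * f, hcf⟩) :=
    h6_N_ringB hh ⟨(c : F) * f, hcf⟩
  have hNc : h6_N K h (c : F) = Polynomial.aeval h (h6_nu hh.tr c) := h6_N_ringB hh c
  have hNmul : h6_N K h ((c : F) * f) = h6_N K h (c : F) * h6_N K h f := h6_N_mul h _ _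
  refine ⟨h6_nu hh.tr ⟨(c : F) * f, hcf⟩, h6_nu hh.tr c, h6_nu_ne_zero hh hcf0,
    h6_nu_ne_zero hh hc0, ?_, ?_, ?_⟩
  · -- (n1)
    show h6_N K h f * Polynomial.aeval h (h6_nu hh.tr c) = _
    rw [← hNc, ← hNcf, hNmul, mul_comm]
  · -- (n2)
    intro a S hS
    have hsum : ∑ P ∈ S, P.ord (h - algebraMap K F a) = (Module.finrank K⟮h⟯ F : ℤ) :=
      h75_fibre_sum hh a S hS
    have hne : S.Nonempty := by
      by_contra hemp
      rw [Finset.not_nonempty_iff_eq_empty] at hemp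
      rw [hemp, Finset.sum_empty] at hsum
      have := hh.fin
      have hpos : 0 < Module.finrank K⟮h⟯ F := Module.finrank_pos
      have : (0 : ℤ) < (Module.finrank K⟮h⟯ F : ℤ) := by exact_mod_cast hpos
      omega
    obtain ⟨Q₀, hQ₀⟩ := hne
    have he := (hS Q₀).mp hQ₀
    have h1 := h6_ord_norm hh a S hS f hf Q₀ hQ₀
    have h3 : Q₀.ord (h6_N K h ((c : F) * f)) =
        ((h6_nu hh.tr ⟨(c : F) * f, hcf⟩).rootMultiplicity a : ℤ) *
          Q₀.ord (h - algebraMap K F a) := by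
      rw [hNcf]
      exact h6_ord_aeval Q₀ he (h6_nu_ne_zero hh hcf0)
    have h4 : Q₀.ord (h6_N K h (c : F)) =
        ((h6_nu hh.tr c).rootMultiplicity a : ℤ) * Q₀.ord (h - algebraMap K F a) := by
      rw [hNc]
      exact h6_ord_aeval Q₀ he (h6_nu_ne_zero hh hc0)
    rw [hNmul, Q₀.ord_mul (h6_N_ne_zero hh hc0) (h6_N_ne_zero hh hf), h4, h1] at h3
    have h5 : Q₀.ord (h - algebraMap K F a) *
        (((h6_nu hh.tr ⟨(c : F) * f, hcf⟩).rootMultiplicity a : ℤ) -
          ((h6_nu hh.tr c).rootMultiplicity a : ℤ)) =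
        Q₀.ord (h - algebraMap K F a) * ∑ P ∈ S, P.ord f := by
      linarith
    exact mul_left_cancel₀ he.ne' h5
  · -- (n3)
    intro S hS hfS vf hvf
    have hS' : ∀ P, P ∈ S ↔ 0 < P.ord (h - algebraMap K F 0) := by
      intro P
      rw [map_zero, sub_zero]
      exact hS P
    have hSc : ∀ P ∈ S, h ∈ P.toValuationSubring :=
      fun P hP => h6_mem_of_fibre P 0 ((hS' P).mp hP)
    have hcS' : ∀ P ∈ S, P.ord (c : F) = 0 := by
      intro P hP
      rw [hcS P ((hS₀ P).mpr ((hS' P).mp hP)), hfS P hP]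
      simp
    have hvc : ∀ P : Place K F, ∃ vc : K, P ∈ S → h39_Val P (c : F) vc := by
      intro P
      by_cases hP : P ∈ S
      · obtain ⟨vc, hvc⟩ := h39_exists_val hh P (h75_ringB_le P (hSc P hP) c)
        exact ⟨vc, fun _ => hvc⟩
      · exact ⟨0, fun hP' => absurd hP' hP⟩
    choose vc hvc using hvc
    have hvc0 : ∀ P ∈ S, vc P ≠ 0 := by
      intro P hP h0
      have h1 := hvc P hP
      rw [h0] at h1
      rcases (h39_val_zero_iff P).mp h1 with h2 | h2
      · exact hc0 h2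
      · rw [hcS' P hP] at h2
        exact lt_irrefl _ h2
    have hvf0 : ∀ P ∈ S, vf P ≠ 0 := by
      intro P hP h0
      have h1 := hvf P hP
      rw [h0] at h1
      rcases (h39_val_zero_iff P).mp h1 with h2 | h2
      · exact hf h2
      · rw [hfS P hP] at h2
        exact lt_irrefl _ h2
    have hvcf : ∀ P ∈ S, h39_Val P (((⟨(c : F) * f, hcf⟩ : h75_ringB K h)) : F)
        (vc P * vf P) := fun P hP => h39_val_mul P (hvc P hP) (hvf P hP)
    have e1 := h6_nu_eval_eq_prod hh 0 S hS' c vc hvc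
    have e2 := h6_nu_eval_eq_prod hh 0 S hS' ⟨(c : F) * f, hcf⟩ (fun P => vc P * vf P) hvcf
    have hexp : ∀ P : Place K F, (P.ord (h - algebraMap K F 0)).toNat = (P.ord h).toNat := by
      intro P
      rw [map_zero, sub_zero]
    simp only [hexp] at e1 e2
    refine ⟨?_, ?_, ?_⟩
    · rw [e2]
      exact Finset.prod_ne_zero_iff.mpr fun P hP =>
        pow_ne_zero _ (mul_ne_zero (hvc0 P hP) (hvf0 P hP))
    · rw [e1]
      exact Finset.prod_ne_zero_iff.mpr fun P hP => pow_ne_zero _ (hvc0 P hP)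
    · rw [e2, e1, ← Finset.prod_mul_distrib]
      exact Finset.prod_congr rfl fun P _ => mul_pow _ _ _

end Fermat.Agent.S27

end
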