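import Mathlib

/-!
# S27 / B8a WEIL (W4, helper6): the abstract fibre of a free algebra

`B` a free `A`-algebra with basis `β`, `ev : A →ₐ[K] K` a `K`-point of `A` whose kernel is
generated by `τ`.  The fibre `B / τ B` is modelled on `ι → K` by the coordinate map
`h6_kap β ev : B →ₗ[K] (ι → K)`, and multiplication by `b` becomes the matrix `h6_Mbar β ev b`,
whose determinant is `ev (norm b)`.
-/

set_option autoImplicit false

noncomputable section

namespace Fermat.Agent.S27

open Module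

section Abs

variable {K A B ι : Type*} [Field K] [CommRing A] [CommRing B] [Algebra A B] [Algebra K A]
  [Algebra K B] [IsScalarTower K A B] [Fintype ι] [DecidableEq ι]

/-- The coordinates of `y` in the basis `β`, evaluated at the point `ev`. -/
def h6_kap (β : Basis ι A B) (ev : A →ₐ[K] K) : B →ₗ[K] (ι → K) where
  toFun y := fun i => ev (β.repr y i)
  map_add' y z := by
    funext i
    simp
  map_smul' c y := by
    funext i
    have h1 : c • y = (algebraMap K A c) • y := by
      rw [algebraMap_smul]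
    rw [h1, map_smul]
    simp

theorem h6_kap_apply (β : Basis ι A B) (ev : A →ₐ[K] K) (y : B) (i : ι) :
    h6_kap β ev y i = ev (β.repr y i) := rfl

/-- The matrix of multiplication by `b` on the fibre. -/
def h6_Mbar (β : Basis ι A B) (ev : A →ₐ[K] K) : B →+* Matrix ι ι K :=
  (ev : A →+* K).mapMatrix.comp (Algebra.leftMulMatrix β : B →ₐ[A] Matrix ι ι A).toRingHom

theorem h6_Mbar_apply (β : Basis ι A B) (ev : A →ₐ[K] K) (b : B) (i j : ι) :
    h6_Mbar β ev b i j = ev (Algebra.leftMulMatrix β b i j) := rfl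

theorem h6_kap_mul (β : Basis ι A B) (ev : A →ₐ[K] K) (b y : B) :
    h6_kap β ev (b * y) = (h6_Mbar β ev b).mulVec (h6_kap β ev y) := by
  funext i
  have h1 := congrFun (Algebra.leftMulMatrix_mulVec_repr β b y) i
  rw [h6_kap_apply, ← h1]
  simp only [Matrix.mulVec, dotProduct, map_sum, map_mul, h6_Mbar_apply, h6_kap_apply]

theorem h6_kap_surjective (β : Basis ι A B) (ev : A →ₐ[K] K) :
    Function.Surjective (h6_kap β ev) := by
  intro w
  refine ⟨β.equivFun.symm (fun i => algebraMap K A (w i)), ?_⟩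
  funext i
  rw [h6_kap_apply, ← Basis.equivFun_apply, LinearEquiv.apply_symm_apply, AlgHom.commutes]
  rfl

theorem h6_kap_eq_zero_iff (β : Basis ι A B) (ev : A →ₐ[K] K) (τ : A)
    (hτ : ∀ x : A, ev x = 0 → ∃ y : A, x = τ * y) (hτ0 : ev τ = 0) (y : B) :
    h6_kap β ev y = 0 ↔ ∃ y' : B, y = τ • y' := by
  constructor
  · intro h
    have hc : ∀ i, ∃ c : A, β.repr y i = τ * c := fun i => hτ _ (congrFun h i)
    choose c hc using hc
    refine ⟨∑ i, c i • β i, ?_⟩
    conv_lhs => rw [← β.sum_repr y]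
    rw [Finset.smul_sum]
    refine Finset.sum_congr rfl fun i _ => ?_
    rw [hc i, mul_smul]
  · rintro ⟨y', rfl⟩
    funext i
    rw [h6_kap_apply, map_smul]
    simp [hτ0]

theorem h6_det_Mbar (β : Basis ι A B) (ev : A →ₐ[K] K) (b : B) :
    (h6_Mbar β ev b).det = ev (Algebra.norm A b) := by
  rw [Algebra.norm_eq_matrix_det β b]
  exact (RingHom.map_det (ev : A →+* K) _).symm

theorem h6_Mbar_algebraMap (β : Basis ι A B) (ev : A →ₐ[K] K) (c : K) :
    h6_Mbar β ev (algebraMap K B c) = Matrix.scalar ι c := by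
  ext i j
  rw [h6_Mbar_apply, IsScalarTower.algebraMap_apply K A B, AlgHom.commutes]
  simp [Matrix.algebraMap_matrix_apply, Matrix.scalar_apply, Matrix.diagonal_apply]
  split_ifs <;> simp

/-- multiplication by `b` injective on the fibre: the norm does not vanish at the point. -/
theorem h6_ev_norm_ne_zero (β : Basis ι A B) (ev : A →ₐ[K] K) (τ : A)
    (hτ : ∀ x : A, ev x = 0 → ∃ y : A, x = τ * y) (hτ0 : ev τ = 0) (b : B)
    (hinj : ∀ y : B, (∃ y' : B, b * y = τ • y') → ∃ y'' : B, y = τ • y'') :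
    ev (Algebra.norm A b) ≠ 0 := by
  rw [← h6_det_Mbar β ev b]
  have hker : ∀ w : ι → K, (h6_Mbar β ev b).mulVec w = 0 → w = 0 := by
    intro w hw
    obtain ⟨y, rfl⟩ := h6_kap_surjective β ev w
    rw [← h6_kap_mul, h6_kap_eq_zero_iff β ev τ hτ hτ0] at hw
    exact (h6_kap_eq_zero_iff β ev τ hτ hτ0 y).mpr (hinj y hw)
  have hinj' : Function.Injective (h6_Mbar β ev b).mulVec := by
    intro w1 w2 h12
    have h0 : (h6_Mbar β ev b).mulVec (w1 - w2) = 0 := by
      rw [Matrix.mulVec_sub, h12, sub_self]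
    exact sub_eq_zero.mp (hker _ h0)
  have hu := Matrix.mulVec_injective_iff_isUnit.mp hinj'
  exact ((Matrix.isUnit_iff_isUnit_det _).mp hu).ne_zero

/-- multiplication by `b` kills a nonzero class of the fibre: the norm vanishes at the point. -/
theorem h6_ev_norm_eq_zero (β : Basis ι A B) (ev : A →ₐ[K] K) (τ : A)
    (hτ : ∀ x : A, ev x = 0 → ∃ y : A, x = τ * y) (hτ0 : ev τ = 0) (b z : B)
    (hz : ¬ ∃ y' : B, z = τ • y') (hbz : ∃ y' : B, b * z = τ • y') :
    ev (Algebra.norm A b) = 0 := by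
  rw [← h6_det_Mbar β ev b]
  apply Matrix.exists_mulVec_eq_zero_iff.mp
  refine ⟨h6_kap β ev z, ?_, ?_⟩
  · intro h0
    exact hz ((h6_kap_eq_zero_iff β ev τ hτ hτ0 z).mp h0)
  · rw [← h6_kap_mul]
    exact (h6_kap_eq_zero_iff β ev τ hτ hτ0 _).mpr hbz

theorem h6_toLin_pow_kap (β : Basis ι A B) (ev : A →ₐ[K] K) (c y : B) (k : ℕ) :
    ((Matrix.toLin' (h6_Mbar β ev c)) ^ k) (h6_kap β ev y) = h6_kap β ev (c ^ k * y) := by
  induction k generalizing y with
  | zero => simp
  | succ k ih =>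
    rw [pow_succ, Module.End.mul_apply, Matrix.toLin'_apply, ← h6_kap_mul, ih, ← mul_assoc,
      ← pow_succ]

/-- A generalized eigenvector of the fibre matrix of `b` for the eigenvalue `v` is the class of
some `y` with `(b - v)^k y ∈ τ B`. -/
theorem h6_mem_maxGenEigenspace (β : Basis ι A B) (ev : A →ₐ[K] K) (τ : A)
    (hτ : ∀ x : A, ev x = 0 → ∃ y : A, x = τ * y) (hτ0 : ev τ = 0) (b : B) (v : K)
    (w : ι → K)
    (hw : w ∈ Module.End.maxGenEigenspace (Matrix.toLin' (h6_Mbar β ev b)) v) :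
    ∃ (y : B) (k : ℕ), w = h6_kap β ev y ∧
      ∃ y' : B, (b - algebraMap K B v) ^ k * y = τ • y' := by
  obtain ⟨k, hk⟩ := (Module.End.mem_maxGenEigenspace _ _ _).mp hw
  obtain ⟨y, rfl⟩ := h6_kap_surjective β ev w
  refine ⟨y, k, rfl, ?_⟩
  have h1 : Matrix.toLin' (h6_Mbar β ev b) - v • (1 : Module.End K (ι → K)) =
      Matrix.toLin' (h6_Mbar β ev (b - algebraMap K B v)) := by
    rw [map_sub, h6_Mbar_algebraMap, map_sub]
    congr 1
    ext w i
    simp [Matrix.toLin'_apply, Matrix.mulVec, dotProduct, Matrix.scalar_apply,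
      Matrix.diagonal_apply]
  rw [h1, h6_toLin_pow_kap] at hk
  exact (h6_kap_eq_zero_iff β ev τ hτ hτ0 _).mp hk

end Abs

end Fermat.Agent.S27

end
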