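import Fermat.Agent.S27.h6w_NormSetup

/-!
# S27 / B8a WEIL (W4, helper6): the order of a norm along a fibre (FACT 2)

`h` a chart, `a : K`, `S` the fibre of `h` over `a`.  For `f ≠ 0` and `Q₀ ∈ S`:
`ord_{Q₀} (N_{F/K(h)} f) = ord_{Q₀} (h - a) * ∑_{P ∈ S} ord_P f`   (`h6_ord_norm`).
-/

set_option autoImplicit false

noncomputable section

open AlgebraicCurve IntermediateField IsDedekindDomain

namespace Fermat.Agent.S27

open Fermat.Agent.S18 Fermat.Agent.S24
open scoped IntermediateField.algebraAdjoinAdjoin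

variable {K F : Type*} [Field K] [Field F] [Algebra K F]

/-- The norm `N_{F/K(h)} f` as an element of `F`. -/
def h6_N (K : Type*) {F : Type*} [Field K] [Field F] [Algebra K F] (h f : F) : F :=
  ((Algebra.norm K⟮h⟯ f : K⟮h⟯) : F)

theorem h6_N_mul (h f g : F) : h6_N K h (f * g) = h6_N K h f * h6_N K h g := by
  unfold h6_N
  rw [map_mul]
  rfl

theorem h6_N_ne_zero {h : F} (hh : h75_IsChart K h) {f : F} (hf : f ≠ 0) : h6_N K h f ≠ 0 := by
  have := hh.fin
  unfold h6_N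
  have h1 : Algebra.norm K⟮h⟯ f ≠ 0 := Algebra.norm_ne_zero_iff.mpr hf
  exact fun h0 => h1 (Subtype.ext h0)

theorem h6_N_zpow {h : F} (hh : h75_IsChart K h) (f : F) (n : ℤ) :
    h6_N K h (f ^ n) = h6_N K h f ^ n := by
  have := hh.fin
  unfold h6_N
  rw [Algebra.norm_zpow]
  exact map_zpow₀ (algebraMap K⟮h⟯ F) _ n

theorem h6_N_prod (h : F) {ι : Type*} (s : Finset ι) (g : ι → F) :
    h6_N K h (∏ i ∈ s, g i) = ∏ i ∈ s, h6_N K h (g i) := by
  unfold h6_N
  rw [map_prod]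
  exact map_prod (algebraMap K⟮h⟯ F) _ _

/-- the norm of an element of `K(h)`. -/
theorem h6_N_sub (h : F) (a : K) :
    h6_N K h (h - algebraMap K F a) =
      (h - algebraMap K F a) ^ Module.finrank K⟮h⟯ F := by
  unfold h6_N
  have h1 : h - algebraMap K F a =
      algebraMap K⟮h⟯ F (AdjoinSimple.gen K h - algebraMap K K⟮h⟯ a) := rfl
  rw [h1, Algebra.norm_algebraMap]
  rfl

/-- The polynomial of the norm of an element of `B`. -/
def h6_nu {h : F} (ht : Transcendental K h) (b : h75_ringB K h) : Polynomial K :=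
  h6_polyA ht (Algebra.norm (h75_ringA K h) b)

theorem h6_N_ringB {h : F} (hh : h75_IsChart K h) (b : h75_ringB K h) :
    h6_N K h (b : F) = Polynomial.aeval h (h6_nu hh.tr b) := by
  have := h75_ringA_isPrincipalIdealRing hh.tr
  have := hh.fin
  have := hh.sep
  have := h75_ringB_isDedekindDomain hh
  have := h75_ringB_isFractionRing hh
  have := h75_ringB_finite hh
  have := h75_ringB_free hh
  have hloc := IsIntegralClosure.isLocalization (h75_ringA K h) K⟮h⟯ F (h75_ringB K h)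
  have key := Algebra.norm_localization (R := h75_ringA K h) (Rₘ := K⟮h⟯) (S := h75_ringB K h)
    (Sₘ := F) (nonZeroDivisors (h75_ringA K h)) b
  have h1 : algebraMap (h75_ringB K h) F b = (b : F) := rfl
  rw [h1] at key
  unfold h6_N h6_nu
  rw [key, h6_aeval_polyA]
  rfl

theorem h6_nu_ne_zero {h : F} (hh : h75_IsChart K h) {b : h75_ringB K h} (hb : (b : F) ≠ 0) :
    h6_nu hh.tr b ≠ 0 := by
  have := h75_ringA_isPrincipalIdealRing hh.tr
  have := h75_ringB_isDedekindDomain hh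
  have := h75_ringB_finite hh
  have := h75_ringB_free hh
  apply h6_polyA_ne_zero
  apply Algebra.norm_ne_zero_iff.mpr
  intro h0
  exact hb (by rw [h0]; rfl)

theorem h6_nu_eval {h : F} (ht : Transcendental K h) (a : K) (b : h75_ringB K h) :
    (h6_nu ht b).eval a = h6_evA ht a (Algebra.norm (h75_ringA K h) b) :=
  (h6_evA_apply ht a _).symm

/-- (U) the norm of an element of `B` that is a unit along the fibre does not vanish at `a`. -/
theorem h6_nu_eval_ne_zero {h : F} (hh : h75_IsChart K h) (a : K) (b : h75_ringB K h)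
    (hb0 : (b : F) ≠ 0)
    (hb : ∀ P : Place K F, 0 < P.ord (h - algebraMap K F a) → P.ord (b : F) = 0) :
    (h6_nu hh.tr b).eval a ≠ 0 := by
  have := h75_ringA_isPrincipalIdealRing hh.tr
  have := h75_ringB_isDedekindDomain hh
  have := h75_ringB_finite hh
  have := h75_ringB_free hh
  classical
  rw [h6_nu_eval]
  refine h6_ev_norm_ne_zero (Module.Free.chooseBasis (h75_ringA K h) (h75_ringB K h))
    (h6_evA hh.tr a) (h6_tau h a) (h6_evA_ker hh.tr a) (h6_evA_tau hh.tr a) b ?_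
  intro y hy
  rw [h6_mem_tau_iff hh a] at hy ⊢
  rcases hy with hy | hy
  · left
    have h1 : (b : F) * (y : F) = 0 := hy
    exact (mul_eq_zero.mp h1).resolve_left hb0
  · by_cases hy0 : (y : F) = 0
    · exact Or.inl hy0
    right
    intro Q hQ
    have h1 := hy Q hQ
    have h2 : ((b * y : h75_ringB K h) : F) = (b : F) * (y : F) := rfl
    rw [h2, Q.ord_mul hb0 hy0, hb Q hQ, zero_add] at h1
    exact h1

section AlgClosed

variable [IsAlgClosed K]

/-- (NU) the norm of an element of `B` vanishing somewhere on the fibre vanishes at `a`. -/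
theorem h6_nu_eval_eq_zero {h : F} (hh : h75_IsChart K h) (a : K) (S : Finset (Place K F))
    (hS : ∀ P, P ∈ S ↔ 0 < P.ord (h - algebraMap K F a)) (b : h75_ringB K h)
    (Q₁ : Place K F) (hQ₁ : Q₁ ∈ S) (hb : 0 < Q₁.ord (b : F)) :
    (h6_nu hh.tr b).eval a = 0 := by
  have := h75_ringA_isPrincipalIdealRing hh.tr
  have := h75_ringB_isDedekindDomain hh
  have := h75_ringB_finite hh
  have := h75_ringB_free hh
  classical
  have hb0 : (b : F) ≠ 0 := by
    intro h0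
    rw [h0, Q₁.ord_zero] at hb
    exact lt_irrefl _ hb
  have hSc : ∀ P ∈ S, h ∈ P.toValuationSubring := fun P hP => h6_mem_of_fibre P a ((hS P).mp hP)
  obtain ⟨z, hz0, hzS⟩ := h6_exists_exact_ringB hh S hSc
    (fun P => if P = Q₁ then (P.ord (h - algebraMap K F a)).toNat - 1
      else (P.ord (h - algebraMap K F a)).toNat)
  rw [h6_nu_eval]
  refine h6_ev_norm_eq_zero (Module.Free.chooseBasis (h75_ringA K h) (h75_ringB K h))
    (h6_evA hh.tr a) (h6_tau h a) (h6_evA_ker hh.tr a) (h6_evA_tau hh.tr a) b z ?_ ?_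
  · rw [h6_mem_tau_iff hh a]
    rintro (h0 | h0)
    · exact hz0 h0
    · have h1 := h0 Q₁ ((hS Q₁).mp hQ₁)
      have h2 := hzS Q₁ hQ₁
      rw [if_pos rfl] at h2
      have h3 := (hS Q₁).mp hQ₁
      omega
  · rw [h6_mem_tau_iff hh a]
    right
    intro Q hQ
    have hQS : Q ∈ S := (hS Q).mpr hQ
    have h2 : ((b * z : h75_ringB K h) : F) = (b : F) * (z : F) := rfl
    rw [h2, Q.ord_mul hb0 hz0, hzS Q hQS]
    by_cases hQQ : Q = Q₁
    · rw [if_pos hQQ]
      rw [hQQ] at hQ ⊢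
      omega
    · rw [if_neg hQQ]
      have h3 := h6_ord_nonneg_ringB Q (hSc Q hQS) b
      omega

omit [IsAlgClosed K] in
/-- (P3) the norm of a unit along the fibre is a unit along the fibre. -/
theorem h6_ord_N_unit_ringB {h : F} (hh : h75_IsChart K h) (a : K) (b : h75_ringB K h)
    (hb0 : (b : F) ≠ 0)
    (hb : ∀ P : Place K F, 0 < P.ord (h - algebraMap K F a) → P.ord (b : F) = 0)
    (Q₀ : Place K F) (hQ₀ : 0 < Q₀.ord (h - algebraMap K F a)) :
    Q₀.ord (h6_N K h (b : F)) = 0 := by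
  rw [h6_N_ringB hh, h6_ord_aeval Q₀ hQ₀ (h6_nu_ne_zero hh hb0),
    Polynomial.rootMultiplicity_eq_zero (h6_nu_eval_ne_zero hh a b hb0 hb)]
  simp

/-- (P4) the norm of a non-unit along the fibre vanishes along the fibre. -/
theorem h6_ord_N_nonunit_ringB {h : F} (hh : h75_IsChart K h) (a : K) (S : Finset (Place K F))
    (hS : ∀ P, P ∈ S ↔ 0 < P.ord (h - algebraMap K F a)) (b : h75_ringB K h)
    (Q₁ : Place K F) (hQ₁ : Q₁ ∈ S) (hb : 0 < Q₁.ord (b : F))
    (Q₀ : Place K F) (hQ₀ : Q₀ ∈ S) :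
    Q₀.ord (h - algebraMap K F a) ≤ Q₀.ord (h6_N K h (b : F)) := by
  have hb0 : (b : F) ≠ 0 := by
    intro h0
    rw [h0, Q₁.ord_zero] at hb
    exact lt_irrefl _ hb
  have he := (hS Q₀).mp hQ₀
  rw [h6_N_ringB hh, h6_ord_aeval Q₀ he (h6_nu_ne_zero hh hb0)]
  have hroot : (h6_nu hh.tr b).IsRoot a := h6_nu_eval_eq_zero hh a S hS b Q₁ hQ₁ hb
  have hpos : 0 < (h6_nu hh.tr b).rootMultiplicity a :=
    (Polynomial.rootMultiplicity_pos (h6_nu_ne_zero hh hb0)).mpr hroot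
  have hpos' : (1 : ℤ) ≤ ((h6_nu hh.tr b).rootMultiplicity a : ℤ) := by exact_mod_cast hpos
  nlinarith

/-- the norm of a unit along the fibre is a unit along the fibre. -/
theorem h6_ord_N_unit {h : F} (hh : h75_IsChart K h) (a : K) (S : Finset (Place K F))
    (hS : ∀ P, P ∈ S ↔ 0 < P.ord (h - algebraMap K F a)) (u : F) (hu0 : u ≠ 0)
    (hu : ∀ P ∈ S, P.ord u = 0) (Q₀ : Place K F) (hQ₀ : Q₀ ∈ S) :
    Q₀.ord (h6_N K h u) = 0 := by
  have hSc : ∀ P ∈ S, h ∈ P.toValuationSubring := fun P hP => h6_mem_of_fibre P a ((hS P).mp hP)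
  obtain ⟨c, hc0, hcu, hcS⟩ := h6_exists_den hh S hSc u hu0
  have hc : ∀ P : Place K F, 0 < P.ord (h - algebraMap K F a) → P.ord (c : F) = 0 := by
    intro P hP
    rw [hcS P ((hS P).mpr hP), hu P ((hS P).mpr hP)]
    simp
  have hcu' : ∀ P : Place K F, 0 < P.ord (h - algebraMap K F a) →
      P.ord (((⟨(c : F) * u, hcu⟩ : h75_ringB K h) : F)) = 0 := by
    intro P hP
    show P.ord ((c : F) * u) = 0
    rw [P.ord_mul hc0 hu0, hc P hP, hu P ((hS P).mpr hP), add_zero]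
  have he := (hS Q₀).mp hQ₀
  have h1 := h6_ord_N_unit_ringB hh a c hc0 hc Q₀ he
  have h2 := h6_ord_N_unit_ringB hh a ⟨(c : F) * u, hcu⟩ (mul_ne_zero hc0 hu0) hcu' Q₀ he
  have h3 : h6_N K h ((c : F) * u) = h6_N K h (c : F) * h6_N K h u := h6_N_mul h _ _
  have h4 : Q₀.ord (h6_N K h ((c : F) * u)) = 0 := h2
  rw [h3, Q₀.ord_mul (h6_N_ne_zero hh hc0) (h6_N_ne_zero hh hu0), h1, zero_add] at h4
  exact h4

/-- **FACT 2**: the order of the norm `N_{F/K(h)} f` at a place `Q₀` over `a` is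
`e(Q₀) * ∑_{P | a} ord_P f`. -/
theorem h6_ord_norm {h : F} (hh : h75_IsChart K h) (a : K) (S : Finset (Place K F))
    (hS : ∀ P, P ∈ S ↔ 0 < P.ord (h - algebraMap K F a)) (f : F) (hf : f ≠ 0)
    (Q₀ : Place K F) (hQ₀ : Q₀ ∈ S) :
    Q₀.ord (h6_N K h f) = Q₀.ord (h - algebraMap K F a) * ∑ P ∈ S, P.ord f := by
  classical
  have hSc : ∀ P ∈ S, h ∈ P.toValuationSubring := fun P hP => h6_mem_of_fibre P a ((hS P).mp hP)
  -- uniformizers along the fibre
  have hy : ∀ Q : Place K F, ∃ y : h75_ringB K h, (y : F) ≠ 0 ∧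
      ∀ P ∈ S, P.ord (y : F) = ((if P = Q then 1 else 0 : ℕ) : ℤ) :=
    fun Q => h6_exists_exact_ringB hh S hSc (fun P => if P = Q then 1 else 0)
  choose y hy0 hyS using hy
  -- the key decomposition
  have key : ∀ g : F, g ≠ 0 →
      Q₀.ord (h6_N K h g) = ∑ Q ∈ S, Q.ord g * Q₀.ord (h6_N K h (y Q : F)) := by
    intro g hg
    have hG0 : (∏ Q ∈ S, ((y Q : F)) ^ (Q.ord g)) ≠ 0 :=
      Finset.prod_ne_zero_iff.mpr fun Q _ => zpow_ne_zero _ (hy0 Q)
    have hGord : ∀ P ∈ S, P.ord (∏ Q ∈ S, ((y Q : F)) ^ (Q.ord g)) = P.ord g := by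
      intro P hP
      rw [h34_ord_prod P S _ (fun Q _ => zpow_ne_zero _ (hy0 Q))]
      rw [Finset.sum_eq_single P]
      · rw [P.ord_zpow, hyS P P hP, if_pos rfl]
        simp
      · intro Q _ hQP
        rw [P.ord_zpow, hyS Q P hP, if_neg (Ne.symm hQP)]
        simp
      · intro hP'
        exact absurd hP hP'
    have hu0 : g / (∏ Q ∈ S, ((y Q : F)) ^ (Q.ord g)) ≠ 0 := div_ne_zero hg hG0
    have hu : ∀ P ∈ S, P.ord (g / (∏ Q ∈ S, ((y Q : F)) ^ (Q.ord g))) = 0 := by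
      intro P hP
      rw [h35_ord_div P hg hG0, hGord P hP, sub_self]
    have h1 := h6_ord_N_unit hh a S hS _ hu0 hu Q₀ hQ₀
    have h2 : g = (g / (∏ Q ∈ S, ((y Q : F)) ^ (Q.ord g))) *
        (∏ Q ∈ S, ((y Q : F)) ^ (Q.ord g)) := by
      rw [div_mul_cancel₀ _ hG0]
    have h3 : h6_N K h g = h6_N K h (g / (∏ Q ∈ S, ((y Q : F)) ^ (Q.ord g))) *
        h6_N K h (∏ Q ∈ S, ((y Q : F)) ^ (Q.ord g)) := by
      conv_lhs => rw [h2]
      exact h6_N_mul h _ _
    rw [h3, Q₀.ord_mul (h6_N_ne_zero hh hu0) (h6_N_ne_zero hh hG0), h1, zero_add,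
      h6_N_prod, h34_ord_prod Q₀ S _ (fun Q _ => h6_N_ne_zero hh (zpow_ne_zero _ (hy0 Q)))]
    refine Finset.sum_congr rfl fun Q _ => ?_
    rw [h6_N_zpow hh, Q₀.ord_zpow]
  -- counting
  have hepos : ∀ P ∈ S, 0 < P.ord (h - algebraMap K F a) := fun P hP => (hS P).mp hP
  have hsum : ∑ P ∈ S, P.ord (h - algebraMap K F a) = (Module.finrank K⟮h⟯ F : ℤ) :=
    h75_fibre_sum hh a S hS
  have hτ0 := h6_sub_ne_zero hh.tr a
  have h1 := key (h - algebraMap K F a) hτ0
  rw [h6_N_sub, h34_ord_pow] at h1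
  have hge : ∀ Q ∈ S, Q₀.ord (h - algebraMap K F a) ≤ Q₀.ord (h6_N K h (y Q : F)) := by
    intro Q hQ
    refine h6_ord_N_nonunit_ringB hh a S hS (y Q) Q hQ ?_ Q₀ hQ₀
    rw [hyS Q Q hQ, if_pos rfl]
    norm_num
  have hzero : ∑ Q ∈ S, Q.ord (h - algebraMap K F a) *
      (Q₀.ord (h6_N K h (y Q : F)) - Q₀.ord (h - algebraMap K F a)) = 0 := by
    rw [Finset.sum_congr rfl (fun Q _ => mul_sub (Q.ord (h - algebraMap K F a)) _ _),
      Finset.sum_sub_distrib, ← h1, ← Finset.sum_mul, hsum]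
    ring
  have heq : ∀ Q ∈ S, Q₀.ord (h6_N K h (y Q : F)) = Q₀.ord (h - algebraMap K F a) := by
    intro Q hQ
    have h2 := (Finset.sum_eq_zero_iff_of_nonneg (fun Q hQ =>
      mul_nonneg (hepos Q hQ).le (sub_nonneg.mpr (hge Q hQ)))).mp hzero Q hQ
    rcases mul_eq_zero.mp h2 with h3 | h3
    · exact absurd h3 (hepos Q hQ).ne'
    · linarith
  rw [key f hf, Finset.mul_sum]
  refine Finset.sum_congr rfl fun Q hQ => ?_
  rw [heq Q hQ, mul_comm]

end AlgClosed

end Fermat.Agent.S27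

end
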