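import Fermat.Agent.S27.h6w_Defs
import Fermat.Agent.S27.h6w_NormAbs
import Fermat.Agent.S18.h34_HoloCore
import Fermat.Agent.S18.RR_Index

/-!
# S27 / B8a WEIL (W4, helper6): the fibre of a chart over a point -- setup

`h` a chart, `A = K[h]`, `B` the integral closure of `A` in `F`, `a : K`.
* `h6_evA ht a : A →ₐ[K] K` the point `h = a`, `h6_tau h a = h - a`, `h6_polyA ht x` the
  polynomial of `x ∈ A`;
* `h6_mem_tau_iff` : `y ∈ (h - a) B` iff `ord_Q y ≥ ord_Q (h - a)` along the fibre;
* values and orders of polynomials in `h` along the fibre;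
* denominators and uniformizers along the fibre (from `h75_exists_exact`).
-/

set_option autoImplicit false

noncomputable section

open AlgebraicCurve IntermediateField IsDedekindDomain

namespace Fermat.Agent.S27

open Fermat.Agent.S18 Fermat.Agent.S24
open scoped IntermediateField.algebraAdjoinAdjoin

variable {K F : Type*} [Field K] [Field F] [Algebra K F]

/-! ### The point `h = a` of `K[h]` -/

/-- The polynomial of an element of `K[h]`. -/
def h6_polyA {h : F} (ht : Transcendental K h) (x : h75_ringA K h) : Polynomial K :=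
  (Polynomial.algEquivOfTranscendental K h ht).symm x

/-- Evaluation `K[h] → K` at `h = a`. -/
def h6_evA {h : F} (ht : Transcendental K h) (a : K) : h75_ringA K h →ₐ[K] K :=
  (Polynomial.aeval a).comp (Polynomial.algEquivOfTranscendental K h ht).symm.toAlgHom

/-- `h - a` as an element of `K[h]`. -/
def h6_tau (h : F) (a : K) : h75_ringA K h :=
  h75_genA K h - algebraMap K (h75_ringA K h) a

theorem h6_tau_coe (h : F) (a : K) :
    ((h6_tau h a : h75_ringA K h) : F) = h - algebraMap K F a := rfl

theorem h6_evA_apply {h : F} (ht : Transcendental K h) (a : K) (x : h75_ringA K h) :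
    h6_evA ht a x = (h6_polyA ht x).eval a := by
  show Polynomial.aeval a ((Polynomial.algEquivOfTranscendental K h ht).symm x) = _
  rw [Polynomial.coe_aeval_eq_eval]
  rfl

theorem h6_aeval_polyA {h : F} (ht : Transcendental K h) (x : h75_ringA K h) :
    Polynomial.aeval h (h6_polyA ht x) = (x : F) := by
  have h1 : Polynomial.algEquivOfTranscendental K h ht (h6_polyA ht x) = x :=
    (Polynomial.algEquivOfTranscendental K h ht).apply_symm_apply x
  rw [Polynomial.algEquivOfTranscendental_apply] at h1
  have h2 := congrArg (Subtype.val) h1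
  rw [← h2]
  exact (Polynomial.aeval_subalgebra_coe (h6_polyA ht x) (h75_ringA K h)
    ⟨h, Algebra.self_mem_adjoin_singleton K h⟩).symm

theorem h6_polyA_mul {h : F} (ht : Transcendental K h) (x y : h75_ringA K h) :
    h6_polyA ht (x * y) = h6_polyA ht x * h6_polyA ht y :=
  map_mul (Polynomial.algEquivOfTranscendental K h ht).symm x y

theorem h6_polyA_ne_zero {h : F} (ht : Transcendental K h) {x : h75_ringA K h} (hx : x ≠ 0) :
    h6_polyA ht x ≠ 0 :=
  (map_ne_zero_iff _ (Polynomial.algEquivOfTranscendental K h ht).symm.injective).mpr hx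

theorem h6_polyA_tau {h : F} (ht : Transcendental K h) (a : K) :
    h6_polyA ht (h6_tau h a) = Polynomial.X - Polynomial.C a := by
  unfold h6_polyA
  rw [AlgEquiv.symm_apply_eq, map_sub, Polynomial.algEquivOfTranscendental_apply_X]
  have hC : Polynomial.algEquivOfTranscendental K h ht (Polynomial.C a) =
      algebraMap K (h75_ringA K h) a := (Polynomial.algEquivOfTranscendental K h ht).commutes a
  rw [hC]
  rfl

theorem h6_evA_tau {h : F} (ht : Transcendental K h) (a : K) :
    h6_evA ht a (h6_tau h a) = 0 := by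
  rw [h6_evA_apply, h6_polyA_tau]
  simp

theorem h6_evA_ker {h : F} (ht : Transcendental K h) (a : K) (x : h75_ringA K h)
    (hx : h6_evA ht a x = 0) : ∃ y : h75_ringA K h, x = h6_tau h a * y := by
  rw [h6_evA_apply] at hx
  obtain ⟨q, hq⟩ := Polynomial.dvd_iff_isRoot.mpr hx
  refine ⟨Polynomial.algEquivOfTranscendental K h ht q, ?_⟩
  have h1 : x = Polynomial.algEquivOfTranscendental K h ht (h6_polyA ht x) :=
    ((Polynomial.algEquivOfTranscendental K h ht).apply_symm_apply x).symm
  rw [h1, hq, map_mul]
  congr 1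
  rw [← h6_polyA_tau ht a]
  exact (Polynomial.algEquivOfTranscendental K h ht).apply_symm_apply _

/-! ### Places along the fibre -/

theorem h6_mem_of_fibre {h : F} (P : Place K F) (a : K)
    (hP : 0 < P.ord (h - algebraMap K F a)) : h ∈ P.toValuationSubring := by
  have h1 : h - algebraMap K F a ∈ P.toValuationSubring := h24_mem_of_ord_nonneg P hP.le
  have h2 := P.toValuationSubring.add_mem _ _ h1 (P.algebraMap_mem' a)
  rwa [sub_add_cancel] at h2

theorem h6_ord_nonneg_ringB {h : F} (P : Place K F) (hP : h ∈ P.toValuationSubring)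
    (y : h75_ringB K h) : 0 ≤ P.ord (y : F) :=
  h24_ord_nonneg_of_mem P (h75_ringB_le P hP y)

theorem h6_mem_ringB_of_ord {h : F} (hh : h75_IsChart K h) {f : F}
    (hf : ∀ P : Place K F, h ∈ P.toValuationSubring → 0 ≤ P.ord f) : f ∈ h75_ringB K h :=
  (h75_isIntegral_iff hh f).mpr fun P hP => h24_mem_of_ord_nonneg P (hf P hP)

theorem h6_tau_smul_coe (h : F) (a : K) (y : h75_ringB K h) :
    ((h6_tau h a • y : h75_ringB K h) : F) = (h - algebraMap K F a) * (y : F) := rfl

theorem h6_sub_ne_zero {h : F} (ht : Transcendental K h) (a : K) :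
    h - algebraMap K F a ≠ 0 := by
  intro h0
  exact ht ((sub_eq_zero.mp h0) ▸ isAlgebraic_algebraMap a)

/-- (G1) membership in `(h - a) B` is read off from the orders along the fibre. -/
theorem h6_mem_tau_iff {h : F} (hh : h75_IsChart K h) (a : K) (y : h75_ringB K h) :
    (∃ y' : h75_ringB K h, y = h6_tau h a • y') ↔
      ((y : F) = 0 ∨ ∀ Q : Place K F, 0 < Q.ord (h - algebraMap K F a) →
        Q.ord (h - algebraMap K F a) ≤ Q.ord (y : F)) := by
  have hτ0 := h6_sub_ne_zero hh.tr a
  constructor
  · rintro ⟨y', rfl⟩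
    by_cases hy' : (y' : F) = 0
    · left
      rw [h6_tau_smul_coe, hy', mul_zero]
    · right
      intro Q hQ
      rw [h6_tau_smul_coe, Q.ord_mul hτ0 hy']
      have := h6_ord_nonneg_ringB Q (h6_mem_of_fibre Q a hQ) y'
      omega
  · rintro (h0 | hord)
    · refine ⟨0, ?_⟩
      apply Subtype.ext
      rw [h6_tau_smul_coe, h0]
      simp
    · by_cases hy : (y : F) = 0
      · refine ⟨0, ?_⟩
        apply Subtype.ext
        rw [h6_tau_smul_coe, hy]
        simp
      have hmem : (y : F) / (h - algebraMap K F a) ∈ h75_ringB K h := by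
        apply h6_mem_ringB_of_ord hh
        intro P hP
        rw [h35_ord_div P hy hτ0]
        have h1 : 0 ≤ P.ord (y : F) := h6_ord_nonneg_ringB P hP y
        by_cases hPa : 0 < P.ord (h - algebraMap K F a)
        · have := hord P hPa
          omega
        · have h2 : h - algebraMap K F a ∈ P.toValuationSubring :=
            sub_mem hP (P.algebraMap_mem' a)
          have h3 := h24_ord_nonneg_of_mem P h2
          omega
      refine ⟨⟨_, hmem⟩, ?_⟩
      apply Subtype.ext
      rw [h6_tau_smul_coe]
      show (y : F) = (h - algebraMap K F a) * ((y : F) / (h - algebraMap K F a))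
      rw [mul_div_cancel₀ _ hτ0]

/-! ### Polynomials in `h` along the fibre -/

theorem h6_val_pow (P : Place K F) {f : F} {b : K} (hf : h39_Val P f b) (n : ℕ) :
    h39_Val P (f ^ n) (b ^ n) := by
  induction n with
  | zero =>
    rw [pow_zero, pow_zero]
    have := h39_val_algebraMap P (1 : K)
    rwa [map_one] at this
  | succ n ih =>
    rw [pow_succ, pow_succ]
    exact h39_val_mul P ih hf

/-- a polynomial in `h` takes the value `p(a)` at a place where `h` takes the value `a`. -/
theorem h6_val_aeval (P : Place K F) {h : F} {a : K} (hP : h39_Val P h a) (p : Polynomial K) :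
    h39_Val P (Polynomial.aeval h p) (p.eval a) := by
  induction p using Polynomial.induction_on' with
  | add p q hp hq =>
    rw [map_add, Polynomial.eval_add]
    exact h39_val_add P hp hq
  | monomial n c =>
    rw [Polynomial.aeval_monomial, Polynomial.eval_monomial]
    exact h39_val_mul P (h39_val_algebraMap P c) (h6_val_pow P hP n)

theorem h6_val_ne_zero (P : Place K F) {f : F} {b : K} (hf : h39_Val P f b) (hb : b ≠ 0) :
    f ≠ 0 := by
  rintro rfl
  have h0 : h39_Val P (0 : F) 0 := by
    have := h39_val_algebraMap P (0 : K)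
    rwa [map_zero] at this
  exact hb (h39_val_unique P hf h0)

/-- (P6) the order of a polynomial in `h` at a place over `a`. -/
theorem h6_ord_aeval (P : Place K F) {h : F} {a : K}
    (hP : 0 < P.ord (h - algebraMap K F a)) {p : Polynomial K} (hp : p ≠ 0) :
    P.ord (Polynomial.aeval h p) = (p.rootMultiplicity a : ℤ) * P.ord (h - algebraMap K F a) := by
  obtain ⟨q, hq, hqa⟩ := Polynomial.exists_eq_pow_rootMultiplicity_mul_and_not_dvd p hp a
  have hqa' : q.eval a ≠ 0 := fun h0 => hqa (Polynomial.dvd_iff_isRoot.mpr h0)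
  have hval : h39_Val P (Polynomial.aeval h q) (q.eval a) := h6_val_aeval P (Or.inr hP) q
  have hq0 : Polynomial.aeval h q ≠ 0 := h6_val_ne_zero P hval hqa'
  have hτ0 : h - algebraMap K F a ≠ 0 := by
    intro h0
    rw [h0, P.ord_zero] at hP
    exact lt_irrefl _ hP
  have h1 : Polynomial.aeval h p =
      (h - algebraMap K F a) ^ p.rootMultiplicity a * Polynomial.aeval h q := by
    conv_lhs => rw [hq]
    rw [map_mul, map_pow, map_sub, Polynomial.aeval_X, Polynomial.aeval_C]
  rw [h1, P.ord_mul (pow_ne_zero _ hτ0) hq0, h34_ord_pow, h39_ord_eq_zero_of_val P hval hqa',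
    add_zero]

/-! ### Denominators and prescribed orders -/

section AlgClosed

variable [IsAlgClosed K]

/-- (DEN) a denominator of `f` in `B` with the least possible orders along `S`. -/
theorem h6_exists_den {h : F} (hh : h75_IsChart K h) (S : Finset (Place K F))
    (hS : ∀ P ∈ S, h ∈ P.toValuationSubring) (f : F) (hf : f ≠ 0) :
    ∃ c : h75_ringB K h, (c : F) ≠ 0 ∧ (c : F) * f ∈ h75_ringB K h ∧
      ∀ P ∈ S, P.ord (c : F) = max 0 (-(P.ord f)) := by
  classical
  let T : Finset (Place K F) := S ∪ (h75_finite_ord_ne_chart hh f hf).toFinset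
  have hT : ∀ P ∈ T, h ∈ P.toValuationSubring := by
    intro P hP
    rcases Finset.mem_union.mp hP with hP | hP
    · exact hS P hP
    · exact ((Set.Finite.mem_toFinset _).mp hP).1
  obtain ⟨c, hc0, hcT, hcout⟩ := h75_exists_exact hh T hT (fun P => max 0 (-(P.ord f)))
  have hcB : c ∈ h75_ringB K h := by
    apply h6_mem_ringB_of_ord hh
    intro P hP
    by_cases hPT : P ∈ T
    · rw [hcT P hPT]
      exact le_max_left _ _
    · exact hcout P hP hPT
  refine ⟨⟨c, hcB⟩, hc0, ?_, fun P hP => hcT P (Finset.mem_union_left _ hP)⟩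
  apply h6_mem_ringB_of_ord hh
  intro P hP
  show 0 ≤ P.ord (c * f)
  rw [P.ord_mul hc0 hf]
  by_cases hPT : P ∈ T
  · rw [hcT P hPT]
    have := le_max_right 0 (-(P.ord f))
    omega
  · have h1 := hcout P hP hPT
    have h2 : P.ord f = 0 := by
      by_contra hne
      exact hPT (Finset.mem_union_right _ ((Set.Finite.mem_toFinset _).mpr ⟨hP, hne⟩))
    omega

/-- elements of `B` with prescribed orders along `S`. -/
theorem h6_exists_exact_ringB {h : F} (hh : h75_IsChart K h) (S : Finset (Place K F))
    (hS : ∀ P ∈ S, h ∈ P.toValuationSubring) (n : Place K F → ℕ) :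
    ∃ y : h75_ringB K h, (y : F) ≠ 0 ∧ ∀ P ∈ S, P.ord (y : F) = n P := by
  obtain ⟨c, hc0, hcS, hcout⟩ := h75_exists_exact hh S hS (fun P => (n P : ℤ))
  have hcB : c ∈ h75_ringB K h := by
    apply h6_mem_ringB_of_ord hh
    intro P hP
    by_cases hPS : P ∈ S
    · rw [hcS P hPS]
      exact Int.natCast_nonneg _
    · exact hcout P hP hPS
  exact ⟨⟨c, hcB⟩, hc0, hcS⟩

end AlgClosed

end Fermat.Agent.S27

end
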