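import Fermat.Agent.S27.h6w_NormOrd
import Fermat.Agent.S27.h6w_GenEig

/-!
# S27 / B8a WEIL (W4, helper6): the value of a norm at a point (FACT 1)

`h` a chart, `a : K`, `S` the fibre of `h` over `a`.  For `b ∈ B` with values `vb P` along `S`:
`N(b)(a) = ∏_{P ∈ S} vb P ^ e(P)`   (`h6_nu_eval_eq_prod`).

The fibre `B / (h - a) B` is filtered by the chart spaces `h75_chart h D` (`-E ≤ D ≤ 0`), each
step of dimension at most one (`h75_chart_succ`); this bounds the generalized eigenspaces of
multiplication by `b`, and `h6_det_of_genEigen` concludes.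
-/

set_option autoImplicit false

noncomputable section

open AlgebraicCurve IntermediateField IsDedekindDomain

namespace Fermat.Agent.S27

/-- one more vector raises the dimension by at most one. -/
theorem h6_finrank_le_succ {K V : Type*} [Field K] [AddCommGroup V] [Module K V]
    [FiniteDimensional K V] (W W' : Submodule K V) (v : V)
    (hW : W ≤ W' ⊔ Submodule.span K {v}) {m : ℕ} (hm : Module.finrank K W' ≤ m) :
    Module.finrank K W ≤ m + 1 := by
  have h1 := Submodule.finrank_mono hW
  have h2 := Submodule.finrank_add_le_finrank_add_finrank W' (Submodule.span K {v})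
  have h3 : Module.finrank K (Submodule.span K {v}) ≤ 1 := by
    refine (finrank_span_le_card _).trans ?_
    simp
  omega

theorem h6_finrank_le_of_le {K V : Type*} [Field K] [AddCommGroup V] [Module K V]
    [FiniteDimensional K V] (W W' : Submodule K V) (hW : W ≤ W') {m : ℕ}
    (hm : Module.finrank K W' ≤ m) : Module.finrank K W ≤ m :=
  (Submodule.finrank_mono hW).trans hm

theorem h6_scalar_sub_Mbar {K A B ι : Type*} [Field K] [CommRing A] [CommRing B]
    [Algebra A B] [Algebra K A] [Algebra K B] [IsScalarTower K A B] [Fintype ι] [DecidableEq ι]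
    (β : Module.Basis ι A B) (ev : A →ₐ[K] K) (c : K) (b : B) :
    Matrix.scalar ι c - h6_Mbar β ev b = h6_Mbar β ev (algebraMap K B c - b) := by
  rw [map_sub, h6_Mbar_algebraMap]

open Fermat.Agent.S18 Fermat.Agent.S24
open scoped IntermediateField.algebraAdjoinAdjoin

variable {K F : Type*} [Field K] [Field F] [Algebra K F]

/-- The `K`-subspace of `B` of the elements lying in the chart space `h75_chart h D`. -/
def h6_JD (h : F) (D : Divisor K F) : Submodule K (h75_ringB K h) :=
  Submodule.comap (IsScalarTower.toAlgHom K (h75_ringB K h) F).toLinearMap (h75_chart h D)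

theorem h6_mem_JD {h : F} {D : Divisor K F} {y : h75_ringB K h} :
    y ∈ h6_JD h D ↔ (y : F) ∈ h75_chart h D := Iff.rfl

theorem h6_val_sub (P : Place K F) {f g : F} {b c : K} (hf : h39_Val P f b)
    (hg : h39_Val P g c) : h39_Val P (f - g) (b - c) := by
  have h1 : h39_Val P (algebraMap K F (-1) * g) (-1 * c) :=
    h39_val_mul P (h39_val_algebraMap P (-1)) hg
  have h2 := h39_val_add P hf h1
  have e1 : f + algebraMap K F (-1) * g = f - g := by
    rw [map_neg, map_one]
    ring
  have e2 : b + -1 * c = b - c := by ring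
  rwa [e1, e2] at h2

section AlgClosed

variable [IsAlgClosed K]

/-- The chain bound: the image in the fibre of the chart space of `D` (`-E ≤ D ≤ 0`, supported
on the fibre) has dimension at most `∑ (D P + e P)`. -/
theorem h6_finrank_chain {h : F} (hh : h75_IsChart K h) (a : K) (S : Finset (Place K F))
    (hS : ∀ P, P ∈ S ↔ 0 < P.ord (h - algebraMap K F a))
    {ι : Type*} [Fintype ι] [DecidableEq ι]
    (β : Module.Basis ι (h75_ringA K h) (h75_ringB K h)) :
    ∀ (m : ℕ) (D : Divisor K F), (∀ P, D P ≤ 0) → (∀ P, P ∉ S → D P = 0) →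
      (∀ P ∈ S, -(P.ord (h - algebraMap K F a)) ≤ D P) →
      ∑ P ∈ S, (D P + P.ord (h - algebraMap K F a)) = (m : ℤ) →
      Module.finrank K ((h6_JD h D).map (h6_kap β (h6_evA hh.tr a))) ≤ m := by
  classical
  have hSc : ∀ P ∈ S, h ∈ P.toValuationSubring := fun P hP => h6_mem_of_fibre P a ((hS P).mp hP)
  intro m
  induction m with
  | zero =>
    intro D hD0 hDS hDe hsum
    have hterm : ∀ P ∈ S, D P + P.ord (h - algebraMap K F a) = 0 := by
      have hnn : ∀ P ∈ S, 0 ≤ D P + P.ord (h - algebraMap K F a) := by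
        intro P hP
        have := hDe P hP
        omega
      exact (Finset.sum_eq_zero_iff_of_nonneg hnn).mp (by simpa using hsum)
    have hbot : (h6_JD h D).map (h6_kap β (h6_evA hh.tr a)) = ⊥ := by
      rw [Submodule.eq_bot_iff]
      rintro _ ⟨y, hy, rfl⟩
      rw [h6_kap_eq_zero_iff β (h6_evA hh.tr a) (h6_tau h a) (h6_evA_ker hh.tr a)
        (h6_evA_tau hh.tr a), h6_mem_tau_iff hh a]
      by_cases hy0 : (y : F) = 0
      · exact Or.inl hy0
      right
      intro Q hQ
      have hQS : Q ∈ S := (hS Q).mpr hQ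
      have h1 := (h75_mem_chart_iff.mp (h6_mem_JD.mp hy)) Q (hSc Q hQS)
      rcases h1 with h1 | h1
      · exact absurd h1 hy0
      · have := hterm Q hQS
        omega
    rw [hbot, finrank_bot]
  | succ m ih =>
    intro D hD0 hDS hDe hsum
    -- a place where `D` can be lowered
    have hex : ∃ Q₁ ∈ S, 0 < D Q₁ + Q₁.ord (h - algebraMap K F a) := by
      by_contra hcon
      push Not at hcon
      have h1 : ∑ P ∈ S, (D P + P.ord (h - algebraMap K F a)) ≤ 0 :=
        Finset.sum_nonpos hcon
      rw [hsum] at h1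
      have : (0 : ℤ) ≤ (m : ℤ) := Int.natCast_nonneg m
      push_cast at h1
      omega
    obtain ⟨Q₁, hQ₁, hpos⟩ := hex
    set D' : Divisor K F := D - Finsupp.single Q₁ 1 with hD'
    have hD'app : ∀ P, D' P = D P - (if P = Q₁ then 1 else 0) := by
      intro P
      rw [hD', Finsupp.sub_apply, Finsupp.single_apply]
      by_cases hP : P = Q₁
      · rw [if_pos hP.symm, if_pos hP]
      · rw [if_neg (Ne.symm hP), if_neg hP]
    have hD'0 : ∀ P, D' P ≤ 0 := by
      intro P
      rw [hD'app]
      have := hD0 P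
      split_ifs <;> omega
    have hD'S : ∀ P, P ∉ S → D' P = 0 := by
      intro P hP
      rw [hD'app, hDS P hP, if_neg (fun h0 : P = Q₁ => hP (h0 ▸ hQ₁))]
      simp
    have hD'e : ∀ P ∈ S, -(P.ord (h - algebraMap K F a)) ≤ D' P := by
      intro P hP
      rw [hD'app]
      have := hDe P hP
      by_cases hPQ : P = Q₁
      · rw [if_pos hPQ]
        rw [hPQ]
        omega
      · rw [if_neg hPQ]
        omega
    have hsum' : ∑ P ∈ S, (D' P + P.ord (h - algebraMap K F a)) = (m : ℤ) := by
      have h1 : ∑ P ∈ S, (D' P + P.ord (h - algebraMap K F a)) =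
          ∑ P ∈ S, (D P + P.ord (h - algebraMap K F a)) -
            ∑ P ∈ S, (if P = Q₁ then (1 : ℤ) else 0) := by
        rw [← Finset.sum_sub_distrib]
        refine Finset.sum_congr rfl fun P _ => ?_
        rw [hD'app]
        ring
      rw [h1, hsum, Finset.sum_ite_eq' S Q₁ (fun _ => (1 : ℤ)), if_pos hQ₁]
      push_cast
      ring
    have hIH := ih D' hD'0 hD'S hD'e hsum'
    -- the step
    have hDD : D' + Finsupp.single Q₁ 1 = D := by
      rw [hD', sub_add_cancel]
    obtain ⟨hle, -, hrel⟩ := h75_chart_succ hh D' Q₁ (hSc Q₁ hQ₁)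
    rw [hDD] at hle hrel
    have hrel' : Module.finrank K ((h75_chart h D).map (h75_chart h D').mkQ) = 1 := hrel
    obtain ⟨v, -, hv⟩ := finrank_eq_one_iff'.mp hrel'
    obtain ⟨f₀, hf₀D, hf₀v⟩ := v.2
    have hstep : ∀ g ∈ h75_chart h D, ∃ c : K, g - c • f₀ ∈ h75_chart h D' := by
      intro g hg
      obtain ⟨c, hc⟩ := hv ⟨(h75_chart h D').mkQ g, ⟨g, hg, rfl⟩⟩
      refine ⟨c, ?_⟩
      have h1 : c • (v : F ⧸ h75_chart h D') = (h75_chart h D').mkQ g := by
        have := congrArg Subtype.val hc
        exact this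
      rw [← hf₀v, ← map_smul, eq_comm, ← sub_eq_zero, ← map_sub] at h1
      exact (Submodule.Quotient.mk_eq_zero _).mp h1
    have hD0' : D ≤ 0 := Finsupp.le_def.mpr fun P => by simpa using hD0 P
    have hf₀B : f₀ ∈ h75_ringB K h :=
      (h75_isIntegral_iff hh f₀).mpr
        (h75_mem_chart_zero_iff.mp (h75_chart_mono h hD0' hf₀D))
    have hsub : (h6_JD h D).map (h6_kap β (h6_evA hh.tr a)) ≤
        (h6_JD h D').map (h6_kap β (h6_evA hh.tr a)) ⊔
          Submodule.span K {h6_kap β (h6_evA hh.tr a) ⟨f₀, hf₀B⟩} := by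
      rintro _ ⟨y, hy, rfl⟩
      obtain ⟨c, hc⟩ := hstep (y : F) (h6_mem_JD.mp hy)
      have hmem : y - c • (⟨f₀, hf₀B⟩ : h75_ringB K h) ∈ h6_JD h D' := by
        rw [h6_mem_JD]
        exact hc
      have hdec : h6_kap β (h6_evA hh.tr a) y =
          h6_kap β (h6_evA hh.tr a) (y - c • (⟨f₀, hf₀B⟩ : h75_ringB K h)) +
            c • h6_kap β (h6_evA hh.tr a) ⟨f₀, hf₀B⟩ := by
        rw [← map_smul, ← map_add, sub_add_cancel]
      rw [hdec]
      exact Submodule.add_mem_sup (Submodule.mem_map_of_mem hmem)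
        (Submodule.smul_mem _ c (Submodule.mem_span_singleton_self _))
    exact h6_finrank_le_succ _ _ _ hsub hIH

/-- **FACT 1** (for integral elements): the value at `a` of the norm of `b ∈ B` is the product
of the values of `b` along the fibre, with the ramification indices as exponents. -/
theorem h6_nu_eval_eq_prod {h : F} (hh : h75_IsChart K h) (a : K) (S : Finset (Place K F))
    (hS : ∀ P, P ∈ S ↔ 0 < P.ord (h - algebraMap K F a)) (b : h75_ringB K h)
    (vb : Place K F → K) (hvb : ∀ P ∈ S, h39_Val P (b : F) (vb P)) :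
    (h6_nu hh.tr b).eval a = ∏ P ∈ S, vb P ^ (P.ord (h - algebraMap K F a)).toNat := by
  have := h75_ringA_isPrincipalIdealRing hh.tr
  have := h75_ringB_isDedekindDomain hh
  have := h75_ringB_finite hh
  have := h75_ringB_free hh
  classical
  have hSc : ∀ P ∈ S, h ∈ P.toValuationSubring := fun P hP => h6_mem_of_fibre P a ((hS P).mp hP)
  have hepos : ∀ P ∈ S, 0 < P.ord (h - algebraMap K F a) := fun P hP => (hS P).mp hP
  have hsum : ∑ P ∈ S, P.ord (h - algebraMap K F a) = (Module.finrank K⟮h⟯ F : ℤ) :=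
    h75_fibre_sum hh a S hS
  have hne : S.Nonempty := by
    by_contra hemp
    rw [Finset.not_nonempty_iff_eq_empty] at hemp
    rw [hemp, Finset.sum_empty] at hsum
    have := hh.fin
    have hpos : 0 < Module.finrank K⟮h⟯ F := Module.finrank_pos
    have : (0 : ℤ) < (Module.finrank K⟮h⟯ F : ℤ) := by exact_mod_cast hpos
    omega
  obtain ⟨P₀, hP₀⟩ := hne
  rw [h6_nu_eval, ← h6_det_Mbar (Module.Free.chooseBasis (h75_ringA K h) (h75_ringB K h))
    (h6_evA hh.tr a) b]
  refine h6_det_of_genEigen _ S (fun P => (P.ord (h - algebraMap K F a)).toNat) vb ?_ ?_ ?_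
  · -- (a) eigenvalues are values
    intro c hc
    rw [h6_scalar_sub_Mbar, h6_det_Mbar, ← h6_nu_eval]
    have hcoe : ((algebraMap K (h75_ringB K h) c - b : h75_ringB K h) : F) =
        algebraMap K F c - (b : F) := rfl
    have hval : ∀ P ∈ S, h39_Val P ((algebraMap K (h75_ringB K h) c - b : h75_ringB K h) : F)
        (c - vb P) := by
      intro P hP
      rw [hcoe]
      exact h6_val_sub P (h39_val_algebraMap P c) (hvb P hP)
    have hcv : ∀ P ∈ S, c - vb P ≠ 0 := fun P hP h0 => hc P hP (sub_eq_zero.mp h0).symm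
    refine h6_nu_eval_ne_zero hh a _ (h6_val_ne_zero P₀ (hval P₀ hP₀) (hcv P₀ hP₀)) ?_
    intro P hP
    exact h39_ord_eq_zero_of_val P (hval P ((hS P).mpr hP)) (hcv P ((hS P).mpr hP))
  · -- (b) the generalized eigenspaces
    intro v S' hS'
    have hS'S : S' ⊆ S := fun P hP => ((hS' P).mp hP).1
    -- the divisor `-∑_{P ∈ S \ S'} e P • P`
    set Dv : Divisor K F := Finsupp.onFinset S
      (fun P => if P ∈ S ∧ P ∉ S' then -(P.ord (h - algebraMap K F a)) else 0)
      (by
        intro P hP
        by_contra hPS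
        exact hP (if_neg (fun hc => hPS hc.1))) with hDv
    have hDvapp : ∀ P, Dv P = if P ∈ S ∧ P ∉ S' then -(P.ord (h - algebraMap K F a)) else 0 :=
      fun P => rfl
    have hD0 : ∀ P, Dv P ≤ 0 := by
      intro P
      rw [hDvapp]
      split_ifs with hc
      · have := hepos P hc.1
        omega
      · exact le_refl _
    have hDS : ∀ P, P ∉ S → Dv P = 0 := by
      intro P hP
      rw [hDvapp, if_neg (fun hc => hP hc.1)]
    have hDe : ∀ P ∈ S, -(P.ord (h - algebraMap K F a)) ≤ Dv P := by
      intro P hP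
      rw [hDvapp]
      split_ifs with hc
      · exact le_refl _
      · have := hepos P hP
        omega
    have hDsum : ∑ P ∈ S, (Dv P + P.ord (h - algebraMap K F a)) =
        ((∑ P ∈ S', (P.ord (h - algebraMap K F a)).toNat : ℕ) : ℤ) := by
      have h1 : ∀ P ∈ S, Dv P + P.ord (h - algebraMap K F a) =
          if P ∈ S' then ((P.ord (h - algebraMap K F a)).toNat : ℤ) else 0 := by
        intro P hP
        rw [hDvapp]
        by_cases hPS' : P ∈ S'
        · rw [if_neg (fun hc => hc.2 hPS'), if_pos hPS', zero_add,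
            Int.toNat_of_nonneg (hepos P hP).le]
        · rw [if_pos ⟨hP, hPS'⟩, if_neg hPS']
          ring
      rw [Finset.sum_congr rfl h1, Finset.sum_ite_mem, Finset.inter_eq_right.mpr hS'S]
      push_cast
      rfl
    have hchain := h6_finrank_chain hh a S hS
      (Module.Free.chooseBasis (h75_ringA K h) (h75_ringB K h)) _ Dv hD0 hDS hDe hDsum
    refine h6_finrank_le_of_le _ _ ?_ hchain
    intro w hw
    obtain ⟨y, k, rfl, hy⟩ := h6_mem_maxGenEigenspace
      (Module.Free.chooseBasis (h75_ringA K h) (h75_ringB K h)) (h6_evA hh.tr a) (h6_tau h a)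
      (h6_evA_ker hh.tr a) (h6_evA_tau hh.tr a) b v w hw
    refine Submodule.mem_map_of_mem ?_
    rw [h6_mem_JD, h75_mem_chart_iff]
    intro P hPc
    by_cases hy0 : (y : F) = 0
    · exact Or.inl hy0
    right
    rw [hDvapp]
    by_cases hc : P ∈ S ∧ P ∉ S'
    · rw [if_pos hc, neg_neg]
      -- `b - v` is a unit at `P`
      have hvP : vb P - v ≠ 0 := fun h0 => hc.2 ((hS' P).mpr ⟨hc.1, sub_eq_zero.mp h0⟩)
      have hcoe : ((b - algebraMap K (h75_ringB K h) v : h75_ringB K h) : F) =
          (b : F) - algebraMap K F v := rfl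
      have hval : h39_Val P ((b : F) - algebraMap K F v) (vb P - v) :=
        h6_val_sub P (hvb P hc.1) (h39_val_algebraMap P v)
      have hbv0 : (b : F) - algebraMap K F v ≠ 0 := h6_val_ne_zero P hval hvP
      have hbvord : P.ord ((b : F) - algebraMap K F v) = 0 := h39_ord_eq_zero_of_val P hval hvP
      have hcoe2 : (((b - algebraMap K (h75_ringB K h) v) ^ k * y : h75_ringB K h) : F) =
          ((b : F) - algebraMap K F v) ^ k * (y : F) := rfl
      rw [h6_mem_tau_iff hh a, hcoe2] at hy
      rcases hy with hy | hy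
      · exact absurd hy (mul_ne_zero (pow_ne_zero _ hbv0) hy0)
      · have h2 := hy P (hepos P hc.1)
        rw [P.ord_mul (pow_ne_zero _ hbv0) hy0, h34_ord_pow, hbvord, mul_zero, zero_add] at h2
        exact h2
    · rw [if_neg hc, neg_zero]
      exact h6_ord_nonneg_ringB P hPc y
  · -- (c) the fundamental identity
    rw [← Module.finrank_eq_card_chooseBasisIndex, ← h75_ringB_finrank hh]
    have h1 : ((∑ P ∈ S, (P.ord (h - algebraMap K F a)).toNat : ℕ) : ℤ) =
        (Module.finrank K⟮h⟯ F : ℤ) := by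
      rw [← hsum]
      push_cast
      exact Finset.sum_congr rfl fun P hP => Int.toNat_of_nonneg (hepos P hP).le
    exact_mod_cast h1.symm

end AlgClosed

end Fermat.Agent.S27

end
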