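import Fermat.Agent.S27.h57_SemiAct
import Fermat.Agent.S18.RR_Riemann

/-!
# S27 / B6: a Frobenius-fixed divisor class contains a Frobenius-invariant divisor

* `h75_hilbert90` (Mathlib only): Hilbert 90 for a ring automorphism `σ` of a field: if the
  `t`-fold norm `f σ(f) ⋯ σ^(t-1)(f)` is `1` and `σ^0, …, σ^(t-1)` are pairwise distinct on the
  fixed field of `σ^t`, then `f σ(g) = g` for some `g ≠ 0` (Lagrange resolvent).
* `h75_exists_invariant`: for a `p^e`-Frobenius structure `σ` on a function field with a chart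
  over an algebraically closed field, every place being fixed by a power of `σ`: a divisor `D`
  with `σ D ∼ D` is linearly equivalent to a `σ`-invariant divisor.
* `h75_exists_fixed_mul`: `σ f = c f` with `c` constant implies that a constant multiple of `f`
  is `σ`-fixed.
-/

set_option autoImplicit false

open AlgebraicCurve

namespace Fermat.Agent.S27

open Fermat.Agent.S18

section H90

/-- **Hilbert 90** for a ring automorphism of a field (Lagrange resolvent). -/
theorem h75_hilbert90 {L : Type*} [Field L] (σ : L ≃+* L) (t : ℕ) (ht : 0 < t) (f : L)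
    (hN : ∏ i ∈ Finset.range t, (σ ^ i) f = 1)
    (hdist : ∀ i < t, ∀ j < t, i ≠ j → ∃ θ : L, (σ ^ t) θ = θ ∧ (σ ^ i) θ ≠ (σ ^ j) θ) :
    ∃ g : L, g ≠ 0 ∧ f * σ g = g := by
  classical
  let M : Submonoid L :=
    { carrier := {θ | (σ ^ t) θ = θ}
      mul_mem' := fun {a b} ha hb => by
        show (σ ^ t) (a * b) = a * b
        rw [map_mul, show (σ ^ t) a = a from ha, show (σ ^ t) b = b from hb]
      one_mem' := map_one _ }
  let χ : Fin t → (M →* L) := fun i => ((σ ^ (i : ℕ) : L ≃+* L) : L →* L).comp M.subtype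
  have hχ : Function.Injective χ := by
    intro i j hij
    by_contra hne
    have hne' : (i : ℕ) ≠ (j : ℕ) := fun h => hne (Fin.ext h)
    obtain ⟨θ, hθ, hθ'⟩ := hdist i i.2 j j.2 hne'
    exact hθ' (DFunLike.congr_fun hij ⟨θ, hθ⟩)
  have hli : LinearIndependent L (fun i : Fin t => (χ i : M → L)) :=
    (linearIndependent_monoidHom M L).comp χ hχ
  let c : ℕ → L := fun i => ∏ j ∈ Finset.range i, (σ ^ j) f
  have hc0 : c 0 = 1 := Finset.prod_range_zero _
  have hct : c t = 1 := hN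
  have hcs : ∀ i, f * σ (c i) = c (i + 1) := by
    intro i
    show f * σ (∏ j ∈ Finset.range i, (σ ^ j) f) = ∏ j ∈ Finset.range (i + 1), (σ ^ j) f
    rw [map_prod, Finset.prod_range_succ', pow_zero, RingAut.one_apply, mul_comm]
    congr 1
    apply Finset.prod_congr rfl
    intro j _
    rw [pow_succ', RingAut.mul_apply]
  have hex : ∃ θ : L, (σ ^ t) θ = θ ∧ ∑ i ∈ Finset.range t, c i * (σ ^ i) θ ≠ 0 := by
    by_contra hcon
    push Not at hcon
    have h0 : ∑ i : Fin t, c i • (χ i : M → L) = 0 := by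
      funext θ
      rw [Finset.sum_apply]
      simp only [Pi.smul_apply, smul_eq_mul, Pi.zero_apply]
      have h := Fin.sum_univ_eq_sum_range (fun i => c i * (σ ^ i) (θ : L)) t
      exact h.trans (hcon θ θ.2)
    have h1 := (Fintype.linearIndependent_iff.mp hli) (fun i => c i) h0 ⟨0, ht⟩
    rw [hc0] at h1
    exact one_ne_zero h1
  obtain ⟨θ, hθ, hg⟩ := hex
  refine ⟨_, hg, ?_⟩
  have h1 : f * σ (∑ i ∈ Finset.range t, c i * (σ ^ i) θ)
      = ∑ i ∈ Finset.range t, c (i + 1) * (σ ^ (i + 1)) θ := by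
    rw [map_sum, Finset.mul_sum]
    apply Finset.sum_congr rfl
    intro i _
    rw [map_mul, ← mul_assoc, hcs i, pow_succ', RingAut.mul_apply]
  have h2 := Finset.sum_range_succ' (fun i => c i * (σ ^ i) θ) t
  have h3 := Finset.sum_range_succ (fun i => c i * (σ ^ i) θ) t
  rw [h3, hct, hθ, hc0, pow_zero, RingAut.one_apply] at h2
  rw [h1]
  linear_combination -h2

end H90

section InvClass

variable {K F : Type*} [Field K] [Field F] [Algebra K F]

/-- the order of a finite product of nonzero functions -/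
theorem h75_ord_prod (v : Place K F) {ι : Type*} (s : Finset ι) (φ : ι → F)
    (h : ∀ i ∈ s, φ i ≠ 0) : v.ord (∏ i ∈ s, φ i) = ∑ i ∈ s, v.ord (φ i) := by
  classical
  induction s using Finset.induction_on with
  | empty => simp
  | insert a s ha ih =>
    rw [Finset.prod_insert ha, Finset.sum_insert ha,
      v.ord_mul (h a (Finset.mem_insert_self a s))
        (Finset.prod_ne_zero_iff.mpr fun i hi => h i (Finset.mem_insert_of_mem hi)),
      ih fun i hi => h i (Finset.mem_insert_of_mem hi)]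

/-- if every place is fixed by a power of `σ`, so is every divisor -/
theorem h75_exists_pow_smul_eq (σ : h57_SemiAut K F)
    (hper : ∀ v : Place K F, ∃ n : ℕ, 0 < n ∧ σ ^ n • v = v) (D : Divisor K F) :
    ∃ s : ℕ, 0 < s ∧ σ ^ s • D = D := by
  classical
  choose n hn0 hn using hper
  refine ⟨∏ v ∈ D.support, n v, Finset.prod_pos fun v _ => hn0 v, ?_⟩
  have hfix : ∀ v ∈ D.support, σ ^ (∏ w ∈ D.support, n w) • v = v := by
    intro v hv
    obtain ⟨m, hm⟩ := Finset.dvd_prod_of_mem n hv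
    rw [hm, pow_mul]
    have h1 : σ ^ n v ∈ MulAction.stabilizer (h57_SemiAut K F) v :=
      MulAction.mem_stabilizer_iff.mpr (hn v)
    exact MulAction.mem_stabilizer_iff.mp (pow_mem h1 m)
  rw [h57_smul_def]
  conv_rhs => rw [← Finsupp.mapDomain_id (v := D)]
  exact Finsupp.mapDomain_congr fun v hv => hfix v hv

theorem h75_coe_pow (σ : h57_SemiAut K F) (n : ℕ) :
    ((σ ^ n : h57_SemiAut K F) : F ≃+* F) = (σ : F ≃+* F) ^ n := rfl

/-- a power of a Frobenius structure on a constant -/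
theorem h75_frob_pow_const {q : ℕ} {σ : h57_SemiAut K F} (hσ : h57_IsFrob q σ) (i : ℕ) (c : K) :
    ((σ : F ≃+* F) ^ i) (algebraMap K F c) = algebraMap K F (c ^ q ^ i) := by
  rw [← h75_coe_pow]
  exact hσ.pow i c

/-- the `s`-fold norm of a constant under a `q`-Frobenius structure -/
theorem h75_frob_norm_const {q : ℕ} {σ : h57_SemiAut K F} (hσ : h57_IsFrob q σ) (s : ℕ)
    (c : K) :
    ∏ i ∈ Finset.range s, ((σ : F ≃+* F) ^ i) (algebraMap K F c)
      = algebraMap K F (c ^ ∑ i ∈ Finset.range s, q ^ i) := by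
  rw [← Finset.prod_pow_eq_pow_sum, map_prod]
  exact Finset.prod_congr rfl fun i _ => h75_frob_pow_const hσ i c

/-- the powers `σ^0, …, σ^(s-1)` of a `q`-Frobenius structure (`q = p^e`, `p = char K`) are
pairwise distinct on the constants fixed by `σ^s`. -/
theorem h75_frob_dist [IsAlgClosed K] (p : ℕ) [Fact p.Prime] [CharP K p] (e : ℕ) (he : 0 < e)
    {σ : h57_SemiAut K F} (hσ : h57_IsFrob (p ^ e) σ) (s : ℕ) :
    ∀ i < s, ∀ j < s, i ≠ j → ∃ θ : F, ((σ : F ≃+* F) ^ s) θ = θ ∧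
      ((σ : F ≃+* F) ^ i) θ ≠ ((σ : F ≃+* F) ^ j) θ := by
  have hp : p.Prime := Fact.out
  set q := p ^ e with hq
  have hq2 : 2 ≤ q := by
    calc 2 ≤ p := hp.two_le
      _ = p ^ 1 := (pow_one p).symm
      _ ≤ p ^ e := Nat.pow_le_pow_right hp.pos he
  intro i hi j hj hij
  have hs2 : 2 ≤ s := by omega
  have hqs : 2 ≤ q ^ s := le_trans hq2 (Nat.le_self_pow (by omega) q)
  -- `q^s - 1` is invertible in `K`
  have hne : NeZero ((q ^ s - 1 : ℕ) : K) := by
    refine ⟨?_⟩
    rw [Ne, CharP.cast_eq_zero_iff K p]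
    intro hdvd
    have h1 : p ∣ q ^ s := by
      rw [hq, ← pow_mul]
      exact dvd_pow_self p (Nat.mul_ne_zero he.ne' (by omega))
    have h2 : p ∣ q ^ s - (q ^ s - 1) := Nat.dvd_sub h1 hdvd
    have h3 : q ^ s - (q ^ s - 1) = 1 := by omega
    rw [h3] at h2
    exact hp.one_lt.ne' (Nat.dvd_one.mp h2)
  obtain ⟨ζ, hζ⟩ := HasEnoughRootsOfUnity.exists_primitiveRoot K (q ^ s - 1)
  have hζs : ζ ^ q ^ s = ζ := by
    have h1 : q ^ s = (q ^ s - 1) + 1 := by omega
    rw [h1, pow_succ, hζ.pow_eq_one, one_mul]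
  have hlt : ∀ a < s, q ^ a < q ^ s - 1 := by
    intro a ha
    have h1 : q ^ a ≤ q ^ (s - 1) := Nat.pow_le_pow_right (by omega) (by omega)
    have h2 : q ^ s = q * q ^ (s - 1) := by
      rw [← pow_succ']
      congr 1
      omega
    have h3 : 2 ≤ q ^ (s - 1) := le_trans hq2 (Nat.le_self_pow (by omega) q)
    have h4 : 2 * q ^ (s - 1) ≤ q * q ^ (s - 1) := Nat.mul_le_mul_right _ hq2
    omega
  refine ⟨algebraMap K F ζ, ?_, ?_⟩
  · rw [h75_frob_pow_const hσ, hζs]
  · rw [h75_frob_pow_const hσ, h75_frob_pow_const hσ]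
    intro h
    have h1 : ζ ^ q ^ i = ζ ^ q ^ j := (algebraMap K F).injective h
    have h2 := hζ.pow_inj (hlt i hi) (hlt j hj) h1
    exact hij (Nat.pow_right_injective hq2 h2)

/-- **INV-CLASS.** A divisor whose class is fixed by a Frobenius structure is linearly
equivalent to an invariant divisor. -/
theorem h75_exists_invariant [IsAlgClosed K] {x : F} (hx : h75_IsChart K x)
    (p : ℕ) [Fact p.Prime] [CharP K p] (e : ℕ) (he : 0 < e)
    (σ : h57_SemiAut K F) (hσ : h57_IsFrob (p ^ e) σ)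
    (hper : ∀ v : Place K F, ∃ n : ℕ, 0 < n ∧ σ ^ n • v = v)
    (D : Divisor K F) (hD : σ • D - D ∈ Divisor.principal (K := K) (F := F)) :
    ∃ D' : Divisor K F, D' - D ∈ Divisor.principal (K := K) (F := F) ∧ σ • D' = D' := by
  classical
  obtain ⟨f, hf0, hf⟩ := hD
  obtain ⟨s, hs0, hs⟩ := h75_exists_pow_smul_eq σ hper D
  set q := p ^ e with hq
  -- orders of the conjugates of `f`
  have hord : ∀ (i : ℕ) (v : Place K F),
      v.ord (((σ : F ≃+* F) ^ i) f) = (σ ^ (i + 1) • D) v - (σ ^ i • D) v := by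
    intro i v
    have h1 := h57_smul_div (σ ^ i) hf v
    rw [h75_coe_pow] at h1
    rw [← h1, smul_sub, ← mul_smul, ← pow_succ, Finsupp.sub_apply]
  have hne : ∀ i ∈ Finset.range s, ((σ : F ≃+* F) ^ i) f ≠ 0 := fun i _ =>
    (map_ne_zero_iff _ ((σ : F ≃+* F) ^ i).injective).mpr hf0
  -- the norm of `f` has trivial divisor, hence is a constant
  have hN0 : ∏ i ∈ Finset.range s, ((σ : F ≃+* F) ^ i) f ≠ 0 :=
    Finset.prod_ne_zero_iff.mpr hne
  have hNord : ∀ v : Place K F, v.ord (∏ i ∈ Finset.range s, ((σ : F ≃+* F) ^ i) f) = 0 := by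
    intro v
    rw [h75_ord_prod v _ _ hne]
    simp only [hord]
    rw [Finset.sum_range_sub (fun i => (σ ^ i • D) v) s, hs, pow_zero, one_smul, sub_self]
  obtain ⟨c, hc0, hNc⟩ : ∃ c : K, c ≠ 0 ∧
      ∏ i ∈ Finset.range s, ((σ : F ≃+* F) ^ i) f = algebraMap K F c := by
    have hmem : ∏ i ∈ Finset.range s, ((σ : F ≃+* F) ^ i) f
        ∈ riemannRochSpace (0 : Divisor K F) := by
      rw [mem_riemannRochSpace_iff]
      intro v
      right
      rw [hNord v]
      simp
    rw [h7_rr_zero_eq hx, Submodule.mem_span_singleton] at hmem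
    obtain ⟨c, hc⟩ := hmem
    rw [Algebra.smul_def, mul_one] at hc
    refine ⟨c, ?_, hc.symm⟩
    rintro rfl
    rw [map_zero] at hc
    exact hN0 hc.symm
  -- normalise the norm to `1`
  have hm : 0 < ∑ i ∈ Finset.range s, q ^ i := by
    have hp : p.Prime := Fact.out
    have hqpos : 0 < q := pow_pos hp.pos e
    exact Finset.sum_pos (fun i _ => pow_pos hqpos i) ⟨0, Finset.mem_range.mpr hs0⟩
  obtain ⟨lam, hlam⟩ := IsAlgClosed.exists_pow_nat_eq c⁻¹ hm
  have hlam0 : lam ≠ 0 := by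
    rintro rfl
    rw [zero_pow hm.ne'] at hlam
    exact inv_ne_zero hc0 hlam.symm
  have hN1 : ∏ i ∈ Finset.range s, ((σ : F ≃+* F) ^ i) (algebraMap K F lam * f) = 1 := by
    simp only [map_mul]
    rw [Finset.prod_mul_distrib, h75_frob_norm_const hσ, hlam, hNc, ← map_mul,
      inv_mul_cancel₀ hc0, map_one]
  obtain ⟨g, hg0, hg⟩ := h75_hilbert90 (σ : F ≃+* F) s hs0 (algebraMap K F lam * f) hN1
    (h75_frob_dist p e he hσ s)
  obtain ⟨Dg, hDg⟩ := h7_exists_div hx g hg0
  refine ⟨D + Dg, ⟨g, hg0, fun v => by rw [add_sub_cancel_left]; exact hDg v⟩, ?_⟩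
  ext v
  rw [smul_add, Finsupp.add_apply, Finsupp.add_apply, h57_smul_div σ hDg v, hDg v]
  have h1 := hf v
  rw [Finsupp.sub_apply] at h1
  have hσg0 : (σ : F ≃+* F) g ≠ 0 := (map_ne_zero_iff _ (σ : F ≃+* F).injective).mpr hg0
  have hlamF : algebraMap K F lam ≠ 0 := (map_ne_zero_iff _ (algebraMap K F).injective).mpr hlam0
  have h2 : v.ord g = v.ord f + v.ord ((σ : F ≃+* F) g) := by
    conv_lhs => rw [← hg]
    rw [v.ord_mul (mul_ne_zero hlamF hf0) hσg0, v.ord_mul hlamF hf0,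
      Fermat.Agent.S24.h35_ord_algebraMap, zero_add]
  linarith

/-- a function whose divisor is invariant under a Frobenius structure is, up to a constant
factor, a fixed function. -/
theorem h75_exists_fixed_mul [IsAlgClosed K] {x : F} (hx : h75_IsChart K x)
    (p : ℕ) [Fact p.Prime] [CharP K p] (e : ℕ) (he : 0 < e)
    (σ : h57_SemiAut K F) (hσ : h57_IsFrob (p ^ e) σ)
    (Df : Divisor K F) (f : F) (hf0 : f ≠ 0) (hDf : ∀ v : Place K F, Df v = v.ord f)
    (hinv : σ • Df = Df) :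
    ∃ μ : K, μ ≠ 0 ∧ (σ : F ≃+* F) (algebraMap K F μ * f) = algebraMap K F μ * f := by
  have hp : p.Prime := Fact.out
  set q := p ^ e with hq
  have hq2 : 2 ≤ q := by
    calc 2 ≤ p := hp.two_le
      _ = p ^ 1 := (pow_one p).symm
      _ ≤ p ^ e := Nat.pow_le_pow_right hp.pos he
  have hσf0 : (σ : F ≃+* F) f ≠ 0 := (map_ne_zero_iff _ (σ : F ≃+* F).injective).mpr hf0
  -- `σ f / f` has trivial divisor, hence is a constant
  obtain ⟨c, hc0, hc⟩ : ∃ c : K, c ≠ 0 ∧ (σ : F ≃+* F) f = algebraMap K F c * f := by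
    have hmem : (σ : F ≃+* F) f / f ∈ riemannRochSpace (0 : Divisor K F) := by
      rw [mem_riemannRochSpace_iff]
      intro v
      right
      have h1 := h57_smul_div σ hDf v
      rw [hinv, hDf v] at h1
      rw [div_eq_mul_inv, v.ord_mul hσf0 (inv_ne_zero hf0), v.ord_inv, ← h1]
      simp
    rw [h7_rr_zero_eq hx, Submodule.mem_span_singleton] at hmem
    obtain ⟨c, hc⟩ := hmem
    rw [Algebra.smul_def, mul_one] at hc
    have hc' : (σ : F ≃+* F) f = algebraMap K F c * f := by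
      rw [hc, div_mul_cancel₀ _ hf0]
    refine ⟨c, ?_, hc'⟩
    rintro rfl
    rw [map_zero, zero_mul] at hc'
    exact hσf0 hc'
  obtain ⟨μ, hμ⟩ := IsAlgClosed.exists_pow_nat_eq c⁻¹ (show 0 < q - 1 by omega)
  have hμ0 : μ ≠ 0 := by
    rintro rfl
    rw [zero_pow (by omega)] at hμ
    exact inv_ne_zero hc0 hμ.symm
  refine ⟨μ, hμ0, ?_⟩
  have hμq : μ ^ q * c = μ := by
    have h1 : q = (q - 1) + 1 := by omega
    rw [h1, pow_succ, hμ]
    field_simp
  rw [map_mul, hσ μ, hc, ← mul_assoc, ← map_mul, hμq]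

/-- **INV-CLASS on `Pic⁰`.** A class fixed by a Frobenius structure is the class of an
invariant divisor of degree `0`. -/
theorem h75_exists_invariant_pic0 [IsAlgClosed K] {x : F} (hx : h75_IsChart K x)
    (p : ℕ) [Fact p.Prime] [CharP K p] (e : ℕ) (he : 0 < e)
    (σ : h57_SemiAut K F) (hσ : h57_IsFrob (p ^ e) σ)
    (hper : ∀ v : Place K F, ∃ n : ℕ, 0 < n ∧ σ ^ n • v = v)
    (y : Pic0 K F) (hy : σ • y = y) :
    ∃ D : Divisor.degZero (K := K) (F := F), Pic0.mk D = y ∧
      σ • (D : Divisor K F) = (D : Divisor K F) := by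
  obtain ⟨D₀, rfl⟩ := Pic0.mk_surjective y
  rw [h57_smul_mk_eq_iff] at hy
  obtain ⟨D', hD', hinv⟩ := h75_exists_invariant hx p e he σ hσ hper (D₀ : Divisor K F) hy
  have hdeg : D' ∈ Divisor.degZero (K := K) (F := F) := by
    obtain ⟨g, hg0, hg⟩ := hD'
    have h1 := h7_degree_div hx hg0 (D' - (D₀ : Divisor K F)) hg
    rw [map_sub, (Divisor.mem_degZero.mp D₀.2)] at h1
    rw [Divisor.mem_degZero]
    linarith
  refine ⟨⟨D', hdeg⟩, ?_, hinv⟩
  exact ((h57_mk_eq_mk_iff D₀ ⟨D', hdeg⟩).mpr hD').symm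

/-- **INV-CLASS, torsion form.** A class fixed by a Frobenius structure and killed by `n` is the
class of an invariant divisor `D` of degree `0` with `n • D = div f` for a fixed function `f`. -/
theorem h75_exists_invariant_torsion [IsAlgClosed K] {x : F} (hx : h75_IsChart K x)
    (p : ℕ) [Fact p.Prime] [CharP K p] (e : ℕ) (he : 0 < e)
    (σ : h57_SemiAut K F) (hσ : h57_IsFrob (p ^ e) σ)
    (hper : ∀ v : Place K F, ∃ n : ℕ, 0 < n ∧ σ ^ n • v = v)
    (y : Pic0 K F) (hy : σ • y = y) (n : ℕ) (hny : n • y = 0) :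
    ∃ (D : Divisor.degZero (K := K) (F := F)) (f : F), Pic0.mk D = y ∧
      σ • (D : Divisor K F) = (D : Divisor K F) ∧ f ≠ 0 ∧ (σ : F ≃+* F) f = f ∧
      ∀ v : Place K F, n * (D : Divisor K F) v = v.ord f := by
  obtain ⟨D, rfl, hinv⟩ := h75_exists_invariant_pic0 hx p e he σ hσ hper y hy
  have hprin : (n • D : Divisor.degZero (K := K) (F := F)).1
      ∈ Divisor.principal (K := K) (F := F) := by
    have h1 : Pic0.mk (0 : Divisor.degZero (K := K) (F := F)) = Pic0.mk (n • D) := by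
      rw [Pic0.mk_zero]
      have h2 : Pic0.mk (n • D) = n • Pic0.mk D := map_nsmul (QuotientAddGroup.mk' _) n D
      rw [h2, hny]
    have h3 := (h57_mk_eq_mk_iff _ _).mp h1
    simpa using h3
  obtain ⟨f, hf0, hf⟩ := hprin
  have hnD : ((n • D : Divisor.degZero (K := K) (F := F)) : Divisor K F)
      = n • (D : Divisor K F) := rfl
  rw [hnD] at hf
  have hinv' : σ • (n • (D : Divisor K F)) = n • (D : Divisor K F) := by
    rw [smul_comm, hinv]
  obtain ⟨μ, hμ0, hμ⟩ := h75_exists_fixed_mul hx p e he σ hσ _ f hf0 hf hinv'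
  have hμF : algebraMap K F μ ≠ 0 := (map_ne_zero_iff _ (algebraMap K F).injective).mpr hμ0
  refine ⟨D, algebraMap K F μ * f, rfl, hinv, mul_ne_zero hμF hf0, hμ, fun v => ?_⟩
  rw [v.ord_mul hμF hf0, Fermat.Agent.S24.h35_ord_algebraMap, zero_add, ← hf v]
  simp

end InvClass

end Fermat.Agent.S27
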