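import Mathlib

/-!
# S27 / B7: the abstract group theorem (helper76)

`B` an `ℓ`-primary abelian group with an endomorphism `τ` such that every element is fixed by
some `τ ^ (ℓ ^ j)`, the fixed groups `B_j` are finite with `|B_(j+1)| = ℓ ^ (2g) |B_j|` for
`j ≥ j0`, and the norm `B_(j+1) → B_j` is onto modulo `ℓ`.  Then `|B[ℓ ^ t]| = ℓ ^ (2 g t)`.
-/

set_option autoImplicit false

namespace Fermat.Agent.S27

open Finset

section ring

variable {R : Type*} [Ring R]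

/-- `(1 + u) ^ n = 1 + n u + u Ψ u`. -/
theorem h76_one_add_pow (u : R) (n : ℕ) : ∃ Ψ : R, (1 + u) ^ n = 1 + n • u + u * Ψ * u := by
  induction n with
  | zero => exact ⟨0, by simp⟩
  | succ n ih =>
    obtain ⟨Ψ, hΨ⟩ := ih
    refine ⟨Ψ + n + Ψ * u, ?_⟩
    have h : u * (n : R) = n * u := (Nat.cast_comm n u).symm
    rw [pow_succ, hΨ]
    simp only [nsmul_eq_mul, Nat.cast_succ, mul_add, add_mul, h, mul_one, one_mul, mul_assoc]
    abel

end ring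

section grp

variable {B : Type*} [AddCommGroup B]

/-- Fixed points of `τ ^ n`. -/
def h76_fix (τ : Module.End ℤ B) (n : ℕ) : AddSubgroup B where
  carrier := {b | (τ ^ n) b = b}
  zero_mem' := by simp
  add_mem' := by
    intro a b ha hb
    show (τ ^ n) (a + b) = a + b
    have ha' : (τ ^ n) a = a := ha
    have hb' : (τ ^ n) b = b := hb
    rw [map_add, ha', hb']
  neg_mem' := by
    intro a ha
    show (τ ^ n) (-a) = -a
    have ha' : (τ ^ n) a = a := ha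
    rw [map_neg, ha']

theorem h76_mem_fix {τ : Module.End ℤ B} {n : ℕ} {b : B} :
    b ∈ h76_fix τ n ↔ (τ ^ n) b = b := Iff.rfl

theorem h76_fix_mul {τ : Module.End ℤ B} {n : ℕ} (k : ℕ) {b : B} (h : b ∈ h76_fix τ n) :
    b ∈ h76_fix τ (n * k) := by
  rw [h76_mem_fix] at *
  rw [pow_mul]
  induction k with
  | zero => simp
  | succ k ih => rw [pow_succ, Module.End.mul_apply, h, ih]

theorem h76_fix_mono {τ : Module.End ℤ B} (ℓ : ℕ) {j j' : ℕ} (hj : j ≤ j') :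
    h76_fix τ (ℓ ^ j) ≤ h76_fix τ (ℓ ^ j') := by
  intro b hb
  obtain ⟨d, rfl⟩ := Nat.exists_eq_add_of_le hj
  rw [pow_add]
  exact h76_fix_mul _ hb

/-- Frobenius: on the `ℓ`-torsion, `τ ^ (ℓ ^ j) - 1 = (τ - 1) ^ (ℓ ^ j)`. -/
theorem h76_frob (ℓ : ℕ) [hℓ : Fact ℓ.Prime] (τ : Module.End ℤ B) (j : ℕ) {v : B}
    (hv : ℓ • v = 0) : (τ ^ (ℓ ^ j)) v = ((τ - 1) ^ (ℓ ^ j)) v + v := by
  obtain ⟨r, hr⟩ := (Commute.one_right (τ - 1)).exists_add_pow_prime_pow_eq hℓ.out j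
  rw [sub_add_cancel, one_pow] at hr
  rw [hr]
  simp only [LinearMap.add_apply, Module.End.one_apply, Module.End.mul_apply]
  have h0 : (ℓ : Module.End ℤ B) ((τ - 1) (r v)) = 0 := by
    rw [Module.End.natCast_apply, ← map_nsmul, ← map_nsmul, hv, map_zero, map_zero]
  rw [h0, add_zero]

/-- The subgroup `ker (u ^ t)` of the `ℓ`-torsion. -/
def h76_K (ℓ : ℕ) (u : Module.End ℤ B) (t : ℕ) : AddSubgroup B where
  carrier := {v | ℓ • v = 0 ∧ (u ^ t) v = 0}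
  zero_mem' := by simp
  add_mem' := by
    rintro a b ⟨ha, ha'⟩ ⟨hb, hb'⟩
    exact ⟨by rw [nsmul_add, ha, hb, add_zero], by rw [map_add, ha', hb', add_zero]⟩
  neg_mem' := by
    rintro a ⟨ha, ha'⟩
    exact ⟨by rw [smul_neg, ha, neg_zero], by rw [map_neg, ha', neg_zero]⟩

theorem h76_mem_K {ℓ : ℕ} {u : Module.End ℤ B} {t : ℕ} {v : B} :
    v ∈ h76_K ℓ u t ↔ ℓ • v = 0 ∧ (u ^ t) v = 0 := Iff.rfl

theorem h76_K_le_succ (ℓ : ℕ) (u : Module.End ℤ B) (t : ℕ) :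
    h76_K ℓ u t ≤ h76_K ℓ u (t + 1) := by
  rintro v ⟨hv, hv'⟩
  exact ⟨hv, by rw [pow_succ', Module.End.mul_apply, hv', map_zero]⟩

/-- Stabilisation. -/
theorem h76_K_stab (ℓ : ℕ) (u : Module.End ℤ B) (T : ℕ)
    (h : h76_K ℓ u (T + 1) ≤ h76_K ℓ u T) (n : ℕ) : h76_K ℓ u (T + n) ≤ h76_K ℓ u T := by
  induction n with
  | zero => exact le_rfl
  | succ n ih =>
    rintro v ⟨hv, hv'⟩
    have h1 : u v ∈ h76_K ℓ u (T + n) := by
      refine ⟨by rw [← map_nsmul, hv, map_zero], ?_⟩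
      rw [← Module.End.mul_apply, ← pow_succ]
      exact hv'
    have h2 := ih h1
    refine h ⟨hv, ?_⟩
    rw [pow_succ, Module.End.mul_apply]
    exact h2.2

/-- Strictness propagates downwards. -/
theorem h76_K_strict (ℓ : ℕ) (u : Module.End ℤ B) (T : ℕ)
    (h : ¬ h76_K ℓ u (T + 1) ≤ h76_K ℓ u T) (t : ℕ) (ht : t ≤ T) :
    ¬ h76_K ℓ u (t + 1) ≤ h76_K ℓ u t := by
  intro hle
  apply h
  rintro v ⟨hv, hv'⟩
  obtain ⟨d, rfl⟩ := Nat.exists_eq_add_of_le ht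
  have h1 : (u ^ d) v ∈ h76_K ℓ u (t + 1) := by
    refine ⟨by rw [← map_nsmul, hv, map_zero], ?_⟩
    rw [← Module.End.mul_apply, ← pow_add]
    have : t + 1 + d = t + d + 1 := by ring
    rw [this]
    exact hv'
  have h2 := hle h1
  refine ⟨hv, ?_⟩
  rw [pow_add, Module.End.mul_apply]
  exact h2.2

/-- If all steps below `T` are strict and `K T` is finite, then `2 ^ T ≤ |K T|`. -/
theorem h76_K_card (ℓ : ℕ) (u : Module.End ℤ B) (T : ℕ) [Finite (h76_K ℓ u T)]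
    (h : ∀ t, t < T → ¬ h76_K ℓ u (t + 1) ≤ h76_K ℓ u t) :
    2 ^ T ≤ Nat.card (h76_K ℓ u T) := by
  have hmono : ∀ t d, h76_K ℓ u t ≤ h76_K ℓ u (t + d) := by
    intro t d
    induction d with
    | zero => exact le_rfl
    | succ d ih => exact ih.trans (h76_K_le_succ ℓ u (t + d))
  have key : ∀ t, t ≤ T → 2 ^ t ≤ Nat.card (h76_K ℓ u t) := by
    intro t
    induction t with
    | zero =>
      intro _
      have : Nonempty (h76_K ℓ u 0) := ⟨0⟩
      have : Finite (h76_K ℓ u 0) := by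
        obtain ⟨d, hd⟩ := Nat.exists_eq_add_of_le (Nat.zero_le T)
        exact Finite.of_injective _ (AddSubgroup.inclusion_injective (hd ▸ hmono 0 d))
      exact Nat.one_le_iff_ne_zero.mpr Nat.card_pos.ne'
    | succ t ih =>
      intro ht
      have ih' := ih (by omega)
      obtain ⟨d, hd⟩ := Nat.exists_eq_add_of_le ht
      have : Finite (h76_K ℓ u (t + 1)) :=
        Finite.of_injective _ (AddSubgroup.inclusion_injective (hd ▸ hmono (t + 1) d))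
      have hle := h76_K_le_succ ℓ u t
      have hdvd : Nat.card (h76_K ℓ u t) ∣ Nat.card (h76_K ℓ u (t + 1)) :=
        AddSubgroup.card_dvd_of_le hle
      obtain ⟨m, hm⟩ := hdvd
      have hpos : 0 < Nat.card (h76_K ℓ u (t + 1)) := Nat.card_pos
      have hm1 : m ≠ 1 := by
        rintro rfl
        rw [mul_one] at hm
        have := AddSubgroup.eq_of_le_of_card_ge hle hm.le
        exact h t (by omega) this.ge
      have hm0 : m ≠ 0 := by
        rintro rfl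
        rw [mul_zero] at hm
        omega
      have hm2 : 2 ≤ m := by omega
      calc 2 ^ (t + 1) = 2 ^ t * 2 := pow_succ 2 t
        _ ≤ Nat.card (h76_K ℓ u t) * m := Nat.mul_le_mul ih' hm2
        _ = _ := hm.symm
  exact key T le_rfl

theorem h76_growth (a c : ℕ) : ∃ n, a * n + c < 2 ^ n := by
  set m := 2 * a + c with hm
  refine ⟨2 * m, ?_⟩
  have h1 : a * (2 * m) + c ≤ m * m := by
    rcases Nat.eq_zero_or_pos c with hc | hc
    · rw [hc, add_zero] at hm ⊢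
      rw [hm]; nlinarith
    · have : c ≤ c * m := Nat.le_mul_of_pos_right c (by omega)
      have h2 : m * m = 2 * a * m + c * m := by rw [hm]; ring
      rw [h2]; nlinarith
  have h2 : m + 1 ≤ 2 ^ m := Nat.lt_two_pow_self
  have h3 : (m + 1) * (m + 1) ≤ 2 ^ m * 2 ^ m := Nat.mul_le_mul h2 h2
  have h4 : 2 ^ (2 * m) = 2 ^ m * 2 ^ m := by rw [two_mul, pow_add]
  rw [h4]
  nlinarith

/-- Step 1: the `ℓ`-torsion is finite, contained in one fixed group. -/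
theorem h76_tors_le_fix (ℓ : ℕ) [hℓ : Fact ℓ.Prime] (g : ℕ) (τ : Module.End ℤ B)
    (hU : ∀ b : B, ∃ j, b ∈ h76_fix τ (ℓ ^ j)) (j0 : ℕ)
    (hfin : ∀ j, j0 ≤ j → Finite (h76_fix τ (ℓ ^ j)))
    (hcard : ∀ j, j0 ≤ j → Nat.card (h76_fix τ (ℓ ^ (j + 1))) =
      ℓ ^ (2 * g) * Nat.card (h76_fix τ (ℓ ^ j))) :
    ∃ j1, j0 ≤ j1 ∧ ∀ v : B, ℓ • v = 0 → v ∈ h76_fix τ (ℓ ^ j1) := by
  have hℓ2 : 2 ≤ ℓ := hℓ.out.two_le
  set c0 := Nat.card (h76_fix τ (ℓ ^ j0)) with hc0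
  have hc : ∀ n, Nat.card (h76_fix τ (ℓ ^ (j0 + n))) = ℓ ^ (2 * g * n) * c0 := by
    intro n
    induction n with
    | zero => simp [hc0]
    | succ n ih =>
      rw [← add_assoc, hcard (j0 + n) (by omega), ih, ← mul_assoc, ← pow_add]
      congr 2
      ring
  obtain ⟨n, hn⟩ := h76_growth (2 * g * ℓ) c0
  set j := j0 + n with hj
  set u : Module.End ℤ B := τ - 1 with hu
  have hKfix : ∀ J, h76_K ℓ u (ℓ ^ J) ≤ h76_fix τ (ℓ ^ J) := by
    rintro J v ⟨hv, hv'⟩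
    rw [h76_mem_fix, h76_frob ℓ τ J hv, ← hu, hv', zero_add]
  have hfixK : ∀ J v, ℓ • v = 0 → v ∈ h76_fix τ (ℓ ^ J) → v ∈ h76_K ℓ u (ℓ ^ J) := by
    intro J v hv hv'
    refine ⟨hv, ?_⟩
    rw [h76_mem_fix, h76_frob ℓ τ J hv, ← hu] at hv'
    simpa using hv'
  have := hfin j (by omega)
  have : Finite (h76_K ℓ u (ℓ ^ j)) :=
    Finite.of_injective _ (AddSubgroup.inclusion_injective (hKfix j))
  have hstab : h76_K ℓ u (ℓ ^ j + 1) ≤ h76_K ℓ u (ℓ ^ j) := by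
    by_contra hcon
    have h1 := h76_K_card ℓ u (ℓ ^ j)
      (fun t ht => h76_K_strict ℓ u (ℓ ^ j) hcon t ht.le)
    have h2 : Nat.card (h76_K ℓ u (ℓ ^ j)) ≤ Nat.card (h76_fix τ (ℓ ^ j)) :=
      Nat.card_le_card_of_injective _ (AddSubgroup.inclusion_injective (hKfix j))
    rw [hc n] at h2
    have h3 : ℓ ^ (2 * g * n) ≤ 2 ^ (ℓ * (2 * g * n)) := by
      rw [pow_mul 2 ℓ (2 * g * n)]
      exact Nat.pow_le_pow_left Nat.lt_two_pow_self.le _
    have h4 : c0 ≤ 2 ^ c0 := Nat.lt_two_pow_self.le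
    have h5 : ℓ ^ (2 * g * n) * c0 ≤ 2 ^ (2 * g * ℓ * n + c0) := by
      rw [pow_add]
      have : ℓ * (2 * g * n) = 2 * g * ℓ * n := by ring
      rw [← this]
      exact Nat.mul_le_mul h3 h4
    have h6 : 2 ^ n ≤ ℓ ^ j := by
      calc 2 ^ n ≤ ℓ ^ n := Nat.pow_le_pow_left hℓ2 n
        _ ≤ ℓ ^ j := Nat.pow_le_pow_right (by omega) (by omega)
    have h7 : 2 ^ (2 * g * ℓ * n + c0) < 2 ^ (ℓ ^ j) :=
      Nat.pow_lt_pow_right (by norm_num) (lt_of_lt_of_le hn h6)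
    omega
  refine ⟨j, by omega, fun v hv => ?_⟩
  obtain ⟨j', hj'⟩ := hU v
  have h1 : v ∈ h76_fix τ (ℓ ^ (max j j')) := h76_fix_mono ℓ (le_max_right j j') hj'
  have h2 := hfixK _ v hv h1
  obtain ⟨d, hd⟩ := Nat.exists_eq_add_of_le
    (Nat.pow_le_pow_right (show 0 < ℓ by omega) (le_max_left j j'))
  rw [hd] at h2
  exact hKfix j (h76_K_stab ℓ u (ℓ ^ j) hstab d h2)

/-- The `n`-torsion subgroup. -/
def h76_tors (B : Type*) [AddCommGroup B] (n : ℕ) : AddSubgroup B where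
  carrier := {b | n • b = 0}
  zero_mem' := smul_zero n
  add_mem' := by
    intro a b ha hb
    show n • (a + b) = 0
    rw [nsmul_add, (ha : n • a = 0), (hb : n • b = 0), add_zero]
  neg_mem' := by
    intro a ha
    show n • (-a) = 0
    rw [smul_neg, (ha : n • a = 0), neg_zero]

theorem h76_mem_tors {n : ℕ} {b : B} : b ∈ h76_tors B n ↔ n • b = 0 := Iff.rfl

theorem h76_card_of_surj {G H : Type*} [AddGroup G] [AddGroup H] (φ : G →+ H)
    (hφ : Function.Surjective φ) : Nat.card G = Nat.card H * Nat.card φ.ker := by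
  rw [← AddSubgroup.index_mul_card φ.ker, AddSubgroup.index_ker,
    AddMonoidHom.range_eq_top.mpr hφ, AddSubgroup.card_top]

/-- Pigeonhole: more than `|B[ℓ]|` elements of a finite subgroup `G` contain two that are
congruent modulo `ℓ G`. -/
theorem h76_pigeon (ℓ : ℕ) (G : AddSubgroup B) [Finite G] [Finite (h76_tors B ℓ)]
    (S : Finset B) (hS : ∀ x ∈ S, x ∈ G) (hcard : Nat.card (h76_tors B ℓ) < S.card) :
    ∃ x ∈ S, ∃ y ∈ S, x ≠ y ∧ ∃ c : B, x - y = ℓ • c := by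
  classical
  let f : G →+ G := nsmulAddMonoidHom ℓ
  have hidx : f.range.index ≤ Nat.card (h76_tors B ℓ) := by
    have h1 : f.range.index * Nat.card f.range = Nat.card G := AddSubgroup.index_mul_card _
    have h2 : Nat.card G = Nat.card f.range * Nat.card f.ker := by
      rw [← AddSubgroup.index_mul_card f.ker, AddSubgroup.index_ker]
    have h3 : 0 < Nat.card f.range := Nat.card_pos
    have h4 : f.range.index = Nat.card f.ker := by
      have : f.range.index * Nat.card f.range = Nat.card f.ker * Nat.card f.range := by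
        rw [h1, h2, mul_comm]
      exact Nat.eq_of_mul_eq_mul_right h3 this
    rw [h4]
    have hmem : ∀ x : f.ker, x.1.1 ∈ h76_tors B ℓ := by
      intro x
      have h5 : f x.1 = 0 := x.2
      have h6 : ((f x.1 : G) : B) = ((0 : G) : B) := congrArg Subtype.val h5
      simp only [f, nsmulAddMonoidHom_apply, AddSubgroup.coe_nsmul, AddSubgroup.coe_zero] at h6
      exact h6
    refine Nat.card_le_card_of_injective (fun x : f.ker => (⟨x.1.1, hmem x⟩ : h76_tors B ℓ)) ?_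
    intro x y hxy
    have := congrArg Subtype.val hxy
    exact Subtype.ext (Subtype.ext this)
  have : Fintype (G ⧸ f.range) := Fintype.ofFinite _
  have hlt : (Finset.univ : Finset (G ⧸ f.range)).card < S.attach.card := by
    rw [Finset.card_univ, ← Nat.card_eq_fintype_card, Finset.card_attach]
    exact lt_of_le_of_lt hidx hcard
  obtain ⟨x, -, y, -, hxy, he⟩ := Finset.exists_ne_map_eq_of_card_lt_of_maps_to hlt
    (f := fun x : S => (QuotientAddGroup.mk ⟨x.1, hS x.1 x.2⟩ : G ⧸ f.range))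
    (fun _ _ => Finset.mem_univ _)
  rw [QuotientAddGroup.eq] at he
  obtain ⟨c, hc⟩ := he
  refine ⟨x.1, x.2, y.1, y.2, fun h => hxy (Subtype.ext h), -c.1, ?_⟩
  have h7 := congrArg Subtype.val hc
  simp only [f, nsmulAddMonoidHom_apply, AddSubgroup.coe_nsmul, AddSubgroup.coe_add,
    AddSubgroup.coe_neg] at h7
  rw [smul_neg, h7]
  abel

/-- Step 2a: finitely many classes modulo `ℓ B`, all represented in one fixed group. -/
theorem h76_reps (ℓ : ℕ) (τ : Module.End ℤ B)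
    (hU : ∀ b : B, ∃ j, b ∈ h76_fix τ (ℓ ^ j)) (j0 : ℕ)
    (hfin : ∀ j, j0 ≤ j → Finite (h76_fix τ (ℓ ^ j)))
    (j1 : ℕ) (hj1 : j0 ≤ j1) (hV : ∀ v : B, ℓ • v = 0 → v ∈ h76_fix τ (ℓ ^ j1)) :
    ∃ J, j1 ≤ J ∧ ∀ b : B, ∃ b0 ∈ h76_fix τ (ℓ ^ J), ∃ c : B, b = b0 + ℓ • c := by
  classical
  have := hfin j1 hj1
  have hVle : h76_tors B ℓ ≤ h76_fix τ (ℓ ^ j1) := fun v hv => hV v hv
  have hVfin : Finite (h76_tors B ℓ) :=
    Finite.of_injective _ (AddSubgroup.inclusion_injective hVle)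
  choose jx hjx using hU
  have key : ∀ S : Finset B, (∀ x ∈ S, ∀ y ∈ S, x ≠ y → ¬ ∃ c : B, x - y = ℓ • c) →
      S.card ≤ Nat.card (h76_tors B ℓ) := by
    intro S hS
    by_contra hcon
    rw [not_le] at hcon
    set J := max j1 (S.sup jx) with hJ
    have := hfin J (hj1.trans (le_max_left _ _))
    have hSG : ∀ x ∈ S, x ∈ h76_fix τ (ℓ ^ J) := fun x hx =>
      h76_fix_mono ℓ ((Finset.le_sup hx).trans (le_max_right _ _)) (hjx x)
    obtain ⟨x, hx, y, hy, hxy, hc⟩ := h76_pigeon ℓ (h76_fix τ (ℓ ^ J)) S hSG hcon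
    exact hS x hx y hy hxy hc
  set L : AddSubgroup B := (nsmulAddMonoidHom ℓ : B →+ B).range with hL
  have hLmem : ∀ b : B, b ∈ L ↔ ∃ c : B, ℓ • c = b := by
    intro b
    rw [hL, AddMonoidHom.mem_range]
    simp
  have hQ : Finite (B ⧸ L) := by
    by_contra hinf
    rw [not_finite_iff_infinite] at hinf
    obtain ⟨S', hS'⟩ := Infinite.exists_subset_card_eq (B ⧸ L) (Nat.card (h76_tors B ℓ) + 1)
    have hinj : Function.Injective (Quotient.out : B ⧸ L → B) := Quotient.out_injective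
    have h1 := key (S'.image Quotient.out) (by
      intro x hx y hy hxy hc
      obtain ⟨q, -, rfl⟩ := Finset.mem_image.mp hx
      obtain ⟨q', -, rfl⟩ := Finset.mem_image.mp hy
      obtain ⟨c, hc⟩ := hc
      apply hxy
      have h2 : (QuotientAddGroup.mk (Quotient.out q) : B ⧸ L) =
          QuotientAddGroup.mk (Quotient.out q') := by
        rw [QuotientAddGroup.eq, hLmem]
        refine ⟨-c, ?_⟩
        rw [smul_neg, ← hc]
        abel
      rw [QuotientAddGroup.out_eq', QuotientAddGroup.out_eq'] at h2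
      rw [h2])
    rw [Finset.card_image_of_injective _ hinj, hS'] at h1
    omega
  have : Fintype (B ⧸ L) := Fintype.ofFinite _
  refine ⟨max j1 (Finset.univ.sup fun q : B ⧸ L => jx (Quotient.out q)), le_max_left _ _, ?_⟩
  intro b
  refine ⟨Quotient.out (QuotientAddGroup.mk b : B ⧸ L), ?_, ?_⟩
  · exact h76_fix_mono ℓ ((Finset.le_sup (f := fun q : B ⧸ L => jx (Quotient.out q))
      (Finset.mem_univ _)).trans (le_max_right _ _)) (hjx _)
  · have h2 : (QuotientAddGroup.mk (Quotient.out (QuotientAddGroup.mk b : B ⧸ L)) : B ⧸ L) =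
        QuotientAddGroup.mk b := QuotientAddGroup.out_eq' _
    rw [QuotientAddGroup.eq, hLmem] at h2
    obtain ⟨c, hc⟩ := h2
    refine ⟨c, ?_⟩
    rw [hc]
    abel

/-- Step 2b: `B` is `ℓ`-divisible. -/
theorem h76_divisible (ℓ : ℕ) (τ : Module.End ℤ B)
    (hU : ∀ b : B, ∃ j, b ∈ h76_fix τ (ℓ ^ j)) (j0 : ℕ)
    (hfin : ∀ j, j0 ≤ j → Finite (h76_fix τ (ℓ ^ j)))
    (hN : ∀ j, j0 ≤ j → ∀ b ∈ h76_fix τ (ℓ ^ j), ∃ b' ∈ h76_fix τ (ℓ ^ (j + 1)),
      ∃ b'' : B, b = (∑ i ∈ Finset.range ℓ, (τ ^ (i * ℓ ^ j)) b') + ℓ • b'')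
    (j1 : ℕ) (hj1 : j0 ≤ j1) (hV : ∀ v : B, ℓ • v = 0 → v ∈ h76_fix τ (ℓ ^ j1)) :
    ∀ b : B, ∃ c : B, b = ℓ • c := by
  obtain ⟨J, hJ, hrep⟩ := h76_reps ℓ τ hU j0 hfin j1 hj1 hV
  intro b
  obtain ⟨j', hj'⟩ := hU b
  set j := max J j' with hj
  have hb : b ∈ h76_fix τ (ℓ ^ j) := h76_fix_mono ℓ (le_max_right _ _) hj'
  obtain ⟨b', -, b'', hbb⟩ := hN j ((hj1.trans hJ).trans (le_max_left _ _)) b hb
  obtain ⟨b0, hb0, c0, hc0⟩ := hrep b'
  have hb0' : b0 ∈ h76_fix τ (ℓ ^ j) := h76_fix_mono ℓ (le_max_left _ _) hb0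
  have h1 : ∀ i : ℕ, (τ ^ (i * ℓ ^ j)) b' = b0 + ℓ • (τ ^ (i * ℓ ^ j)) c0 := by
    intro i
    have h2 : (τ ^ (i * ℓ ^ j)) b0 = b0 := by
      rw [mul_comm]
      exact h76_fix_mul i hb0'
    rw [hc0, map_add, h2, map_nsmul]
  refine ⟨b0 + ∑ i ∈ Finset.range ℓ, (τ ^ (i * ℓ ^ j)) c0 + b'', ?_⟩
  rw [hbb, Finset.sum_congr rfl (fun i _ => h1 i), Finset.sum_add_distrib, Finset.sum_const,
    Finset.card_range, ← Finset.smul_sum, nsmul_add, nsmul_add]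

/-- The easy inclusion `ℓ⁻¹ B_j ⊆ B_(j+1)`. -/
theorem h76_easy (ℓ : ℕ) (τ : Module.End ℤ B) (j : ℕ)
    (hV : ∀ v : B, ℓ • v = 0 → v ∈ h76_fix τ (ℓ ^ j)) {b : B}
    (hb : ℓ • b ∈ h76_fix τ (ℓ ^ j)) : b ∈ h76_fix τ (ℓ ^ (j + 1)) := by
  set s : Module.End ℤ B := τ ^ (ℓ ^ j) with hs
  set v : B := s b - b with hv
  have hv0 : ℓ • v = 0 := by
    rw [hv, smul_sub, ← map_nsmul]
    have : s (ℓ • b) = ℓ • b := hb
    rw [this, sub_self]
  have hsv : s v = v := hV v hv0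
  have hsb : s b = b + v := by rw [hv]; abel
  have hpow : ∀ i : ℕ, (s ^ i) b = b + i • v := by
    intro i
    induction i with
    | zero => simp
    | succ i ih =>
      rw [pow_succ', Module.End.mul_apply, ih, map_add, map_nsmul, hsv, hsb, succ_nsmul]
      abel
  rw [h76_mem_fix, pow_succ, pow_mul, ← hs, hpow ℓ, hv0, add_zero]

/-- The hard inclusion `ℓ B_(j+1) ⊆ B_j`. -/
theorem h76_hard (ℓ : ℕ) (hprim : ∀ b : B, ∃ n : ℕ, ℓ ^ n • b = 0) (τ : Module.End ℤ B) (j : ℕ)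
    (hV2 : ∀ x : B, ℓ ^ 2 • x = 0 → x ∈ h76_fix τ (ℓ ^ j)) {b : B}
    (hb : b ∈ h76_fix τ (ℓ ^ (j + 1))) : ℓ • b ∈ h76_fix τ (ℓ ^ j) := by
  set s : Module.End ℤ B := τ ^ (ℓ ^ j) with hs
  set u : Module.End ℤ B := s - 1 with hu
  obtain ⟨Ψ, hΨ⟩ := h76_one_add_pow u ℓ
  have hs1 : 1 + u = s := by rw [hu]; abel
  rw [hs1] at hΨ
  have hb' : (s ^ ℓ) b = b := by
    rw [h76_mem_fix, pow_succ, pow_mul] at hb
    exact hb
  set w : B := u b with hw
  have hrel : ℓ • w + u (Ψ w) = 0 := by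
    have h1 := congrArg (fun φ : Module.End ℤ B => φ b) hΨ
    simp only [LinearMap.add_apply, Module.End.one_apply, Module.End.mul_apply,
      LinearMap.smul_apply] at h1
    rw [hb'] at h1
    have h2 : b = b + (ℓ • w + u (Ψ w)) := by rw [hw]; rw [add_assoc] at h1; exact h1
    have h3 := (add_eq_left.mp h2.symm)
    exact h3
  have hukill : ∀ x : B, ℓ ^ 2 • x = 0 → u x = 0 := by
    intro x hx
    have : s x = x := hV2 x hx
    rw [hu, LinearMap.sub_apply, Module.End.one_apply, this, sub_self]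
  have hstep : ∀ n : ℕ, ℓ ^ (n + 2) • w = 0 → ℓ ^ (n + 1) • w = 0 := by
    intro n hn
    have h1 : ℓ ^ (n + 1) • w = ℓ ^ n • (ℓ • w) := by rw [pow_succ, mul_smul]
    have h2 : ℓ • w = -(u (Ψ w)) := eq_neg_of_add_eq_zero_left hrel
    rw [h1, h2, smul_neg, ← map_nsmul, ← map_nsmul]
    have h3 : ℓ ^ 2 • Ψ (ℓ ^ n • w) = 0 := by
      rw [← map_nsmul, ← mul_smul, ← pow_add]
      have : 2 + n = n + 2 := by ring
      rw [this, hn, map_zero]
    rw [hukill _ h3, neg_zero]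
  have hdown : ∀ n : ℕ, ℓ ^ (n + 1) • w = 0 → ℓ • w = 0 := by
    intro n
    induction n with
    | zero => intro h; simpa using h
    | succ n ih => intro h; exact ih (hstep n h)
  obtain ⟨n, hn⟩ := hprim w
  have hw0 : ℓ • w = 0 := hdown n (by rw [pow_succ, mul_comm, mul_smul, hn, smul_zero])
  rw [h76_mem_fix, ← hs]
  have h4 : u (ℓ • b) = 0 := by rw [map_nsmul, ← hw, hw0]
  rw [hu, LinearMap.sub_apply, Module.End.one_apply, sub_eq_zero] at h4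
  exact h4

/-- Counting along multiplication by `ℓ`. -/
theorem h76_card_mulEll (ℓ : ℕ) {G H : AddSubgroup B} (hGH : ∀ b ∈ G, ℓ • b ∈ H)
    (hsurj : ∀ y ∈ H, ∃ c ∈ G, ℓ • c = y) (hV : h76_tors B ℓ ≤ G) :
    Nat.card G = Nat.card H * Nat.card (h76_tors B ℓ) := by
  let φ : G →+ H :=
    { toFun := fun b => ⟨ℓ • b.1, hGH b.1 b.2⟩
      map_zero' := Subtype.ext (smul_zero ℓ)
      map_add' := fun a b => Subtype.ext (nsmul_add a.1 b.1 ℓ) }
  have hφ : Function.Surjective φ := by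
    rintro ⟨y, hy⟩
    obtain ⟨c, hc, hcy⟩ := hsurj y hy
    exact ⟨⟨c, hc⟩, Subtype.ext hcy⟩
  have hker : ∀ x : G, x ∈ φ.ker ↔ ℓ • x.1 = 0 := by
    intro x
    rw [AddMonoidHom.mem_ker]
    constructor
    · intro h
      exact congrArg Subtype.val h
    · intro h
      exact Subtype.ext h
  let e : φ.ker ≃ h76_tors B ℓ :=
    { toFun := fun x => ⟨x.1.1, (hker x.1).mp x.2⟩
      invFun := fun v => ⟨⟨v.1, hV v.2⟩, (hker _).mpr v.2⟩
      left_inv := fun x => rfl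
      right_inv := fun v => rfl }
  rw [h76_card_of_surj φ hφ, Nat.card_congr e]

/-- **B7, endomorphism form.** -/
theorem h76_tors_card_end (ℓ : ℕ) [hℓ : Fact ℓ.Prime] (g : ℕ)
    (hprim : ∀ b : B, ∃ n : ℕ, ℓ ^ n • b = 0) (τ : Module.End ℤ B)
    (hU : ∀ b : B, ∃ j, b ∈ h76_fix τ (ℓ ^ j)) (j0 : ℕ)
    (hfin : ∀ j, j0 ≤ j → Finite (h76_fix τ (ℓ ^ j)))
    (hcard : ∀ j, j0 ≤ j → Nat.card (h76_fix τ (ℓ ^ (j + 1))) =
      ℓ ^ (2 * g) * Nat.card (h76_fix τ (ℓ ^ j)))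
    (hN : ∀ j, j0 ≤ j → ∀ b ∈ h76_fix τ (ℓ ^ j), ∃ b' ∈ h76_fix τ (ℓ ^ (j + 1)),
      ∃ b'' : B, b = (∑ i ∈ Finset.range ℓ, (τ ^ (i * ℓ ^ j)) b') + ℓ • b'')
    (t : ℕ) : Nat.card (h76_tors B (ℓ ^ t)) = ℓ ^ (2 * g * t) := by
  obtain ⟨j1, hj1, hV⟩ := h76_tors_le_fix ℓ g τ hU j0 hfin hcard
  have hdiv := h76_divisible ℓ τ hU j0 hfin hN j1 hj1 hV
  have hV2 : ∀ x : B, ℓ ^ 2 • x = 0 → x ∈ h76_fix τ (ℓ ^ (j1 + 1)) := by
    intro x hx
    refine h76_easy ℓ τ j1 hV (hV _ ?_)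
    rw [← mul_smul, ← pow_two]
    exact hx
  have hV' : ∀ v : B, ℓ • v = 0 → v ∈ h76_fix τ (ℓ ^ (j1 + 1)) := fun v hv =>
    h76_fix_mono ℓ (Nat.le_succ j1) (hV v hv)
  have hcV : Nat.card (h76_tors B ℓ) = ℓ ^ (2 * g) := by
    have h1 := h76_card_mulEll ℓ (G := h76_fix τ (ℓ ^ (j1 + 1 + 1)))
      (H := h76_fix τ (ℓ ^ (j1 + 1)))
      (fun b hb => h76_hard ℓ hprim τ (j1 + 1) hV2 hb)
      (fun y hy => by
        obtain ⟨c, hc⟩ := hdiv y
        exact ⟨c, h76_easy ℓ τ (j1 + 1) hV' (hc ▸ hy), hc.symm⟩)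
      (fun v hv => h76_fix_mono ℓ (by omega) (hV v hv))
    rw [hcard (j1 + 1) (by omega)] at h1
    have := hfin (j1 + 1) (by omega)
    have hpos : 0 < Nat.card (h76_fix τ (ℓ ^ (j1 + 1))) := Nat.card_pos
    rw [mul_comm] at h1
    exact (Nat.eq_of_mul_eq_mul_left hpos h1).symm
  induction t with
  | zero =>
    have : Subsingleton (h76_tors B (ℓ ^ 0)) := by
      refine ⟨fun a b => Subtype.ext ?_⟩
      have ha : (1 : ℕ) • a.1 = 0 := a.2
      have hb : (1 : ℕ) • b.1 = 0 := b.2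
      rw [one_smul] at ha hb
      rw [ha, hb]
    have : Nonempty (h76_tors B (ℓ ^ 0)) := ⟨0⟩
    rw [Nat.card_unique]
    simp
  | succ t ih =>
    have h1 := h76_card_mulEll ℓ (G := h76_tors B (ℓ ^ (t + 1))) (H := h76_tors B (ℓ ^ t))
      (fun b hb => by
        rw [h76_mem_tors] at hb ⊢
        rw [← mul_smul, ← pow_succ]
        exact hb)
      (fun y hy => by
        obtain ⟨c, hc⟩ := hdiv y
        refine ⟨c, ?_, hc.symm⟩
        rw [h76_mem_tors] at hy ⊢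
        rw [pow_succ, mul_smul, ← hc]
        exact hy)
      (fun v hv => by
        rw [h76_mem_tors] at hv ⊢
        rw [pow_succ, mul_smul, hv, smul_zero])
    rw [h1, ih, hcV, ← pow_add]
    ring_nf

end grp

/-- **B7, iterate form.**  `B` an `ℓ`-primary abelian group, `τ` an endomorphism such that
every element is fixed by some `τ^[ℓ ^ j]`; for `j ≥ j0` the fixed sets `B_j` of `τ^[ℓ ^ j]`
are finite, `|B_(j+1)| = ℓ ^ (2g) |B_j|`, and every element of `B_j` is a norm from `B_(j+1)`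
modulo `ℓ B`.  Then `|B[ℓ ^ t]| = ℓ ^ (2 g t)`. -/
theorem h76_tors_card {B : Type*} [AddCommGroup B] (ℓ : ℕ) [Fact ℓ.Prime] (g : ℕ)
    (hprim : ∀ b : B, ∃ n : ℕ, ℓ ^ n • b = 0) (τ : B →+ B)
    (hU : ∀ b : B, ∃ j : ℕ, τ^[ℓ ^ j] b = b) (j0 : ℕ)
    (hfin : ∀ j, j0 ≤ j → Finite {b : B // τ^[ℓ ^ j] b = b})
    (hcard : ∀ j, j0 ≤ j → Nat.card {b : B // τ^[ℓ ^ (j + 1)] b = b} =
      ℓ ^ (2 * g) * Nat.card {b : B // τ^[ℓ ^ j] b = b})
    (hN : ∀ j, j0 ≤ j → ∀ b : B, τ^[ℓ ^ j] b = b → ∃ b' : B, τ^[ℓ ^ (j + 1)] b' = b' ∧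
      ∃ b'' : B, b = (∑ i ∈ Finset.range ℓ, τ^[i * ℓ ^ j] b') + ℓ • b'')
    (t : ℕ) : Nat.card {b : B // ℓ ^ t • b = 0} = ℓ ^ (2 * g * t) := by
  set τ' : Module.End ℤ B := τ.toIntLinearMap with hτ'
  have hpow : ∀ (n : ℕ) (b : B), (τ' ^ n) b = τ^[n] b := by
    intro n b
    rw [Module.End.pow_apply, hτ', AddMonoidHom.coe_toIntLinearMap]
  have hmem : ∀ (n : ℕ) (b : B), b ∈ h76_fix τ' n ↔ τ^[n] b = b := by
    intro n b
    rw [h76_mem_fix, hpow]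
  have e : ∀ n : ℕ, {b : B // τ^[n] b = b} ≃ h76_fix τ' n := fun n =>
    Equiv.subtypeEquivRight (fun b => (hmem n b).symm)
  have h := h76_tors_card_end ℓ g hprim τ'
    (fun b => by obtain ⟨j, hj⟩ := hU b; exact ⟨j, (hmem _ _).mpr hj⟩) j0
    (fun j hj => by have := hfin j hj; exact Finite.of_equiv _ (e _))
    (fun j hj => by rw [← Nat.card_congr (e _), ← Nat.card_congr (e _)]; exact hcard j hj)
    (fun j hj b hb => by
      obtain ⟨b', hb', b'', hbb⟩ := hN j hj b ((hmem _ _).mp hb)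
      refine ⟨b', (hmem _ _).mpr hb', b'', ?_⟩
      rw [hbb]
      congr 1
      exact Finset.sum_congr rfl (fun i _ => (hpow _ _).symm))
    t
  exact h

/-- **GROUP (row S27-B7a), skeleton statement verbatim.** -/
theorem h15_group_count (ℓ : ℕ) [Fact ℓ.Prime] (g c₀ : ℕ) {B : Type*} [AddCommGroup B]
    (τ : B ≃+ B)
    (htors : ∀ x : B, ∃ n : ℕ, (ℓ ^ n) • x = 0)
    (hfix : ∀ x : B, ∃ j : ℕ, τ^[ℓ ^ j] x = x)
    (hcard : ∀ j : ℕ, Nat.card {x : B // τ^[ℓ ^ j] x = x} = ℓ ^ (c₀ + 2 * g * j))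
    (hnorm : ∃ j₁ : ℕ, ∀ j : ℕ, j₁ ≤ j → ∀ y : B, τ^[ℓ ^ j] y = y →
      ∃ x z : B, τ^[ℓ ^ (j + 1)] x = x ∧ τ^[ℓ ^ j] z = z ∧
        y = (∑ a ∈ Finset.range ℓ, τ^[ℓ ^ j * a] x) + ℓ • z)
    (t : ℕ) :
    Nat.card {x : B // (ℓ ^ t) • x = 0} = ℓ ^ (2 * g * t) := by
  obtain ⟨j₁, hj₁⟩ := hnorm
  have hℓ : ℓ ≠ 0 := (Fact.out : ℓ.Prime).ne_zero
  refine h76_tors_card ℓ g htors τ.toAddMonoidHom hfix j₁ ?_ ?_ ?_ t
  · intro j _
    refine Nat.finite_of_card_ne_zero ?_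
    have h := hcard j
    simp only [AddEquiv.toAddMonoidHom_eq_coe, AddMonoidHom.coe_coe]
    rw [h]
    exact pow_ne_zero _ hℓ
  · intro j _
    have h1 := hcard j
    have h2 := hcard (j + 1)
    simp only [AddEquiv.toAddMonoidHom_eq_coe, AddMonoidHom.coe_coe]
    rw [h1, h2, ← pow_add]
    congr 1
    ring
  · intro j hj b hb
    obtain ⟨x, z, hx, -, hy⟩ := hj₁ j hj b hb
    refine ⟨x, hx, z, ?_⟩
    rw [hy]
    congr 1
    refine Finset.sum_congr rfl (fun i _ => ?_)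
    rw [mul_comm]
    rfl

end Fermat.Agent.S27
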