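import Fermat.Agent.S27.Trunc
import Fermat.Agent.S18.GR_PlaceRed
import Fermat.Agent.S18.GR_Integral

/-!
# S27 / B5e COORD, part 1 (helper81): reduction of two-variable polynomials, orthonormality,
lifting of regular functions

* `h15_red_ev2` **(C3)**: `red (H(x, y)) = H̄(x̄, ȳ)` for `H ∈ A[X][Y]`, `x, y ∈ O`;
* `h81_coord_mem` : coordinates in an orthonormal family lie in `O`;
* `h15_exists_lift_reg` : functions regular on the reduced chart lift to `O`-integral functions
  regular on the chart.
-/

set_option autoImplicit false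

open AlgebraicCurve IntermediateField Polynomial

namespace Fermat.Agent.S27

open Fermat.Agent.S18

variable {K F k Fb : Type*} [Field K] [Field F] [Algebra K F] [Field k] [Field Fb] [Algebra k Fb]

/-- **(C3)** reduction commutes with evaluation of integral two-variable polynomials. -/
theorem h15_red_ev2 (R : h39_RedDatum K F k Fb) {x y : F} (hx : x ∈ R.O) (hy : y ∈ R.O)
    (H : Polynomial (Polynomial R.A)) :
    h15_ev2 x y (H.map (Polynomial.mapRingHom (algebraMap R.A K))) ∈ R.O ∧
    R.redF (h15_ev2 x y (H.map (Polynomial.mapRingHom (algebraMap R.A K)))) =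
      h15_ev2 (R.redF x) (R.redF y) (H.map (Polynomial.mapRingHom R.res)) := by
  induction H using Polynomial.induction_on' with
  | add p q hp hq =>
    rw [Polynomial.map_add, Polynomial.map_add, h69_ev2_add, h69_ev2_add]
    exact ⟨R.O.add_mem _ _ hp.1 hq.1, by rw [h39_redF_add R hp.1 hq.1, hp.2, hq.2]⟩
  | monomial n a =>
    rw [Polynomial.map_monomial, Polynomial.map_monomial, h69_ev2_monomial, h69_ev2_monomial,
      Polynomial.coe_mapRingHom, Polynomial.coe_mapRingHom]
    have h1 : aeval x (a.map (algebraMap R.A K)) ∈ R.O := h89_gauss_red_mem R hx a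
    have h2 : y ^ n ∈ R.O := R.O.pow_mem hy n
    refine ⟨R.O.mul_mem _ _ h1 h2, ?_⟩
    rw [h39_redF_mul R h1 h2, h39_redF_pow R hy]
    congr 1
    exact h89_gauss_red R hx a


/-- coordinates with respect to a family with independent reductions are bounded by the value:
a combination lying in `O` has coefficients in `O`. -/
theorem h81_coord_mem (R : h39_RedDatum K F k Fb) {x : F} (hx : h39_WeakChart R x)
    {ι : Type*} [Fintype ι] (b : ι → F) (hb : ∀ i, b i ∈ R.O)
    (hli : LinearIndependent k⟮R.redF x⟯ (fun i => R.redF (b i)))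
    (c : ι → K⟮x⟯) (hc : ∑ i, c i • b i ∈ R.O) : ∀ i, ((c i : K⟮x⟯) : F) ∈ R.O := by
  classical
  by_cases h0 : ∀ i, c i = 0
  · intro i
    rw [h0 i]
    exact R.O.zero_mem
  · push Not at h0
    obtain ⟨i0, hi0⟩ := h0
    obtain ⟨j, -, hj⟩ := Finset.exists_max_image Finset.univ
      (fun i => R.O.valuation ((c i : K⟮x⟯) : F)) ⟨i0, Finset.mem_univ _⟩
    have hj0 : c j ≠ 0 := by
      intro h
      have h1 := hj i0 (Finset.mem_univ _)
      rw [h] at h1
      have h2 : R.O.valuation ((c i0 : K⟮x⟯) : F) = 0 := by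
        simpa using h1
      rw [Valuation.zero_iff] at h2
      exact hi0 (Subtype.ext h2)
    have hv := h44_val_sum R x (fun c _ => h39_gauss_redF_mem R hx (c : F) c.2) b hb hli c j hj0
      (fun i => hj i (Finset.mem_univ _))
    intro i
    rw [← ValuationSubring.valuation_le_one_iff] at hc ⊢
    rw [hv] at hc
    exact (hj i (Finset.mem_univ _)).trans hc

/-- a family of elements of `O` with independent reductions is independent over `K(x)`. -/
theorem h81_linearIndependent_of_red (R : h39_RedDatum K F k Fb) {x : F}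
    (hx : h39_WeakChart R x) {ι : Type*} [Fintype ι] (b : ι → F) (hb : ∀ i, b i ∈ R.O)
    (hli : LinearIndependent k⟮R.redF x⟯ (fun i => R.redF (b i))) :
    LinearIndependent K⟮x⟯ b := by
  classical
  rw [Fintype.linearIndependent_iff]
  intro c hc
  by_contra h0
  push Not at h0
  obtain ⟨i0, hi0⟩ := h0
  obtain ⟨j, -, hj⟩ := Finset.exists_max_image Finset.univ
    (fun i => R.O.valuation ((c i : K⟮x⟯) : F)) ⟨i0, Finset.mem_univ _⟩
  have hj0 : c j ≠ 0 := by
    intro h
    have h1 := hj i0 (Finset.mem_univ _)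
    rw [h] at h1
    have h2 : R.O.valuation ((c i0 : K⟮x⟯) : F) = 0 := by
      simpa using h1
    rw [Valuation.zero_iff] at h2
    exact hi0 (Subtype.ext h2)
  have hv := h44_val_sum R x (fun c _ => h39_gauss_redF_mem R hx (c : F) c.2) b hb hli c j hj0
    (fun i => hj i (Finset.mem_univ _))
  rw [hc, Valuation.map_zero] at hv
  have h3 : ((c j : K⟮x⟯) : F) = 0 := (Valuation.zero_iff _).mp hv.symm
  exact hj0 (Subtype.ext h3)

/-- **lifting of regular functions**: a function regular on the reduced chart is the reduction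
of an element of `O` regular on the chart. -/
theorem h15_exists_lift_reg [IsAlgClosed K] [CharZero K] [IsAlgClosed k]
    (R : h39_RedDatum K F k Fb) {x : F} (hx : h39_Chart R x) (fb : Fb)
    (hfb : h39_Reg k (R.redF x) fb) :
    ∃ f : F, f ∈ R.O ∧ h39_Reg K x f ∧ R.redF f = fb := by
  have hxK : h75_IsChart K x := h39_weakChart_isChart R hx.toh39_WeakChart
  have hxk : h75_IsChart k (R.redF x) := h39_weakChart_isChart_red R hx.toh39_WeakChart
  obtain ⟨n1, hn1⟩ := h39_finrank_Lx hxK
  obtain ⟨n2, hn2⟩ := h39_finrank_Lx hxk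
  obtain ⟨n3, hn3⟩ := h39_exists_mem_Lx hxk fb hfb
  have hK := hn1 (max n1 (max n2 n3)) (le_max_left _ _)
  have hk := hn2 (max n1 (max n2 n3)) ((le_max_left _ _).trans (le_max_right _ _))
  have hfbN : fb ∈ h39_Lx k (R.redF x) (max n1 (max n2 n3)) :=
    h39_Lx_mono _ ((le_max_right _ _).trans (le_max_right _ _)) hn3
  have := hK.1
  have := hk.1
  have hg := h39_genus_eq R hx
  have hdeg := hx.finrank_eq
  have hd : Module.finrank k (h39_Lx k (R.redF x) (max n1 (max n2 n3))) ≤
      Module.finrank K (h39_Lx K x (max n1 (max n2 n3))) := by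
    have h1 := hK.2
    have h2 := hk.2
    rw [hg, hdeg] at h2
    omega
  obtain ⟨f, hfV, hfO, hred⟩ := h39_red_surjective_of_finrank R hx.toh39_WeakChart
    (h39_Lx K x (max n1 (max n2 n3))) (h39_Lx k (R.redF x) (max n1 (max n2 n3)))
    (fun f hf hfO => h39_Lx_red R hx.toh39_WeakChart _ hf hfO) hd fb hfbN
  exact ⟨f, hfO, fun P hP => ((h66_mem_Lx_iff hxK.ne_zero).mp hfV).1 P hP, hred⟩

end Fermat.Agent.S27
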