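import Fermat.Agent.S27.Trunc
import Fermat.Agent.S18.GR_ChartPt
import Fermat.Agent.S18.RR_Chart

/-!
# S27 / B5e COORD, part 2 (helper81): plane models of a function field (one field)

`x` a chart of `F / K`, `y` with `1, y, .., y^(n-1)` independent over `K(x)`.

* `h81_eq_zero_of_ev2`, `h81_dvd_of_ev2` : a polynomial of `Y`-degree `< n` vanishing at `(x, y)`
  is zero; a monic `Φ` of degree `n` with `Φ(x, y) = 0` generates the relations;
* `h81_linearIndependent_pow` : powers of a primitive element;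
* `h81_exists_primitive_reg` : a primitive element regular on the chart;
* `h81_exists_den` : a common denominator `D(x)` of the ring of regular functions with respect
  to `K[x][y]`.
-/

set_option autoImplicit false

open AlgebraicCurve IntermediateField Polynomial

namespace Fermat.Agent.S27

open Fermat.Agent.S18

open scoped IntermediateField.algebraAdjoinAdjoin

/-- independence of the first `n` powers bounds the degree of the minimal polynomial. -/
theorem h81_le_natDegree_minpoly_aux {L E : Type*} [Field L] [Field E] [Algebra L E] {y : E}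
    (hy : IsIntegral L y) {n : ℕ}
    (hli : LinearIndependent L (fun i : Fin n => y ^ (i : ℕ))) :
    n ≤ (minpoly L y).natDegree := by
  by_contra hlt
  push Not at hlt
  have h0 : aeval y (minpoly L y) = 0 := minpoly.aeval L y
  rw [aeval_eq_sum_range' hlt,
    ← Fin.sum_univ_eq_sum_range (fun i => (minpoly L y).coeff i • y ^ i) n] at h0
  have h1 := Fintype.linearIndependent_iff.mp hli _ h0 ⟨_, hlt⟩
  have h2 : (minpoly L y).coeff (minpoly L y).natDegree = 1 := (minpoly.monic hy).coeff_natDegree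
  rw [h2] at h1
  exact one_ne_zero h1

section Generic

variable {K F : Type*} [Field K] [Field F] [Algebra K F]

/-- `p(x)` as an element of `K(x)`. -/
noncomputable def h81_cx (x : F) (p : K[X]) : K⟮x⟯ := aeval (AdjoinSimple.gen K x) p

theorem h81_cx_coe (x : F) (p : K[X]) : ((h81_cx x p : K⟮x⟯) : F) = aeval x p := by
  unfold h81_cx
  show algebraMap K⟮x⟯ F (aeval (AdjoinSimple.gen K x) p) = aeval x p
  rw [← aeval_algebraMap_apply, AdjoinSimple.algebraMap_gen]

/-- the value of a polynomial of `Y`-degree `< n` as a combination of powers of `y`. -/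
theorem h81_ev2_eq_sum (x y : F) (n : ℕ) (H : Polynomial (Polynomial K)) (hH : H.degree < n) :
    h15_ev2 x y H = ∑ i : Fin n, h81_cx x (H.coeff i) • y ^ (i : ℕ) := by
  have h1 : ∀ i : Fin n, h81_cx x (H.coeff i) • y ^ (i : ℕ) =
      aeval x (H.coeff (i : ℕ)) * y ^ (i : ℕ) := by
    intro i
    rw [Algebra.smul_def]
    congr 1
    exact h81_cx_coe x _
  rw [Finset.sum_congr rfl (fun i _ => h1 i),
    Fin.sum_univ_eq_sum_range (fun i => aeval x (H.coeff i) * y ^ i) n]
  rcases eq_or_ne H 0 with rfl | hH0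
  · simp [h69_ev2_zero]
  · have hn : H.natDegree < n := (natDegree_lt_iff_degree_lt hH0).mpr hH
    unfold h15_ev2
    rw [eval₂_eq_sum_range' _ hn]
    rfl

/-- a polynomial of `Y`-degree `< n` vanishing at `(x, y)` is zero. -/
theorem h81_eq_zero_of_ev2 {x y : F} (htr : Transcendental K x) {n : ℕ}
    (hli : LinearIndependent K⟮x⟯ (fun i : Fin n => y ^ (i : ℕ)))
    (H : Polynomial (Polynomial K)) (hH : H.degree < n) (h0 : h15_ev2 x y H = 0) : H = 0 := by
  rw [h81_ev2_eq_sum x y n H hH] at h0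
  have h1 := Fintype.linearIndependent_iff.mp hli _ h0
  ext1 i
  rw [coeff_zero]
  by_cases hi : i < n
  · have h2 := h1 ⟨i, hi⟩
    have h3 : aeval x (H.coeff i) = 0 := by
      rw [← h81_cx_coe, h2]
      rfl
    exact (transcendental_iff.mp htr) _ h3
  · exact coeff_eq_zero_of_degree_lt (lt_of_lt_of_le hH (by exact_mod_cast not_lt.mp hi))

/-- a monic polynomial of degree `n` vanishing at `(x, y)` generates the relations. -/
theorem h81_dvd_of_ev2 {x y : F} (htr : Transcendental K x) {n : ℕ}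
    (hli : LinearIndependent K⟮x⟯ (fun i : Fin n => y ^ (i : ℕ)))
    (Φ : Polynomial (Polynomial K)) (hΦm : Φ.Monic) (hdeg : Φ.natDegree = n)
    (hΦ : h15_ev2 x y Φ = 0) (H : Polynomial (Polynomial K)) (hH : h15_ev2 x y H = 0) :
    Φ ∣ H := by
  rw [← modByMonic_eq_zero_iff_dvd hΦm]
  apply h81_eq_zero_of_ev2 htr hli
  · calc (H %ₘ Φ).degree < Φ.degree := degree_modByMonic_lt _ hΦm
      _ = n := by rw [degree_eq_natDegree hΦm.ne_zero, hdeg]
  · have h1 := modByMonic_add_div H Φ
    have h2 : h15_ev2 x y (H %ₘ Φ) =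
        h15_ev2 x y H - h15_ev2 x y Φ * h15_ev2 x y (H /ₘ Φ) := by
      rw [← h69_ev2_mul, ← h69_ev2_sub]
      congr 1
      rw [eq_sub_iff_add_eq]
      exact h1
    rw [h2, hH, hΦ]
    ring

/-- reduction modulo a relation does not change the value at `(x, y)`. -/
theorem h81_ev2_modByMonic (x y : F) (Φ : Polynomial (Polynomial K))
    (hΦ : h15_ev2 x y Φ = 0) (H : Polynomial (Polynomial K)) :
    h15_ev2 x y (H %ₘ Φ) = h15_ev2 x y H := by
  have h1 := modByMonic_add_div H Φ
  have h2 : h15_ev2 x y (H %ₘ Φ) =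
      h15_ev2 x y H - h15_ev2 x y Φ * h15_ev2 x y (H /ₘ Φ) := by
    rw [← h69_ev2_mul, ← h69_ev2_sub]
    congr 1
    rw [eq_sub_iff_add_eq]
    exact h1
  rw [h2, hΦ]
  ring

/-- `p ↦ p(x)` as a ring homomorphism `K[X] → K(x)`. -/
noncomputable def h81_cxHom (x : F) : K[X] →+* K⟮x⟯ :=
  ((aeval (AdjoinSimple.gen K x) : K[X] →ₐ[K] K⟮x⟯) : K[X] →+* K⟮x⟯)

theorem h81_cxHom_apply (x : F) (p : K[X]) : h81_cxHom x p = h81_cx x p := rfl

/-- `H(x, y)` is the value at `y` of the one-variable polynomial `H(x, ·) ∈ K(x)[Y]`. -/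
theorem h81_aeval_map_cx (x y : F) (H : Polynomial (Polynomial K)) :
    aeval y (H.map (h81_cxHom x)) = h15_ev2 x y H := by
  rw [aeval_def, eval₂_map]
  unfold h15_ev2
  congr 1
  refine RingHom.ext fun p => ?_
  show algebraMap K⟮x⟯ F (h81_cx x p) = aeval x p
  exact h81_cx_coe x p

/-- separability: the `Y`-derivative of the monic relation of degree `n` does not vanish at
`(x, y)`. -/
theorem h81_ev2_derivative_ne_zero {x y : F} (hsep : IsSeparable K⟮x⟯ y) {n : ℕ}
    (hli : LinearIndependent K⟮x⟯ (fun i : Fin n => y ^ (i : ℕ)))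
    (Φ : Polynomial (Polynomial K)) (hΦm : Φ.Monic) (hdeg : Φ.natDegree = n)
    (hΦ : h15_ev2 x y Φ = 0) : h15_ev2 x y (derivative Φ) ≠ 0 := by
  have hint : IsIntegral K⟮x⟯ y := hsep.isIntegral
  have hΨm : (Φ.map (h81_cxHom x)).Monic := hΦm.map _
  have hΨdeg : (Φ.map (h81_cxHom x)).natDegree = n := by
    rw [hΦm.natDegree_map, hdeg]
  have hΨ0 : aeval y (Φ.map (h81_cxHom x)) = 0 := by
    rw [h81_aeval_map_cx, hΦ]
  have hdvd : minpoly K⟮x⟯ y ∣ Φ.map (h81_cxHom x) := minpoly.dvd _ _ hΨ0
  have heq : Φ.map (h81_cxHom x) = minpoly K⟮x⟯ y :=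
    eq_of_monic_of_dvd_of_natDegree_le (minpoly.monic hint) hΨm hdvd
      (by rw [hΨdeg]; exact h81_le_natDegree_minpoly_aux hint hli)
  have hsepΨ : (Φ.map (h81_cxHom x)).Separable := by
    rw [heq]
    exact hsep
  have h1 := hsepΨ.aeval_derivative_ne_zero hΨ0
  rw [derivative_map, h81_aeval_map_cx] at h1
  exact h1

end Generic

section Pow

variable {L E : Type*} [Field L] [Field E] [Algebra L E]

/-- independence of the first `n` powers bounds the degree of the minimal polynomial. -/
theorem h81_le_natDegree_minpoly {y : E} (hy : IsIntegral L y) {n : ℕ}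
    (hli : LinearIndependent L (fun i : Fin n => y ^ (i : ℕ))) :
    n ≤ (minpoly L y).natDegree := h81_le_natDegree_minpoly_aux hy hli

/-- the powers of a primitive element below the degree are independent. -/
theorem h81_linearIndependent_pow [FiniteDimensional L E] {y : E} (hy : L⟮y⟯ = ⊤) :
    LinearIndependent L (fun i : Fin (Module.finrank L E) => y ^ (i : ℕ)) := by
  have hint : IsIntegral L y := IsIntegral.of_finite L y
  have h1 : Module.finrank L E = (minpoly L y).natDegree := by
    rw [← IntermediateField.adjoin.finrank hint, hy, IntermediateField.finrank_top']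
  have h2 := linearIndependent_pow (K := L) y
  exact h2.comp (Fin.cast h1) (Fin.cast_injective h1)

end Pow


section Chart

variable {K F : Type*} [Field K] [Field F] [Algebra K F]

/-- a primitive element of `F / K(x)` that is regular on the chart `x`. -/
theorem h81_exists_primitive_reg {x : F} (hx : h75_IsChart K x) :
    ∃ y : F, h39_Reg K x y ∧ K⟮x⟯⟮y⟯ = ⊤ := by
  have := hx.fin
  have := hx.sep
  obtain ⟨α, hα⟩ := Field.exists_primitive_element K⟮x⟯ F
  have halg : IsAlgebraic (Algebra.adjoin K {x}) α :=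
    (IsFractionRing.isAlgebraic_iff (Algebra.adjoin K {x}) K⟮x⟯ F).mpr
      (Algebra.IsAlgebraic.isAlgebraic α)
  obtain ⟨a, ha0, hint⟩ := halg.exists_integral_multiple
  refine ⟨a • α, (h75_isIntegral_iff hx _).mp hint, ?_⟩
  rw [eq_top_iff, ← hα, IntermediateField.adjoin_simple_le_iff]
  have ha0' : algebraMap (Algebra.adjoin K {x}) K⟮x⟯ a ≠ 0 := by
    rw [Ne, map_eq_zero_iff _ (IsFractionRing.injective (Algebra.adjoin K {x}) K⟮x⟯)]
    exact ha0
  have h1 : α = (algebraMap (Algebra.adjoin K {x}) K⟮x⟯ a)⁻¹ • (a • α) := by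
    have ha0'' : (a : F) ≠ 0 := fun h => ha0 (Subtype.ext h)
    rw [Algebra.smul_def, Algebra.smul_def]
    show α = algebraMap K⟮x⟯ F ((algebraMap (Algebra.adjoin K {x}) K⟮x⟯ a)⁻¹) * ((a : F) * α)
    rw [map_inv₀]
    show α = (a : F)⁻¹ * ((a : F) * α)
    field_simp
  have h2 : (algebraMap (Algebra.adjoin K {x}) K⟮x⟯ a)⁻¹ • (a • α) ∈ K⟮x⟯⟮a • α⟯ :=
    (K⟮x⟯⟮a • α⟯).smul_mem (mem_adjoin_simple_self _ _)
  rw [← h1] at h2
  exact h2

/-- every element of `F` has a denominator in `K[x]` with respect to `K[x][y]`, when the powers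
of `y` span `F` over `K(x)`. -/
theorem h81_exists_den_one {x y : F} {n : ℕ}
    (hspan : ⊤ ≤ Submodule.span K⟮x⟯ (Set.range (fun i : Fin n => y ^ (i : ℕ)))) (f : F) :
    ∃ (q : K[X]) (H : Polynomial (Polynomial K)),
      aeval x q ≠ 0 ∧ h15_ev2 x y H = aeval x q * f := by
  have hf : f ∈ Submodule.span K⟮x⟯ (Set.range (fun i : Fin n => y ^ (i : ℕ))) :=
    hspan trivial
  induction hf using Submodule.span_induction with
  | mem g hg =>
    obtain ⟨i, rfl⟩ := hg
    refine ⟨1, X ^ (i : ℕ), by simp, ?_⟩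
    rw [h69_ev2_pow, h69_ev2_X]
    simp
  | zero => exact ⟨1, 0, by simp, by simp [h69_ev2_zero]⟩
  | add g g' _ _ hg hg' =>
    obtain ⟨q, H, hq, hH⟩ := hg
    obtain ⟨q', H', hq', hH'⟩ := hg'
    refine ⟨q * q', C q' * H + C q * H', ?_, ?_⟩
    · rw [map_mul]
      exact mul_ne_zero hq hq'
    · rw [h69_ev2_add, h69_ev2_mul, h69_ev2_mul, h69_ev2_C, h69_ev2_C, hH, hH', map_mul]
      ring
  | smul c g _ hg =>
    obtain ⟨q, H, hq, hH⟩ := hg
    obtain ⟨r, s, hrs⟩ := (IntermediateField.mem_adjoin_simple_iff K (c : F)).mp c.2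
    have hcg : c • g = (c : F) * g := by
      rw [Algebra.smul_def]
      rfl
    by_cases hs : aeval x s = 0
    · refine ⟨1, 0, by simp, ?_⟩
      rw [hcg, hrs, hs, div_zero, zero_mul, mul_zero, h69_ev2_zero]
    · refine ⟨s * q, C r * H, ?_, ?_⟩
      · rw [map_mul]
        exact mul_ne_zero hs hq
      · rw [h69_ev2_mul, h69_ev2_C, hH, hcg, hrs, map_mul]
        field_simp

/-- **common denominator**: the ring of functions regular on the chart `x` lies in
`D(x)⁻¹ K[x][y]` for a nonzero polynomial `D`. -/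
theorem h81_exists_den [IsAlgClosed K] {x y : F} (hx : h75_IsChart K x) {n : ℕ}
    (hspan : ⊤ ≤ Submodule.span K⟮x⟯ (Set.range (fun i : Fin n => y ^ (i : ℕ)))) :
    ∃ D : K[X], D ≠ 0 ∧ ∀ f : F, h39_Reg K x f →
      ∃ H : Polynomial (Polynomial K), h15_ev2 x y H = aeval x D * f := by
  classical
  have hfin := h75_ringB_finite hx
  obtain ⟨S, hS⟩ := hfin.fg_top
  choose q Hq hq0 hqH using fun b : ↥(h75_ringB K x) => h81_exists_den_one hspan (b : F)
  refine ⟨∏ s ∈ S, q s, ?_, ?_⟩
  · rw [Finset.prod_ne_zero_iff]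
    intro s _ h
    exact hq0 s (by rw [h, map_zero])
  · intro f hf
    have hfB : f ∈ h75_ringB K x := (h64_reg_iff_mem_ringB hx f).mp hf
    have hmem : (⟨f, hfB⟩ : ↥(h75_ringB K x)) ∈
        Submodule.span (h75_ringA K x) (S : Set ↥(h75_ringB K x)) := by
      rw [hS]
      trivial
    have key : ∀ b ∈ Submodule.span (h75_ringA K x) (S : Set ↥(h75_ringB K x)),
        ∃ H : Polynomial (Polynomial K),
          h15_ev2 x y H = aeval x (∏ s ∈ S, q s) * (b : F) := by
      intro b hb
      induction hb using Submodule.span_induction with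
      | mem b hbS =>
        refine ⟨C (∏ s ∈ S.erase b, q s) * Hq b, ?_⟩
        rw [h69_ev2_mul, h69_ev2_C, hqH b, ← Finset.mul_prod_erase S q hbS, map_mul]
        ring
      | zero => exact ⟨0, by simp [h69_ev2_zero]⟩
      | add b b' _ _ hb hb' =>
        obtain ⟨H, hH⟩ := hb
        obtain ⟨H', hH'⟩ := hb'
        refine ⟨H + H', ?_⟩
        rw [h69_ev2_add, hH, hH']
        push_cast
        ring
      | smul a b _ hb =>
        obtain ⟨H, hH⟩ := hb
        obtain ⟨p, hp⟩ : ∃ p : K[X], aeval x p = (a : F) := by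
          have h1 : (a : F) ∈ Algebra.adjoin K {x} := a.2
          rw [Algebra.adjoin_singleton_eq_range_aeval] at h1
          exact h1
        refine ⟨C p * H, ?_⟩
        have hab : ((a • b : ↥(h75_ringB K x)) : F) = (a : F) * (b : F) := rfl
        rw [h69_ev2_mul, h69_ev2_C, hH, hp, hab]
        ring
    exact key _ hmem

end Chart

end Fermat.Agent.S27
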