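import Fermat.Agent.S27.h81_CoordBasic
import Fermat.Agent.S27.h81_CoordGen

/-!
# S27 / B5e COORD, part 3 (helper81): integrality of coordinates in the plane model

`R` a reduction datum, `x` a weak chart, `y ∈ O` such that the reductions of `1, y, .., y^(n-1)`
are independent over `k(x̄)`.

* `h81_lifts_of_mem` : a polynomial of `Y`-degree `< n` with value in `O` has coefficients in `A`;
* `h81_exists_frac` : every element of `O` is `V(x, y) / q(x)` with `V ∈ A[X][Y]`, `q ∈ A[X]`,
  `q̄ ≠ 0`;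
* `h81_dvd_of_map_dvd` : divisibility by a monic polynomial descends along an injective map.
-/

set_option autoImplicit false

open AlgebraicCurve IntermediateField Polynomial

namespace Fermat.Agent.S27

open Fermat.Agent.S18

variable {K F k Fb : Type*} [Field K] [Field F] [Algebra K F] [Field k] [Field Fb] [Algebra k Fb]

/-- a polynomial of `Y`-degree `< n` whose value at `(x, y)` lies in `O` has coefficients in
`A`. -/
theorem h81_lifts_of_mem (R : h39_RedDatum K F k Fb) {x y : F} (hx : h39_WeakChart R x)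
    {n : ℕ} (hyO : y ∈ R.O)
    (hlired : LinearIndependent k⟮R.redF x⟯ (fun i : Fin n => R.redF (y ^ (i : ℕ))))
    (H : Polynomial (Polynomial K)) (hH : H.degree < n) (hO : h15_ev2 x y H ∈ R.O) :
    ∃ H₁ : Polynomial (Polynomial R.A),
      H₁.map (Polynomial.mapRingHom (algebraMap R.A K)) = H := by
  rw [h81_ev2_eq_sum x y n H hH] at hO
  have h1 := h81_coord_mem R hx (fun i : Fin n => y ^ (i : ℕ)) (fun i => R.O.pow_mem hyO _)
    hlired _ hO
  have h2 : ∀ i j, (H.coeff i).coeff j ∈ R.A := by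
    intro i j
    by_cases hi : i < n
    · have h3 := h1 ⟨i, hi⟩
      rw [h81_cx_coe] at h3
      exact (h39_gauss_mem_iff R hx _).mp h3 j
    · rw [coeff_eq_zero_of_degree_lt (lt_of_lt_of_le hH (by exact_mod_cast not_lt.mp hi))]
      simp
  have h3 : H ∈ Polynomial.lifts (Polynomial.mapRingHom (algebraMap R.A K)) := by
    rw [Polynomial.lifts_iff_coeff_lifts]
    intro i
    have h4 : H.coeff i ∈ Polynomial.lifts (algebraMap R.A K) := by
      rw [Polynomial.lifts_iff_coeff_lifts]
      intro j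
      exact ⟨⟨_, h2 i j⟩, rfl⟩
    obtain ⟨p, hp⟩ := (Polynomial.mem_lifts _).mp h4
    exact ⟨p, hp⟩
  exact (Polynomial.mem_lifts _).mp h3

/-- every element of `O` is `V(x, y) / q(x)` with `V ∈ A[X][Y]` and `q ∈ A[X]`, `q̄ ≠ 0`. -/
theorem h81_exists_frac (R : h39_RedDatum K F k Fb) {x y : F} (hx : h39_WeakChart R x)
    {n : ℕ} (hyO : y ∈ R.O)
    (hlired : LinearIndependent k⟮R.redF x⟯ (fun i : Fin n => R.redF (y ^ (i : ℕ))))
    (hspan : ⊤ ≤ Submodule.span K⟮x⟯ (Set.range (fun i : Fin n => y ^ (i : ℕ))))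
    (g : F) (hg : g ∈ R.O) :
    ∃ (q : Polynomial R.A) (V : Polynomial (Polynomial R.A)), q.map R.res ≠ 0 ∧
      h15_ev2 x y (V.map (Polynomial.mapRingHom (algebraMap R.A K))) =
        aeval x (q.map (algebraMap R.A K)) * g := by
  classical
  obtain ⟨c, hc⟩ := (Submodule.mem_span_range_iff_exists_fun K⟮x⟯).mp (hspan trivial : g ∈ _)
  have hcO : ∀ i, ((c i : K⟮x⟯) : F) ∈ R.O := by
    refine h81_coord_mem R hx (fun i : Fin n => y ^ (i : ℕ)) (fun i => R.O.pow_mem hyO _)
      hlired c ?_
    rw [hc]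
    exact hg
  rw [← hc]
  refine Finset.sum_induction (fun i : Fin n => c i • y ^ (i : ℕ))
    (fun g : F => ∃ (q : Polynomial R.A) (V : Polynomial (Polynomial R.A)), q.map R.res ≠ 0 ∧
      h15_ev2 x y (V.map (Polynomial.mapRingHom (algebraMap R.A K))) =
        aeval x (q.map (algebraMap R.A K)) * g) ?_ ?_ ?_
  · rintro a b ⟨q, V, hq, hV⟩ ⟨q', V', hq', hV'⟩
    refine ⟨q * q', C q' * V + C q * V', ?_, ?_⟩
    · rw [Polynomial.map_mul]
      exact mul_ne_zero hq hq'
    · rw [Polynomial.map_add, Polynomial.map_mul, Polynomial.map_mul, Polynomial.map_C,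
        Polynomial.map_C, h69_ev2_add, h69_ev2_mul, h69_ev2_mul, h69_ev2_C, h69_ev2_C, hV, hV',
        Polynomial.map_mul, map_mul]
      simp only [Polynomial.coe_mapRingHom]
      ring
  · refine ⟨1, 0, ?_, ?_⟩
    · rw [Polynomial.map_one]
      exact one_ne_zero
    · simp [h69_ev2_zero]
  · intro i _
    obtain ⟨p, q, hq, hpq⟩ := h39_gauss_ratfunc R hx (c i : F) (c i).2 (hcO i)
    refine ⟨q, C p * X ^ (i : ℕ), hq, ?_⟩
    rw [Polynomial.map_mul, Polynomial.map_C, Polynomial.map_pow, Polynomial.map_X,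
      h69_ev2_mul, h69_ev2_C, h69_ev2_pow, h69_ev2_X, Polynomial.coe_mapRingHom, ← hpq,
      Algebra.smul_def]
    show (c i : F) * aeval x (q.map (algebraMap R.A K)) * y ^ (i : ℕ) =
      aeval x (q.map (algebraMap R.A K)) * ((c i : F) * y ^ (i : ℕ))
    ring

/-- divisibility by a monic polynomial descends along an injective coefficient map. -/
theorem h81_dvd_of_map_dvd {S T : Type*} [CommRing S] [CommRing T] [Nontrivial T] (φ : S →+* T)
    (hφ : Function.Injective φ) {p q : Polynomial S} (hq : q.Monic)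
    (h : q.map φ ∣ p.map φ) : q ∣ p := by
  rw [← modByMonic_eq_zero_iff_dvd hq]
  apply Polynomial.map_injective φ hφ
  rw [Polynomial.map_modByMonic φ hq, Polynomial.map_zero]
  exact (modByMonic_eq_zero_iff_dvd (hq.map φ)).mpr h

end Fermat.Agent.S27
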