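import Mathlib

/-!
# S27, block B4 (HENSEL-AC): multivariate Hensel lemma over a valuation ring of an
algebraically closed field

`A` a valuation subring of an algebraically closed field `K` (ANY rank, no completeness),
`Ψ` a square polynomial system over `A`, `a ∈ A^σ` with `Ψ(a) ∈ m_A` and `det Jac(a)` a unit.
Then there is `b ∈ A^σ` with `Ψ(b) = 0` and `b ≡ a mod m_A`  (`h82_hensel_ac`).

Proof.  `B := A[X, Z] / (Ψ, det J * Z - 1)` is standard smooth of relative dimension `0`
(`h82_sub`), hence etale, hence flat, hence `A → B` has going-down.  The `k`-point `a` is a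
prime `𝔫` of `B` over `m_A`; going-down gives a prime `𝔮 ≤ 𝔫` over `0`.  The fraction field of
`B ⧸ 𝔮` is a formally unramified, essentially finite type field extension of `K`, hence finite,
hence equal to `K`.  So `B ⧸ 𝔮` embeds into `K` over `A`; its image is `A` itself because the
image of `𝔫` is a proper ideal containing `m_A` (`h82_exists_section`).
-/

set_option autoImplicit false

namespace Fermat.Agent.S27

open MvPolynomial

section Hensel

variable {R : Type*} [CommRing R] {σ : Type*} [Fintype σ] [DecidableEq σ]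

/-- The Jacobian determinant of a square system. -/
noncomputable def h82_jacDet (Ψ : σ → MvPolynomial σ R) : MvPolynomial σ R :=
  Matrix.det (Matrix.of fun i j => pderiv j (Ψ i))

/-- The relations: `Ψ i` and `det J * Z - 1`. -/
noncomputable def h82_rel (Ψ : σ → MvPolynomial σ R) :
    σ ⊕ Unit → MvPolynomial (σ ⊕ Unit) R :=
  Sum.elim (fun i => rename Sum.inl (Ψ i))
    (fun _ => rename Sum.inl (h82_jacDet Ψ) * X (Sum.inr ()) - 1)

/-- The standard etale algebra `R[X, Z] / (Ψ, det J * Z - 1)`. -/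
abbrev h82_B (Ψ : σ → MvPolynomial σ R) : Type _ :=
  MvPolynomial (σ ⊕ Unit) R ⧸ Ideal.span (Set.range (h82_rel Ψ))

/-- The naive presentation. -/
noncomputable def h82_pre (Ψ : σ → MvPolynomial σ R) :
    Algebra.PreSubmersivePresentation R (h82_B Ψ) (σ ⊕ Unit) (σ ⊕ Unit) :=
  Algebra.PreSubmersivePresentation.naive (v := h82_rel Ψ) id Function.injective_id

omit [Fintype σ] in
theorem h82_pderiv_inr_rename (p : MvPolynomial σ R) (u : Unit) :
    pderiv (Sum.inr u : σ ⊕ Unit) (rename Sum.inl p) = 0 := by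
  induction p using MvPolynomial.induction_on with
  | C a => simp
  | add p q hp hq => simp [hp, hq]
  | mul_X p i hp =>
    simp [hp, Derivation.leibniz, pderiv_X]

theorem h82_jacobiMatrix (Ψ : σ → MvPolynomial σ R) :
    (h82_pre Ψ).jacobiMatrix =
      Matrix.fromBlocks (Matrix.of fun i j => rename Sum.inl (pderiv i (Ψ j)))
        (Matrix.of fun i _ => pderiv (Sum.inl i)
          (rename Sum.inl (h82_jacDet Ψ) * X (Sum.inr ()) - 1))
        0 (Matrix.of fun _ _ => rename Sum.inl (h82_jacDet Ψ)) := by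
  ext i j
  rw [h82_pre, Algebra.PreSubmersivePresentation.jacobiMatrix_naive]
  rcases i with i | i <;> rcases j with j | j
  · simp [h82_rel, pderiv_rename Sum.inl_injective]
  · simp [h82_rel]
  · simp [h82_rel, h82_pderiv_inr_rename]
  · simp [h82_rel, h82_pderiv_inr_rename, Derivation.leibniz, pderiv_X]

theorem h82_det_jacobiMatrix (Ψ : σ → MvPolynomial σ R) :
    (h82_pre Ψ).jacobiMatrix.det = rename Sum.inl (h82_jacDet Ψ) ^ 2 := by
  rw [h82_jacobiMatrix, Matrix.det_fromBlocks_zero₂₁]
  have h1 : (Matrix.of fun i j => rename (Sum.inl : σ → σ ⊕ Unit) (pderiv i (Ψ j))) =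
      ((rename (Sum.inl : σ → σ ⊕ Unit)).toRingHom.mapMatrix
        (Matrix.of fun i j => pderiv j (Ψ i))).transpose := by
    ext i j
    simp
  rw [h1, Matrix.det_transpose, ← RingHom.map_det]
  simp [h82_jacDet, sq]


omit [Fintype σ] [DecidableEq σ] in
theorem h82_mk_eq_aeval (I : Ideal (MvPolynomial (σ ⊕ Unit) R))
    (p : MvPolynomial (σ ⊕ Unit) R) :
    Ideal.Quotient.mk I p = aeval (fun s => Ideal.Quotient.mk I (X s)) p := by
  have h := aeval_unique (Ideal.Quotient.mkₐ R I)
  exact DFunLike.congr_fun h p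

theorem h82_isUnit_jacDet (Ψ : σ → MvPolynomial σ R) :
    IsUnit (Ideal.Quotient.mk (Ideal.span (Set.range (h82_rel Ψ)))
      (rename Sum.inl (h82_jacDet Ψ))) := by
  refine IsUnit.of_mul_eq_one (Ideal.Quotient.mk _ (X (Sum.inr ()))) ?_
  rw [← map_mul, ← map_one (Ideal.Quotient.mk _), ← sub_eq_zero, ← map_sub,
    Ideal.Quotient.eq_zero_iff_mem]
  exact Ideal.subset_span ⟨Sum.inr (), rfl⟩

/-- The submersive presentation of `R[X, Z] / (Ψ, det J * Z - 1)`. -/
noncomputable def h82_sub (Ψ : σ → MvPolynomial σ R) :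
    Algebra.SubmersivePresentation R (h82_B Ψ) (σ ⊕ Unit) (σ ⊕ Unit) where
  __ := h82_pre Ψ
  jacobian_isUnit := by
    rw [Algebra.PreSubmersivePresentation.jacobian_eq_jacobiMatrix_det, h82_det_jacobiMatrix,
      map_pow]
    refine IsUnit.pow 2 ?_
    have h := h82_isUnit_jacDet Ψ
    rw [h82_mk_eq_aeval] at h
    rw [Algebra.Generators.algebraMap_apply]
    exact h

instance h82_etale (Ψ : σ → MvPolynomial σ R) : Algebra.Etale R (h82_B Ψ) := by
  have : Algebra.IsStandardSmoothOfRelativeDimension 0 R (h82_B Ψ) :=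
    (h82_sub Ψ).isStandardSmoothOfRelativeDimension (by simp [Algebra.Presentation.dimension])
  infer_instance

end Hensel

/-- **Sections of etale algebras over a valuation ring of an algebraically closed field.**
Every prime of an etale `A`-algebra `B` lying over the maximal ideal of `A` is "cut out" by an
`A`-point of `B`. -/
theorem h82_exists_section {K : Type*} [Field K] [IsAlgClosed K] (A : ValuationSubring K)
    (B : Type*) [CommRing B] [Algebra A B] [Algebra.Etale A B]
    (𝔫 : Ideal B) [h𝔫p : 𝔫.IsPrime]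
    (h𝔫 : ∀ c ∈ IsLocalRing.maximalIdeal A, algebraMap A B c ∈ 𝔫) :
    ∃ β : B →ₐ[A] A, ∀ x ∈ 𝔫, β x ∈ IsLocalRing.maximalIdeal A := by
  classical
  -- going down
  have : Module.Flat A B := inferInstance
  have hover : 𝔫.LiesOver (IsLocalRing.maximalIdeal A) := by
    refine ⟨le_antisymm (fun c hc => ?_) (IsLocalRing.le_maximalIdeal ?_)⟩
    · exact h𝔫 c hc
    · exact (Ideal.IsPrime.under A 𝔫).ne_top
  have : (⊥ : Ideal A).IsPrime := Ideal.isPrime_bot
  obtain ⟨𝔮, h𝔮le, h𝔮p, h𝔮over⟩ :=
    Ideal.exists_ideal_le_liesOver_of_le (p := (⊥ : Ideal A))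
      (q := IsLocalRing.maximalIdeal A) 𝔫 bot_le
  -- the field `L`
  let B' := B ⧸ 𝔮
  let L := FractionRing B'
  have hinj' : Function.Injective (algebraMap A B') := by
    rw [injective_iff_map_eq_zero]
    intro c hc
    have h1 : c ∈ 𝔮.under A := by
      rw [Ideal.under_def, Ideal.mem_comap, ← Ideal.Quotient.eq_zero_iff_mem]
      exact hc
    rw [← h𝔮over.over] at h1
    exact h1
  have hinj : Function.Injective (algebraMap A L) := by
    rw [IsScalarTower.algebraMap_eq A B' L]
    exact (IsFractionRing.injective B' L).comp hinj'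
  let _ : Algebra K L := RingHom.toAlgebra (IsFractionRing.lift hinj)
  have : IsScalarTower A K L :=
    IsScalarTower.of_algebraMap_eq fun x => (IsFractionRing.lift_algebraMap hinj x).symm
  have : Algebra.FormallyUnramified A L := inferInstance
  have : Algebra.FormallyUnramified K L := Algebra.FormallyUnramified.of_restrictScalars A K L
  have : Algebra.EssFiniteType A L := inferInstance
  have : Algebra.EssFiniteType K L := Algebra.EssFiniteType.of_comp A K L
  have : Module.Finite K L := Algebra.FormallyUnramified.finite_of_free K L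
  have hbij : Function.Bijective (algebraMap K L) :=
    IsAlgClosed.algebraMap_bijective_of_isIntegral
  -- the map `γ : B → K`
  let toL : B →ₐ[A] L := (IsScalarTower.toAlgHom A B' L).comp (Ideal.Quotient.mkₐ A 𝔮)
  have htoL : ∀ x y : B, toL x = toL y → x - y ∈ 𝔮 := by
    intro x y hxy
    have h1 : Ideal.Quotient.mk 𝔮 x = Ideal.Quotient.mk 𝔮 y :=
      IsFractionRing.injective B' L hxy
    exact Ideal.Quotient.eq.mp h1
  choose γ hγ using fun x : B => hbij.2 (toL x)
  have hγA : ∀ c : A, γ (algebraMap A B c) = (c : K) := by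
    intro c
    apply hbij.1
    rw [hγ, AlgHom.commutes, IsScalarTower.algebraMap_apply A K L]
    rfl
  have hγmul : ∀ x y : B, γ (x * y) = γ x * γ y := by
    intro x y
    apply hbij.1
    rw [hγ, map_mul, map_mul, hγ, hγ]
  have hγadd : ∀ x y : B, γ (x + y) = γ x + γ y := by
    intro x y
    apply hbij.1
    rw [hγ, map_add, map_add, hγ, hγ]
  have hγone : γ 1 = 1 := by
    apply hbij.1
    rw [hγ, map_one, map_one]
  have hγker : ∀ x y : B, γ x = γ y → x - y ∈ 𝔮 := by
    intro x y hxy
    apply htoL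
    rw [← hγ, ← hγ, hxy]
  -- key: if `c ∈ A`, `c * γ x = 1` and (`c ∈ m` or `x ∈ 𝔫`), contradiction
  have key : ∀ (c : A) (x : B), (c : K) * γ x = 1 →
      (c ∈ IsLocalRing.maximalIdeal A ∨ x ∈ 𝔫) → False := by
    intro c x hcx hor
    have h1 : algebraMap A B c * x - 1 ∈ 𝔮 := by
      apply hγker
      rw [hγmul, hγA, hcx, hγone]
    have h2 : algebraMap A B c * x ∈ 𝔫 := by
      rcases hor with h | h
      · exact 𝔫.mul_mem_right _ (h𝔫 c h)
      · exact 𝔫.mul_mem_left _ h
    have h3 : (1 : B) ∈ 𝔫 := by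
      have := 𝔫.sub_mem h2 (h𝔮le h1)
      simpa using this
    exact h𝔫p.ne_top ((Ideal.eq_top_iff_one 𝔫).mpr h3)
  have hmem : ∀ x : B, γ x ∈ A := by
    intro x
    by_contra hx
    have hinv : (γ x)⁻¹ ∈ A := (A.mem_or_inv_mem (γ x)).resolve_left hx
    have hx0 : γ x ≠ 0 := fun h => hx (h ▸ A.zero_mem)
    refine key ⟨(γ x)⁻¹, hinv⟩ x (inv_mul_cancel₀ hx0) (Or.inl ?_)
    rw [IsLocalRing.mem_maximalIdeal, mem_nonunits_iff]
    intro hu
    obtain ⟨u, hu⟩ := hu
    apply hx
    have h4 : ((u⁻¹ : Aˣ) : K) = γ x := by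
      have h5 : ((u : A) : K) * ((u⁻¹ : Aˣ) : A) = 1 := by
        rw [← A.coe_mul]
        simp
      rw [hu] at h5
      exact ((inv_mul_eq_one₀ hx0).mp h5).symm
    rw [← h4]
    exact ((u⁻¹ : Aˣ) : A).2
  let β : B →ₐ[A] A :=
    { toFun := fun x => ⟨γ x, hmem x⟩
      map_one' := Subtype.ext hγone
      map_mul' := fun x y => Subtype.ext (hγmul x y)
      map_zero' := Subtype.ext (by
        have := hγA 0
        simpa using this)
      map_add' := fun x y => Subtype.ext (hγadd x y)
      commutes' := fun c => Subtype.ext (hγA c) }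
  refine ⟨β, fun x hx => ?_⟩
  rw [IsLocalRing.mem_maximalIdeal, mem_nonunits_iff]
  intro hu
  obtain ⟨u, hu⟩ := hu
  refine key ((u⁻¹ : Aˣ) : A) x ?_ (Or.inr hx)
  have h5 : (((u⁻¹ : Aˣ) : A) : K) * ((u : A) : K) = 1 := by
    rw [← A.coe_mul]
    simp
  rw [hu] at h5
  exact h5


/-- **Multivariate Hensel lemma over a valuation ring of an algebraically closed field**
(any rank, no completeness). -/
theorem h82_hensel_ac {K : Type*} [Field K] [IsAlgClosed K] (A : ValuationSubring K)
    {σ : Type*} [Fintype σ] [DecidableEq σ]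
    (Ψ : σ → MvPolynomial σ A) (a : σ → A)
    (ha : ∀ i, MvPolynomial.eval a (Ψ i) ∈ IsLocalRing.maximalIdeal A)
    (hJ : IsUnit (Matrix.det
      (Matrix.of fun i j => MvPolynomial.eval a (MvPolynomial.pderiv j (Ψ i))))) :
    ∃ b : σ → A, (∀ i, MvPolynomial.eval b (Ψ i) = 0) ∧
      ∀ i, b i - a i ∈ IsLocalRing.maximalIdeal A := by
  classical
  have hd : IsUnit (eval a (h82_jacDet Ψ)) := by
    have h1 : eval a (h82_jacDet Ψ) =
        Matrix.det (Matrix.of fun i j => eval a (pderiv j (Ψ i))) := by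
      rw [h82_jacDet, RingHom.map_det]
      rfl
    rw [h1]
    exact hJ
  obtain ⟨u, hu⟩ := hd
  -- the point of the special fibre
  let g : σ ⊕ Unit → IsLocalRing.ResidueField A :=
    Sum.elim (fun i => IsLocalRing.residue A (a i)) (fun _ => IsLocalRing.residue A (u⁻¹ : Aˣ))
  have hg : ∀ p : MvPolynomial σ A,
      aeval g (rename Sum.inl p) = IsLocalRing.residue A (eval a p) := by
    intro p
    have h1 := eval₂_comp_right (IsLocalRing.residue A) (RingHom.id A) a p
    rw [eval₂_id, MvPolynomial.map_id] at h1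
    rw [aeval_rename, aeval_def, h1]
    rfl
  have hφ₀ : ∀ x ∈ Ideal.span (Set.range (h82_rel Ψ)), aeval g x = 0 := by
    intro x hx
    have hle : Ideal.span (Set.range (h82_rel Ψ)) ≤ RingHom.ker (aeval g).toRingHom := by
      rw [Ideal.span_le]
      rintro _ ⟨i | i, rfl⟩
      · show aeval g (rename Sum.inl (Ψ i)) = 0
        rw [hg, IsLocalRing.residue_eq_zero_iff]
        exact ha i
      · show aeval g (rename Sum.inl (h82_jacDet Ψ) * X (Sum.inr ()) - 1) = 0
        rw [map_sub, map_mul, hg, aeval_X, map_one, ← hu]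
        show IsLocalRing.residue A (u : A) * IsLocalRing.residue A ((u⁻¹ : Aˣ) : A) - 1 = 0
        rw [← map_mul, Units.mul_inv, map_one, sub_self]
    exact hle hx
  let φ : h82_B Ψ →ₐ[A] IsLocalRing.ResidueField A :=
    Ideal.Quotient.liftₐ (Ideal.span (Set.range (h82_rel Ψ))) (aeval g) hφ₀
  have hφmk : ∀ p, φ (Ideal.Quotient.mk _ p) = aeval g p := fun p => rfl
  have hprime : (RingHom.ker φ.toRingHom).IsPrime := RingHom.ker_isPrime _
  have hm : ∀ c ∈ IsLocalRing.maximalIdeal A,
      algebraMap A (h82_B Ψ) c ∈ RingHom.ker φ.toRingHom := by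
    intro c hc
    rw [RingHom.mem_ker]
    show φ (algebraMap A (h82_B Ψ) c) = 0
    rw [AlgHom.commutes]
    exact (IsLocalRing.residue_eq_zero_iff c).mpr hc
  obtain ⟨β, hβ⟩ := h82_exists_section A (h82_B Ψ) (RingHom.ker φ.toRingHom) hm
  -- the solution
  let ξ : σ ⊕ Unit → h82_B Ψ := fun s => Ideal.Quotient.mk _ (X s)
  refine ⟨fun i => β (ξ (Sum.inl i)), fun j => ?_, fun i => ?_⟩
  · have h1 : β (Ideal.Quotient.mk _ (rename Sum.inl (Ψ j))) = 0 := by
      have h2 : Ideal.Quotient.mk (Ideal.span (Set.range (h82_rel Ψ)))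
          (rename Sum.inl (Ψ j)) = 0 := by
        rw [Ideal.Quotient.eq_zero_iff_mem]
        exact Ideal.subset_span ⟨Sum.inl j, rfl⟩
      rw [h2, map_zero]
    rw [h82_mk_eq_aeval, comp_aeval_apply, aeval_rename] at h1
    rw [← h1, ← coe_aeval_eq_eval]
    rfl
  · have h1 : ξ (Sum.inl i) - algebraMap A (h82_B Ψ) (a i) ∈ RingHom.ker φ.toRingHom := by
      rw [RingHom.mem_ker]
      show φ (ξ (Sum.inl i) - algebraMap A (h82_B Ψ) (a i)) = 0
      rw [map_sub, AlgHom.commutes, hφmk, aeval_X, sub_eq_zero]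
      rfl
    have h2 := hβ _ h1
    rw [map_sub, AlgHom.commutes] at h2
    exact h2

end Fermat.Agent.S27
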