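import Fermat.Agent.S27.h82_HenselAC

/-!
# S27, block B4 (HENSEL-AC): the adapter to the skeleton shapes

`h82_hensel_K` and `h82_hensel_ker_K` have exactly the binders and conclusions of the skeleton
statements `h15_hensel` and `h15_hensel_ker` (polynomials over `K` with coefficients in `A`,
points in `K` lying in `A`, membership in `A.nonunits`).  The rank-one hypothesis `hA` is not
used.  The kernel form follows from the determinant form: a square matrix over the local ring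
`A` whose reduction is injective has unit determinant.
-/

set_option autoImplicit false

namespace Fermat.Agent.S27

open MvPolynomial

/-- A polynomial over `K` with coefficients in `A` comes from `A`. -/
theorem h82_exists_lift {K : Type*} [Field K] (A : ValuationSubring K) {σ : Type*}
    (p : MvPolynomial σ K) (hp : ∀ s, p.coeff s ∈ A) :
    ∃ q : MvPolynomial σ A, map A.subtype q = p := by
  have h : p ∈ Set.range (map (σ := σ) A.subtype) := by
    rw [mem_range_map_iff_coeffs_subset]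
    intro c hc
    obtain ⟨s, -, rfl⟩ := mem_coeffs_iff.mp (Finset.mem_coe.mp hc)
    exact ⟨⟨_, hp s⟩, rfl⟩
  exact h

/-- Evaluation commutes with the inclusion `A → K`. -/
theorem h82_coe_eval {K : Type*} [Field K] (A : ValuationSubring K) {σ : Type*}
    (q : MvPolynomial σ A) (c : σ → A) :
    ((eval c q : A) : K) = eval (fun i => (c i : K)) (map A.subtype q) := by
  rw [eval_map]
  exact eval₂_comp A.subtype c q

/-- The common lifting data of the two adapters. -/
theorem h82_lift_data {K : Type*} [Field K] (A : ValuationSubring K)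
    {σ : Type*} [Fintype σ] [DecidableEq σ]
    (Ψ : σ → MvPolynomial σ K) (hΨ : ∀ i s, (Ψ i).coeff s ∈ A)
    (a : σ → K) (ha : ∀ i, a i ∈ A) :
    ∃ (Ψ' : σ → MvPolynomial σ A) (a' : σ → A),
      (∀ i, (a' i : K) = a i) ∧
      (∀ (b : σ → A) (i : σ), ((eval b (Ψ' i) : A) : K) = eval (fun j => (b j : K)) (Ψ i)) ∧
      (∀ i j, ((eval a' (pderiv j (Ψ' i)) : A) : K) = eval a (pderiv j (Ψ i))) ∧
      ((Matrix.det (Matrix.of fun i j => eval a' (pderiv j (Ψ' i))) : A) : K) =
        Matrix.det (Matrix.of fun i j => eval a (pderiv j (Ψ i))) := by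
  choose Ψ' hΨ' using fun i => h82_exists_lift A (Ψ i) (hΨ i)
  have hd : ∀ i j, ((eval (fun i => (⟨a i, ha i⟩ : A)) (pderiv j (Ψ' i)) : A) : K) =
      eval a (pderiv j (Ψ i)) := by
    intro i j
    rw [h82_coe_eval, ← pderiv_map, hΨ']
  refine ⟨Ψ', fun i => ⟨a i, ha i⟩, fun i => rfl, fun b i => ?_, hd, ?_⟩
  · rw [h82_coe_eval, hΨ']
  · have h1 := RingHom.map_det A.subtype
      (Matrix.of fun i j => eval (fun i => (⟨a i, ha i⟩ : A)) (pderiv j (Ψ' i)))
    have h2 : A.subtype.mapMatrix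
        (Matrix.of fun i j => eval (fun i => (⟨a i, ha i⟩ : A)) (pderiv j (Ψ' i))) =
        Matrix.of fun i j => eval a (pderiv j (Ψ i)) := by
      ext i j
      exact hd i j
    rw [h2] at h1
    exact h1

/-- **HENSEL-AC, determinant form, skeleton shape** (`hA` unused). -/
theorem h82_hensel_K {K : Type*} [Field K] [IsAlgClosed K] (A : ValuationSubring K)
    (_hA : ∀ a : K, a ∈ A → a⁻¹ ∉ A → ∀ δ : K, δ ≠ 0 → ∃ n : ℕ, a ^ n * δ⁻¹ ∈ A)
    {σ : Type*} [Fintype σ] [DecidableEq σ]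
    (Ψ : σ → MvPolynomial σ K) (hΨ : ∀ i s, (Ψ i).coeff s ∈ A)
    (a : σ → K) (ha : ∀ i, a i ∈ A)
    (h0 : ∀ i, MvPolynomial.eval a (Ψ i) ∈ A.nonunits)
    (hJ : (Matrix.of fun i j => MvPolynomial.eval a (MvPolynomial.pderiv j (Ψ i))).det
      ∉ A.nonunits) :
    ∃ b : σ → K, (∀ i, b i ∈ A) ∧ (∀ i, b i - a i ∈ A.nonunits) ∧
      ∀ i, MvPolynomial.eval b (Ψ i) = 0 := by
  classical
  obtain ⟨Ψ', a', ha', hev, -, hdet⟩ := h82_lift_data A Ψ hΨ a ha
  have haa : (fun j => (a' j : K)) = a := funext ha'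
  have h0' : ∀ i, eval a' (Ψ' i) ∈ IsLocalRing.maximalIdeal A := by
    intro i
    rw [← A.coe_mem_nonunits_iff, hev, haa]
    exact h0 i
  have hJ' : IsUnit (Matrix.det (Matrix.of fun i j => eval a' (pderiv j (Ψ' i)))) := by
    by_contra hnu
    apply hJ
    rw [← hdet, A.coe_mem_nonunits_iff, IsLocalRing.mem_maximalIdeal]
    exact hnu
  obtain ⟨b, hb0, hba⟩ := h82_hensel_ac A Ψ' a' h0' hJ'
  refine ⟨fun i => (b i : K), fun i => (b i).2, fun i => ?_, fun i => ?_⟩
  · have h := A.coe_mem_nonunits_iff.mpr (hba i)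
    rw [← ha' i]
    exact h
  · rw [← hev b i, hb0 i]
    rfl

/-- **HENSEL-AC, kernel form, skeleton shape** (`hA` unused). -/
theorem h82_hensel_ker_K {K : Type*} [Field K] [IsAlgClosed K] (A : ValuationSubring K)
    (hA : ∀ a : K, a ∈ A → a⁻¹ ∉ A → ∀ δ : K, δ ≠ 0 → ∃ n : ℕ, a ^ n * δ⁻¹ ∈ A)
    {σ : Type*} [Fintype σ] [DecidableEq σ]
    (Ψ : σ → MvPolynomial σ K) (hΨ : ∀ i s, (Ψ i).coeff s ∈ A)
    (a : σ → K) (ha : ∀ i, a i ∈ A)
    (h0 : ∀ i, MvPolynomial.eval a (Ψ i) ∈ A.nonunits)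
    (hJ : ∀ δ : σ → K, (∀ j, δ j ∈ A) →
      (∀ i, ∑ j, MvPolynomial.eval a (MvPolynomial.pderiv j (Ψ i)) * δ j ∈ A.nonunits) →
      ∀ j, δ j ∈ A.nonunits) :
    ∃ b : σ → K, (∀ i, b i ∈ A) ∧ (∀ i, b i - a i ∈ A.nonunits) ∧
      ∀ i, MvPolynomial.eval b (Ψ i) = 0 := by
  classical
  refine h82_hensel_K A hA Ψ hΨ a ha h0 fun hdetnu => ?_
  obtain ⟨Ψ', a', -, -, hd, hdet⟩ := h82_lift_data A Ψ hΨ a ha
  rw [← hdet, A.coe_mem_nonunits_iff] at hdetnu
  -- the reduced Jacobian is singular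
  set J : Matrix σ σ A := Matrix.of fun i j => eval a' (pderiv j (Ψ' i)) with hJdef
  have hbar : ((IsLocalRing.residue A).mapMatrix J).det = 0 := by
    rw [← RingHom.map_det]
    exact (IsLocalRing.residue_eq_zero_iff _).mpr hdetnu
  obtain ⟨v, hv0, hv⟩ := Matrix.exists_mulVec_eq_zero_iff.mpr hbar
  choose δ' hδ' using fun j => IsLocalRing.residue_surjective (R := A) (v j)
  have h1 : ∀ i, ∑ j, eval a (pderiv j (Ψ i)) * (δ' j : K) ∈ A.nonunits := by
    intro i
    have h2 : (∑ j, J i j * δ' j) ∈ IsLocalRing.maximalIdeal A := by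
      rw [← IsLocalRing.residue_eq_zero_iff, map_sum]
      have h3 := congrFun hv i
      rw [Matrix.mulVec, dotProduct] at h3
      rw [Pi.zero_apply] at h3
      rw [← h3]
      refine Finset.sum_congr rfl fun j _ => ?_
      rw [map_mul, hδ' j]
      rfl
    have h4 := A.coe_mem_nonunits_iff.mpr h2
    have h5 : ((∑ j, J i j * δ' j : A) : K) = ∑ j, eval a (pderiv j (Ψ i)) * (δ' j : K) := by
      rw [← A.subtype_apply, map_sum]
      refine Finset.sum_congr rfl fun j _ => ?_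
      rw [map_mul, A.subtype_apply, A.subtype_apply, hJdef, Matrix.of_apply, hd i j]
    rw [h5] at h4
    exact h4
  have h6 := hJ (fun j => (δ' j : K)) (fun j => (δ' j).2) h1
  apply hv0
  funext j
  rw [Pi.zero_apply, ← hδ' j, IsLocalRing.residue_eq_zero_iff, ← A.coe_mem_nonunits_iff]
  exact h6 j

end Fermat.Agent.S27
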