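import Fermat.Agent.S27.h84_TangentRed

/-!
# S27, block B5 LIFT: the approximate solution of the jet system (STEP 4 of PLAN v2)
(owner helper84)

At a place `Q` of the reduced curve `Fb / k` where `x - b` is a uniformizer, the truncated
expansion of `y` lifts coefficientwise to a valuation ring `A` with residue map `φ : A →+* k`;
the lift `(ξ0, θ0)` satisfies the congruences `h1`, `h2` of `h15_hensel_system` for every
`H ∈ A[X][Y]` whose reduction has order `≥ m` at `Q` along `(x, y)`.

* `h84_val_of_trunc` : the constant term of a truncated expansion is the value of `y`.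
* `h84_exists_approx` : one place.
* `h84_exists_approx_fin` : a family of places `T j`, `j : Fin g`.
-/

set_option autoImplicit false

noncomputable section

open AlgebraicCurve Fermat.Agent.S18 Polynomial IsLocalRing

namespace Fermat.Agent.S27

section ValTrunc

variable {k Fb : Type*} [Field k] [Field Fb] [Algebra k Fb]

/-- The constant term of a truncated expansion of `y` at `Q` (of order `m ≥ 1`) is the value of
`y` at `Q`. -/
theorem h84_val_of_trunc (Q : Place k Fb) (x y : Fb) (b : k)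
    (hx : 0 < Q.ord (x - algebraMap k Fb b)) (m : ℕ) (hm : 0 < m) (θ : k[X])
    (hθ : Q.adicValuation (y - aeval (x - algebraMap k Fb b) θ) ≤ WithZero.exp (-(m : ℤ))) :
    h39_Val Q y (θ.eval 0) := by
  set t : Fb := x - algebraMap k Fb b with ht
  have ht0 : t ≠ 0 := by
    intro h
    rw [h, Q.ord_zero] at hx
    exact lt_irrefl _ hx
  have hvt1 : Q.adicValuation t < 1 := by
    rw [Q.adicValuation_eq_exp_neg_ord ht0, ← WithZero.exp_zero, WithZero.exp_lt_exp]
    omega
  have htmem : t ∈ Q.toValuationSubring := h84_mem_of_le_one Q hvt1.le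
  -- `θ(t) - θ(0) = t * q(t)`
  obtain ⟨q, hq⟩ := Polynomial.X_sub_C_dvd_sub_C_eval (a := (0 : k)) (p := θ)
  have h1 : aeval t θ - algebraMap k Fb (θ.eval 0) = t * aeval t q := by
    have h := congrArg (aeval t) hq
    simpa only [map_sub, aeval_C, map_mul, aeval_X, map_zero, sub_zero] using h
  have h2 : Q.adicValuation (aeval t θ - algebraMap k Fb (θ.eval 0)) < 1 := by
    rw [h1, map_mul]
    exact mul_lt_one_of_lt_of_le hvt1 (Q.adicValuation_le_one_of_mem (h84_aeval_mem Q htmem q))
  have h3 : Q.adicValuation (y - aeval t θ) < 1 := by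
    refine lt_of_le_of_lt hθ ?_
    rw [← WithZero.exp_zero, WithZero.exp_lt_exp]
    omega
  have h4 : Q.adicValuation (y - algebraMap k Fb (θ.eval 0)) < 1 := by
    have h : y - algebraMap k Fb (θ.eval 0) =
        (y - aeval t θ) + (aeval t θ - algebraMap k Fb (θ.eval 0)) := by ring
    rw [h]
    exact lt_of_le_of_lt (Valuation.map_add _ _ _) (max_lt h3 h2)
  by_cases h0 : y - algebraMap k Fb (θ.eval 0) = 0
  · exact Or.inl (sub_eq_zero.mp h0)
  · refine Or.inr ?_
    rw [Q.adicValuation_eq_exp_neg_ord h0, ← WithZero.exp_zero, WithZero.exp_lt_exp] at h4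
    omega

end ValTrunc

section Approx

variable {K : Type*} [Field K] (A : ValuationSubring K)
variable {k Fb : Type*} [Field k] [IsAlgClosed k] [Field Fb] [Algebra k Fb]

/-- **APPROX (one place).** At a place `Q` of the reduced curve where `x - φ ξ0` is a
uniformizer and `y` is regular, there is `θ0 ∈ A[u]` of degree `< m` whose reduction is a
truncated expansion of `y` of order `m`; for every `H ∈ A[X][Y]` whose reduction `H̄(x, y)` has
order `≥ m` at `Q`, the first `m` coefficients of `H(ξ0 + u, θ0(u))` lie in the maximal ideal. -/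
theorem h84_exists_approx (φ : A →+* k) (hφ : Function.Surjective φ)
    {x0 : Fb} (hx0 : h75_IsChart k x0) (x y : Fb) (m : ℕ) (Q : Place k Fb) (ξ0 : A)
    (hξ : Q.ord (x - algebraMap k Fb (φ ξ0)) = 1) (hy : y ∈ Q.toValuationSubring) :
    ∃ θ0 : Polynomial A, θ0.degree < m ∧
      Q.adicValuation (y - aeval (x - algebraMap k Fb (φ ξ0)) (θ0.map φ)) ≤
        WithZero.exp (-(m : ℤ)) ∧
      ∀ H : Polynomial (Polynomial A),
        Q.adicValuation (h15_ev2 x y (H.map (mapRingHom φ))) ≤ WithZero.exp (-(m : ℤ)) →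
        ∀ i < m, (h15_sub2 H ξ0 θ0).coeff i ∈ maximalIdeal A := by
  obtain ⟨θb, hθbdeg, hθb⟩ := h15_exists_trunc hx0 Q x y (φ ξ0) hξ hy m
  obtain ⟨θ0, hθ0map, hθ0deg⟩ :=
    Polynomial.exists_degree_eq_of_mem_lifts (Polynomial.mem_lifts_of_surjective hφ θb)
  refine ⟨θ0, by rw [hθ0deg]; exact hθbdeg, by rw [hθ0map]; exact hθb, fun H hH i hi => ?_⟩
  have hdvd : X ^ m ∣ h15_sub2 (H.map (mapRingHom φ)) (φ ξ0) θb :=
    (h15_ord_ge_iff_trunc Q x y (φ ξ0) hξ m θb hθb _).mp hH
  have hmap : (h15_sub2 H ξ0 θ0).map φ = h15_sub2 (H.map (mapRingHom φ)) (φ ξ0) θb := by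
    rw [h69_sub2_map, hθ0map]
  rw [← hmap, Polynomial.X_pow_dvd_iff] at hdvd
  have h := hdvd i hi
  rw [Polynomial.coeff_map] at h
  exact (h84_res_eq_zero_iff A φ hφ _).mp h

/-- **APPROX (family).** The approximate solution `(ξ0_j, θ0_j)` of the jet system at the
places `T j` with `x`-values `b j`. -/
theorem h84_exists_approx_fin (φ : A →+* k) (hφ : Function.Surjective φ)
    {x0 : Fb} (hx0 : h75_IsChart k x0) (x y : Fb) (g m : ℕ) (T : Fin g → Place k Fb)
    (b : Fin g → k) (hξ : ∀ j, (T j).ord (x - algebraMap k Fb (b j)) = 1)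
    (hy : ∀ j, y ∈ (T j).toValuationSubring) :
    ∃ (ξ0 : Fin g → A) (θ0 : Fin g → Polynomial A),
      (∀ j, φ (ξ0 j) = b j) ∧ (∀ j, (θ0 j).degree < m) ∧
      (∀ j, (T j).adicValuation (y - aeval (x - algebraMap k Fb (φ (ξ0 j))) ((θ0 j).map φ)) ≤
        WithZero.exp (-(m : ℤ))) ∧
      ∀ H : Polynomial (Polynomial A),
        (∀ j, (T j).adicValuation (h15_ev2 x y (H.map (mapRingHom φ))) ≤
          WithZero.exp (-(m : ℤ))) →
        ∀ j, ∀ i < m, (h15_sub2 H (ξ0 j) (θ0 j)).coeff i ∈ maximalIdeal A := by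
  choose ξ0 hξ0 using fun j => hφ (b j)
  have hex := fun j => h84_exists_approx A φ hφ hx0 x y m (T j) (ξ0 j)
    (by rw [hξ0 j]; exact hξ j) (hy j)
  choose θ0 h1 h2 h3 using hex
  exact ⟨ξ0, θ0, hξ0, h1, h2, fun H hH j => h3 j H (hH j)⟩

end Approx

end Fermat.Agent.S27

end
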