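import Fermat.Agent.S27.h84_LiftPoints
import Fermat.Agent.S27.h64_LiftDiv
import Fermat.Agent.S27.Move

/-!
# S27, block B5 LIFT: the conclusion (STEP 7 of PLAN v2) (owner helper84)

`h84_lift_conclude` : places `T j` of `F` over the `Tb j`, a lift `G' = Gp - E` of
`Gb' = Gpb - Eb`, and `f ∈ L(m G')` with `ord_{T j} f ≥ m` give the divisor
`D = ∑ T j - G'` of degree `0` with `m D = div f` and `r0_* D ~ Db`.
-/

set_option autoImplicit false

noncomputable section

open AlgebraicCurve Fermat.Agent.S18 Polynomial IsLocalRing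

namespace Fermat.Agent.S27

section Finsupp

/-- A nonnegative finitely supported function whose push-forward vanishes at `b` vanishes on
the fibre of `b`. -/
theorem h84_eq_zero_of_mapDomain_eq_zero {α β : Type*} (r : α → β) (E : α →₀ ℤ)
    (hE : ∀ a, 0 ≤ E a) (b : β) (hb : Finsupp.mapDomain r E b = 0) (a : α) (ha : r a = b) :
    E a = 0 := by
  classical
  by_contra hne
  have hmem : a ∈ E.support := Finsupp.mem_support_iff.mpr hne
  have hsum : Finsupp.mapDomain r E b = ∑ a' ∈ E.support, if r a' = b then E a' else 0 := by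
    rw [Finsupp.mapDomain, Finsupp.sum, Finsupp.finsetSum_apply]
    refine Finset.sum_congr rfl fun a' _ => ?_
    rw [Finsupp.single_apply]
  have hle : (if r a = b then E a else 0) ≤ ∑ a' ∈ E.support, if r a' = b then E a' else 0 :=
    Finset.single_le_sum (f := fun a' => if r a' = b then E a' else 0)
      (fun a' _ => by split_ifs <;> first | exact hE a' | exact le_rfl) hmem
  rw [if_pos ha, ← hsum, hb] at hle
  exact hne (le_antisymm hle (hE a))

end Finsupp

section Conclude

variable {K F k Fb : Type*} [Field K] [IsAlgClosed K] [Field F] [Algebra K F]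
  [Field k] [IsAlgClosed k] [Field Fb] [Algebra k Fb]

/-- **CONCLUDE (STEP 7 of PLAN v2).** -/
theorem h84_lift_conclude (R : h39_RedDatum K F k Fb) (S : h39_PlaceRed R) {x : F}
    (hxK : h75_IsChart K x) {xb : Fb} (hxk : h75_IsChart k xb) (g m : ℕ)
    (T : Fin g → Place K F) (Tb : Fin g → Place k Fb) (hTb : Function.Injective Tb)
    (hr0 : ∀ j, S.r0 (T j) = Tb j)
    (Gp E : Divisor K F) (Gpb Eb : Divisor k Fb)
    (hGp : Finsupp.mapDomain S.r0 Gp = Gpb) (hE : Finsupp.mapDomain S.r0 E = Eb)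
    (hE0 : ∀ P, 0 ≤ E P) (hEb : ∀ j, Eb (Tb j) = 0) (hGpT : ∀ j, Gp (T j) = 0)
    (hdegb : Divisor.degree (Gpb - Eb) = g)
    (f : F) (hf0 : f ≠ 0) (hfL : f ∈ riemannRochSpace (m • (Gp - E)))
    (hford : ∀ j, (T j).adicValuation f ≤ WithZero.exp (-(m : ℤ)))
    (Db : Divisor k Fb)
    (hmove : (∑ j, Finsupp.single (Tb j) (1 : ℤ)) - (Gpb - Eb) - Db ∈
      Divisor.principal (K := k) (F := Fb)) :
    ∃ D : Divisor K F, Divisor.degree D = 0 ∧ m • D ∈ Divisor.principal (K := K) (F := F) ∧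
      Finsupp.mapDomain S.r0 D - Db ∈ Divisor.principal (K := k) (F := Fb) := by
  classical
  have hT : Function.Injective T := fun i j hij => hTb (by rw [← hr0 i, ← hr0 j, hij])
  have hET : ∀ j, E (T j) = 0 := fun j =>
    h84_eq_zero_of_mapDomain_eq_zero S.r0 E hE0 (Tb j) (by rw [hE]; exact hEb j) (T j) (hr0 j)
  have hST : ∀ j, (∑ i, Finsupp.single (T i) (1 : ℤ)) (T j) = 1 := by
    intro j
    rw [Finsupp.finsetSum_apply]
    simp [Finsupp.single_apply, hT.eq_iff]
  have hSQ : ∀ Q : Place K F, (∀ j, T j ≠ Q) → (∑ i, Finsupp.single (T i) (1 : ℤ)) Q = 0 := by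
    intro Q hQ
    rw [Finsupp.finsetSum_apply]
    exact Finset.sum_eq_zero fun i _ => by simp [hQ i]
  have hdegG : Divisor.degree (Gp - E) = g := by
    rw [← h64_degree_mapDomain_r0 R S hxK hxk (Gp - E), Finsupp.mapDomain_sub, hGp, hE, hdegb]
  have hdegT : Divisor.degree (∑ j, Finsupp.single (T j) (1 : ℤ)) = g := by
    rw [h82_degree_sum_single hxK]
    simp
  have hdegD : Divisor.degree ((∑ j, Finsupp.single (T j) (1 : ℤ)) - (Gp - E)) = 0 := by
    rw [map_sub, hdegT, hdegG, sub_self]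
  have hle : ∀ P : Place K F,
      ((m : ℕ) • ((∑ j, Finsupp.single (T j) (1 : ℤ)) - (Gp - E))) P ≤ P.ord f := by
    intro P
    rw [Finsupp.smul_apply, Finsupp.sub_apply, nsmul_eq_mul]
    by_cases hP : ∃ j, T j = P
    · obtain ⟨j, rfl⟩ := hP
      rw [hST j, Finsupp.sub_apply, hGpT j, hET j]
      rcases (T j).adicValuation_le_exp_iff.mp (hford j) with h | h
      · exact absurd h hf0
      · simpa using h
    · push Not at hP
      rw [hSQ P hP]
      rcases (mem_riemannRochSpace_iff.mp hfL) P with h | h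
      · exact absurd h hf0
      · rw [Finsupp.smul_apply, nsmul_eq_mul] at h
        linarith
  have hord := h64_ord_eq_of_le_of_degree hxK f hf0
    ((m : ℕ) • ((∑ j, Finsupp.single (T j) (1 : ℤ)) - (Gp - E))) hle
    (by rw [map_nsmul, hdegD, smul_zero])
  refine ⟨(∑ j, Finsupp.single (T j) (1 : ℤ)) - (Gp - E), hdegD,
    ⟨f, hf0, fun P => (hord P).symm⟩, ?_⟩
  have hmap : Finsupp.mapDomain S.r0 ((∑ j, Finsupp.single (T j) (1 : ℤ)) - (Gp - E)) =
      (∑ j, Finsupp.single (Tb j) (1 : ℤ)) - (Gpb - Eb) := by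
    rw [Finsupp.mapDomain_sub, Finsupp.mapDomain_sub, hGp, hE, Finsupp.mapDomain_finsetSum]
    congr 1
    refine Finset.sum_congr rfl fun j _ => ?_
    rw [Finsupp.mapDomain_single, hr0 j]
  rw [hmap]
  exact hmove

end Conclude

end Fermat.Agent.S27

end
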