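import Fermat.Agent.S27.h84_LiftSolve

/-!
# S27, block B5 LIFT: from a solution of the jet system to places (STEP 6 of PLAN v2)
(owner helper84)

`h84_point_of_sol` (one place): a solution `(ξ, θ)` over `A` of `Φ(ξ + u, θ(u)) ≡ 0 mod u^m`
whose reduction is the point `(b, c)` of the reduced curve at the place `Q` gives a place `P` of
`F` with `x(P) = ξ`, `y(P) = θ(0)`, `ord_P (x - ξ) = 1`, truncated expansion `θ`, and `r P = Q`
for a chart reduction map `r`.

`h84_two_eval_map` : naturality of the two-variable evaluation `H(ξ, η)`.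
-/

set_option autoImplicit false

noncomputable section

open AlgebraicCurve Fermat.Agent.S18 Polynomial IsLocalRing

namespace Fermat.Agent.S27

section Alg

variable {R S : Type*} [CommRing R] [CommRing S]

/-- Naturality of the two-variable evaluation `H(ξ, η)`. -/
theorem h84_two_eval_map (f : R →+* S) (H : Polynomial (Polynomial R)) (ξ η : R) :
    ((H.map (mapRingHom f)).eval (C (f η))).eval (f ξ) = f ((H.eval (C η)).eval ξ) := by
  have h1 : (H.eval (C η)).eval ξ = (h15_sub2 H ξ (C η)).eval 0 := by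
    rw [h69_sub2_eval_zero, eval_C]
  have h2 : ((H.map (mapRingHom f)).eval (C (f η))).eval (f ξ) =
      (h15_sub2 (H.map (mapRingHom f)) (f ξ) (C (f η))).eval 0 := by
    rw [h69_sub2_eval_zero, eval_C]
  rw [h1, h2, ← Polynomial.eval_zero_map, h69_sub2_map, Polynomial.map_C]

end Alg

section Points

variable {K F k Fb : Type*} [Field K] [IsAlgClosed K] [Field F] [Algebra K F]
  [Field k] [Field Fb] [Algebra k Fb]

/-- **POINT (one place).** -/
theorem h84_point_of_sol (R : h39_RedDatum K F k Fb) {x : F}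
    (hxne : ∀ a : K, x ≠ algebraMap K F a)
    (r : Place K F → Place k Fb) (hr : h39_IsChartRed R x r)
    (y : F) (hyO : y ∈ R.O) (hyreg : h39_Reg K x y) (hxO : x ∈ R.O)
    (Φ : Polynomial (Polynomial R.A))
    (hΦ : h15_ev2 x y (Φ.map (mapRingHom R.A.subtype)) = 0)
    (hpt : ∀ ξ η : R.A, (Φ.eval (C η)).eval ξ = 0 →
      ∃ P : Place K F, h39_Val P x (ξ : K) ∧ h39_Val P y (η : K))
    (Z : Finset K)
    (hZ : ∀ (P : Place K F) (a : K), 2 ≤ P.ord (x - algebraMap K F a) → a ∈ Z)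
    (Q : Place k Fb) (b c : k)
    (hQuniq : ∀ Q' : Place k Fb, h39_Val Q' (R.redF x) b → h39_Val Q' (R.redF y) c → Q' = Q)
    (hsmb : ((Φ.map (mapRingHom R.res)).derivative.eval (C c)).eval b ≠ 0)
    (hbZ : ∀ z ∈ Z, R.resK z ≠ b)
    (m : ℕ) (hm : 0 < m) (ξ : R.A) (θ : Polynomial R.A) (hξ : R.res ξ = b)
    (hθc : R.res (θ.eval 0) = c) (hsol : X ^ m ∣ h15_sub2 Φ ξ θ) :
    ∃ P : Place K F, h39_Val P x (ξ : K) ∧ h39_Val P y ((θ.eval 0 : R.A) : K) ∧
      P.ord (x - algebraMap K F (ξ : K)) = 1 ∧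
      P.adicValuation (y - aeval (x - algebraMap K F (ξ : K)) (θ.map R.A.subtype)) ≤
        WithZero.exp (-(m : ℤ)) ∧
      r P = Q := by
  -- the point `(ξ, η)` lies on the model
  have h0 : (Φ.eval (C (θ.eval 0))).eval ξ = 0 := by
    rw [← h69_sub2_eval_zero, ← coeff_zero_eq_eval_zero]
    exact Polynomial.X_dvd_iff.mp ((dvd_pow_self X hm.ne').trans hsol)
  obtain ⟨P, hPx, hPy⟩ := hpt ξ (θ.eval 0) h0
  have hxpos : 0 < P.ord (x - algebraMap K F (ξ : K)) := by
    rcases hPx with h | h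
    · exact absurd h (hxne _)
    · exact h
  -- smoothness over `K`
  have hsmA : ((derivative Φ).eval (C (θ.eval 0))).eval ξ ≠ 0 := by
    intro h
    apply hsmb
    have := h84_two_eval_map R.res (derivative Φ) ξ (θ.eval 0)
    rw [h, map_zero, hξ, hθc, ← Polynomial.derivative_map] at this
    exact this
  have hsmK : (((Φ.map (mapRingHom R.A.subtype)).derivative.eval
      (C ((θ.eval 0 : R.A) : K))).eval (ξ : K)) ≠ 0 := by
    have := h84_two_eval_map R.A.subtype (derivative Φ) ξ (θ.eval 0)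
    rw [← Polynomial.derivative_map] at this
    have h2 : R.A.subtype (((derivative Φ).eval (C (θ.eval 0))).eval ξ) ≠ 0 := by
      intro h
      exact hsmA (Subtype.ext h)
    intro h
    exact h2 (this ▸ h)
  have hdivK : X ^ m ∣ h15_sub2 (Φ.map (mapRingHom R.A.subtype)) (ξ : K) (θ.map R.A.subtype) := by
    have h := Polynomial.map_dvd R.A.subtype hsol
    rwa [Polynomial.map_pow, Polynomial.map_X, h69_sub2_map] at h
  have hθ0K : (θ.map R.A.subtype).eval 0 = ((θ.eval 0 : R.A) : K) :=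
    Polynomial.eval_zero_map R.A.subtype θ
  have htr := h15_trunc_of_root P x y (Φ.map (mapRingHom R.A.subtype)) hΦ (ξ : K)
    ((θ.eval 0 : R.A) : K) hxpos hPy hsmK m (θ.map R.A.subtype) hθ0K hdivK
  -- `x - ξ` is a uniformizer: `res ξ` is not the residue of a branch value
  have hresξ : R.resK (ξ : K) = b := by
    rw [R.resK_of_mem ξ.2]
    exact hξ
  have hord : P.ord (x - algebraMap K F (ξ : K)) = 1 := by
    by_contra hne
    have h2 : 2 ≤ P.ord (x - algebraMap K F (ξ : K)) := by omega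
    exact hbZ _ (hZ P _ h2) hresξ
  -- the reduction of `P`
  have hdisc : h39_InDisc R x P := ⟨(ξ : K), ξ.2, hPx⟩
  obtain ⟨-, hrP⟩ := hr P hdisc
  have hrx := hrP x hxO (fun _ h => h) (ξ : K) hPx
  have hry := hrP y hyO hyreg ((θ.eval 0 : R.A) : K) hPy
  rw [hresξ] at hrx
  have hresη : R.resK ((θ.eval 0 : R.A) : K) = c := by
    rw [R.resK_of_mem (θ.eval 0).2]
    exact hθc
  rw [hresη] at hry
  exact ⟨P, hPx, hPy, hord, htr, hQuniq (r P) hrx hry⟩

/-- **STEPS 4 + 5 + 6 of PLAN v2.** From the reduced data (places `Tb j` of the reduced curve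
with `x̄`-values `b j` off the zeros of `d̄` and off the residues of the branch values; the linear
data `G', f0b, eb` with `H0, H l ∈ A[X][Y]`) to places `T j` of `F` with `r0 (T j) = Tb j` and
coordinates `c l ∈ 𝔪` such that every `f` with `d(x) f = (H0 + ∑ c_l H_l)(x, y)` has order `≥ m`
at all `T j`.  The hypotheses `hpt`, `hc6` are conjuncts of `h81_coord`. -/
theorem h84_exists_lift_points [IsAlgClosed k] (R : h39_RedDatum K F k Fb) {x : F}
    (hxne : ∀ a : K, x ≠ algebraMap K F a) (hxO : x ∈ R.O)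
    (r0 : Place K F → Place k Fb)
    (hr0 : ∃ r : Place K F → Place k Fb, h39_IsChartRed R x r ∧
      ∀ P : Place K F, h39_InDisc R x P → r0 P = r P)
    {x0 : Fb} (hx0 : h75_IsChart k x0)
    (y : F) (hyO : y ∈ R.O) (hyreg : h39_Reg K x y)
    (hyregb : h39_Reg k (R.redF x) (R.redF y))
    (Φ : Polynomial (Polynomial R.A)) (d : Polynomial R.A)
    (hΦ : h15_ev2 x y (Φ.map (mapRingHom R.A.subtype)) = 0)
    (hΦb : h15_ev2 (R.redF x) (R.redF y) (Φ.map (mapRingHom R.res)) = 0)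
    (hpt : ∀ ξ η : R.A, (Φ.eval (C η)).eval ξ = 0 →
      ∃ P : Place K F, h39_Val P x (ξ : K) ∧ h39_Val P y (η : K))
    (hc6 : ∀ (Q : Place k Fb) (b c : k), h39_Val Q (R.redF x) b → h39_Val Q (R.redF y) c →
      (d.map R.res).eval b ≠ 0 →
      Q.ord (R.redF x - algebraMap k Fb b) = 1 ∧
      ((Φ.map (mapRingHom R.res)).derivative.eval (C c)).eval b ≠ 0 ∧
      ∀ Q' : Place k Fb, h39_Val Q' (R.redF x) b → h39_Val Q' (R.redF y) c → Q' = Q)
    (Z : Finset K)
    (hZ : ∀ (P : Place K F) (a : K), 2 ≤ P.ord (x - algebraMap K F a) → a ∈ Z)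
    (g m M : ℕ) (hM : M + g = m * g) (hm : (m : k) ≠ 0)
    (Tb : Fin g → Place k Fb) (hTb : Function.Injective Tb) (b : Fin g → k)
    (hbval : ∀ j, h39_Val (Tb j) (R.redF x) (b j))
    (hdb : ∀ j, (d.map R.res).eval (b j) ≠ 0)
    (hbZ : ∀ j, ∀ z ∈ Z, R.resK z ≠ b j)
    (G' : Divisor k Fb) (hG' : ∀ j, G' (Tb j) = 0)
    (hl : Module.finrank k (riemannRochSpace (∑ j, Finsupp.single (Tb j) (1 : ℤ))) = 1)
    (f0b : Fb) (hf0b : f0b ≠ 0)
    (hdiv : ∀ P : Place k Fb,
      P.ord f0b = m * ((∑ j, Finsupp.single (Tb j) (1 : ℤ)) P - G' P))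
    (eb : Fin M → Fb) (heb : ∀ l, eb l ∈ riemannRochSpace (m • G'))
    (hli : LinearIndependent k (Fin.cons f0b eb : Fin (M + 1) → Fb))
    (H0 : Polynomial (Polynomial R.A)) (H : Fin M → Polynomial (Polynomial R.A))
    (hH0 : h15_ev2 (R.redF x) (R.redF y) (H0.map (mapRingHom R.res)) =
      aeval (R.redF x) (d.map R.res) * f0b)
    (hH : ∀ l, h15_ev2 (R.redF x) (R.redF y) ((H l).map (mapRingHom R.res)) =
      aeval (R.redF x) (d.map R.res) * eb l) :
    ∃ (ξ : Fin g → R.A) (T : Fin g → Place K F) (c : Fin M → R.A),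
      (∀ l, c l ∈ maximalIdeal R.A) ∧ (∀ j, R.res (ξ j) = b j) ∧
      (∀ j, h39_Val (T j) x (ξ j : K)) ∧
      (∀ j, (T j).ord (x - algebraMap K F (ξ j : K)) = 1) ∧
      (∀ j, r0 (T j) = Tb j) ∧
      ∀ f : F, h15_ev2 x y ((H0 + ∑ l, C (C (c l)) * H l).map (mapRingHom R.A.subtype)) =
          aeval x (d.map R.A.subtype) * f →
        ∀ j, (T j).adicValuation f ≤ WithZero.exp (-(m : ℤ)) := by
  have hm0 : 0 < m := by
    rcases Nat.eq_zero_or_pos m with h | h
    · rw [h] at hm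
      simp at hm
    · exact h
  -- the values of `ȳ` at the `Tb j`
  have hxbmem : ∀ j, R.redF x ∈ (Tb j).toValuationSubring := fun j => h39_val_mem _ (hbval j)
  have hybmem : ∀ j, R.redF y ∈ (Tb j).toValuationSubring := fun j => hyregb _ (hxbmem j)
  choose cv hcv using fun j => h39_exists_val hx0 (Tb j) (hybmem j)
  have h6 := fun j => hc6 (Tb j) (b j) (cv j) (hbval j) (hcv j) (hdb j)
  have hb : ∀ j, (Tb j).ord (R.redF x - algebraMap k Fb (b j)) = 1 := fun j => (h6 j).1
  have hsm : ∀ (j : Fin g) (c' : k), h39_Val (Tb j) (R.redF y) c' →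
      ((Φ.map (mapRingHom R.res)).derivative.eval (C c')).eval (b j) ≠ 0 := by
    intro j c' hc'
    rw [h39_val_unique (Tb j) hc' (hcv j)]
    exact (h6 j).2.1
  obtain ⟨ξ, θ, c, hsol⟩ := h84_exists_sol R.A R.res R.res_surjective hx0 (R.redF x) (R.redF y)
    g m M hM Φ H0 H hΦb hm Tb hTb b hb hybmem hsm (d.map R.res) hdb G' hG' hl f0b hf0b hdiv eb
    heb hli hH0 hH
  obtain ⟨-, hξ, hθ, hc, hsΦ, hsH⟩ := hsol
  obtain ⟨r, hr, hr0'⟩ := hr0
  have hθc : ∀ j, R.res ((θ j).eval 0) = cv j := by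
    intro j
    have h := h84_val_of_trunc (Tb j) (R.redF x) (R.redF y) (b j)
      (by rw [hb j]; exact one_pos) m hm0 _ (hθ j)
    rw [← Polynomial.eval_zero_map]
    exact h39_val_unique (Tb j) h (hcv j)
  have hpts := fun j => h84_point_of_sol R hxne r hr y hyO hyreg hxO Φ hΦ hpt Z hZ (Tb j) (b j)
    (cv j) (h6 j).2.2 (h6 j).2.1 (hbZ j) m hm0 (ξ j) (θ j) (hξ j) (hθc j) (hsΦ j)
  choose T hTx hTy hTord hTtr hTr using hpts
  refine ⟨ξ, T, c, hc, hξ, hTx, hTord, fun j => ?_, fun f hf j => ?_⟩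
  · rw [hr0' (T j) ⟨(ξ j : K), (ξ j).2, hTx j⟩]
    exact hTr j
  · -- the order of `d(x) f` along the truncated expansion
    have hdivK : X ^ m ∣ h15_sub2 ((H0 + ∑ l, C (C (c l)) * H l).map (mapRingHom R.A.subtype))
        ((ξ j : R.A) : K) ((θ j).map R.A.subtype) := by
      have h := Polynomial.map_dvd R.A.subtype (hsH j)
      rwa [Polynomial.map_pow, Polynomial.map_X, h69_sub2_map] at h
    have hv := (h15_ord_ge_iff_trunc (T j) x y (ξ j : K) (hTord j) m _ (hTtr j) _).mpr hdivK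
    -- `d(x)` is a unit at `T j`
    have hdξ : (d.map R.A.subtype).eval ((ξ j : R.A) : K) ≠ 0 := by
      have h1 : (d.map R.A.subtype).eval (R.A.subtype (ξ j)) = R.A.subtype (d.eval (ξ j)) :=
        Polynomial.eval_map_apply _ _
      have h2 : d.eval (ξ j) ≠ 0 := by
        intro h0
        apply hdb j
        rw [← hξ j, Polynomial.eval_map_apply, h0, map_zero]
      intro h
      apply h2
      apply Subtype.ext
      have h3 : R.A.subtype (d.eval (ξ j)) = 0 := h1 ▸ h
      exact h3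
    have hvx : (T j).adicValuation (x - algebraMap K F ((ξ j : R.A) : K)) < 1 := by
      have hne : x - algebraMap K F ((ξ j : R.A) : K) ≠ 0 := sub_ne_zero.mpr (hxne _)
      rw [(T j).adicValuation_eq_exp_neg_ord hne, hTord j, ← WithZero.exp_zero,
        WithZero.exp_lt_exp]
      norm_num
    have hvd := h84_val_aeval_of_eval_ne (T j) hvx (d.map R.A.subtype) hdξ
    rwa [hf, map_mul, hvd, one_mul] at hv

end Points

end Fermat.Agent.S27

end
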