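import Fermat.Agent.S27.h84_LiftApprox
import Fermat.Agent.S27.LiftSystem
import Fermat.Agent.S27.h66_LiftSystemUniq

/-!
# S27, block B5 LIFT: existence and uniqueness of the solution of the jet system, in terms of
the reduced curve (STEPS 4 + 5 of PLAN v2, and the UNIQ half of row 506) (owner helper84)

Setting: `A` a valuation ring of `K` with residue map `φ : A →+* k` (surjective), `Fb / k` the
reduced curve with coordinates `x, y`, places `T j` with `x`-values `b j`, and the data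
`Φ, H0, H l ∈ A[X][Y]`, `d, G', f0, e l` exactly as in `h15_tangent` (for the reductions).

`h84_IsSol` : a solution `(ξ, θ, c)` over `A` of the jet system whose reduction is the base
point (`φ (ξ j) = b j`, the reduction of `θ j` is a truncated expansion of `y` at `T j`,
`c l ∈ 𝔪`).

* `h84_exists_sol` : a solution exists (`K` algebraically closed).
* `h84_sol_unique` : it is unique.
-/

set_option autoImplicit false

noncomputable section

open AlgebraicCurve Fermat.Agent.S18 Polynomial IsLocalRing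

namespace Fermat.Agent.S27

section TruncUnique

variable {k Fb : Type*} [Field k] [IsAlgClosed k] [Field Fb] [Algebra k Fb]

/-- Two truncated expansions of `y` of order `m` agree modulo `X ^ m`. -/
theorem h84_trunc_dvd_sub (Q : Place k Fb) (x y : Fb) (b : k)
    (hx : Q.ord (x - algebraMap k Fb b) = 1) (m : ℕ) (θ θ' : k[X])
    (hθ : Q.adicValuation (y - aeval (x - algebraMap k Fb b) θ) ≤ WithZero.exp (-(m : ℤ)))
    (hθ' : Q.adicValuation (y - aeval (x - algebraMap k Fb b) θ') ≤ WithZero.exp (-(m : ℤ))) :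
    X ^ m ∣ θ' - θ := by
  have hv : Q.adicValuation (aeval (x - algebraMap k Fb b) (θ' - θ)) ≤
      WithZero.exp (-(m : ℤ)) := by
    have h : aeval (x - algebraMap k Fb b) (θ' - θ) =
        (y - aeval (x - algebraMap k Fb b) θ) - (y - aeval (x - algebraMap k Fb b) θ') := by
      rw [map_sub]
      ring
    rw [h]
    exact (Valuation.map_sub _ _ _).trans (max_le hθ hθ')
  have hev : h15_ev2 x y (C ((θ' - θ).comp (X - C b))) =
      aeval (x - algebraMap k Fb b) (θ' - θ) := by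
    rw [h84_ev2_C, aeval_comp]
    simp
  have key := (h15_ord_ge_iff_trunc Q x y b hx m θ hθ (C ((θ' - θ).comp (X - C b)))).mp
    (by rw [hev]; exact hv)
  rwa [h84_sub2_C, comp_assoc, show (X - C b : k[X]).comp (X + C b) = X by simp, comp_X] at key

/-- A truncated expansion of `y` of order `m` and degree `< m` is unique. -/
theorem h84_trunc_unique (Q : Place k Fb) (x y : Fb) (b : k)
    (hx : Q.ord (x - algebraMap k Fb b) = 1) (m : ℕ) (θ θ' : k[X])
    (hdeg : θ.degree < m) (hdeg' : θ'.degree < m)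
    (hθ : Q.adicValuation (y - aeval (x - algebraMap k Fb b) θ) ≤ WithZero.exp (-(m : ℤ)))
    (hθ' : Q.adicValuation (y - aeval (x - algebraMap k Fb b) θ') ≤ WithZero.exp (-(m : ℤ))) :
    θ' = θ := by
  have h := h84_trunc_dvd_sub Q x y b hx m θ θ' hθ hθ'
  have h0 : θ' - θ = 0 := by
    refine Polynomial.eq_zero_of_dvd_of_degree_lt h ?_
    rw [degree_X_pow]
    exact lt_of_le_of_lt (Polynomial.degree_sub_le _ _) (max_lt hdeg' hdeg)
  exact sub_eq_zero.mp h0

end TruncUnique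

section Solve

variable {K : Type*} [Field K] (A : ValuationSubring K)
variable {k Fb : Type*} [Field k] [Field Fb] [Algebra k Fb]

/-- A solution `(ξ, θ, c)` over `A` of the jet system for `(Φ, H0, H)` whose reduction is the
base point given by the places `T j` (with `x`-values `b j`) of the reduced curve. -/
def h84_IsSol (φ : A →+* k) (x y : Fb) (g m M : ℕ)
    (Φ H0 : Polynomial (Polynomial A)) (H : Fin M → Polynomial (Polynomial A))
    (T : Fin g → Place k Fb) (b : Fin g → k)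
    (ξ : Fin g → A) (θ : Fin g → Polynomial A) (c : Fin M → A) : Prop :=
  (∀ j, (θ j).degree < m) ∧ (∀ j, φ (ξ j) = b j) ∧
  (∀ j, (T j).adicValuation (y - aeval (x - algebraMap k Fb (b j)) ((θ j).map φ)) ≤
    WithZero.exp (-(m : ℤ))) ∧
  (∀ l, c l ∈ maximalIdeal A) ∧
  (∀ j, X ^ m ∣ h15_sub2 Φ (ξ j) (θ j)) ∧
  ∀ j, X ^ m ∣ h15_sub2 (H0 + ∑ l, C (C (c l)) * H l) (ξ j) (θ j)

variable [IsAlgClosed k]

/-- The tangent hypothesis at any point `(ξ0, θ0)` over `A` whose reduction is the base point. -/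
theorem h84_hT_of_base (φ : A →+* k) (hφ : Function.Surjective φ)
    {x0 : Fb} (hx0 : h75_IsChart k x0) (x y : Fb) (g m M : ℕ)
    (Φ H0 : Polynomial (Polynomial A)) (H : Fin M → Polynomial (Polynomial A))
    (hΦ : h15_ev2 x y (Φ.map (mapRingHom φ)) = 0) (hm : (m : k) ≠ 0)
    (T : Fin g → Place k Fb) (hT : Function.Injective T) (b : Fin g → k)
    (hb : ∀ j, (T j).ord (x - algebraMap k Fb (b j)) = 1)
    (hsm : ∀ (j : Fin g) (c : k), h39_Val (T j) y c →
      ((Φ.map (mapRingHom φ)).derivative.eval (C c)).eval (b j) ≠ 0)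
    (d : k[X]) (hd : ∀ j, d.eval (b j) ≠ 0)
    (G' : Divisor k Fb) (hG' : ∀ j, G' (T j) = 0)
    (hl : Module.finrank k (riemannRochSpace (∑ j, Finsupp.single (T j) (1 : ℤ))) = 1)
    (f0 : Fb) (hf0 : f0 ≠ 0)
    (hdiv : ∀ P : Place k Fb, P.ord f0 = m * ((∑ j, Finsupp.single (T j) (1 : ℤ)) P - G' P))
    (e : Fin M → Fb) (he : ∀ l, e l ∈ riemannRochSpace (m • G'))
    (hli : LinearIndependent k (Fin.cons f0 e : Fin (M + 1) → Fb))
    (hH0 : h15_ev2 x y (H0.map (mapRingHom φ)) = aeval x d * f0)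
    (hH : ∀ l, h15_ev2 x y ((H l).map (mapRingHom φ)) = aeval x d * e l)
    (ξ0 : Fin g → A) (θ0 : Fin g → Polynomial A) (hξ0 : ∀ j, φ (ξ0 j) = b j)
    (hθ0 : ∀ j, (T j).adicValuation (y - aeval (x - algebraMap k Fb (b j)) ((θ0 j).map φ)) ≤
      WithZero.exp (-(m : ℤ))) :
    ∀ (δξ : Fin g → A) (δθ : Fin g → Polynomial A) (δc : Fin M → A),
      (∀ j, (δθ j).degree < m) →
      (∀ j, ∀ i < m, (C (δξ j) * h15_sub2 (h15_dX Φ) (ξ0 j) (θ0 j) +
          δθ j * h15_sub2 (derivative Φ) (ξ0 j) (θ0 j)).coeff i ∈ maximalIdeal A) →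
      (∀ j, ∀ i < m, (C (δξ j) * h15_sub2 (h15_dX H0) (ξ0 j) (θ0 j) +
          δθ j * h15_sub2 (derivative H0) (ξ0 j) (θ0 j) +
          ∑ l, C (δc l) * h15_sub2 (H l) (ξ0 j) (θ0 j)).coeff i ∈ maximalIdeal A) →
      (∀ j, δξ j ∈ maximalIdeal A) ∧ (∀ j i, (δθ j).coeff i ∈ maximalIdeal A) ∧
        ∀ l, δc l ∈ maximalIdeal A := by
  have hm0 : 0 < m := by
    rcases Nat.eq_zero_or_pos m with h | h
    · rw [h] at hm
      simp at hm
    · exact h
  refine h84_hT_of_tangent A φ hφ g m M Φ H0 H ξ0 θ0 hx0 x y hΦ hm T hT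
    (fun j => by rw [hξ0 j]; exact hb j) (fun j => by rw [hξ0 j]; exact hθ0 j)
    (fun j => ?_) d (fun j => by rw [hξ0 j]; exact hd j) G' hG' hl f0 hf0 hdiv e he hli hH0 hH
  rw [hξ0 j]
  exact hsm j _ (h84_val_of_trunc (T j) x y (b j) (by rw [hb j]; exact one_pos) m hm0 _ (hθ0 j))

/-- **SOLVE, existence** (STEPS 4 + 5 of PLAN v2). -/
theorem h84_exists_sol [IsAlgClosed K] (φ : A →+* k) (hφ : Function.Surjective φ)
    {x0 : Fb} (hx0 : h75_IsChart k x0) (x y : Fb) (g m M : ℕ) (hM : M + g = m * g)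
    (Φ H0 : Polynomial (Polynomial A)) (H : Fin M → Polynomial (Polynomial A))
    (hΦ : h15_ev2 x y (Φ.map (mapRingHom φ)) = 0) (hm : (m : k) ≠ 0)
    (T : Fin g → Place k Fb) (hT : Function.Injective T) (b : Fin g → k)
    (hb : ∀ j, (T j).ord (x - algebraMap k Fb (b j)) = 1)
    (hy : ∀ j, y ∈ (T j).toValuationSubring)
    (hsm : ∀ (j : Fin g) (c : k), h39_Val (T j) y c →
      ((Φ.map (mapRingHom φ)).derivative.eval (C c)).eval (b j) ≠ 0)
    (d : k[X]) (hd : ∀ j, d.eval (b j) ≠ 0)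
    (G' : Divisor k Fb) (hG' : ∀ j, G' (T j) = 0)
    (hl : Module.finrank k (riemannRochSpace (∑ j, Finsupp.single (T j) (1 : ℤ))) = 1)
    (f0 : Fb) (hf0 : f0 ≠ 0)
    (hdiv : ∀ P : Place k Fb, P.ord f0 = m * ((∑ j, Finsupp.single (T j) (1 : ℤ)) P - G' P))
    (e : Fin M → Fb) (he : ∀ l, e l ∈ riemannRochSpace (m • G'))
    (hli : LinearIndependent k (Fin.cons f0 e : Fin (M + 1) → Fb))
    (hH0 : h15_ev2 x y (H0.map (mapRingHom φ)) = aeval x d * f0)
    (hH : ∀ l, h15_ev2 x y ((H l).map (mapRingHom φ)) = aeval x d * e l) :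
    ∃ (ξ : Fin g → A) (θ : Fin g → Polynomial A) (c : Fin M → A),
      h84_IsSol A φ x y g m M Φ H0 H T b ξ θ c := by
  classical
  obtain ⟨ξ0, θ0, hξ0, hθ0deg, hθ0, happ⟩ :=
    h84_exists_approx_fin A φ hφ hx0 x y g m T b hb hy
  have hθ0' : ∀ j, (T j).adicValuation (y - aeval (x - algebraMap k Fb (b j))
      ((θ0 j).map φ)) ≤ WithZero.exp (-(m : ℤ)) := fun j => by
    have h := hθ0 j
    rwa [hξ0 j] at h
  -- the order of `f0` at `T j`
  have hST : ∀ j, (∑ i, Finsupp.single (T i) (1 : ℤ)) (T j) = 1 := by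
    intro j
    rw [Finsupp.finsetSum_apply]
    simp [Finsupp.single_apply, hT.eq_iff]
  have hordT : ∀ j, (T j).ord f0 = m := by
    intro j
    rw [hdiv, hST, hG']
    ring
  have h1 := happ Φ (fun j => by rw [hΦ, map_zero]; exact zero_le)
  have h2 := happ H0 (fun j => by
    have hvx : (T j).adicValuation (x - algebraMap k Fb (b j)) < 1 := by
      have hne : x - algebraMap k Fb (b j) ≠ 0 := by
        intro h
        have := hb j
        rw [h, (T j).ord_zero] at this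
        exact zero_ne_one this
      rw [(T j).adicValuation_eq_exp_neg_ord hne, hb j, ← WithZero.exp_zero,
        WithZero.exp_lt_exp]
      norm_num
    have hxmem : x ∈ (T j).toValuationSubring := by
      have := add_mem (h84_mem_of_le_one (T j) hvx.le) ((T j).algebraMap_mem' (b j))
      simpa using this
    rw [hH0, map_mul, (T j).adicValuation_eq_exp_neg_ord hf0, hordT j]
    exact mul_le_of_le_one_left' ((T j).adicValuation_le_one_of_mem (h84_aeval_mem (T j) hxmem d)))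
  have hTan := h84_hT_of_base A φ hφ hx0 x y g m M Φ H0 H hΦ hm T hT b hb hsm d hd G' hG' hl
    f0 hf0 hdiv e he hli hH0 hH ξ0 θ0 hξ0 hθ0'
  obtain ⟨ξ, θ, c, hθdeg, hξ, hθc, hc, hsΦ, hsH⟩ :=
    h15_hensel_system A g m M hM Φ H0 H ξ0 θ0 hθ0deg h1 h2 hTan
  refine ⟨ξ, θ, c, hθdeg, fun j => ?_, fun j => ?_, hc, hsΦ, hsH⟩
  · have h := (h84_res_eq_zero_iff A φ hφ _).mpr (hξ j)
    rw [map_sub, sub_eq_zero] at h
    rw [h, hξ0 j]
  · have hmap : (θ j).map φ = (θ0 j).map φ := by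
      ext i
      have h := (h84_res_eq_zero_iff A φ hφ _).mpr (hθc j i)
      rw [coeff_sub, map_sub, sub_eq_zero] at h
      rw [coeff_map, coeff_map, h]
    rw [hmap]
    exact hθ0' j

/-- **SOLVE, uniqueness** (the UNIQ half of row 506): two solutions over `A` with the reduction
of the base point coincide. -/
theorem h84_sol_unique (φ : A →+* k) (hφ : Function.Surjective φ)
    {x0 : Fb} (hx0 : h75_IsChart k x0) (x y : Fb) (g m M : ℕ) (hM : M + g = m * g)
    (Φ H0 : Polynomial (Polynomial A)) (H : Fin M → Polynomial (Polynomial A))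
    (hΦ : h15_ev2 x y (Φ.map (mapRingHom φ)) = 0) (hm : (m : k) ≠ 0)
    (T : Fin g → Place k Fb) (hT : Function.Injective T) (b : Fin g → k)
    (hb : ∀ j, (T j).ord (x - algebraMap k Fb (b j)) = 1)
    (hsm : ∀ (j : Fin g) (c : k), h39_Val (T j) y c →
      ((Φ.map (mapRingHom φ)).derivative.eval (C c)).eval (b j) ≠ 0)
    (d : k[X]) (hd : ∀ j, d.eval (b j) ≠ 0)
    (G' : Divisor k Fb) (hG' : ∀ j, G' (T j) = 0)
    (hl : Module.finrank k (riemannRochSpace (∑ j, Finsupp.single (T j) (1 : ℤ))) = 1)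
    (f0 : Fb) (hf0 : f0 ≠ 0)
    (hdiv : ∀ P : Place k Fb, P.ord f0 = m * ((∑ j, Finsupp.single (T j) (1 : ℤ)) P - G' P))
    (e : Fin M → Fb) (he : ∀ l, e l ∈ riemannRochSpace (m • G'))
    (hli : LinearIndependent k (Fin.cons f0 e : Fin (M + 1) → Fb))
    (hH0 : h15_ev2 x y (H0.map (mapRingHom φ)) = aeval x d * f0)
    (hH : ∀ l, h15_ev2 x y ((H l).map (mapRingHom φ)) = aeval x d * e l)
    (ξ ξ' : Fin g → A) (θ θ' : Fin g → Polynomial A) (c c' : Fin M → A)
    (hs : h84_IsSol A φ x y g m M Φ H0 H T b ξ θ c)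
    (hs' : h84_IsSol A φ x y g m M Φ H0 H T b ξ' θ' c') :
    ξ = ξ' ∧ θ = θ' ∧ c = c' := by
  obtain ⟨hdeg, hξ, hθ, hc, hsΦ, hsH⟩ := hs
  obtain ⟨hdeg', hξ', hθ', hc', hsΦ', hsH'⟩ := hs'
  have hTan := h84_hT_of_base A φ hφ hx0 x y g m M Φ H0 H hΦ hm T hT b hb hsm d hd G' hG' hl
    f0 hf0 hdiv e he hli hH0 hH ξ θ hξ hθ
  refine h66_hensel_system_unique A g m M hM Φ H0 H ξ θ hdeg hTan ξ ξ' θ θ' c c' hdeg
    (fun j => by rw [sub_self]; exact zero_mem _)
    (fun j i => by rw [sub_self, coeff_zero]; exact zero_mem _) hc hsΦ hsH hdeg'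
    (fun j => ?_) (fun j i => ?_) hc' hsΦ' hsH'
  · refine (h84_res_eq_zero_iff A φ hφ _).mp ?_
    rw [map_sub, hξ j, hξ' j, sub_self]
  · refine (h84_res_eq_zero_iff A φ hφ _).mp ?_
    have hmap : (θ' j).map φ = (θ j).map φ :=
      h84_trunc_unique (T j) x y (b j) (hb j) m _ _
        (lt_of_le_of_lt (Polynomial.degree_map_le) (hdeg j))
        (lt_of_le_of_lt (Polynomial.degree_map_le) (hdeg' j)) (hθ j) (hθ' j)
    rw [coeff_sub, map_sub, ← coeff_map, ← coeff_map, hmap, sub_self]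

end Solve

end Fermat.Agent.S27

end
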