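import Mathlib

/-!
# S27 / ZETA-EULER  (helper90)

Pure combinatorics of one permutation `τ` of a type `X` (in the application: a power of the
Frobenius structure acting on the places of a function field over `𝔽̄_p`).

An *invariant effective divisor of degree `n`* is a finitely supported `D : X →₀ ℕ` with
`D.mapDomain τ = D` (equivalently `D ∘ τ = D`) and `∑ D x = n`.  If every `τ^s` (`s ≥ 1`) has
finitely many fixed points, these form a finite set for each `n`, and their numbers `a_n` satisfy

  `d · a_d = ∑_{s=1}^{d} #Fix(τ^s) · a_{d-s}`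

(the Euler product `Z = ∏_orbits (1 - T^{|O|})⁻¹` in logarithmic-derivative form).

* `h90_euler_finite`, `h90_euler_card` : the two statements, no periodicity hypothesis;
* `h90_euler` : both, in the shape announced on the board;
* `h90_euler_int` : the same for integer-valued divisors `D : X →₀ ℤ`, `0 ≤ D`, which is
  literally the field `recur` of `h90_ZetaData` (file `h90_ZetaAbs`).

Proof: double counting of `∑_D ∑_x D(x)`; for each point `x` with minimal period `e`, adding the
orbit divisor of `x` is a bijection from invariant divisors of degree `d - e` onto the invariant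
divisors of degree `d` containing `x`.
-/

set_option autoImplicit false

namespace Fermat.Agent.S27

section Euler

variable {X : Type*}

/-- degree of an effective divisor, as an additive map -/
noncomputable def h90_degHom (X : Type*) : (X →₀ ℕ) →+ ℕ :=
  Finsupp.liftAddHom (fun _ => AddMonoidHom.id ℕ)

theorem h90_degHom_apply (D : X →₀ ℕ) : h90_degHom X D = D.sum (fun _ m => m) := rfl

theorem h90_degHom_single (x : X) (n : ℕ) : h90_degHom X (Finsupp.single x n) = n := by
  rw [h90_degHom_apply]
  exact Finsupp.sum_single_index rfl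

/-- invariance of a divisor under a permutation, pointwise -/
theorem h90_inv_iff {M : Type*} [AddCommMonoid M] (τ : Equiv.Perm X) (D : X →₀ M) :
    D.mapDomain τ = D ↔ ∀ x, D (τ x) = D x := by
  constructor
  · intro h x
    have := Finsupp.mapDomain_apply τ.injective D x
    rw [h] at this
    exact this
  · intro h
    ext y
    rw [Finsupp.mapDomain_equiv_apply]
    have := h (τ.symm y)
    rw [Equiv.apply_symm_apply] at this
    exact this.symm

theorem h90_inv_iterate (τ : Equiv.Perm X) (D : X →₀ ℕ) (hD : ∀ x, D (τ x) = D x) (i : ℕ)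
    (x : X) : D (τ^[i] x) = D x := by
  induction i with
  | zero => rfl
  | succ i ih => rw [Function.iterate_succ_apply', hD, ih]

/-- a point in the support of an invariant divisor of degree `d` has a period `≤ d` -/
theorem h90_exists_period (τ : Equiv.Perm X) (D : X →₀ ℕ) (hD : ∀ x, D (τ x) = D x) (x : X)
    (hx : D x ≠ 0) : ∃ s, 0 < s ∧ s ≤ D.sum (fun _ m => m) ∧ τ^[s] x = x := by
  classical
  have hcard : D.support.card ≤ D.sum (fun _ m => m) := by
    rw [Finset.card_eq_sum_ones]
    exact Finset.sum_le_sum fun y hy => Nat.one_le_iff_ne_zero.mpr (Finsupp.mem_support_iff.mp hy)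
  obtain ⟨i, hi, j, hj, hij, heq⟩ := Finset.exists_ne_map_eq_of_card_lt_of_maps_to
    (s := Finset.range (D.sum (fun _ m => m) + 1)) (t := D.support) (f := fun i => τ^[i] x)
    (by rw [Finset.card_range]; omega)
    (fun i _ => Finsupp.mem_support_iff.mpr (by rw [h90_inv_iterate τ D hD]; exact hx))
  rw [Finset.mem_range] at hi hj
  have heq' : τ^[i] x = τ^[j] x := heq
  have key : ∀ i j : ℕ, i < j → j < D.sum (fun _ m => m) + 1 → τ^[i] x = τ^[j] x →
      ∃ s, 0 < s ∧ s ≤ D.sum (fun _ m => m) ∧ τ^[s] x = x := by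
    intro i j h hj he
    refine ⟨j - i, by omega, by omega, ?_⟩
    apply (τ.injective.iterate i)
    rw [← Function.iterate_add_apply]
    have : i + (j - i) = j := by omega
    rw [this]
    exact he.symm
  rcases Nat.lt_or_gt_of_ne hij with h | h
  · exact key i j h hj heq'
  · exact key j i h hi heq'.symm

/-- the orbit of a (periodic) point as a divisor -/
noncomputable def h90_orb (τ : Equiv.Perm X) (x : X) : X →₀ ℕ :=
  ∑ i ∈ Finset.range (Function.minimalPeriod τ x), Finsupp.single (τ^[i] x) 1

theorem h90_orb_inv (τ : Equiv.Perm X) (x : X) :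
    (h90_orb τ x).mapDomain τ = h90_orb τ x := by
  unfold h90_orb
  rw [Finsupp.mapDomain_finsetSum]
  simp only [Finsupp.mapDomain_single]
  have h1 := Finset.sum_range_succ (fun i => Finsupp.single (τ^[i] x) (1 : ℕ))
    (Function.minimalPeriod τ x)
  have h2 := Finset.sum_range_succ' (fun i => Finsupp.single (τ^[i] x) (1 : ℕ))
    (Function.minimalPeriod τ x)
  rw [h2] at h1
  simp only [Function.iterate_succ_apply', Function.iterate_zero, id] at h1
  rw [Function.iterate_minimalPeriod] at h1
  exact add_right_cancel h1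

theorem h90_orb_deg (τ : Equiv.Perm X) (x : X) :
    h90_degHom X (h90_orb τ x) = Function.minimalPeriod τ x := by
  unfold h90_orb
  rw [map_sum]
  simp only [h90_degHom_single, Finset.sum_const, Finset.card_range, smul_eq_mul, mul_one]

theorem h90_orb_apply_iterate (τ : Equiv.Perm X) (x : X) (i : ℕ)
    (hi : i < Function.minimalPeriod τ x) : h90_orb τ x (τ^[i] x) = 1 := by
  classical
  unfold h90_orb
  rw [Finsupp.finsetSum_apply]
  simp only [Finsupp.single_apply]
  rw [Finset.sum_eq_single i]
  · rw [if_pos rfl]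
  · intro j hj hji
    rw [Finset.mem_range] at hj
    rw [if_neg]
    intro h
    exact hji ((Function.iterate_eq_iterate_iff_of_lt_minimalPeriod hj hi).mp h)
  · intro h
    exact absurd (Finset.mem_range.mpr hi) h

theorem h90_orb_apply_of_not (τ : Equiv.Perm X) (x y : X)
    (h : ∀ i, i < Function.minimalPeriod τ x → τ^[i] x ≠ y) : h90_orb τ x y = 0 := by
  classical
  unfold h90_orb
  rw [Finsupp.finsetSum_apply]
  apply Finset.sum_eq_zero
  intro j hj
  rw [Finset.mem_range] at hj
  rw [Finsupp.single_apply, if_neg (h j hj)]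

theorem h90_orb_self (τ : Equiv.Perm X) (x : X) (he : 0 < Function.minimalPeriod τ x) :
    h90_orb τ x x = 1 := h90_orb_apply_iterate τ x 0 he

theorem h90_orb_le (τ : Equiv.Perm X) (x : X) (D : X →₀ ℕ) (hD : ∀ x, D (τ x) = D x)
    (hx : D x ≠ 0) : h90_orb τ x ≤ D := by
  classical
  intro y
  by_cases h : ∃ i, i < Function.minimalPeriod τ x ∧ τ^[i] x = y
  · obtain ⟨i, hi, rfl⟩ := h
    rw [h90_orb_apply_iterate τ x i hi, h90_inv_iterate τ D hD]
    exact Nat.one_le_iff_ne_zero.mpr hx
  · push Not at h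
    rw [h90_orb_apply_of_not τ x y h]
    exact Nat.zero_le _

open Classical in
/-- per-point count: `∑_{D ∈ Eff d} D(x) = ∑_{1 ≤ s ≤ d, τ^s x = x} #Eff (d - s)` -/
theorem h90_point_count (τ : Equiv.Perm X) (A : ℕ → Finset (X →₀ ℕ))
    (hA : ∀ n D, D ∈ A n ↔ (∀ x, D (τ x) = D x) ∧ D.sum (fun _ m => m) = n) (x : X) (d : ℕ) :
    ∑ D ∈ A d, D x =
      ∑ s ∈ (Finset.Icc 1 d).filter (fun s => τ^[s] x = x), (A (d - s)).card := by
  induction d using Nat.strong_induction_on with
  | _ d ih =>
    by_cases hper : ∃ s, 0 < s ∧ s ≤ d ∧ τ^[s] x = x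
    · obtain ⟨s0, hs0, hs0d, hs0x⟩ := hper
      have hepos : 0 < Function.minimalPeriod τ x :=
        Function.IsPeriodicPt.minimalPeriod_pos hs0 hs0x
      have hele : Function.minimalPeriod τ x ≤ d :=
        le_trans (Function.IsPeriodicPt.minimalPeriod_le hs0 hs0x) hs0d
      generalize he : Function.minimalPeriod τ x = e at hepos hele
      have ih' := ih (d - e) (by omega)
      have horb_inv : ∀ y, h90_orb τ x (τ y) = h90_orb τ x y :=
        (h90_inv_iff τ _).mp (h90_orb_inv τ x)
      have horb_deg : (h90_orb τ x).sum (fun _ m => m) = e := by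
        rw [← h90_degHom_apply, h90_orb_deg, he]
      have horb_self : h90_orb τ x x = 1 := h90_orb_self τ x (by rw [he]; exact hepos)
      -- left side recursion
      have hL : ∑ D ∈ A d, D x = ∑ E ∈ A (d - e), E x + (A (d - e)).card := by
        have h1 : ∑ D ∈ A d, D x = ∑ D ∈ (A d).filter (fun D => D x ≠ 0), D x :=
          (Finset.sum_filter_ne_zero (A d)).symm
        have h2 : ∑ E ∈ A (d - e), (E + h90_orb τ x) x =
            ∑ D ∈ (A d).filter (fun D => D x ≠ 0), D x := by
          refine Finset.sum_bij' (fun E _ => E + h90_orb τ x) (fun D _ => D - h90_orb τ x)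
            ?_ ?_ ?_ ?_ ?_
          · intro E hE
            obtain ⟨hinv, hdeg⟩ := (hA _ E).mp hE
            rw [Finset.mem_filter, hA]
            refine ⟨⟨?_, ?_⟩, ?_⟩
            · intro y
              rw [Finsupp.add_apply, Finsupp.add_apply, hinv, horb_inv]
            · rw [← h90_degHom_apply, map_add, h90_degHom_apply, h90_degHom_apply, hdeg, horb_deg]
              omega
            · rw [Finsupp.add_apply, horb_self]
              omega
          · intro D hD
            rw [Finset.mem_filter, hA] at hD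
            obtain ⟨⟨hinv, hdeg⟩, hx⟩ := hD
            have hle := h90_orb_le τ x D hinv hx
            rw [hA]
            refine ⟨?_, ?_⟩
            · intro y
              rw [Finsupp.tsub_apply, Finsupp.tsub_apply, hinv, horb_inv]
            · have h3 : (D - h90_orb τ x + h90_orb τ x).sum (fun _ m => m) = d := by
                rw [tsub_add_cancel_of_le hle, hdeg]
              rw [← h90_degHom_apply, map_add, h90_degHom_apply, h90_degHom_apply, horb_deg] at h3
              omega
          · intro E _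
            exact add_tsub_cancel_right E (h90_orb τ x)
          · intro D hD
            rw [Finset.mem_filter, hA] at hD
            obtain ⟨⟨hinv, _⟩, hx⟩ := hD
            exact tsub_add_cancel_of_le (h90_orb_le τ x D hinv hx)
          · intro E _
            rfl
        rw [h1, ← h2]
        simp only [Finsupp.add_apply, horb_self, Finset.sum_add_distrib, Finset.sum_const,
          smul_eq_mul, mul_one]
      -- right side recursion
      have hP : ∀ s : ℕ, τ^[s] x = x ↔ e ∣ s := by
        intro s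
        rw [← he]
        exact Function.isPeriodicPt_iff_minimalPeriod_dvd
      have hset : (Finset.Icc 1 d).filter (fun s => τ^[s] x = x) =
          insert e (((Finset.Icc 1 (d - e)).filter (fun s => τ^[s] x = x)).map
            (addRightEmbedding e)) := by
        ext s
        simp only [Finset.mem_filter, Finset.mem_Icc, Finset.mem_insert, Finset.mem_map,
          addRightEmbedding_apply, hP]
        constructor
        · rintro ⟨⟨h1, h2⟩, h3⟩
          have hes : e ≤ s := Nat.le_of_dvd (by omega) h3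
          rcases Nat.eq_or_lt_of_le hes with h | h
          · exact Or.inl h.symm
          · right
            refine ⟨s - e, ⟨⟨by omega, by omega⟩, ?_⟩, by omega⟩
            exact (Nat.dvd_sub_iff_left hes (dvd_refl e)).mpr h3
        · rintro (h | ⟨s', ⟨⟨h1, h2⟩, h3⟩, h4⟩)
          · subst h
            exact ⟨⟨hepos, hele⟩, dvd_refl _⟩
          · subst h4
            exact ⟨⟨by omega, by omega⟩, dvd_add h3 (dvd_refl e)⟩
      have hnot : e ∉ ((Finset.Icc 1 (d - e)).filter (fun s => τ^[s] x = x)).map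
          (addRightEmbedding e) := by
        simp only [Finset.mem_map, Finset.mem_filter, Finset.mem_Icc, addRightEmbedding_apply,
          not_exists, not_and]
        intro s' hs' h
        omega
      rw [hL, hset, Finset.sum_insert hnot, Finset.sum_map, ih']
      simp only [addRightEmbedding_apply]
      have : ∀ s : ℕ, d - (s + e) = d - e - s := by intro s; omega
      simp only [this]
      ring
    · have hL : ∑ D ∈ A d, D x = 0 := by
        apply Finset.sum_eq_zero
        intro D hD
        obtain ⟨hinv, hdeg⟩ := (hA _ D).mp hD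
        by_contra hx
        obtain ⟨s, hs, hsd, hsx⟩ := h90_exists_period τ D hinv x hx
        rw [hdeg] at hsd
        exact hper ⟨s, hs, hsd, hsx⟩
      rw [hL]
      symm
      apply Finset.sum_eq_zero
      intro s hs
      rw [Finset.mem_filter, Finset.mem_Icc] at hs
      exact absurd ⟨s, hs.1.1, hs.1.2, hs.2⟩ hper

/-- the Euler identity for finsets of invariant divisors -/
theorem h90_euler_core (τ : Equiv.Perm X) (Fs : ℕ → Finset X)
    (hFs : ∀ s x, x ∈ Fs s ↔ 0 < s ∧ τ^[s] x = x)
    (A : ℕ → Finset (X →₀ ℕ))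
    (hA : ∀ n D, D ∈ A n ↔ (∀ x, D (τ x) = D x) ∧ D.sum (fun _ m => m) = n) (d : ℕ) :
    d * (A d).card = ∑ s ∈ Finset.Icc 1 d, (Fs s).card * (A (d - s)).card := by
  classical
  have hsupp : ∀ D ∈ A d, ∀ x, D x ≠ 0 → x ∈ (Finset.Icc 1 d).biUnion Fs := by
    intro D hD x hx
    obtain ⟨hinv, hdeg⟩ := (hA d D).mp hD
    obtain ⟨s, hs, hsd, hsx⟩ := h90_exists_period τ D hinv x hx
    rw [hdeg] at hsd
    exact Finset.mem_biUnion.mpr ⟨s, Finset.mem_Icc.mpr ⟨hs, hsd⟩, (hFs s x).mpr ⟨hs, hsx⟩⟩
  have h1 : d * (A d).card = ∑ D ∈ A d, ∑ x ∈ (Finset.Icc 1 d).biUnion Fs, D x := by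
    rw [mul_comm, ← smul_eq_mul, ← Finset.sum_const]
    apply Finset.sum_congr rfl
    intro D hD
    obtain ⟨hinv, hdeg⟩ := (hA d D).mp hD
    calc d = D.sum (fun _ m => m) := hdeg.symm
      _ = ∑ x ∈ D.support, D x := rfl
      _ = ∑ x ∈ (Finset.Icc 1 d).biUnion Fs, D x :=
        Finset.sum_subset (fun x hx => hsupp D hD x (Finsupp.mem_support_iff.mp hx))
          (fun x _ hx => Finsupp.notMem_support_iff.mp hx)
  rw [h1, Finset.sum_comm]
  simp only [h90_point_count τ A hA]
  simp only [Finset.sum_filter]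
  rw [Finset.sum_comm]
  apply Finset.sum_congr rfl
  intro s hs
  rw [← Finset.sum_filter, Finset.sum_const, smul_eq_mul]
  congr 1
  congr 1
  ext x
  rw [Finset.mem_filter, hFs, Finset.mem_biUnion]
  constructor
  · rintro ⟨_, h⟩
    exact ⟨(Finset.mem_Icc.mp hs).1, h⟩
  · rintro ⟨h0, h⟩
    exact ⟨⟨s, hs, (hFs s x).mpr ⟨h0, h⟩⟩, h⟩

/-- the set of invariant effective divisors of degree `n` is finite -/
theorem h90_effSet_finite (τ : Equiv.Perm X)
    (hfix : ∀ s, 0 < s → {x | (τ ^ s) x = x}.Finite) (n : ℕ) :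
    {D : X →₀ ℕ | D.mapDomain τ = D ∧ D.sum (fun _ m => m) = n}.Finite := by
  classical
  have hY : (⋃ s ∈ Finset.Icc 1 n, {x | (τ ^ s) x = x}).Finite :=
    Set.Finite.biUnion (Finset.finite_toSet _) (fun s hs => hfix s (Finset.mem_Icc.mp hs).1)
  apply Set.Finite.subset (Finset.finite_toSet (Finset.finsuppAntidiag hY.toFinset n))
  rintro D ⟨hinv, hdeg⟩
  rw [h90_inv_iff] at hinv
  rw [Finset.mem_coe, Finset.mem_finsuppAntidiag]
  have hsub : D.support ⊆ hY.toFinset := by
    intro x hx
    rw [Finsupp.mem_support_iff] at hx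
    obtain ⟨s, hs, hsd, hsx⟩ := h90_exists_period τ D hinv x hx
    rw [hdeg] at hsd
    rw [Set.Finite.mem_toFinset]
    simp only [Set.mem_iUnion]
    refine ⟨s, Finset.mem_Icc.mpr ⟨hs, hsd⟩, ?_⟩
    show (τ ^ s) x = x
    rw [← Equiv.Perm.iterate_eq_pow]
    exact hsx
  refine ⟨?_, hsub⟩
  exact (Finset.sum_subset hsub (fun x _ hx => Finsupp.notMem_support_iff.mp hx)).symm.trans hdeg

theorem h90_euler_finite (τ : Equiv.Perm X)
    (hfix : ∀ s, 0 < s → {x | (τ ^ s) x = x}.Finite) (n : ℕ) :
    Finite {D : X →₀ ℕ // D.mapDomain τ = D ∧ D.sum (fun _ m => m) = n} :=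
  (h90_effSet_finite τ hfix n).to_subtype

/-- **ZETA-EULER** (counting form, no periodicity hypothesis needed). -/
theorem h90_euler_card (τ : Equiv.Perm X)
    (hfix : ∀ s, 0 < s → {x | (τ ^ s) x = x}.Finite) (d : ℕ) :
    d * Nat.card {D : X →₀ ℕ // D.mapDomain τ = D ∧ D.sum (fun _ m => m) = d} =
      ∑ s ∈ Finset.Icc 1 d, Nat.card {x // (τ ^ s) x = x} *
        Nat.card {D : X →₀ ℕ // D.mapDomain τ = D ∧ D.sum (fun _ m => m) = d - s} := by
  classical
  let Fs : ℕ → Finset X := fun s => if h : 0 < s then (hfix s h).toFinset else ∅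
  have hFs : ∀ s x, x ∈ Fs s ↔ 0 < s ∧ τ^[s] x = x := by
    intro s x
    by_cases h : 0 < s
    · simp only [Fs, dif_pos h, Set.Finite.mem_toFinset, Set.mem_ofPred_eq, h, true_and,
        Equiv.Perm.iterate_eq_pow]
    · simp [Fs, h]
  let A : ℕ → Finset (X →₀ ℕ) := fun n => (h90_effSet_finite τ hfix n).toFinset
  have hA : ∀ n D, D ∈ A n ↔ (∀ x, D (τ x) = D x) ∧ D.sum (fun _ m => m) = n := by
    intro n D
    simp only [A, Set.Finite.mem_toFinset, Set.mem_ofPred_eq, h90_inv_iff]
  have hcardA : ∀ n, Nat.card {D : X →₀ ℕ // D.mapDomain τ = D ∧ D.sum (fun _ m => m) = n} =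
      (A n).card :=
    fun n => Nat.card_eq_card_finite_toFinset (h90_effSet_finite τ hfix n)
  have hcardF : ∀ s, 0 < s → Nat.card {x // (τ ^ s) x = x} = (Fs s).card := by
    intro s hs
    simp only [Fs, dif_pos hs]
    exact Nat.card_eq_card_finite_toFinset (hfix s hs)
  rw [hcardA, h90_euler_core τ Fs hFs A hA d]
  apply Finset.sum_congr rfl
  intro s hs
  rw [hcardA, hcardF s (Finset.mem_Icc.mp hs).1]

/-- **ZETA-EULER.**  For a permutation `τ` whose powers `τ^s` (`s ≥ 1`) have finitely many fixed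
points: the invariant effective divisors of each degree form a finite set, and their numbers
`a_d` satisfy `d · a_d = ∑_{s=1}^{d} #Fix(τ^s) · a_{d-s}` (the Euler product in log-derivative
form). -/
theorem h90_euler (τ : Equiv.Perm X) (hfix : ∀ s, 0 < s → {x | (τ ^ s) x = x}.Finite)
    (_hper : ∀ x, ∃ s, 0 < s ∧ (τ ^ s) x = x) :
    (∀ n : ℕ, Finite {D : X →₀ ℕ // D.mapDomain τ = D ∧ D.sum (fun _ m => m) = n}) ∧
    ∀ d : ℕ, d * Nat.card {D : X →₀ ℕ // D.mapDomain τ = D ∧ D.sum (fun _ m => m) = d} =
      ∑ s ∈ Finset.Icc 1 d, Nat.card {x // (τ ^ s) x = x} *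
        Nat.card {D : X →₀ ℕ // D.mapDomain τ = D ∧ D.sum (fun _ m => m) = d - s} :=
  ⟨h90_euler_finite τ hfix, h90_euler_card τ hfix⟩

/-! ### integer-valued divisors -/

/-- an effective divisor as an integer-valued one -/
noncomputable def h90_toInt (E : X →₀ ℕ) : X →₀ ℤ :=
  E.mapRange (fun n : ℕ => (n : ℤ)) Nat.cast_zero

theorem h90_toInt_apply (E : X →₀ ℕ) (x : X) : h90_toInt E x = (E x : ℤ) :=
  Finsupp.mapRange_apply

theorem h90_toInt_sum (E : X →₀ ℕ) :
    (h90_toInt E).sum (fun _ m => m) = ((E.sum (fun _ m => m) : ℕ) : ℤ) := by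
  unfold h90_toInt
  rw [Finsupp.sum_mapRange_index (fun _ => rfl)]
  simp [Finsupp.sum]

theorem h90_toInt_bijective (τ : Equiv.Perm X) (n : ℕ) :
    Function.Bijective
      (fun E : {E : X →₀ ℕ // E.mapDomain τ = E ∧ E.sum (fun _ m => m) = n} =>
        (⟨h90_toInt E.1, fun x => by
            rw [Finsupp.zero_apply, h90_toInt_apply]
            exact Int.natCast_nonneg _,
          (h90_inv_iff τ _).mpr fun x => by
            rw [h90_toInt_apply, h90_toInt_apply, (h90_inv_iff τ E.1).mp E.2.1 x],
          by rw [h90_toInt_sum, E.2.2]⟩ :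
          {D : X →₀ ℤ // 0 ≤ D ∧ D.mapDomain τ = D ∧ D.sum (fun _ m => m) = (n : ℤ)})) := by
  constructor
  · intro E E' h
    have h1 : h90_toInt E.1 = h90_toInt E'.1 := congrArg Subtype.val h
    apply Subtype.ext
    ext x
    have h2 := DFunLike.congr_fun h1 x
    rw [h90_toInt_apply, h90_toInt_apply] at h2
    exact_mod_cast h2
  · rintro ⟨D, h0, hinv, hdeg⟩
    have hE : h90_toInt (D.mapRange Int.toNat Int.toNat_zero) = D := by
      ext x
      rw [h90_toInt_apply, Finsupp.mapRange_apply]
      exact Int.toNat_of_nonneg (h0 x)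
    refine ⟨⟨D.mapRange Int.toNat Int.toNat_zero, ?_, ?_⟩, Subtype.ext hE⟩
    · apply (h90_inv_iff τ _).mpr
      intro x
      rw [Finsupp.mapRange_apply, Finsupp.mapRange_apply, (h90_inv_iff τ D).mp hinv x]
    · have h3 := h90_toInt_sum (D.mapRange Int.toNat Int.toNat_zero)
      rw [hE, hdeg] at h3
      exact_mod_cast h3.symm

/-- **ZETA-EULER, integer-valued divisors** (the shape of the field `recur` of `h90_ZetaData`):
`a d := #{D ≥ 0 invariant of degree d}` and `N s := #Fix(τ^s)` satisfy
`d · a d = ∑_{s=1}^{d} N s · a (d - s)` in `ℤ`. -/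
theorem h90_euler_int (τ : Equiv.Perm X) (hfix : ∀ s, 0 < s → {x | (τ ^ s) x = x}.Finite) :
    (∀ n : ℕ, Finite {D : X →₀ ℤ // 0 ≤ D ∧ D.mapDomain τ = D ∧
      D.sum (fun _ m => m) = (n : ℤ)}) ∧
    ∀ d : ℕ, (d : ℤ) * (Nat.card {D : X →₀ ℤ // 0 ≤ D ∧ D.mapDomain τ = D ∧
        D.sum (fun _ m => m) = (d : ℤ)} : ℤ) =
      ∑ s ∈ Finset.Icc 1 d, (Nat.card {x // (τ ^ s) x = x} : ℤ) *
        (Nat.card {D : X →₀ ℤ // 0 ≤ D ∧ D.mapDomain τ = D ∧
          D.sum (fun _ m => m) = ((d - s : ℕ) : ℤ)} : ℤ) := by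
  have hc : ∀ n : ℕ, Nat.card {D : X →₀ ℤ // 0 ≤ D ∧ D.mapDomain τ = D ∧
      D.sum (fun _ m => m) = (n : ℤ)} =
      Nat.card {E : X →₀ ℕ // E.mapDomain τ = E ∧ E.sum (fun _ m => m) = n} := fun n =>
    (Nat.card_congr (Equiv.ofBijective _ (h90_toInt_bijective τ n))).symm
  refine ⟨fun n => ?_, fun d => ?_⟩
  · have := h90_euler_finite τ hfix n
    exact Finite.of_equiv _ (Equiv.ofBijective _ (h90_toInt_bijective τ n))
  · rw [hc]
    simp only [hc]
    exact_mod_cast h90_euler_card τ hfix d

end Euler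

end Fermat.Agent.S27
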