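import Fermat.Agent.S27.h92_Tate
import Fermat.Agent.S27.h6w_Sep
import Fermat.Agent.S27.h6w_Reduce
import Fermat.Agent.S27.h6w_ChartAsm

/-!
# S27 / B8 : Weil reciprocity and (T1) TATE-WD from the norm data alone (helper92)

Pre-wiring of the last open input of block B8: the landed rows W2 (`h6_chart_mul`), W3
(`h6_weil_reduce`) and W5 (`h6_weil_chart_of_norm`) give Weil reciprocity for all pairs from the
norm data `h6_NormFibre` of charts (row W4), and `h92_tate_exists_of_weil` then gives (T1).

* `h92_weil_of_normFibre` : `h6_WeilAt K f h` for all `f, h ≠ 0` from W4;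
* `h92_tate_exists_of_normFibre` : the skeleton statement `h76_tate_exists` with the single
  extra hypothesis W4.
-/

set_option autoImplicit false

open AlgebraicCurve

namespace Fermat.Agent.S27

open Fermat.Agent.S18

universe u v

variable {K : Type u} {F : Type v} [Field K] [Field F] [Algebra K F]

/-- Weil reciprocity for all pairs from the norm data of charts (rows W2 + W3 + W5). -/
theorem h92_weil_of_normFibre [IsAlgClosed K] {x : F} (hx : h75_IsChart K x)
    (hnorm : ∀ h : F, h75_IsChart K h → ∀ f : F, f ≠ 0 → h6_NormFibre K h f)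
    (f h : F) (hf : f ≠ 0) (hh : h ≠ 0) : h6_WeilAt K f h :=
  h6_weil_reduce hx (fun h _ hh0 hnc hx' => h6_chart_mul hx' h hh0 hnc)
    (fun f h hf hh => h6_weil_chart_of_norm hnorm f h hf hh) f h hf hh

/-- (T1) TATE-WD with the norm data of charts (row W4) as the only hypothesis. -/
theorem h92_tate_exists_of_normFibre [IsAlgClosed K] (p : ℕ) [Fact p.Prime] [CharP K p]
    {x : F} (hx : h75_IsChart K x) {e : ℕ} {σ : h57_SemiAut K F}
    (hσ : h76_FrobStr p e σ) (ℓ : ℕ) [Fact ℓ.Prime] (hdiv : ℓ ∣ p ^ e - 1)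
    (hnorm : ∀ h : F, h75_IsChart K h → ∀ f : F, f ≠ 0 → h6_NormFibre K h f) :
    ∃ ψ : Pic0 K F → Pic0 K F → K, h76_IsTate p e σ ℓ ψ :=
  h92_tate_exists_of_weil p hx hσ ℓ hdiv
    (fun f h hf hh => h92_weil_of_normFibre hx hnorm f h hf hh)

end Fermat.Agent.S27
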