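import Fermat.Agent.S27.Branch

/-!
# S27 (helper94): the branch polynomial of a chart

Corollary of `h97_branch_finite` (row 502) in the shape of the last clause of row 489
(`h15_exists_model`): a nonzero polynomial `d` vanishing at every branch value of the chart.
-/

set_option autoImplicit false

noncomputable section

open AlgebraicCurve Fermat.Agent.S18

namespace Fermat.Agent.S27

/-- A nonzero polynomial vanishing at all branch values of a chart (any characteristic). -/
theorem h94_branch_poly {K : Type*} {F : Type*} [Field K] [Field F] [Algebra K F]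
    [IsAlgClosed K] {x : F} (hx : h75_IsChart K x) :
    ∃ d : Polynomial K, d ≠ 0 ∧
      ∀ (P : Place K F) (a : K), 2 ≤ P.ord (x - algebraMap K F a) → d.eval a = 0 := by
  classical
  obtain ⟨Z, hZ⟩ := h97_branch_finite hx
  refine ⟨∏ z ∈ Z, (Polynomial.X - Polynomial.C z), ?_, fun P a hP => ?_⟩
  · exact Finset.prod_ne_zero_iff.mpr fun z _ => Polynomial.X_sub_C_ne_zero z
  · rw [Polynomial.eval_prod]
    exact Finset.prod_eq_zero (hZ P a hP) (by simp)

/-- The same with the monic squarefree polynomial `∏ z ∈ Z, (X - z)` made explicit. -/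
theorem h94_branch_poly' {K : Type*} {F : Type*} [Field K] [Field F] [Algebra K F]
    [IsAlgClosed K] {x : F} (hx : h75_IsChart K x) :
    ∃ Z : Finset K, (∏ z ∈ Z, (Polynomial.X - Polynomial.C z) : Polynomial K) ≠ 0 ∧
      (∀ a : K, (∏ z ∈ Z, (Polynomial.X - Polynomial.C z) : Polynomial K).eval a = 0 ↔ a ∈ Z) ∧
      ∀ (P : Place K F) (a : K), 2 ≤ P.ord (x - algebraMap K F a) → a ∈ Z := by
  classical
  obtain ⟨Z, hZ⟩ := h97_branch_finite hx
  refine ⟨Z, Finset.prod_ne_zero_iff.mpr fun z _ => Polynomial.X_sub_C_ne_zero z, fun a => ?_, hZ⟩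
  rw [Polynomial.eval_prod, Finset.prod_eq_zero_iff]
  constructor
  · rintro ⟨z, hz, h⟩
    have : a = z := by simpa [sub_eq_zero] using h
    rw [this]
    exact hz
  · intro ha
    exact ⟨a, ha, by simp⟩

end Fermat.Agent.S27
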