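import Mathlib
import Fermat.Prelude.Def_AlgebraicCurve_DivisorPushPull
import Fermat.Agent.S24.h73_Diff
import Fermat.Agent.S24.h24_Fibre
import Fermat.Agent.S24.h35_PlaceBasic

/-!
# S27 (helper94): the fundamental identity for a finite SEPARABLE extension of function fields,
in any characteristic

For a finite separable extension `F' / F` of function fields in one variable over an
algebraically closed field `K` (any characteristic): `∑_{w | v} e(w | v) = [F' : F]` for every
place `v` of `F`.  (Same proof as the characteristic-zero version of S37; the only use of the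
characteristic there was separability.)  Corollaries: the fibre is nonempty, has at most
`[F' : F]` places, and if it has exactly `[F' : F]` places then all of them are unramified.
-/

set_option autoImplicit false
set_option synthInstance.maxHeartbeats 400000

noncomputable section

open AlgebraicCurve IntermediateField

namespace Fermat.Agent.S27

open Fermat.Agent.S24

variable {K F F' : Type*} [Field K] [Field F] [Field F'] [Algebra K F] [Algebra K F']
variable [IsAlgClosed K]
variable [Algebra F F'] [IsScalarTower K F F'] [FiniteDimensional F F'] [Algebra.IsSeparable F F']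

/-- The fibre sum of ramification indices over one place is the degree (separable extension,
any characteristic). -/
theorem h94_sum_ramificationIndex_sep (hF : h73_IsFF K F) [HasPrincipalDivisors K F']
    (v : Place K F) :
    ∑ w ∈ v.fiber F', (w.ramificationIndex F : ℤ) = (Module.finrank F F' : ℤ) := by
  classical
  obtain ⟨π, hπ⟩ := IsDiscreteValuationRing.exists_irreducible v.toValuationSubring
  have hπord : v.ord (π : F) = 1 := v.ord_coe_irreducible hπ
  let algAF' : Algebra v.toValuationSubring F' :=
    ((algebraMap F F').comp (algebraMap v.toValuationSubring F)).toAlgebra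
  have towAFF' : IsScalarTower v.toValuationSubring F F' :=
    IsScalarTower.of_algebraMap_eq (fun _ => rfl)
  have towKAF' : IsScalarTower K v.toValuationSubring F' :=
    IsScalarTower.of_algebraMap_eq (fun a => by
      rw [IsScalarTower.algebraMap_apply K F F']
      rfl)
  have : IsDedekindDomain (integralClosure v.toValuationSubring F') :=
    IsIntegralClosure.isDedekindDomain v.toValuationSubring F F' _
  have : IsFractionRing (integralClosure v.toValuationSubring F') F' :=
    IsIntegralClosure.isFractionRing_of_finite_extension v.toValuationSubring F F' _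
  have : Module.Finite v.toValuationSubring (integralClosure v.toValuationSubring F') :=
    IsIntegralClosure.finite v.toValuationSubring F F' _
  have htf : Module.IsTorsionFree v.toValuationSubring
      (integralClosure v.toValuationSubring F') := by
    rw [Module.isTorsionFree_iff_algebraMap_injective]
    intro a b hab
    have h1 : algebraMap F F' (a : F) = algebraMap F F' (b : F) :=
      congrArg (algebraMap (integralClosure v.toValuationSubring F') F') hab
    exact Subtype.ext ((algebraMap F F').injective h1)
  have hmax : (Ideal.span {π} : Ideal v.toValuationSubring).IsMaximal := by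
    rw [← hπ.maximalIdeal_eq]
    exact IsLocalRing.maximalIdeal.isMaximal _
  have hres : Function.Surjective
      (algebraMap K (v.toValuationSubring ⧸ (Ideal.span {π} : Ideal v.toValuationSubring))) := by
    intro y
    obtain ⟨g, rfl⟩ := Ideal.Quotient.mk_surjective y
    obtain ⟨a, ha⟩ := h73_exists_sub_mem_maximalIdeal hF v g
    refine ⟨a, ?_⟩
    change Ideal.Quotient.mk _ (algebraMap K v.toValuationSubring a) = Ideal.Quotient.mk _ g
    rw [Ideal.Quotient.eq, ← hπ.maximalIdeal_eq]
    have h1 : algebraMap K v.toValuationSubring a - g
        = -(g - algebraMap K v.toValuationSubring a) := by ring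
    rw [h1]
    exact neg_mem ha
  obtain ⟨s, hs, hsum⟩ := h24_fibre_abstract (K := K) (F := F') (A := v.toValuationSubring)
    (B := integralClosure v.toValuationSubring F') π hπ.ne_zero hmax hres
  have hπF' : algebraMap (integralClosure v.toValuationSubring F') F'
      (algebraMap v.toValuationSubring (integralClosure v.toValuationSubring F') π)
      = algebraMap F F' (π : F) := rfl
  rw [hπF'] at hs hsum
  have hord : ∀ w : Place K F', w.restrict F = v →
      w.ord (algebraMap F F' (π : F)) = (w.ramificationIndex F : ℤ) := by
    intro w hw
    rw [Place.ord_restrict, hw, hπord, mul_one]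
  have hmem : ∀ w : Place K F', w ∈ s ↔ w ∈ v.fiber F' := by
    intro w
    rw [hs, Place.mem_fiber]
    constructor
    · rintro ⟨hB, -⟩
      refine (h35_place_eq_of_le v (w.restrict F) ?_).symm
      intro a ha
      exact hB (algebraMap v.toValuationSubring (integralClosure v.toValuationSubring F') ⟨a, ha⟩)
    · intro hw
      refine ⟨fun b => ?_, ?_⟩
      · have hA : ∀ a : v.toValuationSubring, algebraMap F F' (a : F) ∈ w.toValuationSubring := by
          intro a
          have h1 : (a : F) ∈ (w.restrict F).toValuationSubring := by
            rw [hw]
            exact a.2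
          exact h1
        let φ : v.toValuationSubring →+* w.toValuationSubring :=
          (algebraMap v.toValuationSubring F').codRestrict w.toValuationSubring.toSubring hA
        obtain ⟨P, hP, hPb⟩ := b.2
        have hint : IsIntegral w.toValuationSubring (b : F') := by
          refine ⟨P.map φ, hP.map φ, ?_⟩
          rw [Polynomial.eval₂_map]
          exact hPb
        obtain ⟨y, hy⟩ :=
          (IsIntegrallyClosed.isIntegral_iff (R := w.toValuationSubring) (K := F')).mp hint
        have h2 : algebraMap (integralClosure v.toValuationSubring F') F' b = (y : F') := hy.symm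
        rw [h2]
        exact y.2
      · rw [hord w hw]
        exact_mod_cast w.ramificationIndex_pos (F := F)
  have hseq : s = v.fiber F' := Finset.ext hmem
  rw [hseq] at hsum
  rw [IsFractionRing.finrank_eq v.toValuationSubring F
    (integralClosure v.toValuationSubring F') F', ← hsum]
  exact Finset.sum_congr rfl fun w hw => (hord w (Place.mem_fiber.mp hw)).symm

/-- [FI] the fundamental identity `Σ_{w | v} e(w) deg(w) = [F' : F] deg(v)` (separable, any
characteristic). -/
theorem h94_FI_sep (hF : h73_IsFF K F) [HasPrincipalDivisors K F'] :
    FundamentalIdentity K F F' := by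
  refine ⟨fun v => ?_⟩
  have hF' : h73_IsFF K F' := by
    obtain ⟨t, ht⟩ := hF
    refine ⟨algebraMap F F' t, ?_⟩
    have key : ∀ E' : IntermediateField K F',
        E' = (K⟮t⟯).map (IsScalarTower.toAlgHom K F F') → FiniteDimensional E' F' := by
      rintro _ rfl
      have h1 : Module.Finite K⟮t⟯ F' := Module.Finite.trans F F'
      refine Module.Finite.of_equiv_equiv
        ((K⟮t⟯).equivMap (IsScalarTower.toAlgHom K F F')).toRingEquiv (RingEquiv.refl F') ?_
      ext x
      rfl
    apply key
    rw [IntermediateField.adjoin_map, Set.image_singleton]
    rfl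
  have h1 : ∀ w ∈ v.fiber F', (w.ramificationIndex F : ℤ) * (w.deg : ℤ)
      = (w.ramificationIndex F : ℤ) := by
    intro w _
    rw [h73_deg_eq_one hF' w]
    simp
  rw [Finset.sum_congr rfl h1, h94_sum_ramificationIndex_sep hF v, h73_deg_eq_one hF v]
  simp

/-- the fibre over a place is nonempty. -/
theorem h94_fiber_nonempty (hF : h73_IsFF K F) [HasPrincipalDivisors K F'] (v : Place K F) :
    (v.fiber F').Nonempty := by
  by_contra h
  rw [Finset.not_nonempty_iff_eq_empty] at h
  have h1 := h94_sum_ramificationIndex_sep (F' := F') hF v
  rw [h, Finset.sum_empty] at h1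
  have h2 : 0 < Module.finrank F F' := Module.finrank_pos
  omega

/-- every place of `F` is the restriction of a place of `F'`. -/
theorem h94_exists_place_above (hF : h73_IsFF K F) [HasPrincipalDivisors K F'] (v : Place K F) :
    ∃ w : Place K F', w.restrict F = v := by
  obtain ⟨w, hw⟩ := h94_fiber_nonempty (F' := F') hF v
  exact ⟨w, Place.mem_fiber.mp hw⟩

/-- at most `[F' : F]` places lie above a place. -/
theorem h94_fiber_card_le (hF : h73_IsFF K F) [HasPrincipalDivisors K F'] (v : Place K F) :
    (v.fiber F').card ≤ Module.finrank F F' := by
  have h1 := h94_sum_ramificationIndex_sep (F' := F') hF v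
  have h2 : ((v.fiber F').card : ℤ) ≤ ∑ w ∈ v.fiber F', (w.ramificationIndex F : ℤ) := by
    have h3 : ∑ _w ∈ v.fiber F', (1 : ℤ) ≤ ∑ w ∈ v.fiber F', (w.ramificationIndex F : ℤ) := by
      refine Finset.sum_le_sum fun w _ => ?_
      exact_mod_cast w.ramificationIndex_pos (F := F)
    simpa using h3
  omega

/-- a set of `[F' : F]` distinct places above `v` is the whole fibre, and all its members are
unramified. -/
theorem h94_fiber_eq_of_card (hF : h73_IsFF K F) [HasPrincipalDivisors K F'] (v : Place K F)
    (s : Finset (Place K F')) (hs : ∀ w ∈ s, w.restrict F = v)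
    (hcard : Module.finrank F F' ≤ s.card) :
    s = v.fiber F' ∧ ∀ w : Place K F', w.restrict F = v → w.ramificationIndex F = 1 := by
  classical
  have hsub : s ⊆ v.fiber F' := fun w hw => Place.mem_fiber.mpr (hs w hw)
  have hle := h94_fiber_card_le (F' := F') hF v
  have heq : s = v.fiber F' := Finset.eq_of_subset_of_card_le hsub (by omega)
  refine ⟨heq, fun w hw => ?_⟩
  have hcard' : (v.fiber F').card = Module.finrank F F' := by
    have := Finset.card_le_card hsub
    omega
  have h1 := h94_sum_ramificationIndex_sep (F' := F') hF v
  by_contra hne
  have hpos : ∀ w' : Place K F', 1 ≤ w'.ramificationIndex F := fun w' =>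
    w'.ramificationIndex_pos (F := F)
  have hw2 : 2 ≤ w.ramificationIndex F := by
    have := hpos w
    omega
  have hwmem : w ∈ v.fiber F' := Place.mem_fiber.mpr hw
  have h3 : ∑ w' ∈ v.fiber F', (1 : ℤ) < ∑ w' ∈ v.fiber F', (w'.ramificationIndex F : ℤ) := by
    refine Finset.sum_lt_sum (fun w' _ => ?_) ⟨w, hwmem, ?_⟩
    · exact_mod_cast hpos w'
    · exact_mod_cast hw2
  simp only [Finset.sum_const, nsmul_eq_mul, mul_one] at h3
  omega

omit [IsAlgClosed K] [FiniteDimensional F F'] in
/-- unramified places: the order of a function of `F` is unchanged. -/
theorem h94_ord_algebraMap_of_ramificationIndex_one (w : Place K F')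
    (hw : w.ramificationIndex F = 1) (g : F) :
    w.ord (algebraMap F F' g) = (w.restrict F).ord g := by
  rw [Place.ord_restrict, hw]
  simp

end Fermat.Agent.S27
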