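import Fermat.Agent.S27.h6w_NormOrd
import Fermat.Agent.S27.h6w_GenEig
import Fermat.Agent.S18.h53_ChartLe1Core

/-!
# S27 / B8a WEIL W4, FACT 1 (helper94): the value of the norm along a fibre

`h` a chart, `B` the integral closure of `K[h]`, `b ∈ B`, `a : K`.  The norm polynomial of `b`
evaluated at `a` is `∏_{P | a} b(P) ^ e_P`: it is the determinant of multiplication by `b` on
`B / (h - a) B`, whose generalized eigenspace for the value `v` has dimension at most
`∑_{P | a, b(P) = v} e_P` (compare the chart spaces `M_h(D)`), and `∑_{P | a} e_P` is the rank.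
-/

set_option autoImplicit false

noncomputable section

open AlgebraicCurve IntermediateField IsDedekindDomain

namespace Fermat.Agent.S27

open Fermat.Agent.S18 Fermat.Agent.S24
open scoped IntermediateField.algebraAdjoinAdjoin

variable {K F : Type*} [Field K] [Field F] [Algebra K F]

theorem h94_sum_single_apply [DecidableEq (Place K F)] (S : Finset (Place K F))
    (e : Place K F → ℕ) (P : Place K F) :
    (∑ Q ∈ S, Finsupp.single Q (e Q : ℤ) : Divisor K F) P = if P ∈ S then (e P : ℤ) else 0 := by
  rw [Finsupp.finsetSum_apply]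
  simp only [Finsupp.single_apply]
  rw [Finset.sum_ite_eq' S P (fun Q => (e Q : ℤ))]

/-- a function with a nonzero value at `P` is a unit at `P`. -/
theorem h94_unit_of_val (P : Place K F) {f : F} {b : K} (hf : h39_Val P f b) (c : K)
    (hbc : b ≠ c) :
    f - algebraMap K F c ≠ 0 ∧ P.ord (f - algebraMap K F c) = 0 := by
  have h1 : h39_Val P (f - algebraMap K F c) (b - c) := by
    have := h39_val_add P hf (h39_val_algebraMap P (-c))
    rwa [map_neg, ← sub_eq_add_neg, ← sub_eq_add_neg] at this
  have h2 : b - c ≠ 0 := sub_ne_zero.mpr hbc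
  exact ⟨h6_val_ne_zero P h1 h2, h39_ord_eq_zero_of_val P h1 h2⟩

variable [IsAlgClosed K]

/-- **FACT 1.** The value at `a` of the norm polynomial of `b ∈ B` is the product of the values
of `b` along the fibre over `a`, with the ramification indices as multiplicities. -/
theorem h94_nu_eval {h : F} (hh : h75_IsChart K h) (b : h75_ringB K h) (a : K)
    (S : Finset (Place K F)) (hS : ∀ P, P ∈ S ↔ 0 < P.ord (h - algebraMap K F a))
    (vf : Place K F → K) (hvf : ∀ P ∈ S, h39_Val P (b : F) (vf P)) :
    (h6_nu hh.tr b).eval a = ∏ P ∈ S, vf P ^ (P.ord (h - algebraMap K F a)).toNat := by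
  classical
  have := h75_ringA_isPrincipalIdealRing hh.tr
  have := h75_ringB_isDedekindDomain hh
  have := h75_ringB_finite hh
  have := h75_ringB_free hh
  have := hh.fin
  set β := Module.Free.chooseBasis (h75_ringA K h) (h75_ringB K h) with hβ
  set ev := h6_evA hh.tr a with hev
  set τ := h6_tau h a with hτdef
  have hτ := h6_evA_ker hh.tr a
  have hτ0 := h6_evA_tau hh.tr a
  have hτne := h6_sub_ne_zero hh.tr a
  set e : Place K F → ℕ := fun P => (P.ord (h - algebraMap K F a)).toNat with he
  have heq : ∀ P ∈ S, (e P : ℤ) = P.ord (h - algebraMap K F a) := fun P hP =>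
    Int.toNat_of_nonneg ((hS P).mp hP).le
  have hSc : ∀ P ∈ S, h ∈ P.toValuationSubring := fun P hP => h6_mem_of_fibre P a ((hS P).mp hP)
  -- the rank
  have hc : Fintype.card (Module.Free.ChooseBasisIndex (h75_ringA K h) (h75_ringB K h))
      = ∑ P ∈ S, e P := by
    have h1 := h75_fibre_sum hh a S hS
    rw [h75_ringB_finrank hh, Module.finrank_eq_card_chooseBasisIndex] at h1
    have h2 : ∑ P ∈ S, P.ord (h - algebraMap K F a) = ((∑ P ∈ S, e P : ℕ) : ℤ) := by
      rw [Nat.cast_sum]
      exact Finset.sum_congr rfl fun P hP => (heq P hP).symm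
    rw [h2] at h1
    exact_mod_cast h1.symm
  have hSne : S.Nonempty := by
    rw [Finset.nonempty_iff_ne_empty]
    intro h0
    rw [h0, Finset.sum_empty] at hc
    have : 0 < Module.finrank (h75_ringA K h) (h75_ringB K h) := by
      rw [← h75_ringB_finrank hh]
      exact Module.finrank_pos
    rw [Module.finrank_eq_card_chooseBasisIndex] at this
    omega
  rw [h6_nu_eval, ← h6_det_Mbar β ev b]
  refine h6_det_of_genEigen (h6_Mbar β ev b) S e vf ?_ ?_ hc
  · -- (a) no other eigenvalues
    intro c hcv
    have h1 : Matrix.scalar _ c - h6_Mbar β ev b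
        = h6_Mbar β ev (algebraMap K (h75_ringB K h) c - b) := by
      rw [map_sub, h6_Mbar_algebraMap]
    rw [h1, h6_det_Mbar, ← h6_nu_eval]
    have hcoe : ((algebraMap K (h75_ringB K h) c - b : h75_ringB K h) : F)
        = -((b : F) - algebraMap K F c) := by
      show algebraMap K F c - (b : F) = _
      ring
    have hunit : ∀ P ∈ S, (b : F) - algebraMap K F c ≠ 0 ∧
        P.ord ((b : F) - algebraMap K F c) = 0 :=
      fun P hP => h94_unit_of_val P (hvf P hP) c (hcv P hP)
    obtain ⟨P₀, hP₀⟩ := hSne
    refine h6_nu_eval_ne_zero hh a _ ?_ ?_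
    · rw [hcoe]
      exact neg_ne_zero.mpr (hunit P₀ hP₀).1
    · intro P hP
      rw [hcoe, h35_ord_neg]
      exact (hunit P ((hS P).mpr hP)).2
  · -- (b) the generalized eigenspaces
    intro v S' hS'
    by_contra hlt
    push Not at hlt
    set m := ∑ P ∈ S', e P with hm
    obtain ⟨w, hw⟩ := exists_linearIndependent_of_le_finrank (R := K)
      (M := Module.End.maxGenEigenspace (Matrix.toLin' (h6_Mbar β ev b)) v) (n := m + 1) hlt
    have hex : ∀ i, ∃ (y : h75_ringB K h) (k : ℕ), (w i : _ → K) = h6_kap β ev y ∧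
        ∃ y' : h75_ringB K h, (b - algebraMap K (h75_ringB K h) v) ^ k * y = τ • y' :=
      fun i => h6_mem_maxGenEigenspace β ev τ hτ hτ0 b v (w i) (w i).2
    choose y k hy hy' using hex
    choose y' hy' using hy'
    -- the two chart spaces
    set D₀ : Divisor K F := -∑ Q ∈ S, Finsupp.single Q (e Q : ℤ) with hD₀
    have hS'c : ∀ P ∈ S', h ∈ P.toValuationSubring := fun P hP => hSc P ((hS' P).mp hP).1
    obtain ⟨-, hfin, hdim⟩ := h53_chart_add_sum hh S' hS'c e D₀
    have hyV : ∀ i, ((y i : h75_ringB K h) : F)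
        ∈ h75_chart h (D₀ + ∑ P ∈ S', Finsupp.single P (e P : ℤ)) := by
      intro i
      rw [h75_mem_chart_iff]
      intro P hP
      have hyP : 0 ≤ P.ord ((y i : h75_ringB K h) : F) := h6_ord_nonneg_ringB P hP (y i)
      by_cases hy0 : ((y i : h75_ringB K h) : F) = 0
      · exact Or.inl hy0
      right
      have hD : (D₀ + ∑ P ∈ S', Finsupp.single P (e P : ℤ) : Divisor K F) P
          = -(if P ∈ S then (e P : ℤ) else 0) + (if P ∈ S' then (e P : ℤ) else 0) := by
        rw [Finsupp.add_apply, hD₀, Finsupp.neg_apply, h94_sum_single_apply,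
          h94_sum_single_apply]
      rw [hD]
      by_cases hPS : P ∈ S
      · by_cases hPS' : P ∈ S'
        · rw [if_pos hPS, if_pos hPS']
          omega
        · rw [if_pos hPS, if_neg hPS']
          have hne : vf P ≠ v := fun hv => hPS' ((hS' P).mpr ⟨hPS, hv⟩)
          obtain ⟨hu0, hu⟩ := h94_unit_of_val P (hvf P hPS) v hne
          have hrel : ((b : F) - algebraMap K F v) ^ (k i) * ((y i : h75_ringB K h) : F)
              = (h - algebraMap K F a) * ((y' i : h75_ringB K h) : F) :=
            congrArg Subtype.val (hy' i)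
          have hy'0 : ((y' i : h75_ringB K h) : F) ≠ 0 := by
            intro h0
            rw [h0, mul_zero] at hrel
            exact (mul_ne_zero (pow_ne_zero _ hu0) hy0) hrel
          have hord := congrArg P.ord hrel
          rw [P.ord_mul (pow_ne_zero _ hu0) hy0, h34_ord_pow, hu, mul_zero, zero_add,
            P.ord_mul hτne hy'0] at hord
          have := h6_ord_nonneg_ringB P hP (y' i)
          have := heq P hPS
          omega
      · have hPS' : P ∉ S' := fun hc' => hPS ((hS' P).mp hc').1
        rw [if_neg hPS, if_neg hPS']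
        omega
    obtain ⟨c, hc0, hcU⟩ := h53_exists_comb_mem _ _ hfin (m + 1) (by rw [hdim]; omega)
      (fun i => ((y i : h75_ringB K h) : F)) hyV
    -- the combination lies in `(h - a) B`
    set z : h75_ringB K h := ∑ i, c i • y i with hz
    have hzcoe : (z : F) = ∑ i, c i • ((y i : h75_ringB K h) : F) := by
      rw [hz]
      simp
    have hzτ : ∃ z' : h75_ringB K h, z = τ • z' := by
      rw [h6_mem_tau_iff hh a]
      by_cases hz0 : (z : F) = 0
      · exact Or.inl hz0
      right
      intro Q hQ
      have hQS : Q ∈ S := (hS Q).mpr hQ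
      rw [← hzcoe, h75_mem_chart_iff] at hcU
      rcases hcU Q (hSc Q hQS) with h0 | h1
      · exact absurd h0 hz0
      · rw [hD₀, Finsupp.neg_apply, neg_neg, h94_sum_single_apply, if_pos hQS, heq Q hQS] at h1
        exact h1
    have hkap : h6_kap β ev z = 0 := (h6_kap_eq_zero_iff β ev τ hτ hτ0 z).mpr hzτ
    rw [hz, map_sum] at hkap
    have hsum : ∑ i, c i • w i = 0 := by
      apply Subtype.ext
      rw [Submodule.coe_sum, Submodule.coe_zero, ← hkap]
      refine Finset.sum_congr rfl fun i _ => ?_
      rw [Submodule.coe_smul, hy i, map_smul]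
    exact hc0 (funext fun i => Fintype.linearIndependent_iff.mp hw c hsum i)

/-- **FACT 1** for any polynomial representing the norm of `b`. -/
theorem h94_norm_value {h : F} (hh : h75_IsChart K h) (b : h75_ringB K h) (r : Polynomial K)
    (hr : Polynomial.aeval h r = ((Algebra.norm (h75_ringA K h) b : h75_ringA K h) : F)) (a : K)
    (S : Finset (Place K F)) (hS : ∀ P, P ∈ S ↔ 0 < P.ord (h - algebraMap K F a))
    (vf : Place K F → K) (hvf : ∀ P ∈ S, h39_Val P (b : F) (vf P)) :
    r.eval a = ∏ P ∈ S, vf P ^ (P.ord (h - algebraMap K F a)).toNat := by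
  have h1 : r = h6_nu hh.tr b := by
    apply transcendental_iff_injective.mp hh.tr
    rw [hr]
    exact (h6_aeval_polyA hh.tr _).symm
  rw [h1]
  exact h94_nu_eval hh b a S hS vf hvf

/-- **FACT 1** over the point `0`. -/
theorem h94_norm_value_zero {h : F} (hh : h75_IsChart K h) (b : h75_ringB K h)
    (r : Polynomial K)
    (hr : Polynomial.aeval h r = ((Algebra.norm (h75_ringA K h) b : h75_ringA K h) : F))
    (S : Finset (Place K F)) (hS : ∀ P, P ∈ S ↔ 0 < P.ord h)
    (vb : Place K F → K) (hvb : ∀ P ∈ S, h39_Val P (b : F) (vb P)) :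
    r.eval 0 = ∏ P ∈ S, vb P ^ (P.ord h).toNat := by
  have h0 : h - algebraMap K F 0 = h := by rw [map_zero, sub_zero]
  have h1 := h94_norm_value hh b r hr 0 S (by rw [h0]; exact hS) vb hvb
  rwa [h0] at h1

end Fermat.Agent.S27

end
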