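import Mathlib
import Fermat.Agent.S27.Growth
import Fermat.Agent.S27.h76_TorsGroup

/-!
# S27 / COUNT-CHARP, abstract assembly (helper95)

`A` an abelian group with an action of a group `M`, `σ : M`.  Assume

* every element of `A` is fixed by a positive power of `σ`;
* for `r > 0` the fixed group `A^(σ^r)` is finite of order `det (1 - C ^ r)` for an integer
  `2g × 2g` matrix `C` with `ℓ ∤ det C`;
* for `r` in a progression `r₁ ℕ` the norm `A^(σ^(rℓ)) → A^(σ^r)` is onto modulo `ℓ`.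

Then `#A[ℓ^t] = ℓ^(2 g t)`.

Ingredients: `h15_growth` (GROWTH, helper47), `h76_tors_card` (GROUP, helper76), and the
adapter to `ℓ`-primary parts proved here (Sylow count + Bezout).
-/

set_option autoImplicit false

namespace Fermat.Agent.S27

open Finset

/-! ### the `ℓ`-primary part -/

/-- the `ℓ`-primary elements of an abelian group. -/
def h95_prim (ℓ : ℕ) (A : Type*) [AddCommGroup A] : AddSubgroup A where
  carrier := {c | ∃ n : ℕ, ℓ ^ n • c = 0}
  zero_mem' := ⟨0, smul_zero _⟩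
  add_mem' := by
    rintro a b ⟨n, hn⟩ ⟨m, hm⟩
    refine ⟨n + m, ?_⟩
    have h1 : ℓ ^ (n + m) • a = 0 := by rw [pow_add, mul_comm, mul_smul, hn, smul_zero]
    have h2 : ℓ ^ (n + m) • b = 0 := by rw [pow_add, mul_smul, hm, smul_zero]
    show ℓ ^ (n + m) • (a + b) = 0
    rw [smul_add, h1, h2, add_zero]
  neg_mem' := by
    rintro a ⟨n, hn⟩
    exact ⟨n, by rw [smul_neg, hn, neg_zero]⟩

theorem h95_mem_prim {ℓ : ℕ} {A : Type*} [AddCommGroup A] {c : A} :
    c ∈ h95_prim ℓ A ↔ ∃ n : ℕ, ℓ ^ n • c = 0 := Iff.rfl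

theorem h95_prim_of_smul {ℓ : ℕ} {A : Type*} [AddCommGroup A] {c : A}
    (h : ℓ • c ∈ h95_prim ℓ A) : c ∈ h95_prim ℓ A := by
  obtain ⟨n, hn⟩ := h
  exact ⟨n + 1, by rw [pow_succ, mul_smul]; exact hn⟩

/-- **Sylow count** for a finite abelian group: the `ℓ`-primary part has `ℓ ^ v_ℓ(#G)`
elements. -/
theorem h95_card_prim (ℓ : ℕ) [hℓ : Fact ℓ.Prime] {G : Type*} [AddCommGroup G] [Finite G] :
    Nat.card (h95_prim ℓ G) = ℓ ^ (Nat.card G).factorization ℓ := by
  have hP0 : Nat.card (h95_prim ℓ G) ≠ 0 := Nat.card_pos.ne'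
  have hQ0 : Nat.card (G ⧸ h95_prim ℓ G) ≠ 0 := Nat.card_pos.ne'
  -- `#P` is a power of `ℓ`
  have hPpow : Nat.card (h95_prim ℓ G) =
      ℓ ^ (Nat.card (h95_prim ℓ G)).primeFactorsList.length := by
    refine Nat.eq_prime_pow_of_unique_prime_dvd hP0 ?_
    intro d hd hdvd
    have : Fact d.Prime := ⟨hd⟩
    obtain ⟨x, hx⟩ := exists_prime_addOrderOf_dvd_card' (G := h95_prim ℓ G) d hdvd
    obtain ⟨n, hn⟩ := x.2
    have h1 : ℓ ^ n • x = 0 := Subtype.ext (by simpa using hn)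
    have h2 : addOrderOf x ∣ ℓ ^ n := addOrderOf_dvd_iff_nsmul_eq_zero.mpr h1
    rw [hx] at h2
    exact (Nat.prime_dvd_prime_iff_eq hd hℓ.out).mp (hd.dvd_of_dvd_pow h2)
  -- `ℓ ∤ #(G/P)`
  have hQ : ¬ ℓ ∣ Nat.card (G ⧸ h95_prim ℓ G) := by
    intro hdvd
    obtain ⟨y, hy⟩ := exists_prime_addOrderOf_dvd_card' (G := G ⧸ h95_prim ℓ G) ℓ hdvd
    obtain ⟨g, rfl⟩ := QuotientAddGroup.mk_surjective y
    have h1 : ℓ • (g : G ⧸ h95_prim ℓ G) = 0 := by
      have := addOrderOf_nsmul_eq_zero (g : G ⧸ h95_prim ℓ G)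
      rwa [hy] at this
    have h2 : ℓ • g ∈ h95_prim ℓ G := by
      rw [← QuotientAddGroup.eq_zero_iff]
      exact h1
    have h3 : (g : G ⧸ h95_prim ℓ G) = 0 :=
      (QuotientAddGroup.eq_zero_iff g).mpr (h95_prim_of_smul h2)
    rw [h3, addOrderOf_zero] at hy
    exact hℓ.out.one_lt.ne hy
  have hcard := AddSubgroup.card_eq_card_quotient_mul_card_addSubgroup (h95_prim ℓ G)
  rw [hcard, Nat.factorization_mul hQ0 hP0, Finsupp.add_apply,
    Nat.factorization_eq_zero_of_not_dvd hQ, zero_add]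
  conv_lhs => rw [hPpow]
  conv_rhs => rw [hPpow]
  rw [hℓ.out.factorization_pow, Finsupp.single_eq_same]

/-! ### fixed points of the powers of `σ` -/

section act

variable {M A : Type*} [Group M] [AddCommGroup A] [DistribMulAction M A]

/-- the subgroup of elements fixed by `m`. -/
def h95_fix (m : M) : AddSubgroup A where
  carrier := {c | m • c = c}
  zero_mem' := smul_zero m
  add_mem' := by
    intro a b ha hb
    show m • (a + b) = a + b
    rw [smul_add, (ha : m • a = a), (hb : m • b = b)]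
  neg_mem' := by
    intro a ha
    show m • (-a) = -a
    rw [smul_neg, (ha : m • a = a)]

theorem h95_mem_fix {m : M} {c : A} : c ∈ h95_fix (A := A) m ↔ m • c = c := Iff.rfl

theorem h95_fix_pow {m : M} {c : A} (h : m • c = c) (k : ℕ) : m ^ k • c = c := by
  induction k with
  | zero => simp
  | succ k ih => rw [pow_succ, mul_smul, h, ih]

theorem h95_fix_mul (σ : M) {r : ℕ} {c : A} (h : σ ^ r • c = c) (k : ℕ) :
    σ ^ (r * k) • c = c := by
  rw [pow_mul]
  exact h95_fix_pow h k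

theorem h95_smul_mem_prim (ℓ : ℕ) (m : M) {c : A} (h : c ∈ h95_prim ℓ A) :
    m • c ∈ h95_prim ℓ A := by
  obtain ⟨n, hn⟩ := h
  exact ⟨n, by rw [smul_comm, hn, smul_zero]⟩

/-- the `ℓ`-primary part of the fixed group of `m` has `ℓ ^ v_ℓ(#A^m)` elements. -/
theorem h95_card_prim_fix (ℓ : ℕ) [Fact ℓ.Prime] (m : M) [Finite (h95_fix (A := A) m)] :
    Nat.card (h95_prim ℓ A ⊓ h95_fix m : AddSubgroup A) =
      ℓ ^ (Nat.card (h95_fix (A := A) m)).factorization ℓ := by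
  rw [← h95_card_prim ℓ (G := h95_fix (A := A) m)]
  refine Nat.card_congr
    { toFun := fun c => ⟨⟨c.1, c.2.2⟩, ?_⟩
      invFun := fun c => ⟨c.1.1, ?_, c.1.2⟩
      left_inv := fun c => rfl
      right_inv := fun c => rfl }
  · obtain ⟨n, hn⟩ := c.2.1
    exact ⟨n, Subtype.ext (by simpa using hn)⟩
  · obtain ⟨n, hn⟩ := c.2
    exact ⟨n, by simpa using congrArg Subtype.val hn⟩

/-- **COUNT, abstract form.**  `A` an abelian group with an action of a group `M`, `σ : M` such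
that every element of `A` is fixed by a positive power of `σ`, the fixed groups of `σ ^ r`
(`r > 0`) are finite of order `det (1 - C ^ r)` with `ℓ ∤ det C`, and for `r` in a progression
every element fixed by `σ ^ r` is a norm from the fixed group of `σ ^ (r ℓ)` modulo `ℓ A`.
Then `#A[ℓ ^ t] = ℓ ^ (2 g t)`. -/
theorem h95_count_abs (ℓ : ℕ) [hℓ : Fact ℓ.Prime] (g : ℕ) (σ : M)
    (hper : ∀ c : A, ∃ n : ℕ, 0 < n ∧ σ ^ n • c = c)
    (C : Matrix (Fin (2 * g)) (Fin (2 * g)) ℤ) (hdet : ¬ (ℓ : ℤ) ∣ C.det)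
    (hfin : ∀ r : ℕ, 0 < r → Finite {c : A // σ ^ r • c = c})
    (hcard : ∀ r : ℕ, 0 < r → (Nat.card {c : A // σ ^ r • c = c} : ℤ) = (1 - C ^ r).det)
    (hnorm : ∃ r₁ : ℕ, 0 < r₁ ∧ ∀ r : ℕ, 0 < r → r₁ ∣ r → ∀ y : A, σ ^ r • y = y →
      ∃ x z : A, σ ^ (r * ℓ) • x = x ∧
        y = (∑ a ∈ Finset.range ℓ, σ ^ (r * a) • x) + ℓ • z)
    (t : ℕ) : Nat.card {c : A // ℓ ^ t • c = 0} = ℓ ^ (2 * g * t) := by
  classical
  have hℓp : ℓ.Prime := hℓ.out
  have hℓpos : 0 < ℓ := hℓp.pos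
  have hℓ1 : ¬ ℓ ∣ 1 := fun h => hℓp.one_lt.not_ge (Nat.le_of_dvd one_pos h)
  obtain ⟨r₁, hr₁, hN⟩ := hnorm
  have hfin' : ∀ r : ℕ, 0 < r → Finite (h95_fix (A := A) (σ ^ r)) := fun r hr => hfin r hr
  have hcard' : ∀ r : ℕ, 0 < r →
      (Nat.card (h95_fix (A := A) (σ ^ r)) : ℤ) = (1 - C ^ r).det := fun r hr => hcard r hr
  have hne : ∀ r : ℕ, 0 < r → (1 - C ^ r).det ≠ 0 := by
    intro r hr
    rw [← hcard' r hr]
    have := hfin' r hr
    exact_mod_cast (Nat.card_pos (α := h95_fix (A := A) (σ ^ r))).ne'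
  obtain ⟨n₀, hn₀, c₀, hgr⟩ := h15_growth ℓ C hdet hne
  obtain ⟨a, s₁, hs₁, rfl⟩ := Nat.exists_eq_pow_mul_and_not_dvd hr₁.ne' ℓ hℓp.ne_one
  have hs₁pos : 0 < s₁ := by
    rcases Nat.eq_zero_or_pos s₁ with h | h
    · rw [h, mul_zero] at hr₁
      exact absurd hr₁ (lt_irrefl 0)
    · exact h
  set R : ℕ := n₀ * ℓ ^ a * s₁ with hR
  have hRpos : 0 < R := by positivity
  -- the `ℓ`-primary parts of the fixed groups
  let Q : ℕ → AddSubgroup A := fun r => h95_prim ℓ A ⊓ h95_fix (σ ^ r)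
  have hQfin : ∀ r : ℕ, 0 < r → Finite (Q r) := by
    intro r hr
    have := hfin' r hr
    exact Finite.of_injective
      (fun c : Q r => (⟨c.1, c.2.2⟩ : h95_fix (A := A) (σ ^ r)))
      (fun c d h => by
        have h' : (c : A) = (d : A) := congrArg (fun e : h95_fix (A := A) (σ ^ r) => (e : A)) h
        exact Subtype.ext h')
  have hQcard : ∀ j s : ℕ, 0 < s → ¬ ℓ ∣ s →
      Nat.card (Q (R * ℓ ^ j * s)) = ℓ ^ (c₀ + 2 * g * (a + j)) := by
    intro j s hs hℓs
    have hpos : 0 < R * ℓ ^ j * s := by positivity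
    have := hfin' _ hpos
    show Nat.card (h95_prim ℓ A ⊓ h95_fix (σ ^ (R * ℓ ^ j * s)) : AddSubgroup A) = _
    rw [h95_card_prim_fix ℓ (σ ^ (R * ℓ ^ j * s))]
    congr 1
    have h1 : R * ℓ ^ j * s = n₀ * ℓ ^ (a + j) * (s₁ * s) := by
      rw [hR, pow_add]
      ring
    have h2 := hgr (a + j) (s₁ * s) (Nat.mul_pos hs₁pos hs)
      (fun h => (hℓp.dvd_mul.mp h).elim hs₁ hℓs)
    rw [← h1, ← hcard' _ hpos, padicValInt.of_nat] at h2
    rw [Nat.factorization_def _ hℓp, h2]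
  have hQeq : ∀ j s : ℕ, 0 < s → ¬ ℓ ∣ s → Q (R * ℓ ^ j) = Q (R * ℓ ^ j * s) := by
    intro j s hs hℓs
    have hpos : 0 < R * ℓ ^ j * s := by positivity
    have := hQfin _ hpos
    refine AddSubgroup.eq_of_le_of_card_ge ?_ ?_
    · intro c hc
      exact ⟨hc.1, h95_fix_mul σ hc.2 s⟩
    · have h1 := hQcard j s hs hℓs
      have h2 := hQcard j 1 one_pos hℓ1
      rw [mul_one] at h2
      rw [h1, h2]
  -- the endomorphism `τ = σ ^ R` of the `ℓ`-primary part
  let τ : h95_prim ℓ A →+ h95_prim ℓ A :=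
    { toFun := fun c => ⟨σ ^ R • c.1, h95_smul_mem_prim ℓ _ c.2⟩
      map_zero' := Subtype.ext (smul_zero _)
      map_add' := fun c d => Subtype.ext (smul_add _ _ _) }
  have hτ : ∀ (n : ℕ) (c : h95_prim ℓ A),
      ((τ^[n] c : h95_prim ℓ A) : A) = σ ^ (R * n) • (c : A) := by
    intro n
    induction n with
    | zero => intro c; simp
    | succ n ih =>
      intro c
      rw [Function.iterate_succ_apply']
      show σ ^ R • ((τ^[n] c : h95_prim ℓ A) : A) = _
      rw [ih, ← mul_smul, ← pow_add, Nat.mul_succ, add_comm]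
  have hτfix : ∀ (n : ℕ) (c : h95_prim ℓ A), τ^[n] c = c ↔ σ ^ (R * n) • (c : A) = c := by
    intro n c
    rw [← hτ n c]
    exact ⟨fun h => congrArg Subtype.val h, fun h => Subtype.ext h⟩
  have eQ : ∀ n : ℕ, {b : h95_prim ℓ A // τ^[n] b = b} ≃ Q (R * n) := fun n =>
    { toFun := fun b => ⟨b.1.1, b.1.2, (hτfix n b.1).mp b.2⟩
      invFun := fun c => ⟨⟨c.1, c.2.1⟩, (hτfix n _).mpr c.2.2⟩
      left_inv := fun b => rfl
      right_inv := fun c => rfl }
  have key : Nat.card {b : h95_prim ℓ A // ℓ ^ t • b = 0} = ℓ ^ (2 * g * t) := by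
    refine h76_tors_card ℓ g ?_ τ ?_ 0 ?_ ?_ ?_ t
    · intro b
      obtain ⟨n, hn⟩ := b.2
      exact ⟨n, Subtype.ext (by simpa using hn)⟩
    · intro b
      obtain ⟨n, hn, hb⟩ := hper b.1
      obtain ⟨j, s, hs, rfl⟩ := Nat.exists_eq_pow_mul_and_not_dvd hn.ne' ℓ hℓp.ne_one
      have hspos : 0 < s := by
        rcases Nat.eq_zero_or_pos s with h | h
        · rw [h, mul_zero] at hn
          exact absurd hn (lt_irrefl 0)
        · exact h
      refine ⟨j, (hτfix _ _).mpr ?_⟩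
      have h1 : (b : A) ∈ Q (R * ℓ ^ j * s) := by
        refine ⟨b.2, ?_⟩
        have h2 := h95_fix_mul σ hb R
        have h3 : ℓ ^ j * s * R = R * ℓ ^ j * s := by ring
        rw [h3] at h2
        exact h2
      rw [← hQeq j s hspos hs] at h1
      exact h1.2
    · intro j _
      have := hQfin (R * ℓ ^ j) (by positivity)
      exact Finite.of_equiv _ (eQ (ℓ ^ j)).symm
    · intro j _
      rw [Nat.card_congr (eQ _), Nat.card_congr (eQ _)]
      have h1 := hQcard (j + 1) 1 one_pos hℓ1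
      have h2 := hQcard j 1 one_pos hℓ1
      rw [mul_one] at h1 h2
      rw [h1, h2, ← pow_add]
      congr 1
      ring
    · intro j _ b hb
      have hb' : σ ^ (R * ℓ ^ j) • (b : A) = b := (hτfix _ _).mp hb
      have hrpos : 0 < R * ℓ ^ j := by positivity
      have hdvd : ℓ ^ a * s₁ ∣ R * ℓ ^ j := ⟨n₀ * ℓ ^ j, by rw [hR]; ring⟩
      obtain ⟨x, z, hx, hy⟩ := hN (R * ℓ ^ j) hrpos hdvd b.1 hb'
      obtain ⟨n, hn⟩ := b.2
      have hpos2 : 0 < R * ℓ ^ j * ℓ := by positivity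
      have := hfin' _ hpos2
      have hNx0 : Nat.card (h95_fix (A := A) (σ ^ (R * ℓ ^ j * ℓ))) ≠ 0 := Nat.card_pos.ne'
      obtain ⟨v, m, hm, hNxeq⟩ := Nat.exists_eq_pow_mul_and_not_dvd hNx0 ℓ hℓp.ne_one
      have hxN : (ℓ ^ v * m) • x = 0 := by
        have h1 := card_nsmul_eq_zero' (G := h95_fix (A := A) (σ ^ (R * ℓ ^ j * ℓ)))
          (x := ⟨x, hx⟩)
        rw [hNxeq] at h1
        simpa using congrArg Subtype.val h1
      have hcop : Nat.Coprime m (ℓ ^ (n + 1)) :=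
        Nat.Coprime.pow_right _ (Nat.coprime_comm.mp ((Nat.Prime.coprime_iff_not_dvd hℓp).mpr hm))
      obtain ⟨u, -, hu⟩ := Nat.exists_mul_mod_eq_one_of_coprime hcop
        (Nat.one_lt_pow (Nat.succ_ne_zero n) hℓp.one_lt)
      have hmu : (m * u) • (b : A) = b := by
        have h1 := Nat.div_add_mod (m * u) (ℓ ^ (n + 1))
        rw [hu] at h1
        have h2 : ℓ ^ (n + 1) • (b : A) = 0 := by rw [pow_succ, mul_comm, mul_smul, hn, smul_zero]
        rw [← h1, add_smul, one_smul, mul_comm, mul_smul, h2, smul_zero, zero_add]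
      have hx'fix : σ ^ (R * ℓ ^ j * ℓ) • ((m * u) • x) = (m * u) • x := by
        rw [smul_comm, hx]
      have hx'prim : (m * u) • x ∈ h95_prim ℓ A := by
        refine ⟨v, ?_⟩
        rw [← mul_smul, ← mul_assoc, mul_comm, mul_smul, hxN, smul_zero]
      have heq : (b : A) =
          (∑ i ∈ Finset.range ℓ, σ ^ (R * ℓ ^ j * i) • ((m * u) • x)) + ℓ • ((m * u) • z) := by
        conv_lhs => rw [← hmu, hy]
        rw [smul_add, Finset.smul_sum]
        congr 1
        · refine Finset.sum_congr rfl (fun i _ => ?_)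
          rw [smul_comm]
        · rw [smul_comm]
      have hz'prim : (m * u) • z ∈ h95_prim ℓ A := by
        apply h95_prim_of_smul
        have h1 : ℓ • ((m * u) • z) =
            (b : A) - ∑ i ∈ Finset.range ℓ, σ ^ (R * ℓ ^ j * i) • ((m * u) • x) :=
          eq_sub_of_add_eq' heq.symm
        rw [h1]
        exact AddSubgroup.sub_mem _ b.2
          (AddSubgroup.sum_mem _ (fun i _ => h95_smul_mem_prim ℓ _ hx'prim))
      refine ⟨⟨(m * u) • x, hx'prim⟩, (hτfix _ _).mpr ?_, ⟨(m * u) • z, hz'prim⟩,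
        Subtype.ext ?_⟩
      · show σ ^ (R * ℓ ^ (j + 1)) • ((m * u) • x) = (m * u) • x
        rw [pow_succ, ← mul_assoc]
        exact hx'fix
      · rw [AddSubgroup.coe_add, AddSubmonoidClass.coe_finsetSum]
        conv_lhs => rw [heq]
        congr 1
        refine Finset.sum_congr rfl (fun i _ => ?_)
        rw [hτ]
        congr 2
        ring
  rw [← key]
  exact Nat.card_congr
    { toFun := fun c => ⟨⟨c.1, t, c.2⟩, Subtype.ext c.2⟩
      invFun := fun b => ⟨b.1.1, by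
        have h := congrArg Subtype.val b.2
        rw [AddSubgroup.coe_nsmul] at h
        exact h⟩
      left_inv := fun c => rfl
      right_inv := fun b => rfl }

end act

end Fermat.Agent.S27
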