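import Fermat.Agent.S27.h95_CountCharpOf
import Fermat.Agent.S27.FrobZeta

/-!
# S27 / COUNT-CHARP from NORM alone (helper95)

`h95_count_charp_of_norm` : the row statement `h15_GoodAny k Fb ℓ` with the whole block B6
(`FrobEx`, `FrobPer`, `FrobZeta`) discharged; the only remaining hypothesis is the B8 export
NORM (skeleton name `h76_norm_onto`), in exactly its skeleton shape.
-/

set_option autoImplicit false

open AlgebraicCurve Fermat.Agent.S18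

namespace Fermat.Agent.S27

/-- **COUNT-CHARP from NORM.** -/
theorem h95_count_charp_of_norm (p : ℕ) [Fact p.Prime] (k Fb : Type*) [Field k] [IsAlgClosed k]
    [CharP k p] (halg : ∀ a : k, ∃ n : ℕ, 0 < n ∧ a ^ (p ^ n) = a) [Field Fb] [Algebra k Fb]
    (ℓ : ℕ) [Fact ℓ.Prime] (hℓ : ℓ ≠ p)
    (hB8 : ∀ (x : Fb), h75_IsChart k x → ∀ (e : ℕ), 0 < e → ∀ (σ : h57_SemiAut k Fb),
      h57_IsFrob (p ^ e) σ → h73_Periodic σ → ∀ P₀ : Place k Fb, σ • P₀ = P₀ →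
      ∃ r₁ : ℕ, 0 < r₁ ∧ ∀ r : ℕ, 0 < r → r₁ ∣ r → ∀ y : Pic0 k Fb, σ ^ r • y = y →
        ∃ x z : Pic0 k Fb, σ ^ (r * ℓ) • x = x ∧
          y = (∑ a ∈ Finset.range ℓ, σ ^ (r * a) • x) + ℓ • z) :
    h15_GoodAny k Fb ℓ := by
  refine h95_count_charp_of p k Fb halg ℓ hℓ ?_ hB8
  intro x hx e he σ hσ hper P₀ hP₀
  refine ⟨fun r hr => ?_, h73_zeta_matrix hx he σ hσ hper P₀ hP₀⟩
  have hσr : h57_IsFrob (p ^ (e * r)) (σ ^ r) := by
    rw [pow_mul]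
    exact hσ.pow r
  exact h73_finite_inv_class (p := p) (e := e * r) hx (Nat.mul_pos he hr) (σ ^ r) hσr
    (hper.pow r) P₀ (h73_pow_smul_fixed σ P₀ hP₀ r)

end Fermat.Agent.S27
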