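import Fermat.Agent.S27.h95_CountAbs
import Fermat.Agent.S27.h15_DefsAny
import Fermat.Agent.S27.h73_ZetaDefs
import Fermat.Agent.S27.FrobPer
import Fermat.Agent.S27.FrobEx

/-!
# S27 / COUNT-CHARP, assembly in hypothesis form (helper95)

`h95_count_of_frob` : for a Frobenius structure `σ` of level `p ^ e` on `F / k` with

* (B6) finitely many `σ ^ r`-fixed classes, `#Pic⁰^(σ^r) = det (1 - C ^ r)`, `det C = q ^ g`;
* (B8) NORM: for `r` in a progression the norm `Pic⁰^(σ^(rℓ)) → Pic⁰^(σ^r)` is onto mod `ℓ`;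

the count `#Pic⁰[ℓ ^ t] = ℓ ^ (2 g t)` holds (`ℓ ≠ p`).

`h95_count_charp_of` : the row statement `h15_GoodAny k Fb ℓ` from these two inputs given for
every Frobenius structure with a fixed place.
-/

set_option autoImplicit false

open AlgebraicCurve Fermat.Agent.S18

namespace Fermat.Agent.S27

/-- `Pic0.torsion K F m` is the set of classes killed by `m`. -/
theorem h95_card_torsion (K F : Type*) [Field K] [Field F] [Algebra K F] (m : ℕ) :
    Nat.card (Pic0.torsion K F m) = Nat.card {c : Pic0 K F // m • c = 0} := by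
  refine Nat.card_congr (Equiv.subtypeEquivRight (fun c => ?_))
  rw [Pic0.mem_torsion, natCast_zsmul]

section

variable {k F : Type*} [Field k] [IsAlgClosed k] [Field F] [Algebra k F]
variable {p e : ℕ} [Fact p.Prime] [CharP k p]

omit [CharP k p] in
/-- **COUNT for one Frobenius structure**, from the B6 output (`hfin`, `hzeta`) and the B8
output (`hnorm`). -/
theorem h95_count_of_frob (ℓ : ℕ) [Fact ℓ.Prime] (hℓ : ℓ ≠ p) {x : F} (hx : h75_IsChart k x)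
    (σ : h57_SemiAut k F) (hper : h73_Periodic σ)
    (hfin : ∀ r : ℕ, 0 < r → Finite {c : Pic0 k F // σ ^ r • c = c})
    (hzeta : ∃ C : Matrix (Fin (2 * h75_genus k x)) (Fin (2 * h75_genus k x)) ℤ,
      C.det = ((p ^ e : ℕ) : ℤ) ^ h75_genus k x ∧
      ∀ r : ℕ, 0 < r → h73_h (σ ^ r) = (1 - C ^ r).det)
    (hnorm : ∃ r₁ : ℕ, 0 < r₁ ∧ ∀ r : ℕ, 0 < r → r₁ ∣ r → ∀ y : Pic0 k F, σ ^ r • y = y →
      ∃ x z : Pic0 k F, σ ^ (r * ℓ) • x = x ∧
        y = (∑ a ∈ Finset.range ℓ, σ ^ (r * a) • x) + ℓ • z)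
    (t : ℕ) :
    Nat.card (Pic0.torsion k F (ℓ ^ t)) = ℓ ^ (2 * h75_genus k x * t) := by
  obtain ⟨C, hC, hh⟩ := hzeta
  have hℓp : ℓ.Prime := Fact.out
  have hp : p.Prime := Fact.out
  have hdet : ¬ (ℓ : ℤ) ∣ C.det := by
    rw [hC]
    intro hdvd
    have h1 : ℓ ∣ (p ^ e) ^ h75_genus k x := by exact_mod_cast hdvd
    exact hℓ ((Nat.prime_dvd_prime_iff_eq hℓp hp).mp
      (hℓp.dvd_of_dvd_pow (hℓp.dvd_of_dvd_pow h1)))
  rw [h95_card_torsion]
  have hcard : ∀ r : ℕ, 0 < r →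
      (Nat.card {c : Pic0 k F // σ ^ r • c = c} : ℤ) = (1 - C ^ r).det := by
    intro r hr
    have h := hh r hr
    unfold h73_h at h
    exact h
  have key := @h95_count_abs (h57_SemiAut k F) (Pic0 k F) _ _ _ ℓ _ (h75_genus k x) σ
  exact key (h73_pic_periodic hx σ hper) C hdet hfin hcard hnorm t

end

/-- **COUNT-CHARP, hypothesis form.**  `hB6` = the B6 output, `hB8` = the B8 output (NORM), both
for every Frobenius structure with a fixed place on `Fb / k`. -/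
theorem h95_count_charp_of (p : ℕ) [Fact p.Prime] (k Fb : Type*) [Field k] [IsAlgClosed k]
    [CharP k p] (halg : ∀ a : k, ∃ n : ℕ, 0 < n ∧ a ^ (p ^ n) = a) [Field Fb] [Algebra k Fb]
    (ℓ : ℕ) [Fact ℓ.Prime] (hℓ : ℓ ≠ p)
    (hB6 : ∀ (x : Fb), h75_IsChart k x → ∀ (e : ℕ), 0 < e → ∀ (σ : h57_SemiAut k Fb),
      h57_IsFrob (p ^ e) σ → h73_Periodic σ → ∀ P₀ : Place k Fb, σ • P₀ = P₀ →
      (∀ r : ℕ, 0 < r → Finite {c : Pic0 k Fb // σ ^ r • c = c}) ∧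
      ∃ C : Matrix (Fin (2 * h75_genus k x)) (Fin (2 * h75_genus k x)) ℤ,
        C.det = ((p ^ e : ℕ) : ℤ) ^ h75_genus k x ∧
        ∀ r : ℕ, 0 < r → h73_h (σ ^ r) = (1 - C ^ r).det)
    (hB8 : ∀ (x : Fb), h75_IsChart k x → ∀ (e : ℕ), 0 < e → ∀ (σ : h57_SemiAut k Fb),
      h57_IsFrob (p ^ e) σ → h73_Periodic σ → ∀ P₀ : Place k Fb, σ • P₀ = P₀ →
      ∃ r₁ : ℕ, 0 < r₁ ∧ ∀ r : ℕ, 0 < r → r₁ ∣ r → ∀ y : Pic0 k Fb, σ ^ r • y = y →
        ∃ x z : Pic0 k Fb, σ ^ (r * ℓ) • x = x ∧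
          y = (∑ a ∈ Finset.range ℓ, σ ^ (r * a) • x) + ℓ • z) :
    h15_GoodAny k Fb ℓ := by
  intro x hx j
  obtain ⟨e, he, σ, P₀, hσ, hper, -, hP₀⟩ := h73_exists_frob p halg hx
  obtain ⟨hfin, hzeta⟩ := hB6 x hx e he σ hσ hper P₀ hP₀
  exact h95_count_of_frob (p := p) (e := e) ℓ hℓ hx σ hper hfin hzeta
    (hB8 x hx e he σ hσ hper P₀ hP₀) j

end Fermat.Agent.S27
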