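import Mathlib
import Fermat.Prelude.Def_AlgebraicCurve_DivisorClassGroup
import Fermat.Agent.S18.h75_RRDefs

/-!
# S27 / B3 : transport along an isomorphism of function fields, and a small model (helper96)

`e : F ≃ₐ[K] F'` an isomorphism of `K`-algebras (fields).  Everything the S27 count uses is
transported along `e`: places (`h96_placeEquiv`, with `ord` and `deg`), divisors
(`h96_divisorEquiv`, degree and principal divisors), `Pic⁰` (`h96_pic0Equiv`), the torsion count
(`h96_card_torsion`), charts (`h96_isChart_map`), the chart modules (`h96_chart_map`,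
`h96_overlap_map`) and the two-chart genus (`h96_genus_map`).

A function field with a chart over `K : Type u` has a model in `Type u` (`h96_exists_model`),
hence a count that holds for all function fields in `Type u` over `K` holds for all function
fields over `K` (`h96_good_of_models`).
-/

set_option autoImplicit false

noncomputable section

open AlgebraicCurve Fermat.Agent.S18 IntermediateField

namespace Fermat.Agent.S27

section Transport

variable {K : Type*} {F : Type*} {F' : Type*} [Field K] [Field F] [Field F'] [Algebra K F]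
  [Algebra K F']

/-- The image `e(A)` of a valuation subring under an isomorphism. -/
def h96_mapVS (e : F ≃ₐ[K] F') (A : ValuationSubring F) : ValuationSubring F' :=
  A.comap (e.symm : F' →+* F)

theorem h96_mem_mapVS (e : F ≃ₐ[K] F') (A : ValuationSubring F) (y : F') :
    y ∈ h96_mapVS e A ↔ e.symm y ∈ A := Iff.rfl

theorem h96_apply_mem_mapVS (e : F ≃ₐ[K] F') (A : ValuationSubring F) (x : F) :
    e x ∈ h96_mapVS e A ↔ x ∈ A := by
  rw [h96_mem_mapVS, e.symm_apply_apply]

/-- `A ≃+* e(A)`. -/
def h96_mapVSEquiv (e : F ≃ₐ[K] F') (A : ValuationSubring F) : A ≃+* h96_mapVS e A where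
  toFun x := ⟨e x, (h96_apply_mem_mapVS e A x).mpr x.2⟩
  invFun y := ⟨e.symm y, y.2⟩
  left_inv x := by ext; simp
  right_inv y := by ext; simp
  map_mul' x y := by ext; simp
  map_add' x y := by ext; simp

@[simp]
theorem h96_coe_mapVSEquiv (e : F ≃ₐ[K] F') (A : ValuationSubring F) (x : A) :
    ((h96_mapVSEquiv e A x : h96_mapVS e A) : F') = e x := rfl

/-- The image of a place under an isomorphism of function fields. -/
def h96_placeMap (e : F ≃ₐ[K] F') (P : Place K F) : Place K F' where
  toValuationSubring := h96_mapVS e P.toValuationSubring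
  algebraMap_mem' a := by
    rw [h96_mem_mapVS, e.symm.commutes]
    exact P.algebraMap_mem' a
  ne_top' h := P.ne_top' (by
    refine SetLike.ext fun x => ⟨fun _ => ValuationSubring.mem_top x, fun _ => ?_⟩
    have : e x ∈ h96_mapVS e P.toValuationSubring := by
      rw [h]
      exact ValuationSubring.mem_top _
    exact (h96_apply_mem_mapVS e _ x).mp this)
  isPrincipalIdealRing' :=
    IsPrincipalIdealRing.of_surjective
      (h96_mapVSEquiv e P.toValuationSubring : _ ≃+* _)
      (h96_mapVSEquiv e P.toValuationSubring).surjective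

@[simp]
theorem h96_placeMap_toValuationSubring (e : F ≃ₐ[K] F') (P : Place K F) :
    (h96_placeMap e P).toValuationSubring = h96_mapVS e P.toValuationSubring := rfl

theorem h96_mem_placeMap (e : F ≃ₐ[K] F') (P : Place K F) (y : F') :
    y ∈ (h96_placeMap e P).toValuationSubring ↔ e.symm y ∈ P.toValuationSubring := Iff.rfl

theorem h96_apply_mem_placeMap (e : F ≃ₐ[K] F') (P : Place K F) (x : F) :
    e x ∈ (h96_placeMap e P).toValuationSubring ↔ x ∈ P.toValuationSubring :=
  h96_apply_mem_mapVS e _ x

theorem h96_placeMap_symm_placeMap (e : F ≃ₐ[K] F') (P : Place K F) :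
    h96_placeMap e.symm (h96_placeMap e P) = P := by
  apply Place.ext
  ext x
  rw [h96_mem_placeMap, h96_mem_placeMap]
  simp

theorem h96_placeMap_placeMap_symm (e : F ≃ₐ[K] F') (P : Place K F') :
    h96_placeMap e (h96_placeMap e.symm P) = P := by
  apply Place.ext
  ext x
  rw [h96_mem_placeMap, h96_mem_placeMap]
  simp

/-- Places of isomorphic function fields correspond. -/
def h96_placeEquiv (e : F ≃ₐ[K] F') : Place K F ≃ Place K F' where
  toFun := h96_placeMap e
  invFun := h96_placeMap e.symm
  left_inv := h96_placeMap_symm_placeMap e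
  right_inv := h96_placeMap_placeMap_symm e

@[simp]
theorem h96_placeEquiv_apply (e : F ≃ₐ[K] F') (P : Place K F) :
    h96_placeEquiv e P = h96_placeMap e P := rfl

@[simp]
theorem h96_placeEquiv_symm_apply (e : F ≃ₐ[K] F') (P : Place K F') :
    (h96_placeEquiv e).symm P = h96_placeMap e.symm P := rfl

/-- `O_P ≃+* O_{e(P)}`. -/
def h96_placeRingEquiv (e : F ≃ₐ[K] F') (P : Place K F) :
    P.toValuationSubring ≃+* (h96_placeMap e P).toValuationSubring :=
  h96_mapVSEquiv e P.toValuationSubring

@[simp]
theorem h96_coe_placeRingEquiv (e : F ≃ₐ[K] F') (P : Place K F) (x : P.toValuationSubring) :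
    ((h96_placeRingEquiv e P x : (h96_placeMap e P).toValuationSubring) : F') = e x := rfl

theorem h96_placeMap_ord (e : F ≃ₐ[K] F') (P : Place K F) (f : F) :
    (h96_placeMap e P).ord (e f) = P.ord f := by
  rcases eq_or_ne f 0 with rfl | hf
  · simp
  obtain ⟨π, hπ⟩ := IsDiscreteValuationRing.exists_irreducible P.toValuationSubring
  obtain ⟨u, hu⟩ := P.exists_unit_mul_zpow hf hπ
  set n := P.ord f with hn
  set ε := h96_placeRingEquiv e P with hε
  have hπ' : Irreducible (ε π) := (MulEquiv.irreducible_iff ε).mpr hπ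
  have hu' : IsUnit (ε (u : P.toValuationSubring)) := u.isUnit.map ε
  have hcoeu : ((hu'.unit : (h96_placeMap e P).toValuationSubring) : F')
      = e ((u : P.toValuationSubring) : F) := by
    rw [IsUnit.unit_spec]
    rfl
  have hcoeπ : ((ε π : (h96_placeMap e P).toValuationSubring) : F') = e (π : F) := rfl
  have key : e f = ((hu'.unit : (h96_placeMap e P).toValuationSubring) : F')
      * (((ε π : (h96_placeMap e P).toValuationSubring) : F') ^ n) := by
    rw [hcoeu, hcoeπ, hu, map_mul, map_zpow₀]
  rw [key, (h96_placeMap e P).ord_unit_smul_zpow hu'.unit hπ' n]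

theorem h96_placeEquiv_ord (e : F ≃ₐ[K] F') (P : Place K F) (f : F) :
    (h96_placeEquiv e P).ord (e f) = P.ord f := h96_placeMap_ord e P f

theorem h96_placeMap_ord' (e : F ≃ₐ[K] F') (P : Place K F) (y : F') :
    (h96_placeMap e P).ord y = P.ord (e.symm y) := by
  rw [← h96_placeMap_ord e P (e.symm y), e.apply_symm_apply]

/-- The residue fields of corresponding places are isomorphic over `K`. -/
def h96_residueEquiv (e : F ≃ₐ[K] F') (P : Place K F) :
    P.ResidueField ≃ₐ[K] (h96_placeMap e P).ResidueField :=
  AlgEquiv.ofRingEquiv (f := IsLocalRing.ResidueField.mapEquiv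
      (h96_placeRingEquiv e P)) <| fun a => by
    have h3 : (h96_placeRingEquiv e P) (algebraMap K P.toValuationSubring a)
        = algebraMap K (h96_placeMap e P).toValuationSubring a := by
      ext
      rw [h96_coe_placeRingEquiv, Place.coe_algebraMap, e.commutes]
      rfl
    show IsLocalRing.ResidueField.mapEquiv _ (IsLocalRing.residue _ _) = IsLocalRing.residue _ _
    rw [IsLocalRing.ResidueField.mapEquiv_apply, IsLocalRing.ResidueField.map_residue]
    exact congrArg _ h3

theorem h96_placeMap_deg (e : F ≃ₐ[K] F') (P : Place K F) :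
    (h96_placeMap e P).deg = P.deg :=
  ((h96_residueEquiv e P).toLinearEquiv.finrank_eq).symm

theorem h96_placeEquiv_deg (e : F ≃ₐ[K] F') (P : Place K F) :
    (h96_placeEquiv e P).deg = P.deg := h96_placeMap_deg e P

/-! ### Divisors -/

/-- Divisors of isomorphic function fields correspond. -/
def h96_divisorEquiv (e : F ≃ₐ[K] F') : Divisor K F ≃+ Divisor K F' :=
  Finsupp.domCongr (h96_placeEquiv e)

theorem h96_divisorEquiv_apply (e : F ≃ₐ[K] F') (D : Divisor K F) (P' : Place K F') :
    h96_divisorEquiv e D P' = D (h96_placeMap e.symm P') := by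
  rw [h96_divisorEquiv, Finsupp.domCongr_apply, Finsupp.equivMapDomain_apply]
  rfl

theorem h96_divisorEquiv_apply_placeMap (e : F ≃ₐ[K] F') (D : Divisor K F) (P : Place K F) :
    h96_divisorEquiv e D (h96_placeMap e P) = D P := by
  rw [h96_divisorEquiv_apply, h96_placeMap_symm_placeMap]

theorem h96_divisorEquiv_symm_apply (e : F ≃ₐ[K] F') (D' : Divisor K F') (P : Place K F) :
    (h96_divisorEquiv e).symm D' P = D' (h96_placeMap e P) := by
  conv_rhs => rw [← (h96_divisorEquiv e).apply_symm_apply D']
  rw [h96_divisorEquiv_apply_placeMap]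

@[simp]
theorem h96_divisorEquiv_single (e : F ≃ₐ[K] F') (P : Place K F) (n : ℤ) :
    h96_divisorEquiv e (Finsupp.single P n) = Finsupp.single (h96_placeMap e P) n := by
  rw [h96_divisorEquiv, Finsupp.domCongr_apply, Finsupp.equivMapDomain_single]
  rfl

theorem h96_degree_divisorEquiv (e : F ≃ₐ[K] F') (D : Divisor K F) :
    Divisor.degree (h96_divisorEquiv e D) = Divisor.degree D := by
  induction D using Finsupp.induction with
  | zero => simp
  | single_add v n D _ _ ih =>
      rw [map_add, map_add, map_add, ih, h96_divisorEquiv_single, Divisor.degree_single,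
        Divisor.degree_single, h96_placeMap_deg]

theorem h96_degree_divisorEquiv_symm (e : F ≃ₐ[K] F') (D' : Divisor K F') :
    Divisor.degree ((h96_divisorEquiv e).symm D') = Divisor.degree D' := by
  rw [← h96_degree_divisorEquiv e, AddEquiv.apply_symm_apply]

theorem h96_isPrincipal_divisorEquiv (e : F ≃ₐ[K] F') (D : Divisor K F) :
    Divisor.IsPrincipal (h96_divisorEquiv e D) ↔ Divisor.IsPrincipal D := by
  constructor
  · rintro ⟨f', hf', h⟩
    refine ⟨e.symm f', by simpa using hf', fun P => ?_⟩
    rw [← h96_divisorEquiv_apply_placeMap e D P, h (h96_placeMap e P), h96_placeMap_ord']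
  · rintro ⟨f, hf, h⟩
    refine ⟨e f, by simpa using hf, fun P' => ?_⟩
    rw [h96_divisorEquiv_apply, h (h96_placeMap e.symm P'), ← h96_placeMap_ord e,
      h96_placeMap_placeMap_symm]

theorem h96_mem_principal_divisorEquiv (e : F ≃ₐ[K] F') (D : Divisor K F) :
    h96_divisorEquiv e D ∈ Divisor.principal (K := K) (F := F') ↔
      D ∈ Divisor.principal (K := K) (F := F) :=
  h96_isPrincipal_divisorEquiv e D

/-- The divisor of `e f` is the image of the divisor of `f`. -/
theorem h96_divisorEquiv_eq_ord (e : F ≃ₐ[K] F') (D : Divisor K F) (f : F)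
    (h : ∀ P : Place K F, D P = P.ord f) (P' : Place K F') :
    h96_divisorEquiv e D P' = P'.ord (e f) := by
  rw [h96_divisorEquiv_apply, h, ← h96_placeMap_ord e, h96_placeMap_placeMap_symm]

/-! ### `Pic⁰` -/

/-- Degree-zero divisors of isomorphic function fields correspond. -/
def h96_degZeroEquiv (e : F ≃ₐ[K] F') :
    Divisor.degZero (K := K) (F := F) ≃+ Divisor.degZero (K := K) (F := F') where
  toFun D := ⟨h96_divisorEquiv e D, by
    rw [Divisor.mem_degZero, h96_degree_divisorEquiv]
    exact D.2⟩
  invFun D := ⟨(h96_divisorEquiv e).symm D, by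
    rw [Divisor.mem_degZero, h96_degree_divisorEquiv_symm]
    exact D.2⟩
  left_inv D := by
    apply Subtype.ext
    simp
  right_inv D := by
    apply Subtype.ext
    simp
  map_add' D E := by
    apply Subtype.ext
    simp

@[simp]
theorem h96_coe_degZeroEquiv (e : F ≃ₐ[K] F') (D : Divisor.degZero (K := K) (F := F)) :
    (h96_degZeroEquiv e D : Divisor K F') = h96_divisorEquiv e (D : Divisor K F) := rfl

@[simp]
theorem h96_coe_degZeroEquiv_symm (e : F ≃ₐ[K] F') (D : Divisor.degZero (K := K) (F := F')) :
    ((h96_degZeroEquiv e).symm D : Divisor K F) = (h96_divisorEquiv e).symm (D : Divisor K F') :=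
  rfl

/-- `Pic⁰` of isomorphic function fields correspond. -/
def h96_pic0Equiv (e : F ≃ₐ[K] F') : Pic0 K F ≃+ Pic0 K F' :=
  QuotientAddGroup.congr _ _ (h96_degZeroEquiv e) (by
    ext D
    simp only [AddSubgroup.mem_map, AddSubgroup.mem_addSubgroupOf]
    constructor
    · rintro ⟨D0, hD0, rfl⟩
      exact (h96_mem_principal_divisorEquiv e _).mpr hD0
    · intro hD
      refine ⟨(h96_degZeroEquiv e).symm D, ?_, by simp⟩
      rw [← h96_mem_principal_divisorEquiv e, h96_coe_degZeroEquiv_symm,
        AddEquiv.apply_symm_apply]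
      exact hD)

@[simp]
theorem h96_pic0Equiv_mk (e : F ≃ₐ[K] F') (D : Divisor.degZero (K := K) (F := F)) :
    h96_pic0Equiv e (Pic0.mk D) = Pic0.mk (h96_degZeroEquiv e D) := rfl

theorem h96_mem_torsion_iff (e : F ≃ₐ[K] F') (m : ℕ) (c : Pic0 K F) :
    h96_pic0Equiv e c ∈ Pic0.torsion K F' m ↔ c ∈ Pic0.torsion K F m := by
  rw [Pic0.mem_torsion, Pic0.mem_torsion, ← map_zsmul, map_eq_zero_iff _ (h96_pic0Equiv e).injective]

/-- The torsion subgroups of `Pic⁰` of isomorphic function fields correspond. -/
def h96_torsionEquiv (e : F ≃ₐ[K] F') (m : ℕ) : Pic0.torsion K F m ≃ Pic0.torsion K F' m :=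
  (h96_pic0Equiv e).toEquiv.subtypeEquiv fun c => (h96_mem_torsion_iff e m c).symm

/-- **Transport of the torsion count.** -/
theorem h96_card_torsion (e : F ≃ₐ[K] F') (m : ℕ) :
    Nat.card (Pic0.torsion K F m) = Nat.card (Pic0.torsion K F' m) :=
  Nat.card_congr (h96_torsionEquiv e m)

/-! ### Charts, chart modules and the genus -/

theorem h96_adjoin_map (e : F ≃ₐ[K] F') (x : F) :
    (K⟮x⟯).map (e : F →ₐ[K] F') = K⟮e x⟯ := by
  rw [IntermediateField.adjoin_map, Set.image_singleton]
  rfl

/-- `K(x) ≃+* K(e x)`. -/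
def h96_adjoinEquiv (e : F ≃ₐ[K] F') (x : F) : K⟮x⟯ ≃+* K⟮e x⟯ :=
  ((IntermediateField.equivMap K⟮x⟯ (e : F →ₐ[K] F')).trans
    (IntermediateField.equivOfEq (h96_adjoin_map e x))).toRingEquiv

theorem h96_coe_adjoinEquiv (e : F ≃ₐ[K] F') (x : F) (c : K⟮x⟯) :
    ((h96_adjoinEquiv e x c : K⟮e x⟯) : F') = e (c : F) := rfl

theorem h96_adjoinEquiv_comp (e : F ≃ₐ[K] F') (x : F) :
    RingHom.comp (algebraMap K⟮e x⟯ F') (h96_adjoinEquiv e x : K⟮x⟯ →+* K⟮e x⟯) =
      RingHom.comp (e.toRingEquiv : F →+* F') (algebraMap K⟮x⟯ F) := by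
  ext c
  rfl

/-- The image of a chart under an isomorphism is a chart. -/
theorem h96_isChart_map (e : F ≃ₐ[K] F') {x : F} (hx : h75_IsChart K x) :
    h75_IsChart K (e x) := by
  have := hx.fin
  have := hx.sep
  refine ⟨fun h => hx.tr ?_, ?_, ?_⟩
  · exact (isAlgebraic_algHom_iff (e : F →ₐ[K] F') e.injective).mp h
  · exact Module.Finite.of_equiv_equiv (h96_adjoinEquiv e x) e.toRingEquiv
      (h96_adjoinEquiv_comp e x)
  · exact Algebra.IsSeparable.of_equiv_equiv (h96_adjoinEquiv e x) e.toRingEquiv
      (h96_adjoinEquiv_comp e x)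

theorem h96_isChart_map_iff (e : F ≃ₐ[K] F') {x : F} :
    h75_IsChart K (e x) ↔ h75_IsChart K x :=
  ⟨fun h => by simpa using h96_isChart_map e.symm h, h96_isChart_map e⟩

/-- The chart module `M_t(D)` is transported by `e`. -/
theorem h96_chart_map (e : F ≃ₐ[K] F') (t : F) (D : Divisor K F) :
    (h75_chart t D).map e.toLinearMap = h75_chart (e t) (h96_divisorEquiv e D) := by
  ext y
  rw [Submodule.mem_map, h75_mem_chart_iff]
  constructor
  · rintro ⟨f, hf, rfl⟩ P' hP'
    rw [h75_mem_chart_iff] at hf
    have hP : t ∈ (h96_placeMap e.symm P').toValuationSubring := by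
      rw [h96_mem_placeMap]
      simpa using hP'
    rcases hf _ hP with h0 | h0
    · left
      simp [h0]
    · right
      rw [h96_divisorEquiv_apply]
      have : P'.ord (e f) = (h96_placeMap e.symm P').ord f := by
        rw [← h96_placeMap_ord e, h96_placeMap_placeMap_symm]
      rw [AlgEquiv.toLinearMap_apply, this]
      exact h0
  · intro h
    refine ⟨e.symm y, ?_, by simp⟩
    rw [h75_mem_chart_iff]
    intro P hP
    have hP' : e t ∈ (h96_placeMap e P).toValuationSubring := (h96_apply_mem_placeMap e P t).mpr hP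
    rcases h _ hP' with h0 | h0
    · left
      simp [h0]
    · right
      rw [h96_divisorEquiv_apply_placeMap, h96_placeMap_ord'] at h0
      exact h0

/-- The overlap module is transported by `e`. -/
theorem h96_overlap_map (e : F ≃ₐ[K] F') (t : F) (D : Divisor K F) :
    (h75_overlap t D).map e.toLinearMap = h75_overlap (e t) (h96_divisorEquiv e D) := by
  ext y
  rw [Submodule.mem_map, h75_mem_overlap_iff]
  constructor
  · rintro ⟨f, hf, rfl⟩ P' hP' hP'i
    rw [h75_mem_overlap_iff] at hf
    have hP : t ∈ (h96_placeMap e.symm P').toValuationSubring := by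
      rw [h96_mem_placeMap]
      simpa using hP'
    have hPi : t⁻¹ ∈ (h96_placeMap e.symm P').toValuationSubring := by
      rw [h96_mem_placeMap]
      simpa using hP'i
    rcases hf _ hP hPi with h0 | h0
    · left
      simp [h0]
    · right
      rw [h96_divisorEquiv_apply]
      have : P'.ord (e f) = (h96_placeMap e.symm P').ord f := by
        rw [← h96_placeMap_ord e, h96_placeMap_placeMap_symm]
      rw [AlgEquiv.toLinearMap_apply, this]
      exact h0
  · intro h
    refine ⟨e.symm y, ?_, by simp⟩
    rw [h75_mem_overlap_iff]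
    intro P hP hPi
    have hP' : e t ∈ (h96_placeMap e P).toValuationSubring := (h96_apply_mem_placeMap e P t).mpr hP
    have hPi' : (e t)⁻¹ ∈ (h96_placeMap e P).toValuationSubring := by
      rw [← map_inv₀]
      exact (h96_apply_mem_placeMap e P t⁻¹).mpr hPi
    rcases h _ hP' hPi' with h0 | h0
    · left
      simp [h0]
    · right
      rw [h96_divisorEquiv_apply_placeMap, h96_placeMap_ord'] at h0
      exact h0

/-- The relative dimension is invariant under linear equivalences. -/
theorem h96_relDim_map {V V' : Type*} [AddCommGroup V] [Module K V] [AddCommGroup V']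
    [Module K V'] (φ : V ≃ₗ[K] V') (P Q : Submodule K V) :
    h75_relDim (P.map φ.toLinearMap) (Q.map φ.toLinearMap) = h75_relDim P Q := by
  unfold h75_relDim
  let ψ : (V ⧸ P) ≃ₗ[K] (V' ⧸ P.map φ.toLinearMap) := Submodule.Quotient.equiv P _ φ rfl
  have h : (Q.map φ.toLinearMap).map (P.map φ.toLinearMap).mkQ
      = (Q.map P.mkQ).map ψ.toLinearMap := by
    rw [← Submodule.map_comp, ← Submodule.map_comp]
    congr 1
  rw [h]
  exact LinearEquiv.finrank_map_eq ψ _

/-- **Transport of the genus.** -/
theorem h96_genus_map (e : F ≃ₐ[K] F') (x : F) : h75_genus K (e x) = h75_genus K x := by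
  unfold h75_genus
  have h0 : h96_divisorEquiv e (0 : Divisor K F) = 0 := map_zero _
  have h1 := h96_chart_map e x 0
  have h2 := h96_chart_map e x⁻¹ 0
  have h3 := h96_overlap_map e x 0
  rw [h0] at h1 h2 h3
  rw [map_inv₀] at h2
  rw [← h1, ← h2, ← h3, ← Submodule.map_sup]
  exact h96_relDim_map e.toLinearEquiv _ _

end Transport

/-! ### A model in the universe of the constants -/

section Model

universe u v

/-- A function field with a chart is small with respect to the universe of its constants. -/
theorem h96_small_of_chart (K : Type u) (F : Type v) [Field K] [Field F] [Algebra K F] {x : F}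
    (hx : h75_IsChart K x) : Small.{u} F := by
  have := hx.fin
  let b := Module.finBasis K⟮x⟯ F
  let g : (Fin (Module.finrank K⟮x⟯ F) → (Polynomial K × Polynomial K)) → F := fun c =>
    ∑ i, (Polynomial.aeval x (c i).1 / Polynomial.aeval x (c i).2) * b i
  have hg : Function.Surjective g := by
    intro f
    have hmem : ∀ i, ∃ rs : Polynomial K × Polynomial K,
        ((b.repr f i : K⟮x⟯) : F) = Polynomial.aeval x rs.1 / Polynomial.aeval x rs.2 := by
      intro i
      obtain ⟨r, s, h⟩ := (IntermediateField.mem_adjoin_simple_iff K _).mp (b.repr f i).2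
      exact ⟨(r, s), h⟩
    choose c hc using hmem
    refine ⟨c, ?_⟩
    show ∑ i, _ = f
    conv_rhs => rw [← b.sum_repr f]
    refine Finset.sum_congr rfl fun i _ => ?_
    rw [← hc i, Algebra.smul_def]
    rfl
  exact small_of_surjective hg

/-- A function field with a chart over `K : Type u` has a model in `Type u`. -/
theorem h96_exists_model (K : Type u) (F : Type v) [Field K] [Field F] [Algebra K F] {x : F}
    (hx : h75_IsChart K x) :
    ∃ (F' : Type u) (_ : Field F') (_ : Algebra K F'), Nonempty (F ≃ₐ[K] F') := by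
  have := h96_small_of_chart K F hx
  exact ⟨Shrink.{u} F, inferInstance, inferInstance, ⟨(Shrink.algEquiv K F).symm⟩⟩

/-- **Universe transport of the count.** If the torsion count holds for all function fields
over `K` living in the universe of `K`, it holds for all function fields over `K`.
(The hypothesis and the conclusion are `h15_Good K _ ℓ` unfolded.) -/
theorem h96_good_of_models (ℓ : ℕ) (K : Type u) (F : Type v) [Field K] [Field F] [Algebra K F]
    (h : ∀ (F' : Type u) [Field F'] [Algebra K F'], ∀ x' : F', h75_IsChart K x' → ∀ j : ℕ,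
      Nat.card (Pic0.torsion K F' (ℓ ^ j)) = ℓ ^ (2 * h75_genus K x' * j)) :
    ∀ x : F, h75_IsChart K x → ∀ j : ℕ,
      Nat.card (Pic0.torsion K F (ℓ ^ j)) = ℓ ^ (2 * h75_genus K x * j) := by
  intro x hx j
  obtain ⟨F', _, _, ⟨e⟩⟩ := h96_exists_model K F hx
  rw [h96_card_torsion e, h F' (e x) (h96_isChart_map e hx) j, h96_genus_map]

end Model

end Fermat.Agent.S27
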