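/-
S27 / B8a WEIL, W4 NORM-FIBRE (helper97): step (D) DENOMINATORS + ASSEMBLY, in hypothesis form.

`h6_NormFibre K h f` for every `f ≠ 0` follows from the two facts about the norm of an element
of the chart ring `B = h75_ringB K h` (the integral closure of `A = K[h]`):
* (F2) ORDERS: `ord_a N(b) = ∑_{P | a} ord_P b`;
* (F1) VALUE : `N(b)(0) = ∏_{P | 0} b(P) ^ e_P` when `b` is a unit along the fibre over `0`;
and from `N_{F/K(h)} b = N_{B/A} b`.
-/
import Fermat.Agent.S27.h6w_Defs

set_option autoImplicit false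

noncomputable section

open AlgebraicCurve IntermediateField Polynomial

namespace Fermat.Agent.S27

open Fermat.Agent.S18 Fermat.Agent.S24

variable {K F : Type*} [Field K] [Field F] [Algebra K F]

/-- the value of a polynomial in `h` at a place where `h` has the value `a` -/
theorem h97_val_aeval (P : Place K F) {h : F} {a : K} (hv : h39_Val P h a) (c : Polynomial K) :
    h39_Val P (aeval h c) (c.eval a) := by
  induction c using Polynomial.induction_on with
  | C b =>
    rw [aeval_C, eval_C]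
    exact h39_val_algebraMap P b
  | add p q hp hq =>
    rw [map_add, eval_add]
    exact h39_val_add P hp hq
  | monomial n b ih =>
    rw [pow_succ, ← mul_assoc, map_mul, eval_mul, aeval_X, eval_X]
    exact h39_val_mul P ih hv

/-- a polynomial in `h` lies in `K[h]` -/
theorem h97_aeval_mem_ringA (h : F) (c : Polynomial K) : aeval h c ∈ h75_ringA K h :=
  Polynomial.aeval_mem_adjoin_singleton K h

/-- a nonzero polynomial in a chart function is nonzero -/
theorem h97_aeval_ne_zero {h : F} (hh : h75_IsChart K h) {c : Polynomial K} (hc : c ≠ 0) :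
    aeval h c ≠ 0 := fun h0 => hc ((transcendental_iff.mp hh.tr) c h0)

/-- (D) DENOMINATORS: `f = b / c0(h)` with `b` in the chart ring and the roots of `c0` lying
under the finite poles of `f`. -/
theorem h97_exists_denom [IsAlgClosed K] {h : F} (hh : h75_IsChart K h) (f : F) (hf : f ≠ 0) :
    ∃ c0 : Polynomial K, c0 ≠ 0 ∧ f * aeval h c0 ∈ h75_ringB K h ∧
      ∀ a : K, c0.eval a = 0 →
        ∃ P : Place K F, 0 < P.ord (h - algebraMap K F a) ∧ P.ord f < 0 := by
  classical
  set T : Finset (Place K F) := (h75_finite_ord_ne_chart hh f hf).toFinset with hT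
  have hTmem : ∀ P : Place K F, P ∈ T ↔ h ∈ P.toValuationSubring ∧ P.ord f ≠ 0 := by
    intro P
    rw [hT, Set.Finite.mem_toFinset]
    rfl
  let val : Place K F → K := fun P =>
    if hP : h ∈ P.toValuationSubring then (h75_exists_value hh P hP).choose else 0
  have hval : ∀ P : Place K F, h ∈ P.toValuationSubring →
      0 < P.ord (h - algebraMap K F (val P)) := by
    intro P hP
    show 0 < P.ord (h - algebraMap K F
      (if hP : h ∈ P.toValuationSubring then (h75_exists_value hh P hP).choose else 0))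
    rw [dif_pos hP]
    exact (h75_exists_value hh P hP).choose_spec
  let fac : Place K F → Polynomial K := fun P => (X - C (val P)) ^ (-(P.ord f)).toNat
  have hfac0 : ∀ P : Place K F, fac P ≠ 0 := fun P => pow_ne_zero _ (X_sub_C_ne_zero _)
  refine ⟨∏ P ∈ T, fac P, Finset.prod_ne_zero_iff.mpr (fun P _ => hfac0 P), ?_, ?_⟩
  · -- membership in `B`
    rw [h75_mem_ringB_iff, h75_isIntegral_iff hh]
    intro Q hQ
    by_cases hneg : 0 ≤ Q.ord f
    · exact Q.toValuationSubring.mul_mem _ _ ((h35_mem_iff_ord_nonneg Q hf).mpr hneg)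
        (h75_ringA_le Q hQ _ (h97_aeval_mem_ringA h _))
    · push Not at hneg
      have hQT : Q ∈ T := (hTmem Q).mpr ⟨hQ, hneg.ne⟩
      rw [← Finset.mul_prod_erase T fac hQT, map_mul, ← mul_assoc]
      refine Q.toValuationSubring.mul_mem _ _ ?_
        (h75_ringA_le Q hQ _ (h97_aeval_mem_ringA h _))
      have hne : h - algebraMap K F (val Q) ≠ 0 := by
        intro h0
        have := hval Q hQ
        rw [h0, Q.ord_zero] at this
        exact lt_irrefl _ this
      have hfacQ : aeval h (fac Q) = (h - algebraMap K F (val Q)) ^ (-(Q.ord f)).toNat := by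
        show aeval h ((X - C (val Q)) ^ (-(Q.ord f)).toNat) = _
        rw [map_pow, map_sub, aeval_X, aeval_C]
      have hpow0 : (h - algebraMap K F (val Q)) ^ (-(Q.ord f)).toNat ≠ 0 := pow_ne_zero _ hne
      rw [hfacQ, h35_mem_iff_ord_nonneg Q (mul_ne_zero hf hpow0), Q.ord_mul hf hpow0,
        ← zpow_natCast, Q.ord_zpow]
      have h1 := hval Q hQ
      have h2 : ((-(Q.ord f)).toNat : ℤ) = -(Q.ord f) := Int.toNat_of_nonneg (by omega)
      rw [h2]
      nlinarith
  · -- the roots
    intro a ha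
    rw [eval_prod, Finset.prod_eq_zero_iff] at ha
    obtain ⟨P, hPT, hP0⟩ := ha
    have hP0' : (a - val P) ^ (-(P.ord f)).toNat = 0 := by
      have : eval a (fac P) = (a - val P) ^ (-(P.ord f)).toNat := by
        show eval a ((X - C (val P)) ^ (-(P.ord f)).toNat) = _
        rw [eval_pow, eval_sub, eval_X, eval_C]
      rw [← this]
      exact hP0
    have hm : (-(P.ord f)).toNat ≠ 0 := by
      intro h0
      rw [h0, pow_zero] at hP0'
      exact one_ne_zero hP0'
    have hav : a = val P := sub_eq_zero.mp (pow_eq_zero_iff hm |>.mp hP0')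
    refine ⟨P, ?_, ?_⟩
    · rw [hav]
      exact hval P ((hTmem P).mp hPT).1
    · by_contra hcon
      apply hm
      rw [Int.toNat_eq_zero]
      omega

/-- **W4, assembly**: the norm data `h6_NormFibre K h f` for every `f ≠ 0`, from (F1), (F2) for
elements of the chart ring. -/
theorem h97_normFibre_of [IsAlgClosed K] {h : F} (hh : h75_IsChart K h)
    (hfield : ∀ b : h75_ringB K h, ((Algebra.norm K⟮h⟯ (b : F) : K⟮h⟯) : F)
      = ((Algebra.norm (h75_ringA K h) b : h75_ringA K h) : F))
    (hF2 : ∀ (b : h75_ringB K h), b ≠ 0 → ∀ r : Polynomial K,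
      Polynomial.aeval h r = ((Algebra.norm (h75_ringA K h) b : h75_ringA K h) : F) →
      ∀ (a : K) (S : Finset (Place K F)), (∀ P, P ∈ S ↔ 0 < P.ord (h - algebraMap K F a)) →
        (r.rootMultiplicity a : ℤ) = ∑ P ∈ S, P.ord (b : F))
    (hF1 : ∀ (b : h75_ringB K h), b ≠ 0 → ∀ r : Polynomial K,
      Polynomial.aeval h r = ((Algebra.norm (h75_ringA K h) b : h75_ringA K h) : F) →
      ∀ S : Finset (Place K F), (∀ P, P ∈ S ↔ 0 < P.ord h) → (∀ P ∈ S, P.ord (b : F) = 0) →
      ∀ vb : Place K F → K, (∀ P ∈ S, h39_Val P (b : F) (vb P)) →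
        r.eval 0 = ∏ P ∈ S, vb P ^ (P.ord h).toNat)
    (f : F) (hf : f ≠ 0) : h6_NormFibre K h f := by
  classical
  have hfin := hh.fin
  have hfree := h75_ringB_free hh
  have hfinB := h75_ringB_finite hh
  obtain ⟨c0, hc0, hbmem, hroot⟩ := h97_exists_denom hh f hf
  have hc0h : aeval h c0 ≠ 0 := h97_aeval_ne_zero hh hc0
  -- the numerator `b` and the denominator `c`, as elements of `B`
  obtain ⟨b, hbdef⟩ : ∃ b : h75_ringB K h, (b : F) = f * aeval h c0 := ⟨⟨_, hbmem⟩, rfl⟩
  have hb0 : b ≠ 0 := by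
    intro h0
    rw [h0] at hbdef
    exact mul_ne_zero hf hc0h hbdef.symm
  obtain ⟨cA, hcA⟩ : ∃ cA : h75_ringA K h, (cA : F) = aeval h c0 :=
    ⟨⟨_, h97_aeval_mem_ringA h c0⟩, rfl⟩
  obtain ⟨c, hcdef⟩ : ∃ c : h75_ringB K h, c = algebraMap (h75_ringA K h) (h75_ringB K h) cA :=
    ⟨_, rfl⟩
  have hcF : (c : F) = aeval h c0 := by
    rw [hcdef, ← hcA]
    rfl
  have hc0' : c ≠ 0 := by
    intro h0
    rw [h0] at hcF
    exact hc0h hcF.symm
  -- the norm polynomials
  obtain ⟨r, hr⟩ : ∃ r : Polynomial K,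
      aeval h r = ((Algebra.norm (h75_ringA K h) b : h75_ringA K h) : F) := by
    have hmem : ((Algebra.norm (h75_ringA K h) b : h75_ringA K h) : F)
        ∈ (Polynomial.aeval h : Polynomial K →ₐ[K] F).range := by
      rw [← Algebra.adjoin_singleton_eq_range_aeval]
      exact (Algebra.norm (h75_ringA K h) b).2
    exact hmem
  have hcnorm : aeval h (c0 ^ Module.finrank K⟮h⟯ F)
      = ((Algebra.norm (h75_ringA K h) c : h75_ringA K h) : F) := by
    rw [hcdef, Algebra.norm_algebraMap_of_basis
      (Module.Free.chooseBasis (h75_ringA K h) (h75_ringB K h)) cA,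
      ← Module.finrank_eq_card_chooseBasisIndex, ← h75_ringB_finrank hh, map_pow,
      SubmonoidClass.coe_pow, hcA]
  have hr0 : r ≠ 0 := by
    rintro rfl
    rw [map_zero] at hr
    have h1 := hfield b
    rw [← hr] at h1
    have h2 : Algebra.norm K⟮h⟯ (b : F) = 0 := by
      apply Subtype.ext
      rw [h1]
      rfl
    rw [Algebra.norm_eq_zero_iff] at h2
    rw [hbdef] at h2
    exact mul_ne_zero hf hc0h h2
  refine ⟨r, c0 ^ Module.finrank K⟮h⟯ F, hr0, pow_ne_zero _ hc0, ?_, ?_, ?_⟩
  · -- the norm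
    rw [hcnorm, ← hfield c, hr, ← hfield b, hbdef, hcF, map_mul]
    rfl
  · -- the orders
    intro a S hS
    have h1 := hF2 b hb0 r hr a S hS
    have h2 := hF2 c hc0' _ hcnorm a S hS
    rw [h1, h2, ← Finset.sum_sub_distrib]
    refine Finset.sum_congr rfl (fun P _ => ?_)
    rw [hbdef, hcF, P.ord_mul hf hc0h]
    ring
  · -- the value
    intro S hS hunit vf hvf
    have hc00 : c0.eval 0 ≠ 0 := by
      intro h0
      obtain ⟨P, hP1, hP2⟩ := hroot 0 h0
      rw [map_zero, sub_zero] at hP1
      have := hunit P ((hS P).mpr hP1)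
      omega
    have hvc : ∀ P ∈ S, h39_Val P (c : F) (c0.eval 0) := by
      intro P hP
      rw [hcF]
      refine h97_val_aeval P (Or.inr ?_) c0
      rw [map_zero, sub_zero]
      exact (hS P).mp hP
    have hordc : ∀ P ∈ S, P.ord (c : F) = 0 :=
      fun P hP => h39_ord_eq_zero_of_val P (hvc P hP) hc00
    have hvb : ∀ P ∈ S, h39_Val P (b : F) (vf P * c0.eval 0) := by
      intro P hP
      rw [hbdef, ← hcF]
      exact h39_val_mul P (hvf P hP) (hvc P hP)
    have hordb : ∀ P ∈ S, P.ord (b : F) = 0 := by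
      intro P hP
      rw [hbdef, P.ord_mul hf hc0h, hunit P hP, ← hcF, hordc P hP, add_zero]
    have h1 := hF1 b hb0 r hr S hS hordb (fun P => vf P * c0.eval 0) hvb
    have h2 := hF1 c hc0' _ hcnorm S hS hordc (fun _ => c0.eval 0) hvc
    have hvf0 : ∀ P ∈ S, vf P ≠ 0 := by
      intro P hP h0
      have h3 := hvf P hP
      rw [h0, h39_val_zero_iff] at h3
      rcases h3 with h3 | h3
      · exact hf h3
      · have := hunit P hP
        omega
    have hs0 : (c0 ^ Module.finrank K⟮h⟯ F).eval 0 ≠ 0 := by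
      rw [eval_pow]
      exact pow_ne_zero _ hc00
    have hr1 : r.eval 0 = (c0 ^ Module.finrank K⟮h⟯ F).eval 0
        * ∏ P ∈ S, vf P ^ (P.ord h).toNat := by
      rw [h1, h2, ← Finset.prod_mul_distrib]
      exact Finset.prod_congr rfl (fun P _ => by rw [mul_pow, mul_comm])
    refine ⟨?_, hs0, hr1⟩
    rw [hr1]
    exact mul_ne_zero hs0 (Finset.prod_ne_zero_iff.mpr (fun P hP => pow_ne_zero _ (hvf0 P hP)))

end Fermat.Agent.S27
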