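import Mathlib

/-!
# S27 / B3 RIGID, row (P): places with values in an algebraically closed subfield

`h9_exists_const_place`: for an algebraically closed subfield `K0` of a field `K` there is a
valuation ring `A` of `K` containing `K0` and a ring homomorphism `res : A → K0` which is the
identity on `K0` (a `K0`-valued place of `K` over `K0`; Chevalley's extension theorem).
No rank condition.  Mathlib only.

Proof: Zorn on graphs of partial places inside `K × K0`; a maximal partial place `(R, φ)` is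
dominated by a valuation ring `B` (Mathlib), and every `x ∈ B` extends `φ` because
`1 ∉ (ker φ) R[x]` and `K0` is algebraically closed; so `B = R`.
-/

set_option autoImplicit false

open Polynomial

namespace Fermat.Agent.S27

section ConstPlace

variable {K : Type*} [Field K] (K0 : Subfield K)

/-- Graphs of partial places `K ⊇ R → K0` restricting to the identity on `K0`. -/
def h9_IsPP (Γ : Subring (K × K0)) : Prop :=
  (∀ c : K0, ((c : K), c) ∈ Γ) ∧ ∀ p ∈ Γ, p.1 = 0 → p.2 = 0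

theorem h9_pp_exists_max : ∃ Γ : Subring (K × K0), Maximal (h9_IsPP K0) Γ := by
  have h0 : h9_IsPP K0 ((RingHom.prod K0.subtype (RingHom.id K0)).range) := by
    refine ⟨fun a => ⟨a, rfl⟩, ?_⟩
    rintro p ⟨a, rfl⟩ h1
    simpa using h1
  have hch : ∀ c ⊆ {Γ : Subring (K × K0) | h9_IsPP K0 Γ}, IsChain (· ≤ ·) c → ∀ y ∈ c,
      ∃ ub ∈ {Γ : Subring (K × K0) | h9_IsPP K0 Γ}, ∀ z ∈ c, z ≤ ub := by
    intro c hc hchain y hy
    refine ⟨sSup c, ⟨fun a => ?_, fun p hp h1 => ?_⟩, fun z hz => le_sSup hz⟩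
    · exact (Subring.mem_sSup_of_directedOn ⟨y, hy⟩ hchain.directedOn).mpr ⟨y, hy, (hc hy).1 a⟩
    · obtain ⟨s, hs, hps⟩ := (Subring.mem_sSup_of_directedOn ⟨y, hy⟩ hchain.directedOn).mp hp
      exact (hc hs).2 p hps h1
  obtain ⟨m, -, hm⟩ := zorn_le_nonempty₀ _ hch _ h0
  exact ⟨m, hm⟩

/-- Extension of a partial place to `x` with value `a`. -/
theorem h9_pp_extend {Γ : Subring (K × K0)} (hΓ : h9_IsPP K0 Γ) (x : K) (a : K0)
    (h : ∀ P : Polynomial Γ, (P.map ((RingHom.fst K K0).comp Γ.subtype)).eval x = 0 →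
      (P.map ((RingHom.snd K K0).comp Γ.subtype)).eval a = 0) :
    ∃ Γ' : Subring (K × K0), h9_IsPP K0 Γ' ∧ Γ ≤ Γ' ∧ (x, a) ∈ Γ' := by
  let ψ : Polynomial Γ →+* K × K0 :=
    RingHom.prod ((evalRingHom x).comp (mapRingHom ((RingHom.fst K K0).comp Γ.subtype)))
      ((evalRingHom a).comp (mapRingHom ((RingHom.snd K K0).comp Γ.subtype)))
  refine ⟨ψ.range, ⟨fun c => ?_, ?_⟩, ?_, ?_⟩
  · refine ⟨C ⟨((c : K), c), hΓ.1 c⟩, ?_⟩
    simp [ψ]
  · rintro p ⟨P, rfl⟩ h1
    have h1' : (P.map ((RingHom.fst K K0).comp Γ.subtype)).eval x = 0 := by simpa [ψ] using h1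
    simpa [ψ] using h P h1'
  · intro p hp
    refine ⟨C ⟨p, hp⟩, ?_⟩
    simp [ψ]
  · refine ⟨X, ?_⟩
    simp [ψ]

/-- If `1 ∉ (ker φ) R[x]` the partial place has a value at `x`. -/
theorem h9_pp_value [IsAlgClosed K0] {Γ : Subring (K × K0)} (hΓ : h9_IsPP K0 Γ) (x : K)
    (hx : ¬ ∃ P : Polynomial Γ, (P.map ((RingHom.fst K K0).comp Γ.subtype)).eval x = 0 ∧
      P.map ((RingHom.snd K K0).comp Γ.subtype) = 1) :
    ∃ a : K0, ∀ P : Polynomial Γ, (P.map ((RingHom.fst K K0).comp Γ.subtype)).eval x = 0 →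
      (P.map ((RingHom.snd K K0).comp Γ.subtype)).eval a = 0 := by
  have hsurj : Function.Surjective ((RingHom.snd K K0).comp Γ.subtype) :=
    fun c => ⟨⟨((c : K), c), hΓ.1 c⟩, rfl⟩
  let I : Ideal (Polynomial Γ) :=
    RingHom.ker ((evalRingHom x).comp (mapRingHom ((RingHom.fst K K0).comp Γ.subtype)))
  let J : Ideal (Polynomial K0) := Ideal.map (mapRingHom ((RingHom.snd K K0).comp Γ.subtype)) I
  have hmemJ : ∀ P : Polynomial Γ, (P.map ((RingHom.fst K K0).comp Γ.subtype)).eval x = 0 →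
      P.map ((RingHom.snd K K0).comp Γ.subtype) ∈ J := by
    intro P hP
    have : P ∈ I := by
      simpa [I, RingHom.mem_ker] using hP
    exact Ideal.mem_map_of_mem (mapRingHom ((RingHom.snd K K0).comp Γ.subtype)) this
  have hJ : J ≠ ⊤ := by
    intro htop
    have h1 : (1 : Polynomial K0) ∈ J := htop ▸ Submodule.mem_top
    obtain ⟨P, hP, hP1⟩ := (Ideal.mem_map_iff_of_surjective
      (mapRingHom ((RingHom.snd K K0).comp Γ.subtype))
      (Polynomial.map_surjective _ hsurj)).mp h1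
    exact hx ⟨P, by simpa [I, RingHom.mem_ker] using hP, hP1⟩
  have hprin : Submodule.IsPrincipal J := IsPrincipalIdealRing.principal J
  obtain ⟨f, hf⟩ : ∃ f : Polynomial K0, J = Ideal.span {f} :=
    ⟨_, (Ideal.span_singleton_generator J).symm⟩
  by_cases hf0 : f = 0
  · refine ⟨0, fun P hP => ?_⟩
    have h2 := hmemJ P hP
    rw [hf, hf0, Ideal.mem_span_singleton, zero_dvd_iff] at h2
    rw [h2, eval_zero]
  · have hdeg : f.degree ≠ 0 := by
      intro hd
      apply hJ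
      rw [hf]
      exact Ideal.span_singleton_eq_top.mpr (Polynomial.isUnit_iff_degree_eq_zero.mpr hd)
    obtain ⟨a, ha⟩ := IsAlgClosed.exists_root f hdeg
    refine ⟨a, fun P hP => ?_⟩
    have h2 := hmemJ P hP
    rw [hf, Ideal.mem_span_singleton] at h2
    obtain ⟨g, hg⟩ := h2
    rw [hg, eval_mul, ha, zero_mul]

/-- **Chevalley.** A `K0`-valued place of `K` over an algebraically closed subfield `K0`:
a valuation ring `A ⊇ K0` of `K` with a ring homomorphism `res : A → K0` which is the identity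
on `K0`. -/
theorem h9_exists_const_place [IsAlgClosed K0] :
    ∃ (A : ValuationSubring K) (res : A →+* K0),
      ∀ c : K0, ∃ h : (c : K) ∈ A, res ⟨c, h⟩ = c := by
  obtain ⟨Γ, hΓ, hmax⟩ := h9_pp_exists_max K0
  have key : ∀ x : K,
      (¬ ∃ P : Polynomial Γ, (P.map ((RingHom.fst K K0).comp Γ.subtype)).eval x = 0 ∧
        P.map ((RingHom.snd K K0).comp Γ.subtype) = 1) → ∃ a : K0, (x, a) ∈ Γ := by
    intro x hx
    obtain ⟨a, ha⟩ := h9_pp_value K0 hΓ x hx
    obtain ⟨Γ', hΓ', hle, hmem⟩ := h9_pp_extend K0 hΓ x a ha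
    exact ⟨a, hmax hΓ' hle hmem⟩
  let R : Subring K := Γ.map (RingHom.fst K K0)
  let e0 : Γ →+* R := ((RingHom.fst K K0).comp Γ.subtype).codRestrict R
    (fun p => ⟨p.1, p.2, rfl⟩)
  have he0 : Function.Bijective e0 := by
    constructor
    · rw [injective_iff_map_eq_zero]
      intro p hp
      have h1 : (p : K × K0).1 = 0 := congrArg Subtype.val hp
      exact Subtype.ext (Prod.ext h1 (hΓ.2 p p.2 h1))
    · rintro ⟨x, p, hp, rfl⟩
      exact ⟨⟨p, hp⟩, rfl⟩
  let e : Γ ≃+* R := RingEquiv.ofBijective e0 he0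
  let φ : R →+* K0 := ((RingHom.snd K K0).comp Γ.subtype).comp (e.symm : R →+* Γ)
  have hφ : ∀ (p : K × K0) (hp : p ∈ Γ), φ ⟨p.1, ⟨p, hp, rfl⟩⟩ = p.2 := by
    intro p hp
    have h1 : e.symm ⟨p.1, ⟨p, hp, rfl⟩⟩ = ⟨p, hp⟩ := by
      rw [RingEquiv.symm_apply_eq]
      rfl
    show ((e.symm ⟨p.1, ⟨p, hp, rfl⟩⟩ : Γ) : K × K0).2 = p.2
    rw [h1]
  let 𝔪 : Ideal R := RingHom.ker φ
  have h𝔪 : 𝔪.IsPrime := RingHom.ker_isPrime φ
  obtain ⟨B, hle, hloc⟩ := (LocalSubring.ofPrime R 𝔪).exists_le_valuationSubring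
  have hRS : R ≤ B.toLocalSubring.toSubring := (LocalSubring.le_ofPrime R 𝔪).trans hle
  let θ : Γ →+* B.toLocalSubring.toSubring :=
    ((RingHom.fst K K0).comp Γ.subtype).codRestrict B.toLocalSubring.toSubring
      (fun p => hRS ⟨p.1, p.2, rfl⟩)
  let ρ : B.toLocalSubring.toSubring →+* IsLocalRing.ResidueField B.toLocalSubring.toSubring :=
    IsLocalRing.residue B.toLocalSubring.toSubring
  let dg : K0 →+* Γ :=
    (RingHom.prod K0.subtype (RingHom.id K0)).codRestrict Γ (fun c => hΓ.1 c)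
  have hzero : ∀ q : Γ, (q : K × K0).2 = 0 → ρ (θ q) = 0 := by
    intro q hq
    have hq𝔪 : (⟨(q : K × K0).1, ⟨q, q.2, rfl⟩⟩ : R) ∈ 𝔪 := by
      show φ _ = 0
      rw [hφ q q.2, hq]
    have hmax' : algebraMap R (LocalSubring.ofPrime R 𝔪).toSubring
        ⟨(q : K × K0).1, ⟨q, q.2, rfl⟩⟩ ∈
          IsLocalRing.maximalIdeal (LocalSubring.ofPrime R 𝔪).toSubring :=
      (IsLocalization.AtPrime.to_map_mem_maximal_iff _ 𝔪 _).mpr hq𝔪
    have hnu : ¬ IsUnit (θ q) := by
      intro hu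
      have hu' : IsUnit (Subring.inclusion hle (algebraMap R (LocalSubring.ofPrime R 𝔪).toSubring
          ⟨(q : K × K0).1, ⟨q, q.2, rfl⟩⟩)) := hu
      exact hmax' (hloc.map_nonunit _ hu')
    exact (IsLocalRing.residue_eq_zero_iff _).mpr ((IsLocalRing.mem_maximalIdeal _).mpr hnu)
  have hρθ : ρ.comp θ = ((ρ.comp θ).comp dg).comp ((RingHom.snd K K0).comp Γ.subtype) := by
    ext q
    have hsub : ρ (θ (q - dg (q : K × K0).2)) = 0 := by
      apply hzero
      show (q : K × K0).2 - (q : K × K0).2 = 0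
      exact sub_self _
    rw [map_sub, map_sub, sub_eq_zero] at hsub
    exact hsub
  have hSR : ∀ x ∈ B.toLocalSubring.toSubring, ∃ a : K0, (x, a) ∈ Γ := by
    intro x hx
    apply key
    rintro ⟨P, hP0, hP1⟩
    have h1 : (P.map θ).eval (⟨x, hx⟩ : B.toLocalSubring.toSubring) = 0 := by
      apply Subtype.ext
      have h := Polynomial.hom_eval₂ P θ B.toLocalSubring.toSubring.subtype ⟨x, hx⟩
      rw [eval_map]
      rw [eval_map] at hP0
      exact h.trans hP0
    have h2 : ρ ((P.map θ).eval (⟨x, hx⟩ : B.toLocalSubring.toSubring)) = 1 := by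
      rw [eval_map, Polynomial.hom_eval₂, hρθ, ← Polynomial.eval₂_map, hP1, eval₂_one]
    rw [h1, map_zero] at h2
    exact zero_ne_one h2
  have hSleR : B.toLocalSubring.toSubring ≤ R := by
    intro x hx
    obtain ⟨a, ha⟩ := hSR x hx
    exact ⟨(x, a), ha, rfl⟩
  refine ⟨B, φ.comp (B.subtype.codRestrict R (fun b => hSleR b.2)), fun c => ?_⟩
  have hcB : (c : K) ∈ B := hRS ⟨((c : K), c), hΓ.1 c, rfl⟩
  exact ⟨hcB, hφ ((c : K), c) (hΓ.1 c)⟩

/-- The same, unbundled: `res` is surjective, `K0 ⊆ A`, and `res` is the identity on `K0`. -/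
theorem h9_exists_const_place' [IsAlgClosed K0] :
    ∃ (A : ValuationSubring K) (res : A →+* K0), Function.Surjective res ∧
      (∀ c : K0, (c : K) ∈ A) ∧ ∀ (c : K0) (h : (c : K) ∈ A), res ⟨c, h⟩ = c := by
  obtain ⟨A, res, h⟩ := h9_exists_const_place K0
  refine ⟨A, res, fun c => ?_, fun c => (h c).1, fun c hc => ?_⟩
  · obtain ⟨hc, hres⟩ := h c
    exact ⟨⟨c, hc⟩, hres⟩
  · obtain ⟨_, hres⟩ := h c
    exact hres

end ConstPlace

end Fermat.Agent.S27
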